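import Fermat.Agent.ES.HauptL
import Fermat.Agent.ES.InstCoord
import Fermat.Agent.ES.QEChart2

/-!
# S36, G-REG, [C5] : the relation between `j` and the coordinate at the cusps

`CuspRel X` : `j x ^ a = P(x)` with `a ≥ 1` and `P(0)` a unit: the zeros of `x` are cusps.
`t₂` : `j t² = (t + 256)³`, `j y = (1 + 256 y)³`;
`t₃` : `j t³ = (t + 27)(t + 243)³`, `j y = (1 + 27 y)(1 + 243 y)³` (`y = 1 / t`).
-/

set_option autoImplicit false
set_option linter.unusedSectionVars false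

noncomputable section

namespace Fermat.Agent.S36

open ModularCurve Polynomial
open Fermat.Agent.ES Fermat.Agent.ES.QE Fermat.Agent.ES.Inst Fermat.Agent.ES.T23
open Fermat.Agent.S24 AlgebraicCurve

/-- the relation over `ℤ` for a series `x`. -/
def ZRel (ℓ : ℕ) (x : LaurentSeries ℤ) : Prop :=
  ∃ a : ℕ, 1 ≤ a ∧ ∃ P : ℤ[X], ¬ (ℓ : ℤ) ∣ P.eval 0 ∧ jqModC ℤ * x ^ a = evS x P

/-- the relation for the coordinate and for its inverse. -/
def ZCuspRel {N ℓ : ℕ} (Z : ZCoord N ℓ) : Prop := ZRel ℓ Z.xZ ∧ ZRel ℓ Z.yZ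

section Abs

variable {R K k : Type*} [CommRing R] [IsDomain R] [IsNoetherianRing R] [IsIntegrallyClosed R]
  [Field K] [Algebra R K] [IsFractionRing R K] [Field k] {D : QData R K k}

/-- **`j x ^ a = P(x)`, `a ≥ 1`, `P(0)` a unit.** -/
def CuspRel (X : D.Coord) : Prop :=
  ∃ a : ℕ, 1 ≤ a ∧ ∃ P : R[X], D.res (P.eval 0) ≠ 0 ∧ jqModC R * X.xW ^ a = evS X.xW P

/-- transport of the relation from `ℤ` to `R`. -/
theorem cuspRel_of_zRel (q : ℕ) [CharP k q] (X : D.Coord) (x : LaurentSeries ℤ)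
    (hx : X.xW = zS R x) (h : ZRel q x) : CuspRel X := by
  obtain ⟨a, ha, P, hP, e⟩ := h
  refine ⟨a, ha, P.map (Int.castRingHom R), ?_, ?_⟩
  · rw [eval_zero_map, eq_intCast, map_intCast]
    intro h0
    exact hP ((CharP.intCast_eq_zero_iff k q _).1 h0)
  · have := congrArg (zS R) e
    rw [show zS R (evS x P) = evS (zS R x) (P.map (Int.castRingHom R)) from coeffMap_evS _ _ _,
      ← hx] at this
    rw [← this]
    show _ = coeffMap (Int.castRingHom R) (jqModC ℤ * x ^ a)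
    rw [map_mul, map_pow, coeffMap_jqModC, hx]
    rfl

/-- both charts. -/
theorem cuspRel_of_zCuspRel {N q : ℕ} [CharP k q] (Z : ZCoord N q) (hZ : ZCuspRel Z)
    (X : D.Coord) (y : LaurentSeries R) (hxy : X.xW * y = 1)
    (hX : X.xW = zS R Z.xZ) (hy : y = zS R Z.yZ) :
    CuspRel X ∧ CuspRel (X.inv y hxy) :=
  ⟨cuspRel_of_zRel q X _ hX hZ.1, cuspRel_of_zRel q (X.inv y hxy) _ hy hZ.2⟩

end Abs

/-- the relation for `1 / x` from the relation for `x`. -/
theorem zRel_inv_aux {x y : LaurentSeries ℤ} (hxy : x * y = 1) {a d : ℕ} (had : a < d)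
    {u v : LaurentSeries ℤ} (h : jqModC ℤ * x ^ a = u) (huv : u * y ^ d = v) :
    jqModC ℤ * y ^ (d - a) = v := by
  obtain ⟨e, rfl⟩ := Nat.exists_eq_add_of_lt had
  have e1 : a + e + 1 - a = e + 1 := by omega
  rw [e1, ← huv, ← h]
  have e2 : y ^ (a + e + 1) = y ^ a * y ^ (e + 1) := by rw [← pow_add, add_assoc]
  rw [e2]
  calc jqModC ℤ * y ^ (e + 1) = jqModC ℤ * (x * y) ^ a * y ^ (e + 1) := by
        rw [hxy, one_pow, mul_one]
    _ = _ := by rw [mul_pow]; ring

theorem zCuspRel_two (N ℓ : ℕ) (hℓ : ℓ.Prime) (hℓ2 : ℓ ≠ 2)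
    (hmem : tR Kb 2 ∈ modularFunctionFieldBar N) : ZCuspRel (zCoord2L N ℓ hℓ hℓ2 hmem) := by
  have hrel : jqModC ℤ * tq 2 ^ 2 = (tq 2 + HahnSeries.C 256) ^ 3 := by
    have := rel_t2
    rwa [map_pow, map_pow, map_add, evS_X, evS_C] at this
  have hxy : tq 2 * tqInv 2 = 1 := tq_mul_tqInv (by norm_num)
  constructor
  · refine ⟨2, by norm_num, (X + C 256) ^ 3, ?_, ?_⟩
    · have := not_dvd_pow_of_ne hℓ Nat.prime_two hℓ2 24
      simp only [eval_pow, eval_add, eval_X, eval_C, zero_add]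
      norm_num at this ⊢
      exact this
    · show jqModC ℤ * tq 2 ^ 2 = _
      rw [map_pow, map_add, evS_X, evS_C]
      exact hrel
  · refine ⟨1, le_rfl, (1 + C 256 * X) ^ 3, ?_, ?_⟩
    · simp only [eval_pow, eval_add, eval_one, eval_mul, eval_C, eval_X, mul_zero, add_zero,
        one_pow]
      intro h
      have := Int.eq_one_of_dvd_one (by positivity) h
      exact hℓ.one_lt.ne' (by exact_mod_cast this)
    · show jqModC ℤ * tqInv 2 ^ 1 = _
      rw [map_pow, map_add, map_one, map_mul, evS_X, evS_C]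
      refine zRel_inv_aux hxy (a := 2) (d := 3) (by norm_num) hrel ?_
      rw [← mul_pow, add_mul, hxy]
      rfl

theorem zCuspRel_three (N ℓ : ℕ) (hℓ : ℓ.Prime) (hℓ3 : ℓ ≠ 3)
    (hmem : tR Kb 3 ∈ modularFunctionFieldBar N) : ZCuspRel (zCoord3L N ℓ hℓ hℓ3 hmem) := by
  have hrel : jqModC ℤ * tq 3 ^ 3
      = (tq 3 + HahnSeries.C 27) * (tq 3 + HahnSeries.C 243) ^ 3 := by
    have := rel_t3
    rwa [map_pow, map_mul, map_pow, map_add, map_add, evS_X, evS_C, evS_C] at this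
  have hxy : tq 3 * tqInv 3 = 1 := tq_mul_tqInv (by norm_num)
  constructor
  · refine ⟨3, by norm_num, (X + C 27) * (X + C 243) ^ 3, ?_, ?_⟩
    · have := not_dvd_pow_of_ne hℓ Nat.prime_three hℓ3 18
      simp only [eval_mul, eval_pow, eval_add, eval_X, eval_C, zero_add]
      norm_num at this ⊢
      exact this
    · show jqModC ℤ * tq 3 ^ 3 = _
      rw [map_mul, map_pow, map_add, map_add, evS_X, evS_C, evS_C]
      exact hrel
  · refine ⟨1, le_rfl, (1 + C 27 * X) * (1 + C 243 * X) ^ 3, ?_, ?_⟩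
    · simp only [eval_pow, eval_add, eval_one, eval_mul, eval_C, eval_X, mul_zero, add_zero,
        one_pow, mul_one]
      intro h
      have := Int.eq_one_of_dvd_one (by positivity) h
      exact hℓ.one_lt.ne' (by exact_mod_cast this)
    · show jqModC ℤ * tqInv 3 ^ 1 = _
      rw [map_mul, map_pow, map_add, map_add, map_one, map_mul, map_mul, evS_X, evS_C, evS_C]
      refine zRel_inv_aux hxy (a := 3) (d := 4) (by norm_num) hrel ?_
      have e : tqInv 3 ^ 4 = tqInv 3 * tqInv 3 ^ 3 := by ring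
      rw [e]
      calc (tq 3 + HahnSeries.C 27) * (tq 3 + HahnSeries.C 243) ^ 3 * (tqInv 3 * tqInv 3 ^ 3)
          = ((tq 3 + HahnSeries.C 27) * tqInv 3) * ((tq 3 + HahnSeries.C 243) * tqInv 3) ^ 3 := by
            ring
        _ = _ := by
            rw [add_mul (tq 3) (HahnSeries.C 27), add_mul (tq 3) (HahnSeries.C 243), hxy]
            rfl

end Fermat.Agent.S36
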