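import Fermat.Agent.S36.TNormKb
import Fermat.Agent.S34.UIota

/-!
# S36 : the embedding `H.F → FF (M₀ q²)` (extension of the coefficients) and the two norms
-/

set_option autoImplicit false
set_option linter.unusedSectionVars false
set_option linter.unusedVariables false

noncomputable section

namespace Fermat.Agent.S36

open ModularCurve AlgebraicCurve Polynomial
open Fermat.Agent.S24 Fermat.Agent.ES Fermat.Agent.ES.QE Fermat.Agent.ES.Model Fermat.Agent.S34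
  Fermat.Agent.S35 Fermat.Agent.S34.WK
open Fermat.Agent.ES.IDvr Fermat.Agent.ES.Inst Fermat.Agent.S28

variable {M0 q : ℕ} [NeZero M0] [Fact q.Prime] {A : ValuationSubring Kb}
  {K0 : IntermediateField ℚ Kb} [IsDiscreteValuationRing (R0 K0 A)]
  {D : QData (R0 K0 A) K0 (kA A)} {T : Two D q}
  {K' : Type*} [Field K'] {i : K0 →+* K'} {ζ : K'ˣ}

/-- the embedding `H.F = F0 K0 (M₀ q²) → FF (M₀ q²)`. -/
def iotaH (H : Three T i ζ) (hH : H.F = F0 K0 (M0 * q * q)) : H.F →+* FF (M0 * q * q) :=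
  ((bc K0).comp (algebraMap H.F (LaurentSeries K0))).codRestrict
    (modularFunctionFieldBar (M0 * q * q)) fun f => bc_mem K0 (M0 * q * q) (hH ▸ f.2)

variable (H : Three T i ζ) (hH : H.F = F0 K0 (M0 * q * q)) (hT : T.F = F0 K0 (M0 * q))

theorem coe_iotaH (f : H.F) :
    ((iotaH H hH f : FF (M0 * q * q)) : LaurentSeries Kb) = bc K0 (f : LaurentSeries K0) := rfl

theorem iotaH_eq (f : H.F)
    (hf : bc K0 (f : LaurentSeries K0) ∈ modularFunctionFieldBar (M0 * q * q)) :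
    iotaH H hH f = ⟨bc K0 (f : LaurentSeries K0), hf⟩ := rfl

theorem iotaH_injective : Function.Injective (iotaH H hH) := (iotaH H hH).injective

theorem iotaH_al (u : T.F) :
    iotaH H hH (H.al u) = heckeAlphaBar Kb (M0 * q) q (iotaT T hT u) := by
  apply Subtype.ext
  rw [coe_heckeAlphaBar, coe_iotaH, coe_iotaT, Three.coe_al]

theorem iotaH_be (u : T.F) :
    iotaH H hH (H.be u) = heckeBetaBar Kb (M0 * q) q (iotaT T hT u) := by
  apply Subtype.ext
  rw [coe_heckeBetaBar, coe_iotaH, coe_iotaT, Three.coe_be]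
  exact coeffMap_qExpand _ _ _

theorem iotaH_algebraMap (c : K0) :
    iotaH H hH (algebraMap K0 H.F c) = algebraMap Kb (FF (M0 * q * q)) (c : Kb) :=
  Subtype.ext (InstUp.bc_algebraMap K0 c)

/-- every element of `FF (M₀ q²)` defined over `K0` comes from `H.F`. -/
theorem exists_iotaH_eq (u : FF (M0 * q * q))
    (hu : ∃ f0 ∈ F0 K0 (M0 * q * q), bc K0 f0 = (u : LaurentSeries Kb)) :
    ∃ f : H.F, iotaH H hH f = u := by
  obtain ⟨f0, hf0, e⟩ := hu
  exact ⟨⟨f0, hH ▸ hf0⟩, Subtype.ext e⟩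

theorem exists_iotaT_eq (u : FF (M0 * q))
    (hu : ∃ f0 ∈ F0 K0 (M0 * q), bc K0 f0 = (u : LaurentSeries Kb)) :
    ∃ f : T.F, iotaT T hT f = u := by
  obtain ⟨f0, hf0, e⟩ := hu
  exact ⟨⟨f0, hT ▸ hf0⟩, Subtype.ext e⟩

theorem iotaH_Wt (h : ¬ q ∣ M0)
    (hHW : ∀ (f : H.F) (hf : bc K0 (f : LaurentSeries K0) ∈ modularFunctionFieldBar (M0 * q * q)),
        bc K0 (H.eB f) = ((Wb2 M0 q h ⟨_, hf⟩ : FF (M0 * q * q)) : LaurentSeries Kb)) (f : H.F) :
    iotaH H hH (H.Wt f) = Wb2 M0 q h (iotaH H hH f) := by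
  apply Subtype.ext
  rw [coe_iotaH, Three.coe_Wt, hHW f (iotaH H hH f).2]
  rfl

theorem iotaT_be_jF : iotaT T hT (T.be D.jF) = heckeBetaBar Kb M0 q (jF M0) := by
  apply Subtype.ext
  rw [coe_heckeBetaBar, coe_iotaT, Two.coe_be, coe_jF']
  show bc K0 (qExpand K0 q (jqModC K0)) = _
  rw [S34.bc_qExpand, S34.bc_jq]

theorem iotaT_al_jF : iotaT T hT (T.al D.jF) = heckeAlphaBar Kb M0 q (jF M0) := by
  apply Subtype.ext
  rw [coe_heckeAlphaBar, coe_iotaT, Two.coe_al, coe_jF']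
  show bc K0 (jqModC K0) = _
  rw [S34.bc_jq]

/-- **the norm along `α`**, concrete form. -/
theorem iotaT_nA (h : ¬ q ∣ M0) (u : H.F) :
    iotaT T hT (H.nA u) = normA (M0 * q) q (iotaH H hH u) :=
  H.iota_nA h (iotaT T hT) (iotaH H hH) (iotaH_al H hH hT) (iotaH_be H hH hT) (iotaT_be_jF hT) u

/-- **the norm along `β`**, concrete form. -/
theorem iotaT_nB (h : ¬ q ∣ M0) (u : H.F) :
    iotaT T hT (H.nB u) = normB (M0 * q) q (iotaH H hH u) :=
  H.iota_nB h (iotaT T hT) (iotaH H hH) (iotaH_al H hH hT) (iotaH_be H hH hT) (iotaT_al_jF hT) u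

end Fermat.Agent.S36
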