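import Fermat.Agent.S36.CuspRho
import Fermat.Agent.S36.TIota
import Fermat.Agent.ES.KEmb

/-!
# S36 : `[C0]` for `H : Three`, through `iotaH`
-/

set_option autoImplicit false
set_option linter.unusedSectionVars false
set_option linter.unusedVariables false

noncomputable section

namespace Fermat.Agent.S36

open ModularCurve AlgebraicCurve Polynomial
open Fermat.Agent.S24 Fermat.Agent.ES Fermat.Agent.ES.QE Fermat.Agent.ES.Model Fermat.Agent.S34
  Fermat.Agent.S35 Fermat.Agent.S34.WK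
open Fermat.Agent.ES.IDvr Fermat.Agent.ES.Inst Fermat.Agent.S28

/-- `[C0]` in terms of the two degeneracy maps. -/
theorem ord_geom_pos_hecke (M0 q : ℕ) [NeZero M0] [Fact q.Prime] (W : Place Kb (FF (M0 * q * q)))
    (hW : W.ord (heckeAlphaBar Kb (M0 * q) q (heckeAlphaBar Kb M0 q (jF M0))) < 0)
    (h : W.ord (heckeBetaBar Kb (M0 * q) q (heckeBetaBar Kb M0 q (jF M0)))
      = W.ord (heckeAlphaBar Kb (M0 * q) q (heckeAlphaBar Kb M0 q (jF M0)))) :
    0 < W.ord (∑ i ∈ Finset.range q, (heckeBetaBar Kb (M0 * q) q (heckeBetaBar Kb M0 q (jF M0))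
      / heckeAlphaBar Kb (M0 * q) q (heckeAlphaBar Kb M0 q (jF M0))) ^ i) := by
  have hq : q.Prime := Fact.out
  have : NeZero q := ⟨hq.ne_zero⟩
  have : NeZero (q * q) := ⟨mul_ne_zero hq.ne_zero hq.ne_zero⟩
  have he : q * q ∣ M0 * q * q := ⟨M0, by ring⟩
  have e1 : heckeAlphaBar Kb (M0 * q) q (heckeAlphaBar Kb M0 q (jF M0)) = jF (M0 * q * q) := by
    rw [KDeg.heckeAlpha_jF, KDeg.heckeAlpha_jF]
  have e2 : heckeBetaBar Kb (M0 * q) q (heckeBetaBar Kb M0 q (jF M0))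
      = jd (M0 * q * q) (q * q) he := by
    apply Subtype.ext
    rw [coe_heckeBetaBar, coe_heckeBetaBar, coe_jd, coe_jF', jdL_eq, jqNModC, qExpand_qExpand]
  rw [e1] at hW
  rw [e1, e2] at h ⊢
  exact CuspRho.ord_geom_pos (M0 * q * q) q hq he W hW h

variable {M0 q : ℕ} [NeZero M0] [Fact q.Prime] {A : ValuationSubring Kb}
  {K0 : IntermediateField ℚ Kb} [IsDiscreteValuationRing (R0 K0 A)]
  {D : QData (R0 K0 A) K0 (kA A)} {T : Two D q}
  {K' : Type*} [Field K'] {i : K0 →+* K'} {ζ : K'ˣ}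

/-- **`hC0` of `CuspP.exists_P`**, verbatim, for `ι = iotaH H hH`. -/
theorem hC0_iotaH (H : Three T i ζ) (hH : H.F = F0 K0 (M0 * q * q)) (hT : T.F = F0 K0 (M0 * q))
    (W : Place Kb (FF (M0 * q * q)))
    (hW : W.ord (iotaH H hH (H.al (T.al D.jF))) < 0)
    (h : W.ord (iotaH H hH (H.be (T.be D.jF))) = W.ord (iotaH H hH (H.al (T.al D.jF)))) :
    0 < W.ord (∑ i ∈ Finset.range q,
      (iotaH H hH (H.be (T.be D.jF)) / iotaH H hH (H.al (T.al D.jF))) ^ i) := by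
  rw [iotaH_al H hH hT, iotaT_al_jF hT] at hW
  rw [iotaH_al H hH hT, iotaH_be H hH hT, iotaT_al_jF hT, iotaT_be_jF hT] at h ⊢
  exact ord_geom_pos_hecke M0 q W hW h

end Fermat.Agent.S36
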