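import Fermat.Agent.S34.NXy

/-!
# S36 [C2](a) : the mirror `θ' = x^q / β(x)` of `θ = β(x)^q / x` lies in the chart
-/

set_option autoImplicit false
set_option linter.unusedSectionVars false
set_option linter.unusedVariables false

noncomputable section

namespace Fermat.Agent.S36

open ModularCurve AlgebraicCurve Polynomial IntermediateField
open Fermat.Agent.S24 Fermat.Agent.S28 Fermat.Agent.ES Fermat.Agent.ES.QE Fermat.Agent.ES.Model
  Fermat.Agent.ES.IDvr Fermat.Agent.ES.Inst Fermat.Agent.S34 Fermat.Agent.S34.NXy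

namespace CuspTh

section Abstract

variable {R K k : Type*} [CommRing R] [IsDomain R] [IsNoetherianRing R] [IsIntegrallyClosed R]
  [Field K] [Algebra R K] [IsFractionRing R K] [Field k]
  {D : QData R K k} {q : ℕ} [NeZero q] (T : Two D q)
  (X : D.Coord) (y : LaurentSeries R) (hy : X.xW * y = 1)

include hy in
lemma be_x_ne_zero : T.be X.x ≠ 0 := by
  intro h
  have h1 : D.inc X.xW = 0 := by rw [← e2_be_x T X, h, map_zero]
  have h2 := congrArg D.inc hy
  rw [map_mul, h1, zero_mul, map_one] at h2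
  exact zero_ne_one h2

include hy in
lemma coe_be_x_inv : ((T.be X.x)⁻¹ : T.F) = (D.inc (qExpand R q y) : LaurentSeries K) := by
  rw [IntermediateField.coe_inv, coe_be_x]
  apply inv_eq_of_mul_eq_one_right
  rw [← map_mul, ← map_mul, hy, map_one, map_one]

include hy in
lemma e2_be_x_inv : T.e2 (T.be X.x)⁻¹ = D.inc y := by
  rw [map_inv₀, e2_be_x]
  apply inv_eq_of_mul_eq_one_right
  rw [← map_mul, hy, map_one]

/-- `θ' = x^q / β(x)`. -/
def θ' : T.F := T.x X ^ q * (T.be X.x)⁻¹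

include hy in
lemma θ'_mul : θ' T X * T.be X.x = T.x X ^ q := by
  rw [θ', mul_assoc, inv_mul_cancel₀ (be_x_ne_zero T X y hy), mul_one]

include hy in
lemma θ'_mem_O : θ' T X ∈ T.O := by
  apply mem_O_of_inc T (w1 := X.xW ^ q * qExpand R q y) (w2 := qExpand R q X.xW ^ q * y)
  · rw [θ', IntermediateField.coe_mul, IntermediateField.coe_pow, coe_x, coe_be_x_inv T X y hy,
      map_mul, map_pow]
  · rw [θ', map_mul, map_pow, e2_x, e2_be_x_inv T X y hy, map_mul, map_pow]

end Abstract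

end CuspTh

open CuspTh in
/-- **[C2](a)** : `θ' = x^q / β(x)` lies in the chart. -/
theorem exists_theta' {M0 q : ℕ} [NeZero M0] [NeZero q] (hq : q.Prime)
    {K0 : IntermediateField ℚ Kb} {A : ValuationSubring Kb} (hA : A.LiesOverPrime q)
    [IsDiscreteValuationRing (R0 K0 A)]
    (D : QData (R0 K0 A) K0 (kA A))
    (T : Two D q) (hT : T.F = F0 K0 (M0 * q))
    (W : FF (M0 * q) ≃ₐ[Kb] FF (M0 * q))
    (hWα : ∀ y : FF M0, W (heckeAlphaBar Kb M0 q y) = heckeBetaBar Kb M0 q y)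
    (hWβ : ∀ y : FF M0, W (heckeBetaBar Kb M0 q y) = heckeAlphaBar Kb M0 q y)
    (X : D.Coord) (y : LaurentSeries (R0 K0 A)) (hy : X.xW * y = 1)
    (xF : FF M0) (hx : bc K0 (X.x : LaurentSeries K0) = (xF : LaurentSeries Kb))
    (htr : Transcendental Kb (heckeAlphaBar Kb M0 q xF))
    [FiniteDimensional Kb⟮heckeAlphaBar Kb M0 q xF⟯ (FF (M0 * q))]
    (hpos : ∀ v : Place Kb (FF (M0 * q)), 0 ≤ v.ord (heckeAlphaBar Kb M0 q xF) →
      0 ≤ v.ord (heckeBetaBar Kb M0 q xF) ∧
        v.ord (heckeAlphaBar Kb M0 q xF) ≤ q * v.ord (heckeBetaBar Kb M0 q xF)) :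
    ∃ θ' : T.chart X, (θ' : T.F) * T.be X.x = T.x X ^ q := by
  set α := heckeAlphaBar Kb M0 q xF with hα
  set β := heckeBetaBar Kb M0 q xF with hβ
  have hα0 : α ≠ 0 := fun h => htr (h ▸ isAlgebraic_zero)
  have hxF0 : xF ≠ 0 := by
    rintro rfl
    exact hα0 (map_zero _)
  have hβ0 : β ≠ 0 := (_root_.map_ne_zero _).2 hxF0
  have hιx := iota_x T hT X xF hx
  have hιb := iota_be_x T hT X xF hx
  have crit := mem_chart_of T hT X xF hx hq hA htr
  have hθ : θ' T X ∈ T.chart X := by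
    refine crit _ (θ'_mem_O T X y hy) fun v hv => ?_
    rw [θ', map_mul, map_pow, map_inv₀, hιb, hιx, Place.ord_mul v (pow_ne_zero _ hα0)
      (inv_ne_zero hβ0), Place.ord_inv, FF.ord_pow]
    have h1 := (hpos v hv).1
    have e1 : (W • v).ord α = v.ord β := by
      rw [hα, ← hWβ, Place.ord_smul]
    have e2 : (W • v).ord β = v.ord α := by
      rw [hβ, ← hWα, Place.ord_smul]
    have h2 := (hpos (W • v) (by rw [e1]; exact h1)).2
    rw [e1, e2] at h2
    omega
  exact ⟨⟨θ' T X, hθ⟩, θ'_mul T X y hy⟩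

end Fermat.Agent.S36
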