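import Fermat.Agent.S36.TAsm
import Fermat.Agent.S34.LP
import Fermat.Prelude.Def_AlgebraicCurve_DivisorClassGroup

/-!
# S36, G-REG, [D7]/[C3] : the horizontal prime (the cusp of characteristic `0`) in the tube of a
cusp `n` of the middle component

* `exists_tube_prime` : `x ∈ n`, `x⁻¹ ∈ OM`, only the middle component through `n` ⟹ there is a
  prime `Q` of the generic fibre in the tube of `n` with `x ∈ Q`.
* `sum_mem_of_place` : at a place `W` centred at `Q`, `j_x` has a pole, `ρ = j_z / j_x = b / s` is a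
  unit, so `Φ_q(ρ)` vanishes at `W` (hypothesis `hC0`) and `∑ b ^ i s ^ (q-1-i) ∈ Q`.
* `exists_P` : the combination.
-/

set_option autoImplicit false
set_option linter.unusedSectionVars false

namespace Fermat.Agent.S36.CuspP

open Fermat.Agent.S34 Fermat.Agent.S35 IsDedekindDomain AlgebraicCurve

variable {F : Type*} [Field F]

/-- a function of the tube of `n`, integral on the middle component, the only one through `n`,
is regular at `n`. -/
theorem mem_at_mid {OF OM OV : Subring F} {ϖ : F} {m : ℕ} {B : Subring F} {pF pV : Ideal B}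
    (hϖ0 : ϖ ≠ 0) (hB : IsChartS (OF ⊓ OM ⊓ OV) ϖ m B)
    (memF : ∀ b : B, b ∈ pF ↔ DivS OF ϖ 1 (b : F))
    (memV : ∀ b : B, b ∈ pV ↔ DivS OV ϖ 1 (b : F))
    (n : Ideal B) (hn : n.IsPrime) (hF : ¬ pF ≤ n) (hV : ¬ pV ≤ n)
    (z : F) (hz : z ∈ OM) (ht : InTube (⟨ϖ, hB.unif_mem⟩ : B) n z) :
    ∃ s b : B, s ∉ n ∧ (s : F) * z = b := by
  obtain ⟨θ, hθ, hθ'⟩ := TAsm.exists_theta hB memF memV n hn hF hV
  have hBM : ∀ b : B, (b : F) ∈ OM := fun b => (hB.le _ b.2).1.2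
  have key : ∀ (k : ℕ) (s b : B), s ∉ n → (s : F) * ϖ ^ k * z = b →
      ∃ s' b' : B, s' ∉ n ∧ (s' : F) * z = b' := by
    intro k
    induction k with
    | zero =>
      intro s b hs e
      exact ⟨s, b, hs, by rw [← e, pow_zero, mul_one]⟩
    | succ k ih =>
      intro s b hs e
      have hd : DivS OM ϖ 1 (b : F) :=
        ⟨(s : F) * ϖ ^ k * z, OM.mul_mem (OM.mul_mem (hBM s)
          (OM.pow_mem (hBM ⟨ϖ, hB.unif_mem⟩) k)) hz, by rw [← e, pow_one, pow_succ]; ring⟩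
      obtain ⟨c, hc⟩ := hθ' b hd
      refine ih (θ * s) c (fun h => (hn.mem_or_mem h).elim hθ hs) ?_
      have hc' : (θ : F) * b = ϖ * c := by
        have := congrArg Subtype.val hc
        simpa only [Subring.coe_mul] using this
      apply mul_left_cancel₀ hϖ0
      rw [← hc', ← e, Subring.coe_mul, pow_succ]
      ring
  obtain ⟨s, hs, k, b, e⟩ := GLP.inTube_iff.1 ht
  exact key k s b hs e

section Tube

variable {OF OM OV : Subring F} {ϖ : F} {m : ℕ} {B : Subring F} {pF pV : Ideal B}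
  {D : Type*} [CommRing D] [Algebra B D] [IsDedekindDomain D] [Algebra D F]
  [IsScalarTower B D F] [IsFractionRing D F]

/-- **[C3] (i)** -/
theorem exists_tube_prime (hϖ0 : ϖ ≠ 0) (hB : IsChartS (OF ⊓ OM ⊓ OV) ϖ m B)
    [IsLocalization.Away (⟨ϖ, hB.unif_mem⟩ : B) D]
    (memF : ∀ b : B, b ∈ pF ↔ DivS OF ϖ 1 (b : F))
    (memV : ∀ b : B, b ∈ pV ↔ DivS OV ϖ 1 (b : F))
    (n : Ideal B) [hn : n.IsPrime] (hF : ¬ pF ≤ n) (hV : ¬ pV ≤ n)
    (x : B) (hxn : x ∈ n) (hx0 : (x : F) ≠ 0) (hxM : (x : F)⁻¹ ∈ OM) :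
    ∃ Q : HeightOneSpectrum D, LP.Tb n Q ∧ algebraMap B D x ∈ Q.asIdeal := by
  by_contra hcon
  push Not at hcon
  have ht : InTube (⟨ϖ, hB.unif_mem⟩ : B) n (x : F)⁻¹ := by
    apply LP.tube (D := D)
    intro Q hQ
    have h1 : Q.valuation F (algebraMap D F (algebraMap B D x)) = 1 := by
      rw [HeightOneSpectrum.valuation_of_algebraMap]
      exact (Q.intValuation_eq_one_iff).2 (hcon Q hQ)
    have h2 : algebraMap D F (algebraMap B D x) = (x : F) :=
      (IsScalarTower.algebraMap_apply B D F x).symm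
    rw [h2] at h1
    rw [map_inv₀, h1, inv_one]
  obtain ⟨s, b, hs, e⟩ := mem_at_mid hϖ0 hB memF memV n hn hF hV _ hxM ht
  apply hs
  have : s = b * x := by
    apply Subtype.ext
    rw [Subring.coe_mul, ← e]
    field_simp
  rw [this]
  exact n.mul_mem_left _ hxn

end Tube

section Place

variable {B : Subring F} {D : Type*} [CommRing D] [Algebra B D] [IsDedekindDomain D] [Algebra D F]
  [IsScalarTower B D F] [IsFractionRing D F]
  {Kb E : Type*} [Field Kb] [Field E] [Algebra Kb E]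

theorem ord_pow' (W : Place Kb E) (f : E) (k : ℕ) : W.ord (f ^ k) = k * W.ord f := by
  rw [← zpow_natCast, W.ord_zpow]

/-- **[C3] (iii)** -/
theorem sum_mem_of_place (n : Ideal B) (Q : HeightOneSpectrum D) (hQ : LP.Tb n Q)
    (ι : F →+* E) (W : Place Kb E)
    (hW1 : ∀ d : D, d ∈ Q.asIdeal → d ≠ 0 → 0 < W.ord (ι (algebraMap D F d)))
    (hW0 : ∀ d : D, d ∉ Q.asIdeal → W.ord (ι (algebraMap D F d)) = 0)
    (x : B) (hxQ : algebraMap B D x ∈ Q.asIdeal) (hx0 : (x : F) ≠ 0)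
    (a : ℕ) (ha : 0 < a) (Px : B) (hPx : Px ∉ n) (jx jz : F) (hjx : jx * (x : F) ^ a = Px)
    (s b : B) (hs : s ∉ n) (hb : b ∉ n) (hρ : jz * (s : F) = jx * b) (q : ℕ)
    (hC0 : W.ord (ι jx) < 0 → W.ord (ι jz) = W.ord (ι jx) →
      0 < W.ord (∑ i ∈ Finset.range q, (ι jz / ι jx) ^ i)) :
    algebraMap B D (∑ i ∈ Finset.range q, b ^ i * s ^ (q - 1 - i)) ∈ Q.asIdeal := by
  have hcoe : ∀ c : B, algebraMap D F (algebraMap B D c) = (c : F) := fun c =>
    (IsScalarTower.algebraMap_apply B D F c).symm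
  have hout : ∀ c : B, c ∉ n → W.ord (ι (c : F)) = 0 := by
    intro c hc
    rw [← hcoe]
    exact hW0 _ (fun h => hc (hQ h))
  have hne : ∀ c : B, c ∉ n → (c : F) ≠ 0 := by
    intro c hc h0
    apply hc
    have : c = 0 := Subtype.ext h0
    rw [this]; exact n.zero_mem
  have hι0 : ∀ {f : F}, f ≠ 0 → ι f ≠ 0 := fun {f} hf => (map_ne_zero ι).2 hf
  have hxD : algebraMap B D x ≠ 0 := by
    intro h0
    apply hx0
    rw [← hcoe, h0, map_zero]
  have hxpos : 0 < W.ord (ι (x : F)) := by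
    rw [← hcoe]
    exact hW1 _ hxQ hxD
  have hjx0 : jx ≠ 0 := by
    rintro rfl
    rw [zero_mul] at hjx
    exact hne Px hPx hjx.symm
  have hjz0 : jz ≠ 0 := by
    rintro rfl
    rw [zero_mul] at hρ
    exact (mul_ne_zero hjx0 (hne b hb)) hρ.symm
  -- the pole of `jx`
  have h1 : W.ord (ι jx) + a * W.ord (ι (x : F)) = 0 := by
    have := congrArg (fun f => W.ord (ι f)) hjx
    simp only [map_mul, map_pow] at this
    rw [W.ord_mul (hι0 hjx0) (pow_ne_zero _ (hι0 hx0)), ord_pow', hout Px hPx] at this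
    exact this
  have hpole : W.ord (ι jx) < 0 := by
    have : 0 < (a : ℤ) * W.ord (ι (x : F)) := mul_pos (by exact_mod_cast ha) hxpos
    omega
  have h2 : W.ord (ι jz) = W.ord (ι jx) := by
    have := congrArg (fun f => W.ord (ι f)) hρ
    simp only [map_mul] at this
    rw [W.ord_mul (hι0 hjz0) (hι0 (hne s hs)), W.ord_mul (hι0 hjx0) (hι0 (hne b hb)),
      hout s hs, hout b hb] at this
    omega
  have h3 := hC0 hpole h2
  by_contra hcon
  have h4 := hW0 _ hcon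
  rw [hcoe] at h4
  have hs0 := hι0 (hne s hs)
  have e1 : ι jz / ι jx = ι (b : F) / ι (s : F) := by
    rw [div_eq_div_iff (hι0 hjx0) hs0, ← map_mul, ← map_mul, hρ, mul_comm]
  have e2 : ι ((∑ i ∈ Finset.range q, b ^ i * s ^ (q - 1 - i) : B) : F)
      = ι (s : F) ^ (q - 1) * ∑ i ∈ Finset.range q, (ι jz / ι jx) ^ i := by
    rw [e1, Finset.mul_sum]
    have : ((∑ i ∈ Finset.range q, b ^ i * s ^ (q - 1 - i) : B) : F)
        = ∑ i ∈ Finset.range q, (b : F) ^ i * (s : F) ^ (q - 1 - i) := by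
      rw [← Subring.subtype_apply, map_sum]
      simp
    rw [this, map_sum]
    refine Finset.sum_congr rfl fun i hi => ?_
    have hi' : i ≤ q - 1 := by
      have := Finset.mem_range.1 hi
      omega
    rw [map_mul, map_pow, map_pow, div_pow]
    have : ι (s : F) ^ (q - 1) = ι (s : F) ^ (q - 1 - i) * ι (s : F) ^ i := by
      rw [← pow_add]; congr 1; omega
    rw [this]
    field_simp
  have hsum0 : (∑ i ∈ Finset.range q, (ι jz / ι jx) ^ i) ≠ 0 := by
    intro h0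
    rw [h0, W.ord_zero] at h3
    exact lt_irrefl _ h3
  rw [e2, W.ord_mul (pow_ne_zero _ hs0) hsum0, ord_pow', hout s hs] at h4
  omega

end Place

section Main

variable {OF OM OV : Subring F} {ϖ : F} {m : ℕ} {B : Subring F} {pF pV : Ideal B}
  {D : Type*} [CommRing D] [Algebra B D] [IsDedekindDomain D] [Algebra D F]
  [IsScalarTower B D F] [IsFractionRing D F]
  {Kb E : Type*} [Field Kb] [Field E] [Algebra Kb E]

/-- **[C3]** : the data `P hPn hϖP h3` of `t2_cusp_abs`. -/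
theorem exists_P (hϖ0 : ϖ ≠ 0) (hB : IsChartS (OF ⊓ OM ⊓ OV) ϖ m B)
    [IsLocalization.Away (⟨ϖ, hB.unif_mem⟩ : B) D]
    (memF : ∀ b : B, b ∈ pF ↔ DivS OF ϖ 1 (b : F))
    (memV : ∀ b : B, b ∈ pV ↔ DivS OV ϖ 1 (b : F))
    (n : Ideal B) [hn : n.IsPrime] (hF : ¬ pF ≤ n) (hV : ¬ pV ≤ n)
    (x : B) (hxn : x ∈ n) (hx0 : (x : F) ≠ 0) (hxM : (x : F)⁻¹ ∈ OM)
    (ι : F →+* E)
    (hplace : ∀ Q : HeightOneSpectrum D, ∃ W : Place Kb E,
      (∀ d : D, d ∈ Q.asIdeal → d ≠ 0 → 0 < W.ord (ι (algebraMap D F d))) ∧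
      (∀ d : D, d ∉ Q.asIdeal → W.ord (ι (algebraMap D F d)) = 0))
    (a : ℕ) (ha : 0 < a) (Px : B) (hPx : Px ∉ n) (jx jz : F) (hjx : jx * (x : F) ^ a = Px)
    (s b : B) (hs : s ∉ n) (hb : b ∉ n) (hρ : jz * (s : F) = jx * b) (q : ℕ)
    (hC0 : ∀ W : Place Kb E, W.ord (ι jx) < 0 → W.ord (ι jz) = W.ord (ι jx) →
      0 < W.ord (∑ i ∈ Finset.range q, (ι jz / ι jx) ^ i)) :
    ∃ P : Ideal B, P.IsPrime ∧ P ≤ n ∧ (⟨ϖ, hB.unif_mem⟩ : B) ∉ P ∧
      ∑ i ∈ Finset.range q, b ^ i * s ^ (q - 1 - i) ∈ P := by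
  obtain ⟨Q, hQ, hxQ⟩ := exists_tube_prime (D := D) hϖ0 hB memF memV n hF hV x hxn hx0 hxM
  obtain ⟨W, hW1, hW0⟩ := hplace Q
  refine ⟨Q.asIdeal.comap (algebraMap B D), Ideal.comap_isPrime _ _, hQ, ?_, ?_⟩
  · intro h
    have := LP.unif_notMem (⟨ϖ, hB.unif_mem⟩ : B) Q 1
    rw [pow_one] at this
    exact this h
  · exact sum_mem_of_place n Q hQ ι W hW1 hW0 x hxQ hx0 a ha Px hPx jx jz hjx s b hs hb hρ q
      (hC0 W)

end Main

end Fermat.Agent.S36.CuspP
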