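import Fermat.Agent.S36.NVal3

/-!
# S36, abstract block : the interface "norms from level `M₀ q²` to level `M₀ q`"

`F1` = level `M₀ q` with its two discrete valuation rings `O1` (`∞`), `O2` (`0`), uniformiser `ϖ1`;
`F2` = level `M₀ q²` with `OF` (`e = f = 1` over `O1` along `al`), `OM` (`e = q - 1` over `O1` along
`al`, over `O2` along `be`), `OV`; `al be : F1 → F2` the two degeneracy maps, `nA nB` the norms.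
-/

set_option autoImplicit false

namespace Fermat.Agent.S36

open Fermat.Agent.S34 Fermat.Agent.S35

/-- **The norm data of the level pair `(M₀ q, M₀ q²)`.** -/
structure Lvl1 {F1 F2 : Type*} [Field F1] [Field F2] (q : ℕ) (O1 O2 : Subring F1) (ϖ1 : F1)
    (OF OM OV : Subring F2) (ϖ t : F2) (al be : F1 →+* F2) (nA nB : F2 →* F1) : Prop where
  dv1 : IsDV O1 ϖ1
  dv2 : IsDV O2 ϖ1
  dvF : IsDV OF ϖ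
  dvM : IsDV OM t
  dvV : IsDV OV ϖ
  al_unif : al ϖ1 = ϖ
  be_unif : be ϖ1 = ϖ
  ram : IsU OM (t ^ (q - 1) / ϖ)
  qdiv : DivS OM ϖ 1 (q : F2)
  tF : t ∈ OF
  tV : t ∈ OV
  al_F : ∀ a, al a ∈ OF ↔ a ∈ O1
  al_M : ∀ a, al a ∈ OM ↔ a ∈ O1
  al_V : ∀ a, al a ∈ OV ↔ a ∈ O2
  be_F : ∀ a, be a ∈ OF ↔ a ∈ O1
  be_M : ∀ a, be a ∈ OM ↔ a ∈ O2
  be_V : ∀ a, be a ∈ OV ↔ a ∈ O2
  surjF : ∀ u ∈ OF, ∃ a ∈ O1, DivS OF ϖ 1 (u - al a)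
  surjM : ∀ u ∈ OM, ∃ c ∈ O1, DivS OM t 1 (u - al c)
  surjM' : ∀ u ∈ OM, ∃ c ∈ O2, DivS OM t 1 (u - be c)
  surjV : ∀ u ∈ OV, ∃ b ∈ O2, DivS OV ϖ 1 (u - be b)
  nA1 : ∀ u, u ∈ OF → u ∈ OM → u ∈ OV → ∀ a ∈ O1, ∀ c ∈ O1, DivS OF ϖ 1 (u - al a) →
    DivS OM t 1 (u - al c) → DivS O1 ϖ1 1 (nA u - a * c ^ (q - 1))
  nA2 : ∀ u, u ∈ OF → u ∈ OM → u ∈ OV → DivS OV ϖ 1 (al (nA u) - u ^ q)
  nB2 : ∀ u, u ∈ OF → u ∈ OM → u ∈ OV → ∀ b ∈ O2, ∀ c ∈ O2, DivS OV ϖ 1 (u - be b) →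
    DivS OM t 1 (u - be c) → DivS O2 ϖ1 1 (nB u - b * c ^ (q - 1))
  nB1 : ∀ u, u ∈ OF → u ∈ OM → u ∈ OV → DivS OF ϖ 1 (be (nB u) - u ^ q)
  nA_al : ∀ x, nA (al x) = x ^ q
  nB_be : ∀ x, nB (be x) = x ^ q
  idemF : ∃ e, e ∈ OF ∧ e ∈ OM ∧ e ∈ OV ∧ DivS OF ϖ 1 (e - 1) ∧ DivS OM t 1 e ∧ DivS OV ϖ 1 e
  idemM : ∃ e, e ∈ OF ∧ e ∈ OM ∧ e ∈ OV ∧ DivS OF ϖ 1 e ∧ DivS OM t 1 (e - 1) ∧ DivS OV ϖ 1 e
  idemV : ∃ e, e ∈ OF ∧ e ∈ OM ∧ e ∈ OV ∧ DivS OF ϖ 1 e ∧ DivS OM t 1 e ∧ DivS OV ϖ 1 (e - 1)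

namespace Lvl1

variable {F1 F2 : Type*} [Field F1] [Field F2] {q : ℕ} {O1 O2 : Subring F1} {ϖ1 : F1}
  {OF OM OV : Subring F2} {ϖ t : F2} {al be : F1 →+* F2} {nA nB : F2 →* F1}

/-- the symmetry `∞ ↔ 0`. -/
theorem swap (L : Lvl1 q O1 O2 ϖ1 OF OM OV ϖ t al be nA nB) :
    Lvl1 q O2 O1 ϖ1 OV OM OF ϖ t be al nB nA where
  dv1 := L.dv2
  dv2 := L.dv1
  dvF := L.dvV
  dvM := L.dvM
  dvV := L.dvF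
  al_unif := L.be_unif
  be_unif := L.al_unif
  ram := L.ram
  qdiv := L.qdiv
  tF := L.tV
  tV := L.tF
  al_F := L.be_V
  al_M := L.be_M
  al_V := L.be_F
  be_F := L.al_V
  be_M := L.al_M
  be_V := L.al_F
  surjF := L.surjV
  surjM := L.surjM'
  surjM' := L.surjM
  surjV := L.surjF
  nA1 := fun u h1 h2 h3 => L.nB2 u h3 h2 h1
  nA2 := fun u h1 h2 h3 => L.nB1 u h3 h2 h1
  nB2 := fun u h1 h2 h3 => L.nA1 u h3 h2 h1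
  nB1 := fun u h1 h2 h3 => L.nA2 u h3 h2 h1
  nA_al := L.nB_be
  nB_be := L.nA_al
  idemF := by
    obtain ⟨e, h1, h2, h3, h4, h5, h6⟩ := L.idemV
    exact ⟨e, h3, h2, h1, h6, h5, h4⟩
  idemM := by
    obtain ⟨e, h1, h2, h3, h4, h5, h6⟩ := L.idemM
    exact ⟨e, h3, h2, h1, h6, h5, h4⟩
  idemV := by
    obtain ⟨e, h1, h2, h3, h4, h5, h6⟩ := L.idemF
    exact ⟨e, h3, h2, h1, h6, h5, h4⟩

end Lvl1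

end Fermat.Agent.S36
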