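import Fermat.Agent.S36.GDefs
import Fermat.Agent.S36.NCDefs

/-!
# S36, bridge [BR-DICH] : through a maximal ideal `n ∋ ϖ` of a chart of level `M₀ q²` pass either
exactly one or all three components.
-/

set_option autoImplicit false

namespace Fermat.Agent.S36

open Fermat.Agent.S34 Fermat.Agent.S35

variable {F1 F2 : Type*} [Field F1] [Field F2] {q : ℕ} {O1 O2 : Subring F1} {ϖ1 : F1}
  {OF OM OV : Subring F2} {ϖ t : F2} {al be : F1 →+* F2} {nA nB : F2 →* F1}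

namespace BrDich

/-- `ϖ OM ⊆ t OM`. -/
theorem divS_M_of (L : Lvl1 q O1 O2 ϖ1 OF OM OV ϖ t al be nA nB) (hq : 2 ≤ q) {x : F2}
    (hx : DivS OM ϖ 1 x) : DivS OM t 1 x := by
  obtain ⟨y, hy, rfl⟩ := hx
  obtain ⟨h0, -, h2⟩ := L.ram
  have hϖ0 : ϖ ≠ 0 := L.dvF.ne_zero
  have ht0 : t ≠ 0 := L.dvM.ne_zero
  refine ⟨t ^ (q - 2) * (t ^ (q - 1) / ϖ)⁻¹ * y,
    OM.mul_mem (OM.mul_mem (OM.pow_mem L.dvM.mem _) h2) hy, ?_⟩
  have e : t ^ (q - 1) = t * t ^ (q - 2) := by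
    rw [← pow_succ']
    congr 1
    omega
  rw [pow_one, pow_one, e]
  field_simp

/-- `pF, pM ≤ n ⟹ pV ≤ n`. -/
theorem core_FM (L : Lvl1 q O1 O2 ϖ1 OF OM OV ϖ t al be nA nB) (hq : 2 ≤ q)
    {B : Subring F2} {B' : Subring F1} {pF pM pV : Ideal B}
    (hleF : ∀ x ∈ B, x ∈ OF) (hleM : ∀ x ∈ B, x ∈ OM) (hleV : ∀ x ∈ B, x ∈ OV)
    (memF : ∀ b : B, b ∈ pF ↔ DivS OF ϖ 1 (b : F2))
    (memM : ∀ b : B, b ∈ pM ↔ DivS OM t 1 (b : F2))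
    (memV : ∀ b : B, b ∈ pV ↔ DivS OV ϖ 1 (b : F2))
    (be_mem : ∀ x ∈ B', be x ∈ B) (nB_mem : ∀ x ∈ B, nB x ∈ B')
    (n : Ideal B) (hn : n.IsPrime) (hF : pF ≤ n) (hM : pM ≤ n) : pV ≤ n := by
  intro b hb
  have hbV := (memV b).1 hb
  obtain ⟨c, hc, hbc⟩ := L.surjM' b (hleM _ b.2)
  have h1 := L.nB2 b (hleF _ b.2) (hleM _ b.2) (hleV _ b.2) 0 O2.zero_mem c hc
    (by rw [map_zero, sub_zero]; exact hbV) hbc
  rw [zero_mul, sub_zero] at h1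
  obtain ⟨y, hy, ey⟩ := h1
  let z : B := ⟨be (nB b), be_mem _ (nB_mem _ b.2)⟩
  have hz : z ∈ n := by
    apply hM
    rw [memM]
    apply divS_M_of L hq
    refine ⟨be y, (L.be_M y).2 hy, ?_⟩
    show be (nB b) = _
    rw [ey, map_mul, pow_one, pow_one, L.be_unif]
  have hz2 : z - b ^ q ∈ n := by
    apply hF
    rw [memF]
    exact L.nB1 b (hleF _ b.2) (hleM _ b.2) (hleV _ b.2)
  have : b ^ q ∈ n := by
    have := n.sub_mem hz hz2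
    rwa [sub_sub_cancel] at this
  exact hn.mem_of_pow_mem q this

/-- `pF, pV ≤ n ⟹ pM ≤ n`. -/
theorem core_FV (L : Lvl1 q O1 O2 ϖ1 OF OM OV ϖ t al be nA nB) (hq : 2 ≤ q)
    {B : Subring F2} {B' : Subring F1} {pF pM pV : Ideal B}
    (hleF : ∀ x ∈ B, x ∈ OF) (hleM : ∀ x ∈ B, x ∈ OM) (hleV : ∀ x ∈ B, x ∈ OV)
    (memF : ∀ b : B, b ∈ pF ↔ DivS OF ϖ 1 (b : F2))
    (memM : ∀ b : B, b ∈ pM ↔ DivS OM t 1 (b : F2))
    (memV : ∀ b : B, b ∈ pV ↔ DivS OV ϖ 1 (b : F2))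
    (al_mem : ∀ x ∈ B', al x ∈ B) (nA_mem : ∀ x ∈ B, nA x ∈ B')
    (n : Ideal B) (hn : n.IsPrime) (hF : pF ≤ n) (hV : pV ≤ n) : pM ≤ n := by
  intro b hb
  have hbM := (memM b).1 hb
  obtain ⟨a, ha, hba⟩ := L.surjF b (hleF _ b.2)
  have h1 := L.nA1 b (hleF _ b.2) (hleM _ b.2) (hleV _ b.2) a ha 0 O1.zero_mem hba
    (by rw [map_zero, sub_zero]; exact hbM)
  rw [zero_pow (by omega), mul_zero, sub_zero] at h1
  obtain ⟨y, hy, ey⟩ := h1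
  let z : B := ⟨al (nA b), al_mem _ (nA_mem _ b.2)⟩
  have hz : z ∈ n := by
    apply hF
    rw [memF]
    refine ⟨al y, (L.al_F y).2 hy, ?_⟩
    show al (nA b) = _
    rw [ey, map_mul, pow_one, pow_one, L.al_unif]
  have hz2 : z - b ^ q ∈ n := by
    apply hV
    rw [memV]
    exact L.nA2 b (hleF _ b.2) (hleM _ b.2) (hleV _ b.2)
  have : b ^ q ∈ n := by
    have := n.sub_mem hz hz2
    rwa [sub_sub_cancel] at this
  exact hn.mem_of_pow_mem q this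

end BrDich

variable {m : ℕ} {B : Subring F2} {B' : Subring F1} {pF pM pV : Ideal B}

/-- some component passes through `n ∋ ϖ`. -/
theorem br_some (L : Lvl1 q O1 O2 ϖ1 OF OM OV ϖ t al be nA nB)
    (h : Chart3 OF OM OV ϖ t m B pF pM pV) (n : Ideal B) (hn : n.IsPrime)
    (hϖ : (⟨ϖ, h.chart.unif_mem⟩ : B) ∈ n) : pF ≤ n ∨ pM ≤ n ∨ pV ≤ n := by
  by_contra hc
  rw [not_or, not_or] at hc
  obtain ⟨hF, hM, hV⟩ := hc
  obtain ⟨θF, hθF, hθFn⟩ := SetLike.not_le_iff_exists.1 hF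
  obtain ⟨θM, hθM, hθMn⟩ := SetLike.not_le_iff_exists.1 hM
  obtain ⟨θV, hθV, hθVn⟩ := SetLike.not_le_iff_exists.1 hV
  have hleF : ∀ x ∈ B, x ∈ OF := fun x hx => (h.chart.le x hx).1.1
  have hleM : ∀ x ∈ B, x ∈ OM := fun x hx => (h.chart.le x hx).1.2
  have hleV : ∀ x ∈ B, x ∈ OV := fun x hx => (h.chart.le x hx).2
  obtain ⟨yF, hyF, eF⟩ := (h.memA θF).1 hθF
  obtain ⟨yM, hyM, eM⟩ := (h.memC θM).1 hθM
  obtain ⟨yV, hyV, eV⟩ := (h.memB θV).1 hθV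
  have hϖ0 : ϖ ≠ 0 := L.dvF.ne_zero
  have ht0 : t ≠ 0 := L.dvM.ne_zero
  rw [pow_one] at eF eM eV
  have hdiv : DivS (OF ⊓ OM ⊓ OV) ϖ 1 ((θF * θM ^ (q - 1) * θV : B) : F2) := by
    refine ⟨(θF : F2) * (θM : F2) ^ (q - 1) * θV * ϖ⁻¹, ⟨⟨?_, ?_⟩, ?_⟩, ?_⟩
    · have : (θF : F2) * (θM : F2) ^ (q - 1) * θV * ϖ⁻¹ = yF * (θM : F2) ^ (q - 1) * θV := by
        rw [eF]
        field_simp
      rw [SetLike.mem_coe, this]
      exact OF.mul_mem (OF.mul_mem hyF (OF.pow_mem (hleF _ θM.2) _)) (hleF _ θV.2)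
    · have : (θF : F2) * (θM : F2) ^ (q - 1) * θV * ϖ⁻¹
          = θF * (t ^ (q - 1) / ϖ * yM ^ (q - 1)) * θV := by
        rw [eM, mul_pow]
        field_simp
      rw [SetLike.mem_coe, this]
      exact OM.mul_mem (OM.mul_mem (hleM _ θF.2) (OM.mul_mem L.ram.2.1 (OM.pow_mem hyM _)))
        (hleM _ θV.2)
    · have : (θF : F2) * (θM : F2) ^ (q - 1) * θV * ϖ⁻¹ = θF * (θM : F2) ^ (q - 1) * yV := by
        rw [eV]
        field_simp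
      rw [SetLike.mem_coe, this]
      exact OV.mul_mem (OV.mul_mem (hleV _ θF.2) (OV.pow_mem (hleV _ θM.2) _)) hyV
    · simp only [Subring.coe_mul, Subring.coe_pow, pow_one]
      field_simp
  obtain ⟨y, hy, ey⟩ := h.chart.sat _ (θF * θM ^ (q - 1) * θV : B).2 hdiv
  have e2 : θF * θM ^ (q - 1) * θV = (⟨ϖ, h.chart.unif_mem⟩ : B) * ⟨y, hy⟩ := Subtype.ext ey
  have h3 : θF * θM ^ (q - 1) * θV ∈ n := e2 ▸ n.mul_mem_right _ hϖ
  rcases hn.mem_or_mem h3 with h4 | h4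
  · rcases hn.mem_or_mem h4 with h5 | h5
    · exact hθFn h5
    · exact hθMn (hn.mem_of_pow_mem _ h5)
  · exact hθVn h4

/-- **[BR-DICH]** -/
theorem br_dich (L : Lvl1 q O1 O2 ϖ1 OF OM OV ϖ t al be nA nB) (hq : 2 ≤ q)
    (h : Chart3 OF OM OV ϖ t m B pF pM pV) (hL : ChartL OF OM OV ϖ t m B B' al be nA nB)
    (n : Ideal B) (hn : n.IsPrime) :
    (pF ≤ n → pM ≤ n → pV ≤ n) ∧ (pM ≤ n → pV ≤ n → pF ≤ n) ∧ (pF ≤ n → pV ≤ n → pM ≤ n) := by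
  have hleF : ∀ x ∈ B, x ∈ OF := fun x hx => (h.chart.le x hx).1.1
  have hleM : ∀ x ∈ B, x ∈ OM := fun x hx => (h.chart.le x hx).1.2
  have hleV : ∀ x ∈ B, x ∈ OV := fun x hx => (h.chart.le x hx).2
  refine ⟨fun hF hM => ?_, fun hM hV => ?_, fun hF hV => ?_⟩
  · exact BrDich.core_FM L hq hleF hleM hleV h.memA h.memC h.memB hL.be_mem hL.nB_mem n hn hF hM
  · exact BrDich.core_FM L.swap hq hleV hleM hleF h.memB h.memC h.memA hL.al_mem hL.nA_mem n hn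
      hV hM
  · exact BrDich.core_FV L hq hleF hleM hleV h.memA h.memC h.memB hL.al_mem hL.nA_mem n hn hF hV

end Fermat.Agent.S36
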