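import Fermat.Agent.S34.QNode

/-!
# S36, G-REG : nodes of level `q` are not cusps (`x ∉ n`), standalone form of the argument
inside `S34.xy_of`.
-/

set_option autoImplicit false
set_option linter.unusedSectionVars false
set_option linter.unusedVariables false

noncomputable section

namespace Fermat.Agent.S36

open ModularCurve Polynomial
open Fermat.Agent.ES.QE Fermat.Agent.ES.Model Fermat.Agent.S34 Fermat.Agent.S34.QNode

variable {R K k : Type*} [CommRing R] [IsDomain R] [IsNoetherianRing R] [IsIntegrallyClosed R]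
  [Field K] [Algebra R K] [IsFractionRing R K] [Field k]
  {D : QData R K k} {q : ℕ} [NeZero q]

/-- the two congruences of `θ = β(x)^q / x` : `θ ≡ x^(q²-1)` on component 1, `θ ≡ 1` on
component 2. -/
theorem theta_cong (T : Two D q) (X : D.Coord) (hq : q.Prime) [CharP k q]
    (hxq : qExpand k q (D.red X.xW) = D.red X.xW ^ q)
    (θ : T.chart X) (hθx : (θ : T.F) * T.x X = T.be X.x ^ q) :
    θ - xB T X ^ (q ^ 2 - 1) ∈ T.p1 X ∧ θ - 1 ∈ T.p2 X := by
  have hx0 := red_xW_ne_zero X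
  have hq1 : 1 ≤ q ^ 2 - 1 := by
    have : 2 ^ 2 ≤ q ^ 2 := Nat.pow_le_pow_left hq.two_le 2
    omega
  have hb1 : ((T.be X.x : T.F) : LaurentSeries K) ∈ D.LamRing :=
    NOrth.mem_LamRing_of_qExpand_inc q X.xW
  have hb2 : T.e2 (T.be X.x) ∈ D.LamRing := by
    rw [T.e2_be]; exact QData.inc_mem_LamRing X.xW
  have hrb1 : T.rho1 ⟨T.be X.x, hb1⟩ = D.red X.xW ^ q := by
    have h3 := NOrth.rho_qExpand q (QData.inc_mem_LamRing (D := D) X.xW)
    rw [QData.rho_inc, hxq] at h3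
    exact h3
  have hrb2 : T.rho2 ⟨T.be X.x, hb2⟩ = D.red X.xW := by
    have h3 := QData.rho_inc (D := D) X.xW
    rw [← h3]
    show D.rho ⟨T.e2 (T.be X.x), hb2⟩ = _
    congr 1
    exact Subtype.ext (T.e2_be X.x)
  have e1 : r1 T X θ * D.red X.xW = (D.red X.xW ^ q) ^ q := by
    have h3 : r1 T X (θ * xB T X) = T.rho1 (⟨T.be X.x, hb1⟩ ^ q) := by
      show T.rho1 _ = T.rho1 _
      congr 1
      exact Subtype.ext hθx
    rw [map_mul, r1_xB, map_pow, hrb1] at h3
    exact h3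
  have e2 : r2 T X θ * D.red X.xW ^ q = D.red X.xW ^ q := by
    have h3 : r2 T X (θ * xB T X) = T.rho2 (⟨T.be X.x, hb2⟩ ^ q) := by
      show T.rho2 _ = T.rho2 _
      congr 1
      exact Subtype.ext hθx
    rw [map_mul, r2_xB, map_pow, hrb2, hxq] at h3
    exact h3
  constructor
  · rw [mem_p1_iff, map_sub, map_pow, r1_xB, sub_eq_zero]
    apply mul_right_cancel₀ hx0
    rw [e1, ← pow_mul, ← pow_succ]
    congr 1
    rw [← sq]
    omega
  · rw [mem_p2_iff, map_sub, map_one, sub_eq_zero]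
    apply mul_right_cancel₀ (pow_ne_zero q hx0)
    rw [e2, one_mul]

/-- **nodes are not cusps** : a proper ideal containing both components does not contain `x`. -/
theorem x_notMem_node (T : Two D q) (X : D.Coord) (hq : q.Prime) [CharP k q]
    (hxq : qExpand k q (D.red X.xW) = D.red X.xW ^ q)
    (θ : T.chart X) (hθx : (θ : T.F) * T.x X = T.be X.x ^ q)
    (n : Ideal (T.chart X)) (hn : n ≠ ⊤) (h1 : T.p1 X ≤ n) (h2 : T.p2 X ≤ n) :
    (⟨T.x X, X.x_mem_chart⟩ : T.chart X) ∉ n := by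
  obtain ⟨m1, m2⟩ := theta_cong T X hq hxq θ hθx
  have hq1 : 1 ≤ q ^ 2 - 1 := by
    have : 2 ^ 2 ≤ q ^ 2 := Nat.pow_le_pow_left hq.two_le 2
    omega
  intro hx
  apply hn
  rw [Ideal.eq_top_iff_one]
  have h3 : xB T X ^ (q ^ 2 - 1) ∈ n := Ideal.pow_mem_of_mem n hx _ (by omega)
  have h4 := n.sub_mem (n.add_mem (h1 m1) h3) (h2 m2)
  have h5 : θ - xB T X ^ (q ^ 2 - 1) + xB T X ^ (q ^ 2 - 1) - (θ - 1) = 1 := by ring
  rwa [h5] at h4

end Fermat.Agent.S36
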