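import Fermat.Agent.S34.NDefs
import Fermat.Agent.S28.DegDefs

/-!
# S36, modular block : the structure `Three` (level `M₀ q²` over `T : Two D q`, level `M₀ q`)

`H : Three T i ζ` : the function field `H.F` of level `M₀ q²` as a subfield of `K((T))` (expansion
at `∞`), with the expansion `H.eB` at the cusp `0` and the expansion `H.eC` at the middle cusp
(coefficients in `K' ∋ ζ = ζ_q`).  Dictionary (`h ∈ T.F`):
`eA (α h) = e1 h`, `eA (β h) = V (e1 h)`, `eB (α h) = V (e2 h)`, `eB (β h) = e2 h`,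
`eC (α h) = e1 h`, `eC (β h) = (e2 h)(ζ T)`.
-/

set_option autoImplicit false
set_option linter.unusedSectionVars false

noncomputable section

namespace Fermat.Agent.S36

open ModularCurve Polynomial
open Fermat.Agent.ES.QE Fermat.Agent.ES.Model Fermat.Agent.S34

variable {R K k : Type*} [CommRing R] [IsDomain R] [IsNoetherianRing R] [IsIntegrallyClosed R]
  [Field K] [Algebra R K] [IsFractionRing R K] [Field k]

/-- The data of level `M₀ q²` over the data `T` of level `M₀ q`. -/
structure Three {D : QData R K k} {q : ℕ} [NeZero q] (T : Two D q)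
    {K' : Type*} [Field K'] (i : K →+* K') (ζ : K'ˣ) where
  /-- the function field of level `M₀ q²` -/
  F : IntermediateField K (LaurentSeries K)
  le : T.F ≤ F
  V_mem : ∀ u ∈ T.F, qExpand K q u ∈ F
  /-- the expansion at the cusp `0` -/
  eB : F →+* LaurentSeries K
  eB_alpha : ∀ (u : LaurentSeries K) (hu : u ∈ T.F), eB ⟨u, le hu⟩ = qExpand K q (T.e2 ⟨u, hu⟩)
  eB_beta : ∀ (u : LaurentSeries K) (hu : u ∈ T.F), eB ⟨qExpand K q u, V_mem u hu⟩ = T.e2 ⟨u, hu⟩
  /-- the expansion at the middle cusp -/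
  eC : F →+* LaurentSeries K'
  eC_alpha : ∀ (u : LaurentSeries K) (hu : u ∈ T.F), eC ⟨u, le hu⟩ = coeffMap i u
  eC_beta : ∀ (u : LaurentSeries K) (hu : u ∈ T.F),
    eC ⟨qExpand K q u, V_mem u hu⟩ = S28.twist ζ (coeffMap i (T.e2 ⟨u, hu⟩))
  span : ∀ f ∈ F, ∃ a : Fin q → LaurentSeries K, (∀ j, a j ∈ T.F) ∧
    f = ∑ j, a j * qExpand K q (qExpand K q (jqModC K)) ^ (j : ℕ)

namespace Three

variable {D : QData R K k} {q : ℕ} [NeZero q] {T : Two D q}
  {K' : Type*} [Field K'] {i : K →+* K'} {ζ : K'ˣ} (H : Three T i ζ)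

/-- `α : F_{M₀ q} → F_{M₀ q²}`, `u ↦ u`. -/
def al : T.F →+* H.F := (IntermediateField.inclusion H.le).toRingHom

/-- `β : F_{M₀ q} → F_{M₀ q²}`, `u ↦ u(T^q)`. -/
def be : T.F →+* H.F :=
  ((qExpand K q).comp (algebraMap T.F (LaurentSeries K))).codRestrict H.F
    (fun u => H.V_mem u u.2)

@[simp] lemma coe_al (u : T.F) : ((H.al u : H.F) : LaurentSeries K) = u := rfl

@[simp] lemma coe_be (u : T.F) :
    ((H.be u : H.F) : LaurentSeries K) = qExpand K q (u : LaurentSeries K) := rfl

/-- the expansion at `∞`. -/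
def eA : H.F →+* LaurentSeries K := algebraMap H.F (LaurentSeries K)

lemma eA_al (u : T.F) : H.eA (H.al u) = T.e1 u := rfl

lemma eA_be (u : T.F) : H.eA (H.be u) = qExpand K q (T.e1 u) := rfl

lemma eB_al (u : T.F) : H.eB (H.al u) = qExpand K q (T.e2 u) := H.eB_alpha u u.2

lemma eB_be (u : T.F) : H.eB (H.be u) = T.e2 u := H.eB_beta u u.2

lemma eC_al (u : T.F) : H.eC (H.al u) = coeffMap i (T.e1 u) := H.eC_alpha u u.2

lemma eC_be (u : T.F) : H.eC (H.be u) = S28.twist ζ (coeffMap i (T.e2 u)) := H.eC_beta u u.2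

/-- the uniformiser of the base. -/
def ϖF : H.F := algebraMap K H.F (algebraMap R K D.ϖ)

lemma ϖF_eq_al : H.ϖF = H.al T.ϖF := rfl

/-- the constants `R ⊆ F`. -/
def RF : Subring H.F := ((algebraMap K H.F).comp (algebraMap R K)).range

/-- `x = j(T)`, `y = j(T^q)`, `z = j(T^{q²})`. -/
def jx : H.F := H.al (T.al D.jF)
def jy : H.F := H.al (T.be D.jF)
def jz : H.F := H.be (T.be D.jF)

/-- the uniformiser of the middle component. -/
def tC : H.F := H.jz - H.jx

/-- the Gauss ring at `∞` (component `(2,0)`). -/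
def OA : Subring H.F := D.LamRing.comap H.eA

/-- the Gauss ring at `0` (component `(0,2)`). -/
def OB : Subring H.F := D.LamRing.comap H.eB

/-- the Gauss ring at the middle cusp (component `(1,1)`), `D'` the data over the ring with `ζ`. -/
def OC {R' : Type*} [CommRing R'] [IsDomain R'] [IsNoetherianRing R'] [IsIntegrallyClosed R']
    [Algebra R' K'] [IsFractionRing R' K'] (D' : QData R' K' k) : Subring H.F :=
  D'.LamRing.comap H.eC

/-- the semilocal Gauss ring. -/
def O {R' : Type*} [CommRing R'] [IsDomain R'] [IsNoetherianRing R'] [IsIntegrallyClosed R']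
    [Algebra R' K'] [IsFractionRing R' K'] (D' : QData R' K' k) : Subring H.F :=
  H.OA ⊓ H.OC D' ⊓ H.OB

variable (X : D.Coord)

/-- the chart: the integral closure of `R[x]` in `H.F`. -/
def chart : Subring H.F where
  carrier := {f | X.phi.IsIntegralElem (f : LaurentSeries K)}
  mul_mem' := fun {a b} ha hb => by
    show X.phi.IsIntegralElem ((a * b : H.F) : LaurentSeries K)
    rw [IntermediateField.coe_mul]
    exact RingHom.IsIntegralElem.mul _ ha hb
  one_mem' := by
    show X.phi.IsIntegralElem ((1 : H.F) : LaurentSeries K)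
    rw [IntermediateField.coe_one]
    exact X.phi.isIntegralElem_one
  add_mem' := fun {a b} ha hb => by
    show X.phi.IsIntegralElem ((a + b : H.F) : LaurentSeries K)
    rw [IntermediateField.coe_add]
    exact RingHom.IsIntegralElem.add _ ha hb
  zero_mem' := by
    show X.phi.IsIntegralElem ((0 : H.F) : LaurentSeries K)
    rw [IntermediateField.coe_zero]
    exact X.phi.isIntegralElem_zero
  neg_mem' := fun {a} ha => by
    show X.phi.IsIntegralElem ((-a : H.F) : LaurentSeries K)
    rw [IntermediateField.coe_neg]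
    exact RingHom.IsIntegralElem.neg _ ha

lemma mem_chart {f : H.F} : f ∈ H.chart X ↔ X.phi.IsIntegralElem (f : LaurentSeries K) := Iff.rfl

lemma al_mem_chart {b : T.F} (hb : b ∈ T.chart X) : H.al b ∈ H.chart X := hb

lemma al_mem_chart_iff {b : T.F} : H.al b ∈ H.chart X ↔ b ∈ T.chart X := Iff.rfl

/-- the coordinate in `H.F`. -/
def x : H.F := H.al (T.x X)

/-- the overlap of the charts `R[x]`, `R[1/x]`. -/
def chart12 : Subring H.F where
  carrier := {f | ∃ n : ℕ, H.x X ^ n * f ∈ H.chart X}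
  mul_mem' := by
    rintro a b ⟨n, hn⟩ ⟨m, hm⟩
    refine ⟨n + m, ?_⟩
    have : H.x X ^ (n + m) * (a * b) = (H.x X ^ n * a) * (H.x X ^ m * b) := by ring
    rw [this]
    exact mul_mem hn hm
  one_mem' := ⟨0, by rw [pow_zero, one_mul]; exact one_mem _⟩
  add_mem' := by
    rintro a b ⟨n, hn⟩ ⟨m, hm⟩
    refine ⟨n + m, ?_⟩
    have hx : H.x X ∈ H.chart X := X.x_mem_chart
    have : H.x X ^ (n + m) * (a + b)
        = H.x X ^ m * (H.x X ^ n * a) + H.x X ^ n * (H.x X ^ m * b) := by ring
    rw [this]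
    exact add_mem (mul_mem (pow_mem hx _) hn) (mul_mem (pow_mem hx _) hm)
  zero_mem' := ⟨0, by rw [mul_zero]; exact zero_mem _⟩
  neg_mem' := by
    rintro a ⟨n, hn⟩
    exact ⟨n, by rw [mul_neg]; exact neg_mem hn⟩

lemma ϖF_mem_chart : H.ϖF ∈ H.chart X := H.al_mem_chart X (T.ϖF_mem_chart X)

/-- `ϖ` as an element of the chart. -/
def ϖB : H.chart X := ⟨H.ϖF, H.ϖF_mem_chart X⟩

/-- the component `(2,0)` of the special fibre: `B ∩ ϖ O_A`. -/
def pA : Ideal (H.chart X) := Ideal.span {b | DivS H.OA H.ϖF 1 (b : H.F)}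

/-- the component `(0,2)` of the special fibre: `B ∩ ϖ O_B`. -/
def pB : Ideal (H.chart X) := Ideal.span {b | DivS H.OB H.ϖF 1 (b : H.F)}

/-- the (reduced) component `(1,1)` of the special fibre: `B ∩ t_C O_C`. -/
def pC {R' : Type*} [CommRing R'] [IsDomain R'] [IsNoetherianRing R'] [IsIntegrallyClosed R']
    [Algebra R' K'] [IsFractionRing R' K'] (D' : QData R' K' k) : Ideal (H.chart X) :=
  Ideal.span {b | DivS (H.OC D') H.tC 1 (b : H.F)}

/-- `α` on the charts. -/
def alB : T.chart X →+* H.chart X :=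
  (H.al.comp (T.chart X).subtype).codRestrict (H.chart X) (fun b => H.al_mem_chart X b.2)

end Three

end Fermat.Agent.S36
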