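import Fermat.Agent.S36.CuspUnitAbs
import Fermat.Agent.S36.NodeCusp
import Fermat.Agent.S36.BrDich
import Fermat.Agent.S36.TDefs

/-!
# S36 [C2](b)(c) : `ρ = j_z / j_x` is a unit at a cusp of the middle component, on `H : Three`
-/

set_option autoImplicit false
set_option linter.unusedSectionVars false
set_option linter.unusedVariables false

noncomputable section

namespace Fermat.Agent.S36

open ModularCurve Polynomial
open Fermat.Agent.ES.QE Fermat.Agent.ES.Model Fermat.Agent.S34 Fermat.Agent.S34.QNode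
  Fermat.Agent.S35

variable {R K k : Type*} [CommRing R] [IsDomain R] [IsNoetherianRing R] [IsIntegrallyClosed R]
  [Field K] [Algebra R K] [IsFractionRing R K] [Field k]
  {D : QData R K k} {q : ℕ} [NeZero q]

/-- the congruence of `θ' = x^q / β(x)` : `θ' ≡ 1` on component 1. -/
theorem theta'_cong (T : Two D q) (X : D.Coord)
    (hxq : qExpand k q (D.red X.xW) = D.red X.xW ^ q)
    (θ' : T.chart X) (hθ' : (θ' : T.F) * T.be X.x = T.x X ^ q) : θ' - 1 ∈ T.p1 X := by
  have hx0 := red_xW_ne_zero X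
  have hb1 : ((T.be X.x : T.F) : LaurentSeries K) ∈ D.LamRing :=
    NOrth.mem_LamRing_of_qExpand_inc q X.xW
  have hrb1 : T.rho1 ⟨T.be X.x, hb1⟩ = D.red X.xW ^ q := by
    have h3 := NOrth.rho_qExpand q (QData.inc_mem_LamRing (D := D) X.xW)
    rw [QData.rho_inc, hxq] at h3
    exact h3
  have e1 : r1 T X θ' * D.red X.xW ^ q = D.red X.xW ^ q := by
    have h3 : r1 T X θ' * T.rho1 ⟨T.be X.x, hb1⟩ = r1 T X (xB T X ^ q) := by
      show T.rho1 _ * T.rho1 _ = T.rho1 _
      rw [← map_mul]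
      congr 1
      exact Subtype.ext hθ'
    rw [hrb1, map_pow, r1_xB] at h3
    exact h3
  rw [mem_p1_iff, map_sub, map_one, sub_eq_zero]
  apply mul_right_cancel₀ (pow_ne_zero q hx0)
  rw [e1, one_mul]

variable {T : Two D q} {K' : Type*} [Field K'] {i : K →+* K'} {ζ : K'ˣ} (H : Three T i ζ)
  {R' : Type*} [CommRing R'] [IsDomain R'] [IsNoetherianRing R'] [IsIntegrallyClosed R']
  [Algebra R' K'] [IsFractionRing R' K'] {D' : QData R' K' k}

theorem be_const (T : Two D q) (c : K) : T.be (algebraMap K D.F0 c) = algebraMap K T.F c := by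
  apply Subtype.ext
  rw [T.coe_be]
  have h2 : ((algebraMap K D.F0 c : D.F0) : LaurentSeries K) = HahnSeries.C c := algebraMap_eq_C _
  rw [h2, qExpand_C]
  exact (algebraMap_eq_C _).symm

theorem Three.be_const (c : K) : H.be (algebraMap K T.F c) = algebraMap K H.F c := by
  apply Subtype.ext
  rw [H.coe_be]
  have h2 : ((algebraMap K T.F c : T.F) : LaurentSeries K) = HahnSeries.C c := algebraMap_eq_C _
  rw [h2, qExpand_C]
  exact (algebraMap_eq_C _).symm

/-- **[C2]** : `ρ = j_z / j_x` is a unit at a cusp `n` of the middle component. -/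
theorem cusp_unit (X : D.Coord) {nA nB : H.F →* T.F}
    (L : Lvl1 q T.O1 T.O2 T.ϖF H.OA (H.OC D') H.OB H.ϖF H.tC H.al H.be nA nB)
    (hq : q.Prime) [CharP k q] (hxq : qExpand k q (D.red X.xW) = D.red X.xW ^ q)
    (θ θ' : T.chart X) (hθ : (θ : T.F) * T.x X = T.be X.x ^ q)
    (hθ' : (θ' : T.F) * T.be X.x = T.x X ^ q)
    (hbe1 : ∀ c ∈ X.chart, T.be c ∈ T.chart X) (hbe2 : ∀ b ∈ T.chart X, H.be b ∈ H.chart X)
    (hroot : ∀ f : H.F, f ^ q ∈ H.chart X → f ∈ H.chart X)
    (memM : ∀ b : H.chart X, b ∈ H.pC X D' ↔ DivS (H.OC D') H.tC 1 (b : H.F))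
    (n : Ideal (H.chart X)) [n.IsPrime] (hM : H.pC X D' ≤ n)
    (hxn : (⟨H.x X, X.x_mem_chart⟩ : H.chart X) ∈ n)
    (a : ℕ) (P : R[X]) (r' : R) (hr : P.coeff 0 * r' = 1)
    (hrel : jqModC R * X.xW ^ a = evS X.xW P) :
    ∃ s b : H.chart X, s ∉ n ∧ b ∉ n ∧ (s : H.F) * (H.jz / H.jx) = b := by
  have hn1 : (1 : H.chart X) ∉ n := fun h =>
    (Ideal.IsPrime.ne_top ‹_›) ((Ideal.eq_top_iff_one n).2 h)
  -- the relation in `D.F0`
  have hrel0 : D.jF * X.x ^ a = X.phiF P := by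
    apply Subtype.ext
    have h1 := congrArg D.inc hrel
    rw [map_mul, map_pow] at h1
    have h2 : D.inc (jqModC R) = jqModC K := coeffMap_jqModC _
    rw [h2] at h1
    exact h1
  have hP : X.phiF P = X.phiF (C (P.coeff 0)) + X.x * X.phiF (divX P) := by
    conv_lhs => rw [← divX_mul_X_add P]
    rw [map_add, map_mul, X.phiF_X]
    ring
  have hx0 : X.x ≠ 0 := by
    intro h
    have h1 : D.inc X.xW = 0 := congrArg Subtype.val h
    have h2 : X.xW = 0 := D.inc_injective (by rw [h1, map_zero])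
    exact red_xW_ne_zero X (by rw [h2, map_zero])
  set φA : D.F0 →+* H.F := H.al.comp T.al with hφA
  set φB : D.F0 →+* H.F := H.be.comp T.be with hφB
  have hmemA : ∀ c ∈ X.chart, φA c ∈ H.chart X := fun c hc => hc
  have hmemB : ∀ c ∈ X.chart, φB c ∈ H.chart X := fun c hc => hbe2 _ (hbe1 c hc)
  have hconst : ∀ c : R, φB (X.phiF (C c)) = φA (X.phiF (C c)) := by
    intro c
    rw [X.phiF_C, hφB, RingHom.comp_apply, be_const, H.be_const]
    rfl
  have hyy : H.al (T.be X.x) = H.be (T.x X) := Subtype.ext rfl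
  -- the elements
  let xB' : H.chart X := ⟨H.x X, X.x_mem_chart⟩
  let yB' : H.chart X := ⟨H.al (T.be X.x), H.al_mem_chart X (hbe1 _ X.x_mem_chart)⟩
  let zB' : H.chart X := ⟨φB X.x, hmemB _ X.x_mem_chart⟩
  let θa : H.chart X := ⟨H.al θ', H.al_mem_chart X θ'.2⟩
  let θb : H.chart X := ⟨H.be θ, hbe2 _ θ.2⟩
  let p0 : H.chart X := ⟨φA (X.phiF (C (P.coeff 0))), hmemA _ (X.phiF_mem_chart _)⟩
  let p0' : H.chart X := ⟨φA (X.phiF (C r')), hmemA _ (X.phiF_mem_chart _)⟩
  let ux : H.chart X := ⟨φA (X.phiF (divX P)), hmemA _ (X.phiF_mem_chart _)⟩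
  let uz : H.chart X := ⟨φB (X.phiF (divX P)), hmemB _ (X.phiF_mem_chart _)⟩
  have hp0 : p0 ∉ n := by
    intro h
    apply hn1
    have h1 : p0 * p0' = 1 := by
      apply Subtype.ext
      show φA (X.phiF (C (P.coeff 0))) * φA (X.phiF (C r')) = 1
      rw [← map_mul, ← map_mul, ← C_mul, hr, C_1, map_one, map_one]
    rw [← h1]
    exact n.mul_mem_right _ h
  have hPx : H.jx * ((xB' : H.chart X) : H.F) ^ a = ((p0 + xB' * ux : H.chart X) : H.F) := by
    show φA D.jF * (φA X.x) ^ a = φA (X.phiF (C (P.coeff 0))) + φA X.x * φA (X.phiF (divX P))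
    rw [← map_pow, ← map_mul, hrel0, hP, map_add, map_mul]
  have hPz : H.jz * ((zB' : H.chart X) : H.F) ^ a = ((p0 + zB' * uz : H.chart X) : H.F) := by
    show φB D.jF * (φB X.x) ^ a = φA (X.phiF (C (P.coeff 0))) + φB X.x * φB (X.phiF (divX P))
    rw [← map_pow, ← map_mul, hrel0, hP, map_add, map_mul, hconst]
  have hθa : θa - 1 ∈ n := by
    apply hM
    rw [memM]
    have h1 := (mem_p1 T X _).1 (theta'_cong T X hxq θ' hθ')
    obtain ⟨g, hg, hge⟩ := h1
    refine BrDich.divS_M_of L hq.two_le ⟨H.al g, (L.al_M g).2 hg, ?_⟩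
    show H.al (θ' : T.F) - 1 = _
    have h2 : (θ' : T.F) - 1 = T.ϖF ^ 1 * g := hge
    rw [← map_one H.al, ← map_sub, h2, map_mul, map_pow, L.al_unif]
  have hθb : θb - 1 ∈ n := by
    apply hM
    rw [memM]
    have h1 := (mem_p2 T X _).1 (theta_cong T X hq hxq θ hθ).2
    obtain ⟨g, hg, hge⟩ := h1
    refine BrDich.divS_M_of L hq.two_le ⟨H.be g, (L.be_M g).2 hg, ?_⟩
    show H.be (θ : T.F) - 1 = _
    have h2 : (θ : T.F) - 1 = T.ϖF ^ 1 * g := hge
    rw [← map_one H.be, ← map_sub, h2, map_mul, map_pow, L.be_unif]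
  have hxB0 : xB' ≠ 0 := by
    intro h
    have h1 : φA X.x = 0 := congrArg Subtype.val h
    exact hx0 ((map_eq_zero φA).1 h1)
  have hyB0 : yB' ≠ 0 := by
    intro h
    have h1 : H.al (T.be X.x) = 0 := congrArg Subtype.val h
    exact hx0 ((map_eq_zero T.be).1 ((map_eq_zero H.al).1 h1))
  have hzB0 : zB' ≠ 0 := by
    intro h
    have h1 : φB X.x = 0 := congrArg Subtype.val h
    exact hx0 ((map_eq_zero φB).1 h1)
  have hjx : H.jx ≠ 0 := by
    intro h
    rw [h, zero_mul] at hPx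
    have h1 : p0 + xB' * ux = 0 := Subtype.ext hPx.symm
    apply hp0
    have h2 : p0 = -(xB' * ux) := eq_neg_of_add_eq_zero_left h1
    rw [h2]
    exact n.neg_mem (n.mul_mem_right _ hxn)
  refine cusp_unit_abs (H.chart X) q hq.pos hroot n xB' yB' zB' hxB0 hyB0 hzB0 H.jx H.jz hjx θa θb
    ?_ ?_ hθa hθb hxn a p0 ux uz hp0 hPx hPz
  · apply Subtype.ext
    show H.al (θ' : T.F) * H.al (T.be X.x) = (H.al (T.x X)) ^ q
    rw [← map_mul, hθ', map_pow]
  · apply Subtype.ext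
    show H.be (θ : T.F) * H.al (T.be X.x) = (H.be (T.be X.x)) ^ q
    rw [hyy, ← map_mul, hθ, map_pow]

end Fermat.Agent.S36
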