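import Fermat.Agent.S36.TDefs
import Fermat.Agent.S34.NGen

/-!
# S36, modular block : general properties of the chart `H.chart X` of level `M₀ q²`

noetherian, fraction field, finiteness over `R[x]`, and the generic fibre `B[1/ϖ]`
(a Dedekind domain, the integral closure of `K[x]`).  Port of `S34/NGen.lean`.
-/

set_option autoImplicit false
set_option linter.unusedSectionVars false
set_option linter.style.haveILetI false
set_option synthInstance.maxHeartbeats 400000

noncomputable section

namespace Fermat.Agent.S36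

open ModularCurve Polynomial
open Fermat.Agent.ES.QE Fermat.Agent.ES.Model Fermat.Agent.ES.HDivDesc Fermat.Agent.S34

variable {R K k : Type*} [CommRing R] [IsDomain R] [IsNoetherianRing R] [IsIntegrallyClosed R]
  [Field K] [Algebra R K] [IsFractionRing R K] [Field k]
  {D : QData R K k} {q : ℕ} [NeZero q] {T : Two D q}
  {K' : Type*} [Field K'] {i : K →+* K'} {ζ : K'ˣ} (H : Three T i ζ) (X : D.Coord)

namespace Three

/-- `R[X] → H.F`, `X ↦ x`. -/
def phiT : R[X] →+* H.F := H.al.comp (T.phiT X)

lemma coe_phiT (σ : R[X]) : ((H.phiT X σ : H.F) : LaurentSeries K) = X.phi σ := rfl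

lemma phiT_injective : Function.Injective (H.phiT X) :=
  H.al.injective.comp (T.phiT_injective X)

lemma mem_chart_iffG (f : H.F) : f ∈ H.chart X ↔ (H.phiT X).IsIntegralElem f := by
  rw [H.mem_chart]
  constructor
  · intro h
    exact isIntegralElem_of_injective (H.phiT X) (algebraMap H.F (LaurentSeries K))
      (algebraMap H.F (LaurentSeries K)).injective h
  · rintro ⟨p, hp, h⟩
    refine ⟨p, hp, ?_⟩
    have := congrArg (algebraMap H.F (LaurentSeries K)) h
    rw [map_zero, hom_eval₂] at this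
    exact this

/-- the spanning family. -/
def bT (p : (Fin D.n × Fin (q + 1)) × Fin q) : H.F := H.al (T.bT p.1) * H.jz ^ (p.2 : ℕ)

theorem exists_span (f : H.F) :
    ∃ (c : (Fin D.n × Fin (q + 1)) × Fin q → R[X]) (d : R[X]), d ≠ 0 ∧
      H.phiT X d * f = ∑ p, H.phiT X (c p) * H.bT p := by
  classical
  obtain ⟨a, ha, hf⟩ := H.span f f.2
  choose c d hd h using fun l => T.exists_span X ⟨a l, ha l⟩
  refine ⟨fun p => c p.2 p.1 * ∏ l ∈ Finset.univ.erase p.2, d l, ∏ l, d l,
    Finset.prod_ne_zero_iff.mpr fun l _ => hd l, ?_⟩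
  have hf' : f = ∑ l, H.al ⟨a l, ha l⟩ * H.jz ^ (l : ℕ) := by
    apply Subtype.ext
    rw [hf, IntermediateField.coe_sum]
    refine Finset.sum_congr rfl fun l _ => ?_
    rw [IntermediateField.coe_mul, IntermediateField.coe_pow]
    rfl
  rw [Fintype.sum_prod_type_right, hf', Finset.mul_sum]
  refine Finset.sum_congr rfl fun l _ => ?_
  have h1 : H.phiT X (d l) * H.al ⟨a l, ha l⟩ = ∑ i, H.phiT X (c l i) * H.al (T.bT i) := by
    have := congrArg H.al (h l)
    rw [map_mul, map_sum] at this
    simp only [map_mul] at this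
    exact this
  rw [← Finset.mul_prod_erase Finset.univ d (Finset.mem_univ l), map_mul]
  calc H.phiT X (d l) * H.phiT X (∏ x ∈ Finset.univ.erase l, d x) *
        (H.al ⟨a l, ha l⟩ * H.jz ^ (l : ℕ))
      = H.phiT X (∏ x ∈ Finset.univ.erase l, d x) * H.jz ^ (l : ℕ) *
          (H.phiT X (d l) * H.al ⟨a l, ha l⟩) := by ring
    _ = _ := by
      rw [h1, Finset.mul_sum]
      refine Finset.sum_congr rfl fun i _ => ?_
      rw [map_mul, bT]
      ring

variable [CharZero K]

instance charZero_F : CharZero H.F := charZero_of_injective_algebraMap (algebraMap K H.F).injective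

/-- **[C1]** -/
theorem isNoetherianRing_chart : IsNoetherianRing (H.chart X) :=
  GenInt.isNoetherianRing (H.phiT X) (H.phiT_injective X) H.bT (H.exists_span X) (H.chart X)
    (H.mem_chart_iffG X)

/-- **[C2]** -/
theorem isFractionRing_chart : IsFractionRing (H.chart X) H.F :=
  GenInt.isFractionRing (H.phiT X) (H.phiT_injective X) H.bT (H.exists_span X) (H.chart X)
    (H.mem_chart_iffG X)

lemma phiT_mem_closure (σ : R[X]) :
    H.phiT X σ ∈ Subring.closure ((H.RF : Set H.F) ∪ {H.x X}) := by
  induction σ using Polynomial.induction_on' with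
  | add p q hp hq => rw [map_add]; exact add_mem hp hq
  | monomial n a =>
    rw [← C_mul_X_pow_eq_monomial, map_mul, map_pow]
    have e1 : H.phiT X (C a) = algebraMap K H.F (algebraMap R K a) := by
      rw [phiT, RingHom.comp_apply, Two.phiT, RingHom.comp_apply, X.phiF_C]
      rfl
    have e2 : H.phiT X Polynomial.X = H.x X := by
      rw [phiT, RingHom.comp_apply, Two.phiT, RingHom.comp_apply, X.phiF_X]
      rfl
    rw [e1, e2]
    have h1 : algebraMap K H.F (algebraMap R K a) ∈
        Subring.closure ((H.RF : Set H.F) ∪ {H.x X}) :=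
      Subring.subset_closure (Set.mem_union_left _ ⟨a, rfl⟩)
    have h2 : H.x X ∈ Subring.closure ((H.RF : Set H.F) ∪ {H.x X}) :=
      Subring.subset_closure (Set.mem_union_right _ (Set.mem_singleton _))
    exact mul_mem h1 (pow_mem h2 n)

/-- **hfin**, in the shape of `inj_abs` / `uni_asm`. -/
theorem hfin_chart : ∃ S : Finset H.F, ∀ f ∈ H.chart X,
    f ∈ Submodule.span (Subring.closure ((H.RF : Set H.F) ∪ {H.x X})) (S : Set H.F) :=
  GenInt.hfin (H.phiT X) (H.phiT_injective X) H.bT (H.exists_span X) (H.chart X)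
    (H.mem_chart_iffG X) _ (H.phiT_mem_closure X)

/-! ### the generic fibre -/

/-- `K[X] → H.F`, `X ↦ x`. -/
def psiT : K[X] →+* H.F := ((aeval (H.x X) : K[X] →ₐ[K] H.F) : K[X] →+* H.F)

omit [CharZero K] in
lemma psiT_eq (p : K[X]) : H.psiT X p = H.al (T.psiT X p) := by
  change aeval (H.x X) p = (IntermediateField.inclusion H.le) (aeval (T.x X) p)
  rw [← Polynomial.aeval_algHom_apply]
  rfl

omit [CharZero K] in
lemma psiT_map (σ : R[X]) : H.psiT X (σ.map (algebraMap R K)) = H.phiT X σ := by
  rw [psiT_eq, T.psiT_map]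
  rfl

omit [CharZero K] in
lemma psiT_injective : Function.Injective (H.psiT X) := by
  intro a b h
  rw [psiT_eq, psiT_eq] at h
  exact T.psiT_injective X (H.al.injective h)

omit [CharZero K] in
theorem exists_spanK (f : H.F) :
    ∃ (c : (Fin D.n × Fin (q + 1)) × Fin q → K[X]) (d : K[X]), d ≠ 0 ∧
      H.psiT X d * f = ∑ p, H.psiT X (c p) * H.bT p := by
  obtain ⟨c, d, hd, h⟩ := H.exists_span X f
  refine ⟨fun p => (c p).map (algebraMap R K), d.map (algebraMap R K), ?_, ?_⟩
  · rw [Ne, Polynomial.map_eq_zero_iff (IsFractionRing.injective R K)]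
    exact hd
  · simp only [psiT_map]
    exact h

omit [CharZero K] in
lemma coe_psiT (p : K[X]) : ((H.psiT X p : H.F) : LaurentSeries K) = evS (D.inc X.xW) p := by
  rw [psiT_eq]
  exact T.coe_psiT X p

omit [CharZero K] in
lemma coe_ϖF : (H.ϖF : LaurentSeries K) = D.ϖE := algebraMap_eq_C _

omit [CharZero K] in
lemma ϖF_ne_zero : H.ϖF ≠ 0 := by
  intro h
  apply D.ϖE_ne_zero
  rw [← H.coe_ϖF, h]
  rfl

/-- the generic fibre `B[1/ϖ]`. -/
def away : Subring H.F := awayS (H.chart X) H.ϖF (H.ϖF_mem_chart X)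

omit [CharZero K] in
theorem mem_away_iff (hK : IsAway D) (f : H.F) :
    f ∈ H.away X ↔ (H.psiT X).IsIntegralElem f := by
  constructor
  · rintro ⟨c, hc⟩
    rw [H.mem_chart_iffG] at hc
    obtain ⟨p, hp, h⟩ := hc
    have h1 : (H.psiT X).IsIntegralElem (H.ϖF ^ c * f) := by
      refine ⟨p.map (mapRingHom (algebraMap R K)), hp.map _, ?_⟩
      rw [eval₂_map]
      have : (H.psiT X).comp (mapRingHom (algebraMap R K)) = H.phiT X :=
        RingHom.ext fun σ => H.psiT_map X σ
      rw [this]
      exact h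
    have h2 : (H.psiT X).IsIntegralElem ((H.ϖF ^ c)⁻¹) := by
      have : (H.ϖF ^ c)⁻¹ = H.psiT X (C ((algebraMap R K D.ϖ ^ c)⁻¹)) := by
        change _ = aeval (H.x X) (C ((algebraMap R K D.ϖ ^ c)⁻¹))
        rw [aeval_C, map_inv₀, map_pow]
        rfl
      rw [this]
      exact (H.psiT X).isIntegralElem_map
    have h3 := RingHom.IsIntegralElem.mul _ h2 h1
    rwa [inv_mul_cancel_left₀ (pow_ne_zero c H.ϖF_ne_zero)] at h3
  · rintro ⟨p, hp, h⟩
    have h1 : (evS (D.inc X.xW)).IsIntegralElem (f : LaurentSeries K) := by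
      refine ⟨p, hp, ?_⟩
      have := congrArg (algebraMap H.F (LaurentSeries K)) h
      rw [map_zero, hom_eval₂] at this
      have e : (algebraMap H.F (LaurentSeries K)).comp (H.psiT X) = evS (D.inc X.xW) :=
        RingHom.ext fun σ => H.coe_psiT X σ
      rw [e] at this
      exact this
    obtain ⟨c, hc⟩ := exists_pow_mul_isIntegralElem X.phi (evS (D.inc X.xW)) D.ϖE
      (exists_pow_mul_mem_range X hK) h1
    refine ⟨c, ?_⟩
    rw [H.mem_chart, IntermediateField.coe_mul, IntermediateField.coe_pow, H.coe_ϖF]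
    exact hc

omit [CharZero K] in
/-- membership in the generic fibre, in terms of the series. -/
theorem mem_away_iff_series (hK : IsAway D) (f : H.F) :
    f ∈ H.away X ↔ (evS (D.inc X.xW)).IsIntegralElem (f : LaurentSeries K) := by
  rw [H.mem_away_iff X hK]
  have e : (algebraMap H.F (LaurentSeries K)).comp (H.psiT X) = evS (D.inc X.xW) :=
    RingHom.ext fun σ => H.coe_psiT X σ
  constructor
  · rintro ⟨p, hp, h⟩
    refine ⟨p, hp, ?_⟩
    have := congrArg (algebraMap H.F (LaurentSeries K)) h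
    rw [map_zero, hom_eval₂, e] at this
    exact this
  · intro h
    rw [← e] at h
    exact isIntegralElem_of_injective (H.psiT X) (algebraMap H.F (LaurentSeries K))
      (algebraMap H.F (LaurentSeries K)).injective h

/-- **[C6]** : `B[1/ϖ]` is a Dedekind domain. -/
theorem isDedekindDomain_away (hK : IsAway D) : IsDedekindDomain (H.away X) :=
  GenInt.isDedekindDomain (H.psiT X) (H.psiT_injective X) H.bT (H.exists_spanK X) (H.away X)
    (H.mem_away_iff X hK)

/-- **[C6]** : `Frac B[1/ϖ] = F`. -/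
theorem isFractionRing_away (hK : IsAway D) : IsFractionRing (H.away X) H.F :=
  GenInt.isFractionRing (H.psiT X) (H.psiT_injective X) H.bT (H.exists_spanK X) (H.away X)
    (H.mem_away_iff X hK)

omit [CharZero K] in
/-- the constants lie in the chart. -/
lemma RF_le_chartG : H.RF ≤ H.chart X := by
  rintro _ ⟨r, rfl⟩
  exact H.al_mem_chart X (T.RF_le_chart X ⟨r, rfl⟩)

/-- `R → B`. -/
@[reducible] def algRB : Algebra R (H.chart X) :=
  (((algebraMap K H.F).comp (algebraMap R K)).codRestrict (H.chart X)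
    (fun r => H.RF_le_chartG X ⟨r, rfl⟩)).toAlgebra

omit [CharZero K] in
lemma algebraMap_ϖ :
    letI := H.algRB X
    algebraMap R (H.chart X) D.ϖ = H.ϖB X := rfl

/-- `B → B[1/ϖ]`. -/
@[reducible] def algBD : Algebra (H.chart X) (H.away X) :=
  algAwayS (H.chart X) H.ϖF (H.ϖF_mem_chart X)

omit [CharZero K] in
theorem tower_away :
    letI := H.algBD X
    IsScalarTower (H.chart X) (H.away X) H.F :=
  tower_awayS (H.chart X) H.ϖF (H.ϖF_mem_chart X)

omit [CharZero K] in
/-- **[C6]** : `B[1/ϖ]` is the localisation of `B` away from `ϖ`. -/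
theorem isLocalization_away :
    letI := H.algRB X
    letI := H.algBD X
    IsLocalization.Away (algebraMap R (H.chart X) D.ϖ) (H.away X) :=
  isLocalization_awayS (H.chart X) H.ϖF (H.ϖF_mem_chart X) H.ϖF_ne_zero

omit [CharZero K] in
/-- the chart is closed under roots. -/
theorem root_chart (m : ℕ) (hm : 0 < m) (f : H.F) (h : f ^ m ∈ H.chart X) : f ∈ H.chart X := by
  rw [H.mem_chart_iffG] at h ⊢
  letI := (H.phiT X).toAlgebra
  exact IsIntegral.of_pow (R := R[X]) hm h

omit [CharZero K] in
/-- **`Chart3.frac`.** -/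
theorem frac_chart [CharZero K] (f : H.F) :
    ∃ a ∈ H.chart X, ∃ b ∈ H.chart X, b ≠ 0 ∧ f * b = a := by
  haveI := H.isFractionRing_chart X
  obtain ⟨a, b, hb, h⟩ := IsFractionRing.div_surjective (A := H.chart X) f
  have hb0 : (b : H.F) ≠ 0 := by
    intro h0
    exact nonZeroDivisors.ne_zero hb (Subtype.ext h0)
  refine ⟨a, a.2, b, b.2, hb0, ?_⟩
  rw [← h]
  exact div_mul_cancel₀ _ hb0

end Three

end Fermat.Agent.S36
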