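import Fermat.Agent.S36.DCentre
import Fermat.Agent.S36.TGen
import Fermat.Agent.ES.InstDesc
import Fermat.Agent.ES.InstUp

/-!
# S36 / G-REG : places of `FF N` over the primes of the generic fibre `H.away X` (level `q²`)

`exists_place_away3` : every nonzero prime `Q` of `H.away X` is the centre of a place `W` of
`FF N / ℚ̄` at which `x` is finite.
-/

set_option autoImplicit false
set_option linter.style.haveILetI false
set_option linter.unusedSectionVars false
set_option synthInstance.maxHeartbeats 400000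

noncomputable section

namespace Fermat.Agent.S36.DCentre

open ModularCurve AlgebraicCurve Polynomial IntermediateField IsDedekindDomain
open Fermat.Agent.S24 Fermat.Agent.S28 Fermat.Agent.ES Fermat.Agent.ES.QE Fermat.Agent.ES.IDvr
  Fermat.Agent.ES.Inst Fermat.Agent.S34

variable {K0 : IntermediateField ℚ Kb} {A : ValuationSubring Kb}
  [IsDiscreteValuationRing (R0 K0 A)] {D : QData (R0 K0 A) K0 (kA A)} {q : ℕ} [NeZero q]
  {T : Two D q} {K' : Type*} [Field K'] {i : K0 →+* K'} {ζ : K'ˣ}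

theorem exists_place_away3 (N : ℕ) (H : Three T i ζ) (X : D.Coord) (ι : H.F →+* FF N)
    (hι : ∀ f : H.F, ((ι f : FF N) : LaurentSeries Kb) = bc K0 (f : LaurentSeries K0))
    (htr : Transcendental Kb (ι (H.x X))) [FiniteDimensional Kb⟮ι (H.x X)⟯ (FF N)]
    (Q : Ideal (H.away X)) [Q.IsPrime] (hQ : Q ≠ ⊥) :
    ∃ W : Place Kb (FF N), 0 ≤ W.ord (ι (H.x X)) ∧
      (∀ b : H.away X, 0 ≤ W.ord (ι (b : H.F))) ∧
      (∀ (n : ℕ) (b : H.away X), b ∈ Q ^ n → b ≠ 0 → (n : ℤ) ≤ W.ord (ι (b : H.F))) ∧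
      ∀ b : H.away X, b ∉ Q → W.ord (ι (b : H.F)) = 0 := by
  have hK := InstDesc.isAway_of_dvr D
  let y : FF N := ι (H.x X)
  let α : Kb[X] →+* FF N := ((aeval y : Kb[X] →ₐ[Kb] FF N) : Kb[X] →+* FF N)
  let κ : K0 →+* Kb := algebraMap K0 Kb
  have halg : Algebra.IsAlgebraic ℚ Kb := AlgebraicClosure.isAlgebraic ℚ
  have : Algebra.IsAlgebraic K0 Kb := Algebra.IsAlgebraic.tower_top (K := ℚ) K0
  have hκ : ∀ c : Kb, κ.IsIntegralElem c := fun c =>
    (Algebra.IsIntegral.isIntegral (R := K0) c)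
  let ψ : H.away X →+* FF N := ι.comp (H.away X).subtype
  have hψ : Function.Injective ψ := ι.injective.comp Subtype.val_injective
  have hcst : ∀ a : K0, ι (algebraMap K0 H.F a) = algebraMap Kb (FF N) (κ a) := fun a =>
    Subtype.ext ((hι _).trans (InstUp.bc_algebraMap K0 a))
  have hcomp : α.comp (mapRingHom κ) = ι.comp (H.psiT X) := by
    apply Polynomial.ringHom_ext
    · intro a
      show aeval y (Polynomial.map κ (C a)) = ι (aeval (H.x X) (C a))
      rw [Polynomial.map_C, aeval_C, aeval_C, hcst]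
    · show aeval y (Polynomial.map κ Polynomial.X) = ι (aeval (H.x X) Polynomial.X)
      rw [Polynomial.map_X, aeval_X, aeval_X]
  have hmem : ∀ p, H.psiT X p ∈ H.away X := fun p =>
    (H.mem_away_iff X hK _).2 (H.psiT X).isIntegralElem_map
  have hcomp2 : ι.comp (H.psiT X) = ψ.comp ((H.psiT X).codRestrict (H.away X) hmem) := rfl
  have hint : ∀ b, α.IsIntegralElem (ψ b) := by
    intro b
    obtain ⟨p, hp, hp0⟩ := (H.mem_away_iff X hK _).1 b.2
    refine ⟨p.map (mapRingHom κ), hp.map _, ?_⟩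
    rw [eval₂_map, hcomp]
    show eval₂ (ι.comp (H.psiT X)) (ι (b : H.F)) p = 0
    rw [← hom_eval₂, hp0, map_zero]
  have hint' : ∀ e : FF N, α.IsIntegralElem e → ψ.IsIntegralElem e := by
    intro e he
    have h1 : (α.comp (mapRingHom κ)).IsIntegralElem e := by
      letI : Algebra K0[X] Kb[X] := (mapRingHom κ).toAlgebra
      letI : Algebra Kb[X] (FF N) := α.toAlgebra
      letI : Algebra K0[X] (FF N) := (α.comp (mapRingHom κ)).toAlgebra
      haveI : IsScalarTower K0[X] Kb[X] (FF N) := IsScalarTower.of_algebraMap_eq fun _ => rfl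
      haveI : Algebra.IsIntegral K0[X] Kb[X] := ⟨UDesc.mapRingHom_isIntegral κ hκ⟩
      exact isIntegral_trans (R := K0[X]) (A := Kb[X]) e he
    rw [hcomp, hcomp2] at h1
    exact RingHom.IsIntegralElem.of_comp h1
  obtain ⟨W, h1, h2, h3, h4⟩ := exists_place_centre y htr ψ hψ hint hint' Q hQ
  exact ⟨W, FF.ord_nonneg_of_mem W h1, fun b => FF.ord_nonneg_of_mem W (h2 _ (hint b)), h3, h4⟩

end Fermat.Agent.S36.DCentre
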