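import Fermat.Agent.S35.GNorm
import Fermat.Agent.S35.GDV
import Fermat.Agent.S34.NVal

/-!
# S36, geometry, modular block : the middle valuation  ([T-MID])

`D : QData R K k` is the data over the ring containing `ζ = ζ_q` (`ζ - 1 = ϖ * unit`).
For an embedding `e : F → K((T))` with bounded image and `x', z' : F` with
`e z' = (e x')(ζ T)`, `e x' = inc xW`, `θ (red xW) ≠ 0`:

* `isDV_mid` : `Λ.comap e` is a discrete valuation ring with uniformiser `t = z' - x'`;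
* `exists_ram` : `t ^ (q - 1) = q * w` with `w` a unit.
-/

set_option autoImplicit false
set_option linter.unusedSectionVars false

noncomputable section

namespace Fermat.Agent.S36

open ModularCurve Polynomial
open Fermat.Agent.S34 Fermat.Agent.S35 Fermat.Agent.ES.QE Fermat.Agent.ES.Model

variable {R K k : Type*} [CommRing R] [IsDomain R] [IsNoetherianRing R] [IsIntegrallyClosed R]
  [Field K] [Algebra R K] [IsFractionRing R K] [Field k]

namespace Mid

variable {D : QData R K k}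

/-! ### units of `Λ` -/

theorem inc_ne_zero {w : LaurentSeries R} (hw : D.red w ≠ 0) : D.inc w ≠ 0 := by
  intro h0
  have : w = 0 := D.inc_injective (by rw [h0, map_zero])
  exact hw (by rw [this, map_zero])

theorem isU_inc {w : LaurentSeries R} (hw : D.red w ≠ 0) : IsU D.LamRing (D.inc w) :=
  ⟨inc_ne_zero hw, QData.inc_mem_LamRing w,
    ⟨w, 1, hw, by rw [map_one, mul_inv_cancel₀ (inc_ne_zero hw)]⟩⟩

theorem ϖE_mem : D.ϖE ∈ D.LamRing := by
  rw [← D.inc_ϖW]; exact QData.inc_mem_LamRing _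

theorem ϖE_inv_notMem : D.ϖE⁻¹ ∉ D.LamRing := by
  rintro ⟨t, w, ht, h⟩
  apply ht
  rw [D.red_eq_zero_iff]
  refine ⟨w, D.inc_injective ?_⟩
  rw [map_mul, D.inc_ϖW, ← h]
  field_simp [D.ϖE_ne_zero]

/-- the normal form of a nonzero bounded series. -/
theorem exists_normal {f : LaurentSeries K} (hf : NVal.IsBdd D f) (hf0 : f ≠ 0) :
    ∃ (n : ℤ) (υ : LaurentSeries K), IsU D.LamRing υ ∧ f = D.ϖE ^ n * υ := by
  have hE := D.ϖE_ne_zero
  rcases hf.isFrac_or hf0 with ⟨c, t, w, ht, hw, h⟩ | ⟨c, t, w, ht, hw, h⟩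
  · refine ⟨((c + 1 : ℕ) : ℤ), D.inc w / D.inc t, (isU_inc hw).div (isU_inc ht), ?_⟩
    have h1 := inc_ne_zero ht
    rw [zpow_natCast, ← mul_div_assoc, ← h, mul_div_cancel_left₀ _ h1]
  · refine ⟨-(c : ℤ), D.inc w / D.inc t, (isU_inc hw).div (isU_inc ht), ?_⟩
    have h1 := inc_ne_zero ht
    rw [zpow_neg, zpow_natCast, ← h]
    field_simp

/-- **a discrete valuation ring from an embedding with bounded image.** -/
theorem isDV_comap {F : Type*} [Field F] (e : F →+* LaurentSeries K)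
    (hb : ∀ f, NVal.IsBdd D (e f)) (t : F) (υ0 : LaurentSeries K) (hυ : IsU D.LamRing υ0)
    (ht : e t = D.ϖE * υ0) : IsDV (D.LamRing.comap e) t where
  ne_zero := by
    rintro rfl
    rw [map_zero] at ht
    exact mul_ne_zero D.ϖE_ne_zero hυ.ne_zero ht.symm
  mem := by
    show e t ∈ D.LamRing
    rw [ht]
    exact D.LamRing.mul_mem ϖE_mem hυ.mem
  inv_notMem := by
    intro h
    have h1 : e t⁻¹ ∈ D.LamRing := h
    apply ϖE_inv_notMem (D := D)
    have h2 : D.ϖE⁻¹ = e t⁻¹ * υ0 := by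
      rw [map_inv₀, ht, mul_inv, mul_assoc, inv_mul_cancel₀ hυ.ne_zero, mul_one]
    rw [h2]
    exact D.LamRing.mul_mem h1 hυ.mem
  disc := by
    intro x hx
    obtain ⟨n, υ, hu, hxe⟩ := exists_normal (hb x) ((map_ne_zero e).2 hx)
    have key : e (x * t ^ (-n)) = υ * υ0 ^ (-n) := by
      rw [map_mul, map_zpow₀, ht, hxe, mul_zpow, zpow_neg, zpow_neg]
      have := zpow_ne_zero n D.ϖE_ne_zero
      field_simp
    have hU : IsU D.LamRing (υ * υ0 ^ (-n)) := hu.mul (hυ.zpow _)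
    refine ⟨-n, ?_, ?_⟩
    · show e (x * t ^ (-n)) ∈ D.LamRing
      rw [key]; exact hU.mem
    · show e (x * t ^ (-n))⁻¹ ∈ D.LamRing
      rw [map_inv₀, key]; exact hU.inv_mem

theorem isU_comap {F : Type*} [Field F] (e : F →+* LaurentSeries K) {x : F}
    (h : IsU D.LamRing (e x)) : IsU (D.LamRing.comap e) x :=
  ⟨fun h0 => h.ne_zero (by rw [h0, map_zero]), h.mem, by
    show e x⁻¹ ∈ D.LamRing
    rw [map_inv₀]; exact h.inv_mem⟩

/-! ### the operator `(f(ζ T) - f(T)) / (ζ - 1)` -/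

theorem exists_cn (ζ : Rˣ) (hζ : D.res ζ = 1) (n : ℤ) :
    ∃ c : R, ((ζ ^ n : Rˣ) : R) - 1 = ((ζ : R) - 1) * c ∧ D.res c = (n : k) := by
  have nat : ∀ m : ℕ, ((ζ : R) ^ m - 1 = ((ζ : R) - 1) * ∑ i ∈ Finset.range m, (ζ : R) ^ i) ∧
      D.res (∑ i ∈ Finset.range m, (ζ : R) ^ i) = (m : k) := by
    intro m
    refine ⟨(mul_geom_sum _ _).symm, ?_⟩
    rw [map_sum]
    simp [hζ]
  rcases Int.eq_nat_or_neg n with ⟨m, rfl | rfl⟩
  · refine ⟨_, ?_, (nat m).2.trans (by simp)⟩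
    rw [zpow_natCast, Units.val_pow_eq_pow_val]
    exact (nat m).1
  · refine ⟨-(((ζ ^ (-(m : ℤ)) : Rˣ) : R) * ∑ i ∈ Finset.range m, (ζ : R) ^ i), ?_, ?_⟩
    · have h1 : ((ζ ^ (-(m : ℤ)) : Rˣ) : R) * (ζ : R) ^ m = 1 := by
        rw [← Units.val_pow_eq_pow_val, ← Units.val_mul, zpow_neg, zpow_natCast,
          inv_mul_cancel, Units.val_one]
      have h2 := (nat m).1
      linear_combination (-((ζ ^ (-(m : ℤ)) : Rˣ) : R)) * h2 + h1
    · rw [map_neg, map_mul, (nat m).2, GNorm.res_zpow ζ hζ, one_mul]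
      simp

/-- the coefficients `(ζ ^ n - 1) / (ζ - 1)`. -/
def cn (D : QData R K k) (ζ : Rˣ) (hζ : D.res ζ = 1) (n : ℤ) : R := (exists_cn ζ hζ n).choose

theorem cn_spec (ζ : Rˣ) (hζ : D.res ζ = 1) (n : ℤ) :
    ((ζ ^ n : Rˣ) : R) - 1 = ((ζ : R) - 1) * cn D ζ hζ n := (exists_cn ζ hζ n).choose_spec.1

theorem res_cn (ζ : Rˣ) (hζ : D.res ζ = 1) (n : ℤ) : D.res (cn D ζ hζ n) = (n : k) :=
  (exists_cn ζ hζ n).choose_spec.2

/-- `θ_ζ w = (w(ζ T) - w(T)) / (ζ - 1)`. -/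
def th (D : QData R K k) (ζ : Rˣ) (hζ : D.res ζ = 1) (w : LaurentSeries R) : LaurentSeries R where
  coeff n := cn D ζ hζ n * w.coeff n
  isPWO_support' := w.isPWO_support.mono (by
    intro n hn h
    exact hn (by simp [h]))

@[simp] theorem th_coeff (ζ : Rˣ) (hζ : D.res ζ = 1) (w : LaurentSeries R) (n : ℤ) :
    (th D ζ hζ w).coeff n = cn D ζ hζ n * w.coeff n := rfl

theorem twist_sub (ζ : Rˣ) (hζ : D.res ζ = 1) (w : LaurentSeries R) :
    S28.twist ζ w - w = HahnSeries.C ((ζ : R) - 1) * th D ζ hζ w := by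
  ext n
  rw [HahnSeries.coeff_sub, S28.twist_coeff, C_mul_coeff, th_coeff, ← mul_assoc, ← cn_spec]
  ring

theorem red_th_coeff (ζ : Rˣ) (hζ : D.res ζ = 1) (w : LaurentSeries R) (n : ℤ) :
    (D.red (th D ζ hζ w)).coeff n = (n : k) * (D.red w).coeff n := by
  rw [QData.red, coeffMap_coeff, coeffMap_coeff, th_coeff, map_mul, res_cn]

theorem red_th_ne_zero (ζ : Rˣ) (hζ : D.res ζ = 1) (w : LaurentSeries R)
    (h : ∃ n : ℤ, (n : k) * (D.red w).coeff n ≠ 0) : D.red (th D ζ hζ w) ≠ 0 := by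
  obtain ⟨n, hn⟩ := h
  intro h0
  apply hn
  rw [← red_th_coeff ζ hζ, h0, HahnSeries.coeff_zero]

/-- `x(ζ T) - x(T) = ϖ * unit`. -/
theorem exists_unit (ζ : Rˣ) (hζ : D.res ζ = 1) (c0 : R) (hc : (ζ : R) - 1 = D.ϖ * c0)
    (hc0 : D.res c0 ≠ 0) (xW : LaurentSeries R)
    (hθ : ∃ n : ℤ, (n : k) * (D.red xW).coeff n ≠ 0) :
    ∃ υ0, IsU D.LamRing υ0 ∧ S28.twist (GNorm.uK ζ) (D.inc xW) - D.inc xW = D.ϖE * υ0 := by
  refine ⟨D.inc (HahnSeries.C c0 * th D ζ hζ xW), isU_inc ?_, ?_⟩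
  · rw [map_mul]
    refine mul_ne_zero ?_ (red_th_ne_zero ζ hζ xW hθ)
    rw [QData.red, coeffMap_C]
    intro h0
    apply hc0
    have := congrArg (fun z => HahnSeries.coeff z 0) h0
    simpa using this
  · rw [← GNorm.inc_twist, ← map_sub, twist_sub ζ hζ, hc, ← D.inc_ϖW, ← map_mul, QData.ϖW,
      map_mul HahnSeries.C, mul_assoc]

/-- **the middle valuation ring is discrete with uniformiser `z' - x'`.** -/
theorem isDV_mid {F : Type*} [Field F] (e : F →+* LaurentSeries K)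
    (hb : ∀ f, NVal.IsBdd D (e f)) (ζ : Rˣ) (hζ : D.res ζ = 1) (c0 : R)
    (hc : (ζ : R) - 1 = D.ϖ * c0) (hc0 : D.res c0 ≠ 0) (xW : LaurentSeries R)
    (hθ : ∃ n : ℤ, (n : k) * (D.red xW).coeff n ≠ 0) (x' z' : F) (hx : e x' = D.inc xW)
    (hz : e z' = S28.twist (GNorm.uK ζ) (e x')) : IsDV (D.LamRing.comap e) (z' - x') := by
  obtain ⟨υ0, hυ, h⟩ := exists_unit ζ hζ c0 hc hc0 xW hθ
  exact isDV_comap e hb _ υ0 hυ (by rw [map_sub, hz, hx, h])

/-! ### `(ζ - 1) ^ (q - 1) ~ q` -/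

theorem associated_pow {A : Type*} [CommRing A] [IsDomain A] {q : ℕ} (hq : q.Prime) {ζ : A}
    (hζ : IsPrimitiveRoot ζ q) : Associated ((ζ - 1) ^ (q - 1)) (q : A) := by
  obtain ⟨n, rfl⟩ : ∃ n, q = n + 1 := ⟨q - 1, by have := hq.pos; omega⟩
  have h1 := hζ.prod_pow_sub_one_eq_order
  have h2 : Associated (∏ _k ∈ Finset.range n, (ζ - 1)) (∏ k ∈ Finset.range n, (ζ ^ (k + 1) - 1)) := by
    refine Associated.prod _ _ _ fun k hk => ?_
    refine hζ.associated_sub_one_pow_sub_one_of_coprime ?_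
    have hk' := Finset.mem_range.1 hk
    exact (Nat.coprime_of_lt_prime (Nat.succ_ne_zero k) (by omega) hq).symm
  rw [Finset.prod_const, Finset.card_range] at h2
  rw [Nat.add_sub_cancel]
  refine h2.trans ?_
  have h3 : ((n + 1 : ℕ) : A) = (-1) ^ n * ∏ k ∈ Finset.range n, (ζ ^ (k + 1) - 1) := by
    rw [h1]; push_cast; ring
  rw [h3]
  exact (associated_isUnit_mul_left_iff ((isUnit_one.neg).pow n)).2 (Associated.refl _) |>.symm

theorem red_C_ne_zero {c : R} (hc : D.res c ≠ 0) : D.red (HahnSeries.C c) ≠ 0 := by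
  rw [QData.red, coeffMap_C]
  intro h0
  apply hc
  have := congrArg (fun z => HahnSeries.coeff z 0) h0
  simpa using this

/-- **ramification of the middle valuation** : `(z' - x') ^ (q - 1) = q * unit`. -/
theorem exists_ram {F : Type*} [Field F] (e : F →+* LaurentSeries K) {q : ℕ} (hq : q.Prime)
    (ζ : Rˣ) (hζ : D.res ζ = 1) (hprim : IsPrimitiveRoot (ζ : R) q) (xW : LaurentSeries R)
    (hθ : ∃ n : ℤ, (n : k) * (D.red xW).coeff n ≠ 0) (x' z' : F) (hx : e x' = D.inc xW)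
    (hz : e z' = S28.twist (GNorm.uK ζ) (e x')) :
    ∃ w, IsU (D.LamRing.comap e) w ∧ (z' - x') ^ (q - 1) = (q : F) * w := by
  obtain ⟨ε, hε⟩ := associated_pow hq hprim
  have hζ1 : (ζ : R) - 1 ≠ 0 := sub_ne_zero.2 (hprim.ne_one hq.one_lt)
  have hqR : (q : R) ≠ 0 := by
    rw [← hε]
    exact mul_ne_zero (pow_ne_zero _ hζ1) ε.ne_zero
  have hqL : ((q : ℕ) : LaurentSeries K) = D.inc (HahnSeries.C (q : R)) := by
    rw [map_natCast, map_natCast]
  have hqL0 : ((q : ℕ) : LaurentSeries K) ≠ 0 := by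
    rw [hqL]
    intro h0
    have h1 : (HahnSeries.C (q : R) : LaurentSeries R) = 0 :=
      D.inc_injective (by rw [h0, map_zero])
    have := congrArg (fun z => HahnSeries.coeff z 0) h1
    simp only [HahnSeries.C_apply, HahnSeries.coeff_single_same, HahnSeries.coeff_zero] at this
    exact hqR this
  have hqF : (q : F) ≠ 0 := by
    intro h0
    apply hqL0
    rw [← map_natCast e, h0, map_zero]
  have het : e (z' - x') = D.inc (HahnSeries.C ((ζ : R) - 1) * th D ζ hζ xW) := by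
    rw [map_sub, hz, hx, ← GNorm.inc_twist, ← map_sub, twist_sub ζ hζ]
  have hres : D.res ((ε⁻¹ : Rˣ) : R) ≠ 0 := by
    intro h0
    have h1 : D.res ((ε⁻¹ : Rˣ) : R) * D.res (ε : R) = 1 := by
      rw [← map_mul, ← Units.val_mul, inv_mul_cancel, Units.val_one, map_one]
    rw [h0, zero_mul] at h1
    exact zero_ne_one h1
  have hpow : ((ζ : R) - 1) ^ (q - 1) = (q : R) * ((ε⁻¹ : Rˣ) : R) := by
    rw [← hε, mul_assoc, ← Units.val_mul, mul_inv_cancel, Units.val_one, mul_one]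
  refine ⟨(z' - x') ^ (q - 1) / (q : F), isU_comap e ?_, by rw [mul_div_cancel₀ _ hqF]⟩
  have key : e ((z' - x') ^ (q - 1) / (q : F))
      = D.inc (HahnSeries.C ((ε⁻¹ : Rˣ) : R) * th D ζ hζ xW ^ (q - 1)) := by
    rw [map_div₀, map_pow, het, map_natCast, div_eq_iff hqL0, hqL, ← map_pow, ← map_mul, mul_pow,
      ← map_pow HahnSeries.C, hpow, map_mul HahnSeries.C]
    congr 1
    ring
  rw [key]
  refine isU_inc ?_
  rw [map_mul, map_pow]
  exact mul_ne_zero (red_C_ne_zero hres) (pow_ne_zero _ (red_th_ne_zero ζ hζ xW hθ))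

end Mid

end Fermat.Agent.S36
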