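import Fermat.Agent.S36.T2Cusp
import Fermat.Agent.S36.CuspP
import Fermat.Agent.S36.CuspUnitC
import Fermat.Agent.S36.DCentre3
import Fermat.Agent.S36.Mid

/-!
# S36 [D7] : (T2) at the cusps of the middle component of `H.chart X` (glue of C0 .. C3)
-/

set_option autoImplicit false
set_option linter.unusedSectionVars false
set_option linter.unusedVariables false
set_option linter.style.haveILetI false
set_option synthInstance.maxHeartbeats 400000

noncomputable section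

namespace Fermat.Agent.S36.MidCuspL

open ModularCurve AlgebraicCurve Polynomial IntermediateField IsDedekindDomain
open Fermat.Agent.S24 Fermat.Agent.S28 Fermat.Agent.ES Fermat.Agent.ES.QE Fermat.Agent.ES.IDvr
  Fermat.Agent.ES.Inst Fermat.Agent.ES.Model Fermat.Agent.S34 Fermat.Agent.S35

variable {K0 : IntermediateField ℚ Kb} {A : ValuationSubring Kb}
  [IsDiscreteValuationRing (R0 K0 A)] {D : QData (R0 K0 A) K0 (kA A)} {q : ℕ} [NeZero q]
  {T : Two D q} {K' : Type*} [Field K'] {i : K0 →+* K'} {ζ : K'ˣ}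
  {R' : Type*} [CommRing R'] [IsDomain R'] [IsNoetherianRing R'] [IsIntegrallyClosed R']
  [Algebra R' K'] [IsFractionRing R' K'] {D' : QData R' K' (kA A)}

set_option maxHeartbeats 2000000 in
/-- **(T2) at the cusps of the middle component.** -/
theorem t2_cusp (H : Three T i ζ) (X : D.Coord) {nA nB : H.F →* T.F}
    (L : Lvl1 q T.O1 T.O2 T.ϖF H.OA (H.OC D') H.OB H.ϖF H.tC H.al H.be nA nB)
    (hq : q.Prime) [CharP (kA A) q] (hϖ : D.ϖ = (q : R0 K0 A))
    (hxq : qExpand (kA A) q (D.red X.xW) = D.red X.xW ^ q)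
    (θ θ' : T.chart X) (hθ : (θ : T.F) * T.x X = T.be X.x ^ q)
    (hθ' : (θ' : T.F) * T.be X.x = T.x X ^ q)
    (hbe1 : ∀ c ∈ X.chart, T.be c ∈ T.chart X) (hbe2 : ∀ b ∈ T.chart X, H.be b ∈ H.chart X)
    (hroot : ∀ f : H.F, f ^ q ∈ H.chart X → f ∈ H.chart X) {m : ℕ}
    (hB : IsChartS (H.OA ⊓ H.OC D' ⊓ H.OB) H.ϖF m (H.chart X))
    (memF : ∀ b : H.chart X, b ∈ H.pA X ↔ DivS H.OA H.ϖF 1 (b : H.F))
    (memM : ∀ b : H.chart X, b ∈ H.pC X D' ↔ DivS (H.OC D') H.tC 1 (b : H.F))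
    (memV : ∀ b : H.chart X, b ∈ H.pB X ↔ DivS H.OB H.ϖF 1 (b : H.F))
    (a : ℕ) (ha : 1 ≤ a) (P : (R0 K0 A)[X]) (hP0 : D.res (P.eval 0) ≠ 0)
    (hrel : jqModC (R0 K0 A) * X.xW ^ a = evS X.xW P)
    (N : ℕ) (ι : H.F →+* FF N)
    (hι : ∀ f : H.F, ((ι f : FF N) : LaurentSeries Kb) = bc K0 (f : LaurentSeries K0))
    (htr : Transcendental Kb (ι (H.x X))) [FiniteDimensional Kb⟮ι (H.x X)⟯ (FF N)]
    (hC0 : ∀ W : Place Kb (FF N), W.ord (ι H.jx) < 0 → W.ord (ι H.jz) = W.ord (ι H.jx) →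
      0 < W.ord (∑ i ∈ Finset.range q, (ι H.jz / ι H.jx) ^ i)) :
    ∀ n : Ideal (H.chart X), n.IsMaximal → H.pC X D' ≤ n → ¬ H.pA X ≤ n →
      ¬ H.pB X ≤ n → (⟨H.x X, X.x_mem_chart⟩ : H.chart X) ∈ n →
      ∃ x ∈ H.pC X D', ∃ s, s ∉ n ∧ ∃ c,
        s * (⟨H.ϖF, hB.unif_mem⟩ : H.chart X) = c * x ^ (q - 1) := by
  intro n hn hM hF hV hxn
  haveI : n.IsPrime := hn.isPrime
  have hn1 : (1 : H.chart X) ∉ n := fun h => hn.ne_top ((Ideal.eq_top_iff_one n).2 h)
  -- the constant term of `P` is a unit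
  have hunit : IsUnit (P.coeff 0) := by
    rw [← Polynomial.coeff_zero_eq_eval_zero] at hP0
    by_contra hnu
    have h1 : P.coeff 0 ∈ IsLocalRing.maximalIdeal (R0 K0 A) :=
      (IsLocalRing.mem_maximalIdeal _).2 hnu
    have hker : RingHom.ker D.res = IsLocalRing.maximalIdeal (R0 K0 A) := by
      apply IsLocalRing.eq_maximalIdeal
      apply (RingHom.ker_isPrime D.res).isMaximal
      rw [D.ker_res]
      intro h0
      exact D.ϖ_ne (Ideal.span_singleton_eq_bot.1 h0)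
    rw [← hker] at h1
    exact hP0 h1
  obtain ⟨u, hu⟩ := hunit
  have hr : P.coeff 0 * ((u⁻¹ : (R0 K0 A)ˣ) : R0 K0 A) = 1 := by rw [← hu]; exact u.mul_inv
  obtain ⟨s, b, hs, hb, hsb⟩ := cusp_unit H X L hq hxq θ θ' hθ hθ' hbe1 hbe2 hroot memM n hM hxn
    a P _ hr hrel
  -- the relation in `D.F0`
  have hrel0 : D.jF * X.x ^ a = X.phiF P := by
    apply Subtype.ext
    have h1 := congrArg D.inc hrel
    rw [map_mul, map_pow] at h1
    have h2 : D.inc (jqModC (R0 K0 A)) = jqModC K0 := coeffMap_jqModC _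
    rw [h2] at h1
    exact h1
  have hP : X.phiF P = X.phiF (C (P.coeff 0)) + X.x * X.phiF (divX P) := by
    conv_lhs => rw [← divX_mul_X_add P]
    rw [map_add, map_mul, X.phiF_X]
    ring
  set φA : D.F0 →+* H.F := H.al.comp T.al with hφA
  have hmemA : ∀ c ∈ X.chart, φA c ∈ H.chart X := fun c hc => hc
  let xB' : H.chart X := ⟨H.x X, X.x_mem_chart⟩
  let p0 : H.chart X := ⟨φA (X.phiF (C (P.coeff 0))), hmemA _ (X.phiF_mem_chart _)⟩
  let p0' : H.chart X := ⟨φA (X.phiF (C ((u⁻¹ : (R0 K0 A)ˣ) : R0 K0 A))),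
    hmemA _ (X.phiF_mem_chart _)⟩
  let ux : H.chart X := ⟨φA (X.phiF (divX P)), hmemA _ (X.phiF_mem_chart _)⟩
  have hp0 : p0 ∉ n := by
    intro h
    apply hn1
    have h1 : p0 * p0' = 1 := by
      apply Subtype.ext
      show φA (X.phiF (C (P.coeff 0))) * φA (X.phiF (C ((u⁻¹ : (R0 K0 A)ˣ) : R0 K0 A))) = 1
      rw [← map_mul, ← map_mul, ← C_mul, hr, C_1, map_one, map_one]
    rw [← h1]
    exact n.mul_mem_right _ h
  have hPx : H.jx * ((xB' : H.chart X) : H.F) ^ a = ((p0 + xB' * ux : H.chart X) : H.F) := by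
    show φA D.jF * (φA X.x) ^ a = φA (X.phiF (C (P.coeff 0))) + φA X.x * φA (X.phiF (divX P))
    rw [← map_pow, ← map_mul, hrel0, hP, map_add, map_mul]
  have hPxn : p0 + xB' * ux ∉ n := by
    intro h
    exact hp0 ((Ideal.add_mem_iff_left n (n.mul_mem_right _ hxn)).1 h)
  have hjx0 : H.jx ≠ 0 := by
    intro h
    rw [h, zero_mul] at hPx
    have h1 : p0 + xB' * ux = 0 := Subtype.ext hPx.symm
    exact hPxn (h1 ▸ n.zero_mem)
  -- Gauss units
  have hinv : ∀ w : LaurentSeries (R0 K0 A), D.red w ≠ 0 → ∀ f : D.F0,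
      (f : LaurentSeries K0) = D.inc w → (φA f)⁻¹ ∈ H.OC D' := by
    intro w hw f hf
    have h1 : (φA f)⁻¹ = H.al ((T.al f)⁻¹) := by rw [map_inv₀]; rfl
    rw [h1, L.al_M]
    show T.e1 ((T.al f)⁻¹) ∈ D.LamRing
    rw [map_inv₀]
    have h2 : T.e1 (T.al f) = D.inc w := hf
    rw [h2]
    exact (Mid.isU_inc hw).2.2
  have hjM : H.jx⁻¹ ∈ H.OC D' := by
    refine hinv (jqModC (R0 K0 A)) ?_ D.jF (coeffMap_jqModC _).symm
    have h2 : D.red (jqModC (R0 K0 A)) = jqModC (kA A) := coeffMap_jqModC _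
    rw [h2]
    exact Ord.ne_zero_of_order_ne_zero (kA A) (by rw [Ord.order_jqModC (kA A)]; norm_num)
  have hxM : ((xB' : H.chart X) : H.F)⁻¹ ∈ H.OC D' :=
    hinv X.xW (QNode.red_xW_ne_zero X) X.x rfl
  have hx0 : ((xB' : H.chart X) : H.F) ≠ 0 := by
    intro h
    have h1 : φA X.x = 0 := h
    have h2 : X.x = 0 := (map_eq_zero φA).1 h1
    have h3 : D.inc X.xW = 0 := congrArg Subtype.val h2
    have h4 : X.xW = 0 := D.inc_injective (by rw [h3, map_zero])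
    exact QNode.red_xW_ne_zero X (by rw [h4, map_zero])
  have hϖ0 : H.ϖF ≠ 0 := L.dvF.ne_zero
  have hram : IsU (H.OC D') (H.ϖF / H.tC ^ (q - 1)) := by
    obtain ⟨h0, h1, h2⟩ := L.ram
    refine ⟨?_, ?_, ?_⟩
    · intro h
      apply h0
      rcases div_eq_zero_iff.1 h with h | h
      · exact absurd h hϖ0
      · rw [h, zero_div]
    · rwa [inv_div] at h2
    · rwa [inv_div]
  have hϖq : H.ϖF = (q : H.F) := by
    show algebraMap K0 H.F (algebraMap (R0 K0 A) K0 D.ϖ) = _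
    rw [hϖ, map_natCast, map_natCast]
  have h2 : DivS (H.OC D') H.tC 1 ((b : H.F) - s) := by
    refine ⟨(s : H.F) * H.jx⁻¹, (H.OC D').mul_mem (hB.le _ s.2).1.2 hjM, ?_⟩
    rw [← hsb, pow_one]
    show _ = (H.jz - H.jx) * _
    field_simp
  have hρ : H.jz * (s : H.F) = H.jx * b := by
    rw [← hsb]
    field_simp
  -- the generic fibre
  have hA' : HDivDesc.IsAway D := Inst.InstDesc.isAway_of_dvr D
  haveI := H.isNoetherianRing_chart X
  letI := H.algRB X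
  letI := H.algBD X
  haveI := H.isDedekindDomain_away X hA'
  haveI := H.isFractionRing_away X hA'
  haveI := H.tower_away X
  haveI : IsLocalization.Away (⟨H.ϖF, hB.unif_mem⟩ : H.chart X) (H.away X) :=
    H.isLocalization_away X
  have hplace : ∀ Q : HeightOneSpectrum (H.away X), ∃ W : Place Kb (FF N),
      (∀ d : H.away X, d ∈ Q.asIdeal → d ≠ 0 → 0 < W.ord (ι (algebraMap (H.away X) H.F d))) ∧
      (∀ d : H.away X, d ∉ Q.asIdeal → W.ord (ι (algebraMap (H.away X) H.F d)) = 0) := by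
    intro Q
    haveI := Q.isPrime
    obtain ⟨W, -, -, h3, h4⟩ := DCentre.exists_place_away3 N H X ι hι htr Q.asIdeal Q.ne_bot
    refine ⟨W, fun d hd hd0 => ?_, fun d hd => h4 d hd⟩
    have := h3 1 d (by rwa [pow_one]) hd0
    have h5 : (1 : ℤ) ≤ W.ord (ι (d : H.F)) := by exact_mod_cast this
    exact lt_of_lt_of_le one_pos h5
  obtain ⟨P', hP', hPn, hϖP, h3⟩ := CuspP.exists_P (D := H.away X) hϖ0 hB memF memV n hF hV xB' hxn
    hx0 hxM ι hplace a ha (p0 + xB' * ux) hPxn H.jx H.jz hPx s b hs hb hρ q hC0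
  haveI := hP'
  exact TAsm.t2_cusp_abs hϖ0 hB memF memM memV hram hq hϖq n hn.isPrime hM hF hV s b hs hb h2 P'
    hPn hϖP h3

end Fermat.Agent.S36.MidCuspL
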