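import Fermat.Agent.S36.GFin0
import Fermat.Agent.S36.MidCuspL
import Fermat.Agent.S36.CuspRho2
import Fermat.Agent.S36.CuspTh
import Fermat.Agent.S36.CuspRel

/-!
# S36, block G : `ClaimAll`
-/

set_option autoImplicit false
set_option linter.unusedVariables false
set_option linter.unusedSectionVars false
set_option linter.style.haveILetI false
set_option synthInstance.maxHeartbeats 400000

noncomputable section

namespace Fermat.Agent.S36

open ModularCurve AlgebraicCurve Polynomial IntermediateField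
open Fermat.Agent.S24 Fermat.Agent.S28 Fermat.Agent.ES Fermat.Agent.ES.QE Fermat.Agent.ES.Model
  Fermat.Agent.ES.IDvr Fermat.Agent.ES.Inst Fermat.Agent.S34
open Fermat.Agent.S34.WK

set_option maxHeartbeats 2000000 in
/-- `(T2)` at the cusps of the middle component, one coordinate. -/
theorem hcusp_fin (M0 q : ℕ) [NeZero M0] [Fact q.Prime] (hqM : ¬ q ∣ M0) {m : ℕ} (hqm : ¬ q ∣ m)
    (A : ValuationSubring Kb) (hA : A.LiesOverPrime q)
    {K0 : IntermediateField ℚ Kb} [IsDiscreteValuationRing (R0 K0 A)]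
    (D : QData (R0 K0 A) K0 (kA A)) (T : Two D q) (X : D.Coord)
    (y : LaurentSeries (R0 K0 A)) (hxy : X.xW * y = 1)
    {K0' : IntermediateField ℚ Kb} (hle : K0 ≤ K0')
    [IsDiscreteValuationRing (R0 K0' A)] (ζR : (R0 K0' A)ˣ)
    (D' : QData (R0 K0' A) K0' (kA A))
    (H : Three T (IntermediateField.inclusion hle).toRingHom (S35.GNorm.uK ζR))
    (hϖ : D.ϖ = ((q : ℕ) : R0 K0 A)) (hT : T.F = F0 K0 (M0 * q))
    (hH : H.F = F0 K0 (M0 * q * q))
    (xF : FF M0) (hX : bc K0 (X.x : LaurentSeries K0) = (xF : LaurentSeries Kb))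
    (hW : WGood M0 q xF)
    (htr1 : Transcendental Kb (heckeAlphaBar Kb M0 q xF))
    [FiniteDimensional Kb⟮heckeAlphaBar Kb M0 q xF⟯ (FF (M0 * q))]
    (htr2 : Transcendental Kb (iotaH H hH (H.x X)))
    [FiniteDimensional Kb⟮iotaH H hH (H.x X)⟯ (FF (M0 * q * q))]
    (hxq : qExpand (kA A) q (D.red X.xW) = D.red X.xW ^ q)
    (hxy1 : XYData T X) (hC : CuspRel X)
    (hprim : IsPrimitiveRoot (ζR : R0 K0' A) q)
    (c0 : R0 K0' A) (hc : (ζR : R0 K0' A) - 1 = D'.ϖ * c0) (hc0 : D'.res c0 ≠ 0)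
    (hbc : BCData D D' (UnrCyc.iR A hle) (IntermediateField.inclusion hle).toRingHom) :
    HCusp H D' X := by
  have hq : q.Prime := Fact.out
  haveI hchar : CharP (kA A) q := ResField.charP hq hA
  have hm : IsUnit (m : R0 K0 A) := natCast_isUnit_R0 K0 A hq hA hqm
  have hcq : (q : R0 K0 A) = D.ϖ * 1 := by rw [mul_one, hϖ]
  have hcq0 : D.res 1 ≠ 0 := by rw [map_one]; exact one_ne_zero
  have L := H.lvl1 D' (UnrCyc.iR A hle) hbc.comm hbc.res hprim c0 hc hc0 1 hcq hcq0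
  have h1 := H.isChartS_of D' (UnrCyc.iR A hle) hbc.comm hbc.res ζR rfl hprim c0 hc hc0 1 hcq hcq0
    X hm
  have hA' : ∀ b ∈ H.chart X, b ∈ H.OA := fun b hb => (h1.le b hb).1.1
  have hC' : ∀ b ∈ H.chart X, b ∈ H.OC D' := fun b hb => (h1.le b hb).1.2
  have hB' : ∀ b ∈ H.chart X, b ∈ H.OB := fun b hb => (h1.le b hb).2
  obtain ⟨hVx, ⟨θ, hθ⟩, -⟩ := hxy1
  obtain ⟨θ', hθ'⟩ := exists_theta' hq hA D T hT (Wb M0 q hqM) (Wb_alpha M0 q hqM) (Wb_beta M0 q hqM) X y hxy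
    xF hX htr1 hW.pos
  obtain ⟨a, ha, P, hP0, hrel⟩ := hC
  exact MidCuspL.t2_cusp H X L hq hϖ hxq θ θ' hθ hθ' (NRed.be_mem_chart X T hVx)
    (fun b hb => H.be_mem_chart X hVx hb) (fun f hf => H.root_chart X q hq.pos f hf) h1
    (TRedA.mem_pA H X hA') (TRedA.mem_pC H X D' hC') (TRedA.mem_pB H X hB') a ha P hP0 hrel
    (M0 * q * q) (iotaH H hH) (fun _ => rfl) htr2 (hC0_iotaH H hH hT)

set_option maxHeartbeats 2000000 in
theorem hCuspAll (q : ℕ) [Fact q.Prime] (A : ValuationSubring Kb) (hA : A.LiesOverPrime q) :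
    HCuspAll q A := by
  have hq : q.Prime := Fact.out
  intro m M0 _ hqM hqm Z hU hW hZ n1 n2 n3 K0 hK0 hu0 hst _ D T X y hxy K0' hle _ ζR D' H
    h1 h2 h3 h4 Φ hΦ hΦx hΦy
  obtain ⟨hF, hres, hϖ, hT, hTW, hXW, hy, hX, hded1, hded2, hxq, hyq, hxy1, hxy2, -⟩ := h1
  obtain ⟨-, hprim, -, hres', -, ⟨c0, hc, hc0⟩, hbc⟩ := h2
  obtain ⟨hH, hHW⟩ := h3
  haveI hchar : CharP (kA A) q := ResField.charP hq hA
  obtain ⟨r1, r2⟩ := cuspRel_of_zCuspRel Z hZ X y hxy hXW hy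
  -- level `M₀ q`
  have hmem1 : zS Kb Z.xZ ∈ modularFunctionFieldBar (M0 * q) := by
    have h := (heckeAlphaBar Kb M0 q Z.xF).2
    rwa [coe_heckeAlphaBar] at h
  obtain ⟨Z1, hZ1⟩ : ∃ Z1 : ZCoord (M0 * q) q, (Z1.xF : LaurentSeries Kb) = Z.xF :=
    ⟨{ Z with mem := hmem1 }, rfl⟩
  have e1 : heckeAlphaBar Kb M0 q Z.xF = Z1.xF := by
    apply Subtype.ext
    rw [coe_heckeAlphaBar, hZ1]
  have e1' : heckeAlphaBar Kb M0 q Z.xF⁻¹ = Z1.xF⁻¹ := by rw [map_inv₀, e1]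
  have t1 := transcendental_xF Z1
  have t1' : Transcendental Kb Z1.xF⁻¹ := FF.transcendental_inv t1
  haveI f1 : FiniteDimensional Kb⟮heckeAlphaBar Kb M0 q Z.xF⟯ (FF (M0 * q)) := by
    rw [e1]
    exact finiteDimensional_xF Z1
  haveI f1' : FiniteDimensional Kb⟮heckeAlphaBar Kb M0 q Z.xF⁻¹⟯ (FF (M0 * q)) := by
    rw [e1']
    exact finiteDimensional_xF_inv Z1
  -- level `M₀ q²`
  have hmem2 : zS Kb Z.xZ ∈ modularFunctionFieldBar (M0 * q * q) := by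
    have h := (heckeAlphaBar Kb (M0 * q) q (heckeAlphaBar Kb M0 q Z.xF)).2
    rwa [coe_heckeAlphaBar, coe_heckeAlphaBar] at h
  obtain ⟨Z2, hZ2⟩ : ∃ Z2 : ZCoord (M0 * q * q) q, (Z2.xF : LaurentSeries Kb) = Z.xF :=
    ⟨{ Z with mem := hmem2 }, rfl⟩
  have e2 : iotaH H hH (H.x X) = Z2.xF := by
    apply Subtype.ext
    rw [coe_iotaH, hZ2, ← hX]
    rfl
  have e2' : iotaH H hH (H.x (X.inv y hxy)) = Z2.xF⁻¹ := by
    rw [← e2, ← map_inv₀, H.x_inv X y hxy]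
  have t2 := transcendental_xF Z2
  have t2' : Transcendental Kb Z2.xF⁻¹ := FF.transcendental_inv t2
  haveI f2 : FiniteDimensional Kb⟮iotaH H hH (H.x X)⟯ (FF (M0 * q * q)) := by
    rw [e2]
    exact finiteDimensional_xF Z2
  haveI f2' : FiniteDimensional Kb⟮iotaH H hH (H.x (X.inv y hxy))⟯ (FF (M0 * q * q)) := by
    rw [e2']
    exact finiteDimensional_xF_inv Z2
  have hX' : bc K0 ((X.inv y hxy).x : LaurentSeries K0) = ((Z.xF⁻¹ : FF M0) : LaurentSeries Kb) := by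
    have h0 : iotaF D hF X.x = Z.xF := Subtype.ext hX
    have h1 : iotaF D hF (X.inv y hxy).x = Z.xF⁻¹ := by rw [X.inv_x y hxy, map_inv₀, h0]
    exact congrArg Subtype.val h1
  refine ⟨?_, ?_⟩
  · exact hcusp_fin M0 q hqM hqm A hA D T X y hxy hle ζR D' H hϖ hT hH Z.xF hX hW
      (by rw [e1]; exact t1) (by rw [e2]; exact t2) hxq hxy1 r1 hprim c0 hc hc0 hbc
  · exact hcusp_fin M0 q hqM hqm A hA D T (X.inv y hxy) X.xW (by rw [mul_comm]; exact hxy) hle ζR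
      D' H hϖ hT hH Z.xF⁻¹ hX' hW.inv (by rw [e1']; exact t1') (by rw [e2']; exact t2') hyq hxy2 r2
      hprim c0 hc hc0 hbc

/-- **Block G.** -/
theorem claimAll : ClaimAll := claimAll_of_cusp fun q _ A hA => hCuspAll q A hA

end Fermat.Agent.S36
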