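import Fermat.Agent.S34.WK

/-!
# S36 : the Atkin-Lehner involution `W_{q²}` of `FF (M₀ q q)`

With `α', β' : FF (M₀ q) → FF (M₀ q q)` the two degeneracy maps and `W₁` the Atkin-Lehner involution
of `FF (M₀ q)` : `W₂ ∘ α' = β' ∘ W₁`, `W₂ ∘ β' = α' ∘ W₁`.
-/

set_option autoImplicit false
set_option linter.unusedSectionVars false

namespace Fermat.Agent.S36

open ModularCurve AlgebraicCurve Fermat.Agent.S24 Fermat.Agent.ES
open P2MW.S_ModularForm_heckeT_slash_eq_self_of_mem_Gamma0.ModularForm.HeckeSlashInvariance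
open UpperHalfPlane ModularForm Matrix.SpecialLinearGroup
open scoped MatrixGroups

namespace W2

/-- `diag(p, 1) g = g' (1 0; 0 p)` if `p ∣ g₁₁`, with control of `g'`. -/
theorem diag_mul {p : ℕ} (hp : p ≠ 0) (g : SL(2, ℤ)) (e : ℤ) (he : g 1 1 = p * e) :
    ∃ g' : SL(2, ℤ), g' 1 0 = g 1 0 ∧ g' 1 1 = e ∧
      heckeDiagMatrix p * mapGL ℝ g = mapGL ℝ g' * heckeMatrix p 0 := by
  have hdet := det_eq g
  refine ⟨⟨!![p * g 0 0, g 0 1; g 1 0, e], ?_⟩, rfl, rfl, ?_⟩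
  · rw [Matrix.det_fin_two_of]
    linear_combination hdet - (g 0 0) * he
  · ext i j
    fin_cases i <;> fin_cases j <;>
      simp [hp, Matrix.mul_apply, Fin.sum_univ_two]
    all_goals first
      | (have := congrArg (Int.cast : ℤ → ℝ) he; push_cast at this ⊢; linear_combination this)
      | (have := congrArg (Int.cast : ℤ → ℝ) he; push_cast at this ⊢; linear_combination -this)
      | ring1

/-- `f(τ) ↦ f(p τ)`. -/
noncomputable abbrev Dm (p : ℕ) : Mer →+* Mer := merMap (heckeDiagMatrix p) (det_heckeDiagMatrix_pos p)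

/-- `f(τ) ↦ f(τ / p)`. -/
noncomputable abbrev Di (p : ℕ) : Mer →+* Mer := merMap (heckeMatrix p 0) (det_heckeMatrix_pos p 0)

theorem Dm_Di {p : ℕ} (hp : p ≠ 0) (x : Mer) : Dm p (Di p x) = x :=
  S37.KT.merMap_diag_heckeMatrix_zero hp x

/-- `act γ⁻¹ ∘ D = D⁻¹ ∘ act g'⁻¹`. -/
theorem act_Dm {p : ℕ} (hp : p ≠ 0) (g : SL(2, ℤ)) (e : ℤ) (he : g 1 1 = p * e) :
    ∃ g' : SL(2, ℤ), g' 1 0 = g 1 0 ∧ g' 1 1 = e ∧
      ∀ x : Mer, act g⁻¹ (Dm p x) = Di p (act g'⁻¹ x) := by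
  obtain ⟨g', h10, h11, hmul⟩ := diag_mul hp g e he
  refine ⟨g', h10, h11, fun x => ?_⟩
  have hpos : 0 < (heckeDiagMatrix p * mapGL ℝ g).det.val := by
    rw [map_mul, Units.val_mul]
    exact mul_pos (det_heckeDiagMatrix_pos p) (KEmb.det_mapGL_pos _)
  have hpos' : 0 < (mapGL ℝ g' * heckeMatrix p 0).det.val := by
    rw [map_mul, Units.val_mul]
    exact mul_pos (KEmb.det_mapGL_pos _) (det_heckeMatrix_pos p 0)
  rw [KEmb.act_eq_merMap, KEmb.merMap_comp _ _ _ _ hpos, KEmb.merMap_congr hmul hpos hpos',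
    ← KEmb.merMap_comp _ _ (det_heckeMatrix_pos p 0) (KEmb.det_mapGL_pos g') hpos',
    ← KEmb.act_eq_merMap]

variable (M0 q : ℕ) [NeZero M0] [Fact q.Prime]

omit [NeZero M0] in
/-- There is `γ₂ = (a b; M₀ q²) ∈ Γ₀(M₀)`. -/
lemma exists_gamma2 (h : ¬ q ∣ M0) : ∃ γ : SL(2, ℤ), γ 1 0 = M0 ∧ γ 1 1 = q * (q : ℤ) := by
  have hq : q.Prime := Fact.out
  have hcop : IsCoprime (q : ℤ) (M0 : ℤ) :=
    Nat.isCoprime_iff_coprime.2 ((Nat.Prime.coprime_iff_not_dvd hq).2 h)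
  obtain ⟨a, b, hab⟩ := hcop.mul_left hcop
  exact ⟨⟨!![a, -b; M0, q * (q : ℤ)], by rw [Matrix.det_fin_two_of]; linear_combination hab⟩,
    rfl, rfl⟩

/-- the involution on `Mer`. -/
noncomputable def W2mer (γ : SL(2, ℤ)) : Mer →+* Mer := ((Dm q).comp (Dm q)).comp (act γ⁻¹)

variable {M0 q}

lemma W2mer_x {γ : SL(2, ℤ)} (h10 : γ 1 0 = M0) (f : FF M0) :
    W2mer q γ (Psi M0 f) = Dm q (Dm q (Psi M0 f)) := by
  rw [W2mer, RingHom.comp_apply, RingHom.comp_apply,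
    KEmb.act_Psi_of_mem M0 (inv_mem (S37.KT.mem_Gamma0 h10))]

lemma W2mer_y {γ : SL(2, ℤ)} (h10 : γ 1 0 = M0) (h11 : γ 1 1 = q * (q : ℤ)) (f : FF M0) :
    W2mer q γ (Dm q (Psi M0 f)) = Dm q (Psi M0 f) := by
  have hq : q ≠ 0 := (Fact.out : q.Prime).ne_zero
  obtain ⟨g', hg10, -, hg⟩ := act_Dm hq γ q h11
  rw [W2mer, RingHom.comp_apply, RingHom.comp_apply, hg, Dm_Di hq,
    KEmb.act_Psi_of_mem M0 (inv_mem (S37.KT.mem_Gamma0 (hg10.trans h10)))]

lemma W2mer_z {γ : SL(2, ℤ)} (h10 : γ 1 0 = M0) (h11 : γ 1 1 = q * (q : ℤ)) (f : FF M0) :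
    W2mer q γ (Dm q (Dm q (Psi M0 f))) = Psi M0 f := by
  have hq : q ≠ 0 := (Fact.out : q.Prime).ne_zero
  obtain ⟨g', hg10, hg11, hg⟩ := act_Dm hq γ q h11
  obtain ⟨g'', hg10', -, hg'⟩ := act_Dm hq g' 1 (by rw [hg11, mul_one])
  rw [W2mer, RingHom.comp_apply, RingHom.comp_apply, hg, Dm_Di hq, hg', Dm_Di hq,
    KEmb.act_Psi_of_mem M0 (inv_mem (S37.KT.mem_Gamma0 ((hg10'.trans hg10).trans h10)))]

end W2

open W2 S34.WK

variable (M0 q : ℕ) [NeZero M0] [Fact q.Prime]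

/-- **The Atkin-Lehner involution `W_{q²}`** of `FF (M₀ q q)`. -/
theorem exists_W2 (h : ¬ q ∣ M0) :
    ∃ W : FF (M0 * q * q) ≃ₐ[Kb] FF (M0 * q * q),
      (∀ y : FF (M0 * q), W (heckeAlphaBar Kb (M0 * q) q y)
        = heckeBetaBar Kb (M0 * q) q (Wb M0 q h y)) ∧
      (∀ y : FF (M0 * q), W (heckeBetaBar Kb (M0 * q) q y)
        = heckeAlphaBar Kb (M0 * q) q (Wb M0 q h y)) := by
  obtain ⟨γ, h10, h11⟩ := exists_gamma2 M0 q h
  set Ψ : FF (M0 * q * q) →+* Mer := Psi (M0 * q * q) with hΨ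
  -- the two key identities on `Mer`
  have kα : ∀ y : FF (M0 * q), W2mer q γ (Ψ (heckeAlphaBar Kb (M0 * q) q y))
      = Ψ (heckeBetaBar Kb (M0 * q) q (Wb M0 q h y)) := by
    intro y
    have : ((W2mer q γ).comp (Ψ.comp (heckeAlphaBar Kb (M0 * q) q : FF (M0 * q) →+* _)))
        = (Ψ.comp (heckeBetaBar Kb (M0 * q) q : FF (M0 * q) →+* _)).comp
          (Wb M0 q h : FF (M0 * q) →+* FF (M0 * q)) := by
      apply S37.KT.ringHom_ext M0 q
      · intro f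
        simp only [RingHom.comp_apply, RingHom.coe_coe, Wb_alpha]
        rw [hΨ, KEmb.Psi_alpha, KEmb.Psi_alpha, KEmb.Psi_beta, KEmb.Psi_beta, W2mer_x h10]
      · intro f
        simp only [RingHom.comp_apply, RingHom.coe_coe, Wb_beta]
        rw [hΨ, KEmb.Psi_alpha, KEmb.Psi_beta, KEmb.Psi_beta, KEmb.Psi_alpha, W2mer_y h10 h11]
    exact DFunLike.congr_fun this y
  have kβ : ∀ y : FF (M0 * q), W2mer q γ (Ψ (heckeBetaBar Kb (M0 * q) q y))
      = Ψ (heckeAlphaBar Kb (M0 * q) q (Wb M0 q h y)) := by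
    intro y
    have : ((W2mer q γ).comp (Ψ.comp (heckeBetaBar Kb (M0 * q) q : FF (M0 * q) →+* _)))
        = (Ψ.comp (heckeAlphaBar Kb (M0 * q) q : FF (M0 * q) →+* _)).comp
          (Wb M0 q h : FF (M0 * q) →+* FF (M0 * q)) := by
      apply S37.KT.ringHom_ext M0 q
      · intro f
        simp only [RingHom.comp_apply, RingHom.coe_coe, Wb_alpha]
        rw [hΨ, KEmb.Psi_beta, KEmb.Psi_alpha, KEmb.Psi_alpha, KEmb.Psi_beta, W2mer_y h10 h11]
      · intro f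
        simp only [RingHom.comp_apply, RingHom.coe_coe, Wb_beta]
        rw [hΨ, KEmb.Psi_beta, KEmb.Psi_beta, KEmb.Psi_alpha, KEmb.Psi_alpha, W2mer_z h10 h11]
    exact DFunLike.congr_fun this y
  have hmem : ∀ x : FF (M0 * q * q), ((W2mer q γ).comp Ψ) x ∈ Ψ.fieldRange := by
    apply S37.KT.map_mem (M0 * q) q
    · intro y
      rw [RingHom.comp_apply, kα]
      exact ⟨_, rfl⟩
    · intro y
      rw [RingHom.comp_apply, kβ]
      exact ⟨_, rfl⟩
  let W0 : FF (M0 * q * q) →+* FF (M0 * q * q) :=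
    (Ψ.rangeRestrictFieldEquiv.symm : Ψ.fieldRange →+* FF (M0 * q * q)).comp
      (((W2mer q γ).comp Ψ).codRestrict Ψ.fieldRange hmem)
  have hW0 : ∀ x, Ψ (W0 x) = W2mer q γ (Ψ x) := by
    intro x
    exact Ψ.rangeRestrictFieldEquiv_apply_symm_apply _
  have hα : ∀ y : FF (M0 * q), W0 (heckeAlphaBar Kb (M0 * q) q y)
      = heckeBetaBar Kb (M0 * q) q (Wb M0 q h y) := by
    intro y
    apply Ψ.injective
    rw [hW0, kα]
  have hβ : ∀ y : FF (M0 * q), W0 (heckeBetaBar Kb (M0 * q) q y)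
      = heckeAlphaBar Kb (M0 * q) q (Wb M0 q h y) := by
    intro y
    apply Ψ.injective
    rw [hW0, kβ]
  have hinv : W0.comp W0 = RingHom.id _ := by
    apply S37.KT.ringHom_ext (M0 * q) q
    · intro y
      rw [RingHom.comp_apply, hα, hβ, Wb_Wb, RingHom.id_apply]
    · intro y
      rw [RingHom.comp_apply, hβ, hα, Wb_Wb, RingHom.id_apply]
  let W1 : FF (M0 * q * q) →ₐ[Kb] FF (M0 * q * q) :=
    { W0 with
      commutes' := fun a => by
        have := hα (algebraMap Kb (FF (M0 * q)) a)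
        rwa [AlgHom.commutes, AlgEquiv.commutes, AlgHom.commutes] at this }
  have hinv1 : W1.comp W1 = AlgHom.id Kb _ := by
    apply AlgHom.ext
    intro x
    exact DFunLike.congr_fun hinv x
  exact ⟨AlgEquiv.ofAlgHom W1 W1 hinv1 hinv1, hα, hβ⟩

/-- the Atkin-Lehner involution `W_{q²}`. -/
noncomputable def Wb2 (h : ¬ q ∣ M0) : FF (M0 * q * q) ≃ₐ[Kb] FF (M0 * q * q) :=
  Classical.choose (exists_W2 M0 q h)

theorem Wb2_alpha (h : ¬ q ∣ M0) (y : FF (M0 * q)) :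
    Wb2 M0 q h (heckeAlphaBar Kb (M0 * q) q y) = heckeBetaBar Kb (M0 * q) q (Wb M0 q h y) :=
  (Classical.choose_spec (exists_W2 M0 q h)).1 y

theorem Wb2_beta (h : ¬ q ∣ M0) (y : FF (M0 * q)) :
    Wb2 M0 q h (heckeBetaBar Kb (M0 * q) q y) = heckeAlphaBar Kb (M0 * q) q (Wb M0 q h y) :=
  (Classical.choose_spec (exists_W2 M0 q h)).2 y

theorem Wb2_Wb2 (h : ¬ q ∣ M0) (x : FF (M0 * q * q)) : Wb2 M0 q h (Wb2 M0 q h x) = x := by
  have : ((Wb2 M0 q h : FF (M0 * q * q) →+* FF (M0 * q * q)).comp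
      (Wb2 M0 q h : FF (M0 * q * q) →+* FF (M0 * q * q))) = RingHom.id _ := by
    apply S37.KT.ringHom_ext (M0 * q) q
    · intro y
      simp only [RingHom.comp_apply, RingHom.coe_coe, RingHom.id_apply, Wb2_alpha, Wb2_beta, Wb_Wb]
    · intro y
      simp only [RingHom.comp_apply, RingHom.coe_coe, RingHom.id_apply, Wb2_alpha, Wb2_beta, Wb_Wb]
  exact DFunLike.congr_fun this x

/-- `W_{q²}` commutes with the Galois action. -/
theorem gal_Wb2 (h : ¬ q ∣ M0) (σ : GQ) (x : FF (M0 * q * q)) :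
    gal (M0 * q * q) σ (Wb2 M0 q h x) = Wb2 M0 q h (gal (M0 * q * q) σ x) := by
  have : ((gal (M0 * q * q) σ : FF (M0 * q * q) →+* FF (M0 * q * q)).comp
      (Wb2 M0 q h : FF (M0 * q * q) →+* FF (M0 * q * q)))
      = (Wb2 M0 q h : FF (M0 * q * q) →+* FF (M0 * q * q)).comp
        (gal (M0 * q * q) σ : FF (M0 * q * q) →+* FF (M0 * q * q)) := by
    apply S37.KT.ringHom_ext (M0 * q) q
    · intro y
      simp only [RingHom.comp_apply, RingHom.coe_coe, Wb2_alpha, gal_alpha, gal_beta, gal_Wb]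
    · intro y
      simp only [RingHom.comp_apply, RingHom.coe_coe, Wb2_beta, gal_alpha, gal_beta, gal_Wb]
  exact DFunLike.congr_fun this x

end Fermat.Agent.S36
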