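import Fermat.Agent.S36.WNormA
import Fermat.Agent.S36.W2

/-!
# S36, package W4 (part B) : the norm along `β_q : FF (M₀ q) → FF (M₀ q q)`

`Norm_β = W₁ ∘ Norm_α ∘ W₂`, base change along `β_ℓ`, commutation with the multiplicative Hecke
operators `heckeMul _ ℓ`, `ℓ ∤ M₀ q q`.
-/

set_option autoImplicit false
set_option linter.style.haveILetI false
set_option linter.unusedSectionVars false

noncomputable section

namespace Fermat.Agent.S36

open ModularCurve AlgebraicCurve Fermat.Agent.S24 Fermat.Agent.ES Fermat.Agent.S35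
open P2MW.S_ModularForm_heckeT_slash_eq_self_of_mem_Gamma0.ModularForm.HeckeSlashInvariance
open UpperHalfPlane ModularForm Matrix.SpecialLinearGroup
open scoped MatrixGroups
open HKH S34.WK

namespace WN

/-! ### change of the name of the level -/

theorem lvl_eq' {N N' : ℕ} (h : N = N') (q : ℕ) : N * q = N' * q := by rw [h]

theorem normA_cast {N N' : ℕ} [NeZero N] [NeZero N'] (h : N = N') (q : ℕ) [NeZero q]
    (x : FF (N * q)) :
    normA N' q (castFF (lvl_eq' h q) x) = castFF h (normA N q x) := by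
  subst h; rfl

theorem normB_cast {N N' : ℕ} [NeZero N] [NeZero N'] (h : N = N') (q : ℕ) [NeZero q]
    (x : FF (N * q)) :
    normB N' q (castFF (lvl_eq' h q) x) = castFF h (normB N q x) := by
  subst h; rfl

theorem alpha_cast {N N' : ℕ} [NeZero N] [NeZero N'] (h : N = N') (q : ℕ) [NeZero q]
    (x : FF N) :
    castFF (lvl_eq' h q) (heckeAlphaBar Kb N q x) = heckeAlphaBar Kb N' q (castFF h x) := by
  subst h; rfl

theorem beta_cast {N N' : ℕ} [NeZero N] [NeZero N'] (h : N = N') (q : ℕ) [NeZero q]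
    (x : FF N) :
    castFF (lvl_eq' h q) (heckeBetaBar Kb N q x) = heckeBetaBar Kb N' q (castFF h x) := by
  subst h; rfl

section W

variable (M0 q : ℕ) [NeZero M0] [Fact q.Prime]

/-- the norm along `β'` is `W₁ ∘ Norm_α' ∘ W₂`. -/
theorem normB_eq2 (h : ¬ q ∣ M0) (u : FF (M0 * q * q)) :
    normB (M0 * q) q u = Wb M0 q h (normA (M0 * q) q (Wb2 M0 q h u)) := by
  have := @Algebra.norm_eq_of_equiv_equiv (FF (M0 * q)) (FF (M0 * q * q)) (FF (M0 * q))
    (FF (M0 * q * q)) _ _ _ _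
    (algebraAlong (heckeBetaBar Kb (M0 * q) q)) (algebraAlong (heckeAlphaBar Kb (M0 * q) q))
    (Wb M0 q h : FF (M0 * q) ≃+* FF (M0 * q)) (Wb2 M0 q h : FF (M0 * q * q) ≃+* FF (M0 * q * q))
    (by
      apply RingHom.ext
      intro y
      exact (Wb2_beta M0 q h y).symm) u
  refine this.trans ?_
  apply (Wb M0 q h).injective
  rw [Wb_Wb]
  exact (Wb M0 q h : FF (M0 * q) ≃+* FF (M0 * q)).apply_symm_apply _

end W

section NBC

variable (M0 q ℓ : ℕ) [NeZero M0] [Fact q.Prime] [Fact ℓ.Prime]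

/-- `β_ℓ : FF (M₀ q q) → FF (M₀ ℓ q q)`. -/
def betaD : FF (M0 * q * q) →+* FF (M0 * ℓ * q * q) :=
  ((castFF (lvl_eq' (lvl_eq M0 q ℓ) q) : FF (M0 * q * ℓ * q) ≃ₐ[Kb] FF (M0 * ℓ * q * q)) :
    FF (M0 * q * ℓ * q) →+* FF (M0 * ℓ * q * q)).comp (betaC (M0 * q) q ℓ)

theorem betaD_apply (u : FF (M0 * q * q)) :
    betaD M0 q ℓ u = castFF (lvl_eq' (lvl_eq M0 q ℓ) q) (betaC (M0 * q) q ℓ u) := rfl

theorem betaD_alpha (y : FF (M0 * q)) :
    betaD M0 q ℓ (heckeAlphaBar Kb (M0 * q) q y) =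
      heckeAlphaBar Kb (M0 * ℓ * q) q (betaC M0 q ℓ y) := by
  rw [betaD_apply, betaC_alpha, alpha_cast, betaC_apply]

theorem betaD_beta (y : FF (M0 * q)) :
    betaD M0 q ℓ (heckeBetaBar Kb (M0 * q) q y) =
      heckeBetaBar Kb (M0 * ℓ * q) q (betaC M0 q ℓ y) := by
  rw [betaD_apply, betaC_beta, beta_cast, betaC_apply]

theorem Wb2_betaD (hq : ¬ q ∣ M0 * ℓ) (hq0 : ¬ q ∣ M0) (u : FF (M0 * q * q)) :
    Wb2 (M0 * ℓ) q hq (betaD M0 q ℓ u) = betaD M0 q ℓ (Wb2 M0 q hq0 u) := by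
  have : ((Wb2 (M0 * ℓ) q hq : FF (M0 * ℓ * q * q) →+* FF (M0 * ℓ * q * q)).comp (betaD M0 q ℓ))
      = (betaD M0 q ℓ).comp (Wb2 M0 q hq0 : FF (M0 * q * q) →+* FF (M0 * q * q)) := by
    apply S37.KT.ringHom_ext (M0 * q) q
    · intro y
      simp only [RingHom.comp_apply, RingHom.coe_coe, Wb2_alpha, betaD_alpha, betaD_beta,
        Wb_betaC hq hq0]
    · intro y
      simp only [RingHom.comp_apply, RingHom.coe_coe, Wb2_beta, betaD_alpha, betaD_beta,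
        Wb_betaC hq hq0]
  exact DFunLike.congr_fun this u

/-- **NBC** along `β'`. -/
theorem nbcB2 (hq : ¬ q ∣ M0 * ℓ) (u : FF (M0 * q * q)) :
    normB (M0 * q * ℓ) q (betaC (M0 * q) q ℓ u) = heckeBetaBar Kb (M0 * q) ℓ (normB (M0 * q) q u) := by
  have hq0 : ¬ q ∣ M0 := fun h => hq (h.mul_right ℓ)
  apply (castFF (lvl_eq M0 q ℓ)).injective
  rw [← normB_cast (lvl_eq M0 q ℓ) q, ← betaD_apply, normB_eq2 (M0 * ℓ) q hq, Wb2_betaD M0 q ℓ hq hq0, betaD_apply,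
    normA_cast (lvl_eq M0 q ℓ) q, nbcA (M0 * q) q ℓ (dvd_mul_left q M0), ← betaC_apply, Wb_betaC hq hq0,
    ← normB_eq2 M0 q hq0, betaC_apply]

end NBC

end WN

open WN in
/-- the norm along `β_q : FF (M₀ q) → FF (M₀ q q)` commutes with the Hecke operators. -/
theorem normB_heckeMul_sq (M0 q ℓ : ℕ) [NeZero M0] [NeZero (M0 * q)] [NeZero (M0 * q * q)]
    [Fact q.Prime] [Fact ℓ.Prime] (hqM0 : ¬ q ∣ M0) (hℓ : ¬ ℓ ∣ M0 * q * q)
    (u : FF (M0 * q * q)) :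
    normB (M0 * q) q (heckeMul (M0 * q * q) ℓ u) = heckeMul (M0 * q) ℓ (normB (M0 * q) q u) := by
  have hq : ¬ q ∣ M0 * ℓ := not_dvd_mul hqM0 (fun h => hℓ (h.mul_right q))
  have h1 := norm_tower (heckeBetaBar Kb (M0 * q) q).toRingHom
    (heckeAlphaBar Kb (M0 * q * q) ℓ).toRingHom
    (heckeAlphaBar Kb (M0 * q) ℓ).toRingHom (heckeBetaBar Kb (M0 * q * ℓ) q).toRingHom
    (castFF (lvl_eq (M0 * q) q ℓ)).toRingEquiv (fun x => Subtype.ext (by
      show ((castFF (lvl_eq (M0 * q) q ℓ)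
        (heckeAlphaBar Kb (M0 * q * q) ℓ (heckeBetaBar Kb (M0 * q) q x)) :
        FF (M0 * q * ℓ * q)) : LaurentSeries Kb) =
        ((heckeBetaBar Kb (M0 * q * ℓ) q (heckeAlphaBar Kb (M0 * q) ℓ x) : FF (M0 * q * ℓ * q)) :
          LaurentSeries Kb)
      rw [coe_castFF, coe_heckeAlphaBar, coe_heckeBetaBar, coe_heckeBetaBar,
        coe_heckeAlphaBar])) (heckeBetaBar Kb (M0 * q * q) ℓ u)
  have h2 := nbcB2 M0 q ℓ hq u
  refine Eq.trans h1 ?_
  rw [heckeMul_apply, ← h2]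
  rfl

/-- the norm along `α_q : FF (M₀ q) → FF (M₀ q q)` commutes with the Hecke operators. -/
theorem normA_heckeMul_sq (M0 q ℓ : ℕ) [NeZero M0] [NeZero (M0 * q)] [NeZero (M0 * q * q)]
    [Fact q.Prime] [Fact ℓ.Prime] (hℓ : ¬ ℓ ∣ M0 * q * q) (u : FF (M0 * q * q)) :
    normA (M0 * q) q (heckeMul (M0 * q * q) ℓ u) = heckeMul (M0 * q) ℓ (normA (M0 * q) q u) :=
  normA_heckeMul_of_dvd (M0 * q) q ℓ (dvd_mul_left q M0) hℓ u

/-! ### `IsPDiv`, Galois (no hypothesis on the level) -/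

theorem isPDiv_normA' (m M q : ℕ) [NeZero M] [Fact q.Prime] {u : FF (M * q)}
    (hu : IsPDiv m (M * q) u) : IsPDiv m M (normA M q u) :=
  HKN.isPDiv_norm_along m M (M * q) (heckeAlphaBar Kb M q) hu

theorem isPDiv_normB' (m M q : ℕ) [NeZero M] [Fact q.Prime] {u : FF (M * q)}
    (hu : IsPDiv m (M * q) u) : IsPDiv m M (normB M q u) :=
  HKN.isPDiv_norm_along m M (M * q) (heckeBetaBar Kb M q) hu

theorem normA_gal' (M q : ℕ) [NeZero M] [Fact q.Prime] (σ : GQ) (u : FF (M * q)) :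
    normA M q (gal (M * q) σ u) = gal M σ (normA M q u) :=
  HKN.norm_along_gal M (M * q) (heckeAlphaBar Kb M q) σ (S34.WK.gal_alpha M q σ) u

theorem normB_gal' (M q : ℕ) [NeZero M] [Fact q.Prime] (σ : GQ) (u : FF (M * q)) :
    normB M q (gal (M * q) σ u) = gal M σ (normB M q u) :=
  HKN.norm_along_gal M (M * q) (heckeBetaBar Kb M q) σ (S34.WK.gal_beta M q σ) u

end Fermat.Agent.S36
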