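import Fermat.Agent.S36.WFinal
import Fermat.Agent.S36.WNormB

/-!
# S36, block W : the frozen statement from `ClaimAll` (block G) alone
-/

set_option autoImplicit false
set_option linter.overlappingInstances false

noncomputable section

namespace Fermat.Agent.S36

open Fermat.Agent.ES Fermat.Agent.S24 Fermat.Agent.S16 Fermat.Agent.S31 Fermat.Agent.S30
  Fermat.Agent.S30.FinLvl Fermat.Agent.S35 CuspForm CongruenceSubgroup ModularCurve AlgebraicCurve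

theorem fixH_all2 (hC : ClaimAll) (p M0 q : ℕ) [Fact p.Prime] [NeZero (M0 * q)]
    [NeZero (M0 * q * q)] (hq : q.Prime) (hqM0 : ¬ q ∣ M0) (hqp : q ≠ p) : FixH p M0 q := by
  have : Fact q.Prime := ⟨hq⟩
  have : NeZero q := ⟨hq.ne_zero⟩
  have : NeZero M0 := ⟨fun h => NeZero.ne (M0 * q) (by rw [h, zero_mul])⟩
  obtain ⟨A, hA⟩ := Lib.Frobenius.exists_liesOverPrime hq
  exact fixH_of p M0 q A hA (hC p M0 q Fact.out hq hqM0 hqp A hA)
    (fun r u hu => isPDiv_normA' _ (M0 * q) q hu)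
    (fun r u hu => isPDiv_normB' _ (M0 * q) q hu)
    (fun ℓ _ hℓ u => normA_heckeMul_sq M0 q ℓ hℓ u)
    (fun ℓ _ hℓ u => normB_heckeMul_sq M0 q ℓ hqM0 hℓ u)

end Fermat.Agent.S36

namespace Fermat.Agent.S36

open Polynomial

theorem result_of2 (hC : ClaimAll)
    {M : ℕ} [NeZero M] {g : CuspForm (CongruenceSubgroup.Gamma0 M) 2} (hg : g.IsNewform)
    (lam : ℕ) [Fact lam.Prime]
    (S : Finset ℕ)
    (O' : Type) [CommRing O'] [IsDomain O'] [IsDiscreteValuationRing O']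
    [IsAdicComplete (IsLocalRing.maximalIdeal O') O'] [Finite (IsLocalRing.ResidueField O')]
    [CharZero O'] (hlamO' : (lam : O') ∈ IsLocalRing.maximalIdeal O')
    (hlam2 : lam ≠ 2)
    (chig : CuspForm.heckeAlgebra M 2 (↑S : Set ℕ) →+* ℂ)
    (hchig : ∀ (ℓ : ℕ) (hℓ : ℓ.Prime) (hℓM : ¬ ℓ ∣ M) (hℓS : ℓ ∉ (↑S : Set ℕ)),
      chig (CuspForm.heckeAlgebra.T hℓ hℓM hℓS) = ModularFormClass.qCoeff g ℓ)
    (iota : chig.range →+* O')
    (hlamS : lam ∈ S) (hMS : ∀ q : ℕ, q.Prime → q ∣ M → q ∈ S)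
    (hres : ∀ (O'' : Type) [CommRing O''] [IsDomain O''] [IsDiscreteValuationRing O'']
      [IsAdicComplete (IsLocalRing.maximalIdeal O'') O''] [Finite (IsLocalRing.ResidueField O'')] [CharZero O'']
      [Algebra O' O''] [Module.Finite O' O''] [IsLocalHom (algebraMap O' O'')],
      Function.Injective (algebraMap O' O'') → ∀ (ρ : GaloisRepAdic O''),
      (∀ (ℓ : ℕ) (hℓ : ℓ.Prime) (hℓlam : ℓ ≠ lam) (hℓM : ¬ ℓ ∣ M) (hℓS : ℓ ∉ (↑S : Set ℕ)),
        ∀ A : ValuationSubring (AlgebraicClosure ℚ), A.LiesOverPrime ℓ →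
          ∀ σ : AlgebraicClosure ℚ ≃ₐ[ℚ] AlgebraicClosure ℚ, A.IsFrobeniusAt σ ℓ →
            LinearMap.charpoly (ρ.ρ σ) =
              X ^ 2 - C (algebraMap O' O'' ((iota.comp chig.rangeRestrict) (CuspForm.heckeAlgebra.T hℓ hℓM hℓS))) * X
                + C ((ℓ : O'')))
      → ρ.residual.IsAbsolutelyIrreducible ∧ ρ.residual.IsOdd)
    :
    ∃ (O'' : Type) (_ : CommRing O'') (_ : IsDomain O'') (_ : IsDiscreteValuationRing O'')
      (_ : IsAdicComplete (IsLocalRing.maximalIdeal O'') O'') (_ : Finite (IsLocalRing.ResidueField O''))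
      (_ : CharZero O'') (_ : Algebra O' O'') (_ : Module.Finite O' O'') (_ : IsLocalHom (algebraMap O' O'')),
      Function.Injective (algebraMap O' O'') ∧
      ∃ ρ : GaloisRepAdic O'',
        (∀ (ℓ : ℕ) (hℓ : ℓ.Prime) (hℓM : ¬ ℓ ∣ M) (hℓS : ℓ ∉ (↑S : Set ℕ)),
          ∀ A : ValuationSubring (AlgebraicClosure ℚ), A.LiesOverPrime ℓ →
            ∀ σ : AlgebraicClosure ℚ ≃ₐ[ℚ] AlgebraicClosure ℚ, A.IsFrobeniusAt σ ℓ →
              LinearMap.charpoly (ρ.ρ σ) =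
                X ^ 2 - C (algebraMap O' O'' ((iota.comp chig.rangeRestrict) (CuspForm.heckeAlgebra.T hℓ hℓM hℓS))) * X
                  + C ((ℓ : O''))) ∧
        (∀ q : ℕ, q.Prime → q ≠ lam → M.factorization q = 2 → ¬ ρ.IsUnipotentOnInertiaAt q) := by
  have hpp : lam.Prime := Fact.out
  have hINJ : ∀ (r ℓ : ℕ), ℓ.Prime → ¬ ℓ ∣ M → ℓ ≠ lam → ∀ A : ValuationSubring Fermat.Agent.S24.Kb,
      A.LiesOverPrime ℓ → Fermat.Agent.ES.INJ (lam ^ r) M A := fun r ℓ hℓ hℓN hℓp A hA =>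
    Fermat.Agent.ES.inj_all (lam ^ r) M ℓ hℓ (fun h => by
      rcases (Nat.Prime.dvd_mul hℓ).mp h with h | h
      · exact hℓN h
      · exact hℓp ((Nat.prime_dvd_prime_iff_eq hℓ hpp).mp (hℓ.dvd_of_dvd_pow h))) A hA
  refine main36_of lam M S hlamS hMS (Fermat.Agent.S35.finD lam M (↑S : Set ℕ) hMS hINJ) O' hlamO'
    (iota.comp chig.rangeRestrict) (fun n _ a h => exists_addHom_ne n a h)
    (fun q hq hqp hfac => ?_)
  have hM0 : M ≠ 0 := NeZero.ne M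
  have hd : q ^ 2 ∣ M := by
    rw [← hfac]
    exact Nat.ordProj_dvd M q
  obtain ⟨M0, hM⟩ : ∃ M0, M = M0 * q * q := ⟨M / q ^ 2, by
    rw [mul_assoc, ← pow_two]; exact (Nat.div_mul_cancel hd).symm⟩
  have hqM0 : ¬ q ∣ M0 := by
    rintro ⟨k, rfl⟩
    have h3 : q ^ 3 ∣ M := ⟨k, by rw [hM]; ring⟩
    have := (hq.pow_dvd_iff_le_factorization hM0).1 h3
    omega
  subst hM
  have : NeZero (M0 * q) := ⟨fun h => hM0 (by rw [h, zero_mul])⟩
  exact good2_of lam M0 q S (fixH_all2 hC lam M0 q hq hqM0 hqp) hMS hINJ hq hg O' chig hchig iota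

end Fermat.Agent.S36
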