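import Fermat.Agent.S35.GDV

/-!
# S36, geometry, abstract block : shared definitions

`F` a field, `O i` (`i : Fin 3`; `0 = FF`, `1 = mid`, `2 = VV`) three discrete valuation rings of
`F` with uniformisers `π i`; `ϖ` the uniformiser of the base (`ϖ = unit * π i ^ k`, `1 ≤ k ≤ q`).
`B` a chart, `n` a maximal ideal of `B`.
-/

set_option autoImplicit false

namespace Fermat.Agent.S36

open Fermat.Agent.S34 Fermat.Agent.S35

variable {F : Type*} [Field F]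

/-- the semilocal ring `O 0 ∩ O 1 ∩ O 2`. -/
def OO (O : Fin 3 → Subring F) : Subring F := ⨅ i, O i

theorem mem_OO {O : Fin 3 → Subring F} {x : F} : x ∈ OO O ↔ ∀ i, x ∈ O i := Subring.mem_iInf

/-- **Three discrete valuation rings.** -/
structure Is3 (O : Fin 3 → Subring F) (π : Fin 3 → F) (ϖ : F) (q : ℕ) : Prop where
  dv : ∀ i, IsDV (O i) (π i)
  ram : ∀ i, ∃ k : ℕ, 0 < k ∧ k ≤ q ∧ IsU (O i) (ϖ / π i ^ k)
  char : ∀ i, DivS (O i) ϖ 1 (q : F)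
  sep : ∀ i, ∃ θ : F, DivS (O i) (π i) 1 θ ∧ ∀ j, j ≠ i → IsU (O j) θ

/-- the branch `(O, π)` does not pass through `n`. -/
def Off (O : Subring F) (π : F) {B : Subring F} (n : Ideal B) : Prop :=
  ∃ θ : B, θ ∉ n ∧ DivS O π 1 (θ : F)

/-- the branch `i` passes through `n`, is locally principal at `n`, and is normal. -/
structure On (O : Fin 3 → Subring F) (π : Fin 3 → F) (ϖ : F) (m : ℕ) (B : Subring F) (hϖ : ϖ ∈ B)
    (n : Ideal B) (i : Fin 3) : Prop where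
  le : ∀ b : B, DivS (O i) (π i) 1 (b : F) → b ∈ n
  gen : ∃ t : F, IsU (O i) (t / π i) ∧ InTube (⟨ϖ, hϖ⟩ : B) n t ∧ InTube (⟨ϖ, hϖ⟩ : B) n t⁻¹ ∧
    ∀ j, j ≠ i → IsU (O j) t ∨ Off (O j) (π j) n
  ic : ∀ f ∈ O i, ∀ e : B, DivS (O i) (π i) 1 (f ^ m - (e : F)) →
    ∃ a : B, DivS (O i) (π i) 1 (f - (a : F))

/-- the point `n` : either on exactly one branch, or on the three branches. -/
def Pt (O : Fin 3 → Subring F) (π : Fin 3 → F) (ϖ : F) (m : ℕ) (B : Subring F) (hϖ : ϖ ∈ B)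
    (n : Ideal B) : Prop :=
  (∃ i, On O π ϖ m B hϖ n i ∧ ∀ j, j ≠ i → Off (O j) (π j) n) ∨ ∀ i, On O π ϖ m B hϖ n i

/-- **The relations between the branch values given by the two norms** (output of G-NORM):
`v ≡ h i ^ m` on the branch `i`; if `f ^ m * v = b ∈ B ∖ n` and `f * h i ≡ a i ∈ B` on the branch
`i`, then `a 0 * a 1 ^ (q - 1) * κ ≡ a 2 ^ q` and `a 2 * a 1 ^ (q - 1) * κ' ≡ a 0 ^ q` mod `n`. -/
def Rel (O : Fin 3 → Subring F) (π : Fin 3 → F) (m q : ℕ) (B : Subring F) (v : F) (h : Fin 3 → F)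
    (κ κ' : F) : Prop :=
  ∀ n : Ideal B, n.IsMaximal → ∀ (f : F) (b : B), b ∉ n → f ^ m * v = (b : F) →
    ∀ a : Fin 3 → B, (∀ i, DivS (O i) (π i) 1 (f * h i - (a i : F))) →
    ∀ k k' : B, (k : F) = κ → (k' : F) = κ' →
      a 0 * a 1 ^ (q - 1) * k - a 2 ^ q ∈ n ∧ a 2 * a 1 ^ (q - 1) * k' - a 0 ^ q ∈ n

end Fermat.Agent.S36
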