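import Fermat.Agent.S36.AFix2

/-!
# S36, abstract block : OUTPUT (`fix_abs`)
-/

set_option autoImplicit false

namespace Fermat.Agent.S36

open Fermat.Agent.S34 Fermat.Agent.S35 Fermat.Agent.ES.Model

variable {F : Type*} [Field F]

theorem inv_mem_of_pow_eq_one {R : Subring F} {x : F} {m : ℕ} (hm : 0 < m) (hx : x ∈ R)
    (h : x ^ m = 1) : x⁻¹ ∈ R := by
  have : x⁻¹ = x ^ (m - 1) := by
    have h1 : x ^ (m - 1) * x = 1 := by rw [← pow_succ, Nat.sub_add_cancel hm, h]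
    exact (eq_inv_of_mul_eq_one_left h1).symm
  rw [this]; exact R.pow_mem hx _

theorem ne_zero_of_pow_eq_one {x : F} {m : ℕ} (hm : 0 < m) (h : x ^ m = 1) : x ≠ 0 := by
  rintro rfl
  rw [zero_pow hm.ne'] at h
  exact zero_ne_one h

/-- **[GA-FIX]** OUTPUT of the abstract block. -/
theorem fix_abs {O : Fin 3 → Subring F} {π : Fin 3 → F} {ϖ : F} {q : ℕ} (hq : q.Prime)
    (h3 : Is3 O π ϖ q) (m : ℕ) (hm : 0 < m)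
    (R B1 B2 B12 : Subring F) [IsNoetherianRing R] (hR1 : R ≤ B1) (hR2 : R ≤ B2) (hϖR : ϖ ∈ R)
    (h1 : IsChartS (OO O) ϖ m B1) (h2 : IsChartS (OO O) ϖ m B2)
    (h12 : IsChartS (OO O) ϖ m B12) (h1le : B1 ≤ B12) (h2le : B2 ≤ B12)
    (t : F) (ht : t ≠ 0) (ht1 : t ∈ B1) (ht2 : t⁻¹ ∈ B2)
    (h12a : ∀ x ∈ B12, ∃ n : ℕ, t ^ n * x ∈ B1) (h12b : ∀ x ∈ B12, ∃ n : ℕ, t⁻¹ ^ n * x ∈ B2)
    (hfin : ∃ S : Finset F, ∀ x ∈ B1,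
      x ∈ Submodule.span (Subring.closure ((R : Set F) ∪ {t})) (S : Set F))
    (hfrac : ∀ f : F, ∃ s ∈ B1, s ≠ 0 ∧ s * f ∈ B1)
    (hpt1 : ∀ n : Ideal B1, n.IsMaximal → (⟨ϖ, h1.unif_mem⟩ : B1) ∈ n →
      Pt O π ϖ m B1 h1.unif_mem n)
    (hpt2 : ∀ n : Ideal B2, n.IsMaximal → (⟨ϖ, h2.unif_mem⟩ : B2) ∈ n →
      Pt O π ϖ m B2 h2.unif_mem n)
    (v : F) (hlp1 : LPall ϖ m B1 h1.unif_mem v) (hlp2 : LPall ϖ m B2 h2.unif_mem v)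
    (hv : ∀ i, DivS (O i) (π i) 1 (v - 1))
    (l1 l2 m1 m2 : F) (hl1 : l1 ∈ R) (hl2 : l2 ∈ R) (hm1 : m1 ∈ R) (hm2 : m2 ∈ R)
    (hl1m : l1 ^ m = 1) (hl2m : l2 ^ m = 1) (hm1m : m1 ^ m = 1) (hm2m : m2 ^ m = 1)
    (hrel1 : Rel3 O π m q B1 v l1 l2 m1 m2) (hrel2 : Rel3 O π m q B2 v l1 l2 m1 m2) :
    ∃ z : F, z ≠ 0 ∧ z ^ m * v ^ ((q ^ 2 - 1) * q) ∈ B1 ∧ z ^ m * v ^ ((q ^ 2 - 1) * q) ∈ B2 := by
  obtain ⟨r, rfl⟩ : ∃ r, q = r + 1 := ⟨q - 1, by have := hq.pos; omega⟩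
  have hQ : (r + 1) ^ 2 - 1 = r * (r + 2) := by
    have : (r + 1) ^ 2 = r * (r + 2) + 1 := by ring
    omega
  -- products of roots of unity
  have hmulR : ∀ x y : F, x ∈ R → y ∈ R → x ^ m = 1 → y ^ m = 1 →
      (x ^ (r + 1) * y) ∈ R ∧ (x ^ (r + 1) * y) ^ m = 1 := by
    intro x y hx hy hxm hym
    refine ⟨R.mul_mem (R.pow_mem hx _) hy, ?_⟩
    rw [mul_pow, pow_right_comm, hxm, hym, one_pow, one_mul]
  have hdivR : ∀ x y : F, x ∈ R → y ∈ R → x ^ m = 1 → y ^ m = 1 →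
      (x * y⁻¹) ∈ R ∧ (x * y⁻¹) ^ m = 1 := by
    intro x y hx hy hxm hym
    refine ⟨R.mul_mem hx (inv_mem_of_pow_eq_one hm hy hym), ?_⟩
    rw [mul_pow, inv_pow, hxm, hym, inv_one, one_mul]
  have a0 := hmulR m1 l2 hm1 hl2 hm1m hl2m
  have b0 := hmulR m2 l1 hm2 hl1 hm2m hl1m
  have a2 := hmulR l2 m1 hl2 hm1 hl2m hm1m
  have b2 := hmulR l1 m2 hl1 hm2 hl1m hm2m
  have x0 := hdivR _ _ a0.1 b0.1 a0.2 b0.2
  have x2 := hdivR _ _ a2.1 b2.1 a2.2 b2.2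
  set ξ : Fin 3 → F := ![m1 ^ (r + 1) * l2 * (m2 ^ (r + 1) * l1)⁻¹, 1,
    l2 ^ (r + 1) * m1 * (l1 ^ (r + 1) * m2)⁻¹] with hξ
  have hξR : ∀ i, ξ i ∈ R := by
    intro i
    fin_cases i
    · exact x0.1
    · exact R.one_mem
    · exact x2.1
  have hξm : ∀ i, ξ i ^ m = 1 := by
    intro i
    fin_cases i
    · exact x0.2
    · exact one_pow m
    · exact x2.2
  have hRO : ∀ j, ∀ x ∈ R, x ∈ O j := fun j x hx => mem_OO.1 (h1.le x (hR1 hx)) j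
  have hξU : ∀ i j, IsU (O j) (ξ i) := fun i j =>
    ⟨ne_zero_of_pow_eq_one hm (hξm i), hRO j _ (hξR i),
      hRO j _ (inv_mem_of_pow_eq_one hm (hξR i) (hξm i))⟩
  have e0 : ξ 0 * (m2 ^ (r + 1) * l1) = m1 ^ (r + 1) * l2 :=
    inv_mul_cancel_right₀ (ne_zero_of_pow_eq_one hm b0.2) _
  have e1 : ξ 1 = 1 := rfl
  have e2 : ξ 2 * (l1 ^ (r + 1) * m2) = l2 ^ (r + 1) * m1 :=
    inv_mul_cancel_right₀ (ne_zero_of_pow_eq_one hm b2.2) _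
  obtain ⟨η, hη, hηξ⟩ := h3.crt_unit ξ (fun i => hξU i i)
  have hη0 : η ≠ 0 := (hη 0).ne_zero
  have hw : DivS (OO O) ϖ 1 ((v ^ (r * (r + 2)) / η ^ m) ^ (r + 1) - 1) :=
    h3.pow_sub_one hq (fun i => twist_cong (h3.dv i) _ (hv i) (hη i) (hξU i i).mem (hξm i) (hηξ i))
  obtain ⟨z, hz, hz1, hz2⟩ := fix_abs0 h3 m hm R B1 B2 B12 hR1 hR2 hϖR h1 h2 h12 h1le h2le t ht
    ht1 ht2 h12a h12b hfin hfrac _ hw
    (fun n hn hϖn => loc3_of r h3 hm h1 n hn (hpt1 n hn hϖn) v η hv (hlp1 n hn hϖn) hη ξ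
      (fun i => hR1 (hξR i)) hξm hηξ l1 l2 m1 m2 (hR1 hl1) (hR1 hl2) (hR1 hm1) (hR1 hm2)
      hl1m hm2m e0 e1 e2 hrel1)
    (fun n hn hϖn => loc3_of r h3 hm h2 n hn (hpt2 n hn hϖn) v η hv (hlp2 n hn hϖn) hη ξ
      (fun i => hR2 (hξR i)) hξm hηξ l1 l2 m1 m2 (hR2 hl1) (hR2 hl2) (hR2 hm1) (hR2 hm2)
      hl1m hm2m e0 e1 e2 hrel2)
  have e : (z / η ^ (r + 1)) ^ m * v ^ (((r + 1) ^ 2 - 1) * (r + 1))
      = z ^ m * (v ^ (r * (r + 2)) / η ^ m) ^ (r + 1) := by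
    rw [hQ, div_pow, div_pow, pow_mul v, pow_right_comm η]
    ring
  refine ⟨z / η ^ (r + 1), div_ne_zero hz (pow_ne_zero _ hη0), ?_, ?_⟩
  · rw [e]; exact hz1
  · rw [e]; exact hz2

end Fermat.Agent.S36
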