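import Mathlib

/-!
# S36, abstract block : the étale Nakayama lemma (Mathlib only)

`B → S`, `n` a maximal ideal of `B`, `x ∈ S` with `x ^ m = b ∉ n`, `m ∉ n`, `c ^ m ≡ b` mod `n`,
and a product of factors `α x - β` vanishing in `S`, each factor being either a unit at `n`
(`α ∈ n`, `β ∉ n`) or congruent to `x - c` (`α ≡ 1`, `β ≡ c`).  Then `r x ∈ B` for some `r ∉ n`.
-/

set_option autoImplicit false

namespace Fermat.Agent.S36

theorem etale_nak {B S : Type*} [CommRing B] [CommRing S] [Algebra B S] (n : Ideal B)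
    [hn : n.IsMaximal] (m : ℕ) (hm : 0 < m) (hmn : (m : B) ∉ n) (x : S) (b c : B) (hb : b ∉ n)
    (hx : x ^ m = algebraMap B S b) (hc : c ^ m - b ∈ n)
    {ι : Type*} (s : Finset ι) (e : ℕ) (α β : ι → B)
    (hαβ : ∀ i ∈ s, (α i ∈ n ∧ β i ∉ n) ∨ (α i - 1 ∈ n ∧ β i - c ∈ n))
    (hprod : ∏ i ∈ s, (algebraMap B S (α i) * x - algebraMap B S (β i)) ^ e = 0) :
    ∃ r : B, r ∉ n ∧ ∃ b' : B, algebraMap B S r * x = algebraMap B S b' := by
  classical
  let C := Algebra.adjoin B {x}
  let x' : C := ⟨x, Algebra.self_mem_adjoin_singleton B x⟩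
  have hx' : x' ^ m = algebraMap B C b := Subtype.ext (by simpa using hx)
  let J : Ideal C := n.map (algebraMap B C)
  let mk := Ideal.Quotient.mk J
  have hn0 : ∀ y ∈ n, mk (algebraMap B C y) = 0 := fun y hy =>
    Ideal.Quotient.eq_zero_iff_mem.2 (Ideal.mem_map_of_mem _ hy)
  have hunit : ∀ t, t ∉ n → IsUnit (mk (algebraMap B C t)) := by
    intro t ht
    obtain ⟨y, i, hi, e1⟩ := hn.exists_inv ht
    have e2 := congrArg (fun z => mk (algebraMap B C z)) e1
    simp only [map_add, map_mul, map_one, hn0 i hi, add_zero] at e2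
    exact IsUnit.of_mul_eq_one _ (by rw [mul_comm]; exact e2)
  set ε := mk (x' - algebraMap B C c) with hε
  -- the product in `C`
  have hprodC : ∏ i ∈ s, (algebraMap B C (α i) * x' - algebraMap B C (β i)) ^ e = 0 := by
    apply Subtype.val_injective
    have := hprod
    simpa [x'] using this
  have hnil : IsNilpotent ε := by
    have h1 : ∃ (k : ℕ) (U : (C ⧸ J)ˣ),
        ∏ i ∈ s, (mk (algebraMap B C (α i) * x' - algebraMap B C (β i))) ^ e = U * ε ^ k := by
      refine Finset.prod_induction _ (fun z => ∃ (k : ℕ) (U : (C ⧸ J)ˣ), z = U * ε ^ k) ?_ ?_ ?_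
      · rintro _ _ ⟨k1, U1, rfl⟩ ⟨k2, U2, rfl⟩
        exact ⟨k1 + k2, U1 * U2, by rw [Units.val_mul, pow_add]; ring⟩
      · exact ⟨0, 1, by simp⟩
      · intro i hi
        rcases hαβ i hi with ⟨h1, h2⟩ | ⟨h1, h2⟩
        · have e1 : mk (algebraMap B C (α i) * x' - algebraMap B C (β i))
              = - mk (algebraMap B C (β i)) := by
            rw [map_sub, map_mul, hn0 _ h1, zero_mul, zero_sub]
          obtain ⟨U, hU⟩ := ((hunit _ h2).neg.pow e)
          exact ⟨0, U, by rw [e1, hU, pow_zero, mul_one]⟩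
        · have e1 : mk (algebraMap B C (α i) * x' - algebraMap B C (β i)) = ε := by
            have e2 := hn0 _ h1
            have e3 := hn0 _ h2
            rw [map_sub, map_sub, map_one, map_one] at e2
            rw [map_sub, map_sub] at e3
            rw [hε, map_sub, map_sub, map_mul]
            linear_combination (mk x') * e2 - e3
          exact ⟨e, 1, by rw [e1, Units.val_one, one_mul]⟩
    obtain ⟨k, U, hU⟩ := h1
    refine ⟨k, ?_⟩
    have h2 := congrArg mk hprodC
    rw [map_prod, map_zero] at h2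
    simp only [map_pow] at h2
    rw [hU] at h2
    exact (Units.mul_right_eq_zero U).1 h2
  have hε0 : ε = 0 := by
    obtain ⟨k, hk⟩ := Polynomial.powAddExpansion (mk (algebraMap B C c)) ε m
    have e1 : mk (algebraMap B C c) + ε = mk x' := by rw [hε, map_sub]; ring
    have e2 : mk x' ^ m = mk (algebraMap B C c) ^ m := by
      have e3 := hn0 _ hc
      rw [map_sub, map_sub, map_pow, map_pow] at e3
      rw [← map_pow, hx']
      linear_combination -e3
    rw [e1, e2] at hk
    have hcn : c ∉ n := by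
      intro h
      apply hb
      have := n.sub_mem (n.pow_mem_of_mem h m hm) hc
      simpa using this
    have hU : IsUnit ((m : C ⧸ J) * mk (algebraMap B C c) ^ (m - 1) + k * ε) := by
      have h1 : IsUnit ((m : C ⧸ J) * mk (algebraMap B C c) ^ (m - 1)) := by
        have h2 := hunit _ hmn
        rw [map_natCast, map_natCast] at h2
        exact h2.mul ((hunit _ hcn).pow _)
      have h3 : IsNilpotent (k * ε) := (Commute.all _ _).isNilpotent_mul_left hnil
      exact h3.isUnit_add_left_of_commute h1 (Commute.all _ _)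
    have e4 : ((m : C ⧸ J) * mk (algebraMap B C c) ^ (m - 1) + k * ε) * ε = 0 := by
      linear_combination -hk
    exact (hU.mul_right_eq_zero).1 e4
  have hxc : x' - algebraMap B C c ∈ J := Ideal.Quotient.eq_zero_iff_mem.1 hε0
  have hfin : Module.Finite B C := by
    have hint : IsIntegral B x :=
      ⟨Polynomial.X ^ m - Polynomial.C b, Polynomial.monic_X_pow_sub_C b hm.ne', by simp [hx]⟩
    exact Module.Finite.iff_fg.2 hint.fg_adjoin_singleton
  let N0 : Submodule B C := LinearMap.range (Algebra.linearMap B C)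
  have htop : ∀ y : C, ∃ b0 : B, y - algebraMap B C b0 ∈ J := by
    intro y
    obtain ⟨P, hP⟩ : ∃ P : Polynomial B, Polynomial.aeval x' P = y := by
      have hy : (y : S) ∈ Algebra.adjoin B {x} := y.2
      rw [Algebra.adjoin_singleton_eq_range_aeval] at hy
      obtain ⟨P, hP⟩ := hy
      refine ⟨P, Subtype.ext ?_⟩
      rw [Polynomial.aeval_subalgebra_coe]
      exact hP
    refine ⟨P.eval c, ?_⟩
    have h1 := Polynomial.sub_dvd_eval_sub x' (algebraMap B C c) (P.map (algebraMap B C))
    rw [Polynomial.eval_map_algebraMap, Polynomial.eval_map_algebraMap,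
      Polynomial.aeval_algebraMap_apply, hP, Polynomial.coe_aeval_eq_eval] at h1
    obtain ⟨k, hk⟩ := h1
    rw [hk]
    exact J.mul_mem_right _ hxc
  have hle : (⊤ : Submodule B (C ⧸ N0)) ≤ n • ⊤ := by
    intro y _
    obtain ⟨y0, rfl⟩ := N0.mkQ_surjective y
    obtain ⟨b0, hb0⟩ := htop y0
    have h1 : y0 - algebraMap B C b0 ∈ n • (⊤ : Submodule B C) := by
      rw [Ideal.smul_top_eq_map]; exact hb0
    have h2 : N0.mkQ (y0 - algebraMap B C b0) ∈ n • (⊤ : Submodule B (C ⧸ N0)) := by
      have := Submodule.mem_map_of_mem (f := N0.mkQ) h1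
      rw [Submodule.map_smul''] at this
      exact Submodule.smul_mono le_rfl le_top this
    have h3 : N0.mkQ (y0 - algebraMap B C b0) = N0.mkQ y0 := by
      rw [map_sub, sub_eq_self]
      exact (Submodule.Quotient.mk_eq_zero _).2 ⟨b0, rfl⟩
    rwa [h3] at h2
  obtain ⟨r, hr1, hr2⟩ := Submodule.exists_sub_one_mem_and_smul_eq_zero_of_fg_of_le_smul n ⊤
    Module.Finite.fg_top hle
  have h4 := hr2 (N0.mkQ x') trivial
  rw [← map_smul] at h4
  obtain ⟨b', hb'⟩ := (Submodule.Quotient.mk_eq_zero _).1 h4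
  refine ⟨r, ?_, b', ?_⟩
  · intro hr
    apply hn.ne_top
    rw [Ideal.eq_top_iff_one]
    have := n.sub_mem hr hr1
    simpa using this
  · have h5 := congrArg Subtype.val hb'
    rw [Algebra.smul_def] at h5
    simpa [x'] using h5.symm

end Fermat.Agent.S36
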