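import Fermat.Agent.S36.ADefs
import Fermat.Agent.S36.ANak

/-!
# S36, abstract block : the local step (gluing of the branches), general semilocal form
-/

set_option autoImplicit false

namespace Fermat.Agent.S36

open Fermat.Agent.S34 Fermat.Agent.S35 Fermat.Agent.ES.Model

variable {F : Type*} [Field F]

/-- **The local step**, with the branches encoded by a vanishing product. -/
theorem glue_core {O : Subring F} {ϖ : F} (hO : IsSemi O ϖ) {m : ℕ} (hm : 0 < m) {B : Subring F}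
    (hB : IsChartS O ϖ m B) (n : Ideal B) (hn : n.IsMaximal)
    (hϖn : (⟨ϖ, hB.unif_mem⟩ : B) ∈ n)
    (w : F) (hw : DivS O ϖ 1 (w - 1)) (f : F) (b : B) (hb : b ∉ n) (hf : f ^ m * w = (b : F))
    (c : B) (hc : c ^ m - b ∈ n)
    {ι : Type*} (s : Finset ι) (e : ℕ) (α β : ι → B)
    (hαβ : ∀ i ∈ s, (α i ∈ n ∧ β i ∉ n) ∨ (α i - 1 ∈ n ∧ β i - c ∈ n))
    (hprod : DivS O ϖ 1 (∏ i ∈ s, ((α i : F) * f - (β i : F)) ^ e)) :
    ∃ f' ∈ MM m w B, ∃ b' : B, b' ∉ n ∧ DivS O ϖ 1 (f' - (b' : F)) := by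
  have hle : B ≤ O := hB.le
  have hw0 : w ≠ 0 := by
    rintro rfl
    apply hb
    rw [mul_zero] at hf
    have : b = 0 := Subtype.ext hf.symm
    rw [this]; exact n.zero_mem
  obtain ⟨y, hy, hwy⟩ := hw
  rw [pow_one] at hwy
  have hwe : w = 1 + ϖ * y := by linear_combination hwy
  have hwinv : w⁻¹ ∈ O := by rw [hwe]; exact hO.unit y hy
  have hfm : f ^ m = (b : F) * w⁻¹ := by rw [← hf]; field_simp
  have hfmO : f ^ m ∈ O := by rw [hfm]; exact O.mul_mem (hle b.2) hwinv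
  have hfO : f ∈ O := hO.root f m hm hfmO
  have hfb : DivS O ϖ 1 (f ^ m - (b : F)) :=
    ⟨-(f ^ m * y), O.neg_mem (O.mul_mem hfmO hy), by rw [← hf, hwe, pow_one]; ring⟩
  have hmn : (m : B) ∉ n := by
    intro h
    apply hn.ne_top
    rw [Ideal.eq_top_iff_one]
    have e1 : (1 : B) = (⟨(m : F)⁻¹, hB.inv_mem⟩ : B) * (m : B) := by
      apply Subtype.ext
      rw [Subring.coe_mul, Subring.coe_one, Subring.coe_natCast, inv_mul_cancel₀ hB.m_ne]
    rw [e1]
    exact n.mul_mem_left _ h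
  let I : Ideal O := Ideal.span {(⟨ϖ, hO.mem⟩ : O)}
  let φ : B →+* O ⧸ I := (Ideal.Quotient.mk I).comp (Subring.inclusion hle)
  let _ : Algebra B (O ⧸ I) := φ.toAlgebra
  have hφ : ∀ z : B, algebraMap B (O ⧸ I) z = Ideal.Quotient.mk I ⟨(z : F), hle z.2⟩ := fun z => rfl
  have hzero : ∀ z : O, Ideal.Quotient.mk I z = 0 ↔ DivS O ϖ 1 (z : F) := by
    intro z
    rw [Ideal.Quotient.eq_zero_iff_mem, Ideal.mem_span_singleton']
    constructor
    · rintro ⟨a, ha⟩
      exact ⟨a, a.2, by rw [← ha, pow_one, Subring.coe_mul, mul_comm]⟩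
    · rintro ⟨a, ha, e1⟩
      exact ⟨⟨a, ha⟩, Subtype.ext (by rw [e1, pow_one, Subring.coe_mul, mul_comm])⟩
  obtain ⟨r, hr, b', hb'⟩ := etale_nak (S := O ⧸ I) n (hn := hn) m hm hmn
    (Ideal.Quotient.mk I ⟨f, hfO⟩) b c hb
    (by
      rw [hφ, ← map_pow, ← sub_eq_zero, ← map_sub, hzero]
      exact hfb) hc s e α β hαβ
    (by
      simp only [hφ]
      simp only [← map_mul, ← map_sub, ← map_pow, ← map_prod]
      rw [hzero]
      simpa using hprod)
  have h1 : DivS O ϖ 1 ((r : F) * f - (b' : F)) := by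
    rw [hφ, hφ, ← map_mul, ← sub_eq_zero, ← map_sub, hzero] at hb'
    exact hb'
  refine ⟨(r : F) * f, ?_, b', ?_, h1⟩
  · rw [mem_MM, mul_pow, mul_assoc, hf]
    exact B.mul_mem (B.pow_mem r.2 m) b.2
  · intro hbn
    have h2 := cong_pow (O.mul_mem (hle r.2) hfO) (hle b'.2) h1 m
    have h3 : DivS O ϖ 1 (((r ^ m * b - b' ^ m : B) : F)) := by
      have h4 : DivS O ϖ 1 ((r : F) ^ m * ((b : F) - f ^ m)) :=
        (DivS.symm hfb).mul_left (O.pow_mem (hle r.2) m)
      have := h4.add h2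
      have e1 : (((r ^ m * b - b' ^ m : B) : F))
          = (r : F) ^ m * ((b : F) - f ^ m) + (((r : F) * f) ^ m - (b' : F) ^ m) := by
        push_cast
        ring
      rw [e1]
      exact this
    obtain ⟨z, hz, e2⟩ := hB.sat _ (r ^ m * b - b' ^ m : B).2 h3
    have h5 : r ^ m * b - b' ^ m ∈ n := by
      have : r ^ m * b - b' ^ m = (⟨ϖ, hB.unif_mem⟩ : B) * ⟨z, hz⟩ := Subtype.ext e2
      rw [this]
      exact n.mul_mem_right _ hϖn
    have h6 : r ^ m * b ∈ n := by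
      have := n.add_mem h5 (n.pow_mem_of_mem hbn m hm)
      simpa using this
    rcases hn.isPrime.mem_or_mem h6 with h7 | h7
    · exact hr (hn.isPrime.mem_of_pow_mem m h7)
    · exact hb h7

end Fermat.Agent.S36
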