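import Fermat.Agent.S36.ADefs

/-!
# S36, geometry, abstract block : [GA-VAL] three discrete valuation rings
-/

set_option autoImplicit false

namespace Fermat.Agent.S36

open Fermat.Agent.S34 Fermat.Agent.S35

variable {F : Type*} [Field F]

theorem divS_OO {O : Fin 3 → Subring F} {ϖ : F} (hϖ : ϖ ≠ 0) {n : ℕ} {x : F} :
    DivS (OO O) ϖ n x ↔ ∀ i, DivS (O i) ϖ n x := by
  constructor
  · rintro ⟨y, hy, rfl⟩ i
    exact ⟨y, mem_OO.1 hy i, rfl⟩
  · intro h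
    obtain ⟨y, hy, e⟩ := h 0
    refine ⟨y, mem_OO.2 fun i => ?_, e⟩
    obtain ⟨z, hz, e'⟩ := h i
    have : y = z := mul_left_cancel₀ (pow_ne_zero n hϖ) (e.symm.trans e')
    exact this ▸ hz

theorem Is3.unif_ne_zero {O : Fin 3 → Subring F} {π : Fin 3 → F} {ϖ : F} {q : ℕ}
    (h : Is3 O π ϖ q) : ϖ ≠ 0 := by
  obtain ⟨k, -, -, hu⟩ := h.ram 0
  intro h0
  exact hu.ne_zero (by rw [h0, zero_div])

/-- `ϖ = u * π i ^ k`. -/
theorem Is3.exists_eq {O : Fin 3 → Subring F} {π : Fin 3 → F} {ϖ : F} {q : ℕ}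
    (h : Is3 O π ϖ q) (i : Fin 3) :
    ∃ (k : ℕ) (u : F), 0 < k ∧ k ≤ q ∧ IsU (O i) u ∧ ϖ = u * π i ^ k := by
  obtain ⟨k, hk, hkq, hu⟩ := h.ram i
  refine ⟨k, _, hk, hkq, hu, ?_⟩
  have := pow_ne_zero k (h.dv i).ne_zero
  field_simp

theorem Is3.unif_mem {O : Fin 3 → Subring F} {π : Fin 3 → F} {ϖ : F} {q : ℕ}
    (h : Is3 O π ϖ q) (i : Fin 3) : ϖ ∈ O i := by
  obtain ⟨k, u, -, -, hu, e⟩ := h.exists_eq i
  rw [e]
  exact mul_mem hu.mem (pow_mem (h.dv i).mem _)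

/-- `ϖ O i ⊆ π i O i`. -/
theorem Is3.divS_of_unif {O : Fin 3 → Subring F} {π : Fin 3 → F} {ϖ : F} {q : ℕ}
    (h : Is3 O π ϖ q) (i : Fin 3) {x : F} (hx : DivS (O i) ϖ 1 x) : DivS (O i) (π i) 1 x := by
  obtain ⟨k, u, hk, -, hu, e⟩ := h.exists_eq i
  obtain ⟨y, hy, rfl⟩ := hx
  obtain ⟨k', rfl⟩ : ∃ k', k = k' + 1 := ⟨k - 1, by omega⟩
  refine ⟨u * π i ^ k' * y, mul_mem (mul_mem hu.mem (pow_mem (h.dv i).mem _)) hy, ?_⟩
  rw [e]
  ring

theorem Is3.isSemi {O : Fin 3 → Subring F} {π : Fin 3 → F} {ϖ : F} {q : ℕ}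
    (h : Is3 O π ϖ q) : IsSemi (OO O) ϖ where
  ne_zero := h.unif_ne_zero
  mem := mem_OO.2 h.unif_mem
  inv_notMem := by
    intro hc
    have h0 := mem_OO.1 hc 0
    obtain ⟨k, u, hk, -, hu, e⟩ := h.exists_eq 0
    obtain ⟨k', rfl⟩ : ∃ k', k = k' + 1 := ⟨k - 1, by omega⟩
    apply (h.dv 0).inv_notMem
    have hπ := (h.dv 0).ne_zero
    have hu0 := hu.ne_zero
    have : (π 0)⁻¹ = ϖ⁻¹ * (u * π 0 ^ k') := by
      rw [e]
      field_simp
      ring
    rw [this]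
    exact mul_mem h0 (mul_mem hu.mem (pow_mem (h.dv 0).mem _))
  unit := by
    intro y hy
    refine mem_OO.2 fun i => ?_
    have : IsU (O i) (1 + ϖ * y) := by
      apply (h.dv i).isU_of_sub isU_one
      apply h.divS_of_unif i
      exact ⟨y, mem_OO.1 hy i, by ring⟩
    exact this.inv_mem
  root := fun x n hn hx => mem_OO.2 fun i => (h.dv i).root hn (mem_OO.1 hx i)

/-- one branch : `y ∈ 𝔪 i` ⟹ `y ^ q ∈ ϖ O i`. -/
theorem Is3.pow_divS_one {O : Fin 3 → Subring F} {π : Fin 3 → F} {ϖ : F} {q : ℕ}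
    (h : Is3 O π ϖ q) (i : Fin 3) {y : F} (hy : DivS (O i) (π i) 1 y) :
    DivS (O i) ϖ 1 (y ^ q) := by
  obtain ⟨k, u, hk, hkq, hu, e⟩ := h.exists_eq i
  obtain ⟨z, hz, rfl⟩ := hy
  obtain ⟨d, rfl⟩ : ∃ d, q = k + d := ⟨q - k, by omega⟩
  refine ⟨u⁻¹ * π i ^ d * z ^ (k + d),
    mul_mem (mul_mem hu.inv_mem (pow_mem (h.dv i).mem _)) (pow_mem hz _), ?_⟩
  rw [e]
  have hu0 := hu.ne_zero
  field_simp
  ring

/-- `y ∈ 𝔪 i` for all `i` ⟹ `y ^ q ∈ ϖ O`. -/
theorem Is3.pow_divS {O : Fin 3 → Subring F} {π : Fin 3 → F} {ϖ : F} {q : ℕ}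
    (h : Is3 O π ϖ q) {y : F} (hy : ∀ i, DivS (O i) (π i) 1 y) : DivS (OO O) ϖ 1 (y ^ q) :=
  (divS_OO h.unif_ne_zero).2 fun i => h.pow_divS_one i (hy i)

/-- `x ≡ 1` mod `𝔪 i` for all `i` ⟹ `x ^ q ≡ 1` mod `ϖ O`. -/
theorem Is3.pow_sub_one {O : Fin 3 → Subring F} {π : Fin 3 → F} {ϖ : F} {q : ℕ}
    (h : Is3 O π ϖ q) (hq : q.Prime) {x : F} (hx : ∀ i, DivS (O i) (π i) 1 (x - 1)) :
    DivS (OO O) ϖ 1 (x ^ q - 1) := by
  refine (divS_OO h.unif_ne_zero).2 fun i => ?_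
  have hy : x - 1 ∈ O i := (hx i).mem (h.dv i).mem
  obtain ⟨r, hr⟩ := exists_add_pow_prime_eq hq (1 : O i) ⟨x - 1, hy⟩
  have hr' : (1 + (x - 1)) ^ q = 1 ^ q + (x - 1) ^ q + q * 1 * (x - 1) * (r : F) := by
    have := congrArg (Subtype.val) hr
    simpa using this
  have e : x ^ q - 1 = (x - 1) ^ q + (q : F) * ((x - 1) * r) := by
    have : x = 1 + (x - 1) := by ring
    calc x ^ q - 1 = (1 + (x - 1)) ^ q - 1 := by rw [← this]
      _ = _ := by rw [hr']; ring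
  rw [e]
  exact (h.pow_divS_one i (hx i)).add ((h.char i).mul_right (mul_mem hy r.2))

/-- approximation of one element. -/
theorem Is3.approx {O : Fin 3 → Subring F} {π : Fin 3 → F} {ϖ : F} {q : ℕ}
    (h : Is3 O π ϖ q) (i : Fin 3) (x : F) (hx : x ∈ O i) :
    ∃ y, DivS (O i) (π i) 1 (y - x) ∧ ∀ j, j ≠ i → DivS (O j) (π j) 1 y := by
  choose θ hθ hθ' using h.sep
  set a : F := ∏ j ∈ Finset.univ.erase i, θ j with ha
  have haU : IsU (O i) a := by
    rw [ha]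
    have : ∀ s : Finset (Fin 3), (∀ j ∈ s, j ≠ i) → IsU (O i) (∏ j ∈ s, θ j) := by
      intro s
      induction s using Finset.induction_on with
      | empty => intro _; simpa using isU_one
      | insert b s hb ih =>
        intro hs
        rw [Finset.prod_insert hb]
        exact (hθ' b i (hs b (Finset.mem_insert_self _ _)).symm).mul
          (ih fun j hj => hs j (Finset.mem_insert_of_mem hj))
    exact this _ fun j hj => Finset.ne_of_mem_erase hj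
  have haD : ∀ j, j ≠ i → DivS (O j) (π j) 1 a := by
    intro j hj
    rw [ha, ← Finset.mul_prod_erase _ _ (Finset.mem_erase.2 ⟨hj, Finset.mem_univ j⟩)]
    apply (hθ j).mul_right
    apply Subring.prod_mem
    intro l hl
    exact (hθ' l j (Finset.ne_of_mem_erase hl).symm).mem
  have haO : ∀ j, a ∈ O j := by
    intro j
    by_cases hj : j = i
    · subst hj; exact haU.mem
    · exact (haD j hj).mem (h.dv j).mem
  -- the exponent
  have hN : ∀ j, ∃ N : ℕ, 0 < N ∧ (j ≠ i → DivS (O j) (π j) 1 (a ^ N * x)) := by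
    intro j
    by_cases hj : j = i
    · exact ⟨1, one_pos, fun h => absurd hj h⟩
    · obtain ⟨N, hN, hd⟩ := (h.dv j).exists_pow_mul (haD j hj) x
      exact ⟨N, hN, fun _ => hd⟩
  choose N hN0 hN1 using hN
  set M : ℕ := ∑ j, N j with hM
  have hM0 : 0 < M := lt_of_lt_of_le (hN0 i) (Finset.single_le_sum (f := N)
    (fun _ _ => Nat.zero_le _) (Finset.mem_univ i))
  have hMx : ∀ j, j ≠ i → DivS (O j) (π j) 1 (a ^ M * x) := by
    intro j hj
    obtain ⟨d, hd⟩ : ∃ d, M = d + N j :=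
      ⟨M - N j, by
        have := Finset.single_le_sum (f := N) (fun _ _ => Nat.zero_le _) (Finset.mem_univ j)
        omega⟩
    rw [hd, pow_add, mul_assoc]
    exact (hN1 j hj).mul_left (pow_mem (haO j) _)
  have hpowD : ∀ (j : Fin 3) (z : F), DivS (O j) (π j) 1 z → DivS (O j) (π j) 1 (z ^ M) := by
    intro j z hz
    obtain ⟨M', hM'⟩ : ∃ M', M = M' + 1 := ⟨M - 1, by omega⟩
    rw [hM', pow_succ]
    exact hz.mul_left (pow_mem (hz.mem (h.dv j).mem) _)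
  have hsU : ∀ j, IsU (O j) (a ^ M + θ i ^ M) := by
    intro j
    by_cases hj : j = i
    · subst hj
      apply (h.dv j).isU_of_sub (haU.pow M)
      have : a ^ M + θ j ^ M - a ^ M = θ j ^ M := by ring
      rw [this]
      exact hpowD j _ (hθ j)
    · apply (h.dv j).isU_of_sub ((hθ' i j hj).pow M)
      have : a ^ M + θ i ^ M - θ i ^ M = a ^ M := by ring
      rw [this]
      exact hpowD j _ (haD j hj)
  refine ⟨a ^ M * x / (a ^ M + θ i ^ M), ?_, ?_⟩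
  · have h0 := (hsU i).ne_zero
    have : a ^ M * x / (a ^ M + θ i ^ M) - x = θ i ^ M * (-x * (a ^ M + θ i ^ M)⁻¹) := by
      field_simp
      ring
    rw [this]
    exact (hpowD i _ (hθ i)).mul_right (mul_mem (neg_mem hx) (hsU i).inv_mem)
  · intro j hj
    rw [div_eq_mul_inv]
    exact (hMx j hj).mul_right (hsU j).inv_mem

/-- weak approximation. -/
theorem Is3.crt {O : Fin 3 → Subring F} {π : Fin 3 → F} {ϖ : F} {q : ℕ}
    (h : Is3 O π ϖ q) (x : Fin 3 → F) (hx : ∀ i, x i ∈ O i) :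
    ∃ y ∈ OO O, ∀ i, DivS (O i) (π i) 1 (y - x i) := by
  choose y hy hy' using fun i => h.approx i (x i) (hx i)
  have key : ∀ i, DivS (O i) (π i) 1 (∑ j, y j - x i) := by
    intro i
    rw [← Finset.add_sum_erase _ _ (Finset.mem_univ i)]
    have : y i + ∑ j ∈ Finset.univ.erase i, y j - x i
        = (y i - x i) + ∑ j ∈ Finset.univ.erase i, y j := by ring
    rw [this]
    apply (hy i).add
    have : ∀ s : Finset (Fin 3), (∀ j ∈ s, j ≠ i) → DivS (O i) (π i) 1 (∑ j ∈ s, y j) := by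
      intro s
      induction s using Finset.induction_on with
      | empty => intro _; simpa using divS_zero 1
      | insert b s hb ih =>
        intro hs
        rw [Finset.sum_insert hb]
        exact (hy' b i (hs b (Finset.mem_insert_self _ _)).symm).add
          (ih fun j hj => hs j (Finset.mem_insert_of_mem hj))
    exact this _ fun j hj => Finset.ne_of_mem_erase hj
  refine ⟨∑ j, y j, mem_OO.2 fun i => ?_, key⟩
  have : ∑ j, y j = (∑ j, y j - x i) + x i := by ring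
  rw [this]
  exact add_mem ((key i).mem (h.dv i).mem) (hx i)

theorem Is3.crt_unit {O : Fin 3 → Subring F} {π : Fin 3 → F} {ϖ : F} {q : ℕ}
    (h : Is3 O π ϖ q) (x : Fin 3 → F) (hx : ∀ i, IsU (O i) (x i)) :
    ∃ y, (∀ i, IsU (O i) y) ∧ ∀ i, DivS (O i) (π i) 1 (y - x i) := by
  obtain ⟨y, -, hy⟩ := h.crt x fun i => (hx i).mem
  exact ⟨y, fun i => (h.dv i).isU_of_sub (hx i) (hy i), hy⟩

end Fermat.Agent.S36
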