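import Fermat.Agent.S36.ARel
import Fermat.Agent.S36.AGlue
import Fermat.Agent.S36.AVal

/-!
# S36, abstract block : local data everywhere ⟹ global (`fix_abs0`)
-/

set_option autoImplicit false

namespace Fermat.Agent.S36

open Fermat.Agent.S34 Fermat.Agent.S35 Fermat.Agent.ES.Model

variable {F : Type*} [Field F]

/-- **The local step** : a local root with equal branch values gives the datum of
`abs_semi_local`. -/
theorem glue_step {O : Fin 3 → Subring F} {π : Fin 3 → F} {ϖ : F} {q : ℕ}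
    (h3 : Is3 O π ϖ q) {m : ℕ} (hm : 0 < m) {B : Subring F} (hB : IsChartS (OO O) ϖ m B)
    (n : Ideal B) (hn : n.IsMaximal) (hϖn : (⟨ϖ, hB.unif_mem⟩ : B) ∈ n)
    (w : F) (hw : DivS (OO O) ϖ 1 (w - 1)) (hl : Loc3 O π m B n w) :
    ∃ f' ∈ MM m w B, ∃ b' : B, b' ∉ n ∧ DivS (OO O) ϖ 1 (f' - (b' : F)) := by
  obtain ⟨f, b, c, hb, hf, hc, hbr⟩ := hl
  have hO := h3.isSemi
  -- `f ∈ OO`
  have hfO : f ∈ OO O := by
    have hw0 : w ≠ 0 := by
      rintro rfl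
      apply hb
      rw [mul_zero] at hf
      have : b = 0 := Subtype.ext hf.symm
      rw [this]; exact n.zero_mem
    obtain ⟨y, hy, hwy⟩ := hw
    rw [pow_one] at hwy
    have hwe : w = 1 + ϖ * y := by linear_combination hwy
    have hwinv : w⁻¹ ∈ OO O := by rw [hwe]; exact hO.unit y hy
    have hfm : f ^ m = (b : F) * w⁻¹ := by rw [← hf]; field_simp
    exact hO.root f m hm (by rw [hfm]; exact (OO O).mul_mem (hB.le _ b.2) hwinv)
  have hex : ∀ i, ∃ α β : B, ((α ∈ n ∧ β ∉ n) ∨ (α - 1 ∈ n ∧ β - c ∈ n)) ∧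
      DivS (O i) (π i) 1 ((α : F) * f - (β : F)) := by
    intro i
    rcases hbr i with ⟨θ, hθ, hθ'⟩ | ⟨a, ha, hac⟩
    · refine ⟨0, -θ, Or.inl ⟨n.zero_mem, fun h => hθ (by simpa using n.neg_mem h)⟩, ?_⟩
      have : ((0 : B) : F) * f - ((-θ : B) : F) = (θ : F) := by push_cast; ring
      rw [this]; exact hθ'
    · refine ⟨1, a, Or.inr ⟨by rw [sub_self]; exact n.zero_mem, hac⟩, ?_⟩
      have : ((1 : B) : F) * f - (a : F) = f - (a : F) := by push_cast; ring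
      rw [this]; exact ha
  choose α β hαβ hdiv using hex
  have hmem : ∀ i j, (α i : F) * f - (β i : F) ∈ O j := fun i j =>
    (O j).sub_mem ((O j).mul_mem (mem_OO.1 (hB.le _ (α i).2) j) (mem_OO.1 hfO j))
      (mem_OO.1 (hB.le _ (β i).2) j)
  have hprod : DivS (OO O) ϖ 1 (∏ i ∈ (Finset.univ : Finset (Fin 3)),
      ((α i : F) * f - (β i : F)) ^ q) := by
    rw [Finset.prod_pow]
    apply h3.pow_divS
    intro i
    rw [← Finset.mul_prod_erase Finset.univ _ (Finset.mem_univ i)]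
    exact (hdiv i).mul_right (Subring.prod_mem _ (fun j _ => hmem j i))
  exact glue_core hO hm hB n hn hϖn w hw f b hb hf c hc Finset.univ q α β
    (fun i _ => hαβ i) hprod

/-- **[GA-FIX0]** local data everywhere ⟹ global. -/
theorem fix_abs0 {O : Fin 3 → Subring F} {π : Fin 3 → F} {ϖ : F} {q : ℕ}
    (h3 : Is3 O π ϖ q) (m : ℕ) (hm : 0 < m)
    (R B1 B2 B12 : Subring F) [IsNoetherianRing R] (hR1 : R ≤ B1) (hR2 : R ≤ B2) (hϖR : ϖ ∈ R)
    (h1 : IsChartS (OO O) ϖ m B1) (h2 : IsChartS (OO O) ϖ m B2)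
    (h12 : IsChartS (OO O) ϖ m B12) (h1le : B1 ≤ B12) (h2le : B2 ≤ B12)
    (t : F) (ht : t ≠ 0) (ht1 : t ∈ B1) (ht2 : t⁻¹ ∈ B2)
    (h12a : ∀ x ∈ B12, ∃ n : ℕ, t ^ n * x ∈ B1) (h12b : ∀ x ∈ B12, ∃ n : ℕ, t⁻¹ ^ n * x ∈ B2)
    (hfin : ∃ S : Finset F, ∀ x ∈ B1,
      x ∈ Submodule.span (Subring.closure ((R : Set F) ∪ {t})) (S : Set F))
    (hfrac : ∀ f : F, ∃ s ∈ B1, s ≠ 0 ∧ s * f ∈ B1)
    (w : F) (hw : DivS (OO O) ϖ 1 (w - 1))
    (hl1 : ∀ n : Ideal B1, n.IsMaximal → (⟨ϖ, h1.unif_mem⟩ : B1) ∈ n → Loc3 O π m B1 n w)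
    (hl2 : ∀ n : Ideal B2, n.IsMaximal → (⟨ϖ, h2.unif_mem⟩ : B2) ∈ n → Loc3 O π m B2 n w) :
    ∃ z : F, z ≠ 0 ∧ z ^ m * w ∈ B1 ∧ z ^ m * w ∈ B2 := by
  have hO := h3.isSemi
  have hw0 : w ≠ 0 := by
    rintro rfl
    obtain ⟨y, hy, e⟩ := hw
    apply hO.inv_notMem
    have h0 := hO.ne_zero
    have : ϖ⁻¹ = -y := by
      rw [pow_one] at e
      field_simp
      linear_combination -e
    rw [this]
    exact (OO O).neg_mem hy
  obtain ⟨u, hu, hu1, hu2, -⟩ := abs_semi_local (OO O) ϖ hO m hm R B1 B2 B12 hR1 hR2 hϖR h1 h2 h12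
    h1le h2le t ht ht1 ht2 h12a h12b hfin w hw0 hw (hfrac w)
    (fun n hn hϖn => glue_step h3 hm h1 n hn hϖn w hw (hl1 n hn hϖn))
    (fun n hn hϖn => glue_step h3 hm h2 n hn hϖn w hw (hl2 n hn hϖn))
  exact ⟨u, hu, hu1, hu2⟩

end Fermat.Agent.S36
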