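import Fermat.Agent.S36.AFix0

/-!
# S36, abstract block : construction of the local datum for the twisted element
`w = (v ^ Q / η ^ m) ^ q`
-/

set_option autoImplicit false

namespace Fermat.Agent.S36

open Fermat.Agent.S34 Fermat.Agent.S35 Fermat.Agent.ES.Model

variable {F : Type*} [Field F]

/-- `v ≡ 1`, `η ≡ ξ`, `ξ ^ m = 1` ⟹ `v ^ Q / η ^ m ≡ 1`. -/
theorem twist_cong {O : Subring F} {π : F} (hO : IsDV O π) {m : ℕ} (Q : ℕ) {v η ξ : F}
    (hv : DivS O π 1 (v - 1)) (hη : IsU O η) (hξ : ξ ∈ O) (hξm : ξ ^ m = 1)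
    (hηξ : DivS O π 1 (η - ξ)) : DivS O π 1 (v ^ Q / η ^ m - 1) := by
  have hvO : v ∈ O := (hO.isU_of_sub isU_one hv).mem
  have h1 : DivS O π 1 (v ^ Q - 1) := by
    have := cong_pow hvO O.one_mem hv Q
    rwa [one_pow] at this
  have h2 : DivS O π 1 (η ^ m - 1) := by
    have := cong_pow hη.mem hξ hηξ m
    rwa [hξm] at this
  have h3 := (h1.sub h2).mul_right (hη.pow m).inv_mem
  have hη0 := pow_ne_zero m hη.ne_zero
  have e : v ^ Q / η ^ m - 1 = (v ^ Q - 1 - (η ^ m - 1)) * (η ^ m)⁻¹ := by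
    field_simp
    ring
  rw [e]
  exact h3

theorem sub_pow_mem {B : Type*} [CommRing B] (n : Ideal B) {x y : B} (h : x - y ∈ n) (k : ℕ) :
    x ^ k - y ^ k ∈ n := by
  obtain ⟨z, hz⟩ := sub_dvd_pow_sub_pow x y k
  rw [hz]
  exact n.mul_mem_right _ h

/-- the local datum for `w = (v ^ Q / η ^ m) ^ q` from a local root `f` of `v`. -/
theorem loc3_mk {O : Fin 3 → Subring F} {π : Fin 3 → F} {ϖ : F} {q : ℕ}
    (h3 : Is3 O π ϖ q) {m : ℕ} (hm : 0 < m) {B : Subring F} (hB : IsChartS (OO O) ϖ m B)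
    (n : Ideal B) (hn : n.IsMaximal) (Q : ℕ) (v η : F) (hv : ∀ i, DivS (O i) (π i) 1 (v - 1))
    (hη : ∀ i, IsU (O i) η) (ξ : Fin 3 → F) (hξm : ∀ i, ξ i ^ m = 1)
    (hηξ : ∀ i, DivS (O i) (π i) 1 (η - ξ i))
    (f : F) (b : B) (hb : b ∉ n) (hf : f ^ m * v = (b : F)) (c0 : B) (i0 : Fin 3)
    (hbr : ∀ i, (i ≠ i0 ∧ Off (O i) (π i) n) ∨
      ((∀ b : B, DivS (O i) (π i) 1 (b : F) → b ∈ n) ∧ ∃ a X : B, (X : F) = ξ i ∧
        DivS (O i) (π i) 1 (f - (a : F)) ∧ a ^ Q * X - c0 ∈ n)) :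
    Loc3 O π m B n ((v ^ Q / η ^ m) ^ q) := by
  have hBi : ∀ i, ∀ x ∈ B, x ∈ O i := fun i x hx => mem_OO.1 (hB.le x hx) i
  have hvU : ∀ i, IsU (O i) v := fun i => (h3.dv i).isU_of_sub isU_one (hv i)
  have hv0 : v ≠ 0 := (hvU 0).ne_zero
  have hη0 : η ≠ 0 := (hη 0).ne_zero
  have hfO : ∀ i, f ∈ O i := by
    intro i
    have hfm : f ^ m = (b : F) * v⁻¹ := by rw [← hf]; field_simp
    exact (h3.dv i).root hm (by rw [hfm]; exact (O i).mul_mem (hBi i _ b.2) (hvU i).inv_mem)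
  have hfw : ((f ^ Q * η) ^ q) ^ m * (v ^ Q / η ^ m) ^ q = ((b ^ (Q * q) : B) : F) := by
    push_cast
    rw [← hf, div_pow, mul_pow, mul_pow, mul_pow]
    have h1 : (η ^ q) ^ m = (η ^ m) ^ q := by rw [← pow_mul, ← pow_mul, mul_comm]
    have h2 : (η ^ m) ^ q ≠ 0 := pow_ne_zero _ (pow_ne_zero _ hη0)
    rw [h1]
    field_simp
    ring
  -- the facts on a branch through `n`
  have key : ∀ i, (∀ b : B, DivS (O i) (π i) 1 (b : F) → b ∈ n) → ∀ a X : B, (X : F) = ξ i →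
      DivS (O i) (π i) 1 (f - (a : F)) →
      DivS (O i) (π i) 1 ((f ^ Q * η) ^ q - (((a ^ Q * X) ^ q : B) : F)) ∧
        ((a ^ Q * X) ^ q) ^ m - b ^ (Q * q) ∈ n := by
    intro i hle a X hX ha
    have hXO : ξ i ∈ O i := by rw [← hX]; exact hBi i _ X.2
    have h1 : DivS (O i) (π i) 1 (f ^ Q * η - (a : F) ^ Q * ξ i) :=
      cong_mul ((O i).pow_mem (hBi i _ a.2) Q) (hη i).mem
        (cong_pow (hfO i) (hBi i _ a.2) ha Q) (hηξ i)
    have hfQ : f ^ Q * η ∈ O i := (O i).mul_mem ((O i).pow_mem (hfO i) Q) (hη i).mem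
    have haQ : (a : F) ^ Q * ξ i ∈ O i := (O i).mul_mem ((O i).pow_mem (hBi i _ a.2) Q) hXO
    have h2 : DivS (O i) (π i) 1 ((f ^ Q * η) ^ q - (((a ^ Q * X) ^ q : B) : F)) := by
      have := cong_pow hfQ haQ h1 q
      push_cast
      rw [hX]
      exact this
    refine ⟨h2, hle _ ?_⟩
    have hx1 := twist_cong (h3.dv i) Q (hv i) (hη i) hXO (hξm i) (hηξ i)
    have hxO : v ^ Q / η ^ m ∈ O i := ((hvU i).pow Q).div ((hη i).pow m) |>.mem
    have hw1 : DivS (O i) (π i) 1 ((v ^ Q / η ^ m) ^ q - 1) := by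
      have := cong_pow hxO (O i).one_mem hx1 q
      rwa [one_pow] at this
    have h4 := cong_pow ((O i).pow_mem hfQ q) (hBi i _ ((a ^ Q * X) ^ q : B).2) h2 m
    have h5 : DivS (O i) (π i) 1 (((f ^ Q * η) ^ q) ^ m * ((v ^ Q / η ^ m) ^ q - 1)) :=
      hw1.mul_left ((O i).pow_mem ((O i).pow_mem hfQ q) m)
    have e : ((((a ^ Q * X) ^ q) ^ m - b ^ (Q * q) : B) : F)
        = -(((f ^ Q * η) ^ q) ^ m - (((a ^ Q * X) ^ q : B) : F) ^ m)
          - ((f ^ Q * η) ^ q) ^ m * ((v ^ Q / η ^ m) ^ q - 1) := by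
      rw [AddSubgroupClass.coe_sub, ← hfw]
      push_cast
      ring
    rw [e]
    exact h4.neg.sub h5
  refine ⟨(f ^ Q * η) ^ q, b ^ (Q * q), c0 ^ q, fun h => hb (hn.isPrime.mem_of_pow_mem _ h), hfw,
    ?_, ?_⟩
  · rcases hbr i0 with ⟨h, -⟩ | ⟨hle, a, X, hX, ha, hac⟩
    · exact absurd rfl h
    · have h1 := (key i0 hle a X hX ha).2
      have h2 : (c0 ^ q) ^ m - ((a ^ Q * X) ^ q) ^ m ∈ n := by
        have := sub_pow_mem n (sub_pow_mem n hac q) m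
        have h3 := n.neg_mem this
        rwa [neg_sub] at h3
      have := n.add_mem h2 h1
      rwa [sub_add_sub_cancel] at this
  · intro i
    rcases hbr i with ⟨-, h⟩ | ⟨hle, a, X, hX, ha, hac⟩
    · exact Or.inl h
    · exact Or.inr ⟨(a ^ Q * X) ^ q, (key i hle a X hX ha).1, sub_pow_mem n hac q⟩

end Fermat.Agent.S36
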