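import Fermat.Agent.S36.ADefs
import Fermat.Agent.S35.GLP

/-!
# S36, geometry, abstract block, package [GA-VN] : vertical normalisation

`v` a unit of the three `O i`, (LP) at `n` ⟹ `f ^ m * v = b ∈ B ∖ n`.
-/

set_option autoImplicit false

namespace Fermat.Agent.S36

open Fermat.Agent.S34 Fermat.Agent.S35

variable {F : Type*} [Field F]

namespace AVert

theorem unif_ne_zero {O : Fin 3 → Subring F} {π : Fin 3 → F} {ϖ : F} {q : ℕ}
    (h : Is3 O π ϖ q) : ϖ ≠ 0 := by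
  obtain ⟨k, -, -, hk⟩ := h.ram 0
  intro h0
  apply hk.ne_zero
  rw [h0, zero_div]

/-- `B[1/ϖ] ∩ O = B`. -/
theorem sat_pow {O : Subring F} {ϖ : F} {m : ℕ} {B : Subring F} (hB : IsChartS O ϖ m B)
    (hϖ : ϖ ≠ 0) : ∀ (k : ℕ) (y : F), y ∈ O → ϖ ^ k * y ∈ B → y ∈ B := by
  intro k
  induction k with
  | zero => intro y _ hy; rwa [pow_zero, one_mul] at hy
  | succ k ih =>
    intro y hyO hy
    apply ih y hyO
    obtain ⟨y', hy', e⟩ := hB.sat _ hy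
      ⟨ϖ ^ k * y, O.mul_mem (O.pow_mem (hB.le _ hB.unif_mem) k) hyO, by
        rw [pow_one, pow_succ]; ring⟩
    have : ϖ ^ k * y = y' := by
      apply mul_left_cancel₀ hϖ
      rw [← e, pow_succ]
      ring
    rw [this]
    exact hy'

theorem inTube_zpow {B : Subring F} {ϖ : B} {n : Ideal B} (hn : n.IsPrime) {t : F}
    (ht : InTube ϖ n t) (ht' : InTube ϖ n t⁻¹) (a : ℤ) : InTube ϖ n (t ^ a) := by
  obtain ⟨k, rfl | rfl⟩ := a.eq_nat_or_neg
  · rw [zpow_natCast]; exact GLP.inTube_pow hn ht k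
  · rw [zpow_neg, zpow_natCast, ← inv_pow]; exact GLP.inTube_pow hn ht' k

/-- a function on the tube of `n`, integral on the branches through `n`, is regular at `n`. -/
theorem tube_mem {O : Fin 3 → Subring F} {π : Fin 3 → F} {ϖ : F} {q : ℕ}
    (h3 : Is3 O π ϖ q) {m : ℕ} {B : Subring F} (hB : IsChartS (OO O) ϖ m B)
    (n : Ideal B) (hn : n.IsPrime) {x : F} (hx : InTube (⟨ϖ, hB.unif_mem⟩ : B) n x)
    (hO : ∀ j, x ∈ O j ∨ Off (O j) (π j) n) : ∃ s : B, s ∉ n ∧ (s : F) * x ∈ B := by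
  have hτ : ∀ j, ∃ τ : B, τ ∉ n ∧ (τ : F) * x ∈ O j := by
    intro j
    rcases hO j with h | ⟨θ, hθ, hd⟩
    · exact ⟨1, fun h1 => hn.ne_top ((Ideal.eq_top_iff_one n).2 h1), by
        rw [Subring.coe_one, one_mul]; exact h⟩
    · obtain ⟨N, -, hN⟩ := (h3.dv j).exists_pow_mul hd x
      exact ⟨θ ^ N, fun h1 => hθ (hn.mem_of_pow_mem N h1), by
        rw [Subring.coe_pow]; exact hN.mem (h3.dv j).mem⟩
  choose τ hτn hτO using hτ
  obtain ⟨s, hs, k, b, hb⟩ := GLP.inTube_iff.1 hx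
  have hBO : ∀ (c : B) (j : Fin 3), (c : F) ∈ O j := fun c j => mem_OO.1 (hB.le _ c.2) j
  refine ⟨s * (τ 0 * τ 1 * τ 2), ?_, ?_⟩
  · intro h0
    rcases hn.mem_or_mem h0 with h | h
    · exact hs h
    · rcases hn.mem_or_mem h with h | h
      · rcases hn.mem_or_mem h with h | h
        · exact hτn 0 h
        · exact hτn 1 h
      · exact hτn 2 h
  · apply sat_pow hB (unif_ne_zero h3) k
    · rw [mem_OO]
      intro j
      simp only [Subring.coe_mul]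
      fin_cases j
      · have e : (s : F) * ((τ 0 : F) * (τ 1 : F) * (τ 2 : F)) * x
            = (s : F) * (τ 1 : F) * (τ 2 : F) * ((τ 0 : F) * x) := by ring
        rw [e]
        exact (O 0).mul_mem ((O 0).mul_mem ((O 0).mul_mem (hBO _ _) (hBO _ _)) (hBO _ _)) (hτO 0)
      · have e : (s : F) * ((τ 0 : F) * (τ 1 : F) * (τ 2 : F)) * x
            = (s : F) * (τ 0 : F) * (τ 2 : F) * ((τ 1 : F) * x) := by ring
        rw [e]
        exact (O 1).mul_mem ((O 1).mul_mem ((O 1).mul_mem (hBO _ _) (hBO _ _)) (hBO _ _)) (hτO 1)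
      · have e : (s : F) * ((τ 0 : F) * (τ 1 : F) * (τ 2 : F)) * x
            = (s : F) * (τ 0 : F) * (τ 1 : F) * ((τ 2 : F) * x) := by ring
        rw [e]
        exact (O 2).mul_mem ((O 2).mul_mem ((O 2).mul_mem (hBO _ _) (hBO _ _)) (hBO _ _)) (hτO 2)
    · have e : ϖ ^ k * (((s * (τ 0 * τ 1 * τ 2) : B) : F) * x)
          = ((τ 0 * τ 1 * τ 2 * b : B) : F) := by
        simp only [Subring.coe_mul]
        rw [← hb]
        ring
      rw [e]
      exact (τ 0 * τ 1 * τ 2 * b : B).2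

/-- one step of the normalisation : make `b1` a unit on the branch `i`. -/
theorem step {O : Fin 3 → Subring F} {π : Fin 3 → F} {ϖ : F} {q : ℕ}
    (h3 : Is3 O π ϖ q) {m : ℕ} {B : Subring F} (hϖ : ϖ ∈ B)
    (n : Ideal B) (hn : n.IsPrime) (v : F) (hv : ∀ i, IsU (O i) v) (i : Fin 3)
    (hi : On O π ϖ m B hϖ n i) (G b1 : F) (hG : G ≠ 0) (hvb : v = b1 * G ^ m)
    (h1 : InTube (⟨ϖ, hϖ⟩ : B) n b1) (h2 : InTube (⟨ϖ, hϖ⟩ : B) n b1⁻¹) :
    ∃ G' b' : F, G' ≠ 0 ∧ v = b' * G' ^ m ∧ InTube (⟨ϖ, hϖ⟩ : B) n b' ∧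
      InTube (⟨ϖ, hϖ⟩ : B) n b'⁻¹ ∧ IsU (O i) b' ∧
      ∀ j, j ≠ i → (IsU (O j) b1 ∨ Off (O j) (π j) n) → (IsU (O j) b' ∨ Off (O j) (π j) n) := by
  obtain ⟨t, htu, ht1, ht2, htj⟩ := hi.gen
  obtain ⟨a, ha⟩ := (h3.dv i).exists_zpow hG
  have hπ : π i ≠ 0 := (h3.dv i).ne_zero
  have ht0 : t ≠ 0 := by
    intro h0
    apply htu.ne_zero
    rw [h0, zero_div]
  have hta0 : t ^ a ≠ 0 := zpow_ne_zero _ ht0
  have hGt : IsU (O i) (G * t ^ a) := by
    have e : G * t ^ a = (G * π i ^ a) * (t / π i) ^ a := by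
      rw [div_zpow]
      field_simp
    rw [e]
    exact ha.mul (htu.zpow a)
  have hvb' : v = b1 * ((t ^ a)⁻¹) ^ m * (G * t ^ a) ^ m := by
    rw [hvb, mul_pow, inv_pow]
    field_simp
  refine ⟨G * t ^ a, b1 * ((t ^ a)⁻¹) ^ m, mul_ne_zero hG hta0, hvb', ?_, ?_, ?_, ?_⟩
  · apply GLP.inTube_mul hn h1
    apply GLP.inTube_pow hn
    rw [← zpow_neg]
    exact inTube_zpow hn ht1 ht2 _
  · rw [mul_inv, ← inv_pow, inv_inv]
    apply GLP.inTube_mul hn h2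
    apply GLP.inTube_pow hn
    exact inTube_zpow hn ht1 ht2 _
  · have e : b1 * ((t ^ a)⁻¹) ^ m = v / (G * t ^ a) ^ m := by
      rw [eq_div_iff (pow_ne_zero _ hGt.ne_zero)]
      exact hvb'.symm
    rw [e]
    exact (hv i).div (hGt.pow m)
  · intro j hj hb
    rcases hb with hb | hb
    · rcases htj j hj with h | h
      · exact Or.inl (hb.mul (((h.zpow a).inv).pow m))
      · exact Or.inr h
    · exact Or.inr hb

end AVert

/-- `v` a unit of the three `O i`, (LP) at `n` ⟹ `f ^ m * v = b ∈ B ∖ n`. -/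
theorem exists_loc_unit {O : Fin 3 → Subring F} {π : Fin 3 → F} {ϖ : F} {q : ℕ}
    (h3 : Is3 O π ϖ q) {m : ℕ} (hm : 0 < m) {B : Subring F} (hB : IsChartS (OO O) ϖ m B)
    (n : Ideal B) (hn : n.IsMaximal) (hpt : Pt O π ϖ m B hB.unif_mem n)
    (v : F) (hv : ∀ i, IsU (O i) v) (hlp : LP ϖ m B hB.unif_mem n v) :
    ∃ (f : F) (b : B), f ≠ 0 ∧ b ∉ n ∧ f ^ m * v = (b : F) := by
  have hnp : n.IsPrime := hn.isPrime
  obtain ⟨G, b1, hG, hvb, h1, h2⟩ := hlp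
  -- normalisation
  have key : ∃ G' b' : F, G' ≠ 0 ∧ v = b' * G' ^ m ∧ InTube (⟨ϖ, hB.unif_mem⟩ : B) n b' ∧
      InTube (⟨ϖ, hB.unif_mem⟩ : B) n b'⁻¹ ∧ ∀ j, IsU (O j) b' ∨ Off (O j) (π j) n := by
    rcases hpt with ⟨i, hi, hoff⟩ | hall
    · obtain ⟨G', b', hG', e, t1, t2, hu, -⟩ :=
        AVert.step h3 hB.unif_mem n hnp v hv i hi G b1 hG hvb h1 h2
      refine ⟨G', b', hG', e, t1, t2, fun j => ?_⟩
      by_cases hj : j = i
      · rw [hj]; exact Or.inl hu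
      · exact Or.inr (hoff j hj)
    · obtain ⟨G0, b0, hG0, e0, t0, t0', hu0, -⟩ :=
        AVert.step h3 hB.unif_mem n hnp v hv 0 (hall 0) G b1 hG hvb h1 h2
      obtain ⟨G1, b1', hG1, e1, t1, t1', hu1, hk1⟩ :=
        AVert.step h3 hB.unif_mem n hnp v hv 1 (hall 1) G0 b0 hG0 e0 t0 t0'
      obtain ⟨G2, b2, hG2, e2, t2, t2', hu2, hk2⟩ :=
        AVert.step h3 hB.unif_mem n hnp v hv 2 (hall 2) G1 b1' hG1 e1 t1 t1'
      refine ⟨G2, b2, hG2, e2, t2, t2', fun j => ?_⟩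
      fin_cases j
      · exact hk2 0 (by decide) (hk1 0 (by decide) (Or.inl hu0))
      · exact hk2 1 (by decide) (Or.inl hu1)
      · exact Or.inl hu2
  obtain ⟨G', b', hG', e, t1, t2, hu⟩ := key
  obtain ⟨s, hs, hsB⟩ := AVert.tube_mem h3 hB n hnp t1 (fun j => (hu j).imp IsU.mem id)
  obtain ⟨s', hs', hsB'⟩ := AVert.tube_mem h3 hB n hnp t2 (fun j => (hu j).imp IsU.inv_mem id)
  have hv0 : v ≠ 0 := (hv 0).ne_zero
  have hb0 : b' ≠ 0 := by
    intro h0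
    apply hv0
    rw [e, h0, zero_mul]
  have hs0 : (s : F) ≠ 0 := by
    intro h0
    apply hs
    have : s = 0 := Subtype.ext h0
    rw [this]
    exact n.zero_mem
  have hc : (⟨(s : F) * b', hsB⟩ : B) ∉ n := by
    intro h0
    have h3' : (⟨(s : F) * b', hsB⟩ : B) * ⟨(s' : F) * b'⁻¹, hsB'⟩ ∈ n := n.mul_mem_right _ h0
    have e' : (⟨(s : F) * b', hsB⟩ : B) * ⟨(s' : F) * b'⁻¹, hsB'⟩ = s * s' := by
      apply Subtype.ext
      simp only [Subring.coe_mul]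
      field_simp
    rw [e'] at h3'
    exact (hnp.mem_or_mem h3').elim hs hs'
  refine ⟨(s : F) / G', s ^ (m - 1) * ⟨(s : F) * b', hsB⟩, div_ne_zero hs0 hG', ?_, ?_⟩
  · intro h0
    rcases hnp.mem_or_mem h0 with h | h
    · exact hs (hnp.mem_of_pow_mem _ h)
    · exact hc h
  · rw [Subring.coe_mul, Subring.coe_pow]
    obtain ⟨m', rfl⟩ : ∃ m', m = m' + 1 := ⟨m - 1, by omega⟩
    rw [Nat.add_sub_cancel]
    conv_lhs => rw [e]
    rw [div_pow]
    field_simp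
    ring

end Fermat.Agent.S36
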