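import Fermat.Agent.S35.GDV

/-!
# S36, abstract block, G-NORM : the gluing data at a supersingular point and the norms

`F1 → F2` (`al`), `nA : F2 →* F1` the norm; `OA OC OB` the three discrete valuation rings of `F2`,
`O1 O2` the two of `F1`; `B1 ⊆ F1`, `B2 ⊆ F2` charts, `n` a prime of `B2` containing the three
components, `n1 = al⁻¹ n`.  If `f` has the branch data `(s_j, c_j)` at `n` and `nA f * z` is
regular at `n1`, `z ≡ λ₁` on `O1`, `z ≡ λ₂` on `O2`, then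
`λ₁ γ_A γ_C^(q-1) = λ₂ γ_B^q` for the branch values `γ_j = c_j / s_j`.
-/

set_option autoImplicit false
set_option linter.unusedVariables false

namespace Fermat.Agent.S36

open Fermat.Agent.S34 Fermat.Agent.S35

variable {F1 F2 : Type*} [Field F1] [Field F2]

/-- **[GL-A], core.** -/
theorem glue_rel_core (q : ℕ) (al : F1 →+* F2) (nA : F2 →* F1)
    {OA OC OB : Subring F2} {ϖ tC : F2} {O1 O2 : Subring F1} {ϖ1 : F1}
    (hO1 : IsDV O1 ϖ1) (hϖ2 : ϖ1 ∈ O2) (hϖA : ϖ ∈ OA) (hϖB : ϖ ∈ OB) (htC : tC ∈ OC)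
    (halϖ : al ϖ1 = ϖ)
    (hal1A : ∀ a, a ∈ O1 → al a ∈ OA) (hal1C : ∀ a, a ∈ O1 → al a ∈ OC)
    (hal2B : ∀ a, al a ∈ OB ↔ a ∈ O2)
    (hnA1 : ∀ u, u ∈ OA → u ∈ OC → u ∈ OB → ∀ a ∈ O1, ∀ c ∈ O1, DivS OA ϖ 1 (u - al a) →
      DivS OC tC 1 (u - al c) → DivS O1 ϖ1 1 (nA u - a * c ^ (q - 1)))
    (hnA2 : ∀ u, u ∈ OA → u ∈ OC → u ∈ OB → DivS OB ϖ 1 (al (nA u) - u ^ q))
    {B1 : Subring F1} {B2 : Subring F2} (alB : B1 →+* B2) (halB : ∀ b, (alB b : F2) = al b)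
    (hB1 : ∀ b ∈ B1, b ∈ O1) (hB12 : ∀ b ∈ B1, b ∈ O2)
    (hB2A : ∀ b ∈ B2, b ∈ OA) (hB2C : ∀ b ∈ B2, b ∈ OC) (hB2B : ∀ b ∈ B2, b ∈ OB)
    (n : Ideal B2) [n.IsPrime]
    (hnA : ∀ b : B2, DivS OA ϖ 1 (b : F2) → b ∈ n) (hnC : ∀ b : B2, DivS OC tC 1 (b : F2) → b ∈ n)
    (hnB : ∀ b : B2, DivS OB ϖ 1 (b : F2) → b ∈ n)
    (hn1 : ∀ b : B1, DivS O1 ϖ1 1 (b : F1) → alB b ∈ n)
    (hsurjA : ∀ c : B2, ∃ c' : B1, DivS OA ϖ 1 ((c : F2) - al c'))
    (hsurjC : ∀ c : B2, ∃ c' : B1, DivS OC tC 1 ((c : F2) - al c'))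
    (f : F2) (hfA' : f ∈ OA) (hfC' : f ∈ OC) (hfB' : f ∈ OB)
    (sA cA sC cC sB cB : B2) (hsA : sA ∉ n) (hsC : sC ∉ n)
    (hfA : DivS OA ϖ 1 ((sA : F2) * f - cA)) (hfC : DivS OC tC 1 ((sC : F2) * f - cC))
    (hfB : DivS OB ϖ 1 ((sB : F2) * f - cB))
    (z : F1) (l1 l2 : B1) (hz1 : DivS O1 ϖ1 1 (z - l1)) (hz2 : DivS O2 ϖ1 1 (z - l2))
    (S C : B1) (hS : alB S ∉ n) (hSC : (S : F1) * (nA f * z) = C) :
    alB l1 * cA * cC ^ (q - 1) * sB ^ q - alB l2 * cB ^ q * sA * sC ^ (q - 1) ∈ n := by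
  obtain ⟨sA', hsA'⟩ := hsurjA sA
  obtain ⟨cA', hcA'⟩ := hsurjA cA
  obtain ⟨sC', hsC'⟩ := hsurjC sC
  obtain ⟨cC', hcC'⟩ := hsurjC cC
  -- congruences modulo `n`
  have esA : sA - alB sA' ∈ n := hnA _ (by
    rw [AddSubgroupClass.coe_sub, halB]; exact hsA')
  have ecA : cA - alB cA' ∈ n := hnA _ (by
    rw [AddSubgroupClass.coe_sub, halB]; exact hcA')
  have esC : sC - alB sC' ∈ n := hnC _ (by
    rw [AddSubgroupClass.coe_sub, halB]; exact hsC')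
  have ecC : cC - alB cC' ∈ n := hnC _ (by
    rw [AddSubgroupClass.coe_sub, halB]; exact hcC')
  -- `sA'`, `sC'` are units of `O1`
  have unit1 : ∀ b : B1, alB b ∉ n → IsU O1 (b : F1) := by
    intro b hb
    rcases hO1.isU_or (hB1 b b.2) with h | h
    · exact h
    · exact absurd (hn1 b h) hb
  have hsA'n : alB sA' ∉ n := by
    intro h
    apply hsA
    have := n.add_mem esA h
    rwa [sub_add_cancel] at this
  have hsC'n : alB sC' ∉ n := by
    intro h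
    apply hsC
    have := n.add_mem esC h
    rwa [sub_add_cancel] at this
  have uA := unit1 sA' hsA'n
  have uC := unit1 sC' hsC'n
  have ualA : IsU OA (al sA') := ⟨(map_ne_zero al).2 uA.ne_zero, hal1A _ uA.mem, by
    rw [← map_inv₀]; exact hal1A _ uA.inv_mem⟩
  have ualC : IsU OC (al sC') := ⟨(map_ne_zero al).2 uC.ne_zero, hal1C _ uC.mem, by
    rw [← map_inv₀]; exact hal1C _ uC.inv_mem⟩
  -- `f ≡ al a` on `OA`, `f ≡ al c` on `OC`
  set a : F1 := (cA' : F1) / sA' with ha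
  set c : F1 := (cC' : F1) / sC' with hc
  have haO : a ∈ O1 := by
    rw [ha, div_eq_mul_inv]; exact O1.mul_mem (hB1 _ cA'.2) uA.inv_mem
  have hcO : c ∈ O1 := by
    rw [hc, div_eq_mul_inv]; exact O1.mul_mem (hB1 _ cC'.2) uC.inv_mem
  have h1 : DivS OA ϖ 1 (f - al a) := by
    have e : f - al a = (((sA : F2) * f - cA) - ((sA : F2) - al sA') * f + ((cA : F2) - al cA'))
        * (al sA')⁻¹ := by
      have h0 := ualA.ne_zero
      rw [ha, map_div₀]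
      field_simp
      ring
    rw [e]
    exact ((hfA.sub (hsA'.mul_right hfA')).add hcA').mul_right ualA.inv_mem
  have h2 : DivS OC tC 1 (f - al c) := by
    have e : f - al c = (((sC : F2) * f - cC) - ((sC : F2) - al sC') * f + ((cC : F2) - al cC'))
        * (al sC')⁻¹ := by
      have h0 := ualC.ne_zero
      rw [hc, map_div₀]
      field_simp
      ring
    rw [e]
    exact ((hfC.sub (hsC'.mul_right hfC')).add hcC').mul_right ualC.inv_mem
  have h3 := hnA1 f hfA' hfC' hfB' a haO c hcO h1 h2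
  have hacO : a * c ^ (q - 1) ∈ O1 := O1.mul_mem haO (O1.pow_mem hcO _)
  have hNf1 : nA f ∈ O1 := by
    have := O1.add_mem (h3.mem hO1.mem) hacO
    rwa [sub_add_cancel] at this
  have h4 := hnA2 f hfA' hfC' hfB'
  have hNf2 : nA f ∈ O2 := by
    rw [← hal2B]
    have := OB.add_mem (h4.mem hϖB) (OB.pow_mem hfB' q)
    rwa [sub_add_cancel] at this
  -- branch 1
  have r1 : DivS O1 ϖ1 1 (((S * l1 * cA' * cC' ^ (q - 1) - C * sA' * sC' ^ (q - 1) : B1) : F1)) := by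
    have e : ((S * l1 * cA' * cC' ^ (q - 1) - C * sA' * sC' ^ (q - 1) : B1) : F1)
        = -((S : F1) * ((nA f - a * c ^ (q - 1)) * z + a * c ^ (q - 1) * (z - l1))
            * ((sA' : F1) * (sC' : F1) ^ (q - 1))) := by
      have e1 : (a * c ^ (q - 1)) * ((sA' : F1) * (sC' : F1) ^ (q - 1))
          = (cA' : F1) * (cC' : F1) ^ (q - 1) := by
        have h0 := uA.ne_zero
        have h0' := uC.ne_zero
        rw [ha, hc, div_pow]
        field_simp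
      push_cast
      rw [← hSC]
      linear_combination (-(S : F1) * (l1 : F1)) * e1
    rw [e]
    have hzO : z ∈ O1 := by
      have := O1.add_mem (hz1.mem hO1.mem) (hB1 _ l1.2)
      rwa [sub_add_cancel] at this
    exact ((((h3.mul_right hzO).add (hz1.mul_left hacO)).mul_left (hB1 _ S.2)).mul_right
      (O1.mul_mem uA.mem (O1.pow_mem uC.mem _))).neg
  have R1 := hn1 _ r1
  -- branch 2
  have r2 : DivS OB ϖ 1 (((alB S * alB l2 * cB ^ q - alB C * sB ^ q : B2) : F2)) := by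
    have hz2' : DivS OB ϖ 1 (al z - al l2) := by
      obtain ⟨y, hy, e⟩ := hz2
      refine ⟨al y, (hal2B y).2 hy, ?_⟩
      rw [← map_sub, e, map_mul, map_pow, halϖ]
    have hzO : al z ∈ OB := by
      have := OB.add_mem (hz2'.mem hϖB) ((hal2B _).2 (hB12 _ l2.2))
      rwa [sub_add_cancel] at this
    have hp := cong_pow (O := OB) (ϖ := ϖ) (OB.mul_mem (hB2B _ sB.2) hfB') (hB2B _ cB.2) hfB q
    have e : ((alB S * alB l2 * cB ^ q - alB C * sB ^ q : B2) : F2)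
        = -(al S * ((al (nA f) - f ^ q) * al z * (sB : F2) ^ q
            + (al z - al l2) * ((sB : F2) * f) ^ q
            + al l2 * (((sB : F2) * f) ^ q - (cB : F2) ^ q))) := by
      push_cast
      rw [halB, halB, halB, ← hSC, map_mul, map_mul]
      ring
    rw [e]
    exact (((((h4.mul_right hzO).mul_right (OB.pow_mem (hB2B _ sB.2) q)).add
      (hz2'.mul_right (OB.pow_mem (OB.mul_mem (hB2B _ sB.2) hfB') q))).add
      (hp.mul_left ((hal2B _).2 (hB12 _ l2.2)))).mul_left ((hal2B _).2 (hB12 _ S.2))).neg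
  have R2 := hnB _ r2
  -- combination in `B2 / n`
  have key : alB S * (alB l1 * cA * cC ^ (q - 1) * sB ^ q - alB l2 * cB ^ q * sA * sC ^ (q - 1))
      ∈ n := by
    rw [← Ideal.Quotient.eq_zero_iff_mem] at R1 R2 esA ecA esC ecC ⊢
    simp only [map_sub, map_mul, map_pow, sub_eq_zero] at R1 R2 esA ecA esC ecC ⊢
    rw [esA, ecA, esC, ecC]
    linear_combination (Ideal.Quotient.mk n sB) ^ q * R1
      - (Ideal.Quotient.mk n (alB sA')) * (Ideal.Quotient.mk n (alB sC')) ^ (q - 1) * R2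
  exact (Ideal.IsPrime.mem_or_mem inferInstance key).resolve_left hS

/-- the regular representative `S * (nA f * z) = C` of the norm of a local root. -/
theorem exists_SC (q m : ℕ) (hm : 0 < m) (al : F1 →+* F2) (nA : F2 →* F1)
    {OA OC OB : Subring F2} {ϖ : F2}
    (hnA2 : ∀ u, u ∈ OA → u ∈ OC → u ∈ OB → DivS OB ϖ 1 (al (nA u) - u ^ q))
    {B1 : Subring F1} {B2 : Subring F2} (alB : B1 →+* B2) (halB : ∀ b, (alB b : F2) = al b)
    (hB2A : ∀ b ∈ B2, b ∈ OA) (hB2C : ∀ b ∈ B2, b ∈ OC)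
    (hB2B : ∀ b ∈ B2, b ∈ OB) (hroot : ∀ x : F1, x ^ m ∈ B1 → x ∈ B1)
    (hnAB : ∀ b ∈ B2, nA b ∈ B1)
    (n : Ideal B2) [n.IsPrime] (hnB : ∀ b : B2, DivS OB ϖ 1 (b : F2) → b ∈ n)
    (f w b1 : F2) (hfw : f ^ m * w = b1) (sb eb : B2) (hsb : sb ∉ n)
    (hb : (sb : F2) * b1 = eb) (z : F1) (κ : B1) (hκ : alB κ ∉ n) (hw : nA w = κ * z ^ m) :
    ∃ S C : B1, alB S ∉ n ∧ (S : F1) * (nA f * z) = C := by
  set S0 : B1 := ⟨nA sb, hnAB _ sb.2⟩ with hS0
  have hS0n : alB S0 ∉ n := by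
    intro h
    have h1 : alB S0 - sb ^ q ∈ n := hnB _ (by
      rw [AddSubgroupClass.coe_sub, halB, SubmonoidClass.coe_pow]
      exact hnA2 _ (hB2A _ sb.2) (hB2C _ sb.2) (hB2B _ sb.2))
    have h2 : sb ^ q ∈ n := by
      have := n.sub_mem h h1
      rwa [sub_sub_cancel] at this
    exact hsb (Ideal.IsPrime.mem_of_pow_mem inferInstance q h2)
  have hg : (nA f * z) ^ m * κ = nA b1 := by
    rw [← hfw, map_mul, map_pow, hw]
    ring
  have hSb : (S0 : F1) * nA b1 = nA eb := by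
    rw [← hb, map_mul]
  have hpow : (((S0 * κ : B1) : F1) * (nA f * z)) ^ m ∈ B1 := by
    have e : (((S0 * κ : B1) : F1) * (nA f * z)) ^ m
        = ((S0 * κ : B1) : F1) ^ (m - 1) * nA eb := by
      obtain ⟨k, rfl⟩ : ∃ k, m = k + 1 := ⟨m - 1, by omega⟩
      rw [Nat.add_sub_cancel, ← hSb, ← hg]
      push_cast
      ring
    rw [e]
    exact B1.mul_mem (B1.pow_mem (S0 * κ : B1).2 _) (hnAB _ eb.2)
  refine ⟨S0 * κ, ⟨_, hroot _ hpow⟩, ?_, rfl⟩
  rw [map_mul]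
  exact fun h => (Ideal.IsPrime.mem_or_mem inferInstance h).elim hS0n hκ

/-- the two relations determine the `(q² - 1)`-th powers of the gluing data (`q = r + 1`). -/
theorem const_of_rel {D : Type*} [CommRing D] [IsDomain D] (r : ℕ)
    (l1 l2 m1 m2 cA cC cB sA sC sB : D)
    (hA : l1 * cA * cC ^ r * sB ^ (r + 1) = l2 * cB ^ (r + 1) * sA * sC ^ r)
    (hB : m2 * cB * cC ^ r * sA ^ (r + 1) = m1 * cA ^ (r + 1) * sB * sC ^ r)
    (h0 : sB ≠ 0) (h1 : cA ≠ 0) (h2 : sA ≠ 0) :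
    m2 ^ (r + 1) * l1 * cC ^ (r * (r + 2)) * sA ^ (r * (r + 2))
      = m1 ^ (r + 1) * l2 * cA ^ (r * (r + 2)) * sC ^ (r * (r + 2)) := by
  have hBq := congrArg (· ^ (r + 1)) hB
  simp only [mul_pow] at hBq
  have h3 : cA * sB ^ (r + 1) * sA ≠ 0 := mul_ne_zero (mul_ne_zero h1 (pow_ne_zero _ h0)) h2
  apply mul_left_cancel₀ h3
  have e1 : cA * sB ^ (r + 1) * sA * (m2 ^ (r + 1) * l1 * cC ^ (r * (r + 2)) * sA ^ (r * (r + 2)))
      = (l1 * cA * cC ^ r * sB ^ (r + 1)) * (m2 ^ (r + 1) * (cC ^ r) ^ (r + 1)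
          * (sA ^ (r + 1)) ^ (r + 1)) := by ring
  have e2 : cA * sB ^ (r + 1) * sA * (m1 ^ (r + 1) * l2 * cA ^ (r * (r + 2)) * sC ^ (r * (r + 2)))
      = (m1 ^ (r + 1) * (cA ^ (r + 1)) ^ (r + 1) * sB ^ (r + 1) * (sC ^ r) ^ (r + 1))
          * (l2 * sA * sC ^ r) := by ring
  rw [e1, e2, hA, ← hBq]
  ring

end Fermat.Agent.S36
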