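import Fermat.Agent.S36.AFix1
import Fermat.Agent.S36.AVert
import Fermat.Agent.S36.NGlue

/-!
# S36, abstract block : the local datum at every point, from (LP), `Pt` and `Rel3`
-/

set_option autoImplicit false

namespace Fermat.Agent.S36

open Fermat.Agent.S34 Fermat.Agent.S35 Fermat.Agent.ES.Model

variable {F : Type*} [Field F]

theorem cancel_aux {D : Type*} [CommRing D] [IsDomain D] {U V X x y : D} (hU : U ≠ 0)
    (hX : X * U = V) (h : U * y = V * x) : x * X - y = 0 := by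
  have : U * (x * X - y) = 0 := by linear_combination x * hX - h
  exact (mul_eq_zero.1 this).resolve_left hU

theorem loc3_of {O : Fin 3 → Subring F} {π : Fin 3 → F} {ϖ : F} (r : ℕ)
    (h3 : Is3 O π ϖ (r + 1)) {m : ℕ} (hm : 0 < m) {B : Subring F} (hB : IsChartS (OO O) ϖ m B)
    (n : Ideal B) (hn : n.IsMaximal) (hpt : Pt O π ϖ m B hB.unif_mem n)
    (v η : F) (hv : ∀ i, DivS (O i) (π i) 1 (v - 1)) (hlp : LP ϖ m B hB.unif_mem n v)
    (hη : ∀ i, IsU (O i) η) (ξ : Fin 3 → F) (hξB : ∀ i, ξ i ∈ B) (hξm : ∀ i, ξ i ^ m = 1)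
    (hηξ : ∀ i, DivS (O i) (π i) 1 (η - ξ i))
    (l1 l2 m1 m2 : F) (hl1 : l1 ∈ B) (hl2 : l2 ∈ B) (hm1 : m1 ∈ B) (hm2 : m2 ∈ B)
    (hl1m : l1 ^ m = 1) (hm2m : m2 ^ m = 1)
    (e0 : ξ 0 * (m2 ^ (r + 1) * l1) = m1 ^ (r + 1) * l2) (e1 : ξ 1 = 1)
    (e2 : ξ 2 * (l1 ^ (r + 1) * m2) = l2 ^ (r + 1) * m1)
    (hrel : Rel3 O π m (r + 1) B v l1 l2 m1 m2) :
    Loc3 O π m B n ((v ^ (r * (r + 2)) / η ^ m) ^ (r + 1)) := by
  have hBi : ∀ i, ∀ x ∈ B, x ∈ O i := fun i x hx => mem_OO.1 (hB.le x hx) i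
  have hvU : ∀ i, IsU (O i) v := fun i => (h3.dv i).isU_of_sub isU_one (hv i)
  have hv0 : v ≠ 0 := (hvU 0).ne_zero
  obtain ⟨f, b, hf0, hb, hf⟩ := exists_loc_unit h3 hm hB n hn hpt v hvU hlp
  have hfmO : ∀ i, f ^ m ∈ O i := by
    intro i
    have hfm : f ^ m = (b : F) * v⁻¹ := by rw [← hf]; field_simp
    rw [hfm]; exact (O i).mul_mem (hBi i _ b.2) (hvU i).inv_mem
  have hfO : ∀ i, f ∈ O i := fun i => (h3.dv i).root hm (hfmO i)
  have hfb : ∀ i, DivS (O i) (π i) 1 (f ^ m - (b : F)) := by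
    intro i
    have := ((hv i).mul_left (hfmO i)).neg
    have e : f ^ m - (b : F) = -(f ^ m * (v - 1)) := by rw [← hf]; ring
    rw [e]; exact this
  rcases hpt with ⟨i0, hon, hoff⟩ | hall
  · obtain ⟨a, ha⟩ := hon.ic f (hfO i0) b (hfb i0)
    refine loc3_mk h3 hm hB n hn (r * (r + 2)) v η hv hη ξ hξm hηξ f b hb hf
      (a ^ (r * (r + 2)) * ⟨ξ i0, hξB i0⟩) i0 ?_
    intro i
    by_cases hi : i = i0
    · subst hi
      exact Or.inr ⟨hon.le, a, ⟨ξ i, hξB i⟩, rfl, ha, by rw [sub_self]; exact n.zero_mem⟩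
    · exact Or.inl ⟨hi, hoff i hi⟩
  · have hex : ∀ i, ∃ a : B, DivS (O i) (π i) 1 (f - (a : F)) := fun i =>
      (hall i).ic f (hfO i) b (hfb i)
    choose a ha using hex
    obtain ⟨R1, R2⟩ := hrel n hn (fun i => (hall i).le) f b hb hf a ha ⟨l1, hl1⟩ ⟨l2, hl2⟩
      ⟨m1, hm1⟩ ⟨m2, hm2⟩ rfl rfl rfl rfl
    have han : ∀ i, a i ∉ n := by
      intro i hi
      apply hb
      have h1 : (a i) ^ m - b ∈ n := (hall i).le _ (by
        have h2 := (cong_pow (hfO i) (hBi i _ (a i).2) (ha i) m).neg.add (hfb i)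
        have e : (((a i) ^ m - b : B) : F) = -(f ^ m - (a i : F) ^ m) + (f ^ m - (b : F)) := by
          push_cast; ring
        rw [e]; exact h2)
      have := n.sub_mem (n.pow_mem_of_mem hi m hm) h1
      rwa [sub_sub_cancel] at this
    have := hn.isPrime
    set mk := Ideal.Quotient.mk n with hmk
    have hne : ∀ i, mk (a i) ≠ 0 := fun i h => han i (Ideal.Quotient.eq_zero_iff_mem.1 h)
    have hunit : ∀ x : B, (x : F) ^ m = 1 → mk x ≠ 0 := by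
      intro x hx h
      have h1 : x ^ m = 1 := Subtype.ext (by push_cast; exact hx)
      have h2 := congrArg mk h1
      rw [map_pow, h, zero_pow hm.ne', map_one] at h2
      exact zero_ne_one h2
    rw [Nat.add_sub_cancel] at R1 R2
    have E1 := Ideal.Quotient.eq_zero_iff_mem.2 R1
    have E2 := Ideal.Quotient.eq_zero_iff_mem.2 R2
    simp only [map_sub, map_mul, map_pow, sub_eq_zero] at E1 E2
    have C0 := const_of_rel r (mk ⟨l1, hl1⟩) (mk ⟨l2, hl2⟩) (mk ⟨m1, hm1⟩) (mk ⟨m2, hm2⟩)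
      (mk (a 0)) (mk (a 1)) (mk (a 2)) 1 1 1 (by simpa using E1) (by simpa using E2)
      one_ne_zero (hne 0) one_ne_zero
    have C2 := const_of_rel r (mk ⟨m2, hm2⟩) (mk ⟨m1, hm1⟩) (mk ⟨l2, hl2⟩) (mk ⟨l1, hl1⟩)
      (mk (a 2)) (mk (a 1)) (mk (a 0)) 1 1 1 (by simpa using E2) (by simpa using E1)
      one_ne_zero (hne 2) one_ne_zero
    simp only [one_pow, mul_one] at C0 C2
    refine loc3_mk h3 hm hB n hn (r * (r + 2)) v η hv hη ξ hξm hηξ f b hb hf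
      ((a 1) ^ (r * (r + 2))) 1 ?_
    intro i
    refine Or.inr ⟨(hall i).le, a i, ⟨ξ i, hξB i⟩, rfl, ha i, ?_⟩
    rw [← Ideal.Quotient.eq_zero_iff_mem, map_sub, map_mul, map_pow, map_pow]
    fin_cases i
    · have hX : mk ⟨ξ 0, hξB 0⟩ * (mk ⟨m2, hm2⟩ ^ (r + 1) * mk ⟨l1, hl1⟩)
          = mk ⟨m1, hm1⟩ ^ (r + 1) * mk ⟨l2, hl2⟩ := by
        rw [← map_pow, ← map_pow, ← map_mul, ← map_mul, ← map_mul]
        exact congrArg mk (Subtype.ext (by push_cast; exact e0))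
      exact cancel_aux (mul_ne_zero (pow_ne_zero _ (hunit _ hm2m)) (hunit _ hl1m)) hX C0
    · have hX : (⟨ξ 1, hξB 1⟩ : B) = 1 := Subtype.ext e1
      show mk (a 1) ^ (r * (r + 2)) * mk ⟨ξ 1, hξB 1⟩ - mk (a 1) ^ (r * (r + 2)) = 0
      rw [hX, map_one, mul_one, sub_self]
    · have hX : mk ⟨ξ 2, hξB 2⟩ * (mk ⟨l1, hl1⟩ ^ (r + 1) * mk ⟨m2, hm2⟩)
          = mk ⟨l2, hl2⟩ ^ (r + 1) * mk ⟨m1, hm1⟩ := by
        rw [← map_pow, ← map_pow, ← map_mul, ← map_mul, ← map_mul]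
        exact congrArg mk (Subtype.ext (by push_cast; exact e2))
      exact cancel_aux (mul_ne_zero (pow_ne_zero _ (hunit _ hl1m)) (hunit _ hm2m)) hX C2

end Fermat.Agent.S36
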