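import Fermat.Agent.S35.GDefs

/-!
# S36, geometry, abstract block : shared definitions of the CHART level

`F` = function field of level `M₀ q²` over an unramified base, `OA OC OB` the three discrete
valuation rings (components `(2,0)`, `(1,1)`, `(0,2)`), uniformisers `ϖ`, `tC`, `ϖ`
(`tC ^ (q-1) = ϖ * unit`), `O = OA ⊓ OC ⊓ OB`.  `B` a chart with its three components
`pA pC pB`.  `F1` = level `M₀ q`, `B'` its chart, `al be : F1 →+* F`.
-/

set_option autoImplicit false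

namespace Fermat.Agent.S36

open Fermat.Agent.S34 Fermat.Agent.S35

variable {F : Type*} [Field F]

/-- `p B_n = t B_n`. -/
def LocPrinc {B : Type*} [CommRing B] (n p : Ideal B) (t : B) : Prop :=
  t ∈ p ∧ ∀ b ∈ p, ∃ s, s ∉ n ∧ ∃ c, s * b = c * t

/-- **One chart with its three components.**  (`regC`, `regN` = block G-REG.) -/
structure Chart3 (OA OC OB : Subring F) (ϖ tC : F) (m : ℕ) (B : Subring F) (pA pC pB : Ideal B) :
    Prop where
  chart : IsChartS (OA ⊓ OC ⊓ OB) ϖ m B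
  frac : ∀ f : F, ∃ a ∈ B, ∃ b ∈ B, b ≠ 0 ∧ f * b = a
  memA : ∀ b : B, b ∈ pA ↔ DivS OA ϖ 1 (b : F)
  memC : ∀ b : B, b ∈ pC ↔ DivS OC tC 1 (b : F)
  memB : ∀ b : B, b ∈ pB ↔ DivS OB ϖ 1 (b : F)
  /-- ordinary points of the middle component : `pC` is locally principal -/
  regC : ∀ n : Ideal B, n.IsMaximal → pC ≤ n → ¬ pA ≤ n → ¬ pB ≤ n → ∃ t, LocPrinc n pC t
  /-- supersingular points : `pA` is locally principal -/
  regN : ∀ n : Ideal B, n.IsMaximal → pA ≤ n → pC ≤ n → pB ≤ n → ∃ t, LocPrinc n pA t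

/-- **The chart `B'` of level `M₀ q` under the chart `B`.** -/
structure ChartL {F1 : Type*} [Field F1] (OA OC OB : Subring F) (ϖ tC : F) (m : ℕ)
    (B : Subring F) (B' : Subring F1) (al be : F1 →+* F) (nA nB : F →* F1) : Prop where
  al_mem : ∀ x ∈ B', al x ∈ B
  be_mem : ∀ x ∈ B', be x ∈ B
  nA_mem : ∀ x ∈ B, nA x ∈ B'
  nB_mem : ∀ x ∈ B, nB x ∈ B'
  root : ∀ x : F1, x ^ m ∈ B' → x ∈ B'
  surjA : ∀ b ∈ B, ∃ a ∈ B', DivS OA ϖ 1 (b - al a)
  surjC : ∀ b ∈ B, ∃ a ∈ B', DivS OC tC 1 (b - al a)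
  surjB : ∀ b ∈ B, ∃ a ∈ B', DivS OB ϖ 1 (b - be a)
  surjC' : ∀ b ∈ B, ∃ a ∈ B', DivS OC tC 1 (b - be a)

/-- branch datum of `f` at `n` on the component `(OX, tX)` : `s f ≡ c`, `s, c ∉ n`. -/
def Br (OX : Subring F) (tX : F) (B : Subring F) (n : Ideal B) (f : F) (s c : B) : Prop :=
  s ∉ n ∧ c ∉ n ∧ DivS OX tX 1 ((s : F) * f - c)

/-- `f` is a local `m`-th root of `w⁻¹` at `n` : `f ^ m * w = b1 / s1` is a unit at `n`. -/
def LRoot (m : ℕ) (B : Subring F) (n : Ideal B) (w f : F) (s1 b1 : B) : Prop :=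
  f ≠ 0 ∧ s1 ∉ n ∧ b1 ∉ n ∧ (s1 : F) * (f ^ m * w) = b1

end Fermat.Agent.S36
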