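import Fermat.Agent.S36.ARel
import Fermat.Agent.S36.NGlue
import Fermat.Agent.S36.NCDefs
import Fermat.Agent.S36.GDefs

/-!
# S36, abstract block : `Rel3` from the norm data `Lvl1` and the chart data `ChartL`
-/

set_option autoImplicit false

namespace Fermat.Agent.S36

open Fermat.Agent.S34 Fermat.Agent.S35

variable {F1 F2 : Type*} [Field F1] [Field F2]

/-- a product in `ϖ O` has a factor in `ϖ O`. -/
theorem exists_divS_of_prod {F : Type*} [Field F] {O : Subring F} {ϖ : F} (hO : IsDV O ϖ)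
    {ι : Type*} (s : Finset ι) (g : ι → F) (hg : ∀ i ∈ s, g i ∈ O)
    (h : DivS O ϖ 1 (∏ i ∈ s, g i)) : ∃ i ∈ s, DivS O ϖ 1 (g i) := by
  classical
  induction s using Finset.induction_on with
  | empty =>
    exfalso
    rw [Finset.prod_empty] at h
    exact hO.not_divS isU_one h
  | insert a s ha ih =>
    rw [Finset.prod_insert ha] at h
    rcases hO.divS_or (hg a (Finset.mem_insert_self a s))
      (Subring.prod_mem _ (fun i hi => hg i (Finset.mem_insert_of_mem hi))) h with h1 | h1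
    · exact ⟨a, Finset.mem_insert_self a s, h1⟩
    · obtain ⟨i, hi, h2⟩ := ih (fun i hi => hg i (Finset.mem_insert_of_mem hi)) h1
      exact ⟨i, Finset.mem_insert_of_mem hi, h2⟩

/-- `z ^ m ≡ 1` ⟹ `z ≡ ζ ^ i`. -/
theorem exists_zeta_cong {F : Type*} [Field F] {O : Subring F} {ϖ : F} (hO : IsDV O ϖ) {m : ℕ}
    (hm : 0 < m) {ζ : F} (hζ : IsPrimitiveRoot ζ m) (hζO : ζ ∈ O) {z : F}
    (hz : DivS O ϖ 1 (z ^ m - 1)) : ∃ i : ℕ, DivS O ϖ 1 (z - ζ ^ i) := by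
  have : NeZero m := ⟨hm.ne'⟩
  have hzm : z ^ m ∈ O := by
    have := O.add_mem (Fermat.Agent.S35.DivS.mem hO.mem hz) O.one_mem
    rwa [sub_add_cancel] at this
  have hzO : z ∈ O := hO.root hm hzm
  have e := hζ.pow_sub_pow_eq_prod_sub_mul z 1 hm
  rw [one_pow] at e
  rw [e] at hz
  have hmem : ∀ μ ∈ Polynomial.nthRootsFinset m (1 : F), ∃ i : ℕ, ζ ^ i = μ := by
    intro μ hμ
    obtain ⟨i, -, hi⟩ := hζ.eq_pow_of_pow_eq_one ((Polynomial.mem_nthRootsFinset hm 1).1 hμ)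
    exact ⟨i, hi⟩
  obtain ⟨μ, hμ, h1⟩ := exists_divS_of_prod hO _ (fun μ => z - μ * 1) (by
    intro μ hμ
    obtain ⟨i, rfl⟩ := hmem μ hμ
    exact O.sub_mem hzO (O.mul_mem (O.pow_mem hζO i) O.one_mem)) hz
  obtain ⟨i, rfl⟩ := hmem μ hμ
  exact ⟨i, by simpa using h1⟩

/-- one half of `Rel3` (the norm `nA`). -/
theorem rel_half {q m : ℕ} (hm : 0 < m) {O1 O2 : Subring F1} {ϖ1 : F1} {OF OM OV : Subring F2}
    {ϖ t : F2} {al be : F1 →+* F2} {nA nB : F2 →* F1}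
    (L : Lvl1 q O1 O2 ϖ1 OF OM OV ϖ t al be nA nB)
    {B : Subring F2} {B' : Subring F1} (C : ChartL OF OM OV ϖ t m B B' al be nA nB)
    (hBF : ∀ b ∈ B, b ∈ OF) (hBM : ∀ b ∈ B, b ∈ OM) (hBV : ∀ b ∈ B, b ∈ OV)
    (hB1 : ∀ b ∈ B', b ∈ O1) (hB2 : ∀ b ∈ B', b ∈ O2)
    (v : F2) (hvF : IsU OF v) (hvM : IsU OM v) (hvV : IsU OV v)
    (z : F1) (hz : nA v = z ^ m) (l1 l2 : F1) (hl1 : l1 ∈ B') (hl2 : l2 ∈ B')
    (hz1 : DivS O1 ϖ1 1 (z - l1)) (hz2 : DivS O2 ϖ1 1 (z - l2))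
    (n : Ideal B) (hn : n.IsMaximal)
    (hnF : ∀ b : B, DivS OF ϖ 1 (b : F2) → b ∈ n) (hnM : ∀ b : B, DivS OM t 1 (b : F2) → b ∈ n)
    (hnV : ∀ b : B, DivS OV ϖ 1 (b : F2) → b ∈ n)
    (f : F2) (b : B) (hf : f ^ m * v = (b : F2)) (a0 a1 a2 : B)
    (h0 : DivS OF ϖ 1 (f - (a0 : F2))) (h1 : DivS OM t 1 (f - (a1 : F2)))
    (h2 : DivS OV ϖ 1 (f - (a2 : F2))) (L1 L2 : B) (hL1 : (L1 : F2) = al l1)
    (hL2 : (L2 : F2) = al l2) :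
    L1 * a0 * a1 ^ (q - 1) - L2 * a2 ^ q ∈ n := by
  have := hn.isPrime
  have hv0 : v ≠ 0 := hvF.ne_zero
  have hfm : f ^ m = (b : F2) * v⁻¹ := by rw [← hf]; field_simp
  have hfF : f ∈ OF := L.dvF.root hm (by rw [hfm]; exact OF.mul_mem (hBF _ b.2) hvF.inv_mem)
  have hfM : f ∈ OM := L.dvM.root hm (by rw [hfm]; exact OM.mul_mem (hBM _ b.2) hvM.inv_mem)
  have hfV : f ∈ OV := L.dvV.root hm (by rw [hfm]; exact OV.mul_mem (hBV _ b.2) hvV.inv_mem)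
  let alB : B' →+* B := (al.comp B'.subtype).codRestrict B (fun x => C.al_mem _ x.2)
  have halB : ∀ x, (alB x : F2) = al x := fun x => rfl
  have h1n : (1 : B) ∉ n := fun h => hn.ne_top ((Ideal.eq_top_iff_one n).2 h)
  obtain ⟨S, Cc, hS, hSC⟩ := exists_SC q m hm al nA L.nA2 alB halB hBF hBM hBV C.root C.nA_mem n hnV
    f v (b : F2) hf 1 b h1n (by rw [Subring.coe_one, one_mul]) z 1
    (by rw [map_one]; exact h1n) (by rw [hz, Subring.coe_one, one_mul])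
  have key := glue_rel_core q al nA L.dv1 L.dv2.mem L.dvF.mem L.dvV.mem L.dvM.mem L.al_unif
    (fun a ha => (L.al_F a).2 ha) (fun a ha => (L.al_M a).2 ha) L.al_V L.nA1 L.nA2 alB halB
    hB1 hB2 hBF hBM hBV n hnF hnM hnV
    (by
      intro x hx
      apply hnF
      obtain ⟨y, hy, e⟩ := hx
      exact ⟨al y, (L.al_F y).2 hy, by rw [halB, e, map_mul, map_pow, L.al_unif]⟩)
    (fun c => by
      obtain ⟨a, ha, h⟩ := C.surjA c c.2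
      exact ⟨⟨a, ha⟩, h⟩)
    (fun c => by
      obtain ⟨a, ha, h⟩ := C.surjC c c.2
      exact ⟨⟨a, ha⟩, h⟩)
    f hfF hfM hfV 1 a0 1 a1 1 a2 h1n h1n
    (by rw [Subring.coe_one, one_mul]; exact h0) (by rw [Subring.coe_one, one_mul]; exact h1)
    (by rw [Subring.coe_one, one_mul]; exact h2)
    z ⟨l1, hl1⟩ ⟨l2, hl2⟩ hz1 hz2 S Cc hS hSC
  have e1 : alB ⟨l1, hl1⟩ = L1 := Subtype.ext (by rw [halB, hL1])
  have e2 : alB ⟨l2, hl2⟩ = L2 := Subtype.ext (by rw [halB, hL2])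
  rw [e1, e2] at key
  simpa using key

/-- the chart data, swapped. -/
theorem ChartL.swap {m : ℕ} {OF OM OV : Subring F2} {ϖ t : F2} {al be : F1 →+* F2}
    {nA nB : F2 →* F1} {B : Subring F2} {B' : Subring F1}
    (C : ChartL OF OM OV ϖ t m B B' al be nA nB) : ChartL OV OM OF ϖ t m B B' be al nB nA where
  al_mem := C.be_mem
  be_mem := C.al_mem
  nA_mem := C.nB_mem
  nB_mem := C.nA_mem
  root := C.root
  surjA := C.surjB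
  surjC := C.surjC'
  surjB := C.surjA
  surjC' := C.surjC

/-- **`Rel3`** from `Lvl1` + `ChartL`, given the constants. -/
theorem rel3_of_consts {q m : ℕ} (hm : 0 < m) {O1 O2 : Subring F1} {ϖ1 : F1} {OF OM OV : Subring F2}
    {ϖ t : F2} {al be : F1 →+* F2} {nA nB : F2 →* F1}
    (L : Lvl1 q O1 O2 ϖ1 OF OM OV ϖ t al be nA nB)
    {B : Subring F2} {B' : Subring F1} (C : ChartL OF OM OV ϖ t m B B' al be nA nB)
    (hBF : ∀ b ∈ B, b ∈ OF) (hBM : ∀ b ∈ B, b ∈ OM) (hBV : ∀ b ∈ B, b ∈ OV)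
    (hB1 : ∀ b ∈ B', b ∈ O1) (hB2 : ∀ b ∈ B', b ∈ O2)
    (v : F2) (hvF : IsU OF v) (hvM : IsU OM v) (hvV : IsU OV v)
    (z z' : F1) (hz : nA v = z ^ m) (hz' : nB v = z' ^ m) (l1 l2 m1 m2 : F1)
    (hl1 : l1 ∈ B') (hl2 : l2 ∈ B') (hm1 : m1 ∈ B') (hm2 : m2 ∈ B')
    (hz1 : DivS O1 ϖ1 1 (z - l1)) (hz2 : DivS O2 ϖ1 1 (z - l2))
    (hz1' : DivS O1 ϖ1 1 (z' - m1)) (hz2' : DivS O2 ϖ1 1 (z' - m2)) :
    Rel3 ![OF, OM, OV] ![ϖ, t, ϖ] m q B v (al l1) (al l2) (be m1) (be m2) := by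
  intro n hn hle f b hb hf a ha L1 L2 M1 M2 hL1 hL2 hM1 hM2
  have hnF : ∀ b : B, DivS OF ϖ 1 (b : F2) → b ∈ n := hle 0
  have hnM : ∀ b : B, DivS OM t 1 (b : F2) → b ∈ n := hle 1
  have hnV : ∀ b : B, DivS OV ϖ 1 (b : F2) → b ∈ n := hle 2
  have h0 : DivS OF ϖ 1 (f - (a 0 : F2)) := ha 0
  have h1 : DivS OM t 1 (f - (a 1 : F2)) := ha 1
  have h2 : DivS OV ϖ 1 (f - (a 2 : F2)) := ha 2
  exact ⟨rel_half hm L C hBF hBM hBV hB1 hB2 v hvF hvM hvV z hz l1 l2 hl1 hl2 hz1 hz2 n hn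
      hnF hnM hnV f b hf (a 0) (a 1) (a 2) h0 h1 h2 L1 L2 hL1 hL2,
    rel_half hm L.swap C.swap hBV hBM hBF hB2 hB1 v hvV hvM hvF z' hz' m2 m1 hm2 hm1 hz2' hz1' n hn
      hnV hnM hnF f b hf (a 2) (a 1) (a 0) h2 h1 h0 M2 M1 hM2 hM1⟩

/-- `nA v ≡ 1` on `O1` and on `O2` when `v ≡ 1` on the three branches. -/
theorem nA_cong_one {q : ℕ} {O1 O2 : Subring F1} {ϖ1 : F1} {OF OM OV : Subring F2}
    {ϖ t : F2} {al be : F1 →+* F2} {nA nB : F2 →* F1}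
    (L : Lvl1 q O1 O2 ϖ1 OF OM OV ϖ t al be nA nB) (v : F2)
    (hvF : DivS OF ϖ 1 (v - 1)) (hvM : DivS OM t 1 (v - 1)) (hvV : DivS OV ϖ 1 (v - 1)) :
    DivS O1 ϖ1 1 (nA v - 1) ∧ DivS O2 ϖ1 1 (nA v - 1) := by
  have hF : v ∈ OF := (L.dvF.isU_of_sub isU_one hvF).mem
  have hM : v ∈ OM := (L.dvM.isU_of_sub isU_one hvM).mem
  have hV : v ∈ OV := (L.dvV.isU_of_sub isU_one hvV).mem
  constructor
  · have := L.nA1 v hF hM hV 1 O1.one_mem 1 O1.one_mem (by rw [map_one]; exact hvF)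
      (by rw [map_one]; exact hvM)
    simpa using this
  · have h1 := L.nA2 v hF hM hV
    have h2 := cong_pow hV OV.one_mem hvV q
    rw [one_pow] at h2
    have h3 := h1.add h2
    rw [sub_add_sub_cancel] at h3
    obtain ⟨y, hy, e⟩ := h3
    have hϖ1 := L.dv1.ne_zero
    have hϖ := L.dvF.ne_zero
    have e2 : al ((nA v - 1) / ϖ1) = y := by
      rw [map_div₀, map_sub, map_one, e, L.al_unif, pow_one]
      field_simp
    refine ⟨(nA v - 1) / ϖ1, (L.al_V _).1 (by rw [e2]; exact hy), ?_⟩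
    rw [pow_one]
    field_simp

/-- **`Rel3`** for all the charts, with constants independent of the chart. -/
theorem exists_rel3 {q m : ℕ} (hm : 0 < m) {O1 O2 : Subring F1} {ϖ1 : F1} {OF OM OV : Subring F2}
    {ϖ t : F2} {al be : F1 →+* F2} {nA nB : F2 →* F1}
    (L : Lvl1 q O1 O2 ϖ1 OF OM OV ϖ t al be nA nB)
    (ζ : F1) (hζ : IsPrimitiveRoot ζ m) (hζ1 : ζ ∈ O1) (hζ2 : ζ ∈ O2) (v : F2)
    (hvF : DivS OF ϖ 1 (v - 1)) (hvM : DivS OM t 1 (v - 1)) (hvV : DivS OV ϖ 1 (v - 1))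
    (hA : ∃ z, nA v = z ^ m) (hB : ∃ z, nB v = z ^ m) :
    ∃ i1 i2 j1 j2 : ℕ, ∀ (B : Subring F2) (B' : Subring F1),
      ChartL OF OM OV ϖ t m B B' al be nA nB →
      (∀ b ∈ B, b ∈ OF) → (∀ b ∈ B, b ∈ OM) → (∀ b ∈ B, b ∈ OV) →
      (∀ b ∈ B', b ∈ O1) → (∀ b ∈ B', b ∈ O2) → ζ ∈ B' →
      Rel3 ![OF, OM, OV] ![ϖ, t, ϖ] m q B v (al (ζ ^ i1)) (al (ζ ^ i2)) (be (ζ ^ j1))
        (be (ζ ^ j2)) := by
  obtain ⟨z, hz⟩ := hA
  obtain ⟨z', hz'⟩ := hB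
  obtain ⟨a1, a2⟩ := nA_cong_one L v hvF hvM hvV
  obtain ⟨b2, b1⟩ := nA_cong_one L.swap v hvV hvM hvF
  rw [hz] at a1 a2
  rw [hz'] at b1 b2
  obtain ⟨i1, hi1⟩ := exists_zeta_cong L.dv1 hm hζ hζ1 a1
  obtain ⟨i2, hi2⟩ := exists_zeta_cong L.dv2 hm hζ hζ2 a2
  obtain ⟨j1, hj1⟩ := exists_zeta_cong L.dv1 hm hζ hζ1 b1
  obtain ⟨j2, hj2⟩ := exists_zeta_cong L.dv2 hm hζ hζ2 b2
  refine ⟨i1, i2, j1, j2, ?_⟩
  intro B B' C hBF hBM hBV hB1 hB2 hζB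
  exact rel3_of_consts hm L C hBF hBM hBV hB1 hB2 v (L.dvF.isU_of_sub isU_one hvF)
    (L.dvM.isU_of_sub isU_one hvM) (L.dvV.isU_of_sub isU_one hvV) z z' hz hz' _ _ _ _
    (B'.pow_mem hζB _) (B'.pow_mem hζB _) (B'.pow_mem hζB _) (B'.pow_mem hζB _) hi1 hi2 hj1 hj2

end Fermat.Agent.S36
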