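import Fermat.Agent.S36.NCDefs
import Fermat.Agent.S36.ADefs

/-!
# S36, bridge [BR-3] : `Lvl1` gives `Is3`
-/

set_option autoImplicit false

namespace Fermat.Agent.S36

open Fermat.Agent.S34 Fermat.Agent.S35

variable {F1 F2 : Type*} [Field F1] [Field F2] {q : ℕ} {O1 O2 : Subring F1} {ϖ1 : F1}
  {OF OM OV : Subring F2} {ϖ t : F2} {al be : F1 →+* F2} {nA nB : F2 →* F1}

namespace Lvl1

theorem qdivF (L : Lvl1 q O1 O2 ϖ1 OF OM OV ϖ t al be nA nB) : DivS OF ϖ 1 (q : F2) := by
  obtain ⟨y, hy, hq⟩ := L.qdiv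
  have h0 : ϖ ≠ 0 := L.dvF.ne_zero
  have h1 : y = al ((q : F1) / ϖ1) := by
    rw [map_div₀, map_natCast, L.al_unif, hq, pow_one]
    field_simp
  rw [h1] at hy
  exact ⟨al ((q : F1) / ϖ1), (L.al_F _).2 ((L.al_M _).1 hy), by rw [← h1]; exact hq⟩

theorem qdivV (L : Lvl1 q O1 O2 ϖ1 OF OM OV ϖ t al be nA nB) : DivS OV ϖ 1 (q : F2) :=
  L.swap.qdivF

theorem isU_one_sub {O : Subring F2} {π e : F2} (h : IsDV O π) (he : DivS O π 1 e) :
    IsU O (1 - e) := by
  refine h.isU_of_sub isU_one ?_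
  have : (1 - e) - 1 = - e := by ring
  rw [this]
  exact he.neg

theorem divS_one_sub {O : Subring F2} {π e : F2} (he : DivS O π 1 (e - 1)) :
    DivS O π 1 (1 - e) := by
  have : (1 - e) = - (e - 1) := by ring
  rw [this]
  exact he.neg

/-- **[BR-3]** -/
theorem is3 (L : Lvl1 q O1 O2 ϖ1 OF OM OV ϖ t al be nA nB) (hq : 2 ≤ q) :
    Is3 ![OF, OM, OV] ![ϖ, t, ϖ] ϖ q where
  dv := by
    intro i
    fin_cases i
    · exact L.dvF
    · exact L.dvM
    · exact L.dvV
  ram := by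
    have h0 : ϖ ≠ 0 := L.dvF.ne_zero
    intro i
    fin_cases i
    · refine ⟨1, one_pos, by omega, ?_⟩
      change IsU OF (ϖ / ϖ ^ 1)
      rw [pow_one, div_self h0]
      exact isU_one
    · refine ⟨q - 1, by omega, by omega, ?_⟩
      change IsU OM (ϖ / t ^ (q - 1))
      have := L.ram.inv
      rwa [inv_div] at this
    · refine ⟨1, one_pos, by omega, ?_⟩
      change IsU OV (ϖ / ϖ ^ 1)
      rw [pow_one, div_self h0]
      exact isU_one
  char := by
    intro i
    fin_cases i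
    · exact L.qdivF
    · exact L.qdiv
    · exact L.qdivV
  sep := by
    intro i
    fin_cases i
    · obtain ⟨e, -, -, -, h4, h5, h6⟩ := L.idemF
      refine ⟨1 - e, divS_one_sub h4, fun j hj => ?_⟩
      fin_cases j
      · exact absurd rfl hj
      · exact isU_one_sub L.dvM h5
      · exact isU_one_sub L.dvV h6
    · obtain ⟨e, -, -, -, h4, h5, h6⟩ := L.idemM
      refine ⟨1 - e, divS_one_sub h5, fun j hj => ?_⟩
      fin_cases j
      · exact isU_one_sub L.dvF h4
      · exact absurd rfl hj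
      · exact isU_one_sub L.dvV h6
    · obtain ⟨e, -, -, -, h4, h5, h6⟩ := L.idemV
      refine ⟨1 - e, divS_one_sub h6, fun j hj => ?_⟩
      fin_cases j
      · exact isU_one_sub L.dvF h4
      · exact isU_one_sub L.dvM h5
      · exact absurd rfl hj

end Lvl1

end Fermat.Agent.S36
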