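import Fermat.Agent.S36.NC1

/-!
# S36, abstract block, [C1'] : after the vertical normalisation the norms are exact `m`-th powers
-/

set_option autoImplicit false

namespace Fermat.Agent.S36

open Fermat.Agent.S34 Fermat.Agent.S35

theorem exists_root_of_isU {F : Type*} [Field F] {O : Subring F} {ϖ : F} (h : IsDV O ϖ) {m : ℕ}
    {x y : F} {K : ℤ} (hx : IsU O x) (hy : y ≠ 0) (e : x = ϖ ^ K * y ^ m) : ∃ z, x = z ^ m := by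
  have h0 := h.ne_zero
  have hv := vl_eq_zero h hx
  rw [e, vl_mul h (zpow_ne_zero _ h0) (pow_ne_zero _ hy), vl_zpow h h0, vl_unif h, vl_pow h hy] at hv
  refine ⟨ϖ ^ (- vl h y) * y, ?_⟩
  rw [e, mul_pow, ← zpow_natCast (ϖ ^ (- vl h y)), ← zpow_mul]
  congr 2
  linarith

theorem norm_rep_aux {F1 F2 : Type*} [Field F1] [Field F2] (f : F2 →* F1) {ϖ : F2} {ϖ1 : F1}
    {q m : ℕ} (hϖ : ϖ ≠ 0) (hϖ1 : ϖ1 ≠ 0) (hf : f ϖ = ϖ1 ^ q) {u g : F2} (hg : g ≠ 0) (j k : ℤ)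
    (z : F1) (h : f u = ϖ1 ^ k * z ^ m) :
    f (u ^ (q + 1) * ϖ ^ j / g ^ m)
      = ϖ1 ^ (k * ((q : ℤ) + 1) + q * j) * (z ^ (q + 1) / f g) ^ m := by
  have hfg := monoidHom_ne_zero f hg
  rw [monoidHom_div f _ (pow_ne_zero _ hg), map_mul, map_pow, map_pow, monoidHom_zpow f hϖ, hf, h,
    zpow_add₀ hϖ1, zpow_mul, zpow_mul, zpow_natCast ϖ1 q, div_pow, mul_pow, ← pow_mul, ← pow_mul,
    mul_comm m (q + 1)]
  have e : (ϖ1 ^ k) ^ ((q : ℤ) + 1) = (ϖ1 ^ k) ^ (q + 1) := by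
    rw [← zpow_natCast (ϖ1 ^ k) (q + 1)]
    push_cast
    rfl
  rw [e]
  field_simp

namespace Lvl1

variable {F1 F2 : Type*} [Field F1] [Field F2] {q : ℕ} {O1 O2 : Subring F1} {ϖ1 : F1}
  {OF OM OV : Subring F2} {ϖ t : F2} {al be : F1 →+* F2} {nA nB : F2 →* F1}

/-- **[C1']** : `w = u ^ (q + 1) ϖ ^ j / g ^ m` is a unit of the three rings and its two norms are
exact `m`-th powers. -/
theorem exists_unit_rep' (L : Lvl1 q O1 O2 ϖ1 OF OM OV ϖ t al be nA nB) (hq : 2 ≤ q) {m : ℕ}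
    (hm : 0 < m) {u : F2} (hu : u ≠ 0) (hA : ∃ (k : ℤ) (z : F1), nA u = ϖ1 ^ k * z ^ m)
    (hB : ∃ (k : ℤ) (z : F1), nB u = ϖ1 ^ k * z ^ m) :
    ∃ (j : ℤ) (g : F2), g ≠ 0 ∧ IsU OF (u ^ (q + 1) * ϖ ^ j / g ^ m) ∧
      IsU OM (u ^ (q + 1) * ϖ ^ j / g ^ m) ∧ IsU OV (u ^ (q + 1) * ϖ ^ j / g ^ m) ∧
      (∃ z, nA (u ^ (q + 1) * ϖ ^ j / g ^ m) = z ^ m) ∧
      (∃ z, nB (u ^ (q + 1) * ϖ ^ j / g ^ m) = z ^ m) := by
  obtain ⟨j, g, hg, hF, hM, hV⟩ := L.exists_unit_rep hq hu hA hB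
  obtain ⟨k1, z1, h1⟩ := hA
  obtain ⟨k2, z2, h2⟩ := hB
  have hϖ0 : ϖ ≠ 0 := L.dvF.ne_zero
  have hp0 : ϖ1 ≠ 0 := L.dv1.ne_zero
  have hz1 : z1 ≠ 0 := fun h0 =>
    monoidHom_ne_zero nA hu (by rw [h1, h0, zero_pow hm.ne', mul_zero])
  have hz2 : z2 ≠ 0 := fun h0 =>
    monoidHom_ne_zero nB hu (by rw [h2, h0, zero_pow hm.ne', mul_zero])
  have fA : nA ϖ = ϖ1 ^ q := by rw [← L.al_unif, L.nA_al]
  have fB : nB ϖ = ϖ1 ^ q := by rw [← L.be_unif, L.nB_be]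
  refine ⟨j, g, hg, hF, hM, hV, ?_, ?_⟩
  · exact exists_root_of_isU L.dv1 (L.nA_isU1 hF hM hV.mem)
      (div_ne_zero (pow_ne_zero _ hz1) (monoidHom_ne_zero nA hg))
      (norm_rep_aux nA hϖ0 hp0 fA hg j k1 z1 h1)
  · exact exists_root_of_isU L.dv2 (L.swap.nA_isU1 hV hM hF.mem)
      (div_ne_zero (pow_ne_zero _ hz2) (monoidHom_ne_zero nB hg))
      (norm_rep_aux nB hϖ0 hp0 fB hg j k2 z2 h2)

end Lvl1

end Fermat.Agent.S36
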