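import Fermat.Agent.S36.NCrt
import Fermat.Agent.S36.NCDefs

/-!
# S36, abstract block : [C2] residues.  A unit `u` of `OF ⊓ OM ⊓ OV` whose two norms are `m`-th
powers: `u ^ (q - 1)` is an `m`-th power modulo the three maximal ideals.
-/

set_option autoImplicit false

namespace Fermat.Agent.S36.N27

open Fermat.Agent.S34 Fermat.Agent.S35 Fermat.Agent.S36

section transfer

variable {F1 F2 : Type*} [Field F1] [Field F2] {O : Subring F2} {O' : Subring F1} {al : F1 →+* F2}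

theorem isU_al (h : ∀ a, al a ∈ O ↔ a ∈ O') {a : F1} : IsU O (al a) ↔ IsU O' a := by
  constructor
  · intro hu
    refine ⟨fun h0 => hu.ne_zero (by rw [h0, map_zero]), (h a).1 hu.mem, (h _).1 ?_⟩
    rw [map_inv₀]
    exact hu.inv_mem
  · intro hu
    refine ⟨(map_ne_zero al).2 hu.ne_zero, (h a).2 hu.mem, ?_⟩
    rw [← map_inv₀]
    exact (h _).2 hu.inv_mem

theorem divS_al (h : ∀ a, al a ∈ O ↔ a ∈ O') {ϖ1 : F1} {a : F1} (ha : DivS O' ϖ1 1 a) :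
    DivS O (al ϖ1) 1 (al a) := by
  obtain ⟨y, hy, rfl⟩ := ha
  exact ⟨al y, (h y).2 hy, by rw [map_mul, map_pow]⟩

theorem divS_of_al (h : ∀ a, al a ∈ O ↔ a ∈ O') {ϖ1 : F1} (h0 : ϖ1 ≠ 0) {a : F1}
    (ha : DivS O (al ϖ1) 1 (al a)) : DivS O' ϖ1 1 a := by
  obtain ⟨y, hy, hay⟩ := ha
  refine ⟨a / ϖ1, (h _).1 ?_, by rw [pow_one, mul_div_cancel₀ _ h0]⟩
  have h1 : al ϖ1 ≠ 0 := (map_ne_zero al).2 h0
  have : al (a / ϖ1) = y := by
    rw [map_div₀, hay, pow_one, mul_div_cancel_left₀ _ h1]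
  rw [this]
  exact hy

end transfer

/-- `x ^ m ≡ u ^ q`, `q s + m t = 1` ⟹ `u ≡ (x ^ s u ^ t) ^ m`. -/
theorem root_of_pow {F : Type*} [Field F] {O : Subring F} {π : F} {u x : F} {q m : ℕ}
    (hu : IsU O u) (hx : IsU O x) (hc : DivS O π 1 (x ^ m - u ^ q)) {s t : ℤ}
    (hst : (q : ℤ) * s + m * t = 1) :
    IsU O (x ^ s * u ^ t) ∧ DivS O π 1 (u - (x ^ s * u ^ t) ^ m) := by
  refine ⟨(hx.zpow s).mul (hu.zpow t), ?_⟩
  have hu0 := hu.ne_zero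
  have e1 : u = (u ^ q) ^ s * u ^ ((m : ℤ) * t) := by
    rw [← zpow_natCast u q, ← zpow_mul, ← zpow_add₀ hu0, hst, zpow_one]
  have e2 : (x ^ s * u ^ t) ^ m = (x ^ m) ^ s * u ^ ((m : ℤ) * t) := by
    rw [mul_pow, ← zpow_natCast (x ^ s) m, ← zpow_mul, ← zpow_natCast (u ^ t) m, ← zpow_mul,
      ← zpow_natCast x m, ← zpow_mul, mul_comm s, mul_comm t]
  have e3 : u - (x ^ s * u ^ t) ^ m = ((u ^ q) ^ s - (x ^ m) ^ s) * u ^ ((m : ℤ) * t) := by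
    rw [e2, sub_mul, ← e1]
  rw [e3]
  exact (cong_zpow (hu.pow q) (hx.pow m) (DivS.symm hc) s).mul_right (hu.zpow _).mem

variable {F1 F2 : Type*} [Field F1] [Field F2] {q : ℕ} {O1 O2 : Subring F1} {ϖ1 : F1}
  {OF OM OV : Subring F2} {ϖ t : F2} {al be : F1 →+* F2} {nA nB : F2 →* F1}

theorem divS_M (L : Lvl1 q O1 O2 ϖ1 OF OM OV ϖ t al be nA nB) (hq : 2 ≤ q) {x : F2}
    (hx : DivS OM ϖ 1 x) : DivS OM t 1 x := by
  obtain ⟨y, hy, rfl⟩ := hx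
  have h0 := L.dvF.ne_zero
  have ht := L.dvM.ne_zero
  have hr := L.ram
  obtain ⟨k, hk⟩ : ∃ k, q - 1 = k + 1 := ⟨q - 2, by omega⟩
  refine ⟨t ^ k * (t ^ (q - 1) / ϖ)⁻¹ * y,
    OM.mul_mem (OM.mul_mem (OM.pow_mem L.dvM.mem k) hr.inv_mem) hy, ?_⟩
  rw [hk]
  field_simp
  ring

/-- the norm of a unit is a unit (first valuation), with its residue. -/
theorem nA_unit1 (L : Lvl1 q O1 O2 ϖ1 OF OM OV ϖ t al be nA nB) {u : F2} (hF : IsU OF u)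
    (hM : IsU OM u) (hV : IsU OV u) : IsU O1 (nA u) := by
  obtain ⟨a, ha, hua⟩ := L.surjF u hF.mem
  obtain ⟨c, hc, huc⟩ := L.surjM u hM.mem
  have ha' : IsU O1 a := (isU_al L.al_F).1 (L.dvF.isU_of_sub hF (DivS.symm hua))
  have hc' : IsU O1 c := (isU_al L.al_M).1 (L.dvM.isU_of_sub hM (DivS.symm huc))
  exact L.dv1.isU_of_sub (ha'.mul (hc'.pow _)) (L.nA1 u hF.mem hM.mem hV.mem a ha c hc hua huc)

theorem nA_unit2 (L : Lvl1 q O1 O2 ϖ1 OF OM OV ϖ t al be nA nB) {u : F2} (hF : IsU OF u)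
    (hM : IsU OM u) (hV : IsU OV u) : IsU O2 (nA u) :=
  (isU_al L.al_V).1 (L.dvV.isU_of_sub (hV.pow q) (L.nA2 u hF.mem hM.mem hV.mem))

/-- **[C2]** -/
theorem exists_root_res (L : Lvl1 q O1 O2 ϖ1 OF OM OV ϖ t al be nA nB) (hq : 2 ≤ q) {m : ℕ}
    (hm : 0 < m) (hmq : Nat.Coprime q m) {u : F2} (hF : IsU OF u) (hM : IsU OM u)
    (hV : IsU OV u) (hA : ∃ z, nA u = z ^ m) (hB : ∃ z, nB u = z ^ m) :
    ∃ h, IsU OF h ∧ IsU OM h ∧ IsU OV h ∧ DivS OF ϖ 1 (u ^ (q - 1) - h ^ m) ∧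
      DivS OM t 1 (u ^ (q - 1) - h ^ m) ∧ DivS OV ϖ 1 (u ^ (q - 1) - h ^ m) := by
  obtain ⟨zA, hzA⟩ := hA
  obtain ⟨zB, hzB⟩ := hB
  -- Bezout
  obtain ⟨s, r, hsr⟩ : ∃ s r : ℤ, (q : ℤ) * s + m * r = 1 := by
    refine ⟨Nat.gcdA q m, Nat.gcdB q m, ?_⟩
    rw [← Nat.gcd_eq_gcd_ab, hmq]
    rfl
  -- units
  have hzA1 : IsU O1 zA := L.dv1.isU_root hm (hzA ▸ nA_unit1 L hF hM hV)
  have hzA2 : IsU O2 zA := L.dv2.isU_root hm (hzA ▸ nA_unit2 L hF hM hV)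
  have hzB1 : IsU O1 zB := L.dv1.isU_root hm (hzB ▸ nA_unit2 L.swap hV hM hF)
  -- the component `V`
  have hV1 : DivS OV ϖ 1 (al zA ^ m - u ^ q) := by
    have := L.nA2 u hF.mem hM.mem hV.mem
    rwa [hzA, map_pow] at this
  obtain ⟨hyV, hyV'⟩ := root_of_pow hV ((isU_al L.al_V).2 hzA2) hV1 hsr
  set yV : F2 := al zA ^ s * u ^ r with hyVdef
  -- the component `F`
  have hF1 : DivS OF ϖ 1 (be zB ^ m - u ^ q) := by
    have := L.nB1 u hF.mem hM.mem hV.mem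
    rwa [hzB, map_pow] at this
  obtain ⟨hyF, hyF'⟩ := root_of_pow hF ((isU_al L.be_F).2 hzB1) hF1 hsr
  set yF : F2 := be zB ^ s * u ^ r with hyFdef
  -- the component `M`
  obtain ⟨a, ha, hua⟩ := L.surjF u hF.mem
  obtain ⟨c, hc, huc⟩ := L.surjM u hM.mem
  obtain ⟨y1, hy1, hyy1⟩ := L.surjF yF hyF.mem
  have hy1u : IsU O1 y1 := (isU_al L.al_F).1 (L.dvF.isU_of_sub hyF (DivS.symm hyy1))
  have h1 : DivS O1 ϖ1 1 (a - y1 ^ m) := by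
    apply divS_of_al L.al_F L.dv1.ne_zero
    rw [L.al_unif, map_sub, map_pow]
    -- `al a ≡ u ≡ yF ^ m ≡ (al y1) ^ m`
    have e1 := cong_pow hyF.mem ((L.al_F y1).2 hy1) hyy1 m
    exact DivS.trans (DivS.trans (DivS.symm hua) hyF') e1
  have h2 : DivS O1 ϖ1 1 (zA ^ m - y1 ^ m * c ^ (q - 1)) := by
    have e1 := L.nA1 u hF.mem hM.mem hV.mem a ha c hc hua huc
    rw [hzA] at e1
    have e2 : DivS O1 ϖ1 1 (a * c ^ (q - 1) - y1 ^ m * c ^ (q - 1)) := by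
      rw [← sub_mul]
      exact h1.mul_right (O1.pow_mem hc _)
    exact DivS.trans e1 e2
  have h3 : DivS O1 ϖ1 1 ((zA / y1) ^ m - c ^ (q - 1)) := by
    have e : (zA / y1) ^ m - c ^ (q - 1) = (zA ^ m - y1 ^ m * c ^ (q - 1)) * (y1 ^ m)⁻¹ := by
      have := hy1u.ne_zero
      rw [div_pow]
      field_simp
    rw [e]
    exact h2.mul_right (hy1u.pow m).inv_mem
  have h4 : DivS OM t 1 (al (zA / y1) ^ m - al c ^ (q - 1)) := by
    apply divS_M L hq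
    have := divS_al L.al_M h3
    rwa [L.al_unif, map_sub, map_pow, map_pow] at this
  have hyM : IsU OM (al (zA / y1)) := (isU_al L.al_M).2 (hzA1.div hy1u)
  set yM : F2 := al (zA / y1) with hyMdef
  have h5 : DivS OM t 1 (u ^ (q - 1) - yM ^ m) :=
    DivS.trans (cong_pow hM.mem ((L.al_M c).2 hc) huc (q - 1)) (DivS.symm h4)
  -- weak approximation
  obtain ⟨eF, -, -, -, f1, f2, f3⟩ := L.idemF
  obtain ⟨eM, -, -, -, g1, g2, g3⟩ := L.idemM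
  obtain ⟨eV, -, -, -, k1, k2, k3⟩ := L.idemV
  obtain ⟨h, hhF, hhM, hhV⟩ := crt3_of_idem L.dvF L.dvM L.dvV f1 f2 f3 g1 g2 g3 k1 k2 k3
    (hyF.pow (q - 1)).mem hyM.mem (hyV.pow (q - 1)).mem
  have uF : IsU OF h := L.dvF.isU_of_sub (hyF.pow (q - 1)) hhF
  have uM : IsU OM h := L.dvM.isU_of_sub hyM hhM
  have uV : IsU OV h := L.dvV.isU_of_sub (hyV.pow (q - 1)) hhV
  refine ⟨h, uF, uM, uV, ?_, ?_, ?_⟩
  · have e1 := cong_pow hF.mem (hyF.pow m).mem hyF' (q - 1)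
    have e2 := cong_pow uF.mem (hyF.pow (q - 1)).mem hhF m
    rw [← pow_mul, mul_comm, pow_mul] at e1
    exact DivS.trans e1 (DivS.symm e2)
  · exact DivS.trans h5 (DivS.symm (cong_pow uM.mem hyM.mem hhM m))
  · have e1 := cong_pow hV.mem (hyV.pow m).mem hyV' (q - 1)
    have e2 := cong_pow uV.mem (hyV.pow (q - 1)).mem hhV m
    rw [← pow_mul, mul_comm, pow_mul] at e1
    exact DivS.trans e1 (DivS.symm e2)

end Fermat.Agent.S36.N27
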