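import Fermat.Agent.S36.AFix
import Fermat.Agent.S36.ARel3
import Fermat.Agent.S36.Br3
import Fermat.Agent.S36.NC1b
import Fermat.Agent.S36.NRes

/-!
# S36, abstract block : the endgame on the norm data `Lvl1` (`fix_lvl1`)

`u ≠ 0` with (LP) everywhere on the two charts and `nA u = ϖ1 ^ k z ^ m`, `nB u = ϖ1 ^ k' z' ^ m`
⟹ `z ^ m * (u ^ c0 * ϖ ^ j) ∈ B1 ∩ B2`, `c0 = (q + 1) (q - 1) (q² - 1) q`.
-/

set_option autoImplicit false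

namespace Fermat.Agent.S36

open Fermat.Agent.S34 Fermat.Agent.S35

variable {F1 F2 : Type*} [Field F1] [Field F2]

/-- `ϖ ^ j` is a unit on every tube. -/
theorem lp_unif_zpow {F : Type*} [Field F] {ϖ : F} {m : ℕ} {B : Subring F} {hϖ : ϖ ∈ B}
    {n : Ideal B} (hn : n.IsPrime) (hϖ0 : ϖ ≠ 0) (j : ℤ) : LP ϖ m B hϖ n (ϖ ^ j) := by
  have h1n : (1 : B) ∉ n := (Ideal.ne_top_iff_one n).1 hn.ne_top
  have h1 : InTube (⟨ϖ, hϖ⟩ : B) n ϖ :=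
    GLP.inTube_iff.2 ⟨1, h1n, 0, ⟨ϖ, hϖ⟩, by simp⟩
  have h2 : InTube (⟨ϖ, hϖ⟩ : B) n ϖ⁻¹ :=
    GLP.inTube_iff.2 ⟨1, h1n, 1, 1, by simp [hϖ0]⟩
  refine ⟨1, ϖ ^ j, one_ne_zero, by simp, AVert.inTube_zpow hn h1 h2 j, ?_⟩
  rw [← zpow_neg]
  exact AVert.inTube_zpow hn h1 h2 _

/-- **[GA-FIX2]** the endgame on `Lvl1`. -/
theorem fix_lvl1 {q m : ℕ} (hq : q.Prime) (hm : 0 < m) (hmq : Nat.Coprime q m)
    {O1 O2 : Subring F1} {ϖ1 : F1} {OF OM OV : Subring F2} {ϖ t : F2} {al be : F1 →+* F2}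
    {nA nB : F2 →* F1} (L : Lvl1 q O1 O2 ϖ1 OF OM OV ϖ t al be nA nB)
    (R B1 B2 B12 : Subring F2) [IsNoetherianRing R] (hR1 : R ≤ B1) (hR2 : R ≤ B2) (hϖR : ϖ ∈ R)
    (h1 : IsChartS (OO ![OF, OM, OV]) ϖ m B1) (h2 : IsChartS (OO ![OF, OM, OV]) ϖ m B2)
    (h12 : IsChartS (OO ![OF, OM, OV]) ϖ m B12) (h1le : B1 ≤ B12) (h2le : B2 ≤ B12)
    (x : F2) (hx : x ≠ 0) (hx1 : x ∈ B1) (hx2 : x⁻¹ ∈ B2)
    (h12a : ∀ y ∈ B12, ∃ n : ℕ, x ^ n * y ∈ B1) (h12b : ∀ y ∈ B12, ∃ n : ℕ, x⁻¹ ^ n * y ∈ B2)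
    (hfin : ∃ S : Finset F2, ∀ y ∈ B1,
      y ∈ Submodule.span (Subring.closure ((R : Set F2) ∪ {x})) (S : Set F2))
    (hfrac : ∀ f : F2, ∃ s ∈ B1, s ≠ 0 ∧ s * f ∈ B1)
    (hpt1 : ∀ n : Ideal B1, n.IsMaximal → (⟨ϖ, h1.unif_mem⟩ : B1) ∈ n →
      Pt ![OF, OM, OV] ![ϖ, t, ϖ] ϖ m B1 h1.unif_mem n)
    (hpt2 : ∀ n : Ideal B2, n.IsMaximal → (⟨ϖ, h2.unif_mem⟩ : B2) ∈ n →
      Pt ![OF, OM, OV] ![ϖ, t, ϖ] ϖ m B2 h2.unif_mem n)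
    (B1' B2' : Subring F1) (C1 : ChartL OF OM OV ϖ t m B1 B1' al be nA nB)
    (C2 : ChartL OF OM OV ϖ t m B2 B2' al be nA nB)
    (hB1' : ∀ b ∈ B1', b ∈ O1 ∧ b ∈ O2) (hB2' : ∀ b ∈ B2', b ∈ O1 ∧ b ∈ O2)
    (ζ : F1) (hζ : IsPrimitiveRoot ζ m) (hζ1 : ζ ∈ B1') (hζ2 : ζ ∈ B2')
    (hζa : al ζ ∈ R) (hζb : be ζ ∈ R)
    (u : F2) (hu : u ≠ 0) (hlp1 : LPall ϖ m B1 h1.unif_mem u) (hlp2 : LPall ϖ m B2 h2.unif_mem u)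
    (hA : ∃ (k : ℤ) (z : F1), nA u = ϖ1 ^ k * z ^ m)
    (hB : ∃ (k : ℤ) (z : F1), nB u = ϖ1 ^ k * z ^ m) :
    ∃ (z : F2) (j : ℤ), z ≠ 0 ∧
      z ^ m * (u ^ ((q + 1) * (q - 1) * ((q ^ 2 - 1) * q)) * ϖ ^ j) ∈ B1 ∧
      z ^ m * (u ^ ((q + 1) * (q - 1) * ((q ^ 2 - 1) * q)) * ϖ ^ j) ∈ B2 := by
  have hq2 : 2 ≤ q := hq.two_le
  have h3 := L.is3 hq2
  have hϖ0 : ϖ ≠ 0 := L.dvF.ne_zero
  obtain ⟨j, g, hg, hF, hM, hV, ⟨zA, hzA⟩, ⟨zB, hzB⟩⟩ := L.exists_unit_rep' hq2 hm hu hA hB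
  set w0 := u ^ (q + 1) * ϖ ^ j / g ^ m with hw0
  obtain ⟨h, hhF, hhM, hhV, dF, dM, dV⟩ := N27.exists_root_res L hq2 hm hmq hF hM hV
    ⟨zA, hzA⟩ ⟨zB, hzB⟩
  have hh0 : h ≠ 0 := hhF.ne_zero
  set v := w0 ^ (q - 1) / h ^ m with hv
  have hcong : ∀ {O : Subring F2} {π : F2}, IsU O h → DivS O π 1 (w0 ^ (q - 1) - h ^ m) →
      DivS O π 1 (v - 1) := by
    intro O π hU hd
    have := hd.mul_right (hU.pow m).inv_mem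
    have e : v - 1 = (w0 ^ (q - 1) - h ^ m) * (h ^ m)⁻¹ := by
      rw [hv]
      have := pow_ne_zero m hh0
      field_simp
    rw [e]; exact this
  have vF := hcong hhF dF
  have vM := hcong hhM dM
  have vV := hcong hhV dV
  have hvall : ∀ i, DivS (![OF, OM, OV] i) (![ϖ, t, ϖ] i) 1 (v - 1) := by
    intro i
    fin_cases i
    · exact vF
    · exact vM
    · exact vV
  have hve : v = w0 ^ (q - 1) * (h⁻¹) ^ m := by rw [hv, inv_pow, div_eq_mul_inv]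
  have hAv : ∃ z, nA v = z ^ m :=
    ⟨zA ^ (q - 1) * nA h⁻¹, by rw [hve, map_mul, map_pow, map_pow, hzA, mul_pow, pow_right_comm]⟩
  have hBv : ∃ z, nB v = z ^ m :=
    ⟨zB ^ (q - 1) * nB h⁻¹, by rw [hve, map_mul, map_pow, map_pow, hzB, mul_pow, pow_right_comm]⟩
  have hlpv : ∀ {B : Subring F2} {hϖ : ϖ ∈ B}, LPall ϖ m B hϖ u → LPall ϖ m B hϖ v := by
    intro B hϖ hl n hn hϖn
    have hp := hn.isPrime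
    exact LP.div_mpow (LP.pow hp (LP.div_mpow (LP.mul hp (LP.pow hp (hl n hn hϖn) _)
      (lp_unif_zpow hp hϖ0 j)) hg) _) hh0
  obtain ⟨i1, i2, j1, j2, hrel⟩ := exists_rel3 hm L ζ hζ (hB1' _ hζ1).1 (hB1' _ hζ1).2 v vF vM vV
    hAv hBv
  have hle : ∀ {B : Subring F2}, IsChartS (OO ![OF, OM, OV]) ϖ m B →
      (∀ b ∈ B, b ∈ OF) ∧ (∀ b ∈ B, b ∈ OM) ∧ (∀ b ∈ B, b ∈ OV) := fun hB =>
    ⟨fun b hb => mem_OO.1 (hB.le b hb) 0, fun b hb => mem_OO.1 (hB.le b hb) 1,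
      fun b hb => mem_OO.1 (hB.le b hb) 2⟩
  have hpw : ∀ (φ : F1 →+* F2) (i : ℕ), φ ζ ∈ R → φ (ζ ^ i) ∈ R ∧ φ (ζ ^ i) ^ m = 1 := by
    intro φ i hφ
    refine ⟨by rw [map_pow]; exact R.pow_mem hφ i, ?_⟩
    rw [← map_pow, pow_right_comm, hζ.pow_eq_one, one_pow, map_one]
  obtain ⟨z, hz, hz1, hz2⟩ := fix_abs hq h3 m hm R B1 B2 B12 hR1 hR2 hϖR h1 h2 h12 h1le h2le
    x hx hx1 hx2 h12a h12b hfin hfrac hpt1 hpt2 v (hlpv hlp1) (hlpv hlp2) hvall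
    (al (ζ ^ i1)) (al (ζ ^ i2)) (be (ζ ^ j1)) (be (ζ ^ j2))
    (hpw al i1 hζa).1 (hpw al i2 hζa).1 (hpw be j1 hζb).1 (hpw be j2 hζb).1
    (hpw al i1 hζa).2 (hpw al i2 hζa).2 (hpw be j1 hζb).2 (hpw be j2 hζb).2
    (hrel B1 B1' C1 (hle h1).1 (hle h1).2.1 (hle h1).2.2 (fun b hb => (hB1' b hb).1)
      (fun b hb => (hB1' b hb).2) hζ1)
    (hrel B2 B2' C2 (hle h2).1 (hle h2).2.1 (hle h2).2.2 (fun b hb => (hB2' b hb).1)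
      (fun b hb => (hB2' b hb).2) hζ2)
  set E := (q ^ 2 - 1) * q with hE
  have e : (z / (g ^ ((q - 1) * E) * h ^ E)) ^ m
        * (u ^ ((q + 1) * (q - 1) * E) * ϖ ^ (j * (((q - 1) * E : ℕ) : ℤ)))
      = z ^ m * v ^ E := by
    rw [hv, hw0, zpow_mul, zpow_natCast]
    have hgm := pow_ne_zero m hg
    have hhm := pow_ne_zero m hh0
    rw [div_pow, div_pow, div_pow, div_pow, mul_pow, mul_pow, mul_pow]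
    field_simp
    ring
  refine ⟨z / (g ^ ((q - 1) * E) * h ^ E), j * (((q - 1) * E : ℕ) : ℤ),
    div_ne_zero hz (mul_ne_zero (pow_ne_zero _ hg) (pow_ne_zero _ hh0)), ?_, ?_⟩
  · rw [e]; exact hz1
  · rw [e]; exact hz2

end Fermat.Agent.S36
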