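import Fermat.Agent.S36.ADefs

/-!
# S36, geometry, abstract block : THE PLAN (typechecked stubs).  Never import this file from a
finished file.  Real files: ns `Fermat.Agent.S36`, statements VERBATIM.
-/

set_option autoImplicit false
set_option linter.unusedVariables false

namespace Fermat.Agent.S36.APlan

open Fermat.Agent.S34 Fermat.Agent.S35 Fermat.Agent.ES.Model

variable {F : Type*} [Field F]

/-! ### [GA-VAL] `S36/AVal.lean` (helper4) -/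

theorem divS_OO {O : Fin 3 → Subring F} {ϖ : F} (hϖ : ϖ ≠ 0) {n : ℕ} {x : F} :
    DivS (OO O) ϖ n x ↔ ∀ i, DivS (O i) ϖ n x := sorry

theorem Is3.unif_ne_zero {O : Fin 3 → Subring F} {π : Fin 3 → F} {ϖ : F} {q : ℕ}
    (h : Is3 O π ϖ q) : ϖ ≠ 0 := sorry

/-- `ϖ O i ⊆ π i O i`. -/
theorem Is3.divS_of_unif {O : Fin 3 → Subring F} {π : Fin 3 → F} {ϖ : F} {q : ℕ}
    (h : Is3 O π ϖ q) (i : Fin 3) {x : F} (hx : DivS (O i) ϖ 1 x) : DivS (O i) (π i) 1 x := sorry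

theorem Is3.isSemi {O : Fin 3 → Subring F} {π : Fin 3 → F} {ϖ : F} {q : ℕ}
    (h : Is3 O π ϖ q) : IsSemi (OO O) ϖ := sorry

/-- `y ∈ 𝔪 i` for all `i` ⟹ `y ^ q ∈ ϖ O`. -/
theorem Is3.pow_divS {O : Fin 3 → Subring F} {π : Fin 3 → F} {ϖ : F} {q : ℕ}
    (h : Is3 O π ϖ q) {y : F} (hy : ∀ i, DivS (O i) (π i) 1 y) : DivS (OO O) ϖ 1 (y ^ q) := sorry

/-- `x ≡ 1` mod `𝔪 i` for all `i` ⟹ `x ^ q ≡ 1` mod `ϖ O`. -/
theorem Is3.pow_sub_one {O : Fin 3 → Subring F} {π : Fin 3 → F} {ϖ : F} {q : ℕ}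
    (h : Is3 O π ϖ q) (hq : q.Prime) {x : F} (hx : ∀ i, DivS (O i) (π i) 1 (x - 1)) :
    DivS (OO O) ϖ 1 (x ^ q - 1) := sorry

/-- weak approximation (from `sep`: `e i = ∏_{j ≠ i} θ j ^ N / (∏_{j ≠ i} θ j ^ N + θ i ^ N)`). -/
theorem Is3.crt {O : Fin 3 → Subring F} {π : Fin 3 → F} {ϖ : F} {q : ℕ}
    (h : Is3 O π ϖ q) (x : Fin 3 → F) (hx : ∀ i, x i ∈ O i) :
    ∃ y ∈ OO O, ∀ i, DivS (O i) (π i) 1 (y - x i) := sorry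

theorem Is3.crt_unit {O : Fin 3 → Subring F} {π : Fin 3 → F} {ϖ : F} {q : ℕ}
    (h : Is3 O π ϖ q) (x : Fin 3 → F) (hx : ∀ i, IsU (O i) (x i)) :
    ∃ y, (∀ i, IsU (O i) y) ∧ ∀ i, DivS (O i) (π i) 1 (y - x i) := sorry

/-! ### [GA-VN] `S36/AVert.lean` (helper26) : vertical normalisation -/

/-- `v` a unit of the three `O i`, (LP) at `n` ⟹ `f ^ m * v = b ∈ B ∖ n`.
[`v = b' G ^ m`; on the branches through `n` divide `b'` by `t i ^ a i`, `m ∣ a i`; kill the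
other branches and the denominators by `θ ^ J * s`; `B_n[1/ϖ] ∩ O = B_n` by `sat`.] -/
theorem exists_loc_unit {O : Fin 3 → Subring F} {π : Fin 3 → F} {ϖ : F} {q : ℕ}
    (h3 : Is3 O π ϖ q) {m : ℕ} (hm : 0 < m) {B : Subring F} (hB : IsChartS (OO O) ϖ m B)
    (n : Ideal B) (hn : n.IsMaximal) (hpt : Pt O π ϖ m B hB.unif_mem n)
    (v : F) (hv : ∀ i, IsU (O i) v) (hlp : LP ϖ m B hB.unif_mem n v) :
    ∃ (f : F) (b : B), f ≠ 0 ∧ b ∉ n ∧ f ^ m * v = (b : F) := sorry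

/-! ### [GA-GLUE] `S36/AGlue.lean` (helper16) : the local step -/

theorem glue_step {O : Fin 3 → Subring F} {π : Fin 3 → F} {ϖ : F} {q : ℕ}
    (h3 : Is3 O π ϖ q) {m : ℕ} (hm : 0 < m) {B : Subring F} (hB : IsChartS (OO O) ϖ m B)
    (n : Ideal B) (hn : n.IsMaximal) (hϖn : (⟨ϖ, hB.unif_mem⟩ : B) ∈ n)
    (w : F) (hw : DivS (OO O) ϖ 1 (w - 1)) (f : F) (b : B) (hb : b ∉ n) (hf : f ^ m * w = (b : F))
    (c : B) (hc : c ^ m - b ∈ n)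
    (hbr : ∀ i, Off (O i) (π i) n ∨ ∃ a : B, DivS (O i) (π i) 1 (f - (a : F)) ∧ a - c ∈ n) :
    ∃ f' ∈ MM m w B, ∃ b' : B, b' ∉ n ∧ DivS (OO O) ϖ 1 (f' - (b' : F)) := sorry

/-! ### [GA-FIX] `S36/AFix.lean` (helper16) : OUTPUT of the abstract block -/

theorem fix_abs {O : Fin 3 → Subring F} {π : Fin 3 → F} {ϖ : F} {q : ℕ} (hq : q.Prime)
    (h3 : Is3 O π ϖ q) (m : ℕ) (hm : 0 < m)
    (R B1 B2 B12 : Subring F) [IsNoetherianRing R] (hR1 : R ≤ B1) (hR2 : R ≤ B2) (hϖR : ϖ ∈ R)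
    (h1 : IsChartS (OO O) ϖ m B1) (h2 : IsChartS (OO O) ϖ m B2)
    (h12 : IsChartS (OO O) ϖ m B12) (h1le : B1 ≤ B12) (h2le : B2 ≤ B12)
    (t : F) (ht : t ≠ 0) (ht1 : t ∈ B1) (ht2 : t⁻¹ ∈ B2)
    (h12a : ∀ x ∈ B12, ∃ n : ℕ, t ^ n * x ∈ B1) (h12b : ∀ x ∈ B12, ∃ n : ℕ, t⁻¹ ^ n * x ∈ B2)
    (hfin : ∃ S : Finset F, ∀ x ∈ B1,
      x ∈ Submodule.span (Subring.closure ((R : Set F) ∪ {t})) (S : Set F))
    (hfrac : ∀ f : F, ∃ s ∈ B1, s ≠ 0 ∧ s * f ∈ B1)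
    (hpt1 : ∀ n : Ideal B1, n.IsMaximal → (⟨ϖ, h1.unif_mem⟩ : B1) ∈ n →
      Pt O π ϖ m B1 h1.unif_mem n)
    (hpt2 : ∀ n : Ideal B2, n.IsMaximal → (⟨ϖ, h2.unif_mem⟩ : B2) ∈ n →
      Pt O π ϖ m B2 h2.unif_mem n)
    (v : F) (hlp1 : LPall ϖ m B1 h1.unif_mem v) (hlp2 : LPall ϖ m B2 h2.unif_mem v)
    (h : Fin 3 → F) (hh : ∀ i, IsU (O i) (h i))
    (hvh : ∀ i, DivS (O i) (π i) 1 (v / h i ^ m - 1))
    (κ κ' : F) (hκ : κ ∈ R) (hκ' : κ' ∈ R) (hκm : κ ^ m = 1) (hκm' : κ' ^ m = 1)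
    (hrel1 : Rel O π m q B1 v h κ κ') (hrel2 : Rel O π m q B2 v h κ κ') :
    ∃ z : F, z ≠ 0 ∧ z ^ m * v ^ ((q ^ 2 - 1) * q) ∈ B1 ∧ z ^ m * v ^ ((q ^ 2 - 1) * q) ∈ B2 := sorry

end Fermat.Agent.S36.APlan
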