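import Fermat.Agent.S36.ARel

/-!
# S36, geometry, abstract block : THE PLAN, final shape of the output (typechecked stubs).
Never import this file from a finished file.
-/

set_option autoImplicit false
set_option linter.unusedVariables false

namespace Fermat.Agent.S36.APlan2

open Fermat.Agent.S34 Fermat.Agent.S35 Fermat.Agent.ES.Model

variable {F : Type*} [Field F]

/-- [GA-FIX0] `S36/AFix0.lean` : local data everywhere ⟹ global. -/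
theorem fix_abs0 {O : Fin 3 → Subring F} {π : Fin 3 → F} {ϖ : F} {q : ℕ}
    (h3 : Is3 O π ϖ q) (m : ℕ) (hm : 0 < m)
    (R B1 B2 B12 : Subring F) [IsNoetherianRing R] (hR1 : R ≤ B1) (hR2 : R ≤ B2) (hϖR : ϖ ∈ R)
    (h1 : IsChartS (OO O) ϖ m B1) (h2 : IsChartS (OO O) ϖ m B2)
    (h12 : IsChartS (OO O) ϖ m B12) (h1le : B1 ≤ B12) (h2le : B2 ≤ B12)
    (t : F) (ht : t ≠ 0) (ht1 : t ∈ B1) (ht2 : t⁻¹ ∈ B2)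
    (h12a : ∀ x ∈ B12, ∃ n : ℕ, t ^ n * x ∈ B1) (h12b : ∀ x ∈ B12, ∃ n : ℕ, t⁻¹ ^ n * x ∈ B2)
    (hfin : ∃ S : Finset F, ∀ x ∈ B1,
      x ∈ Submodule.span (Subring.closure ((R : Set F) ∪ {t})) (S : Set F))
    (hfrac : ∀ f : F, ∃ s ∈ B1, s ≠ 0 ∧ s * f ∈ B1)
    (w : F) (hw : DivS (OO O) ϖ 1 (w - 1))
    (hl1 : ∀ n : Ideal B1, n.IsMaximal → (⟨ϖ, h1.unif_mem⟩ : B1) ∈ n → Loc3 O π m B1 n w)
    (hl2 : ∀ n : Ideal B2, n.IsMaximal → (⟨ϖ, h2.unif_mem⟩ : B2) ∈ n → Loc3 O π m B2 n w) :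
    ∃ z : F, z ≠ 0 ∧ z ^ m * w ∈ B1 ∧ z ^ m * w ∈ B2 := sorry

/-- [GA-FIX] `S36/AFix.lean` : OUTPUT of the abstract block. -/
theorem fix_abs {O : Fin 3 → Subring F} {π : Fin 3 → F} {ϖ : F} {q : ℕ} (hq : q.Prime)
    (h3 : Is3 O π ϖ q) (m : ℕ) (hm : 0 < m)
    (R B1 B2 B12 : Subring F) [IsNoetherianRing R] (hR1 : R ≤ B1) (hR2 : R ≤ B2) (hϖR : ϖ ∈ R)
    (h1 : IsChartS (OO O) ϖ m B1) (h2 : IsChartS (OO O) ϖ m B2)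
    (h12 : IsChartS (OO O) ϖ m B12) (h1le : B1 ≤ B12) (h2le : B2 ≤ B12)
    (t : F) (ht : t ≠ 0) (ht1 : t ∈ B1) (ht2 : t⁻¹ ∈ B2)
    (h12a : ∀ x ∈ B12, ∃ n : ℕ, t ^ n * x ∈ B1) (h12b : ∀ x ∈ B12, ∃ n : ℕ, t⁻¹ ^ n * x ∈ B2)
    (hfin : ∃ S : Finset F, ∀ x ∈ B1,
      x ∈ Submodule.span (Subring.closure ((R : Set F) ∪ {t})) (S : Set F))
    (hfrac : ∀ f : F, ∃ s ∈ B1, s ≠ 0 ∧ s * f ∈ B1)
    (hpt1 : ∀ n : Ideal B1, n.IsMaximal → (⟨ϖ, h1.unif_mem⟩ : B1) ∈ n →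
      Pt O π ϖ m B1 h1.unif_mem n)
    (hpt2 : ∀ n : Ideal B2, n.IsMaximal → (⟨ϖ, h2.unif_mem⟩ : B2) ∈ n →
      Pt O π ϖ m B2 h2.unif_mem n)
    (v : F) (hlp1 : LPall ϖ m B1 h1.unif_mem v) (hlp2 : LPall ϖ m B2 h2.unif_mem v)
    (hv : ∀ i, DivS (O i) (π i) 1 (v - 1))
    (l1 l2 m1 m2 : F) (hl1 : l1 ∈ R) (hl2 : l2 ∈ R) (hm1 : m1 ∈ R) (hm2 : m2 ∈ R)
    (hl1m : l1 ^ m = 1) (hl2m : l2 ^ m = 1) (hm1m : m1 ^ m = 1) (hm2m : m2 ^ m = 1)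
    (hrel1 : Rel3 O π m q B1 v l1 l2 m1 m2) (hrel2 : Rel3 O π m q B2 v l1 l2 m1 m2) :
    ∃ z : F, z ≠ 0 ∧ z ^ m * v ^ ((q ^ 2 - 1) * q) ∈ B1 ∧ z ^ m * v ^ ((q ^ 2 - 1) * q) ∈ B2 := sorry

end Fermat.Agent.S36.APlan2
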