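import Fermat.Agent.S36.ADefs

/-!
# S36, abstract block : the relation between the branch values (final shape)
-/

set_option autoImplicit false

namespace Fermat.Agent.S36

open Fermat.Agent.S34 Fermat.Agent.S35

variable {F : Type*} [Field F]

/-- **The relations between the branch values given by the two norms**, at the maximal ideals `n`
containing the three components: if `f ^ m * v = b ∈ B ∖ n` and `f ≡ a i ∈ B` on the branch `i`,
then `l1 * a 0 * a 1 ^ (q - 1) ≡ l2 * a 2 ^ q` and `m2 * a 2 * a 1 ^ (q - 1) ≡ m1 * a 0 ^ q`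
mod `n`  (`= glue_rel_core` with `s = 1`). -/
def Rel3 (O : Fin 3 → Subring F) (π : Fin 3 → F) (m q : ℕ) (B : Subring F) (v : F)
    (l1 l2 m1 m2 : F) : Prop :=
  ∀ n : Ideal B, n.IsMaximal → (∀ i, ∀ b : B, DivS (O i) (π i) 1 (b : F) → b ∈ n) →
    ∀ (f : F) (b : B), b ∉ n → f ^ m * v = (b : F) →
    ∀ a : Fin 3 → B, (∀ i, DivS (O i) (π i) 1 (f - (a i : F))) →
    ∀ L1 L2 M1 M2 : B, (L1 : F) = l1 → (L2 : F) = l2 → (M1 : F) = m1 → (M2 : F) = m2 →
      L1 * a 0 * a 1 ^ (q - 1) - L2 * a 2 ^ q ∈ n ∧ M2 * a 2 * a 1 ^ (q - 1) - M1 * a 0 ^ q ∈ n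

/-- the local datum at `n` for `w` : a local root `f` with equal branch values. -/
def Loc3 (O : Fin 3 → Subring F) (π : Fin 3 → F) (m : ℕ) (B : Subring F) (n : Ideal B) (w : F) :
    Prop :=
  ∃ (f : F) (b c : B), b ∉ n ∧ f ^ m * w = (b : F) ∧ c ^ m - b ∈ n ∧
    ∀ i, Off (O i) (π i) n ∨ ∃ a : B, DivS (O i) (π i) 1 (f - (a : F)) ∧ a - c ∈ n

end Fermat.Agent.S36
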