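import Fermat.Agent.S36.WDefs
import Fermat.Agent.S35.Asm

/-!
# S36, block W : `Good2` from the finite level statement `FixH` (package W5)
-/

set_option autoImplicit false
set_option linter.overlappingInstances false

noncomputable section

namespace Fermat.Agent.S36

open Fermat.Agent.ES Fermat.Agent.S24 Fermat.Agent.S16 Fermat.Agent.S31 Fermat.Agent.S30
  Fermat.Agent.S30.FinLvl Fermat.Agent.S35 CuspForm CongruenceSubgroup ModularCurve AlgebraicCurve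
  Polynomial

/-- the statement of package W3a: the inertia invariants in the image of `θ = τ(t0)`,
`(t0, 0) ∈ PP (M0 q) q`, are killed by a fixed integer. -/
def FixH (p M0 q : ℕ) [Fact p.Prime] [NeZero (M0 * q)] [NeZero (M0 * q * q)] : Prop :=
  ∀ (t0 : TN (M0 * q) q) (_ : (t0, 0) ∈ PP (M0 * q) q),
    ∃ A : ValuationSubring Kb, A.LiesOverPrime q ∧ ∃ c0 : ℕ, 0 < c0 ∧
      ∀ (r : ℕ) (x : Fin (dN (M0 * q * q)) → ZMod (p ^ r)),
        haveI : NeZero (p ^ r) := ⟨pow_ne_zero _ (Fact.out : p.Prime).ne_zero⟩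
        (∀ σ ∈ A.inertiaSubgroupIn ℚ,
          (alpha (bN (M0 * q * q)) (p ^ r) σ).mulVec
              ((toO (ZMod (p ^ r)) (tau (bN (M0 * q * q)) (S0 (M0 * q * q)) t0)).mulVec x)
            = (toO (ZMod (p ^ r)) (tau (bN (M0 * q * q)) (S0 (M0 * q * q)) t0)).mulVec x) →
        c0 • (toO (ZMod (p ^ r)) (tau (bN (M0 * q * q)) (S0 (M0 * q * q)) t0)).mulVec x = 0

theorem good2_of (p : ℕ) [Fact p.Prime] (M0 q : ℕ) [NeZero (M0 * q)] [NeZero (M0 * q * q)]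
    (S : Finset ℕ) (hH : FixH p M0 q)
    (hNS : ∀ r : ℕ, r.Prime → r ∣ M0 * q * q → r ∈ S)
    (hINJ : ∀ (r ℓ : ℕ), ℓ.Prime → ¬ ℓ ∣ M0 * q * q → ℓ ≠ p → ∀ A : ValuationSubring Kb,
      A.LiesOverPrime ℓ → INJ (p ^ r) (M0 * q * q) A)
    (hq : q.Prime)
    {g : CuspForm (Gamma0 (M0 * q * q)) 2} (hg : g.IsNewform)
    (𝒪' : Type) [CommRing 𝒪'] [IsDomain 𝒪'] [CharZero 𝒪']
    (chig : heckeAlgebra (M0 * q * q) 2 (↑S : Set ℕ) →+* ℂ)
    (hchig : ∀ (ℓ : ℕ) (hℓ : ℓ.Prime) (hℓM : ¬ ℓ ∣ M0 * q * q) (hℓS : ℓ ∉ (↑S : Set ℕ)),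
      chig (heckeAlgebra.T hℓ hℓM hℓS) = ModularFormClass.qCoeff g ℓ)
    (iota : chig.range →+* 𝒪') :
    Good2 (finD p (M0 * q * q) (↑S : Set ℕ) hNS hINJ) 𝒪' (iota.comp chig.rangeRestrict) q := by
  obtain ⟨c, hcg, hc⟩ := exists_chi0 hg.1 (S0 (M0 * q * q)) (fun r hr hrN => ⟨hr, hrN⟩)
  obtain ⟨t0, ht0, hct0⟩ := exists_theta (M0 * q) q hq hg c (fun ℓ hℓ hℓN => hc ℓ hℓ hℓN _)
  obtain ⟨v, hv0, hv⟩ := Eig.exists_eigen_field (tau (bN (M0 * q * q)) (S0 (M0 * q * q)))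
    (tau_injective _ _) c
  -- `chig = c ∘ incl`
  obtain ⟨c', hc'g, hc'⟩ := exists_chi0 hg.1 (↑S : Set ℕ) hNS
  have hg0 : g ≠ 0 := hg.ne_zero
  have e1 : ∀ t, c (incl hNS t) = c' t := fun t => by
    have h1 := hcg (incl hNS t)
    have h2 := hc'g t
    have h3 : (incl hNS t).1 g = t.1 g := rfl
    rw [h3, h2] at h1
    exact (smul_left_injective ℂ hg0 h1).symm
  have e2 : c' = chig := hecke_ringHom_ext hNS c' chig
    (fun ℓ hℓ hℓN hℓS => by rw [hc', hchig])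
  have k1 : ∀ t, tau (bN (M0 * q * q)) (S0 (M0 * q * q)) t0 * tau (bN (M0 * q * q)) (↑S : Set ℕ) t
      = tau (bN (M0 * q * q)) (↑S : Set ℕ) t * tau (bN (M0 * q * q)) (S0 (M0 * q * q)) t0 :=
    fun t => by
      rw [← tau_incl hNS t]
      exact (map_mul _ _ _).symm.trans ((congrArg _ (mul_comm _ _)).trans (map_mul _ _ _))
  have k2 := transfer (tau (bN (M0 * q * q)) (↑S : Set ℕ)) (tau_injective _ _)
      (tau (bN (M0 * q * q)) (S0 (M0 * q * q)) t0) chig v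
      (fun t => by rw [← tau_incl hNS t, hv, e1, e2])
      (by rw [hv]; exact smul_ne_zero hct0 hv0) iota
  obtain ⟨A, hA, c0, hc0, hfix⟩ := hH t0 ht0
  refine ⟨tau (bN (M0 * q * q)) (S0 (M0 * q * q)) t0, k1, fun r g => ?_, k2, A, hA, c0, hc0,
    fun r x hx => hfix r x hx⟩
  have : NeZero (p ^ r) := ⟨pow_ne_zero _ (Fact.out : p.Prime).ne_zero⟩
  exact (alpha_comm (bN (M0 * q * q)) (p ^ r) (S0 (M0 * q * q)) (fun r hr hrN => ⟨hr, hrN⟩) g t0).symm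

end Fermat.Agent.S36
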