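import Fermat.Agent.ES.HauptRam

/-!
# S36 : no elliptic points

If `Γ₀(N)` contains no conjugate of `U = S T` (resp. `S`), all the places of `FF N` over `j = 0`
(resp. `j = 1728`) have ramification index `3` (resp. `2`).  This holds if `N` is divisible by a
prime `r ≡ 11 mod 12` (we only use `r = 11` and `r = 23`).
-/

set_option autoImplicit false

namespace Fermat.Agent.S36

open Polynomial AlgebraicCurve IntermediateField Fermat.Agent.S24 CongruenceSubgroup
open Fermat.Agent.S21 (Umat)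
open scoped MatrixGroups

noncomputable section

namespace NoEll

/-- if all orbits have at least `k` elements, `k * #orbits ≤ #X`. -/
theorem mul_card_orbits_le {X : Type*} [Finite X] (σ : Equiv.Perm X) (k : ℕ)
    (h : ∀ x : X, k ≤ Nat.card (MulAction.orbit (Subgroup.zpowers σ) x)) :
    k * Nat.card (MulAction.orbitRel.Quotient (Subgroup.zpowers σ) X) ≤ Nat.card X := by
  classical
  have : Fintype X := Fintype.ofFinite X
  have : Fintype (MulAction.orbitRel.Quotient (Subgroup.zpowers σ) X) := Fintype.ofFinite _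
  rw [Nat.card_congr (MulAction.selfEquivSigmaOrbits (Subgroup.zpowers σ) X), Nat.card_sigma,
    Nat.card_eq_fintype_card, mul_comm, ← smul_eq_mul, ← Finset.card_univ,
    ← Finset.sum_const]
  exact Finset.sum_le_sum fun ω _ => h _

theorem two_le_card_orbit {X : Type*} [Finite X] (σ : Equiv.Perm X) (h1 : ∀ x, σ x ≠ x) (x : X) :
    2 ≤ Nat.card (MulAction.orbit (Subgroup.zpowers σ) x) := by
  classical
  have hsub : (({x, σ x} : Finset X) : Set X) ⊆ MulAction.orbit (Subgroup.zpowers σ) x := by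
    intro y hy
    simp only [Finset.coe_insert, Finset.coe_singleton, Set.mem_insert_iff,
      Set.mem_singleton_iff] at hy
    rcases hy with rfl | rfl
    · exact MulAction.mem_orbit_self _
    · exact ⟨⟨σ, Subgroup.mem_zpowers σ⟩, rfl⟩
  have hc : ({x, σ x} : Finset X).card = 2 := Finset.card_pair (h1 x).symm
  have := Set.ncard_le_ncard hsub (Set.toFinite _)
  rw [Set.ncard_coe_finset, hc] at this
  exact this

theorem three_le_card_orbit {X : Type*} [Finite X] (σ : Equiv.Perm X) (h1 : ∀ x, σ x ≠ x)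
    (h2 : ∀ x, σ (σ x) ≠ x) (x : X) :
    3 ≤ Nat.card (MulAction.orbit (Subgroup.zpowers σ) x) := by
  classical
  have hsub : (({x, σ x, σ (σ x)} : Finset X) : Set X)
      ⊆ MulAction.orbit (Subgroup.zpowers σ) x := by
    intro y hy
    simp only [Finset.coe_insert, Finset.coe_singleton, Set.mem_insert_iff,
      Set.mem_singleton_iff] at hy
    rcases hy with rfl | rfl | rfl
    · exact MulAction.mem_orbit_self _
    · exact ⟨⟨σ, Subgroup.mem_zpowers σ⟩, rfl⟩
    · exact ⟨⟨σ * σ, Subgroup.mul_mem _ (Subgroup.mem_zpowers σ) (Subgroup.mem_zpowers σ)⟩, rfl⟩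
  have hc : ({x, σ x, σ (σ x)} : Finset X).card = 3 := by
    rw [Finset.card_eq_three]
    exact ⟨x, σ x, σ (σ x), (h1 x).symm, (h2 x).symm, (h1 (σ x)).symm, rfl⟩
  have := Set.ncard_le_ncard hsub (Set.toFinite _)
  rw [Set.ncard_coe_finset, hc] at this
  exact this

/-- the counting argument. -/
theorem ord_eq_of_card {P : Type*} (s : Finset P) (o : P → ℤ) (e : ℕ) (μ : ℕ)
    (hle : ∀ v ∈ s, o v ≤ e) (hsum : ∑ v ∈ s, o v = μ) (hcard : e * s.card ≤ μ) :
    ∀ v ∈ s, o v = e := by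
  by_contra hcon
  push Not at hcon
  obtain ⟨v, hv, hne⟩ := hcon
  have hlt : ∑ v ∈ s, o v < ∑ _v ∈ s, (e : ℤ) :=
    Finset.sum_lt_sum hle ⟨v, hv, lt_of_le_of_ne (hle v hv) hne⟩
  rw [hsum, Finset.sum_const, nsmul_eq_mul] at hlt
  have : ((e * s.card : ℕ) : ℤ) ≤ (μ : ℤ) := by exact_mod_cast hcard
  push_cast at this
  nlinarith

variable (N : ℕ) [NeZero N]

/-- general form: the fibre over `a`. -/
theorem ord_eq_of_orbits (a : Kb) (e : ℕ) (σ : Equiv.Perm (SL(2, ℤ) ⧸ Gamma0 N))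
    (hdvd : ∀ v : Place Kb (FF N), 0 < v.ord (jF N - algebraMap Kb (FF N) a) →
      v.ord (jF N - algebraMap Kb (FF N) a) ∣ (e : ℤ)) (he : 0 < e)
    (hcard : Nat.card {v : Place Kb (FF N) // 0 < v.ord (jF N - algebraMap Kb (FF N) a)}
      = Nat.card (MulAction.orbitRel.Quotient (Subgroup.zpowers σ) (SL(2, ℤ) ⧸ Gamma0 N)))
    (horb : ∀ x : SL(2, ℤ) ⧸ Gamma0 N, e ≤ Nat.card (MulAction.orbit (Subgroup.zpowers σ) x))
    (v : Place Kb (FF N)) (hv : 0 < v.ord (jF N - algebraMap Kb (FF N) a)) :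
    v.ord (jF N - algebraMap Kb (FF N) a) = e := by
  classical
  obtain ⟨s, hs, hsum⟩ := exists_zeros_sub (jF N) (transcendental_jF N) a
  rw [finrank_FF N] at hsum
  have h1 := mul_card_orbits_le σ e horb
  rw [← hcard] at h1
  have h2 : Nat.card {v : Place Kb (FF N) // 0 < v.ord (jF N - algebraMap Kb (FF N) a)}
      = s.card := by
    rw [← Nat.card_eq_finsetCard s]
    exact Nat.card_congr (Equiv.subtypeEquivRight fun v => (hs v).symm)
  rw [h2, ← Subgroup.index] at h1
  exact ord_eq_of_card s _ e _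
    (fun w hw => Int.le_of_dvd (by exact_mod_cast he) (hdvd w ((hs w).1 hw))) hsum h1 v ((hs v).2 hv)

omit [NeZero N] in
/-- an element of `SL₂(ℤ)` of trace `t` has no fixed coset if `a² - t a + 1` has no root mod `r`. -/
theorem smul_ne (r : ℕ) (hr : r ∣ N) (σ : SL(2, ℤ)) (t : ℤ) (ht : σ 0 0 + σ 1 1 = t)
    (h : ∀ a : ZMod r, a ^ 2 - (t : ZMod r) * a + 1 ≠ 0) (x : SL(2, ℤ) ⧸ Gamma0 N) :
    σ • x ≠ x := by
  induction x using QuotientGroup.induction_on with
  | H g =>
    intro hfix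
    rw [MulAction.Quotient.smul_coe, smul_eq_mul, eq_comm, QuotientGroup.eq] at hfix
    set γ : SL(2, ℤ) := g⁻¹ * (σ * g) with hγ
    have hc : ((γ 1 0 : ℤ) : ZMod N) = 0 := Gamma0_mem.1 hfix
    have hcr : ((γ 1 0 : ℤ) : ZMod r) = 0 := by
      rw [ZMod.intCast_zmod_eq_zero_iff_dvd] at hc ⊢
      exact (Int.natCast_dvd_natCast.2 hr).trans hc
    have htr : γ 0 0 + γ 1 1 = t := by
      have h1 : Matrix.trace (γ : Matrix (Fin 2) (Fin 2) ℤ)
          = Matrix.trace (σ : Matrix (Fin 2) (Fin 2) ℤ) := by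
        rw [hγ, Matrix.SpecialLinearGroup.coe_mul, Matrix.SpecialLinearGroup.coe_mul,
          Matrix.trace_mul_comm, Matrix.mul_assoc, ← Matrix.SpecialLinearGroup.coe_mul,
          mul_inv_cancel, Matrix.SpecialLinearGroup.coe_one, Matrix.mul_one]
      rw [Matrix.trace_fin_two, Matrix.trace_fin_two] at h1
      rw [← ht]
      exact h1
    have hdet : γ 0 0 * γ 1 1 - γ 0 1 * γ 1 0 = 1 := by
      have := γ.det_coe
      rwa [Matrix.det_fin_two] at this
    apply h ((γ 0 0 : ℤ) : ZMod r)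
    have e1 := congrArg (Int.cast : ℤ → ZMod r) hdet
    have e2 := congrArg (Int.cast : ℤ → ZMod r) htr
    push_cast at e1 e2
    rw [hcr] at e1
    rw [← e2]
    linear_combination -e1

theorem Umat_trace : Umat 0 0 + Umat 1 1 = 1 := by
  rw [Umat_coe]
  simp

theorem Umat_sq_trace : (Umat * Umat) 0 0 + (Umat * Umat) 1 1 = -1 := by
  rw [Matrix.SpecialLinearGroup.coe_mul, Umat_coe]
  simp [Matrix.mul_apply, Fin.sum_univ_two]

theorem S_trace : (ModularGroup.S : SL(2, ℤ)) 0 0 + (ModularGroup.S : SL(2, ℤ)) 1 1 = 0 := by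
  simp [ModularGroup.S]

/-- **no elliptic points of order 3.** -/
theorem ord_jF_eq_three (r : ℕ) (hr : r ∣ N)
    (h1 : ∀ a : ZMod r, a ^ 2 - a + 1 ≠ 0) (h2 : ∀ a : ZMod r, a ^ 2 + a + 1 ≠ 0)
    (v : Place Kb (FF N)) (hv : 0 < v.ord (jF N - algebraMap Kb (FF N) 0)) :
    v.ord (jF N - algebraMap Kb (FF N) 0) = 3 := by
  refine ord_eq_of_orbits N 0 3 (MulAction.toPerm Umat)
    (fun w hw => Fermat.Agent.ES.Haupt.ord_j_dvd_three N w hw) (by norm_num)
    (Loc.card_places_zero N (finrank_FF N)) (fun x => three_le_card_orbit _ ?_ ?_ x) v hv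
  · intro y
    rw [MulAction.toPerm_apply]
    exact smul_ne N r hr Umat 1 Umat_trace (fun a => by simpa using h1 a) y
  · intro y
    rw [MulAction.toPerm_apply, MulAction.toPerm_apply, ← mul_smul]
    exact smul_ne N r hr (Umat * Umat) (-1) Umat_sq_trace
      (fun a => by simpa [sub_neg_eq_add] using h2 a) y

/-- **no elliptic points of order 2.** -/
theorem ord_jF_sub_eq_two (r : ℕ) (hr : r ∣ N) (h : ∀ a : ZMod r, a ^ 2 + 1 ≠ 0)
    (v : Place Kb (FF N)) (hv : 0 < v.ord (jF N - algebraMap Kb (FF N) 1728)) :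
    v.ord (jF N - algebraMap Kb (FF N) 1728) = 2 := by
  refine ord_eq_of_orbits N 1728 2 (MulAction.toPerm ModularGroup.S)
    (fun w hw => Fermat.Agent.ES.Haupt.ord_j_dvd_two N w hw) (by norm_num)
    (Loc.card_places_1728 N (finrank_FF N)) (fun x => two_le_card_orbit _ ?_ x) v hv
  intro y
  rw [MulAction.toPerm_apply]
  exact smul_ne N r hr ModularGroup.S 0 S_trace (fun a => by simpa using h a) y

end NoEll

/-- `N` has no elliptic points. -/
def NoElliptic (N : ℕ) : Prop :=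
  (∀ v : Place Kb (FF N), 0 < v.ord (jF N - algebraMap Kb (FF N) 0) →
    v.ord (jF N - algebraMap Kb (FF N) 0) = 3) ∧
  (∀ v : Place Kb (FF N), 0 < v.ord (jF N - algebraMap Kb (FF N) 1728) →
    v.ord (jF N - algebraMap Kb (FF N) 1728) = 2)

theorem noElliptic_of_eleven_dvd (N : ℕ) [NeZero N] (h : 11 ∣ N) : NoElliptic N :=
  ⟨NoEll.ord_jF_eq_three N 11 h (by decide) (by decide),
    NoEll.ord_jF_sub_eq_two N 11 h (by decide)⟩

theorem noElliptic_of_twentyThree_dvd (N : ℕ) [NeZero N] (h : 23 ∣ N) : NoElliptic N :=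
  ⟨NoEll.ord_jF_eq_three N 23 h (by decide) (by decide),
    NoEll.ord_jF_sub_eq_two N 23 h (by decide)⟩

end

end Fermat.Agent.S36
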