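import Fermat.Agent.S36.AuxLvl
import Fermat.Agent.S36.NoEll
import Fermat.Agent.S35.NewLvl

/-!
# S36 : `ClaimA` from the case of a level with a good coordinate and without elliptic points

The auxiliary level is `s = r t`, `r ∈ {2, 3}`, `t ∈ {11, 23}`, both different from `q`.
-/

set_option autoImplicit false
set_option linter.style.haveILetI false

noncomputable section

namespace Fermat.Agent.S36

open ModularCurve AlgebraicCurve Fermat.Agent.S24 Fermat.Agent.ES Fermat.Agent.S34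
open Fermat.Agent.ES.Inst Fermat.Agent.ES.Inst.InstFinal Fermat.Agent.ES.Inst.InstCoord
  Fermat.Agent.ES.T23

/-- the auxiliary primes. -/
theorem AuxCoord.exists_aux (q : ℕ) :
    ∃ r t : ℕ, r.Prime ∧ t.Prime ∧ (r = 2 ∨ r = 3) ∧ (t = 11 ∨ t = 23) ∧ r ≠ q ∧ t ≠ q := by
  by_cases h2 : q = 2
  · subst h2
    exact ⟨3, 11, by norm_num, by norm_num, Or.inr rfl, Or.inl rfl, by norm_num, by norm_num⟩
  by_cases h11 : q = 11
  · subst h11
    exact ⟨2, 23, by norm_num, by norm_num, Or.inl rfl, Or.inr rfl, by norm_num, by norm_num⟩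
  exact ⟨2, 11, by norm_num, by norm_num, Or.inl rfl, Or.inl rfl, Ne.symm h2, Ne.symm h11⟩

/-- **`ClaimA` from the case of a good level.** -/
theorem claimA_of_coord (p q : ℕ) [Fact q.Prime] (A : ValuationSubring Kb)
    (hcoord : ∀ (M1 : ℕ) [NeZero M1], ¬ q ∣ M1 → ∀ Z : ZCoord M1 q, Z.Unram → WGood M1 q Z.xF →
      NoElliptic M1 → NoElliptic (M1 * q) → NoElliptic (M1 * q * q) → ClaimA p M1 q A)
    (M0 : ℕ) [NeZero M0] (hqM : ¬ q ∣ M0) : ClaimA p M0 q A := by
  have hq : q.Prime := Fact.out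
  obtain ⟨r, t, hr, ht, hr23, ht11, hrq, htq⟩ := AuxCoord.exists_aux q
  haveI : NeZero (r * t) := ⟨mul_ne_zero hr.ne_zero ht.ne_zero⟩
  have hs : ¬ q ∣ r * t := fun hd => by
    rcases (Nat.Prime.dvd_mul hq).1 hd with h1 | h1
    · exact hrq ((Nat.prime_dvd_prime_iff_eq hq hr).1 h1).symm
    · exact htq ((Nat.prime_dvd_prime_iff_eq hq ht).1 h1).symm
  have hqM1 : ¬ q ∣ M0 * (r * t) := fun hd =>
    ((Nat.Prime.dvd_mul hq).1 hd).elim hqM hs
  have hrM1 : r ∣ M0 * (r * t) := Dvd.dvd.mul_left (Dvd.intro _ rfl) _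
  have htM1 : t ∣ M0 * (r * t) := Dvd.dvd.mul_left (Dvd.intro_left _ rfl) _
  have hne : ∀ (N : ℕ) [NeZero N], t ∣ N → NoElliptic N := by
    intro N _ hN
    rcases ht11 with rfl | rfl
    · exact noElliptic_of_eleven_dvd N hN
    · exact noElliptic_of_twentyThree_dvd N hN
  refine claimA_of_mul p M0 q (r * t) hqM hs A ?_
  have h1 := hne (M0 * (r * t)) htM1
  have h2 := hne (M0 * (r * t) * q) (Dvd.dvd.mul_right htM1 _)
  have h3 := hne (M0 * (r * t) * q * q) (Dvd.dvd.mul_right (Dvd.dvd.mul_right htM1 _) _)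
  rcases hr23 with rfl | rfl
  · exact hcoord (M0 * (2 * t)) hqM1 (zCoord2L _ q hq (Ne.symm hrq) (tR_two_mem _ hrM1))
      (zCoord2L_unram _ q hrM1 hq (Ne.symm hrq))
      (wGood_t2F _ q hrM1 ((Nat.coprime_primes Nat.prime_two hq).2 hrq)) h1 h2 h3
  · exact hcoord (M0 * (3 * t)) hqM1 (zCoord3L _ q hq (Ne.symm hrq) (tR_three_mem _ hrM1))
      (zCoord3L_unram _ q hrM1 hq (Ne.symm hrq))
      (wGood_t3F _ q hrM1 ((Nat.coprime_primes Nat.prime_three hq).2 hrq)) h1 h2 h3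

end Fermat.Agent.S36
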