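import Fermat.Agent.S36.W2
import Fermat.Agent.S34.OrthL
import Fermat.Agent.S34.SpanDesc
import Fermat.Agent.S34.NSpan

/-!
# S36 : `FF (M₀ q q) = ⊕_{i < q} α'(FF (M₀ q)) z^i`, `z = w(T^{q²})`

`w ∈ FF M₀` any function with a simple pole at `∞` (`j`, or a coordinate `Z.xF`).
-/

set_option autoImplicit false
set_option linter.unusedSectionVars false

noncomputable section

namespace Fermat.Agent.S36

open ModularCurve AlgebraicCurve Polynomial
open Fermat.Agent.S24 Fermat.Agent.S28 Fermat.Agent.ES Fermat.Agent.ES.QE Fermat.Agent.ES.Inst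
open Fermat.Agent.S34 Fermat.Agent.S34.WK

/-- `[FF (N ℓ) : FF N] = ℓ` if `ℓ ∣ N`. -/
theorem finrank_heckeAlpha_of_dvd (N ℓ : ℕ) [NeZero N] [Fact ℓ.Prime] (hℓN : ℓ ∣ N) :
    finrankAlong Kb (heckeAlphaBar Kb N ℓ) = ℓ := by
  have hℓ : ℓ.Prime := Fact.out
  have h1 := KDeg.finrank_tower (heckeAlphaBar Kb N ℓ) (jF N)
  rw [KDeg.heckeAlpha_jF, finrank_FF, finrank_FF,
    Fermat.Agent.S20.PartC1.index_Gamma0_mul N ℓ hℓ, if_pos hℓN, mul_comm] at h1
  exact Nat.eq_of_mul_eq_mul_right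
    (Nat.pos_of_ne_zero (Subgroup.FiniteIndex.index_ne_zero (H := CongruenceSubgroup.Gamma0 N))) h1

variable (M0 q : ℕ) [NeZero M0] [Fact q.Prime]

/-- `z = w(T^{q²})`. -/
def zz (w : FF M0) : FF (M0 * q * q) :=
  heckeBetaBar Kb (M0 * q) q (heckeBetaBar Kb M0 q w)

theorem coe_zz (w : FF M0) :
    ((zz M0 q w : FF (M0 * q * q)) : LaurentSeries Kb)
      = qExpand Kb q (qExpand Kb q (w : LaurentSeries Kb)) := by
  rw [zz, coe_heckeBetaBar, coe_heckeBetaBar]

theorem Wb2_zz (h : ¬ q ∣ M0) (w : FF M0) :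
    Wb2 M0 q h (zz M0 q w) = heckeAlphaBar Kb (M0 * q) q (heckeAlphaBar Kb M0 q w) := by
  rw [zz, Wb2_beta, Wb_beta]

theorem indep2 (h : ¬ q ∣ M0) (w : FF M0) (hw : (w : LaurentSeries Kb).order = -1)
    (a : Fin q → FF (M0 * q))
    (h0 : ∑ i, heckeAlphaBar Kb (M0 * q) q (a i) * zz M0 q w ^ (i : ℕ) = 0) : ∀ i, a i = 0 := by
  have h1 := congrArg (Wb2 M0 q h) h0
  rw [map_sum, map_zero] at h1
  have h2 := congrArg Subtype.val h1
  rw [IntermediateField.coe_sum, IntermediateField.coe_zero] at h2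
  let b : ℕ → LaurentSeries Kb := fun i =>
    if hi : i < q then ((Wb M0 q h (a ⟨i, hi⟩) : FF (M0 * q)) : LaurentSeries Kb) else 0
  have h3 : ∑ i ∈ Finset.range q, qExpand Kb q (b i) * (w : LaurentSeries Kb) ^ i = 0 := by
    rw [← h2, Finset.sum_range]
    refine Finset.sum_congr rfl fun i _ => ?_
    rw [map_mul, map_pow, Wb2_alpha, Wb2_zz, IntermediateField.coe_mul, IntermediateField.coe_pow,
      coe_heckeBetaBar, coe_heckeAlphaBar, coe_heckeAlphaBar]
    simp only [b, dif_pos i.2]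
  have h4 := OrthL.indep q (w : LaurentSeries Kb) hw b h3
  intro i
  have h5 := h4 i i.2
  simp only [b, dif_pos i.2] at h5
  have h6 : Wb M0 q h (a i) = 0 := Subtype.ext h5
  exact (map_eq_zero _).1 h6

theorem span2_Kb (h : ¬ q ∣ M0) (w : FF M0) (hw : (w : LaurentSeries Kb).order = -1)
    (f : FF (M0 * q * q)) :
    ∃ a : Fin q → FF (M0 * q),
      f = ∑ i, heckeAlphaBar Kb (M0 * q) q (a i) * zz M0 q w ^ (i : ℕ) := by
  let _ := algebraAlong (heckeAlphaBar Kb (M0 * q) q)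
  have hfin : Module.finrank (FF (M0 * q)) (FF (M0 * q * q)) = q :=
    finrank_heckeAlpha_of_dvd (M0 * q) q (Dvd.intro_left M0 rfl)
  have : FiniteDimensional (FF (M0 * q)) (FF (M0 * q * q)) := heckeAlpha_finite (M0 * q) q
  have hli : LinearIndependent (FF (M0 * q)) (fun i : Fin q => zz M0 q w ^ (i : ℕ)) := by
    rw [Fintype.linearIndependent_iff]
    intro g hg
    exact indep2 M0 q h w hw g hg
  have hspan := hli.span_eq_top_of_card_eq_finrank' (by rw [Fintype.card_fin, hfin])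
  have hf : f ∈ Submodule.span (FF (M0 * q)) (Set.range fun i : Fin q => zz M0 q w ^ (i : ℕ)) := by
    rw [hspan]; trivial
  obtain ⟨c, hc⟩ := (Submodule.mem_span_range_iff_exists_fun _).1 hf
  exact ⟨c, hc.symm⟩

/-- the span statement over an arbitrary intermediate field `K0`. -/
theorem span2_K0 (h : ¬ q ∣ M0) (K0 : IntermediateField ℚ Kb) (w0 : LaurentSeries K0)
    (hw0 : bc K0 w0 ∈ modularFunctionFieldBar M0) (hw : (bc K0 w0).order = -1)
    {f : LaurentSeries K0} (hf : f ∈ F0 K0 (M0 * q * q)) :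
    ∃ a : Fin q → LaurentSeries K0, (∀ i, a i ∈ F0 K0 (M0 * q)) ∧
      f = ∑ i, a i * qExpand K0 q (qExpand K0 q w0) ^ (i : ℕ) := by
  obtain ⟨a, ha⟩ := span2_Kb M0 q h ⟨bc K0 w0, hw0⟩ hw ⟨bc K0 f, bc_mem K0 (M0 * q * q) hf⟩
  refine span_descent K0 (M0 * q) f (fun i => qExpand K0 q (qExpand K0 q w0) ^ (i : ℕ)) a ?_
  have := congrArg Subtype.val ha
  rw [IntermediateField.coe_sum] at this
  change bc K0 f = _ at this
  rw [this]
  refine Finset.sum_congr rfl fun i _ => ?_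
  rw [map_pow, S34.bc_qExpand, S34.bc_qExpand, IntermediateField.coe_mul, IntermediateField.coe_pow,
    coe_heckeAlphaBar, coe_zz]

end Fermat.Agent.S36
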