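import Fermat.Agent.S36.Defs
import Fermat.Agent.S36.Span2
import Fermat.Agent.S35.NewLvl

/-!
# S36, [R4] : auxiliary level

`ClaimA p (M0 * s) q A → ClaimA p M0 q A` for every `s` prime to `q`: pull back along
`α_s : FF (M0 q²) → FF (M0 s q²)`, base change of the two norms, then norm back
(the constant `c0` is multiplied by the degree of `α_s`).
-/

set_option autoImplicit false
set_option linter.style.haveILetI false
set_option linter.unusedSectionVars false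

noncomputable section

namespace Fermat.Agent.S36

open ModularCurve AlgebraicCurve Fermat.Agent.S24 Fermat.Agent.ES Fermat.Agent.S34 Fermat.Agent.S35
open UpperHalfPlane ModularForm Matrix.SpecialLinearGroup
open scoped MatrixGroups
open HKH

namespace AuxLvl

/-! ### coset representatives of `Γ₀(M q) \ Γ₀(M)`, `q ∣ M` -/

/-- the matrix `(1, 0; c x, 1)`. -/
def hx (c : ℕ) {q : ℕ} (x : ZMod q) : SL(2, ℤ) :=
  ⟨!![1, 0; (c : ℤ) * (x.val : ℤ), 1], by rw [Matrix.det_fin_two_of]; ring⟩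

lemma hx_10 (c : ℕ) {q : ℕ} (x : ZMod q) : hx c x 1 0 = (c : ℤ) * (x.val : ℤ) := rfl

lemma hx_mem {M c : ℕ} (h : M ∣ c) {q : ℕ} (x : ZMod q) :
    hx c x ∈ CongruenceSubgroup.Gamma0 M := by
  rw [CongruenceSubgroup.Gamma0_mem, ZMod.intCast_zmod_eq_zero_iff_dvd, hx_10]
  exact Dvd.dvd.mul_right (Int.natCast_dvd_natCast.mpr h) _

lemma hx_mul_inv_10 (c : ℕ) {q : ℕ} (x y : ZMod q) :
    (hx c x * (hx c y)⁻¹) 1 0 = (c : ℤ) * ((x.val : ℤ) - (y.val : ℤ)) := by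
  simp [hx, Matrix.SpecialLinearGroup.coe_inv, Matrix.adjugate_fin_two, Matrix.mul_apply,
    Fin.sum_univ_two]
  ring

lemma hx_inj {L c q : ℕ} [NeZero q] (hc : ∀ k : ℤ, (L : ℤ) ∣ (c : ℤ) * k → (q : ℤ) ∣ k)
    {x y : ZMod q} (h : hx c x * (hx c y)⁻¹ ∈ CongruenceSubgroup.Gamma0 L) : x = y := by
  rw [CongruenceSubgroup.Gamma0_mem, ZMod.intCast_zmod_eq_zero_iff_dvd, hx_mul_inv_10] at h
  have h1 := hc _ h
  rw [← ZMod.intCast_zmod_eq_zero_iff_dvd] at h1
  push_cast at h1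
  rw [ZMod.natCast_zmod_val, ZMod.natCast_zmod_val] at h1
  exact sub_eq_zero.mp h1

/-- the norm along `α_q`, `q ∣ M`, as a product of conjugates. -/
theorem Psi_normA_dvd (M q : ℕ) [NeZero M] [Fact q.Prime] (hq : q ∣ M) (c : ℕ) (hMc : M ∣ c)
    (hc : ∀ k : ℤ, ((M * q : ℕ) : ℤ) ∣ (c : ℤ) * k → (q : ℤ) ∣ k) (u : FF (M * q)) :
    Psi M (normA M q u) = ∏ x : ZMod q, sigma (M * q) (hx c x)⁻¹ u := by
  unfold normA
  letI := algebraAlong (heckeAlphaBar Kb M q)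
  have hfr : Module.finrank (FF M) (FF (M * q)) = q := finrank_heckeAlpha_of_dvd M q hq
  haveI : FiniteDimensional (FF M) (FF (M * q)) :=
    Module.finite_of_finrank_pos (by rw [hfr]; exact (Fact.out : q.Prime).pos)
  have hcard : Fintype.card (ZMod q) = Module.finrank (FF M) (FF (M * q)) := by
    rw [hfr, ZMod.card]
  exact KEmb.norm_eq_prod (Psi M) (fun x : ZMod q => sigma (M * q) (hx c x)⁻¹)
    (fun x y h => by
      have h' : sigma (M * q) (hx c x)⁻¹ = sigma (M * q) (hx c y)⁻¹ := h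
      rw [sigma_eq_iff, inv_inv] at h'
      exact hx_inj hc h')
    (fun x y => by
      show sigma (M * q) (hx c x)⁻¹ (heckeAlphaBar Kb M q y) = _
      rw [sigma_apply, KEmb.Psi_alpha, KEmb.act_Psi_of_mem M (inv_mem (hx_mem hMc x))]) hcard u

/-! ### the pull-back `FF (M0 q²) → FF (M0 s q²)` -/

variable (M0 q s : ℕ) [NeZero M0] [Fact q.Prime] [NeZero s]

theorem lvl2_eq : M0 * q * q * s = M0 * s * q * q := by ring

/-- `α_s : FF (M0 q²) → FF (M0 s q²)`. -/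
def aC2 : FF (M0 * q * q) →+* FF (M0 * s * q * q) :=
  ((castFF (lvl2_eq M0 q s) : FF (M0 * q * q * s) ≃ₐ[Kb] FF (M0 * s * q * q)) :
    FF (M0 * q * q * s) →+* FF (M0 * s * q * q)).comp
    (heckeAlphaBar Kb (M0 * q * q) s : FF (M0 * q * q) →+* FF (M0 * q * q * s))

theorem aC2_apply (u : FF (M0 * q * q)) :
    aC2 M0 q s u = castFF (lvl2_eq M0 q s) (heckeAlphaBar Kb (M0 * q * q) s u) := rfl

theorem coe_aC2 (u : FF (M0 * q * q)) :
    ((aC2 M0 q s u : FF (M0 * s * q * q)) : LaurentSeries Kb) = (u : LaurentSeries Kb) := by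
  rw [aC2_apply, coe_castFF, coe_heckeAlphaBar]

theorem aC2_alpha (y : FF (M0 * q)) :
    aC2 M0 q s (heckeAlphaBar Kb (M0 * q) q y) =
      heckeAlphaBar Kb (M0 * s * q) q (alphaC M0 q s y) := by
  apply Subtype.ext
  rw [coe_aC2, coe_heckeAlphaBar, coe_heckeAlphaBar, coe_alphaC]

theorem aC2_beta (y : FF (M0 * q)) :
    aC2 M0 q s (heckeBetaBar Kb (M0 * q) q y) =
      heckeBetaBar Kb (M0 * s * q) q (alphaC M0 q s y) := by
  apply Subtype.ext
  rw [coe_aC2, coe_heckeBetaBar, coe_heckeBetaBar, coe_alphaC]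

theorem Psi_aC2 (u : FF (M0 * q * q)) : Psi (M0 * s * q * q) (aC2 M0 q s u) = Psi (M0 * q * q) u := by
  rw [aC2_apply, Psi_castFF, KEmb.Psi_alpha]

theorem Psi_alphaC (u : FF (M0 * q)) : Psi (M0 * s * q) (alphaC M0 q s u) = Psi (M0 * q) u := by
  rw [alphaC_apply, Psi_castFF, KEmb.Psi_alpha]

theorem gal_aC2 (σ : GQ) (u : FF (M0 * q * q)) :
    gal (M0 * s * q * q) σ (aC2 M0 q s u) = aC2 M0 q s (gal (M0 * q * q) σ u) := by
  rw [aC2_apply, aC2_apply, NewLvl.gal_castFF, gal_heckeAlpha]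

variable {M0 q s}

/-- base change of the norm along `α`. -/
theorem nbcA2 (hs : ¬ q ∣ s) (u : FF (M0 * q * q)) :
    normA (M0 * s * q) q (aC2 M0 q s u) = alphaC M0 q s (normA (M0 * q) q u) := by
  have hqp : q.Prime := Fact.out
  have hM0 : (M0 : ℤ) ≠ 0 := by exact_mod_cast NeZero.ne M0
  have hq0 : (q : ℤ) ≠ 0 := by exact_mod_cast hqp.ne_zero
  have hs0 : (s : ℤ) ≠ 0 := by exact_mod_cast NeZero.ne s
  apply (Psi (M0 * s * q)).injective
  rw [Psi_alphaC,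
    Psi_normA_dvd (M0 * s * q) q (Dvd.intro_left _ rfl) (M0 * s * q) dvd_rfl (fun k hk => by
      push_cast at hk
      exact Int.dvd_of_mul_dvd_mul_left (mul_ne_zero (mul_ne_zero hM0 hs0) hq0) hk),
    Psi_normA_dvd (M0 * q) q (Dvd.intro_left _ rfl) (M0 * s * q)
      ⟨s, by ring⟩ (fun k hk => by
      push_cast at hk
      have h1 : ((M0 : ℤ) * q) * q ∣ ((M0 : ℤ) * q) * (s * k) := by
        have : (M0 : ℤ) * s * q * k = ((M0 : ℤ) * q) * (s * k) := by ring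
        rwa [this] at hk
      have h2 := Int.dvd_of_mul_dvd_mul_left (mul_ne_zero hM0 hq0) h1
      rcases (Int.Prime.dvd_mul' hqp h2) with h3 | h3
      · exact absurd (Int.natCast_dvd_natCast.mp h3) hs
      · exact h3)]
  refine Finset.prod_congr rfl fun x _ => ?_
  rw [sigma_apply, sigma_apply, Psi_aC2]

/-- the norm along `β` at the pair `(M0 q, q)` via the Atkin-Lehner involutions. -/
theorem normB_eq2 (h : ¬ q ∣ M0) (u : FF (M0 * q * q)) :
    normB (M0 * q) q u = (WK.Wb M0 q h).symm (normA (M0 * q) q (Wb2 M0 q h u)) := by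
  have := @Algebra.norm_eq_of_equiv_equiv (FF (M0 * q)) (FF (M0 * q * q)) (FF (M0 * q))
    (FF (M0 * q * q)) _ _ _ _
    (algebraAlong (heckeBetaBar Kb (M0 * q) q)) (algebraAlong (heckeAlphaBar Kb (M0 * q) q))
    (WK.Wb M0 q h : FF (M0 * q) ≃+* FF (M0 * q))
    (Wb2 M0 q h : FF (M0 * q * q) ≃+* FF (M0 * q * q)) (by
      apply RingHom.ext
      intro y
      exact (Wb2_beta M0 q h y).symm) u
  exact this

theorem Wb2_aC2 (h : ¬ q ∣ M0) (h' : ¬ q ∣ M0 * s) (u : FF (M0 * q * q)) :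
    Wb2 (M0 * s) q h' (aC2 M0 q s u) = aC2 M0 q s (Wb2 M0 q h u) := by
  have : ((Wb2 (M0 * s) q h' : FF (M0 * s * q * q) →+* FF (M0 * s * q * q)).comp (aC2 M0 q s))
      = (aC2 M0 q s).comp (Wb2 M0 q h : FF (M0 * q * q) →+* FF (M0 * q * q)) := by
    apply S37.KT.ringHom_ext (M0 * q) q
    · intro y
      simp only [RingHom.comp_apply, RingHom.coe_coe, Wb2_alpha, aC2_alpha, aC2_beta,
        Wb_alphaC h' h]
    · intro y
      simp only [RingHom.comp_apply, RingHom.coe_coe, Wb2_beta, aC2_alpha, aC2_beta,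
        Wb_alphaC h' h]
  exact DFunLike.congr_fun this u

theorem Wb_symm_alphaC (h : ¬ q ∣ M0) (h' : ¬ q ∣ M0 * s) (w : FF (M0 * q)) :
    (WK.Wb (M0 * s) q h').symm (alphaC M0 q s w) = alphaC M0 q s ((WK.Wb M0 q h).symm w) := by
  rw [AlgEquiv.symm_apply_eq, Wb_alphaC h' h, AlgEquiv.apply_symm_apply]

/-- base change of the norm along `β`. -/
theorem nbcB2 (h : ¬ q ∣ M0) (hs : ¬ q ∣ s) (u : FF (M0 * q * q)) :
    normB (M0 * s * q) q (aC2 M0 q s u) = alphaC M0 q s (normB (M0 * q) q u) := by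
  have h' : ¬ q ∣ M0 * s := fun hd =>
    ((Nat.Prime.dvd_mul (Fact.out : q.Prime)).1 hd).elim h hs
  rw [normB_eq2 h', normB_eq2 h, Wb2_aC2 h h', nbcA2 hs, Wb_symm_alphaC h h']

end AuxLvl

open AuxLvl

/-- **[R4]** at a fixed exponent. -/
theorem fixNew_of_mul (m c0 M0 q s : ℕ) [NeZero M0] [Fact q.Prime] [NeZero s]
    (h : ¬ q ∣ M0) (hs : ¬ q ∣ s) (A : ValuationSubring Kb) (H : FixNew m c0 (M0 * s) q A) :
    FixNew m (c0 * finrankAlong Kb (heckeAlphaBar Kb (M0 * q * q) s)) M0 q A := by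
  intro u hu hI ⟨z1, h1⟩ ⟨z2, h2⟩
  have hu' : IsPDiv m (M0 * s * q * q) (aC2 M0 q s u) :=
    NewLvl.isPDiv_castFF m _ (LevelChange.isPDiv_heckeAlpha m (M0 * q * q) s hu)
  obtain ⟨z, hz⟩ := H (aC2 M0 q s u) hu'
    (fun σ hσ => by
      obtain ⟨y, hy⟩ := hI σ hσ
      exact ⟨aC2 M0 q s y, by rw [gal_aC2, hy, map_mul, map_pow]⟩)
    ⟨alphaC M0 q s z1, by rw [nbcA2 hs, h1, map_pow]⟩
    ⟨alphaC M0 q s z2, by rw [nbcB2 h hs, h2, map_pow]⟩
  -- back to the level `M0 q²` by the norm along `α_s`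
  have hz' : heckeAlphaBar Kb (M0 * q * q) s (u ^ c0)
      = ((castFF (lvl2_eq M0 q s)).symm z) ^ m := by
    rw [← map_pow (castFF (lvl2_eq M0 q s)).symm z m, ← hz, AlgEquiv.eq_symm_apply, map_pow,
      map_pow, ← aC2_apply]
  let _ := algebraAlong (heckeAlphaBar Kb (M0 * q * q) s)
  have e1 : Algebra.norm (FF (M0 * q * q))
      (algebraMap (FF (M0 * q * q)) (FF (M0 * q * q * s)) (u ^ c0))
      = (u ^ c0) ^ Module.finrank (FF (M0 * q * q)) (FF (M0 * q * q * s)) :=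
    Algebra.norm_algebraMap (u ^ c0)
  have e2 : algebraMap (FF (M0 * q * q)) (FF (M0 * q * q * s)) (u ^ c0)
      = ((castFF (lvl2_eq M0 q s)).symm z) ^ m := hz'
  rw [e2, map_pow] at e1
  exact ⟨_, by rw [pow_mul]; exact e1.symm⟩

/-- **[R4]** : `ClaimA` at the level `M0 s` implies `ClaimA` at the level `M0` (`q ∤ s`). -/
theorem claimA_of_mul (p M0 q s : ℕ) [NeZero M0] [Fact q.Prime] [NeZero s]
    (h : ¬ q ∣ M0) (hs : ¬ q ∣ s) (A : ValuationSubring Kb) (H : ClaimA p (M0 * s) q A) :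
    ClaimA p M0 q A := by
  obtain ⟨c0, hc0, H⟩ := H
  refine ⟨c0 * finrankAlong Kb (heckeAlphaBar Kb (M0 * q * q) s), Nat.mul_pos hc0 ?_,
    fun r => fixNew_of_mul (p ^ r) c0 M0 q s h hs A (H r)⟩
  unfold finrankAlong
  letI := algebraAlong (heckeAlphaBar Kb (M0 * q * q) s)
  haveI : FiniteDimensional (FF (M0 * q * q)) (FF (M0 * q * q * s)) :=
    heckeAlpha_finite (M0 * q * q) s
  exact Module.finrank_pos

end Fermat.Agent.S36
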