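import Fermat.Agent.S36.Mid

/-!
# S36, geometry, modular block : base change of the Gauss rings  ([T-BC])

`D : QData R K k`, `D' : QData R' K' k`, `iR : R → R'`, `i : K → K'` compatible with the structure
maps and the residue maps.  `bc = coeffMap i : K((T)) → K'((T))`.
-/

set_option autoImplicit false
set_option linter.unusedSectionVars false

noncomputable section

namespace Fermat.Agent.S36

open ModularCurve Polynomial
open Fermat.Agent.S34 Fermat.Agent.S35 Fermat.Agent.ES.QE Fermat.Agent.ES.Model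

variable {R K k : Type*} [CommRing R] [IsDomain R] [IsNoetherianRing R] [IsIntegrallyClosed R]
  [Field K] [Algebra R K] [IsFractionRing R K] [Field k]
  {R' K' : Type*} [CommRing R'] [IsDomain R'] [IsNoetherianRing R'] [IsIntegrallyClosed R']
  [Field K'] [Algebra R' K'] [IsFractionRing R' K']

/-- compatibility of the two data. -/
structure BCData (D : QData R K k) (D' : QData R' K' k) (iR : R →+* R') (i : K →+* K') : Prop where
  comm : ∀ r, i (algebraMap R K r) = algebraMap R' K' (iR r)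
  res : ∀ r, D'.res (iR r) = D.res r

namespace BCData

variable {D : QData R K k} {D' : QData R' K' k} {iR : R →+* R'} {i : K →+* K'}
  (B : BCData D D' iR i)

include B

theorem bc_inc (w : LaurentSeries R) : coeffMap i (D.inc w) = D'.inc (coeffMap iR w) := by
  ext n
  rw [QData.inc, QData.inc, coeffMap_coeff, coeffMap_coeff, coeffMap_coeff, coeffMap_coeff, B.comm]

theorem red_bc (w : LaurentSeries R) : D'.red (coeffMap iR w) = D.red w := by
  ext n
  rw [QData.red, QData.red, coeffMap_coeff, coeffMap_coeff, coeffMap_coeff, B.res]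

theorem isFrac_bc {f : LaurentSeries K} {t w : LaurentSeries R} (h : D.IsFrac f t w) :
    D'.IsFrac (coeffMap i f) (coeffMap iR t) (coeffMap iR w) :=
  ⟨by rw [B.red_bc]; exact h.1, by rw [← B.bc_inc, ← B.bc_inc, ← map_mul, h.2]⟩

theorem bc_mem {f : LaurentSeries K} (hf : f ∈ D.LamRing) : coeffMap i f ∈ D'.LamRing := by
  obtain ⟨t, w, h⟩ := hf
  exact ⟨_, _, B.isFrac_bc h⟩

theorem rho_bc {f : LaurentSeries K} (hf : f ∈ D.LamRing) :
    D'.rho ⟨coeffMap i f, B.bc_mem hf⟩ = D.rho ⟨f, hf⟩ := by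
  obtain ⟨t, w, h⟩ := hf
  rw [QData.rho_eq (f := ⟨coeffMap i f, _⟩) (B.isFrac_bc h), QData.rho_eq (f := ⟨f, _⟩) h,
    B.red_bc, B.red_bc]

theorem isU_bc {f : LaurentSeries K} (hf : IsU D.LamRing f) : IsU D'.LamRing (coeffMap i f) :=
  ⟨(_root_.map_ne_zero _).2 hf.ne_zero, B.bc_mem hf.mem, by rw [← map_inv₀]; exact B.bc_mem hf.inv_mem⟩

omit B in
/-- a quotient of two series over `R` is bounded. -/
theorem isBdd_of_frac {g : LaurentSeries K} {s w : LaurentSeries R} (hs : s ≠ 0)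
    (h : D.inc s * g = D.inc w) : NVal.IsBdd D g := by
  obtain ⟨a, t, ht, rfl⟩ := NVal.exists_prim D hs
  exact ⟨a, t, w, ht, by rw [← h, map_mul, map_pow, D.inc_ϖW]⟩

theorem isBdd_bc {f : LaurentSeries K} (hf : NVal.IsBdd D f) : NVal.IsBdd D' (coeffMap i f) := by
  obtain ⟨c, t, w, ht, h⟩ := hf
  refine isBdd_of_frac (s := coeffMap iR (D.ϖW ^ c * t)) (w := coeffMap iR w) ?_ ?_
  · intro h0
    have h1 : D.inc (D.ϖW ^ c * t) = 0 := by
      have h2 : coeffMap i (D.inc (D.ϖW ^ c * t)) = 0 := by rw [B.bc_inc, h0, map_zero]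
      exact (map_eq_zero _).1 h2
    rw [map_mul, map_pow, D.inc_ϖW] at h1
    exact mul_ne_zero (pow_ne_zero c D.ϖE_ne_zero) (Mid.inc_ne_zero ht) h1
  · rw [← B.bc_inc, ← B.bc_inc, ← map_mul, map_mul D.inc, map_pow, D.inc_ϖW, h]

/-- `bc ϖ` is not a unit. -/
theorem bc_ϖE : ∃ y ∈ D'.LamRing, coeffMap i D.ϖE = D'.ϖE * y := by
  have h1 : D'.red (coeffMap iR D.ϖW) = 0 := by rw [B.red_bc, D.red_ϖW]
  obtain ⟨w', hw'⟩ := (D'.red_eq_zero_iff _).1 h1
  exact ⟨D'.inc w', QData.inc_mem_LamRing _, by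
    rw [← D.inc_ϖW, B.bc_inc, hw', map_mul, D'.inc_ϖW]⟩

/-- **base change of the Gauss ring.** -/
theorem bc_mem_iff {f : LaurentSeries K} (hf : NVal.IsBdd D f) :
    coeffMap i f ∈ D'.LamRing ↔ f ∈ D.LamRing := by
  refine ⟨fun h => ?_, B.bc_mem⟩
  by_cases hf0 : f = 0
  · rw [hf0]; exact D.LamRing.zero_mem
  obtain ⟨n, υ, hυ, rfl⟩ := Mid.exists_normal hf hf0
  rcases le_or_gt 0 n with hn | hn
  · lift n to ℕ using hn
    rw [zpow_natCast]
    exact D.LamRing.mul_mem (D.LamRing.pow_mem Mid.ϖE_mem n) hυ.mem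
  · exfalso
    obtain ⟨m, rfl⟩ : ∃ m : ℕ, n = -((m : ℤ) + 1) := ⟨(-n - 1).toNat, by omega⟩
    obtain ⟨y, hy, hϖ⟩ := B.bc_ϖE
    have hE : coeffMap i D.ϖE ≠ 0 := (_root_.map_ne_zero _).2 D.ϖE_ne_zero
    have hU := B.isU_bc hυ
    -- `(bc ϖ)⁻¹ ^ (m+1) ∈ Λ'`
    have h1 : (coeffMap i D.ϖE ^ (m + 1))⁻¹ ∈ D'.LamRing := by
      have h2 : (coeffMap i D.ϖE ^ (m + 1))⁻¹
          = coeffMap i (D.ϖE ^ (-((m : ℤ) + 1)) * υ) * (coeffMap i υ)⁻¹ := by
        rw [map_mul, mul_assoc, mul_inv_cancel₀ hU.ne_zero, mul_one, map_zpow₀, zpow_neg]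
        norm_cast
      rw [h2]
      exact D'.LamRing.mul_mem h hU.inv_mem
    apply Mid.ϖE_inv_notMem (D := D')
    have h3 : D'.ϖE⁻¹ = y * coeffMap i D.ϖE ^ m * (coeffMap i D.ϖE ^ (m + 1))⁻¹ := by
      have hy0 : y ≠ 0 := by
        rintro rfl
        rw [mul_zero] at hϖ
        exact hE hϖ
      have hE' := D'.ϖE_ne_zero
      rw [pow_succ, hϖ]
      field_simp
    rw [h3]
    refine D'.LamRing.mul_mem (D'.LamRing.mul_mem hy (D'.LamRing.pow_mem ?_ m)) h1
    rw [hϖ]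
    exact D'.LamRing.mul_mem Mid.ϖE_mem hy

end BCData

/-! ### twists -/

namespace Mid

variable {D : QData R K k}

theorem twist_ϖE (ω : Kˣ) : S28.twist ω D.ϖE = D.ϖE := by
  ext n
  rw [S28.twist_coeff, QData.ϖE, HahnSeries.C_apply, HahnSeries.coeff_single]
  split_ifs with h
  · subst h; simp
  · rw [mul_zero]

theorem isBdd_twist (ω : Rˣ) (hω : D.res ω = 1) {g : LaurentSeries K} (hg : NVal.IsBdd D g) :
    NVal.IsBdd D (S28.twist (GNorm.uK ω) g) := by
  obtain ⟨c, t, w, ht, h⟩ := hg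
  refine ⟨c, S28.twist ω t, S28.twist ω w, by rw [GNorm.red_twist ω hω]; exact ht, ?_⟩
  rw [GNorm.inc_twist, GNorm.inc_twist, ← h, map_mul, map_mul, map_pow, twist_ϖE]

theorem twist_twist_inv (ω : Kˣ) (g : LaurentSeries K) : S28.twist ω⁻¹ (S28.twist ω g) = g := by
  ext n
  rw [S28.twist_coeff, S28.twist_coeff, ← mul_assoc, ← Units.val_mul, inv_zpow, inv_mul_cancel,
    Units.val_one, one_mul]

theorem res_inv (ω : Rˣ) (hω : D.res ω = 1) : D.res ((ω⁻¹ : Rˣ) : R) = 1 := by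
  have := GNorm.res_zpow (D := D) ω hω (-1)
  rwa [zpow_neg_one] at this

theorem uK_inv (ω : Rˣ) : (GNorm.uK ω⁻¹ : Kˣ) = (GNorm.uK ω)⁻¹ := map_inv _ _

/-- **twists preserve the Gauss ring.** -/
theorem twist_mem_iff (ω : Rˣ) (hω : D.res ω = 1) {g : LaurentSeries K} :
    S28.twist (GNorm.uK ω) g ∈ D.LamRing ↔ g ∈ D.LamRing := by
  refine ⟨fun h => ?_, GNorm.twist_mem_LamRing ω hω⟩
  have h1 := GNorm.twist_mem_LamRing ω⁻¹ (res_inv ω hω) h
  rwa [uK_inv, twist_twist_inv] at h1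

end Mid

end Fermat.Agent.S36
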