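import Fermat.Agent.S36.GDefs
import Fermat.Agent.S36.NCDefs
import Fermat.Agent.S34.RedAbs

/-!
# S36, bridge [CH-3] : the three components of a chart of level `M₀ q²` are prime with Dedekind
quotients (isomorphic to the components of the chart of level `M₀ q`).
-/

set_option autoImplicit false

namespace Fermat.Agent.S36

open Fermat.Agent.S34 Fermat.Agent.S35

variable {F1 F2 : Type*} [Field F1] [Field F2]

namespace BrDed

/-- a non-unit of a discrete valuation ring is divisible by the uniformiser. -/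
theorem divS_of_inv_notMem {F : Type*} [Field F] {O : Subring F} {ϖ : F} (h : IsDV O ϖ) {x : F}
    (hx' : x⁻¹ ∉ O) : DivS O ϖ 1 x := by
  by_cases hx0 : x = 0
  · exact ⟨0, O.zero_mem, by rw [hx0, mul_zero]⟩
  obtain ⟨a, h1, h2⟩ := h.disc x hx0
  have hϖ0 := h.ne_zero
  have ha : a < 0 := by
    by_contra hc
    rw [not_lt] at hc
    obtain ⟨n, rfl⟩ := Int.eq_ofNat_of_zero_le hc
    apply hx'
    have : x⁻¹ = (x * ϖ ^ (n : ℤ))⁻¹ * ϖ ^ n := by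
      rw [zpow_natCast]
      field_simp
    rw [this]
    exact O.mul_mem h2 (O.pow_mem h.mem n)
  obtain ⟨n, hn⟩ : ∃ n : ℕ, a = -((n : ℤ) + 1) := ⟨(-a - 1).toNat, by omega⟩
  refine ⟨x * ϖ ^ a * ϖ ^ n, O.mul_mem h1 (O.pow_mem h.mem n), ?_⟩
  rw [hn, zpow_neg, zpow_add₀ hϖ0, zpow_natCast, zpow_one, pow_one]
  field_simp

/-- transfer of divisibility along an embedding of discrete valuation rings. -/
theorem divS_iff {O1 : Subring F1} {ϖ1 : F1} {O : Subring F2} {t : F2} (h1 : IsDV O1 ϖ1)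
    (h : IsDV O t) (f : F1 →+* F2) (hf : ∀ a, f a ∈ O ↔ a ∈ O1) (hϖ : DivS O t 1 (f ϖ1)) (a : F1) :
    DivS O t 1 (f a) ↔ DivS O1 ϖ1 1 a := by
  constructor
  · intro hd
    by_cases ha0 : a = 0
    · exact ⟨0, O1.zero_mem, by rw [ha0, mul_zero]⟩
    apply divS_of_inv_notMem h1
    intro ha'
    obtain ⟨y, hy, ey⟩ := hd
    have h3 : f a⁻¹ ∈ O := (hf _).2 ha'
    apply h.inv_notMem
    have hfa : f a ≠ 0 := (map_ne_zero f).2 ha0
    have ht0 := h.ne_zero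
    have : t⁻¹ = y * f a⁻¹ := by
      rw [map_inv₀, ey, pow_one]
      have hy0 : y ≠ 0 := fun h0 => hfa (by rw [ey, h0, mul_zero])
      field_simp
    rw [this]
    exact O.mul_mem hy h3
  · rintro ⟨y, hy, rfl⟩
    obtain ⟨z, hz, ez⟩ := hϖ
    refine ⟨z * f y, O.mul_mem hz ((hf y).2 hy), ?_⟩
    rw [map_mul, pow_one, ez]
    ring

/-- one component. -/
theorem ded_one {O1 : Subring F1} {ϖ1 : F1} {O : Subring F2} {t : F2} (h1 : IsDV O1 ϖ1)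
    (h : IsDV O t) (f : F1 →+* F2) (hf : ∀ a, f a ∈ O ↔ a ∈ O1) (hϖ : DivS O t 1 (f ϖ1))
    {B : Subring F2} {B' : Subring F1} (p : Ideal B) (p' : Ideal B')
    (hmem : ∀ b : B, b ∈ p ↔ DivS O t 1 (b : F2))
    (hmem' : ∀ b : B', b ∈ p' ↔ DivS O1 ϖ1 1 (b : F1))
    (f_mem : ∀ x ∈ B', f x ∈ B) (hsurj : ∀ b ∈ B, ∃ a ∈ B', DivS O t 1 (b - f a))
    [IsDedekindDomain (B' ⧸ p')] : IsDedekindDomain (B ⧸ p) ∧ p.IsPrime := by
  refine RedAbs.dedekind_of_quot ((f.comp B'.subtype).codRestrict B (fun a => f_mem a a.2)) p' p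
    ?_ ?_
  · intro b
    obtain ⟨a, ha, hd⟩ := hsurj b b.2
    exact ⟨⟨a, ha⟩, (hmem _).2 hd⟩
  · intro a
    rw [hmem, hmem']
    exact divS_iff h1 h f hf hϖ a

end BrDed

variable {q : ℕ} {O1 O2 : Subring F1} {ϖ1 : F1} {OF OM OV : Subring F2} {ϖ t : F2}
  {al be : F1 →+* F2} {nA nB : F2 →* F1} {m : ℕ} {B : Subring F2} {B' : Subring F1}
  {pF pM pV : Ideal B}

/-- **[CH-3]** the three components are prime with Dedekind quotients. -/
theorem br_ded (L : Lvl1 q O1 O2 ϖ1 OF OM OV ϖ t al be nA nB) (hq : 2 ≤ q)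
    (memF : ∀ b : B, b ∈ pF ↔ DivS OF ϖ 1 (b : F2))
    (memM : ∀ b : B, b ∈ pM ↔ DivS OM t 1 (b : F2))
    (memV : ∀ b : B, b ∈ pV ↔ DivS OV ϖ 1 (b : F2))
    (hL : ChartL OF OM OV ϖ t m B B' al be nA nB) (p1 p2 : Ideal B')
    (mem1 : ∀ b : B', b ∈ p1 ↔ DivS O1 ϖ1 1 (b : F1))
    (mem2 : ∀ b : B', b ∈ p2 ↔ DivS O2 ϖ1 1 (b : F1))
    [IsDedekindDomain (B' ⧸ p1)] [IsDedekindDomain (B' ⧸ p2)] :
    (IsDedekindDomain (B ⧸ pF) ∧ pF.IsPrime) ∧ (IsDedekindDomain (B ⧸ pM) ∧ pM.IsPrime) ∧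
      (IsDedekindDomain (B ⧸ pV) ∧ pV.IsPrime) := by
  have hone : ∀ O : Subring F2, DivS O ϖ 1 ϖ := fun O => ⟨1, O.one_mem, by rw [pow_one, mul_one]⟩
  refine ⟨?_, ?_, ?_⟩
  · exact BrDed.ded_one L.dv1 L.dvF al L.al_F (by rw [L.al_unif]; exact hone _) pF p1 memF mem1
      hL.al_mem hL.surjA
  · refine BrDed.ded_one L.dv1 L.dvM al L.al_M ?_ pM p1 memM mem1 hL.al_mem hL.surjC
    rw [L.al_unif]
    obtain ⟨h0, -, h2⟩ := L.ram
    have hϖ0 : ϖ ≠ 0 := L.dvF.ne_zero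
    have ht0 : t ≠ 0 := L.dvM.ne_zero
    refine ⟨t ^ (q - 2) * (t ^ (q - 1) / ϖ)⁻¹, OM.mul_mem (OM.pow_mem L.dvM.mem _) h2, ?_⟩
    have e : t ^ (q - 1) = t * t ^ (q - 2) := by
      rw [← pow_succ']
      congr 1
      omega
    rw [pow_one, e]
    field_simp
  · exact BrDed.ded_one L.dv2 L.dvV be L.be_V (by rw [L.be_unif]; exact hone _) pV p2 memV mem2
      hL.be_mem hL.surjB

end Fermat.Agent.S36
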