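import Mathlib

/-!
# S36, bridge BR-REG, ordinary points

`RegAt q ϖ pF pM pV n` : `(REG n)` : `s ϖ = c xF xM ^ (q-1) xV` with `s ∉ n`, `xX ∈ pX`.

At a point lying on exactly one component it is free for `F`, `V`, and follows from `(T2)` for the
middle component.
-/

set_option autoImplicit false

namespace Fermat.Agent.S36

variable {B : Type*} [CommRing B]

/-- **(REG n)** -/
def RegAt (q : ℕ) (ϖ : B) (pF pM pV n : Ideal B) : Prop :=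
  ∃ xF xM xV s c : B, s ∉ n ∧ s * ϖ = c * xF * xM ^ (q - 1) * xV ∧ xF ∈ pF ∧ xM ∈ pM ∧ xV ∈ pV

theorem regAt_aux {p n : Ideal B} (h : ¬ p ≤ n) : ∃ x ∈ p, x ∉ n := by
  by_contra hc
  push Not at hc
  exact h hc

/-- ordinary points of the component `F`. -/
theorem regAt_F (q : ℕ) (ϖ : B) (pF pM pV n : Ideal B) [n.IsPrime] (hϖ : ϖ ∈ pF)
    (hM : ¬ pM ≤ n) (hV : ¬ pV ≤ n) : RegAt q ϖ pF pM pV n := by
  obtain ⟨xM, hxM, hxMn⟩ := regAt_aux hM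
  obtain ⟨xV, hxV, hxVn⟩ := regAt_aux hV
  refine ⟨ϖ, xM, xV, xM ^ (q - 1) * xV, 1, ?_, by ring, hϖ, hxM, hxV⟩
  intro h
  rcases Ideal.IsPrime.mem_or_mem ‹_› h with h | h
  · exact hxMn (Ideal.IsPrime.mem_of_pow_mem ‹_› _ h)
  · exact hxVn h

/-- ordinary points of the component `V`. -/
theorem regAt_V (q : ℕ) (ϖ : B) (pF pM pV n : Ideal B) [n.IsPrime] (hϖ : ϖ ∈ pV)
    (hF : ¬ pF ≤ n) (hM : ¬ pM ≤ n) : RegAt q ϖ pF pM pV n := by
  obtain ⟨xM, hxM, hxMn⟩ := regAt_aux hM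
  obtain ⟨xF, hxF, hxFn⟩ := regAt_aux hF
  refine ⟨xF, xM, ϖ, xF * xM ^ (q - 1), 1, ?_, by ring, hxF, hxM, hϖ⟩
  intro h
  rcases Ideal.IsPrime.mem_or_mem ‹_› h with h | h
  · exact hxFn h
  · exact hxMn (Ideal.IsPrime.mem_of_pow_mem ‹_› _ h)

/-- ordinary points of the middle component, from `(T2)`. -/
theorem regAt_M (q : ℕ) (ϖ : B) (pF pM pV n : Ideal B) [n.IsPrime]
    (hF : ¬ pF ≤ n) (hV : ¬ pV ≤ n)
    (hT2 : ∃ x ∈ pM, ∃ s, s ∉ n ∧ ∃ c, s * ϖ = c * x ^ (q - 1)) : RegAt q ϖ pF pM pV n := by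
  obtain ⟨xF, hxF, hxFn⟩ := regAt_aux hF
  obtain ⟨xV, hxV, hxVn⟩ := regAt_aux hV
  obtain ⟨x, hx, s, hs, c, hc⟩ := hT2
  refine ⟨xF, x, xV, s * xF * xV, c, ?_, ?_, hxF, hx, hxV⟩
  · intro h
    rcases Ideal.IsPrime.mem_or_mem ‹_› h with h | h
    · rcases Ideal.IsPrime.mem_or_mem ‹_› h with h | h
      · exact hs h
      · exact hxFn h
    · exact hxVn h
  · calc s * xF * xV * ϖ = (s * ϖ) * xF * xV := by ring
      _ = c * xF * x ^ (q - 1) * xV := by rw [hc]; ring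

/-- **(REG n) at every point**, from the dichotomy, `(T2)` and `(REG n)` at the supersingular
points. -/
theorem regAt_of (q : ℕ) (ϖ : B) (pF pM pV n : Ideal B) [n.IsPrime] (hϖF : ϖ ∈ pF)
    (hϖV : ϖ ∈ pV)
    (hsome : pF ≤ n ∨ pM ≤ n ∨ pV ≤ n)
    (hFM : pF ≤ n → pM ≤ n → pV ≤ n) (hMV : pM ≤ n → pV ≤ n → pF ≤ n)
    (hFV : pF ≤ n → pV ≤ n → pM ≤ n)
    (hT2 : pM ≤ n → ¬ pF ≤ n → ¬ pV ≤ n → ∃ x ∈ pM, ∃ s, s ∉ n ∧ ∃ c, s * ϖ = c * x ^ (q - 1))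
    (hss : pF ≤ n → pM ≤ n → pV ≤ n → RegAt q ϖ pF pM pV n) : RegAt q ϖ pF pM pV n := by
  by_cases hF : pF ≤ n
  · by_cases hM : pM ≤ n
    · exact hss hF hM (hFM hF hM)
    · by_cases hV : pV ≤ n
      · exact absurd (hFV hF hV) hM
      · exact regAt_F q ϖ pF pM pV n hϖF hM hV
  · by_cases hM : pM ≤ n
    · by_cases hV : pV ≤ n
      · exact absurd (hMV hM hV) hF
      · exact regAt_M q ϖ pF pM pV n hF hV (hT2 hM hF hV)
    · by_cases hV : pV ≤ n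
      · exact regAt_V q ϖ pF pM pV n hϖV hF hM
      · rcases hsome with h | h | h
        · exact absurd h hF
        · exact absurd h hM
        · exact absurd h hV

end Fermat.Agent.S36
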