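import Fermat.Agent.S36.LPReg
import Fermat.Agent.S36.BrReg2
import Fermat.Agent.S36.GDefs
import Fermat.Agent.S35.GDV

/-!
# S36, bridge [BR-LP] : `(REG n)` at every `n` + `hdiv` on the generic fibre ⟹ `LPall`

`(REG n)` : `s ϖ = c xF xM ^ (q-1) xV`, `s ∉ n`, `xX ∈ pX`.  Then every component is locally
principal at `n` (`pX B_n = xX B_n`, by saturation), and `LPReg.lp_reg` applies.
-/

set_option autoImplicit false

namespace Fermat.Agent.S36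

open Fermat.Agent.S34 Fermat.Agent.S35

variable {F : Type*} [Field F]

namespace BrLP

theorem divS3 {OF OM OV O : Subring F} {ϖ : F} (hϖ0 : ϖ ≠ 0)
    (hO : ∀ x, x ∈ OF → x ∈ OM → x ∈ OV → x ∈ O) {y : F}
    (h1 : DivS OF ϖ 1 y) (h2 : DivS OM ϖ 1 y) (h3 : DivS OV ϖ 1 y) : DivS O ϖ 1 y := by
  obtain ⟨z1, hz1, e1⟩ := h1
  obtain ⟨z2, hz2, e2⟩ := h2
  obtain ⟨z3, hz3, e3⟩ := h3
  have e12 : z2 = z1 := mul_left_cancel₀ (pow_ne_zero 1 hϖ0) (e2.symm.trans e1)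
  have e13 : z3 = z1 := mul_left_cancel₀ (pow_ne_zero 1 hϖ0) (e3.symm.trans e1)
  exact ⟨z1, hO z1 hz1 (e12 ▸ hz2) (e13 ▸ hz3), e1⟩

/-- `a ∈ t ^ i OM`, `b ∈ t ^ j OM`, `i + j = q - 1` ⟹ `a b ∈ ϖ OM`. -/
theorem divS_mid {OM : Subring F} {ϖ t : F} {q : ℕ} (ram : IsU OM (t ^ (q - 1) / ϖ)) (hϖ0 : ϖ ≠ 0)
    {x : F} (hx : DivS OM t (q - 1) x) : DivS OM ϖ 1 x := by
  obtain ⟨y, hy, rfl⟩ := hx
  refine ⟨t ^ (q - 1) / ϖ * y, OM.mul_mem ram.mem hy, ?_⟩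
  field_simp

theorem divS_pow {O : Subring F} {t : F} {x : F} (hx : DivS O t 1 x) (k : ℕ) :
    DivS O t k (x ^ k) := by
  obtain ⟨y, hy, rfl⟩ := hx
  exact ⟨y ^ k, O.pow_mem hy k, by rw [pow_one, mul_pow]⟩

theorem unif_divS_mid {OM : Subring F} {ϖ t : F} {q : ℕ} (hq : 2 ≤ q)
    (ram : IsU OM (t ^ (q - 1) / ϖ)) (htM : t ∈ OM) (hϖ0 : ϖ ≠ 0) : DivS OM t 1 ϖ := by
  have ht0 : t ≠ 0 := by
    intro h0
    apply ram.ne_zero
    rw [h0, zero_pow (by omega), zero_div]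
  refine ⟨t ^ (q - 2) * (t ^ (q - 1) / ϖ)⁻¹, OM.mul_mem (OM.pow_mem htM _) ram.inv_mem, ?_⟩
  obtain ⟨r, rfl⟩ : ∃ r, q = r + 2 := ⟨q - 2, by omega⟩
  have e1 : r + 2 - 2 = r := by omega
  have e2 : r + 2 - 1 = r + 1 := by omega
  rw [e1, e2]
  field_simp
  ring

end BrLP

section

variable {OF OM OV O : Subring F} {ϖ t : F} {q m : ℕ} {B : Subring F}

/-- `(REG n)` ⟹ the three components are locally principal at `n`. -/
theorem locPrinc_of_regAt (hq : 2 ≤ q)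
    (hO : ∀ x, x ∈ OF → x ∈ OM → x ∈ OV → x ∈ O)
    (hOle : ∀ x ∈ O, x ∈ OF ∧ x ∈ OM ∧ x ∈ OV)
    (hϖ0 : ϖ ≠ 0) (ram : IsU OM (t ^ (q - 1) / ϖ))
    (hB : IsChartS O ϖ m B) (pF pM pV : Ideal B)
    (memF : ∀ b : B, b ∈ pF ↔ DivS OF ϖ 1 (b : F))
    (memM : ∀ b : B, b ∈ pM ↔ DivS OM t 1 (b : F))
    (memV : ∀ b : B, b ∈ pV ↔ DivS OV ϖ 1 (b : F))
    (n : Ideal B) (hreg : RegAt q (⟨ϖ, hB.unif_mem⟩ : B) pF pM pV n) :
    (∃ x, LocPrinc n pF x) ∧ (∃ x, LocPrinc n pM x) ∧ (∃ x, LocPrinc n pV x) := by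
  obtain ⟨xF, xM, xV, s, c, hs, e, hxF, hxM, hxV⟩ := hreg
  have hBF : ∀ b : B, (b : F) ∈ OF := fun b => (hOle _ (hB.le _ b.2)).1
  have hBM : ∀ b : B, (b : F) ∈ OM := fun b => (hOle _ (hB.le _ b.2)).2.1
  have hBV : ∀ b : B, (b : F) ∈ OV := fun b => (hOle _ (hB.le _ b.2)).2.2
  have e' : (s : F) * ϖ = (c : F) * xF * (xM : F) ^ (q - 1) * xV := by
    have := congrArg (Subtype.val) e
    simpa only [Subring.coe_mul, Subring.coe_pow] using this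
  have dF := (memF xF).1 hxF
  have dM := (memM xM).1 hxM
  have dV := (memV xV).1 hxV
  -- the common final step
  have fin : ∀ (x b y : B), (s : F) * ϖ * b = x * y → DivS O ϖ 1 (y : F) →
      ∃ s', s' ∉ n ∧ ∃ c', s' * b = c' * x := by
    intro x b y h1 h2
    obtain ⟨g, hg, hyg⟩ := hB.sat _ y.2 h2
    refine ⟨s, hs, ⟨g, hg⟩, Subtype.ext ?_⟩
    simp only [Subring.coe_mul]
    apply mul_left_cancel₀ hϖ0
    rw [hyg] at h1
    linear_combination h1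
  refine ⟨⟨xF, hxF, fun b hb => ?_⟩, ⟨xM, hxM, fun b hb => ?_⟩, ⟨xV, hxV, fun b hb => ?_⟩⟩
  · have db := (memF b).1 hb
    apply fin xF b (b * c * xM ^ (q - 1) * xV)
    · simp only [Subring.coe_mul, Subring.coe_pow]
      rw [e']; ring
    · simp only [Subring.coe_mul, Subring.coe_pow]
      apply BrLP.divS3 hϖ0 hO
      · exact ((db.mul_right (hBF c)).mul_right (OF.pow_mem (hBF xM) _)).mul_right (hBF xV)
      · exact ((BrLP.divS_mid ram hϖ0 (BrLP.divS_pow dM _)).mul_left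
          (OM.mul_mem (hBM b) (hBM c))).mul_right (hBM xV)
      · exact dV.mul_left (OV.mul_mem (OV.mul_mem (hBV b) (hBV c)) (OV.pow_mem (hBV xM) _))
  · have db := (memM b).1 hb
    apply fin xM b (b * c * xF * xM ^ (q - 2) * xV)
    · simp only [Subring.coe_mul, Subring.coe_pow]
      rw [e']
      obtain ⟨r, rfl⟩ : ∃ r, q = r + 2 := ⟨q - 2, by omega⟩
      have e1 : r + 2 - 2 = r := by omega
      have e2 : r + 2 - 1 = r + 1 := by omega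
      rw [e1, e2]; ring
    · simp only [Subring.coe_mul, Subring.coe_pow]
      apply BrLP.divS3 hϖ0 hO
      · exact ((dF.mul_left (OF.mul_mem (hBF b) (hBF c))).mul_right
          (OF.pow_mem (hBF xM) _)).mul_right (hBF xV)
      · have h1 : DivS OM t (q - 1) ((b : F) * (xM : F) ^ (q - 2)) := by
          obtain ⟨b', hb', eb⟩ := db
          obtain ⟨x', hx', ex⟩ := BrLP.divS_pow dM (q - 2)
          refine ⟨b' * x', OM.mul_mem hb' hx', ?_⟩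
          rw [eb, ex]
          obtain ⟨r, rfl⟩ : ∃ r, q = r + 2 := ⟨q - 2, by omega⟩
          have e1 : r + 2 - 2 = r := by omega
          have e2 : r + 2 - 1 = r + 1 := by omega
          rw [e1, e2]; ring
        have h2 := (BrLP.divS_mid ram hϖ0 h1).mul_right
          (OM.mul_mem (OM.mul_mem (hBM c) (hBM xF)) (hBM xV))
        have e3 : (b : F) * c * xF * (xM : F) ^ (q - 2) * xV
            = (b : F) * (xM : F) ^ (q - 2) * ((c : F) * xF * xV) := by ring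
        rw [e3]; exact h2
      · exact dV.mul_left (OV.mul_mem (OV.mul_mem (OV.mul_mem (hBV b) (hBV c)) (hBV xF))
          (OV.pow_mem (hBV xM) _))
  · have db := (memV b).1 hb
    apply fin xV b (b * c * xF * xM ^ (q - 1))
    · simp only [Subring.coe_mul, Subring.coe_pow]
      rw [e']; ring
    · simp only [Subring.coe_mul, Subring.coe_pow]
      apply BrLP.divS3 hϖ0 hO
      · exact (dF.mul_left (OF.mul_mem (hBF b) (hBF c))).mul_right (OF.pow_mem (hBF xM) _)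
      · exact (BrLP.divS_mid ram hϖ0 (BrLP.divS_pow dM _)).mul_left
          (OM.mul_mem (OM.mul_mem (hBM b) (hBM c)) (hBM xF))
      · exact ((db.mul_right (hBV c)).mul_right (hBV xF)).mul_right (OV.pow_mem (hBV xM) _)

/-- **[BR-LP]** -/
theorem lpall_of_regAt (hq : 2 ≤ q) (hm : 0 < m)
    (hO : ∀ x, x ∈ OF → x ∈ OM → x ∈ OV → x ∈ O)
    (hOle : ∀ x ∈ O, x ∈ OF ∧ x ∈ OM ∧ x ∈ OV)
    (hϖ0 : ϖ ≠ 0) (ram : IsU OM (t ^ (q - 1) / ϖ)) (htM : t ∈ OM)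
    (hB : IsChartS O ϖ m B) [IsNoetherianRing B] (pF pM pV : Ideal B)
    (memF : ∀ b : B, b ∈ pF ↔ DivS OF ϖ 1 (b : F))
    (memM : ∀ b : B, b ∈ pM ↔ DivS OM t 1 (b : F))
    (memV : ∀ b : B, b ∈ pV ↔ DivS OV ϖ 1 (b : F))
    [pF.IsPrime] [pM.IsPrime] [pV.IsPrime]
    [IsDedekindDomain (B ⧸ pF)] [IsDedekindDomain (B ⧸ pM)] [IsDedekindDomain (B ⧸ pV)]
    (hsome : ∀ n : Ideal B, n.IsMaximal → (⟨ϖ, hB.unif_mem⟩ : B) ∈ n →
      pF ≤ n ∨ pM ≤ n ∨ pV ≤ n)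
    (hreg : ∀ n : Ideal B, n.IsMaximal → (⟨ϖ, hB.unif_mem⟩ : B) ∈ n →
      RegAt q (⟨ϖ, hB.unif_mem⟩ : B) pF pM pV n)
    {D : Type*} [CommRing D] [Algebra B D] [IsDedekindDomain D] [Algebra D F]
    [IsScalarTower B D F] [IsFractionRing D F] [IsLocalization.Away (⟨ϖ, hB.unif_mem⟩ : B) D]
    (u : F) (hu : u ≠ 0)
    (hdiv : ∃ (ι : Type) (_ : Fintype ι) (g g' : ι → F),
      (∀ i, ∃ d : D, algebraMap D F d = g i ^ m * u) ∧
      (∀ i, ∃ d : D, algebraMap D F d = g' i ^ m * u⁻¹) ∧ ∑ i, g i * g' i = 1) :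
    LPall ϖ m B hB.unif_mem u := by
  intro n hn hϖn
  have := hn
  obtain ⟨⟨xF, hxF, gF⟩, ⟨xM, hxM, gM⟩, ⟨xV, hxV, gV⟩⟩ :=
    locPrinc_of_regAt hq hO hOle hϖ0 ram hB pF pM pV memF memM memV n (hreg n hn hϖn)
  rcases hsome n hn hϖn with h | h | h
  · exact lp_reg (D := D) (⟨ϖ, hB.unif_mem⟩ : B) n pF h ((memF _).2 divS_self) xF hxF gF m hm u hu
      hdiv
  · exact lp_reg (D := D) (⟨ϖ, hB.unif_mem⟩ : B) n pM h
      ((memM _).2 (BrLP.unif_divS_mid hq ram htM hϖ0)) xM hxM gM m hm u hu hdiv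
  · exact lp_reg (D := D) (⟨ϖ, hB.unif_mem⟩ : B) n pV h ((memV _).2 divS_self) xV hxV gV m hm u hu
      hdiv

end

end Fermat.Agent.S36
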