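import Fermat.Agent.S35.GDV

/-!
# S36, abstract block : the integer valued valuation of an `IsDV`, one-units
-/

set_option autoImplicit false

namespace Fermat.Agent.S36

open Fermat.Agent.S34 Fermat.Agent.S35

variable {F : Type*} [Field F] {O : Subring F} {ϖ : F}

/-- the normalised valuation (`0 ↦ 0`). -/
noncomputable def vl (h : IsDV O ϖ) (x : F) : ℤ :=
  open Classical in if hx : x = 0 then 0 else - (h.exists_zpow hx).choose

theorem vl_spec (h : IsDV O ϖ) {x : F} (hx : x ≠ 0) : IsU O (x * ϖ ^ (- vl h x)) := by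
  rw [vl, dif_neg hx, neg_neg]
  exact (h.exists_zpow hx).choose_spec

theorem isU_zpow_iff (h : IsDV O ϖ) {n : ℤ} : IsU O (ϖ ^ n) ↔ n = 0 := by
  constructor
  · intro hu
    by_contra hn
    rcases lt_or_gt_of_ne hn with h1 | h1
    · exact h.zpow_notMem h1 hu.mem
    · apply h.zpow_notMem (n := -n) (by omega)
      rw [zpow_neg]
      exact hu.inv_mem
  · rintro rfl
    rw [zpow_zero]
    exact isU_one

theorem vl_eq (h : IsDV O ϖ) {x : F} {a : ℤ} (hu : IsU O (x * ϖ ^ (-a))) : vl h x = a := by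
  have hx : x ≠ 0 := fun h0 => hu.ne_zero (by rw [h0, zero_mul])
  have h1 := (vl_spec h hx).div hu
  have h0 := h.ne_zero
  have e : x * ϖ ^ (- vl h x) / (x * ϖ ^ (-a)) = ϖ ^ (a - vl h x) := by
    rw [mul_div_mul_left _ _ hx, ← zpow_sub₀ h0]
    congr 1
    ring
  rw [e, isU_zpow_iff h] at h1
  omega

theorem vl_eq_zero (h : IsDV O ϖ) {x : F} (hu : IsU O x) : vl h x = 0 :=
  vl_eq h (by simpa using hu)

theorem isU_of_vl (h : IsDV O ϖ) {x : F} (hx : x ≠ 0) (hv : vl h x = 0) : IsU O x := by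
  have := vl_spec h hx
  rwa [hv, neg_zero, zpow_zero, mul_one] at this

theorem vl_mul (h : IsDV O ϖ) {x y : F} (hx : x ≠ 0) (hy : y ≠ 0) :
    vl h (x * y) = vl h x + vl h y := by
  apply vl_eq h
  have := (vl_spec h hx).mul (vl_spec h hy)
  have e : x * ϖ ^ (- vl h x) * (y * ϖ ^ (- vl h y)) = x * y * ϖ ^ (-(vl h x + vl h y)) := by
    rw [neg_add, zpow_add₀ h.ne_zero]
    ring
  rwa [e] at this

theorem vl_unif (h : IsDV O ϖ) : vl h ϖ = 1 := by
  apply vl_eq h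
  rw [zpow_neg_one, mul_inv_cancel₀ h.ne_zero]
  exact isU_one

theorem vl_inv (h : IsDV O ϖ) {x : F} (hx : x ≠ 0) : vl h x⁻¹ = - vl h x := by
  have h1 := vl_mul h hx (inv_ne_zero hx)
  rw [mul_inv_cancel₀ hx, vl_eq_zero h isU_one] at h1
  omega

theorem vl_div (h : IsDV O ϖ) {x y : F} (hx : x ≠ 0) (hy : y ≠ 0) :
    vl h (x / y) = vl h x - vl h y := by
  rw [div_eq_mul_inv, vl_mul h hx (inv_ne_zero hy), vl_inv h hy]
  ring

theorem vl_pow (h : IsDV O ϖ) {x : F} (hx : x ≠ 0) (n : ℕ) : vl h (x ^ n) = n * vl h x := by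
  induction n with
  | zero => rw [pow_zero, vl_eq_zero h isU_one]; simp
  | succ n ih =>
    rw [pow_succ, vl_mul h (pow_ne_zero n hx) hx, ih]
    push_cast
    ring

theorem vl_zpow (h : IsDV O ϖ) {x : F} (hx : x ≠ 0) (n : ℤ) : vl h (x ^ n) = n * vl h x := by
  obtain ⟨k, rfl | rfl⟩ := n.eq_nat_or_neg
  · rw [zpow_natCast, vl_pow h hx]
  · rw [zpow_neg, zpow_natCast, vl_inv h (pow_ne_zero k hx), vl_pow h hx]
    ring

theorem mem_of_vl (h : IsDV O ϖ) {x : F} (hx : x ≠ 0) (hv : 0 ≤ vl h x) : x ∈ O := by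
  have e : x = x * ϖ ^ (- vl h x) * ϖ ^ (vl h x) := by
    rw [mul_assoc, ← zpow_add₀ h.ne_zero, neg_add_cancel, zpow_zero, mul_one]
  rw [e]
  exact O.mul_mem (vl_spec h hx).mem (h.zpow_mem hv)

theorem vl_nonneg (h : IsDV O ϖ) {x : F} (hx : x ≠ 0) (hm : x ∈ O) : 0 ≤ vl h x := by
  by_contra hv
  apply h.zpow_notMem (n := vl h x) (by omega)
  have e : ϖ ^ (vl h x) = x * (x * ϖ ^ (- vl h x))⁻¹ := by
    rw [mul_inv, ← mul_assoc, mul_inv_cancel₀ hx, one_mul, zpow_neg, inv_inv]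
  rw [e]
  exact O.mul_mem hm (vl_spec h hx).inv_mem

theorem divS_of_vl (h : IsDV O ϖ) {x : F} (hx : x ≠ 0) (hv : 1 ≤ vl h x) : DivS O ϖ 1 x := by
  refine ⟨x * ϖ⁻¹, ?_, ?_⟩
  · apply mem_of_vl h (mul_ne_zero hx (inv_ne_zero h.ne_zero))
    rw [vl_mul h hx (inv_ne_zero h.ne_zero), vl_inv h h.ne_zero, vl_unif h]
    omega
  · rw [pow_one, mul_comm x, mul_inv_cancel_left₀ h.ne_zero]

theorem vl_pos (h : IsDV O ϖ) {x : F} (hx : x ≠ 0) (hd : DivS O ϖ 1 x) : 1 ≤ vl h x := by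
  obtain ⟨y, hy, rfl⟩ := hd
  have hy0 : y ≠ 0 := fun h0 => hx (by rw [h0, mul_zero])
  rw [pow_one, vl_mul h h.ne_zero hy0, vl_unif h]
  have := vl_nonneg h hy0 hy
  omega

/-! ### one-units -/

/-- `x ≡ 1` modulo `ϖ O`. -/
def OneU (O : Subring F) (ϖ : F) (x : F) : Prop := DivS O ϖ 1 (x - 1)

theorem OneU.isU (h : IsDV O ϖ) {x : F} (hx : OneU O ϖ x) : IsU O x := h.isU_of_sub isU_one hx

theorem oneU_one : OneU O ϖ (1 : F) := by
  rw [OneU, sub_self]; exact divS_zero 1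

theorem OneU.mul (h : IsDV O ϖ) {x y : F} (hx : OneU O ϖ x) (hy : OneU O ϖ y) :
    OneU O ϖ (x * y) := by
  have := cong_mul (O := O) (ϖ := ϖ) (x := x) (x' := 1) (y := y) (y' := 1) O.one_mem
    (hy.isU h).mem hx hy
  rwa [one_mul] at this

theorem OneU.inv (h : IsDV O ϖ) {x : F} (hx : OneU O ϖ x) : OneU O ϖ x⁻¹ := by
  have hu := hx.isU h
  have e : x⁻¹ - 1 = -((x - 1) * x⁻¹) := by
    have := hu.ne_zero
    field_simp
    ring
  rw [OneU, e]
  exact (S34.DivS.mul_right hx hu.inv_mem).neg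

theorem OneU.pow (h : IsDV O ϖ) {x : F} (hx : OneU O ϖ x) (n : ℕ) : OneU O ϖ (x ^ n) := by
  induction n with
  | zero => rw [pow_zero]; exact oneU_one
  | succ n ih => rw [pow_succ]; exact ih.mul h hx

theorem OneU.zpow (h : IsDV O ϖ) {x : F} (hx : OneU O ϖ x) (n : ℤ) : OneU O ϖ (x ^ n) := by
  obtain ⟨k, rfl | rfl⟩ := n.eq_nat_or_neg
  · rw [zpow_natCast]; exact hx.pow h k
  · rw [zpow_neg, zpow_natCast]; exact (hx.pow h k).inv h

theorem OneU.div (h : IsDV O ϖ) {x y : F} (hx : OneU O ϖ x) (hy : OneU O ϖ y) :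
    OneU O ϖ (x / y) := by
  rw [div_eq_mul_inv]; exact hx.mul h (hy.inv h)

/-- `x ≡ y`, `y` a unit ⟹ `x / y ≡ 1`. -/
theorem oneU_div_of_cong {x y : F} (hy : IsU O y) (hxy : DivS O ϖ 1 (x - y)) :
    OneU O ϖ (x / y) := by
  have := cong_div (O := O) (ϖ := ϖ) (x := x) (x' := 1) hy (by rwa [one_mul])
  exact this

/-- `x / y ≡ 1`, `y ∈ O` ⟹ `x ≡ y`. -/
theorem cong_of_oneU_div {x y : F} (hy0 : y ≠ 0) (hy : y ∈ O) (hxy : OneU O ϖ (x / y)) :
    DivS O ϖ 1 (x - y) := by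
  have e : x - y = (x / y - 1) * y := by field_simp
  rw [e]
  exact S34.DivS.mul_right hxy hy

end Fermat.Agent.S36
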