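import Fermat.Agent.S36.AVal
import Fermat.Agent.S36.GDefs
import Fermat.Agent.S36.NVal3
import Fermat.Agent.S35.GIC
import Fermat.Agent.S35.GLP

/-!
# S36, bridge [BR-PT] : `(REG n)` + dichotomy + `B ⧸ p i` Dedekind ⟹ `Pt` and `LocPrinc`

`(REG n)` : `s * ϖ = c * ∏ i, x i ^ k i` with `s ∉ n`, `x i ∈ B ∩ 𝔪 i`, `k i` the multiplicity of
the component `i` in the special fibre (`ϖ = unit * π i ^ k i`).
-/

set_option autoImplicit false

namespace Fermat.Agent.S36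

open Fermat.Agent.S34 Fermat.Agent.S35

variable {F : Type*} [Field F]

/-- **(REG n)**. -/
def Reg (O : Fin 3 → Subring F) (π : Fin 3 → F) (k : Fin 3 → ℕ) (ϖ : F) (B : Subring F)
    (n : Ideal B) : Prop :=
  ∃ (x : Fin 3 → B) (s c : B), s ∉ n ∧ (s : F) * ϖ = c * ∏ i, (x i : F) ^ k i ∧
    ∀ i, DivS (O i) (π i) 1 (x i : F)

namespace BrPt

variable {O : Subring F} {π : F}

theorem isU_of_mul_left {x y : F} (hx : x ∈ O) (hy : y ∈ O) (h : IsU O (x * y)) : IsU O x := by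
  have h0 := h.ne_zero
  have hx0 : x ≠ 0 := left_ne_zero_of_mul h0
  have hy0 : y ≠ 0 := right_ne_zero_of_mul h0
  refine ⟨hx0, hx, ?_⟩
  have : x⁻¹ = y * (x * y)⁻¹ := by field_simp
  rw [this]
  exact mul_mem hy h.inv_mem

theorem isU_of_mul_right {x y : F} (hx : x ∈ O) (hy : y ∈ O) (h : IsU O (x * y)) : IsU O y :=
  isU_of_mul_left hy hx (by rwa [mul_comm])

theorem isU_of_pow {x : F} {k : ℕ} (hk : 0 < k) (hx : x ∈ O) (h : IsU O (x ^ k)) : IsU O x := by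
  obtain ⟨k', rfl⟩ : ∃ k', k = k' + 1 := ⟨k - 1, by omega⟩
  rw [pow_succ] at h
  exact isU_of_mul_right (pow_mem hx _) hx h

/-- the valuations in `s * ϖ = c * x ^ k * y`. -/
theorem reg_val (h : IsDV O π) {ϖ : F} {k : ℕ} (hk : 0 < k) (hϖ : IsU O (ϖ / π ^ k))
    {s c x y : F} (hs : IsU O s) (hc : c ∈ O) (hx : DivS O π 1 x) (hy : y ∈ O)
    (hrel : s * ϖ = c * x ^ k * y) : IsU O (x / π) ∧ IsU O y ∧ IsU O c := by
  have hπ0 := h.ne_zero
  have hϖ0 : ϖ ≠ 0 := fun h0 => hϖ.ne_zero (by rw [h0, zero_div])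
  have hl : s * ϖ ≠ 0 := mul_ne_zero hs.ne_zero hϖ0
  rw [hrel] at hl
  have hy0 : y ≠ 0 := right_ne_zero_of_mul hl
  have hcx := left_ne_zero_of_mul hl
  have hc0 : c ≠ 0 := left_ne_zero_of_mul hcx
  have hxk : x ^ k ≠ 0 := right_ne_zero_of_mul hcx
  have hx0 : x ≠ 0 := fun h0 => hxk (by rw [h0, zero_pow hk.ne'])
  have e1 : vl h (s * ϖ) = vl h (c * x ^ k * y) := by rw [hrel]
  rw [vl_mul h hs.ne_zero hϖ0, vl_mul h hcx hy0, vl_mul h hc0 hxk, vl_pow h hx0,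
    vl_eq_zero h hs] at e1
  have e2 : vl h ϖ = k := by
    have := vl_eq_zero h hϖ
    rw [vl_div h hϖ0 (pow_ne_zero k hπ0), vl_pow h hπ0, vl_unif h] at this
    omega
  have h1 := vl_pos h hx0 hx
  have h2 := vl_nonneg h hy0 hy
  have h3 := vl_nonneg h hc0 hc
  have hk' : (0 : ℤ) < k := by exact_mod_cast hk
  have h4 : vl h x = 1 := by nlinarith
  rw [h4] at e1
  refine ⟨?_, isU_of_vl h hy0 (by omega), isU_of_vl h hc0 (by omega)⟩
  apply isU_of_vl h (div_ne_zero hx0 hπ0)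
  rw [vl_div h hx0 hπ0, vl_unif h, h4]
  ring

/-- change of uniformiser. -/
theorem isDV_of_unit (h : IsDV O π) {x : F} (hx : IsU O (x / π)) : IsDV O x := by
  have hπ0 := h.ne_zero
  have hx0 : x ≠ 0 := fun h0 => hx.ne_zero (by rw [h0, zero_div])
  have e : x = x / π * π := by field_simp
  refine ⟨hx0, ?_, ?_, ?_⟩
  · rw [e]; exact mul_mem hx.mem h.mem
  · intro hc
    apply h.inv_notMem
    have : π⁻¹ = x⁻¹ * (x / π) := by field_simp
    rw [this]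
    exact mul_mem hc hx.mem
  · intro z hz
    obtain ⟨a, ha⟩ := h.exists_zpow hz
    have hu := ha.mul (hx.zpow a)
    have e2 : z * π ^ a * (x / π) ^ a = z * x ^ a := by
      rw [div_zpow]
      have := zpow_ne_zero a hπ0
      field_simp
    rw [e2] at hu
    exact ⟨a, hu.mem, hu.inv_mem⟩

theorem divS_unit_iff (h : IsDV O π) {x : F} (hx : IsU O (x / π)) {z : F} :
    DivS O x 1 z ↔ DivS O π 1 z := by
  have hπ0 := h.ne_zero
  have hx0 : x ≠ 0 := fun h0 => hx.ne_zero (by rw [h0, zero_div])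
  constructor
  · rintro ⟨y, hy, rfl⟩
    exact ⟨x / π * y, mul_mem hx.mem hy, by field_simp⟩
  · rintro ⟨y, hy, rfl⟩
    refine ⟨(x / π)⁻¹ * y, mul_mem hx.inv_mem hy, ?_⟩
    field_simp

/-- `a ∈ 𝔪`, `x ∈ 𝔪` ⟹ `a x ^ (k - 1) ∈ ϖ O`. -/
theorem divS_mul_pow (h : IsDV O π) {ϖ : F} {k : ℕ} (hϖ : IsU O (ϖ / π ^ (k + 1))) {a x : F}
    (ha : DivS O π 1 a) (hx : DivS O π 1 x) : DivS O ϖ 1 (a * x ^ k) := by
  obtain ⟨a', ha', rfl⟩ := ha
  obtain ⟨x', hx', rfl⟩ := hx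
  have hπ0 := h.ne_zero
  have hϖ0 : ϖ ≠ 0 := fun h0 => hϖ.ne_zero (by rw [h0, zero_div])
  refine ⟨(ϖ / π ^ (k + 1))⁻¹ * (a' * x' ^ k), mul_mem hϖ.inv_mem (mul_mem ha' (pow_mem hx' _)), ?_⟩
  field_simp
  ring

end BrPt

open BrPt

/-- the consequences of `(REG n)` on one branch through `n`. -/
theorem on_of_reg {O : Fin 3 → Subring F} {π : Fin 3 → F} {ϖ : F} (dv : ∀ i, IsDV (O i) (π i))
    (k : Fin 3 → ℕ) (hk : ∀ i, 0 < k i) (hram : ∀ i, IsU (O i) (ϖ / π i ^ k i))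
    {m : ℕ} (hm : 0 < m) {B : Subring F} (hB : IsChartS (OO O) ϖ m B)
    (hfrac : ∀ f : F, ∃ a ∈ B, ∃ b ∈ B, b ≠ 0 ∧ f * b = a)
    (n : Ideal B) (hreg : Reg O π k ϖ B n)
    (i : Fin 3) (p : Ideal B) [p.IsPrime] [IsDedekindDomain (B ⧸ p)]
    (hp : ∀ b : B, b ∈ p ↔ DivS (O i) (π i) 1 (b : F)) (hpn : p ≤ n) :
    On O π ϖ m B hB.unif_mem n i ∧ ∃ t, LocPrinc n p t := by
  classical
  obtain ⟨x, s, c, hs, hrel, hx⟩ := hreg
  have hϖ0 : ϖ ≠ 0 := fun h0 => (hram 0).ne_zero (by rw [h0, zero_div])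
  have hBO : ∀ (b : B) (j : Fin 3), (b : F) ∈ O j := fun b j => mem_OO.1 (hB.le _ b.2) j
  -- the cofactor
  set y : Fin 3 → F := fun j => ∏ l ∈ Finset.univ.erase j, (x l : F) ^ k l with hy
  have hyB : ∀ j, y j ∈ B := fun j => Subring.prod_mem _ fun l _ => pow_mem (x l).2 _
  have hprod : ∀ j, ∏ l, (x l : F) ^ k l = (x j : F) ^ k j * y j := fun j =>
    (Finset.mul_prod_erase _ _ (Finset.mem_univ j)).symm
  have hrel' : ∀ j, (s : F) * ϖ = c * (x j : F) ^ k j * y j := fun j => by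
    rw [hrel, hprod j, mul_assoc]
  -- branches through `n`
  have hval : ∀ j, (∀ b : B, DivS (O j) (π j) 1 (b : F) → b ∈ n) →
      IsU (O j) ((x j : F) / π j) ∧ IsU (O j) (y j) ∧ IsU (O j) (c : F) := by
    intro j hj
    have hsU : IsU (O j) (s : F) := ((dv j).isU_or (hBO s j)).resolve_right fun h => hs (hj s h)
    exact reg_val (dv j) (hk j) (hram j) hsU (hBO c j) (hx j) (hBO ⟨_, hyB j⟩ j) (hrel' j)
  have hle : ∀ b : B, DivS (O i) (π i) 1 (b : F) → b ∈ n := fun b hb => hpn ((hp b).2 hb)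
  obtain ⟨hxi, hyi, hci⟩ := hval i hle
  have hxi0 : (x i : F) ≠ 0 := fun h0 => hxi.ne_zero (by rw [h0, zero_div])
  have hyi0 : y i ≠ 0 := hyi.ne_zero
  obtain ⟨k', hk'⟩ : ∃ k', k i = k' + 1 := ⟨k i - 1, by have := hk i; omega⟩
  -- local generator
  have hgen : ∀ b ∈ p, ∃ b' : B, (s : F) * (b : F) = (x i : F) * (b' : F) := by
    intro b hb
    have hd : DivS (OO O) ϖ 1 ((b : F) * (x i : F) ^ k' * y i) := by
      refine (divS_OO hϖ0).2 fun j => ?_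
      by_cases hj : j = i
      · subst hj
        have h1 := hram j
        rw [hk'] at h1
        exact (divS_mul_pow (dv j) h1 ((hp b).1 hb) (hx j)).mul_right (hBO ⟨_, hyB j⟩ j)
      · have e : y i = (x j : F) ^ k j * ∏ l ∈ (Finset.univ.erase i).erase j, (x l : F) ^ k l :=
          (Finset.mul_prod_erase _ _ (Finset.mem_erase.2 ⟨hj, Finset.mem_univ j⟩)).symm
        obtain ⟨kj, hkj⟩ : ∃ kj, k j = kj + 1 := ⟨k j - 1, by have := hk j; omega⟩
        have h1 := hram j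
        rw [hkj] at h1
        have h2 := divS_mul_pow (dv j) h1 (hx j) (hx j)
        have e2 : (b : F) * (x i : F) ^ k' * y i = (x j : F) * (x j : F) ^ kj *
            ((b : F) * (x i : F) ^ k' * ∏ l ∈ (Finset.univ.erase i).erase j, (x l : F) ^ k l) := by
          rw [e, hkj]; ring
        rw [e2]
        apply h2.mul_right
        exact mul_mem (mul_mem (hBO b j) (pow_mem (hBO _ j) _))
          (Subring.prod_mem _ fun l _ => pow_mem (hBO _ j) _)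
    obtain ⟨b'', hb'', e⟩ := hB.sat _ (mul_mem (mul_mem b.2 (pow_mem (x i).2 _)) (hyB i)) hd
    refine ⟨c * ⟨b'', hb''⟩, ?_⟩
    push_cast
    have h3 : (x i : F) ^ k' * y i ≠ 0 := mul_ne_zero (pow_ne_zero _ hxi0) hyi0
    apply mul_right_cancel₀ h3
    have h4 := hrel' i
    rw [hk'] at h4
    calc (s : F) * b * ((x i : F) ^ k' * y i) = s * ((b : F) * (x i : F) ^ k' * y i) := by ring
      _ = (s * ϖ) * b'' := by rw [e]; ring
      _ = _ := by rw [h4]; ring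
  have hsp : s ∉ p := fun h => hs (hpn h)
  refine ⟨⟨hle, ⟨(x i : F), hxi, ?_, ?_, ?_⟩, ?_⟩, x i, (hp _).2 (hx i), ?_⟩
  · exact GLP.inTube_iff.2 ⟨1, fun h => hs (by
      have := n.mul_mem_left s h
      rwa [mul_one] at this), 0, x i, by simp⟩
  · refine GLP.inTube_iff.2 ⟨s, hs, 1, c * x i ^ k' * ⟨_, hyB i⟩, ?_⟩
    push_cast
    have h4 := hrel' i
    rw [hk'] at h4
    rw [pow_one, h4]
    field_simp
    ring
  · intro j hj
    by_cases hjn : ∀ b : B, DivS (O j) (π j) 1 (b : F) → b ∈ n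
    · left
      obtain ⟨-, hyj, -⟩ := hval j hjn
      have e : y j = (x i : F) ^ k i * ∏ l ∈ (Finset.univ.erase j).erase i, (x l : F) ^ k l :=
        (Finset.mul_prod_erase _ _ (Finset.mem_erase.2 ⟨hj.symm, Finset.mem_univ i⟩)).symm
      rw [e] at hyj
      exact isU_of_pow (hk i) (hBO _ j) (isU_of_mul_left (pow_mem (hBO _ j) _)
        (Subring.prod_mem _ fun l _ => pow_mem (hBO _ j) _) hyj)
    · right
      push Not at hjn
      obtain ⟨b, hb, hbn⟩ := hjn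
      exact ⟨b, hbn, hb⟩
  · intro f hf e he
    have hdv' := isDV_of_unit (dv i) hxi
    obtain ⟨a, ha⟩ := ic hdv' (fun z hz => hBO ⟨z, hz⟩ i) hfrac p
      (fun b => (hp b).trans (divS_unit_iff (dv i) hxi).symm) s hsp hgen hm f hf e
      ((divS_unit_iff (dv i) hxi).2 he)
    exact ⟨a, (divS_unit_iff (dv i) hxi).1 ha⟩
  · intro b hb
    obtain ⟨b', e⟩ := hgen b hb
    exact ⟨s, hs, b', Subtype.ext (by push_cast; rw [e, mul_comm])⟩

/-- **[BR-PT]**. -/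
theorem pt_of_reg {O : Fin 3 → Subring F} {π : Fin 3 → F} {ϖ : F} (dv : ∀ i, IsDV (O i) (π i))
    (k : Fin 3 → ℕ) (hk : ∀ i, 0 < k i) (hram : ∀ i, IsU (O i) (ϖ / π i ^ k i))
    {m : ℕ} (hm : 0 < m) {B : Subring F} (hB : IsChartS (OO O) ϖ m B)
    (hfrac : ∀ f : F, ∃ a ∈ B, ∃ b ∈ B, b ≠ 0 ∧ f * b = a)
    (p : Fin 3 → Ideal B) (hprime : ∀ i, (p i).IsPrime)
    (hded : ∀ i, IsDedekindDomain (B ⧸ p i))
    (hp : ∀ i, ∀ b : B, b ∈ p i ↔ DivS (O i) (π i) 1 (b : F))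
    (n : Ideal B) (hreg : Reg O π k ϖ B n)
    (hdich : (∀ i, p i ≤ n) ∨ ∃ i, p i ≤ n ∧ ∀ j, j ≠ i → ¬ p j ≤ n) :
    Pt O π ϖ m B hB.unif_mem n := by
  rcases hdich with h | ⟨i, hi, hj⟩
  · right
    intro i
    have := hprime i
    have := hded i
    exact (on_of_reg dv k hk hram hm hB hfrac n hreg i (p i) (hp i) (h i)).1
  · left
    have := hprime i
    have := hded i
    refine ⟨i, (on_of_reg dv k hk hram hm hB hfrac n hreg i (p i) (hp i) hi).1, fun j hji => ?_⟩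
    obtain ⟨θ, hθ, hθn⟩ := SetLike.not_le_iff_exists.1 (hj j hji)
    exact ⟨θ, hθn, (hp j θ).1 hθ⟩

/-- some component through `n` is locally principal (input `hgen` of `lp_reg`). -/
theorem locPrinc_of_reg {O : Fin 3 → Subring F} {π : Fin 3 → F} {ϖ : F}
    (dv : ∀ i, IsDV (O i) (π i))
    (k : Fin 3 → ℕ) (hk : ∀ i, 0 < k i) (hram : ∀ i, IsU (O i) (ϖ / π i ^ k i))
    {m : ℕ} (hm : 0 < m) {B : Subring F} (hB : IsChartS (OO O) ϖ m B)
    (hfrac : ∀ f : F, ∃ a ∈ B, ∃ b ∈ B, b ≠ 0 ∧ f * b = a)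
    (n : Ideal B) (hreg : Reg O π k ϖ B n)
    (i : Fin 3) (p : Ideal B) [p.IsPrime] [IsDedekindDomain (B ⧸ p)]
    (hp : ∀ b : B, b ∈ p ↔ DivS (O i) (π i) 1 (b : F)) (hpn : p ≤ n) : ∃ t, LocPrinc n p t :=
  (on_of_reg dv k hk hram hm hB hfrac n hreg i p hp hpn).2

/-- the concrete form of `(REG n)`. -/
theorem reg_of_rel {OF OM OV : Subring F} {ϖ t : F} {e : ℕ} {B : Subring F} {n : Ideal B}
    (xF xM xV s c : B) (hs : s ∉ n) (hrel : (s : F) * ϖ = c * xF * (xM : F) ^ e * xV)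
    (hF : DivS OF ϖ 1 (xF : F)) (hM : DivS OM t 1 (xM : F)) (hV : DivS OV ϖ 1 (xV : F)) :
    Reg ![OF, OM, OV] ![ϖ, t, ϖ] ![1, e, 1] ϖ B n := by
  refine ⟨![xF, xM, xV], s, c, hs, ?_, ?_⟩
  · rw [hrel, Fin.prod_univ_three]
    simp
    ring
  · intro i
    fin_cases i
    · exact hF
    · exact hM
    · exact hV

end Fermat.Agent.S36
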