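import Fermat.Agent.S36.BrPt
import Fermat.Agent.S36.Br3
import Fermat.Agent.S36.BrReg2

/-!
# S36, bridge [BR-PT], concrete form : `RegAt` + dichotomy on a `Chart3` over a `Lvl1` ⟹ `Pt`
for `O = ![OF, OM, OV]`, `π = ![ϖ, t, ϖ]`, and `LocPrinc` of the components through `n`.
-/

set_option autoImplicit false

namespace Fermat.Agent.S36

open Fermat.Agent.S34 Fermat.Agent.S35

theorem OO_vec {F : Type*} [Field F] (OF OM OV : Subring F) :
    OO ![OF, OM, OV] = OF ⊓ OM ⊓ OV := by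
  ext x
  rw [mem_OO]
  constructor
  · intro h
    exact ⟨⟨h 0, h 1⟩, h 2⟩
  · rintro ⟨⟨h0, h1⟩, h2⟩ i
    fin_cases i
    · exact h0
    · exact h1
    · exact h2

variable {F1 F2 : Type*} [Field F1] [Field F2] {q : ℕ} {O1 O2 : Subring F1} {ϖ1 : F1}
  {OF OM OV : Subring F2} {ϖ t : F2} {al be : F1 →+* F2} {nA nB : F2 →* F1}

theorem Chart3.chartOO {m : ℕ} {B : Subring F2} {pF pM pV : Ideal B}
    (h : Chart3 OF OM OV ϖ t m B pF pM pV) : IsChartS (OO ![OF, OM, OV]) ϖ m B := by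
  rw [OO_vec]
  exact h.chart

theorem Lvl1.dv3 (L : Lvl1 q O1 O2 ϖ1 OF OM OV ϖ t al be nA nB) :
    ∀ i, IsDV (![OF, OM, OV] i) (![ϖ, t, ϖ] i) := by
  intro i
  fin_cases i
  · exact L.dvF
  · exact L.dvM
  · exact L.dvV

theorem Lvl1.ram3 (L : Lvl1 q O1 O2 ϖ1 OF OM OV ϖ t al be nA nB) :
    ∀ i, IsU (![OF, OM, OV] i) (ϖ / ![ϖ, t, ϖ] i ^ (![1, q - 1, 1] : Fin 3 → ℕ) i) := by
  have h0 : ϖ ≠ 0 := L.dvF.ne_zero
  intro i
  fin_cases i
  · change IsU OF (ϖ / ϖ ^ 1)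
    rw [pow_one, div_self h0]
    exact isU_one
  · change IsU OM (ϖ / t ^ (q - 1))
    have := L.ram.inv
    rwa [inv_div] at this
  · change IsU OV (ϖ / ϖ ^ 1)
    rw [pow_one, div_self h0]
    exact isU_one

theorem mult3_pos (hq : 2 ≤ q) : ∀ i, 0 < (![1, q - 1, 1] : Fin 3 → ℕ) i := by
  intro i
  fin_cases i
  · exact one_pos
  · change 0 < q - 1
    omega
  · exact one_pos

theorem Chart3.reg_of_regAt {m : ℕ} {B : Subring F2} {pF pM pV : Ideal B}
    (h : Chart3 OF OM OV ϖ t m B pF pM pV) {n : Ideal B}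
    (hreg : RegAt q (⟨ϖ, h.chart.unif_mem⟩ : B) pF pM pV n) :
    Reg ![OF, OM, OV] ![ϖ, t, ϖ] ![1, q - 1, 1] ϖ B n := by
  obtain ⟨xF, xM, xV, s, c, hs, hrel, hF, hM, hV⟩ := hreg
  refine reg_of_rel xF xM xV s c hs ?_ ((h.memA _).1 hF) ((h.memC _).1 hM) ((h.memB _).1 hV)
  have := congrArg (Subtype.val) hrel
  simpa using this

/-- **[BR-PT]**, concrete form. -/
theorem Chart3.pt_of_regAt (L : Lvl1 q O1 O2 ϖ1 OF OM OV ϖ t al be nA nB) (hq : 2 ≤ q)
    {m : ℕ} (hm : 0 < m) {B : Subring F2} {pF pM pV : Ideal B}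
    [pF.IsPrime] [pM.IsPrime] [pV.IsPrime] [IsDedekindDomain (B ⧸ pF)]
    [IsDedekindDomain (B ⧸ pM)] [IsDedekindDomain (B ⧸ pV)]
    (h : Chart3 OF OM OV ϖ t m B pF pM pV) (n : Ideal B)
    (hreg : RegAt q (⟨ϖ, h.chart.unif_mem⟩ : B) pF pM pV n)
    (hsome : pF ≤ n ∨ pM ≤ n ∨ pV ≤ n) (hFM : pF ≤ n → pM ≤ n → pV ≤ n)
    (hMV : pM ≤ n → pV ≤ n → pF ≤ n) (hFV : pF ≤ n → pV ≤ n → pM ≤ n) :
    Pt ![OF, OM, OV] ![ϖ, t, ϖ] ϖ m B h.chartOO.unif_mem n := by
  refine pt_of_reg L.dv3 ![1, q - 1, 1] (mult3_pos hq) L.ram3 hm h.chartOO h.frac ![pF, pM, pV]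
    ?_ ?_ ?_ n (h.reg_of_regAt hreg) ?_
  · intro i
    fin_cases i
    · exact (inferInstance : pF.IsPrime)
    · exact (inferInstance : pM.IsPrime)
    · exact (inferInstance : pV.IsPrime)
  · intro i
    fin_cases i
    · exact (inferInstance : IsDedekindDomain (B ⧸ pF))
    · exact (inferInstance : IsDedekindDomain (B ⧸ pM))
    · exact (inferInstance : IsDedekindDomain (B ⧸ pV))
  · intro i
    fin_cases i
    · exact h.memA
    · exact h.memC
    · exact h.memB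
  · by_cases h0 : pF ≤ n <;> by_cases h1 : pM ≤ n <;> by_cases h2 : pV ≤ n
    · left
      intro i
      fin_cases i
      · exact h0
      · exact h1
      · exact h2
    · exact absurd (hFM h0 h1) h2
    · exact absurd (hFV h0 h2) h1
    · right
      refine ⟨0, h0, fun j hj => ?_⟩
      fin_cases j
      · exact absurd rfl hj
      · exact h1
      · exact h2
    · exact absurd (hMV h1 h2) h0
    · right
      refine ⟨1, h1, fun j hj => ?_⟩
      fin_cases j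
      · exact h0
      · exact absurd rfl hj
      · exact h2
    · right
      refine ⟨2, h2, fun j hj => ?_⟩
      fin_cases j
      · exact h0
      · exact h1
      · exact absurd rfl hj
    · rcases hsome with h | h | h
      · exact absurd h h0
      · exact absurd h h1
      · exact absurd h h2

/-- the components through `n` are locally principal (input `hgen` of `lp_reg`). -/
theorem Chart3.locPrinc_of_regAt (L : Lvl1 q O1 O2 ϖ1 OF OM OV ϖ t al be nA nB) (hq : 2 ≤ q)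
    {m : ℕ} (hm : 0 < m) {B : Subring F2} {pF pM pV : Ideal B}
    [pF.IsPrime] [pM.IsPrime] [pV.IsPrime] [IsDedekindDomain (B ⧸ pF)]
    [IsDedekindDomain (B ⧸ pM)] [IsDedekindDomain (B ⧸ pV)]
    (h : Chart3 OF OM OV ϖ t m B pF pM pV) (n : Ideal B)
    (hreg : RegAt q (⟨ϖ, h.chart.unif_mem⟩ : B) pF pM pV n) :
    (pF ≤ n → ∃ x, LocPrinc n pF x) ∧ (pM ≤ n → ∃ x, LocPrinc n pM x) ∧
      (pV ≤ n → ∃ x, LocPrinc n pV x) :=
  ⟨fun h0 => locPrinc_of_reg L.dv3 ![1, q - 1, 1] (mult3_pos hq) L.ram3 hm h.chartOO h.frac n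
      (h.reg_of_regAt hreg) 0 pF h.memA h0,
    fun h0 => locPrinc_of_reg L.dv3 ![1, q - 1, 1] (mult3_pos hq) L.ram3 hm h.chartOO h.frac n
      (h.reg_of_regAt hreg) 1 pM h.memC h0,
    fun h0 => locPrinc_of_reg L.dv3 ![1, q - 1, 1] (mult3_pos hq) L.ram3 hm h.chartOO h.frac n
      (h.reg_of_regAt hreg) 2 pV h.memB h0⟩

end Fermat.Agent.S36
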