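import Fermat.Agent.S34.LP

/-!
# S36, abstract block : (LP) at a point where one component is locally principal

`B` a noetherian domain, `n` a maximal ideal, `p ≤ n` a prime with `B ⧸ p` Dedekind and
`p B_n = t B_n`.  Then every prime `P ≤ n` of `B` with `t ∉ P` is locally principal at `n`
(`P = g B_n + t P`, Nakayama), hence (LP) holds at `n` for every `u` whose divisor on the generic
fibre is divisible by `m`, without any rationality hypothesis.
-/

set_option autoImplicit false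
set_option linter.unusedSectionVars false

open IsDedekindDomain

namespace Fermat.Agent.S36

open Fermat.Agent.S34 Fermat.Agent.S34.LP

section Local

variable {B : Type*} [CommRing B] [IsDomain B] [IsNoetherianRing B]

/-- Nakayama: `P ⊆ g B_n + t P` locally at `n` implies `P ⊆ g B_n` locally at `n`. -/
theorem loc_principal_of_nakayama (n : Ideal B) [n.IsPrime] (P : Ideal B) (g t : B) (ht : t ∈ n)
    (h : ∀ b ∈ P, ∃ s, s ∉ n ∧ ∃ c, ∃ d ∈ P, s * b = c * g + d * t) :
    ∀ b ∈ P, ∃ s, s ∉ n ∧ ∃ c, s * b = c * g := by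
  let A := Localization.AtPrime n
  have hinj : Function.Injective (algebraMap B A) :=
    IsLocalization.injective A n.primeCompl_le_nonZeroDivisors
  have hle : P.map (algebraMap B A) ≤ Ideal.span {algebraMap B A g} ⊔
      IsLocalRing.maximalIdeal A • P.map (algebraMap B A) := by
    rw [Ideal.map_le_iff_le_comap]
    intro b hb
    obtain ⟨s, hs, c, d, hd, e⟩ := h b hb
    have hsu : IsUnit (algebraMap B A s) := IsLocalization.map_units A (⟨s, hs⟩ : n.primeCompl)
    obtain ⟨s', hs'⟩ := hsu.exists_left_inv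
    rw [Ideal.mem_comap]
    have e2 : algebraMap B A b = (s' * algebraMap B A c) * algebraMap B A g
        + s' * (algebraMap B A t * algebraMap B A d) := by
      have e3 := congrArg (algebraMap B A) e
      simp only [map_mul, map_add] at e3
      calc algebraMap B A b = s' * algebraMap B A s * algebraMap B A b := by rw [hs', one_mul]
        _ = s' * (algebraMap B A s * algebraMap B A b) := by ring
        _ = _ := by rw [e3]; ring
    rw [e2]
    refine Submodule.add_mem_sup (Ideal.mul_mem_left _ _ (Ideal.mem_span_singleton_self _)) ?_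
    refine Ideal.mul_mem_left _ _ ?_
    rw [smul_eq_mul]
    refine Ideal.mul_mem_mul ?_ (Ideal.mem_map_of_mem _ hd)
    exact (IsLocalization.AtPrime.to_map_mem_maximal_iff A n t).2 ht
  have hfg : (P.map (algebraMap B A)).FG := IsNoetherian.noetherian _
  have hN := Submodule.le_of_le_smul_of_le_jacobson_bot hfg
    (IsLocalRing.maximalIdeal_le_jacobson (⊥ : Ideal A)) hle
  intro b hb
  have hb2 := hN (Ideal.mem_map_of_mem (algebraMap B A) hb)
  obtain ⟨a, ha⟩ := Ideal.mem_span_singleton'.1 hb2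
  obtain ⟨⟨c, s⟩, hcs⟩ := IsLocalization.surj n.primeCompl a
  refine ⟨s, s.2, c, hinj ?_⟩
  simp only at hcs
  rw [map_mul, map_mul, ← hcs, ← ha]
  ring

/-- in a Dedekind quotient every ideal is locally principal. -/
theorem exists_gen_mod (n : Ideal B) [n.IsMaximal] (p : Ideal B) [p.IsPrime]
    [IsDedekindDomain (B ⧸ p)] (hpn : p ≤ n) (P : Ideal B) (hP : ¬ P ≤ p) :
    ∃ g ∈ P, ∃ s, s ∉ n ∧ ∀ b ∈ P, ∃ c, s * b - c * g ∈ p := by
  have hsurj : Function.Surjective (Ideal.Quotient.mk p) := Ideal.Quotient.mk_surjective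
  set J := P.map (Ideal.Quotient.mk p) with hJ
  set nb := n.map (Ideal.Quotient.mk p) with hnb
  have hJ0 : J ≠ ⊥ := by
    intro h
    apply hP
    rw [hJ, Ideal.map_eq_bot_iff_le_ker, Ideal.mk_ker] at h
    exact h
  have hmem : ∀ x : B, Ideal.Quotient.mk p x ∈ nb → x ∈ n := by
    intro x hx
    obtain ⟨y, hy, e⟩ := (Ideal.mem_map_iff_of_surjective _ hsurj).1 hx
    have : x - y ∈ p := by
      rw [← Ideal.Quotient.eq]; exact e.symm
    have h2 := n.add_mem (hpn this) hy
    simpa using h2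
  have hnb1 : nb ≠ ⊤ := by
    intro h
    have : (1 : B) ∈ n := hmem 1 (by rw [h]; trivial)
    exact (inferInstance : n.IsMaximal).ne_top ((Ideal.eq_top_iff_one n).2 this)
  have hne : ¬ J ≤ J * nb := by
    intro h
    have h2 : J * nb = J * 1 := by
      rw [mul_one]
      exact le_antisymm Ideal.mul_le_left h
    exact hnb1 (by rw [← Ideal.one_eq_top]; exact mul_left_cancel₀ hJ0 h2)
  obtain ⟨gb, hgJ, hgn⟩ := SetLike.not_le_iff_exists.1 hne
  obtain ⟨g, hg, rfl⟩ := (Ideal.mem_map_iff_of_surjective _ hsurj).1 hgJ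
  have hdvd : J ∣ Ideal.span {Ideal.Quotient.mk p g} := by
    rw [Ideal.dvd_iff_le, Ideal.span_singleton_le_iff_mem]
    exact hgJ
  obtain ⟨J', hJ'⟩ := hdvd
  have hJn : ¬ J' ≤ nb := by
    intro h
    apply hgn
    have : Ideal.Quotient.mk p g ∈ J * J' := by
      rw [← hJ']; exact Ideal.mem_span_singleton_self _
    exact Ideal.mul_mono_right h this
  obtain ⟨sb, hsJ, hsn⟩ := SetLike.not_le_iff_exists.1 hJn
  obtain ⟨s, rfl⟩ := hsurj sb
  refine ⟨g, hg, s, fun h => hsn (Ideal.mem_map_of_mem _ h), fun b hb => ?_⟩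
  have h1 : Ideal.Quotient.mk p b * Ideal.Quotient.mk p s ∈ J * J' :=
    Ideal.mul_mem_mul (Ideal.mem_map_of_mem _ hb) hsJ
  rw [← hJ'] at h1
  obtain ⟨cb, hcb⟩ := Ideal.mem_span_singleton'.1 h1
  obtain ⟨c, rfl⟩ := hsurj cb
  refine ⟨c, ?_⟩
  rw [← Ideal.Quotient.eq, map_mul, map_mul, hcb, mul_comm]

/-- **Regularity ⟹ factoriality**, in the form we need: if `p B_n = t B_n`, `B ⧸ p` Dedekind, then
every nonzero prime `P ≤ n` with `t ∉ P` is principal at `n`. -/
theorem loc_principal (n : Ideal B) [n.IsMaximal] (p : Ideal B) [p.IsPrime]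
    [IsDedekindDomain (B ⧸ p)] (hpn : p ≤ n) (t : B) (ht : t ∈ p)
    (hgen : ∀ b ∈ p, ∃ s, s ∉ n ∧ ∃ c, s * b = c * t)
    (P : Ideal B) [P.IsPrime] (hP0 : P ≠ ⊥) (htP : t ∉ P) :
    ∃ g ∈ P, ∀ b ∈ P, ∃ s, s ∉ n ∧ ∃ c, s * b = c * g := by
  have hnp : n.IsPrime := (inferInstance : n.IsMaximal).isPrime
  by_cases hPp : P ≤ p
  · exfalso
    have h := loc_principal_of_nakayama n P 0 t (hpn ht) (fun b hb => by
      obtain ⟨s, hs, d, e⟩ := hgen b (hPp hb)
      refine ⟨s, hs, 0, d, ?_, by rw [e]; ring⟩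
      have : d * t ∈ P := by rw [← e]; exact P.mul_mem_left _ hb
      exact ((inferInstance : P.IsPrime).mem_or_mem this).resolve_right htP)
    apply hP0
    rw [eq_bot_iff]
    intro b hb
    obtain ⟨s, hs, c, e⟩ := h b hb
    rw [mul_zero] at e
    rcases mul_eq_zero.1 e with h0 | h0
    · exact absurd (h0 ▸ n.zero_mem) hs
    · exact h0
  · obtain ⟨g, hg, s, hs, h⟩ := exists_gen_mod n p hpn P hPp
    refine ⟨g, hg, loc_principal_of_nakayama n P g t (hpn ht) (fun b hb => ?_)⟩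
    obtain ⟨c, hc⟩ := h b hb
    obtain ⟨s', hs', d, e⟩ := hgen _ hc
    refine ⟨s' * s, fun h => (hnp.mem_or_mem h).elim hs' hs, s' * c, d, ?_, by linear_combination e⟩
    have : d * t ∈ P := by
      rw [← e]
      exact P.mul_mem_left _ (P.sub_mem (P.mul_mem_left _ hb) (P.mul_mem_left _ hg))
    exact ((inferInstance : P.IsPrime).mem_or_mem this).resolve_right htP

end Local

/-- **(LP) at a regular point**: one component through `n` is locally principal with Dedekind
quotient. -/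
theorem lp_reg {B F D : Type*} [CommRing B] [IsDomain B] [IsNoetherianRing B] [Field F]
    [Algebra B F] [CommRing D] [Algebra B D] [IsDedekindDomain D] [Algebra D F]
    [IsScalarTower B D F] [IsFractionRing D F] (ϖ : B) [IsLocalization.Away ϖ D]
    (n : Ideal B) [n.IsMaximal] (p : Ideal B) [p.IsPrime] [IsDedekindDomain (B ⧸ p)]
    (hpn : p ≤ n) (hϖp : ϖ ∈ p) (t : B) (ht : t ∈ p)
    (hgen : ∀ b ∈ p, ∃ s, s ∉ n ∧ ∃ c, s * b = c * t)
    (m : ℕ) (hm : 0 < m) (u : F) (hu : u ≠ 0)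
    (hdiv : ∃ (ι : Type) (_ : Fintype ι) (g g' : ι → F),
      (∀ i, ∃ d : D, algebraMap D F d = g i ^ m * u) ∧
      (∀ i, ∃ d : D, algebraMap D F d = g' i ^ m * u⁻¹) ∧ ∑ i, g i * g' i = 1) :
    ∃ G b1 : F, G ≠ 0 ∧ u = b1 * G ^ m ∧ InTube ϖ n b1 ∧ InTube ϖ n b1⁻¹ := by
  have hnp : n.IsPrime := (inferInstance : n.IsMaximal).isPrime
  refine core (D := D) (ϖ := ϖ) (n := n) m u hu (fun Q => exists_root_val Q m hm u hu hdiv) ?_
  intro Q _ hQ
  set P := Q.asIdeal.comap (algebraMap B D) with hP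
  have hPprime : P.IsPrime := Ideal.comap_isPrime _ _
  have hϖP : ϖ ∉ P := fun h => by
    have := unif_notMem ϖ Q 1
    rw [pow_one] at this
    exact this h
  have htP : t ∉ P := by
    intro h
    obtain ⟨s, hs, c, e⟩ := hgen ϖ hϖp
    have h2 : s * ϖ ∈ P := by rw [e]; exact P.mul_mem_left _ h
    rcases hPprime.mem_or_mem h2 with h3 | h3
    · exact hs (hQ h3)
    · exact hϖP h3
  have hP0 : P ≠ ⊥ := by
    intro h
    obtain ⟨d, hd, hd0⟩ := Submodule.exists_mem_ne_zero_of_ne_bot Q.ne_bot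
    obtain ⟨k, b, hb⟩ := exists_int ϖ d
    have hbP : b ∈ P := by
      rw [hP, Ideal.mem_comap, hb]
      exact Ideal.mul_mem_right _ _ hd
    rw [h, Ideal.mem_bot] at hbP
    rw [hbP, map_zero] at hb
    rcases mul_eq_zero.1 hb.symm with h0 | h0
    · exact hd0 h0
    · exact unif_notMem ϖ Q k (h0 ▸ Q.asIdeal.zero_mem)
  obtain ⟨g, hg, h⟩ := loc_principal n p hpn t ht hgen P hP0 htP
  refine ⟨g, hg, fun b hb => ?_⟩
  obtain ⟨s, hs, c, e⟩ := h b hb
  exact ⟨s, hs, 0, c, by rw [pow_zero, mul_one, e, mul_comm]⟩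

end Fermat.Agent.S36
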