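import Fermat.Agent.S35.GDV
import Fermat.Agent.S36.GDefs
import Fermat.Agent.S36.NCDefs
import Fermat.Agent.S36.LPReg
import Fermat.Agent.S36.BrReg2
import Fermat.Agent.S36.BrDich

/-!
# S36, bridge BR-REG, supersingular points

At a maximal ideal `n` of a chart `B` of level `M₀ q²` through which the three components pass,
thickness one at the two nodes `al⁻¹ n`, `be⁻¹ n` of level `M₀ q` gives `(REG n)` :
`s ϖ = c xF xM ^ (q-1) xV`.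
-/

set_option autoImplicit false

namespace Fermat.Agent.S36

open Fermat.Agent.S34 Fermat.Agent.S35

namespace BrReg

section DV

variable {F : Type*} [Field F] {O : Subring F} {t : F}

theorem isU_of_mul {x y : F} (hx : x ∈ O) (hy : y ∈ O) (h : IsU O (x * y)) :
    IsU O x ∧ IsU O y := by
  have hx0 : x ≠ 0 := left_ne_zero_of_mul h.ne_zero
  have hy0 : y ≠ 0 := right_ne_zero_of_mul h.ne_zero
  refine ⟨⟨hx0, hx, ?_⟩, ⟨hy0, hy, ?_⟩⟩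
  · have : x⁻¹ = y * (x * y)⁻¹ := by field_simp
    rw [this]; exact O.mul_mem hy h.inv_mem
  · have : y⁻¹ = x * (x * y)⁻¹ := by field_simp
    rw [this]; exact O.mul_mem hx h.inv_mem

/-- valuations at a node of thickness one. -/
theorem node_val (h0 : t ≠ 0) {a b s : F} (ha : DivS O t 1 a) (hb : b ∈ O) (hs : IsU O s)
    (e : s * t = a * b) : IsU O b := by
  obtain ⟨a', ha', rfl⟩ := ha
  have e2 : s = a' * b := by
    apply mul_right_cancel₀ h0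
    rw [e]; ring
  exact (isU_of_mul ha' hb (e2 ▸ hs)).2

theorem isU_map {F1 F2 : Type*} [Field F1] [Field F2] {O : Subring F1} {O' : Subring F2}
    (φ : F1 →+* F2) (h : ∀ a, φ a ∈ O' ↔ a ∈ O) {x : F1} : IsU O' (φ x) ↔ IsU O x := by
  unfold IsU
  rw [map_ne_zero, h, ← map_inv₀, h]

theorem divS_map {F1 F2 : Type*} [Field F1] [Field F2] {O : Subring F1} {O' : Subring F2}
    (φ : F1 →+* F2) (h : ∀ a, φ a ∈ O' ↔ a ∈ O) {ϖ1 : F1} {x : F1} (hx : DivS O ϖ1 1 x) :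
    DivS O' (φ ϖ1) 1 (φ x) := by
  obtain ⟨y, hy, rfl⟩ := hx
  exact ⟨φ y, (h y).2 hy, by rw [map_mul, map_pow]⟩

theorem exists_not_divS (dv : IsDV O t) {b : F} (hb : b ≠ 0) : ∃ k : ℕ, ¬ DivS O t k b := by
  obtain ⟨z, hz⟩ := dv.exists_zpow hb
  refine ⟨(-z).toNat + 1, ?_⟩
  rintro ⟨y, hy, rfl⟩
  apply dv.not_divS hz
  refine ⟨t ^ (((-z).toNat : ℤ) + z) * y, O.mul_mem (dv.zpow_mem (by omega)) hy, ?_⟩
  have h0 := dv.ne_zero
  rw [zpow_add₀ h0, zpow_natCast]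
  ring

variable {B : Subring F} {p n : Ideal B}

theorem isU_of_notMem (dv : IsDV O t) (hle : ∀ x ∈ B, x ∈ O)
    (mem : ∀ b : B, b ∈ p ↔ DivS O t 1 (b : F)) (hpn : p ≤ n) {s : B} (hs : s ∉ n) :
    IsU O (s : F) :=
  (dv.isU_or (hle _ s.2)).resolve_right (fun h => hs (hpn ((mem s).2 h)))

/-- a chart contains a uniformiser of every locally principal component. -/
theorem exists_unif (dv : IsDV O t) (hle : ∀ x ∈ B, x ∈ O)
    (frac : ∀ f : F, ∃ a ∈ B, ∃ b ∈ B, b ≠ 0 ∧ f * b = a)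
    (mem : ∀ b : B, b ∈ p ↔ DivS O t 1 (b : F)) (hpn : p ≤ n) {g : B} (hg : LocPrinc n p g) :
    ∃ y : B, IsU O ((y : F) / t) := by
  have h0 := dv.ne_zero
  have key : ∀ k : ℕ, ∀ a b : B, (b : F) ≠ 0 → t * (b : F) = a → ¬ DivS O t k (b : F) →
      ∃ y : B, IsU O ((y : F) / t) := by
    intro k
    induction k with
    | zero =>
      intro a b _ _ h
      exact absurd ⟨(b : F), hle _ b.2, by rw [pow_zero, one_mul]⟩ h
    | succ k ih =>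
      intro a b hb0 hab hk
      by_cases hb : b ∈ p
      · have ha : a ∈ p := (mem a).2 ⟨b, hle _ b.2, by rw [pow_one, hab]⟩
        obtain ⟨s, hs, c, e⟩ := hg.2 b hb
        obtain ⟨s', hs', c', e'⟩ := hg.2 a ha
        have e1 : (s : F) * b = c * g := by exact_mod_cast congrArg Subtype.val e
        have e2 : (s' : F) * a = c' * g := by exact_mod_cast congrArg Subtype.val e'
        have hsu := isU_of_notMem dv hle mem hpn hs
        have hsu' := isU_of_notMem dv hle mem hpn hs'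
        have hcg : (c : F) * g ≠ 0 := by rw [← e1]; exact mul_ne_zero hsu.ne_zero hb0
        have hc0 : (c : F) ≠ 0 := left_ne_zero_of_mul hcg
        have hg0 : (g : F) ≠ 0 := right_ne_zero_of_mul hcg
        obtain ⟨g', hg', hgg⟩ := (mem g).1 hg.1
        rw [pow_one] at hgg
        refine ih (c' * s) (c * s') ?_ ?_ ?_
        · push_cast
          exact mul_ne_zero hc0 hsu'.ne_zero
        · push_cast
          apply mul_right_cancel₀ hg0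
          calc t * ((c : F) * s') * g = t * s' * (c * g) := by ring
            _ = s * (s' * a) := by rw [← e1, ← hab]; ring
            _ = c' * s * g := by rw [e2]; ring
        · rintro ⟨y, hy, hy2⟩
          push_cast at hy2
          apply hk
          refine ⟨y * g' * ((s : F)⁻¹ * (s' : F)⁻¹),
            O.mul_mem (O.mul_mem hy hg') (O.mul_mem hsu.inv_mem hsu'.inv_mem), ?_⟩
          have hs0 := hsu.ne_zero
          have hs0' := hsu'.ne_zero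
          have e3 : (s : F) * s' * b = t ^ (k + 1) * (y * g') := by
            calc (s : F) * s' * b = (c * s') * g := by rw [mul_right_comm, e1]; ring
              _ = t ^ (k + 1) * (y * g') := by rw [hy2, hgg]; ring
          calc (b : F) = (s * s' * b) * ((s : F)⁻¹ * (s' : F)⁻¹) := by field_simp
            _ = _ := by rw [e3]; ring
      · have hbu : IsU O (b : F) :=
          (dv.isU_or (hle _ b.2)).resolve_right (fun h => hb ((mem b).2 h))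
        refine ⟨a, ?_⟩
        rw [← hab, mul_div_cancel_left₀ _ h0]
        exact hbu
  obtain ⟨a, ha, b, hb, hb0, hab⟩ := frac t
  obtain ⟨k, hk⟩ := exists_not_divS dv hb0
  exact key k ⟨a, ha⟩ ⟨b, hb⟩ hb0 hab hk

/-- a local generator of a component is a uniformiser. -/
theorem unif_of_locPrinc (dv : IsDV O t) (hle : ∀ x ∈ B, x ∈ O)
    (frac : ∀ f : F, ∃ a ∈ B, ∃ b ∈ B, b ≠ 0 ∧ f * b = a)
    (mem : ∀ b : B, b ∈ p ↔ DivS O t 1 (b : F)) (hpn : p ≤ n) {g : B} (hg : LocPrinc n p g) :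
    IsU O ((g : F) / t) := by
  have h0 := dv.ne_zero
  obtain ⟨y, hy⟩ := exists_unif dv hle frac mem hpn hg
  have hyp : y ∈ p := (mem y).2 ⟨(y : F) / t, hy.mem, by rw [pow_one, mul_div_cancel₀ _ h0]⟩
  obtain ⟨s, hs, c, e⟩ := hg.2 y hyp
  have e1 : (s : F) * y = c * g := by exact_mod_cast congrArg Subtype.val e
  have hsu := isU_of_notMem dv hle mem hpn hs
  obtain ⟨g', hg', hgg⟩ := (mem g).1 hg.1
  rw [pow_one] at hgg
  have e2 : (g : F) / t = g' := by rw [hgg, mul_div_cancel_left₀ _ h0]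
  rw [e2]
  refine (isU_of_mul (hle _ c.2) hg' ?_).2
  have e3 : (c : F) * g' = s * ((y : F) / t) := by
    rw [mul_div_assoc', e1, hgg]
    field_simp
  rw [e3]
  exact hsu.mul hy

/-- division by the powers of a local generator. -/
theorem extract (dv : IsDV O t) (hle : ∀ x ∈ B, x ∈ O)
    (mem : ∀ b : B, b ∈ p ↔ DivS O t 1 (b : F)) (hn : n.IsPrime) {g : B}
    (hg : LocPrinc n p g) (hu : IsU O ((g : F) / t)) (k : ℕ) :
    ∀ c : B, DivS O t k (c : F) → ∃ s, s ∉ n ∧ ∃ d, s * c = d * g ^ k := by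
  have h0 := dv.ne_zero
  induction k with
  | zero =>
    intro c _
    exact ⟨1, fun h => hn.ne_top ((Ideal.eq_top_iff_one n).2 h), c, by rw [pow_zero, one_mul, mul_one]⟩
  | succ k ih =>
    intro c hc
    obtain ⟨y, hy, hcy⟩ := hc
    have hcp : c ∈ p := (mem c).2 ⟨t ^ k * y, O.mul_mem (O.pow_mem dv.mem k) hy, by
      rw [hcy]; ring⟩
    obtain ⟨s, hs, d, e⟩ := hg.2 c hcp
    have e1 : (s : F) * c = d * g := by exact_mod_cast congrArg Subtype.val e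
    have hg0 : (g : F) ≠ 0 := fun h => hu.ne_zero (by rw [h, zero_div])
    have hd : DivS O t k (d : F) := by
      refine ⟨s * y * ((g : F) / t)⁻¹, O.mul_mem (O.mul_mem (hle _ s.2) hy) hu.inv_mem, ?_⟩
      apply mul_right_cancel₀ hg0
      rw [← e1, hcy]
      field_simp
      ring
    obtain ⟨s', hs', d', e'⟩ := ih d hd
    refine ⟨s' * s, fun h => (hn.mem_or_mem h).elim hs' hs, d', ?_⟩
    calc s' * s * c = s' * (s * c) := by ring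
      _ = (s' * d) * g := by rw [e]; ring
      _ = d' * g ^ (k + 1) := by rw [e']; ring

end DV

variable {F1 F2 : Type*} [Field F1] [Field F2] {q : ℕ} {O1 O2 : Subring F1} {ϖ1 : F1}
  {OF OM OV : Subring F2} {ϖ t : F2} {al be : F1 →+* F2} {nA nB : F2 →* F1}

/-- `pV B_n = al b · B_n` if `s ϖ1 = a b` is a node equation with `al s ∉ n`. -/
theorem locPrinc_V (L : Lvl1 q O1 O2 ϖ1 OF OM OV ϖ t al be nA nB) {B : Subring F2}
    {pV : Ideal B} (hleV : ∀ x ∈ B, x ∈ OV)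
    (hleF : ∀ x ∈ B, x ∈ OF) (hleM : ∀ x ∈ B, x ∈ OM)
    (sat : ∀ x ∈ B, DivS OF ϖ 1 x → DivS OM ϖ 1 x → DivS OV ϖ 1 x → ∃ y ∈ B, x = ϖ * y)
    (memV : ∀ b : B, b ∈ pV ↔ DivS OV ϖ 1 (b : F2)) (n : Ideal B)
    {a b s : F1} (ha : DivS O1 ϖ1 1 a) (hb : DivS O2 ϖ1 1 b) (e : s * ϖ1 = a * b)
    (haB : al a ∈ B) (hbB : al b ∈ B) (hsB : al s ∈ B) (hs : (⟨al s, hsB⟩ : B) ∉ n) :
    LocPrinc n pV ⟨al b, hbB⟩ := by
  have hs0 : al s ≠ 0 := by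
    intro h
    apply hs
    have : (⟨al s, hsB⟩ : B) = 0 := Subtype.ext h
    rw [this]; exact n.zero_mem
  have e' : al s * ϖ = al a * al b := by rw [← L.al_unif, ← map_mul, e, map_mul]
  have ha0 : al a ≠ 0 := by
    have : al a * al b ≠ 0 := by rw [← e']; exact mul_ne_zero hs0 L.dvF.ne_zero
    exact left_ne_zero_of_mul this
  refine ⟨(memV _).2 ?_, fun x hx => ?_⟩
  · have := divS_map al L.al_V hb
    rwa [L.al_unif] at this
  · have h1 : DivS OF ϖ 1 ((x : F2) * al a) := by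
      have := divS_map al L.al_F ha
      rw [L.al_unif] at this
      exact this.mul_left (hleF _ x.2)
    have h2 : DivS OM ϖ 1 ((x : F2) * al a) := by
      have := divS_map al L.al_M ha
      rw [L.al_unif] at this
      exact this.mul_left (hleM _ x.2)
    have h3 : DivS OV ϖ 1 ((x : F2) * al a) := ((memV x).1 hx).mul_right (hleV _ haB)
    obtain ⟨y, hy, hxy⟩ := sat _ (B.mul_mem x.2 haB) h1 h2 h3
    refine ⟨⟨al s, hsB⟩, hs, ⟨y, hy⟩, Subtype.ext ?_⟩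
    push_cast
    apply mul_right_cancel₀ ha0
    calc al s * (x : F2) * al a = al s * ((x : F2) * al a) := by ring
      _ = (al s * ϖ) * y := by rw [hxy]; ring
      _ = y * al b * al a := by rw [e']; ring

end BrReg

variable {F1 F2 : Type*} [Field F1] [Field F2] {q : ℕ} {O1 O2 : Subring F1} {ϖ1 : F1}
  {OF OM OV : Subring F2} {ϖ t : F2} {al be : F1 →+* F2} {nA nB : F2 →* F1}

/-- **(REG n) at a supersingular point**, from one node equation `s1 ϖ1 = a1 b1` with `al s1 ∉ n`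
and one node equation `s2 ϖ1 = a2 b2` with `be s2 ∉ n`; moreover `be a2`, `al b1` are local
generators of `pF`, `pV` at `n`. -/
theorem regAt_node_core (L : Lvl1 q O1 O2 ϖ1 OF OM OV ϖ t al be nA nB) (hq : 2 ≤ q) {m : ℕ}
    {B : Subring F2} [IsNoetherianRing B] {pF pM pV : Ideal B}
    (hB : IsChartS (OF ⊓ OM ⊓ OV) ϖ m B)
    (frac : ∀ f : F2, ∃ a ∈ B, ∃ b ∈ B, b ≠ 0 ∧ f * b = a)
    (memF : ∀ b : B, b ∈ pF ↔ DivS OF ϖ 1 (b : F2))
    (memM : ∀ b : B, b ∈ pM ↔ DivS OM t 1 (b : F2))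
    (memV : ∀ b : B, b ∈ pV ↔ DivS OV ϖ 1 (b : F2))
    [pF.IsPrime] [IsDedekindDomain (B ⧸ pF)] [pM.IsPrime]
    (n : Ideal B) [n.IsMaximal] (hF : pF ≤ n) (hM : pM ≤ n) (hV : pV ≤ n)
    {a1 b1 s1 : F1} (ha1 : DivS O1 ϖ1 1 a1) (hb1 : DivS O2 ϖ1 1 b1) (e1 : s1 * ϖ1 = a1 * b1)
    (ha1B : al a1 ∈ B) (hb1B : al b1 ∈ B) (hs1B : al s1 ∈ B) (hs1 : (⟨al s1, hs1B⟩ : B) ∉ n)
    {a2 b2 s2 : F1} (ha2 : DivS O1 ϖ1 1 a2) (hb2 : DivS O2 ϖ1 1 b2) (e2 : s2 * ϖ1 = a2 * b2)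
    (ha2B : be a2 ∈ B) (hb2B : be b2 ∈ B) (hs2B : be s2 ∈ B) (hs2 : (⟨be s2, hs2B⟩ : B) ∉ n) :
    RegAt q ⟨ϖ, hB.unif_mem⟩ pF pM pV n ∧ LocPrinc n pF ⟨be a2, ha2B⟩ ∧
      LocPrinc n pV ⟨al b1, hb1B⟩ ∧ ∃ xM, LocPrinc n pM xM := by
  have hnp : n.IsPrime := (inferInstance : n.IsMaximal).isPrime
  have hleF : ∀ x ∈ B, x ∈ OF := fun x hx => (hB.le x hx).1.1
  have hleM : ∀ x ∈ B, x ∈ OM := fun x hx => (hB.le x hx).1.2
  have hleV : ∀ x ∈ B, x ∈ OV := fun x hx => (hB.le x hx).2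
  have h0 : ϖ ≠ 0 := L.dvF.ne_zero
  have sat : ∀ x ∈ B, DivS OF ϖ 1 x → DivS OM ϖ 1 x → DivS OV ϖ 1 x → ∃ y ∈ B, x = ϖ * y :=
    fun x hx h1 h2 h3 => hB.sat x hx ((divS_inf h0).2 ⟨(divS_inf h0).2 ⟨h1, h2⟩, h3⟩)
  -- the generators of `pV`, `pF`
  have gV : LocPrinc n pV ⟨al b1, hb1B⟩ :=
    BrReg.locPrinc_V L hleV hleF hleM sat memV n ha1 hb1 e1 ha1B hb1B hs1B hs1
  have gF : LocPrinc n pF ⟨be a2, ha2B⟩ :=
    BrReg.locPrinc_V L.swap hleF hleV hleM (fun x hx h1 h2 h3 => sat x hx h3 h2 h1) memF n hb2 ha2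
      (by rw [e2, mul_comm]) hb2B ha2B hs2B hs2
  -- `be a2` is a unit of `OM`
  have hs2V : IsU OV (be s2) := BrReg.isU_of_notMem L.dvV hleV memV hV hs2
  have hs2u : IsU O2 s2 := (BrReg.isU_map be L.be_V).1 hs2V
  have ha2u : IsU O2 a2 :=
    BrReg.node_val L.dv2.ne_zero hb2 ((L.be_V a2).1 (hleV _ ha2B)) hs2u (by rw [e2, mul_comm])
  have hxFM : IsU OM (be a2) := (BrReg.isU_map be L.be_M).2 ha2u
  have hxF : (⟨be a2, ha2B⟩ : B) ∉ pM := fun h => L.dvM.not_divS hxFM ((memM _).1 h)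
  -- `ϖ = t ^ (q-1) * unit`
  obtain ⟨hr0, -, hr2⟩ := L.ram
  have ht0 : t ≠ 0 := L.dvM.ne_zero
  have hϖt : ϖ = t ^ (q - 1) * (t ^ (q - 1) / ϖ)⁻¹ := by
    have : t ^ (q - 1) ≠ 0 := pow_ne_zero _ ht0
    field_simp
  have hϖM : (⟨ϖ, hB.unif_mem⟩ : B) ∈ pM := by
    refine (memM _).2 ⟨t ^ (q - 2) * (t ^ (q - 1) / ϖ)⁻¹,
      OM.mul_mem (OM.pow_mem L.dvM.mem _) hr2, ?_⟩
    have : t ^ (q - 1) = t ^ 1 * t ^ (q - 2) := by
      rw [← pow_add]; congr 1; omega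
    calc ϖ = t ^ (q - 1) * (t ^ (q - 1) / ϖ)⁻¹ := hϖt
      _ = _ := by rw [this]; ring
  have hP0 : pM ≠ ⊥ := by
    intro h
    rw [h, Ideal.mem_bot] at hϖM
    exact h0 (congrArg Subtype.val hϖM)
  obtain ⟨g, hg, hgen⟩ := loc_principal n pF hF ⟨be a2, ha2B⟩ gF.1 gF.2 pM hP0 hxF
  have gM : LocPrinc n pM g := ⟨hg, hgen⟩
  have hgu : IsU OM ((g : F2) / t) := BrReg.unif_of_locPrinc L.dvM hleM frac memM hM gM
  refine ⟨?_, gF, gV, g, gM⟩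
  -- `al a1 = c1 * xF` locally
  have ha1F : (⟨al a1, ha1B⟩ : B) ∈ pF := by
    refine (memF _).2 ?_
    have := BrReg.divS_map al L.al_F ha1
    rwa [L.al_unif] at this
  obtain ⟨s', hs', c1, ec⟩ := gF.2 _ ha1F
  have ec' : (s' : F2) * al a1 = c1 * be a2 := congrArg Subtype.val ec
  have hc1 : DivS OM t (q - 1) (c1 : F2) := by
    obtain ⟨y, hy, hy2⟩ := ha1
    refine ⟨(t ^ (q - 1) / ϖ)⁻¹ * al y * s' * (be a2)⁻¹,
      OM.mul_mem (OM.mul_mem (OM.mul_mem hr2 ((L.al_M y).2 hy)) (hleM _ s'.2)) hxFM.inv_mem, ?_⟩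
    have e3 : al a1 = ϖ * al y := by rw [hy2, map_mul, map_pow, pow_one, L.al_unif]
    have hx0 := hxFM.ne_zero
    calc (c1 : F2) = (c1 * be a2) * (be a2)⁻¹ := by field_simp
      _ = s' * (ϖ * al y) * (be a2)⁻¹ := by rw [← ec', e3]
      _ = s' * (t ^ (q - 1) * (t ^ (q - 1) / ϖ)⁻¹ * al y) * (be a2)⁻¹ := by rw [← hϖt]
      _ = _ := by ring
  obtain ⟨s'', hs'', d, ed⟩ := BrReg.extract L.dvM hleM memM hnp gM hgu (q - 1) c1 hc1
  refine ⟨⟨be a2, ha2B⟩, g, ⟨al b1, hb1B⟩, s'' * s' * ⟨al s1, hs1B⟩, d, ?_, ?_, gF.1, hg, gV.1⟩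
  · intro h
    rcases hnp.mem_or_mem h with h | h
    · exact (hnp.mem_or_mem h).elim hs'' hs'
    · exact hs1 h
  · have e1' : (⟨al s1, hs1B⟩ : B) * ⟨ϖ, hB.unif_mem⟩ = ⟨al a1, ha1B⟩ * ⟨al b1, hb1B⟩ := by
      apply Subtype.ext
      push_cast
      rw [← L.al_unif, ← map_mul, e1, map_mul]
    calc s'' * s' * ⟨al s1, hs1B⟩ * (⟨ϖ, hB.unif_mem⟩ : B)
        = s'' * s' * (⟨al s1, hs1B⟩ * ⟨ϖ, hB.unif_mem⟩) := by ring
      _ = s'' * (s' * ⟨al a1, ha1B⟩) * ⟨al b1, hb1B⟩ := by rw [e1']; ring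
      _ = (s'' * c1) * ⟨be a2, ha2B⟩ * ⟨al b1, hb1B⟩ := by rw [ec]; ring
      _ = d * ⟨be a2, ha2B⟩ * g ^ (q - 1) * ⟨al b1, hb1B⟩ := by rw [ed]; ring

/-- the preimage of a maximal ideal under a map which is onto modulo it. -/
theorem BrReg.comap_isMaximal {A C : Type*} [CommRing A] [CommRing C] (f : A →+* C) (n : Ideal C)
    [n.IsMaximal] (h : ∀ b : C, ∃ a : A, b - f a ∈ n) : (n.comap f).IsMaximal := by
  have hs : Function.Surjective ((Ideal.Quotient.mk n).comp f) := by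
    intro y
    obtain ⟨b, rfl⟩ := Ideal.Quotient.mk_surjective y
    obtain ⟨a, ha⟩ := h b
    exact ⟨a, (Ideal.Quotient.eq.2 ha).symm⟩
  letI := Ideal.Quotient.field n
  have h2 := Ideal.comap_isMaximal_of_surjective _ hs (K := ⊥)
  rwa [← Ideal.comap_comap, ← RingHom.ker_eq_comap_bot, Ideal.mk_ker] at h2

section Wrap

variable {m : ℕ} {B : Subring F2} {pF pM pV : Ideal B} {B' : Subring F1} {p1 p2 : Ideal B'}

/-- **(REG n) at a supersingular point**, from thickness one `(T1)` at level `M₀ q`. -/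
theorem regAt_node (L : Lvl1 q O1 O2 ϖ1 OF OM OV ϖ t al be nA nB) (hq : 2 ≤ q)
    [IsNoetherianRing B] (hB : IsChartS (OF ⊓ OM ⊓ OV) ϖ m B)
    (frac : ∀ f : F2, ∃ a ∈ B, ∃ b ∈ B, b ≠ 0 ∧ f * b = a)
    (memF : ∀ b : B, b ∈ pF ↔ DivS OF ϖ 1 (b : F2))
    (memM : ∀ b : B, b ∈ pM ↔ DivS OM t 1 (b : F2))
    (memV : ∀ b : B, b ∈ pV ↔ DivS OV ϖ 1 (b : F2))
    [pF.IsPrime] [IsDedekindDomain (B ⧸ pF)] [pM.IsPrime]
    (hL : ChartL OF OM OV ϖ t m B B' al be nA nB)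
    (mem1 : ∀ b : B', b ∈ p1 ↔ DivS O1 ϖ1 1 (b : F1))
    (mem2 : ∀ b : B', b ∈ p2 ↔ DivS O2 ϖ1 1 (b : F1)) (hϖ1 : ϖ1 ∈ B')
    (T1 : ∀ n' : Ideal B', n'.IsMaximal → p1 ≤ n' → p2 ≤ n' →
      ∃ a b s : B', a ∈ p1 ∧ b ∈ p2 ∧ s ∉ n' ∧ s * ⟨ϖ1, hϖ1⟩ = a * b)
    (n : Ideal B) [n.IsMaximal] (hF : pF ≤ n) (hM : pM ≤ n) (hV : pV ≤ n) :
    RegAt q ⟨ϖ, hB.unif_mem⟩ pF pM pV n ∧ (∃ x, LocPrinc n pF x) ∧ (∃ x, LocPrinc n pV x) ∧
      ∃ x, LocPrinc n pM x := by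
  let alB : B' →+* B := (al.comp B'.subtype).codRestrict B (fun x => hL.al_mem x x.2)
  let beB : B' →+* B := (be.comp B'.subtype).codRestrict B (fun x => hL.be_mem x x.2)
  have hn1 : (n.comap alB).IsMaximal := by
    apply BrReg.comap_isMaximal
    intro b
    obtain ⟨a, ha, h⟩ := hL.surjA b b.2
    exact ⟨⟨a, ha⟩, hF ((memF _).2 h)⟩
  have hn2 : (n.comap beB).IsMaximal := by
    apply BrReg.comap_isMaximal
    intro b
    obtain ⟨a, ha, h⟩ := hL.surjB b b.2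
    exact ⟨⟨a, ha⟩, hV ((memV _).2 h)⟩
  have h11 : p1 ≤ n.comap alB := by
    intro a ha
    refine hF ((memF _).2 ?_)
    have := BrReg.divS_map al L.al_F ((mem1 a).1 ha)
    rwa [L.al_unif] at this
  have h12 : p2 ≤ n.comap alB := by
    intro a ha
    refine hV ((memV _).2 ?_)
    have := BrReg.divS_map al L.al_V ((mem2 a).1 ha)
    rwa [L.al_unif] at this
  have h21 : p1 ≤ n.comap beB := by
    intro a ha
    refine hF ((memF _).2 ?_)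
    have := BrReg.divS_map be L.be_F ((mem1 a).1 ha)
    rwa [L.be_unif] at this
  have h22 : p2 ≤ n.comap beB := by
    intro a ha
    refine hV ((memV _).2 ?_)
    have := BrReg.divS_map be L.be_V ((mem2 a).1 ha)
    rwa [L.be_unif] at this
  obtain ⟨a1, b1, s1, ha1, hb1, hs1, e1⟩ := T1 _ hn1 h11 h12
  obtain ⟨a2, b2, s2, ha2, hb2, hs2, e2⟩ := T1 _ hn2 h21 h22
  obtain ⟨h1, h2, h3, h4⟩ := regAt_node_core L hq hB frac memF memM memV n hF hM hV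
    ((mem1 a1).1 ha1) ((mem2 b1).1 hb1) (congrArg Subtype.val e1)
    (hL.al_mem _ a1.2) (hL.al_mem _ b1.2) (hL.al_mem _ s1.2) hs1
    ((mem1 a2).1 ha2) ((mem2 b2).1 hb2) (congrArg Subtype.val e2)
    (hL.be_mem _ a2.2) (hL.be_mem _ b2.2) (hL.be_mem _ s2.2) hs2
  exact ⟨h1, ⟨_, h2⟩, ⟨_, h3⟩, h4⟩

/-- `(T2)` makes the middle component locally principal at its ordinary points. -/
theorem locPrinc_M_of_T2 (L : Lvl1 q O1 O2 ϖ1 OF OM OV ϖ t al be nA nB) (hq : 2 ≤ q)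
    (hB : IsChartS (OF ⊓ OM ⊓ OV) ϖ m B)
    (memF : ∀ b : B, b ∈ pF ↔ DivS OF ϖ 1 (b : F2))
    (memM : ∀ b : B, b ∈ pM ↔ DivS OM t 1 (b : F2))
    (memV : ∀ b : B, b ∈ pV ↔ DivS OV ϖ 1 (b : F2))
    (n : Ideal B) (hn : n.IsPrime) (hF : ¬ pF ≤ n) (hV : ¬ pV ≤ n)
    (hT2 : ∃ x ∈ pM, ∃ s, s ∉ n ∧ ∃ c, s * (⟨ϖ, hB.unif_mem⟩ : B) = c * x ^ (q - 1)) :
    ∃ x, LocPrinc n pM x := by
  have hleF : ∀ x ∈ B, x ∈ OF := fun x hx => (hB.le x hx).1.1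
  have hleM : ∀ x ∈ B, x ∈ OM := fun x hx => (hB.le x hx).1.2
  have hleV : ∀ x ∈ B, x ∈ OV := fun x hx => (hB.le x hx).2
  have h0 : ϖ ≠ 0 := L.dvF.ne_zero
  obtain ⟨θF, hθF, hθFn⟩ := regAt_aux hF
  obtain ⟨θV, hθV, hθVn⟩ := regAt_aux hV
  obtain ⟨x, hx, s, hs, c, e⟩ := hT2
  have e' : (s : F2) * ϖ = c * (x : F2) ^ (q - 1) := congrArg Subtype.val e
  have hs0 : (s : F2) ≠ 0 := by
    intro h
    apply hs
    have : s = 0 := Subtype.ext h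
    rw [this]; exact n.zero_mem
  have hpow : (x : F2) ^ (q - 1) = x ^ (q - 2) * x := by
    rw [← pow_succ]; congr 1; omega
  have hne : (c : F2) * (x : F2) ^ (q - 2) ≠ 0 := by
    have h1 : (c : F2) * (x : F2) ^ (q - 1) ≠ 0 := by rw [← e']; exact mul_ne_zero hs0 h0
    rw [hpow, ← mul_assoc] at h1
    exact left_ne_zero_of_mul h1
  refine ⟨x, hx, fun b hb => ?_⟩
  set w : F2 := (b : F2) * (c * (x : F2) ^ (q - 2)) * (θF * θV) with hw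
  have hwB : w ∈ B :=
    B.mul_mem (B.mul_mem b.2 (B.mul_mem c.2 (B.pow_mem x.2 _))) (B.mul_mem θF.2 θV.2)
  have hcx : (c : F2) * (x : F2) ^ (q - 2) ∈ B := B.mul_mem c.2 (B.pow_mem x.2 _)
  have h1 : DivS OF ϖ 1 w :=
    (((memF θF).1 hθF).mul_right (hleF _ θV.2)).mul_left (hleF _ (B.mul_mem b.2 hcx))
  have h3 : DivS OV ϖ 1 w :=
    (((memV θV).1 hθV).mul_left (hleV _ θF.2)).mul_left (hleV _ (B.mul_mem b.2 hcx))
  have h2 : DivS OM ϖ 1 w := by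
    obtain ⟨b', hb', hbb⟩ := (memM b).1 hb
    obtain ⟨x', hx', hxx⟩ := (memM x).1 hx
    obtain ⟨hr0, hr1, -⟩ := L.ram
    refine ⟨(t ^ (q - 1) / ϖ) * (b' * c * x' ^ (q - 2) * (θF * θV)),
      OM.mul_mem hr1 (OM.mul_mem (OM.mul_mem (OM.mul_mem hb' (hleM _ c.2)) (OM.pow_mem hx' _))
        (hleM _ (B.mul_mem θF.2 θV.2))), ?_⟩
    have ht : t ^ (q - 1) = t * t ^ (q - 2) := by
      rw [← pow_succ']; congr 1; omega
    rw [hw, hbb, hxx, pow_one, pow_one, mul_pow, ← mul_assoc ϖ, mul_div_cancel₀ _ h0, ht]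
    ring
  obtain ⟨y, hy, hwy⟩ := hB.sat w hwB ((divS_inf h0).2 ⟨(divS_inf h0).2 ⟨h1, h2⟩, h3⟩)
  refine ⟨s * θF * θV, ?_, ⟨y, hy⟩, Subtype.ext ?_⟩
  · intro h
    rcases hn.mem_or_mem h with h | h
    · exact (hn.mem_or_mem h).elim hs hθFn
    · exact hθVn h
  · push_cast
    apply mul_right_cancel₀ hne
    calc (s : F2) * θF * θV * b * (c * (x : F2) ^ (q - 2)) = s * w := by rw [hw]; ring
      _ = (s * ϖ) * y := by rw [hwy]; ring
      _ = y * x * (c * (x : F2) ^ (q - 2)) := by rw [e', hpow]; ring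

/-- **The structure `Chart3`** from the raw chart data, `(T1)` and `(T2)`. -/
theorem chart3_of (L : Lvl1 q O1 O2 ϖ1 OF OM OV ϖ t al be nA nB) (hq : 2 ≤ q)
    [IsNoetherianRing B] (hB : IsChartS (OF ⊓ OM ⊓ OV) ϖ m B)
    (frac : ∀ f : F2, ∃ a ∈ B, ∃ b ∈ B, b ≠ 0 ∧ f * b = a)
    (memF : ∀ b : B, b ∈ pF ↔ DivS OF ϖ 1 (b : F2))
    (memM : ∀ b : B, b ∈ pM ↔ DivS OM t 1 (b : F2))
    (memV : ∀ b : B, b ∈ pV ↔ DivS OV ϖ 1 (b : F2))
    [pF.IsPrime] [IsDedekindDomain (B ⧸ pF)] [pM.IsPrime]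
    (hL : ChartL OF OM OV ϖ t m B B' al be nA nB)
    (mem1 : ∀ b : B', b ∈ p1 ↔ DivS O1 ϖ1 1 (b : F1))
    (mem2 : ∀ b : B', b ∈ p2 ↔ DivS O2 ϖ1 1 (b : F1)) (hϖ1 : ϖ1 ∈ B')
    (T1 : ∀ n' : Ideal B', n'.IsMaximal → p1 ≤ n' → p2 ≤ n' →
      ∃ a b s : B', a ∈ p1 ∧ b ∈ p2 ∧ s ∉ n' ∧ s * ⟨ϖ1, hϖ1⟩ = a * b)
    (T2 : ∀ n : Ideal B, n.IsMaximal → pM ≤ n → ¬ pF ≤ n → ¬ pV ≤ n →
      ∃ x ∈ pM, ∃ s, s ∉ n ∧ ∃ c, s * (⟨ϖ, hB.unif_mem⟩ : B) = c * x ^ (q - 1)) :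
    Chart3 OF OM OV ϖ t m B pF pM pV where
  chart := hB
  frac := frac
  memA := memF
  memC := memM
  memB := memV
  regC := fun n hn hM hF hV =>
    locPrinc_M_of_T2 L hq hB memF memM memV n hn.isPrime hF hV (T2 n hn hM hF hV)
  regN := fun n hn hF hM hV =>
    haveI := hn
    (regAt_node L hq hB frac memF memM memV hL mem1 mem2 hϖ1 T1 n hF hM hV).2.1

/-- **[BR-REG]** : `(REG n)` at every maximal ideal `n ∋ ϖ`, from `(T1)` and `(T2)`. -/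
theorem regAt_all (L : Lvl1 q O1 O2 ϖ1 OF OM OV ϖ t al be nA nB) (hq : 2 ≤ q)
    [IsNoetherianRing B] (hB : IsChartS (OF ⊓ OM ⊓ OV) ϖ m B)
    (frac : ∀ f : F2, ∃ a ∈ B, ∃ b ∈ B, b ≠ 0 ∧ f * b = a)
    (memF : ∀ b : B, b ∈ pF ↔ DivS OF ϖ 1 (b : F2))
    (memM : ∀ b : B, b ∈ pM ↔ DivS OM t 1 (b : F2))
    (memV : ∀ b : B, b ∈ pV ↔ DivS OV ϖ 1 (b : F2))
    [pF.IsPrime] [IsDedekindDomain (B ⧸ pF)] [pM.IsPrime]
    (hL : ChartL OF OM OV ϖ t m B B' al be nA nB)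
    (mem1 : ∀ b : B', b ∈ p1 ↔ DivS O1 ϖ1 1 (b : F1))
    (mem2 : ∀ b : B', b ∈ p2 ↔ DivS O2 ϖ1 1 (b : F1)) (hϖ1 : ϖ1 ∈ B')
    (T1 : ∀ n' : Ideal B', n'.IsMaximal → p1 ≤ n' → p2 ≤ n' →
      ∃ a b s : B', a ∈ p1 ∧ b ∈ p2 ∧ s ∉ n' ∧ s * ⟨ϖ1, hϖ1⟩ = a * b)
    (T2 : ∀ n : Ideal B, n.IsMaximal → pM ≤ n → ¬ pF ≤ n → ¬ pV ≤ n →
      ∃ x ∈ pM, ∃ s, s ∉ n ∧ ∃ c, s * (⟨ϖ, hB.unif_mem⟩ : B) = c * x ^ (q - 1))
    (n : Ideal B) (hn : n.IsMaximal) (hϖ : (⟨ϖ, hB.unif_mem⟩ : B) ∈ n) :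
    RegAt q ⟨ϖ, hB.unif_mem⟩ pF pM pV n := by
  have h3 := chart3_of L hq hB frac memF memM memV hL mem1 mem2 hϖ1 T1 T2
  haveI := hn
  haveI := hn.isPrime
  obtain ⟨d1, d2, d3⟩ := br_dich L hq h3 hL n hn.isPrime
  exact regAt_of q _ pF pM pV n ((memF _).2 divS_self) ((memV _).2 divS_self)
    (br_some L h3 n hn.isPrime hϖ) d1 d2 d3 (T2 n hn)
    (fun hF hM hV => (regAt_node L hq hB frac memF memM memV hL mem1 mem2 hϖ1 T1 n hF hM hV).1)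

end Wrap

end Fermat.Agent.S36
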