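import Fermat.Agent.S36.GL3
import Fermat.Agent.S36.ARel

/-!
# S36, bridge [BR-REL] : the relations `Rel3` between the branch values, from the two norms

`v ≡ 1` on the three branches, `nA v = z ^ m`, `nB v = z' ^ m`.  Then there are four `m`-th roots of
unity (powers of `al ζ`), independent of the chart and of the point, with `Rel3` on every chart.
-/

set_option autoImplicit false
set_option linter.unusedVariables false

namespace Fermat.Agent.S36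

open Fermat.Agent.S34 Fermat.Agent.S35

variable {F1 F : Type*} [Field F1] [Field F]

namespace BrRel

/-- descent of divisibility along `al`. -/
theorem divS_of_map {O1 : Subring F1} {OA : Subring F} {ϖ1 : F1} {ϖ : F} (al : F1 →+* F)
    (h : ∀ a, al a ∈ OA ↔ a ∈ O1) (hϖ : al ϖ1 = ϖ) (h0 : ϖ1 ≠ 0) {x : F1}
    (hx : DivS OA ϖ 1 (al x)) : DivS O1 ϖ1 1 x := by
  obtain ⟨y, hy, e⟩ := hx
  refine ⟨x / ϖ1, ?_, ?_⟩
  · rw [← h, map_div₀, hϖ, e, pow_one]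
    have : ϖ ≠ 0 := by rw [← hϖ]; exact (map_ne_zero al).2 h0
    rwa [mul_div_cancel_left₀ _ this]
  · rw [pow_one]; field_simp

/-- the norm of a one-unit is a one-unit (both valuations). -/
theorem norm_one {q : ℕ} {O1 O2 : Subring F1} {ϖ1 : F1}
    {OA OC OB : Subring F} {ϖ tC : F} {al be : F1 →+* F} {nA nB : F →* F1}
    (L : Lvl1 q O1 O2 ϖ1 OA OC OB ϖ tC al be nA nB) {v : F}
    (hvA : DivS OA ϖ 1 (v - 1)) (hvC : DivS OC tC 1 (v - 1)) (hvB : DivS OB ϖ 1 (v - 1)) :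
    DivS O1 ϖ1 1 (nA v - 1) ∧ DivS O2 ϖ1 1 (nA v - 1) := by
  have mA : v ∈ OA := by
    have := OA.add_mem (hvA.mem L.dvF.mem) OA.one_mem
    rwa [sub_add_cancel] at this
  have mC : v ∈ OC := by
    have := OC.add_mem (hvC.mem L.dvM.mem) OC.one_mem
    rwa [sub_add_cancel] at this
  have mB : v ∈ OB := by
    have := OB.add_mem (hvB.mem L.dvV.mem) OB.one_mem
    rwa [sub_add_cancel] at this
  constructor
  · have := L.nA1 v mA mC mB 1 O1.one_mem 1 O1.one_mem (by rwa [map_one]) (by rwa [map_one])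
    rwa [one_pow, mul_one] at this
  · apply divS_of_map al L.al_V L.al_unif L.dv2.ne_zero
    have h1 := L.nA2 v mA mC mB
    have h2 := cong_pow (O := OB) (ϖ := ϖ) mB OB.one_mem hvB q
    rw [one_pow] at h2
    have e : al (nA v - 1) = (al (nA v) - v ^ q) + (v ^ q - 1) := by
      rw [map_sub, map_one]; ring
    rw [e]
    exact h1.add h2

end BrRel

open GL3 BrRel

/-- **[BR-REL]** -/
theorem BrRel.rel3_all {q m : ℕ} (hm : 0 < m) {O1 O2 : Subring F1} {ϖ1 : F1}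
    {OA OC OB : Subring F} {ϖ tC : F} {al be : F1 →+* F} {nA nB : F →* F1}
    (L : Lvl1 q O1 O2 ϖ1 OA OC OB ϖ tC al be nA nB)
    (ζ : F1) (hζ : IsPrimitiveRoot ζ m) (hζab : al ζ = be ζ)
    (v : F) (hvA : DivS OA ϖ 1 (v - 1)) (hvC : DivS OC tC 1 (v - 1)) (hvB : DivS OB ϖ 1 (v - 1))
    (hzA : ∃ z, nA v = z ^ m) (hzB : ∃ z, nB v = z ^ m) :
    ∃ i1 i2 j1 j2 : ℕ, ∀ (B : Subring F) (B' : Subring F1),
      (∀ x ∈ B, x ∈ OA ∧ x ∈ OC ∧ x ∈ OB) → ChartL OA OC OB ϖ tC m B B' al be nA nB → ζ ∈ B' →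
      Rel3 ![OA, OC, OB] ![ϖ, tC, ϖ] m q B v (al ζ ^ i1) (al ζ ^ i2) (al ζ ^ j1) (al ζ ^ j2) := by
  obtain ⟨z, hzA⟩ := hzA
  obtain ⟨z', hzB⟩ := hzB
  obtain ⟨hz1, hz2⟩ := norm_one L hvA hvC hvB
  obtain ⟨hz2', hz1'⟩ := norm_one L.swap hvB hvC hvA
  rw [hzA] at hz1 hz2
  rw [hzB] at hz1' hz2'
  obtain ⟨i1, hi1⟩ := exists_pow_cong L.dv1 hm hζ z hz1
  obtain ⟨i2, hi2⟩ := exists_pow_cong L.dv2 hm hζ z hz2
  obtain ⟨j1, hj1⟩ := exists_pow_cong L.dv1 hm hζ z' hz1'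
  obtain ⟨j2, hj2⟩ := exists_pow_cong L.dv2 hm hζ z' hz2'
  refine ⟨i1, i2, j1, j2, ?_⟩
  intro B B' hle hL hζB n hn hnall f b hb hf a ha L1 L2 M1 M2 hL1 hL2 hM1 hM2
  have hnp : n.IsPrime := hn.isPrime
  have hnA : ∀ b : B, DivS OA ϖ 1 (b : F) → b ∈ n := fun b hb => hnall 0 b hb
  have hnC : ∀ b : B, DivS OC tC 1 (b : F) → b ∈ n := fun b hb => hnall 1 b hb
  have hnB : ∀ b : B, DivS OB ϖ 1 (b : F) → b ∈ n := fun b hb => hnall 2 b hb
  have haA : DivS OA ϖ 1 (f - (a 0 : F)) := ha 0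
  have haC : DivS OC tC 1 (f - (a 1 : F)) := ha 1
  have haB : DivS OB ϖ 1 (f - (a 2 : F)) := ha 2
  have fA : f ∈ OA := by
    have := OA.add_mem (haA.mem L.dvF.mem) (hle _ (a 0).2).1
    rwa [sub_add_cancel] at this
  have fC : f ∈ OC := by
    have := OC.add_mem (haC.mem L.dvM.mem) (hle _ (a 1).2).2.1
    rwa [sub_add_cancel] at this
  have fB : f ∈ OB := by
    have := OB.add_mem (haB.mem L.dvV.mem) (hle _ (a 2).2).2.2
    rwa [sub_add_cancel] at this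
  have h1n : (1 : B) ∉ n := fun h1 => hnp.ne_top ((Ideal.eq_top_iff_one n).2 h1)
  have one_mul' : ∀ x : F, ((1 : B) : F) * x = x := fun x => by
    rw [show ((1 : B) : F) = 1 from rfl, one_mul]
  have RA := glue_rel hm L hle hL.al_mem hL.nA_mem hL.root hL.surjA hL.surjC n hnA hnC hnB v f
    1 b h1n (by rw [one_mul', hf]) fA fC fB 1 (a 0) 1 (a 1) 1 (a 2) h1n h1n
    (by rwa [one_mul']) (by rwa [one_mul']) (by rwa [one_mul']) z hzA
    (ζ ^ i1) (ζ ^ i2) (B'.pow_mem hζB _) (B'.pow_mem hζB _) hi1 hi2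
  have RB := glue_rel hm L.swap (fun x hx => ⟨(hle x hx).2.2, (hle x hx).2.1, (hle x hx).1⟩)
    hL.be_mem hL.nB_mem hL.root hL.surjB hL.surjC' n hnB hnC hnA v f
    1 b h1n (by rw [one_mul', hf]) fB fC fA 1 (a 2) 1 (a 1) 1 (a 0) h1n h1n
    (by rwa [one_mul']) (by rwa [one_mul']) (by rwa [one_mul']) z' hzB
    (ζ ^ j2) (ζ ^ j1) (B'.pow_mem hζB _) (B'.pow_mem hζB _) hj2 hj1
  have e1 : (⟨al (ζ ^ i1), hL.al_mem _ (B'.pow_mem hζB _)⟩ : B) = L1 :=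
    Subtype.ext (by rw [hL1]; exact map_pow al ζ i1)
  have e2 : (⟨al (ζ ^ i2), hL.al_mem _ (B'.pow_mem hζB _)⟩ : B) = L2 :=
    Subtype.ext (by rw [hL2]; exact map_pow al ζ i2)
  have e3 : (⟨be (ζ ^ j2), hL.be_mem _ (B'.pow_mem hζB _)⟩ : B) = M2 :=
    Subtype.ext (by rw [hM2, hζab]; exact map_pow be ζ j2)
  have e4 : (⟨be (ζ ^ j1), hL.be_mem _ (B'.pow_mem hζB _)⟩ : B) = M1 :=
    Subtype.ext (by rw [hM1, hζab]; exact map_pow be ζ j1)
  rw [e1, e2] at RA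
  rw [e3, e4] at RB
  simp only [one_pow, mul_one] at RA RB
  exact ⟨RA, RB⟩

/-- the constants of `rel3_of` are `m`-th roots of unity. -/
theorem BrRel.const_pow {m : ℕ} {al : F1 →+* F} {ζ : F1} (hζ : IsPrimitiveRoot ζ m) (i : ℕ) :
    (al ζ ^ i) ^ m = 1 := by
  rw [← map_pow, ← map_pow, ← pow_mul, mul_comm, pow_mul, hζ.pow_eq_one, one_pow, map_one]

end Fermat.Agent.S36
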