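import Mathlib

/-!
# S36, block W, package W3b : additive characters with values in `ℤ / n` detect divisibility by `n`
(Mathlib only).
-/

set_option autoImplicit false

namespace Fermat.Agent.S36

/-- the embedding of `ℤ / n` in `ℚ / ℤ`. -/
noncomputable def zmodToQZ (n : ℕ) [NeZero n] : ZMod n →+ AddCircle (1 : ℚ) :=
  ZMod.lift n ⟨zmultiplesHom (AddCircle (1 : ℚ)) (((1 : ℚ) / n : ℚ) : AddCircle (1 : ℚ)), by
    have h := AddCircle.addOrderOf_period_div (𝕜 := ℚ) (p := 1) (n := n) (NeZero.pos n)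
    have h2 := addOrderOf_nsmul_eq_zero (((1 : ℚ) / n : ℚ) : AddCircle (1 : ℚ))
    rw [h] at h2
    simpa using h2⟩

theorem zmodToQZ_natCast (n : ℕ) [NeZero n] (k : ℕ) :
    zmodToQZ n (k : ZMod n) = k • (((1 : ℚ) / n : ℚ) : AddCircle (1 : ℚ)) := by
  have := ZMod.lift_coe n (A := AddCircle (1 : ℚ))
    ⟨zmultiplesHom (AddCircle (1 : ℚ)) (((1 : ℚ) / n : ℚ) : AddCircle (1 : ℚ)), by
    have h := AddCircle.addOrderOf_period_div (𝕜 := ℚ) (p := 1) (n := n) (NeZero.pos n)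
    have h2 := addOrderOf_nsmul_eq_zero (((1 : ℚ) / n : ℚ) : AddCircle (1 : ℚ))
    rw [h] at h2
    simpa using h2⟩ (k : ℤ)
  simpa [zmodToQZ] using this

theorem zmodToQZ_injective (n : ℕ) [NeZero n] : Function.Injective (zmodToQZ n) := by
  rw [injective_iff_map_eq_zero]
  intro x hx
  obtain ⟨k, hk, rfl⟩ : ∃ k : ℕ, k < n ∧ (k : ZMod n) = x :=
    ⟨x.val, ZMod.val_lt x, ZMod.natCast_zmod_val x⟩
  rw [zmodToQZ_natCast] at hx
  have h := AddCircle.addOrderOf_period_div (𝕜 := ℚ) (p := 1) (n := n) (NeZero.pos n)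
  have h2 := addOrderOf_dvd_of_nsmul_eq_zero hx
  rw [h] at h2
  rw [Nat.eq_zero_of_dvd_of_lt h2 hk]
  simp

theorem mem_range_zmodToQZ (n : ℕ) [NeZero n] (u : AddCircle (1 : ℚ)) (hu : n • u = 0) :
    u ∈ (zmodToQZ n).range := by
  obtain ⟨k, -, rfl⟩ := (AddCircle.nsmul_eq_zero_iff (NeZero.pos n)).1 hu
  refine ⟨(k : ZMod n), ?_⟩
  rw [zmodToQZ_natCast, ← AddCircle.coe_nsmul]
  congr 1
  simp [div_eq_mul_inv]

/-- **W3b (i)** : the additive characters with values in `ℤ / n` detect divisibility by `n`. -/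
theorem exists_addHom_ne {G : Type*} [AddCommGroup G] (n : ℕ) [NeZero n] (a : G)
    (h : ∀ φ : G →+ ZMod n, φ a = 0) : ∃ b : G, a = n • b := by
  by_contra hcon
  set H : AddSubgroup G := (nsmulAddMonoidHom (α := G) n).range with hH
  have ha : (QuotientAddGroup.mk' H a) ≠ 0 := by
    intro h0
    rw [QuotientAddGroup.mk'_apply, QuotientAddGroup.eq_zero_iff] at h0
    obtain ⟨b, hb⟩ := h0
    exact hcon ⟨b, hb.symm⟩
  obtain ⟨c, hc⟩ := CharacterModule.exists_character_apply_ne_zero_of_ne_zero ha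
  have hr : ∀ x : G ⧸ H, (c : (G ⧸ H) →+ AddCircle (1 : ℚ)) x ∈ (zmodToQZ n).range := by
    intro x
    apply mem_range_zmodToQZ
    obtain ⟨y, rfl⟩ := QuotientAddGroup.mk'_surjective H x
    rw [← map_nsmul, ← map_nsmul]
    have : QuotientAddGroup.mk' H (n • y) = 0 := by
      rw [QuotientAddGroup.mk'_apply, QuotientAddGroup.eq_zero_iff]
      exact ⟨y, rfl⟩
    rw [this, map_zero]
  have h1 := h (((AddMonoidHom.ofInjective (zmodToQZ_injective n)).symm.toAddMonoidHom.comp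
    ((c : (G ⧸ H) →+ AddCircle (1 : ℚ)).codRestrict (zmodToQZ n).range hr)).comp
      (QuotientAddGroup.mk' H))
  simp only [AddMonoidHom.comp_apply, AddEquiv.coe_toAddMonoidHom,
    EmbeddingLike.map_eq_zero_iff] at h1
  exact hc (congrArg Subtype.val h1)

end Fermat.Agent.S36
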