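import Fermat.Agent.S36.Char

/-!
# S36, block W, package W3b (end) : the final use of the additive characters
(Mathlib only).

An element `a` of a noetherian local domain of characteristic zero and residue characteristic `p`
such that `c0 • φ a = 0` for all `r` and all additive `φ : 𝒪' → ℤ / p ^ r` is zero.
-/

set_option autoImplicit false

namespace Fermat.Agent.S36

open IsLocalRing

theorem eq_zero_of_forall_addHom {𝒪' : Type*} [CommRing 𝒪'] [IsDomain 𝒪'] [IsNoetherianRing 𝒪']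
    [IsLocalRing 𝒪'] [CharZero 𝒪'] (p : ℕ) [Fact p.Prime] (hp : (p : 𝒪') ∈ maximalIdeal 𝒪')
    (c0 : ℕ) (hc0 : 0 < c0) (a : 𝒪')
    (h : ∀ (r : ℕ) (φ : 𝒪' →+ ZMod (p ^ r)), c0 • φ a = 0) : a = 0 := by
  have h1 : ∀ r : ℕ, c0 • a ∈ maximalIdeal 𝒪' ^ r := by
    intro r
    have : NeZero (p ^ r) := ⟨pow_ne_zero _ (Fact.out : p.Prime).ne_zero⟩
    obtain ⟨b, hb⟩ := exists_addHom_ne (p ^ r) (c0 • a) (fun φ => by rw [map_nsmul]; exact h r φ)
    rw [hb, nsmul_eq_mul]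
    push_cast
    exact Ideal.mul_mem_right _ _ (Ideal.pow_mem_pow hp r)
  have h2 : c0 • a ∈ (⨅ r : ℕ, maximalIdeal 𝒪' ^ r : Ideal 𝒪') := by
    rw [Ideal.mem_iInf]
    exact h1
  rw [Ideal.iInf_pow_eq_bot_of_isLocalRing _ (maximalIdeal.isMaximal 𝒪').ne_top, Ideal.mem_bot,
    nsmul_eq_mul] at h2
  rcases mul_eq_zero.1 h2 with h3 | h3
  · exact absurd (Nat.cast_eq_zero.1 h3) hc0.ne'
  · exact h3

/-- the vector form. -/
theorem vec_eq_zero_of_forall_addHom {𝒪' : Type*} [CommRing 𝒪'] [IsDomain 𝒪']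
    [IsNoetherianRing 𝒪'] [IsLocalRing 𝒪'] [CharZero 𝒪'] (p : ℕ) [Fact p.Prime]
    (hp : (p : 𝒪') ∈ maximalIdeal 𝒪') (c0 : ℕ) (hc0 : 0 < c0) {ι : Type*} (w : ι → 𝒪')
    (h : ∀ (r : ℕ) (φ : 𝒪' →+ ZMod (p ^ r)), c0 • (fun i => φ (w i)) = 0) : w = 0 := by
  funext i
  exact eq_zero_of_forall_addHom p hp c0 hc0 (w i) (fun r φ => congrFun (h r φ) i)

end Fermat.Agent.S36
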