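import Fermat.Agent.S36.Char2
import Fermat.Agent.S30.Base

/-!
# S36, block W : no non zero inertia invariant in the image of `θ` (adic level, from finite levels)
(Mathlib + `S30.Base` only).
-/

set_option autoImplicit false

namespace Fermat.Agent.S36

open IsLocalRing Fermat.Agent.S30

/-- an additive map commutes with an integer matrix. -/
theorem addHom_toO_mulVec {X Y : Type*} [CommRing X] [CommRing Y] (φ : X →+ Y) {d : ℕ}
    (θ : Matrix (Fin d) (Fin d) ℤ) (v : Fin d → X) :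
    (fun i => φ ((toO X θ).mulVec v i)) = (toO Y θ).mulVec (fun i => φ (v i)) := by
  funext i
  simp only [Matrix.mulVec, dotProduct, Matrix.map_apply, eq_intCast, map_sum]
  refine Finset.sum_congr rfl fun j _ => ?_
  rw [← zsmul_eq_mul, ← zsmul_eq_mul, map_zsmul]

/-- **the adic consequence of the last clause of `Good2`** : a vector `θ v` fixed by `R σ`, `σ ∈ I`,
is zero, if `R` lifts the finite level representations `α r` in the sense of `hR`. -/
theorem toO_mulVec_eq_zero_of_fixed {𝒪' : Type*} [CommRing 𝒪'] [IsDomain 𝒪']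
    [IsNoetherianRing 𝒪'] [IsLocalRing 𝒪'] [CharZero 𝒪'] (p : ℕ) [Fact p.Prime]
    (hp : (p : 𝒪') ∈ maximalIdeal 𝒪') {G : Type*} {d : ℕ} (θ : Matrix (Fin d) (Fin d) ℤ)
    (α : ∀ r : ℕ, G → Matrix (Fin d) (Fin d) (ZMod (p ^ r)))
    (R : G → Matrix (Fin d) (Fin d) 𝒪')
    (hR : ∀ (r : ℕ) (g : G) (φ : 𝒪' →+ ZMod (p ^ r)) (w : Fin d → 𝒪'),
      (fun i => φ ((R g).mulVec w i)) = (α r g).mulVec (fun i => φ (w i)))
    (I : Set G) (c0 : ℕ) (hc0 : 0 < c0)
    (hfix : ∀ (r : ℕ) (x : Fin d → ZMod (p ^ r)),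
      (∀ σ ∈ I, (α r σ).mulVec ((toO (ZMod (p ^ r)) θ).mulVec x) = (toO (ZMod (p ^ r)) θ).mulVec x) →
      c0 • (toO (ZMod (p ^ r)) θ).mulVec x = 0)
    (v : Fin d → 𝒪')
    (hv : ∀ σ ∈ I, (R σ).mulVec ((toO 𝒪' θ).mulVec v) = (toO 𝒪' θ).mulVec v) :
    (toO 𝒪' θ).mulVec v = 0 := by
  refine vec_eq_zero_of_forall_addHom p hp c0 hc0 _ fun r φ => ?_
  rw [addHom_toO_mulVec φ θ v]
  refine hfix r _ fun σ hσ => ?_
  rw [← addHom_toO_mulVec φ θ v, ← hR r σ φ, hv σ hσ]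

end Fermat.Agent.S36
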