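import Fermat.Agent.S34.UHdiv
import Fermat.Agent.S34.SpanDesc
import Fermat.Agent.ES.InstGY

/-!
# S36, block G-DESC : [D4] the witnesses of `hdiv` over the field of definition of `u`

If `u ∈ FF N` is defined over `K0` (any intermediate field) and `m ∣ div u` over `ℚ̄`, then the
witnesses `g i`, `g' i` (`g i ^ m * u`, `g' i ^ m * u⁻¹` integral over `ℚ̄[x]`, `∑ g i * g' i = 1`)
can be chosen over the SAME field `K0`.
-/

set_option autoImplicit false

noncomputable section

namespace Fermat.Agent.S36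

open ModularCurve AlgebraicCurve Polynomial IntermediateField
open Fermat.Agent.S24 Fermat.Agent.S28 Fermat.Agent.ES Fermat.Agent.ES.QE Fermat.Agent.ES.Inst
open Fermat.Agent.S34 Fermat.Agent.S34.SpanDesc

namespace HdivK0

/-! ### the module `{z | z ^ m * u integral}` -/

section Int

variable {R S : Type*} [CommRing R] [CommRing S] [Algebra R S]

theorem isIntegral_term (m : ℕ) (u z1 z2 : S) (h1 : IsIntegral R (z1 ^ m * u))
    (h2 : IsIntegral R (z2 ^ m * u)) (j : ℕ) (hj : j ≤ m) :
    IsIntegral R (z1 ^ j * z2 ^ (m - j) * u) := by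
  rcases Nat.eq_zero_or_pos m with rfl | hm
  · have : j = 0 := by omega
    subst this
    simpa using h1
  · apply IsIntegral.of_pow hm
    have : (z1 ^ j * z2 ^ (m - j) * u) ^ m = (z1 ^ m * u) ^ j * (z2 ^ m * u) ^ (m - j) := by
      obtain ⟨k, rfl⟩ := Nat.exists_eq_add_of_le hj
      simp only [Nat.add_sub_cancel_left]
      ring
    rw [this]
    exact (h1.pow j).mul (h2.pow _)

theorem isIntegral_add (m : ℕ) (u z1 z2 : S) (h1 : IsIntegral R (z1 ^ m * u))
    (h2 : IsIntegral R (z2 ^ m * u)) : IsIntegral R ((z1 + z2) ^ m * u) := by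
  rw [add_pow, Finset.sum_mul]
  refine IsIntegral.sum _ fun j hj => ?_
  have hj' : j ≤ m := Nat.lt_succ_iff.1 (Finset.mem_range.1 hj)
  have : z1 ^ j * z2 ^ (m - j) * (m.choose j : S) * u
      = (m.choose j : S) * (z1 ^ j * z2 ^ (m - j) * u) := by ring
  rw [this]
  exact (isIntegral_natCast _).mul (isIntegral_term m u z1 z2 h1 h2 j hj')

theorem isIntegral_sum (m : ℕ) (hm : 0 < m) (u : S) {J : Type*} (s : Finset J) (z : J → S)
    (h : ∀ j ∈ s, IsIntegral R (z j ^ m * u)) : IsIntegral R ((∑ j ∈ s, z j) ^ m * u) := by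
  classical
  induction s using Finset.induction_on with
  | empty =>
    rw [Finset.sum_empty, zero_pow hm.ne', zero_mul]
    exact isIntegral_zero
  | insert a s ha ih =>
    rw [Finset.sum_insert ha]
    exact isIntegral_add m u _ _ (h a (Finset.mem_insert_self a s))
      (ih fun j hj => h j (Finset.mem_insert_of_mem hj))

theorem isIntegral_smul (m : ℕ) (u c z : S) (hc : IsIntegral R c) (h : IsIntegral R (z ^ m * u)) :
    IsIntegral R ((c * z) ^ m * u) := by
  rw [mul_pow, mul_assoc]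
  exact (hc.pow m).mul h

end Int

/-! ### linear forms as combinations of embeddings -/

theorem exists_trace_rep {K L : Type} [Field K] [Field L] [Algebra K L] [CharZero K]
    [IsAlgClosed L] [Algebra.IsAlgebraic K L] (φ : L →ₗ[K] K) {r : ℕ} (c : Fin r → L) :
    ∃ (J : Type) (_ : Fintype J) (d : J → L) (σ : J → (L →ₐ[K] L)),
      ∀ k, algebraMap K L (φ (c k)) = ∑ j, d j * σ j (c k) := by
  classical
  set K1 : IntermediateField K L := IntermediateField.adjoin K (Set.range c) with hK1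
  have : FiniteDimensional K K1 := IntermediateField.finiteDimensional_adjoin
    (fun x _ => (Algebra.IsAlgebraic.isAlgebraic x).isIntegral)
  have hB := traceForm_nondegenerate K K1
  let φ1 : Module.Dual K K1 := φ.comp K1.val.toLinearMap
  let d0 : K1 := ((Algebra.traceForm K K1).toDual hB).symm φ1
  have hd0 : ∀ y : K1, Algebra.trace K K1 (d0 * y) = φ (y : L) := fun y => by
    have := LinearMap.BilinForm.apply_toDual_symm_apply (hB := hB) φ1 y
    rw [Algebra.traceForm_apply] at this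
    exact this
  have hsurj := IsAlgClosed.surjective_domRestrict_of_isAlgebraic (K := K) (L := K1) (M := L)
    (E := L)
  choose lift hlift using hsurj
  refine ⟨(K1 →ₐ[K] L), inferInstance, fun σ => σ d0, lift, fun k => ?_⟩
  have hck : c k ∈ K1 := IntermediateField.subset_adjoin _ _ ⟨k, rfl⟩
  rw [← hd0 ⟨c k, hck⟩, trace_eq_sum_embeddings L]
  refine Finset.sum_congr rfl fun σ _ => ?_
  rw [map_mul]
  congr 1
  have := DFunLike.congr_fun (hlift σ) ⟨c k, hck⟩
  exact this.symm

/-! ### representation of the elements of `bigField` -/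

section Rep

variable {K L : Type} [Field K] [Field L] [Algebra K L]

theorem exists_rep [Algebra.IsAlgebraic K L] (E0 : IntermediateField K (LaurentSeries K))
    {z : LaurentSeries L} (hz : z ∈ bigField (L := L) E0) :
    ∃ (r : ℕ) (a : Fin r → LaurentSeries K) (c : Fin r → L), (∀ k, a k ∈ E0) ∧
      z = ∑ k, coeffMap (algebraMap K L) (a k) * HahnSeries.C (c k) := by
  let ψ : E0 →+* LaurentSeries L :=
    (coeffMap (algebraMap K L)).comp (algebraMap E0 (LaurentSeries K))
  let _ : Algebra E0 (LaurentSeries L) := ψ.toAlgebra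
  set S : Set (LaurentSeries L) := Set.range (HahnSeries.C : L → LaurentSeries L) with hS
  have halg : ∀ x ∈ S, IsAlgebraic E0 x := by
    rintro _ ⟨c, rfl⟩
    obtain ⟨p, hp0, hp⟩ := Algebra.IsAlgebraic.isAlgebraic (R := K) c
    refine ⟨p.map (algebraMap K E0), (Polynomial.map_ne_zero_iff (algebraMap K E0).injective).2 hp0,
      ?_⟩
    rw [Polynomial.aeval_def, Polynomial.eval₂_map]
    have e : (algebraMap E0 (LaurentSeries L)).comp (algebraMap K E0)
        = (HahnSeries.C : L →+* LaurentSeries L).comp (algebraMap K L) := by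
      ext a : 1
      show coeffMap (algebraMap K L) (algebraMap K (LaurentSeries K) a) = _
      rw [algebraMap_eq_C, coeffMap_C]
      rfl
    rw [e, ← Polynomial.hom_eval₂, ← Polynomial.aeval_def, hp, map_zero]
  have h1 : z ∈ IntermediateField.adjoin E0 S := by
    have hle : bigField (L := L) E0 ≤ (IntermediateField.adjoin E0 S).toSubfield := by
      rw [bigField, Subfield.closure_le]
      rintro x (⟨y, hy, rfl⟩ | hx)
      · exact (IntermediateField.adjoin E0 S).algebraMap_mem ⟨y, hy⟩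
      · exact IntermediateField.subset_adjoin E0 S hx
    exact hle hz
  have h2 : z ∈ Algebra.adjoin E0 S := by
    rw [← IntermediateField.adjoin_toSubalgebra_of_isAlgebraic halg]
    exact h1
  have h3 : z ∈ Submodule.span E0 (Submonoid.closure S : Set (LaurentSeries L)) := by
    rw [← Algebra.adjoin_eq_span]
    exact h2
  have hcl : ∀ x ∈ Submonoid.closure S, ∃ c : L, x = HahnSeries.C c := by
    intro x hx
    induction hx using Submonoid.closure_induction with
    | mem y hy => obtain ⟨c, rfl⟩ := hy; exact ⟨c, rfl⟩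
    | one => exact ⟨1, (map_one _).symm⟩
    | mul a b _ _ ha hb =>
      obtain ⟨c, rfl⟩ := ha
      obtain ⟨d, rfl⟩ := hb
      exact ⟨c * d, (map_mul _ _ _).symm⟩
  obtain ⟨r, f, g, hfg⟩ := Submodule.mem_span_set'.1 h3
  choose c hc using fun k => hcl (g k : LaurentSeries L) (g k).2
  refine ⟨r, fun k => (f k : LaurentSeries K), c, fun k => (f k).2, ?_⟩
  rw [← hfg]
  refine Finset.sum_congr rfl fun k _ => ?_
  rw [← hc k]
  exact Algebra.smul_def (f k) (g k : LaurentSeries L)

theorem lam_rep (φ : L →ₗ[K] K) {r : ℕ} (a : Fin r → LaurentSeries K) (c : Fin r → L) :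
    lam φ (∑ k, coeffMap (algebraMap K L) (a k) * HahnSeries.C (c k))
      = ∑ k, a k * HahnSeries.C (φ (c k)) := by
  rw [lam_sum]
  exact Finset.sum_congr rfl fun k _ => by rw [lam_mul, lam_C]

theorem conj_coeffMap (σ : L →ₐ[K] L) (y : LaurentSeries K) :
    coeffMap (σ : L →+* L) (coeffMap (algebraMap K L) y) = coeffMap (algebraMap K L) y := by
  ext n
  rw [coeffMap_coeff, coeffMap_coeff]
  exact σ.commutes _

theorem conj_rep (σ : L →ₐ[K] L) {r : ℕ} (a : Fin r → LaurentSeries K) (c : Fin r → L) :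
    coeffMap (σ : L →+* L) (∑ k, coeffMap (algebraMap K L) (a k) * HahnSeries.C (c k))
      = ∑ k, coeffMap (algebraMap K L) (a k) * HahnSeries.C (σ (c k)) := by
  rw [map_sum]
  refine Finset.sum_congr rfl fun k _ => ?_
  rw [map_mul, conj_coeffMap, coeffMap_C]
  rfl

/-- the structure map `K[X] → L((T))`. -/
def fL (L : Type) [Field L] [Algebra K L] (x0 : LaurentSeries K) : K[X] →+* LaurentSeries L :=
  (coeffMap (algebraMap K L)).comp (evS x0)

theorem isIntegralElem_C [Algebra.IsAlgebraic K L] (x0 : LaurentSeries K) (d : L) :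
    (fL L x0).IsIntegralElem (HahnSeries.C d) := by
  obtain ⟨P, hP, hPa⟩ := (Algebra.IsAlgebraic.isAlgebraic (R := K) d).isIntegral
  refine ⟨P.map C, hP.map _, ?_⟩
  rw [eval₂_map]
  have : (fL L x0).comp C = (HahnSeries.C : L →+* LaurentSeries L).comp (algebraMap K L) := by
    ext a : 1
    show coeffMap (algebraMap K L) (evS x0 (C a)) = _
    rw [evS_C, coeffMap_C]
    rfl
  rw [this, ← hom_eval₂, hPa, map_zero]

theorem isIntegralElem_conj (x0 : LaurentSeries K) (σ : L →ₐ[K] L) {y : LaurentSeries L}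
    (h : (fL L x0).IsIntegralElem y) : (fL L x0).IsIntegralElem (coeffMap (σ : L →+* L) y) := by
  obtain ⟨P, hP, hroot⟩ := h
  refine ⟨P, hP, ?_⟩
  have e : (coeffMap (σ : L →+* L)).comp (fL L x0) = fL L x0 := by
    refine RingHom.ext fun p => ?_
    exact conj_coeffMap σ _
  have := congrArg (coeffMap (σ : L →+* L)) hroot
  rw [hom_eval₂, e, map_zero] at this
  exact this

/-- **key lemma**: `lam φ` preserves `{z | z ^ m * w integral}`. -/
theorem key [CharZero K] [IsAlgClosed L] [Algebra.IsAlgebraic K L]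
    (E0 : IntermediateField K (LaurentSeries K)) (x0 : LaurentSeries K) (m : ℕ) (hm : 0 < m)
    (w : LaurentSeries K) (φ : L →ₗ[K] K) {z : LaurentSeries L} (hz : z ∈ bigField (L := L) E0)
    (h : (fL L x0).IsIntegralElem (z ^ m * coeffMap (algebraMap K L) w)) :
    (evS x0).IsIntegralElem ((lam φ z) ^ m * w) := by
  obtain ⟨r, a, c, -, hrep⟩ := exists_rep E0 hz
  obtain ⟨J, _, d, σ, hσ⟩ := exists_trace_rep φ c
  have e : coeffMap (algebraMap K L) (lam φ z)
      = ∑ j, HahnSeries.C (d j) * coeffMap (σ j : L →+* L) z := by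
    rw [hrep, lam_rep, map_sum]
    simp only [conj_rep, Finset.mul_sum]
    rw [Finset.sum_comm]
    refine Finset.sum_congr rfl fun k _ => ?_
    rw [map_mul, coeffMap_C, hσ k, map_sum, Finset.mul_sum]
    refine Finset.sum_congr rfl fun j _ => ?_
    rw [map_mul]
    ring
  apply HDivDesc.isIntegralElem_of_injective (evS x0) (coeffMap (algebraMap K L))
    (coeffMap_injective (algebraMap K L).injective)
  rw [map_mul, map_pow, e]
  let _ : Algebra K[X] (LaurentSeries L) := (fL L x0).toAlgebra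
  refine isIntegral_sum (R := K[X]) m hm _ Finset.univ _ fun j _ => ?_
  refine isIntegral_smul (R := K[X]) m _ _ _ (isIntegralElem_C x0 (d j)) ?_
  have := isIntegralElem_conj x0 (σ j) h
  rw [map_mul, map_pow, conj_coeffMap] at this
  exact this

/-- expansion in a `K`-basis of `L`. -/
theorem exists_expansion [Algebra.IsAlgebraic K L] (E0 : IntermediateField K (LaurentSeries K))
    {ι : Type} (b : Module.Basis ι K L) {z : LaurentSeries L} (hz : z ∈ bigField (L := L) E0) :
    ∃ s : Finset ι, ∀ s' : Finset ι, s ⊆ s' →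
      z = ∑ l ∈ s', coeffMap (algebraMap K L) (lam (b.coord l) z) * HahnSeries.C (b l) := by
  classical
  obtain ⟨r, a, c, -, hrep⟩ := exists_rep E0 hz
  refine ⟨Finset.univ.biUnion fun k => (b.repr (c k)).support, fun s' hs' => ?_⟩
  have hc : ∀ k, c k = ∑ l ∈ s', algebraMap K L (b.coord l (c k)) * b l := by
    intro k
    conv_lhs => rw [← b.linearCombination_repr (c k), Finsupp.linearCombination_apply]
    have hsub : (b.repr (c k)).support ⊆ s' :=
      (Finset.subset_biUnion_of_mem (fun k => (b.repr (c k)).support) (Finset.mem_univ k)).trans hs'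
    rw [Finsupp.sum_of_support_subset (b.repr (c k)) hsub (fun i a => a • b i)
      (fun i _ => zero_smul _ _)]
    exact Finset.sum_congr rfl fun l _ => by rw [Algebra.smul_def]; rfl
  have e : ∀ l, coeffMap (algebraMap K L) (lam (b.coord l) z) * HahnSeries.C (b l)
      = ∑ k, coeffMap (algebraMap K L) (a k)
          * HahnSeries.C (algebraMap K L (b.coord l (c k)) * b l) := by
    intro l
    rw [hrep, lam_rep, map_sum, Finset.sum_mul]
    refine Finset.sum_congr rfl fun k _ => ?_
    rw [map_mul, coeffMap_C, map_mul, mul_assoc]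
  simp only [e]
  rw [Finset.sum_comm, hrep]
  refine Finset.sum_congr rfl fun k _ => ?_
  rw [← Finset.mul_sum, ← map_sum, ← hc k]

/-- **descent of the witnesses**, abstract form. -/
theorem descent_abs [CharZero K] [IsAlgClosed L] [Algebra.IsAlgebraic K L]
    (E0 : IntermediateField K (LaurentSeries K)) (x0 u0 : LaurentSeries K) (m : ℕ) (hm : 0 < m)
    {n : ℕ} (g g' : Fin n → LaurentSeries L) (hg : ∀ i, g i ∈ bigField (L := L) E0)
    (hg' : ∀ i, g' i ∈ bigField (L := L) E0)
    (h1 : ∀ i, (fL L x0).IsIntegralElem (g i ^ m * coeffMap (algebraMap K L) u0))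
    (h2 : ∀ i, (fL L x0).IsIntegralElem (g' i ^ m * coeffMap (algebraMap K L) u0⁻¹))
    (hs : ∑ i, g i * g' i = 1) :
    ∃ (J : Type) (_ : Fintype J) (G G' : J → LaurentSeries K), (∀ i, G i ∈ E0) ∧
      (∀ i, G' i ∈ E0) ∧ (∀ i, (evS x0).IsIntegralElem (G i ^ m * u0)) ∧
      (∀ i, (evS x0).IsIntegralElem (G' i ^ m * u0⁻¹)) ∧ ∑ i, G i * G' i = 1 := by
  classical
  set b := Module.Basis.ofVectorSpace K L with hb
  obtain ⟨φ0, hφ0⟩ := exists_form (K := K) (L := L)
  choose s hs' using fun i => exists_expansion E0 b (hg' i)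
  set S := Finset.univ.biUnion s with hS
  have hsS : ∀ i, s i ⊆ S := fun i => Finset.subset_biUnion_of_mem s (Finset.mem_univ i)
  have hCmem : ∀ d : L, HahnSeries.C d ∈ bigField (L := L) E0 := fun d =>
    Subfield.subset_closure (Or.inr ⟨d, rfl⟩)
  refine ⟨Fin n × S, inferInstance, fun il => lam φ0 (HahnSeries.C (b il.2) * g il.1),
    fun il => lam (b.coord il.2) (g' il.1), fun il => ?_, fun il => ?_, fun il => ?_, fun il => ?_,
    ?_⟩
  · exact lam_mem φ0 E0 (mul_mem (hCmem _) (hg _))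
  · exact lam_mem _ E0 (hg' _)
  · refine key E0 x0 m hm u0 φ0 (mul_mem (hCmem _) (hg _)) ?_
    let _ : Algebra K[X] (LaurentSeries L) := (fL L x0).toAlgebra
    exact isIntegral_smul (R := K[X]) m _ _ _ (isIntegralElem_C x0 _) (h1 _)
  · exact key E0 x0 m hm u0⁻¹ _ (hg' _) (h2 _)
  · have h3 := congrArg (lam φ0) hs
    have h4 : lam φ0 (1 : LaurentSeries L) = 1 := by
      have := lam_coeffMap φ0 hφ0 (1 : LaurentSeries K)
      rwa [map_one] at this
    rw [h4, lam_sum] at h3
    rw [Fintype.sum_prod_type, ← h3]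
    refine Finset.sum_congr rfl fun i _ => ?_
    conv_rhs => rw [hs' i S (hsS i), Finset.mul_sum, lam_sum]
    rw [Finset.sum_coe_sort S (fun l => lam φ0 (HahnSeries.C (b l) * g i) * lam (b.coord l) (g' i))]
    refine Finset.sum_congr rfl fun l _ => ?_
    have : g i * (coeffMap (algebraMap K L) (lam (b.coord l) (g' i)) * HahnSeries.C (b l))
        = coeffMap (algebraMap K L) (lam (b.coord l) (g' i)) * (HahnSeries.C (b l) * g i) := by
      ring
    rw [this, lam_mul, mul_comm]

end Rep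

/-! ### the modular function fields -/

/-- from integrality over `K0[x0]` (series) to integrality over `ℚ̄[xF]` in `FF N`. -/
theorem isIntegral_adjoin_of_series (N : ℕ) (K0 : IntermediateField ℚ Kb) (xF zF : FF N)
    (x0 y : LaurentSeries K0) (hx : bc K0 x0 = (xF : LaurentSeries Kb))
    (hy : bc K0 y = (zF : LaurentSeries Kb)) (h : (evS x0).IsIntegralElem y) :
    IsIntegral (Algebra.adjoin Kb {xF}) zF := by
  set x' : Algebra.adjoin Kb {xF} := ⟨xF, Algebra.self_mem_adjoin_singleton Kb xF⟩ with hx'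
  set ψ : K0[X] →+* Algebra.adjoin Kb {xF} :=
    (aeval x' : Kb[X] →ₐ[Kb] Algebra.adjoin Kb {xF}).toRingHom.comp
      (mapRingHom (algebraMap K0 Kb)) with hψ
  set vl : FF N →+* LaurentSeries Kb := (modularFunctionFieldBar N).val.toRingHom with hvl
  have e : (bc K0).comp (evS x0)
      = vl.comp ((algebraMap (Algebra.adjoin Kb {xF}) (FF N)).comp ψ) := by
    apply Polynomial.ringHom_ext
    · intro a
      have h1 : (bc K0).comp (evS x0) (C a) = HahnSeries.C (algebraMap K0 Kb a) := by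
        rw [RingHom.comp_apply, evS_C, bc, QE.coeffMap_C]
      have h2 : ψ (C a) = algebraMap Kb _ (algebraMap K0 Kb a) := by
        rw [hψ, RingHom.comp_apply, coe_mapRingHom, map_C]
        exact aeval_C _ _
      have h3 : vl.comp ((algebraMap (Algebra.adjoin Kb {xF}) (FF N)).comp ψ) (C a)
          = vl (algebraMap (Algebra.adjoin Kb {xF}) (FF N) (ψ (C a))) := rfl
      rw [h1, h3, h2, ← IsScalarTower.algebraMap_apply, ← algebraMap_eq_C]
      rfl
    · have h2 : ψ Polynomial.X = x' := by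
        rw [hψ, RingHom.comp_apply, coe_mapRingHom, map_X]
        exact aeval_X _
      have h3 : vl.comp ((algebraMap (Algebra.adjoin Kb {xF}) (FF N)).comp ψ) Polynomial.X
          = vl (algebraMap (Algebra.adjoin Kb {xF}) (FF N) (ψ Polynomial.X)) := rfl
      rw [h3, h2, RingHom.comp_apply, evS_X, hx]
      rfl
  apply RingHom.IsIntegralElem.of_comp (f := ψ)
  apply HDivDesc.isIntegralElem_of_injective _ vl Subtype.val_injective
  rw [← e]
  obtain ⟨P, hP, hroot⟩ := h
  refine ⟨P, hP, ?_⟩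
  have h5 : vl zF = bc K0 y := hy.symm
  rw [h5, ← hom_eval₂, hroot, map_zero]

/-- from integrality over `ℚ̄[xF]` in `FF N` to integrality over (the image of) `K0[x0]`. -/
theorem isIntegralElem_fL_of_adjoin (N : ℕ) (K0 : IntermediateField ℚ Kb) (xF zF : FF N)
    (x0 : LaurentSeries K0) (hx : bc K0 x0 = (xF : LaurentSeries Kb))
    (h : IsIntegral (Algebra.adjoin Kb {xF}) zF) :
    (fL Kb x0).IsIntegralElem (zF : LaurentSeries Kb) := by
  have halg : Algebra.IsAlgebraic ℚ Kb := AlgebraicClosure.isAlgebraic ℚ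
  have : Algebra.IsAlgebraic K0 Kb := Algebra.IsAlgebraic.tower_top (K := ℚ) K0
  have h1 := HDivDesc.isIntegralElem_of_isIntegral_adjoin h
  have e : fL Kb x0 = (evS (xF : LaurentSeries Kb)).comp (mapRingHom (algebraMap K0 Kb)) := by
    refine RingHom.ext fun p => ?_
    rw [← hx]
    exact coeffMap_evS _ _ _
  rw [e]
  exact HDivDesc.isIntegralElem_comp _ _ (HDivDesc.isIntegral_mapRingHom K0 Kb) h1

end HdivK0

open HdivK0

/-- **[D4]**, series form: the witnesses of `hdiv` over the field of definition `K0` of `x`, `u`. -/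
theorem exists_hdiv_series (N m : ℕ) [NeZero N] (hm : 0 < m) (K0 : IntermediateField ℚ Kb)
    (xF u : FF N) (hxt : Transcendental Kb xF) [FiniteDimensional Kb⟮xF⟯ (FF N)]
    (hu : IsPDiv m N u) (x0 u0 : LaurentSeries K0) (hx : bc K0 x0 = (xF : LaurentSeries Kb))
    (hu0 : bc K0 u0 = (u : LaurentSeries Kb)) :
    ∃ (J : Type) (_ : Fintype J) (G G' : J → LaurentSeries K0), (∀ i, G i ∈ F0 K0 N) ∧
      (∀ i, G' i ∈ F0 K0 N) ∧ (∀ i, (evS x0).IsIntegralElem (G i ^ m * u0)) ∧
      (∀ i, (evS x0).IsIntegralElem (G' i ^ m * u0⁻¹)) ∧ ∑ i, G i * G' i = 1 := by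
  have halg : Algebra.IsAlgebraic ℚ Kb := AlgebraicClosure.isAlgebraic ℚ
  have : Algebra.IsAlgebraic K0 Kb := Algebra.IsAlgebraic.tower_top (K := ℚ) K0
  obtain ⟨n, g, g', h1, h2, h3⟩ := HDiv.exists_witness hxt m u hu.1 hu.2
  refine descent_abs (K := K0) (L := Kb) (F0 K0 N) x0 u0 m hm
    (fun i => (g i : LaurentSeries Kb)) (fun i => (g' i : LaurentSeries Kb))
    (fun i => FF_mem_bigField K0 N (g i)) (fun i => FF_mem_bigField K0 N (g' i))
    (fun i => ?_) (fun i => ?_) ?_
  · have := isIntegralElem_fL_of_adjoin N K0 xF _ x0 hx (h1 i)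
    have e : ((g i ^ m * u : FF N) : LaurentSeries Kb)
        = (g i : LaurentSeries Kb) ^ m * coeffMap (algebraMap K0 Kb) u0 := by
      rw [show coeffMap (algebraMap K0 Kb) u0 = (u : LaurentSeries Kb) from hu0]
      rfl
    rwa [e] at this
  · have := isIntegralElem_fL_of_adjoin N K0 xF _ x0 hx (h2 i)
    have e : ((g' i ^ m * u⁻¹ : FF N) : LaurentSeries Kb)
        = (g' i : LaurentSeries Kb) ^ m * coeffMap (algebraMap K0 Kb) u0⁻¹ := by
      rw [map_inv₀, show coeffMap (algebraMap K0 Kb) u0 = (u : LaurentSeries Kb) from hu0]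
      rfl
    rwa [e] at this
  · have := congrArg (fun z : FF N => (z : LaurentSeries Kb)) h3
    simpa using this

/-- **[D4]**: the witnesses of `hdiv` over the field of definition `K0` of `x`, `u`, in the shape
of the hypotheses of `S34.UHdiv.hdiv_mem_of_witness`. -/
theorem exists_hdiv_K0 (N m : ℕ) [NeZero N] (hm : 0 < m) (K0 : IntermediateField ℚ Kb)
    (xF u : FF N) (hxt : Transcendental Kb xF) [FiniteDimensional Kb⟮xF⟯ (FF N)]
    (hu : IsPDiv m N u) (x0 u0 : LaurentSeries K0) (hx : bc K0 x0 = (xF : LaurentSeries Kb))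
    (hu0 : bc K0 u0 = (u : LaurentSeries Kb)) :
    ∃ (n : ℕ) (g g' : Fin n → FF N),
      (∀ i, ∃ f ∈ F0 K0 N, bc K0 f = (g i : LaurentSeries Kb)) ∧
      (∀ i, ∃ f ∈ F0 K0 N, bc K0 f = (g' i : LaurentSeries Kb)) ∧
      (∀ i, IsIntegral (Algebra.adjoin Kb {xF}) (g i ^ m * u)) ∧
      (∀ i, IsIntegral (Algebra.adjoin Kb {xF}) (g' i ^ m * u⁻¹)) ∧ ∑ i, g i * g' i = 1 := by
  obtain ⟨J, _, G, G', hG, hG', h1, h2, h3⟩ := exists_hdiv_series N m hm K0 xF u hxt hu x0 u0 hx hu0
  set e := Fintype.equivFin J with he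
  refine ⟨Fintype.card J, fun i => ⟨bc K0 (G (e.symm i)), bc_mem K0 N (hG _)⟩,
    fun i => ⟨bc K0 (G' (e.symm i)), bc_mem K0 N (hG' _)⟩, fun i => ⟨_, hG _, rfl⟩,
    fun i => ⟨_, hG' _, rfl⟩, fun i => ?_, fun i => ?_, ?_⟩
  · refine isIntegral_adjoin_of_series N K0 xF _ x0 _ hx ?_ (h1 (e.symm i))
    rw [map_mul, map_pow, hu0]
    rfl
  · refine isIntegral_adjoin_of_series N K0 xF _ x0 _ hx ?_ (h2 (e.symm i))
    rw [map_mul, map_pow, map_inv₀, hu0]
    rfl
  · apply Subtype.ext
    have h4 := congrArg (bc K0) h3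
    rw [map_sum, map_one, ← Equiv.sum_comp e.symm] at h4
    simpa using h4

/-- **[D4]** for a chart of a structure `Two` (level `N`), WITHOUT enlarging `K0`: same conclusion
as `S34.exists_hdiv_mem`, no finite set `S`. -/
theorem exists_hdiv_mem_K0 (N m : ℕ) [NeZero N] (hm : 0 < m) {K0 : IntermediateField ℚ Kb}
    {A : ValuationSubring Kb} [IsDiscreteValuationRing (IDvr.R0 K0 A)]
    {D : QData (IDvr.R0 K0 A) K0 (kA A)} {q : ℕ} [NeZero q] (T : Two D q) (X : D.Coord)
    (ι : T.F →+* FF N)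
    (hι : ∀ f : T.F, ((ι f : FF N) : LaurentSeries Kb) = bc K0 (f : LaurentSeries K0))
    (hF : F0 K0 N ≤ T.F) (hxt : Transcendental Kb (ι (T.x X)))
    [FiniteDimensional Kb⟮ι (T.x X)⟯ (FF N)] (u0 : T.F) (hu : IsPDiv m N (ι u0)) :
    ∃ (n : ℕ) (g g' : Fin n → T.F), (∀ i, g i ^ m * u0 ∈ T.away X) ∧
      (∀ i, g' i ^ m * u0⁻¹ ∈ T.away X) ∧ ∑ i, g i * g' i = 1 := by
  obtain ⟨n, g, g', hl, hl', h1, h2, h3⟩ := exists_hdiv_K0 N m hm K0 (ι (T.x X)) (ι u0) hxt hu
    ((T.x X : T.F) : LaurentSeries K0) (u0 : LaurentSeries K0) (hι _).symm (hι _).symm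
  refine UHdiv.hdiv_mem_of_witness N T X ι hι m u0 n g g' h1 h2 h3 (fun i => ?_) (fun i => ?_)
  · obtain ⟨f, hf, e⟩ := hl i
    exact ⟨⟨f, hF hf⟩, Subtype.ext ((hι _).trans e)⟩
  · obtain ⟨f, hf, e⟩ := hl' i
    exact ⟨⟨f, hF hf⟩, Subtype.ext ((hι _).trans e)⟩

end Fermat.Agent.S36
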