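import Fermat.Agent.S36.TGen
import Fermat.Agent.S36.HdivK0
import Fermat.Agent.ES.InstDesc

/-!
# S36, modular block : the hypothesis `hdiv` on the generic fibre of the chart of level `M₀ q²`,
WITHOUT enlarging the field of definition `K0`.
-/

set_option autoImplicit false
set_option linter.unusedSectionVars false
set_option linter.style.haveILetI false
set_option synthInstance.maxHeartbeats 400000

noncomputable section

namespace Fermat.Agent.S36

open ModularCurve AlgebraicCurve Polynomial IntermediateField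
open Fermat.Agent.S24 Fermat.Agent.S28 Fermat.Agent.ES Fermat.Agent.ES.QE Fermat.Agent.ES.Model
  Fermat.Agent.ES.Inst Fermat.Agent.S34

/-- the hypothesis `hdiv` of `lp_reg` / `lpall_of_regAt` for `D = B` a subring of `F`
(unfold it with `id` / `show`). -/
def HdivIn {F : Type*} [Field F] (B : Subring F) (m : ℕ) (u : F) : Prop :=
  ∃ (ι : Type) (_ : Fintype ι) (g g' : ι → F),
    (∀ i, ∃ d : B, algebraMap B F d = g i ^ m * u) ∧
    (∀ i, ∃ d : B, algebraMap B F d = g' i ^ m * u⁻¹) ∧ ∑ i, g i * g' i = 1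

theorem hdivIn_of_mem {F : Type*} [Field F] (B : Subring F) (m : ℕ) (u : F)
    (h : ∃ (J : Type) (_ : Fintype J) (g g' : J → F), (∀ j, g j ^ m * u ∈ B) ∧
      (∀ j, g' j ^ m * u⁻¹ ∈ B) ∧ ∑ j, g j * g' j = 1) : HdivIn B m u := by
  obtain ⟨J, hJ, g, g', h1, h2, h3⟩ := h
  exact ⟨J, hJ, g, g', fun j => ⟨⟨_, h1 j⟩, rfl⟩, fun j => ⟨⟨_, h2 j⟩, rfl⟩, h3⟩

namespace Three

/-- **hdiv**, membership form. -/
theorem exists_hdiv_mem (N m : ℕ) [NeZero N] (hm : 0 < m) {K0 : IntermediateField ℚ Kb}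
    {A : ValuationSubring Kb} [IsDiscreteValuationRing (IDvr.R0 K0 A)]
    {D : QData (IDvr.R0 K0 A) K0 (kA A)} {q : ℕ} [NeZero q] {T : Two D q}
    {K' : Type*} [Field K'] {i : K0 →+* K'} {ζ : K'ˣ} (H : Three T i ζ) (X : D.Coord)
    (ι : H.F →+* FF N)
    (hι : ∀ f : H.F, ((ι f : FF N) : LaurentSeries Kb) = bc K0 (f : LaurentSeries K0))
    (hF : F0 K0 N ≤ H.F) (hxt : Transcendental Kb (ι (H.x X)))
    [FiniteDimensional Kb⟮ι (H.x X)⟯ (FF N)] (u0 : H.F) (hu : IsPDiv m N (ι u0)) :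
    ∃ (J : Type) (_ : Fintype J) (g g' : J → H.F), (∀ j, g j ^ m * u0 ∈ H.away X) ∧
      (∀ j, g' j ^ m * u0⁻¹ ∈ H.away X) ∧ ∑ j, g j * g' j = 1 := by
  have hK : HDivDesc.IsAway D := Inst.InstDesc.isAway_of_dvr D
  obtain ⟨J, hJ, G, G', hG, hG', h1, h2, h3⟩ := exists_hdiv_series N m hm K0 (ι (H.x X)) (ι u0) hxt
    hu ((H.x X : H.F) : LaurentSeries K0) (u0 : LaurentSeries K0) (hι _).symm (hι _).symm
  refine ⟨J, hJ, fun j => ⟨G j, hF (hG j)⟩, fun j => ⟨G' j, hF (hG' j)⟩, fun j => ?_, fun j => ?_,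
    ?_⟩
  · rw [H.mem_away_iff_series X hK]
    exact h1 j
  · rw [H.mem_away_iff_series X hK]
    exact h2 j
  · apply Subtype.ext
    rw [IntermediateField.coe_sum]
    exact h3

/-- **hdiv**, in the shape of `lpall_of_regAt` / `lp_reg`. -/
theorem exists_hdiv (N m : ℕ) [NeZero N] (hm : 0 < m) {K0 : IntermediateField ℚ Kb}
    {A : ValuationSubring Kb} [IsDiscreteValuationRing (IDvr.R0 K0 A)]
    {D : QData (IDvr.R0 K0 A) K0 (kA A)} {q : ℕ} [NeZero q] {T : Two D q}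
    {K' : Type*} [Field K'] {i : K0 →+* K'} {ζ : K'ˣ} (H : Three T i ζ) (X : D.Coord)
    (ι : H.F →+* FF N)
    (hι : ∀ f : H.F, ((ι f : FF N) : LaurentSeries Kb) = bc K0 (f : LaurentSeries K0))
    (hF : F0 K0 N ≤ H.F) (hxt : Transcendental Kb (ι (H.x X)))
    [FiniteDimensional Kb⟮ι (H.x X)⟯ (FF N)] (u0 : H.F) (hu : IsPDiv m N (ι u0)) :
    HdivIn (H.away X) m u0 :=
  hdivIn_of_mem _ _ _ (H.exists_hdiv_mem N m hm X ι hι hF hxt u0 hu)

end Three

end Fermat.Agent.S36
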