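import Fermat.Agent.S36.TChart
import Fermat.Agent.S35.GW
import Fermat.Agent.S34.OrthL

/-!
# S36, modular block, package CH-4 (part 1) : the involution of `H.F` and the two norms

For `H : Three T i ζ` the expansion `H.eB` takes its values in `H.F`; it defines an involution
`H.Wt` of `H.F` with `Wt ∘ α = β ∘ Wt_T`, `Wt ∘ β = α ∘ Wt_T`.  Hence `[H.F : α T.F] = [H.F : β T.F] = q`.
`H.nA`, `H.nB` : the norms along `H.al`, `H.be`.
-/

set_option autoImplicit false
set_option linter.unusedSectionVars false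
set_option linter.style.haveILetI false

noncomputable section

namespace Fermat.Agent.S36

open ModularCurve Polynomial
open Fermat.Agent.ES.QE Fermat.Agent.ES.Model Fermat.Agent.S34

variable {R K k : Type*} [CommRing R] [IsDomain R] [IsNoetherianRing R] [IsIntegrallyClosed R]
  [Field K] [Algebra R K] [IsFractionRing R K] [Field k]
  {D : QData R K k} {q : ℕ} [NeZero q] {T : Two D q}
  {K' : Type*} [Field K'] {i : K →+* K'} {ζ : K'ˣ} (H : Three T i ζ)

namespace TNorm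

/-- a family `θ ^ i`, `i < n`, which is a basis gives the degree `n`. -/
theorem finrank_of_rep {F1 F2 : Type*} [Field F1] [Field F2] [Algebra F1 F2] (n : ℕ) (θ : F2)
    (hrep : ∀ f : F2, ∃ c : Fin n → F1, f = ∑ i, algebraMap F1 F2 (c i) * θ ^ (i : ℕ))
    (hind : ∀ c : Fin n → F1, ∑ i, algebraMap F1 F2 (c i) * θ ^ (i : ℕ) = 0 → ∀ i, c i = 0) :
    Module.finrank F1 F2 = n := by
  have hli : LinearIndependent F1 (fun i : Fin n => θ ^ (i : ℕ)) := by
    rw [Fintype.linearIndependent_iff]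
    intro c hc
    apply hind c
    rw [← hc]
    exact Finset.sum_congr rfl fun i _ => (Algebra.smul_def _ _).symm
  have hsp : ⊤ ≤ Submodule.span F1 (Set.range (fun i : Fin n => θ ^ (i : ℕ))) := by
    intro f _
    obtain ⟨c, rfl⟩ := hrep f
    refine Submodule.sum_mem _ fun i _ => ?_
    rw [← Algebra.smul_def]
    exact Submodule.smul_mem _ _ (Submodule.subset_span ⟨i, rfl⟩)
  rw [Module.finrank_eq_card_basis (Module.Basis.mk hli hsp), Fintype.card_fin]

end TNorm

namespace Three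

/-! ### the involution -/

theorem eB_memF (f : H.F) : H.eB f ∈ H.F := by
  obtain ⟨a, rfl⟩ := H.exists_rep f
  rw [map_sum]
  refine sum_mem fun j _ => ?_
  rw [map_mul, map_pow, H.eB_al, H.eB_jz]
  exact mul_mem (H.V_mem _ (S35.e2_mem T (a j))) (pow_mem (H.le (T.le D.jF.2)) _)

/-- `H.eB` as an endomorphism of `H.F`. -/
def Wt0 : H.F →+* H.F := H.eB.codRestrict H.F H.eB_memF

theorem coe_Wt0 (f : H.F) : ((H.Wt0 f : H.F) : LaurentSeries K) = H.eB f := rfl

theorem Wt0_al (a : T.F) : H.Wt0 (H.al a) = H.be (S35.Wt T a) := Subtype.ext (H.eB_al a)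

theorem Wt0_be (a : T.F) : H.Wt0 (H.be a) = H.al (S35.Wt T a) := Subtype.ext (H.eB_be a)

theorem Wt0_jz : H.Wt0 H.jz = H.jx := by
  rw [jz, Wt0_be, S35.Wt_be, jx]

theorem Wt0_jx : H.Wt0 H.jx = H.jz := by
  rw [jx, Wt0_al, S35.Wt_al, jz]

theorem Wt0_Wt0 (f : H.F) : H.Wt0 (H.Wt0 f) = f := by
  obtain ⟨a, rfl⟩ := H.exists_rep f
  simp only [map_sum, map_mul, map_pow, Wt0_al, Wt0_be, Wt0_jz, Wt0_jx, S35.Wt_Wt]

/-- **the Atkin-Lehner involution `W_{q²}` of `H.F`.** -/
def Wt : H.F ≃+* H.F :=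
  { H.Wt0 with
    invFun := H.Wt0
    left_inv := H.Wt0_Wt0
    right_inv := H.Wt0_Wt0 }

theorem coe_Wt (f : H.F) : ((H.Wt f : H.F) : LaurentSeries K) = H.eB f := rfl

theorem Wt_al (a : T.F) : H.Wt (H.al a) = H.be (S35.Wt T a) := H.Wt0_al a

theorem Wt_be (a : T.F) : H.Wt (H.be a) = H.al (S35.Wt T a) := H.Wt0_be a

theorem Wt_jz : H.Wt H.jz = H.jx := H.Wt0_jz

theorem Wt_jx : H.Wt H.jx = H.jz := H.Wt0_jx

theorem Wt_Wt (f : H.F) : H.Wt (H.Wt f) = f := H.Wt0_Wt0 f

theorem Wt_symm (f : H.F) : H.Wt.symm f = H.Wt f := rfl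

theorem eB_Wt (f : H.F) : H.eB (H.Wt f) = (f : LaurentSeries K) := by
  rw [← coe_Wt, Wt_Wt]

/-! ### the two bases -/

/-- the decomposition `f = ∑ β(a j) x ^ j`. -/
theorem exists_rep' (f : H.F) : ∃ a : Fin q → T.F, f = ∑ j, H.be (a j) * H.jx ^ (j : ℕ) := by
  obtain ⟨a, ha⟩ := H.exists_rep (H.Wt f)
  refine ⟨fun j => S35.Wt T (a j), ?_⟩
  rw [← H.Wt_Wt f, ha, map_sum]
  refine Finset.sum_congr rfl fun j _ => ?_
  rw [map_mul, map_pow, Wt_al, Wt_jz]

theorem sum_eq_zero (a : Fin q → T.F) (h : ∑ j, H.al (a j) * H.jz ^ (j : ℕ) = 0) :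
    ∀ j, a j = 0 := by
  have h1 := congrArg H.eB h
  rw [map_sum, map_zero] at h1
  let b : ℕ → LaurentSeries K := fun j => if hj : j < q then T.e2 (a ⟨j, hj⟩) else 0
  have h3 : ∑ j ∈ Finset.range q, qExpand K q (b j) * (jqModC K) ^ j = 0 := by
    rw [← h1, Finset.sum_range]
    refine Finset.sum_congr rfl fun j _ => ?_
    rw [map_mul, map_pow, H.eB_al, H.eB_jz]
    simp only [b, dif_pos j.2]
  have h4 := OrthL.indep q (jqModC K) (Fermat.Agent.S28.Ord.order_jqModC K) b h3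
  intro j
  have h5 := h4 j j.2
  simp only [b, dif_pos j.2] at h5
  exact (map_eq_zero _).1 h5

theorem sum_eq_zero' (a : Fin q → T.F) (h : ∑ j, H.be (a j) * H.jx ^ (j : ℕ) = 0) :
    ∀ j, a j = 0 := by
  have h1 := congrArg H.Wt h
  rw [map_sum, map_zero] at h1
  have h2 : ∑ j, H.al (S35.Wt T (a j)) * H.jz ^ (j : ℕ) = 0 := by
    rw [← h1]
    refine Finset.sum_congr rfl fun j _ => ?_
    rw [map_mul, map_pow, Wt_be, Wt_jx]
  intro j
  exact (map_eq_zero _).1 (H.sum_eq_zero _ h2 j)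

/-! ### the two norms -/

/-- the norm along `α`. -/
def nA : H.F →* T.F :=
  letI := H.al.toAlgebra
  Algebra.norm T.F

/-- the norm along `β`. -/
def nB : H.F →* T.F :=
  letI := H.be.toAlgebra
  Algebra.norm T.F

theorem finrank_al :
    letI := H.al.toAlgebra
    Module.finrank T.F H.F = q := by
  letI := H.al.toAlgebra
  exact TNorm.finrank_of_rep q H.jz (fun f => H.exists_rep f) (fun c hc => H.sum_eq_zero c hc)

theorem finrank_be :
    letI := H.be.toAlgebra
    Module.finrank T.F H.F = q := by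
  letI := H.be.toAlgebra
  exact TNorm.finrank_of_rep q H.jx (fun f => H.exists_rep' f) (fun c hc => H.sum_eq_zero' c hc)

theorem nA_al (x : T.F) : H.nA (H.al x) = x ^ q := by
  letI := H.al.toAlgebra
  have := Algebra.norm_algebraMap (R := T.F) (S := H.F) x
  rw [H.finrank_al] at this
  exact this

theorem nB_be (x : T.F) : H.nB (H.be x) = x ^ q := by
  letI := H.be.toAlgebra
  have := Algebra.norm_algebraMap (R := T.F) (S := H.F) x
  rw [H.finrank_be] at this
  exact this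

/-- `Norm_β = Wt_T ∘ Norm_α ∘ Wt`. -/
theorem nB_eq (u : H.F) : H.nB u = S35.Wt T (H.nA (H.Wt u)) := by
  have := @Algebra.norm_eq_of_equiv_equiv T.F H.F T.F H.F _ _ _ _ H.be.toAlgebra H.al.toAlgebra
    (S35.Wt T) H.Wt (by
      apply RingHom.ext
      intro y
      exact (H.Wt_be y).symm) u
  exact this

theorem nA_eq (u : H.F) : H.nA u = S35.Wt T (H.nB (H.Wt u)) := by
  rw [nB_eq, Wt_Wt, S35.Wt_Wt]

end Three

end Fermat.Agent.S36
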