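import Fermat.Agent.S36.FixU
import Fermat.Agent.S36.THdiv
import Fermat.Agent.S36.TNorm

/-!
# S36, block G : the `FF`-level end, part 2 (transport between `H.F` and `FF (M0 q²)`)

* `FixGen m c0 H X X'` : the statement over `K0` on `H : Three T i ζ`;
* `fixK0_of_fixGen` : `FixGen` gives `FixK0`.
-/

set_option autoImplicit false
set_option linter.unusedSectionVars false

noncomputable section

namespace Fermat.Agent.S36

open ModularCurve AlgebraicCurve Polynomial IntermediateField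
open Fermat.Agent.S24 Fermat.Agent.S28 Fermat.Agent.ES Fermat.Agent.ES.QE Fermat.Agent.ES.Model
  Fermat.Agent.ES.IDvr Fermat.Agent.ES.Inst Fermat.Agent.S34 Fermat.Agent.S35

/-- the statement over `K0`. -/
def FixGen {R K k : Type*} [CommRing R] [IsDomain R] [IsNoetherianRing R]
    [IsIntegrallyClosed R] [Field K] [Algebra R K] [IsFractionRing R K] [Field k]
    {D : QData R K k} {q : ℕ} [NeZero q] {T : Two D q} {K' : Type*} [Field K'] {i : K →+* K'}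
    {ζ : K'ˣ} (m c0 : ℕ) (H : Three T i ζ) (X X' : D.Coord) : Prop :=
  ∀ u : H.F, u ≠ 0 → HdivIn (H.away X) m u → HdivIn (H.away X') m u →
    (∃ (k : ℤ) (z : T.F), H.nA u = T.ϖF ^ k * z ^ m) →
    (∃ (k : ℤ) (z : T.F), H.nB u = T.ϖF ^ k * z ^ m) →
    ∃ (z : H.F) (j : ℤ) (c : K), z ≠ 0 ∧ z ^ m * (u ^ c0 * H.ϖF ^ j) = algebraMap K H.F c

variable {A : ValuationSubring Kb} {K0 : IntermediateField ℚ Kb}
  [IsDiscreteValuationRing (R0 K0 A)] {D : QData (R0 K0 A) K0 (kA A)} {q : ℕ} [NeZero q]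
  {T : Two D q} {K' : Type*} [Field K'] {i : K0 →+* K'} {ζ : K'ˣ}

/-- **transport** : the statement on `Three` gives `FixK0`. -/
theorem fixK0_of_fixGen {m c0 M0 : ℕ} [NeZero (M0 * q)] (hm : 0 < m)
    (hϖ : D.ϖ = (q : R0 K0 A)) (hT : T.F = F0 K0 (M0 * q))
    (H : Three T i ζ) (hH : H.F = F0 K0 (M0 * q * q))
    (ι1 : T.F →+* FF (M0 * q))
    (hι1 : ∀ f : T.F, ((ι1 f : FF (M0 * q)) : LaurentSeries Kb) = bc K0 (f : LaurentSeries K0))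
    (ι2 : H.F →+* FF (M0 * q * q))
    (hι2 : ∀ f : H.F, ((ι2 f : FF (M0 * q * q)) : LaurentSeries Kb) = bc K0 (f : LaurentSeries K0))
    (hdA : ∀ u : H.F, ι1 (H.nA u) = normA (M0 * q) q (ι2 u))
    (hdB : ∀ u : H.F, ι1 (H.nB u) = normB (M0 * q) q (ι2 u))
    (X X' : D.Coord) (hxt : Transcendental Kb (ι2 (H.x X)))
    [FiniteDimensional Kb⟮ι2 (H.x X)⟯ (FF (M0 * q * q))]
    (hxt' : Transcendental Kb (ι2 (H.x X')))
    [FiniteDimensional Kb⟮ι2 (H.x X')⟯ (FF (M0 * q * q))]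
    (hgen : FixGen m c0 H X X') : FixK0 m c0 M0 q K0 := by
  intro u hu ⟨f0, hf0, hf0u⟩ hA hB
  set u0 : H.F := ⟨f0, hH ▸ hf0⟩ with hu0
  have hιu : ι2 u0 = u := Subtype.ext ((hι2 u0).trans hf0u)
  have hu00 : u0 ≠ 0 := by
    intro h
    apply hu.1
    rw [← hιu, h, map_zero]
  have hιϖ1 : ι1 T.ϖF = algebraMap Kb (FF (M0 * q)) (q : Kb) := by
    apply Subtype.ext
    rw [hι1]
    have e : ((T.ϖF : T.F) : LaurentSeries K0)
        = algebraMap K0 (LaurentSeries K0) (algebraMap (R0 K0 A) K0 D.ϖ) := rfl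
    rw [e, InstUp.bc_algebraMap, hϖ]
    simp
  have hιc : ∀ c : K0, ι2 (algebraMap K0 H.F c) = algebraMap Kb (FF (M0 * q * q)) (c : Kb) := by
    intro c
    apply Subtype.ext
    rw [hι2]
    exact InstUp.bc_algebraMap K0 c
  have hshape : ∀ (n0 : H.F →* T.F) (nr : FF (M0 * q * q) →* FF (M0 * q)),
      (∀ u : H.F, ι1 (n0 u) = nr (ι2 u)) →
      (∃ (k : ℤ) (z : FF (M0 * q)), z ≠ 0 ∧
        (∃ f0 ∈ F0 K0 (M0 * q), bc K0 f0 = (z : LaurentSeries Kb)) ∧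
        nr u = algebraMap Kb (FF (M0 * q)) (q : Kb) ^ k * z ^ m) →
      ∃ (k : ℤ) (z : T.F), n0 u0 = T.ϖF ^ k * z ^ m := by
    rintro n0 nr hd ⟨k, z, -, ⟨g0, hg0, hg0z⟩, e⟩
    refine ⟨k, ⟨g0, hT ▸ hg0⟩, ι1.injective ?_⟩
    have hz : ι1 ⟨g0, hT ▸ hg0⟩ = z := Subtype.ext ((hι1 _).trans hg0z)
    rw [hd, hιu, e, map_mul, map_zpow₀, map_pow, hιϖ1, hz]
  obtain ⟨z, j, c, hz, hzc⟩ := hgen u0 hu00
    (H.exists_hdiv (M0 * q * q) m hm X ι2 hι2 hH.ge hxt u0 (hιu ▸ hu))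
    (H.exists_hdiv (M0 * q * q) m hm X' ι2 hι2 hH.ge hxt' u0 (hιu ▸ hu))
    (hshape H.nA _ hdA hA) (hshape H.nB _ hdB hB)
  have hϖ0 : ι2 H.ϖF ≠ 0 := (map_ne_zero ι2).2 H.ϖF_ne_zero
  have hϖc : ι2 H.ϖF = algebraMap Kb (FF (M0 * q * q)) ((algebraMap (R0 K0 A) K0 D.ϖ : K0) : Kb) :=
    hιc _
  refine ⟨ι2 z, (c : Kb) * (((algebraMap (R0 K0 A) K0 D.ϖ : K0) : Kb) ^ j)⁻¹,
    (map_ne_zero ι2).2 hz, ?_⟩
  have h3 := congrArg ι2 hzc
  rw [hιc, map_mul, map_mul, map_pow, map_pow, map_zpow₀, hιu] at h3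
  rw [map_mul, ← h3, map_inv₀, map_zpow₀, ← hϖc]
  field_simp

end Fermat.Agent.S36
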