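import Fermat.Agent.S36.TDefs
import Fermat.Agent.ES.InstConst

/-!
# S36, modular block, [CH-6]

A function of level `M₀ q²` which is integral over `R[x]` and over `R[1/x]` is constant.
-/

set_option autoImplicit false
set_option linter.unusedSectionVars false

noncomputable section

namespace Fermat.Agent.S36

open ModularCurve Polynomial
open Fermat.Agent.ES Fermat.Agent.ES.QE Fermat.Agent.ES.Model Fermat.Agent.ES.Inst
open Fermat.Agent.S34

variable {R K k : Type*} [CommRing R] [IsDomain R] [IsNoetherianRing R] [IsIntegrallyClosed R]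
  [Field K] [Algebra R K] [IsFractionRing R K] [Field k]
  {D : QData R K k} {q : ℕ} [NeZero q] {T : Two D q}
  {K' : Type*} [Field K'] {i : K →+* K'} {ζ : K'ˣ}

variable (H : Three T i ζ) (X : D.Coord) (y : LaurentSeries R) (hy : X.xW * y = 1)

/-- **[CH-6]** -/
theorem Three.const_of_mem_charts (f : H.F) (h1 : f ∈ H.chart X)
    (h2 : f ∈ H.chart (X.inv y hy)) : ∃ c : K, f = algebraMap K H.F c := by
  have e : D.inc y = (D.inc X.xW)⁻¹ := by
    have h : D.inc X.xW * D.inc y = 1 := by rw [← map_mul, hy, map_one]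
    exact eq_inv_of_mul_eq_one_right h
  have k1 := InstConst.isIntegral_adjoin X h1
  have k2 := InstConst.isIntegral_adjoin (X.inv y hy) h2
  have k2' : IsIntegral (Algebra.adjoin K {(D.inc X.xW)⁻¹}) (f : LaurentSeries K) := by
    rw [← e]
    exact k2
  have k3 := InstConst.isAlgebraic_of_isIntegral (InstConst.transcendental_inc X) k1 k2'
  obtain ⟨c, hc⟩ := ConstKAux.const_of_isAlgebraic _ k3
  exact ⟨c, Subtype.ext hc⟩

end Fermat.Agent.S36
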