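import Fermat.Agent.S36.TChart

/-!
# S36, modular block : the two charts of level `M₀ q²` and their overlap (copy of `S34/QChart2`)
-/

set_option autoImplicit false
set_option linter.unusedSectionVars false

noncomputable section

namespace Fermat.Agent.S36

open ModularCurve Polynomial
open Fermat.Agent.ES.QE Fermat.Agent.ES.Model Fermat.Agent.S34

variable {R K k : Type*} [CommRing R] [IsDomain R] [IsNoetherianRing R] [IsIntegrallyClosed R]
  [Field K] [Algebra R K] [IsFractionRing R K] [Field k]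
  {D : QData R K k} {q : ℕ} [NeZero q] {T : Two D q}
  {K' : Type*} [Field K'] {i : K →+* K'} {ζ : K'ˣ} (H : Three T i ζ)
  {R' : Type*} [CommRing R'] [IsDomain R'] [IsNoetherianRing R'] [IsIntegrallyClosed R']
  [Algebra R' K'] [IsFractionRing R' K'] (D' : QData R' K' k) (X : D.Coord)
  (y : LaurentSeries R) (hy : X.xW * y = 1)

namespace Three

include hy in
theorem x_ne_zero : H.x X ≠ 0 := by
  intro h
  exact S34.x_ne_zero T X y hy (H.al.injective (by rw [map_zero]; exact h))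

theorem x_inv : H.x (X.inv y hy) = (H.x X)⁻¹ := by
  show H.al (T.x (X.inv y hy)) = (H.al (T.x X))⁻¹
  rw [S34.x_inv T X y hy, map_inv₀]

theorem x_mem_chart : H.x X ∈ H.chart X := H.al_mem_chart X (S34.x_mem_chart T X)

theorem chart_le_chart12 : H.chart X ≤ H.chart12 X :=
  fun f hf => ⟨0, by rw [pow_zero, one_mul]; exact hf⟩

/-- integral over `R[x]` implies integral over `R[1/x]` up to a power of `1/x`. -/
theorem exists_pow_mul_mem_inv {f : H.F} (hf : f ∈ H.chart X) :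
    ∃ n : ℕ, (H.x X)⁻¹ ^ n * f ∈ H.chart (X.inv y hy) := by
  have hxy : D.inc X.xW * D.inc y = 1 := by rw [← map_mul, hy, map_one]
  have e1 : X.phi = eval₂RingHom (D.inc.comp HahnSeries.C) (D.inc X.xW) := by
    refine ringHom_ext' ?_ ?_
    · ext a
      simp [QData.Coord.phi]
    · simp [QData.Coord.phi]
  have e2 : (X.inv y hy).phi = eval₂RingHom (D.inc.comp HahnSeries.C) (D.inc y) := by
    refine ringHom_ext' ?_ ?_
    · ext a
      simp [QData.Coord.phi]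
    · simp [QData.Coord.phi, QData.Coord.inv]
  rw [H.mem_chart, e1] at hf
  obtain ⟨n, hn⟩ := S28.Lam.exists_pow_mul_isIntegralElem _ hxy hf
  refine ⟨n, ?_⟩
  rw [Three.mem_chart, e2, IntermediateField.coe_mul, IntermediateField.coe_pow,
    ← H.x_inv X y hy]
  exact hn

theorem exists_pow_mul_mem_of_inv {f : H.F} (hf : f ∈ H.chart (X.inv y hy)) :
    ∃ n : ℕ, H.x X ^ n * f ∈ H.chart X := by
  obtain ⟨n, hn⟩ := H.exists_pow_mul_mem_inv (X.inv y hy) X.xW (by rw [mul_comm]; exact hy) hf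
  refine ⟨n, ?_⟩
  rw [H.x_inv X y hy, inv_inv] at hn
  exact hn

theorem inv_chart_le_chart12 : H.chart (X.inv y hy) ≤ H.chart12 X :=
  fun _ hf => H.exists_pow_mul_mem_of_inv X y hy hf

theorem h12a {f : H.F} (hf : f ∈ H.chart12 X) : ∃ n : ℕ, H.x X ^ n * f ∈ H.chart X := hf

theorem x_inv_mem_inv_chart : (H.x X)⁻¹ ∈ H.chart (X.inv y hy) := by
  rw [← H.x_inv X y hy]; exact H.x_mem_chart (X.inv y hy)

theorem h12b {f : H.F} (hf : f ∈ H.chart12 X) :
    ∃ n : ℕ, (H.x X)⁻¹ ^ n * f ∈ H.chart (X.inv y hy) := by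
  obtain ⟨n, hn⟩ := hf
  obtain ⟨m, hm⟩ := H.exists_pow_mul_mem_inv X y hy hn
  refine ⟨m, ?_⟩
  have hx := H.x_ne_zero X y hy
  have : (H.x X)⁻¹ ^ m * f = (H.x X)⁻¹ ^ n * ((H.x X)⁻¹ ^ m * (H.x X ^ n * f)) := by
    have e : (H.x X)⁻¹ ^ n * H.x X ^ n = 1 := by rw [← mul_pow, inv_mul_cancel₀ hx, one_pow]
    calc (H.x X)⁻¹ ^ m * f = ((H.x X)⁻¹ ^ n * H.x X ^ n) * ((H.x X)⁻¹ ^ m * f) := by
          rw [e, one_mul]
      _ = _ := by ring
  rw [this]
  exact mul_mem (pow_mem (H.x_inv_mem_inv_chart X y hy) n) hm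

/-- saturation, iterated. -/
theorem mem_chart_of_pow_mul (hq : q.Prime) [CharP k q]
    (horth : ∀ a : Fin q → T.F, (∑ j, H.al (a j) * H.jz ^ (j : ℕ)) ∈ H.O D' → ∀ j, a j ∈ T.O)
    (hC : ∀ f ∈ H.chart X, f ∈ H.OC D')
    {f : H.F} (hf : f ∈ H.O D') (c : ℕ)
    (h : H.ϖF ^ c * f ∈ H.chart X) : f ∈ H.chart X := by
  induction c with
  | zero => rwa [pow_zero, one_mul] at h
  | succ c ih =>
    apply ih
    refine H.chart_sat D' X hq horth h ((H.O D').mul_mem ((H.O D').pow_mem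
      (H.chart_le_O D' X hC _ (H.ϖF_mem_chart X)) c) hf) ?_
    rw [pow_succ]; ring

include hy in
/-- **the overlap of the two charts is a chart.** -/
theorem isChartS12 (hq : q.Prime) [CharP k q]
    (horth : ∀ a : Fin q → T.F, (∑ j, H.al (a j) * H.jz ^ (j : ℕ)) ∈ H.O D' → ∀ j, a j ∈ T.O)
    (hC : ∀ f ∈ H.chart X, f ∈ H.OC D')
    (hC' : ∀ f ∈ H.chart (X.inv y hy), f ∈ H.OC D') {m : ℕ} (hm : IsUnit (m : R)) :
    IsChartS (H.O D') H.ϖF m (H.chart12 X) := by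
  have h1 := H.isChartS D' X hq horth hC hm
  have hx := H.x_ne_zero X y hy
  have hxi : (H.x X)⁻¹ ∈ H.O D' :=
    (H.isChartS D' (X.inv y hy) hq horth hC' hm).le _ (H.x_inv_mem_inv_chart X y hy)
  have hxO : H.x X ∈ H.O D' := h1.le _ (H.x_mem_chart X)
  refine ⟨?_, H.chart_le_chart12 X h1.unif_mem, h1.m_ne, H.chart_le_chart12 X h1.inv_mem, ?_, ?_⟩
  · rintro f ⟨n, hn⟩
    have : f = (H.x X)⁻¹ ^ n * (H.x X ^ n * f) := by
      rw [← mul_assoc, ← mul_pow, inv_mul_cancel₀ hx, one_pow, one_mul]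
    rw [this]
    exact Subring.mul_mem _ (Subring.pow_mem _ hxi n) (h1.le _ hn)
  · rintro f ⟨n, hn⟩ ⟨z, hz, h⟩
    rw [pow_one] at h
    refine ⟨z, ⟨n, ?_⟩, h⟩
    have hz' : H.x X ^ n * z ∈ H.O D' := Subring.mul_mem _ (Subring.pow_mem _ hxO n) hz
    refine H.chart_sat D' X hq horth hn hz' ?_
    rw [h]; ring
  · rintro f ⟨n, hn⟩
    refine ⟨n, h1.root _ ?_⟩
    have hm0 : m ≠ 0 := by
      rintro rfl
      rw [Nat.cast_zero] at hm
      exact not_isUnit_zero hm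
    obtain ⟨e, rfl⟩ := Nat.exists_eq_succ_of_ne_zero hm0
    have : (H.x X ^ n * f) ^ (e + 1) = (H.x X ^ n) ^ e * (H.x X ^ n * f ^ (e + 1)) := by ring
    rw [this]
    exact mul_mem (pow_mem (pow_mem (H.x_mem_chart X) n) e) hn

end Three

end Fermat.Agent.S36
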