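import Fermat.Agent.S36.TGauss
import Fermat.Agent.S36.TChart2

/-!
# S36, geometry, modular block : the two open hypotheses of the chart layer, discharged

`horth` and `hC` of `S36/TChart.lean`, `S36/TChart2.lean` from `Three.orth3_of`, `Emb3.bddC`
(`S36/TGauss.lean`); the resulting hypothesis-free versions of `isChartS`, `isChartS12`.
-/

set_option autoImplicit false
set_option linter.unusedSectionVars false
set_option linter.unusedVariables false

noncomputable section

namespace Fermat.Agent.S36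

open ModularCurve Polynomial
open Fermat.Agent.ES.QE Fermat.Agent.ES.Model Fermat.Agent.S34 Fermat.Agent.S35

/-- a family `a : Fin q → F1` as a polynomial of degree `< q`. -/
theorem exists_polyFin {F1 : Type*} [Field F1] {q : ℕ} (hq : 0 < q) (a : Fin q → F1) :
    ∃ P : F1[X], P.natDegree < q ∧ (∀ j : Fin q, P.coeff j = a j) ∧
      ∀ {F2 : Type*} [Field F2] (φ : F1 →+* F2) (z : F2),
        eval₂ φ z P = ∑ j, φ (a j) * z ^ (j : ℕ) := by
  refine ⟨∑ j : Fin q, monomial (j : ℕ) (a j), ?_, ?_, ?_⟩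
  · have h : (∑ j : Fin q, monomial (j : ℕ) (a j)).natDegree ≤ q - 1 :=
      natDegree_sum_le_of_forall_le _ _ fun j _ =>
        (natDegree_monomial_le (a j)).trans (by have := j.2; omega)
    omega
  · intro j
    rw [finsetSum_coeff, Finset.sum_eq_single j]
    · rw [coeff_monomial, if_pos rfl]
    · intro b _ hb
      rw [coeff_monomial, if_neg (fun h => hb (Fin.ext h))]
    · intro h; exact absurd (Finset.mem_univ j) h
  · intro F2 _ φ z
    rw [eval₂_finsetSum]
    exact Finset.sum_congr rfl fun j _ => eval₂_monomial φ z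

variable {R K k : Type*} [CommRing R] [IsDomain R] [IsNoetherianRing R] [IsIntegrallyClosed R]
  [Field K] [Algebra R K] [IsFractionRing R K] [Field k]
  {R' K' : Type*} [CommRing R'] [IsDomain R'] [IsNoetherianRing R'] [IsIntegrallyClosed R']
  [Field K'] [Algebra R' K'] [IsFractionRing R' K']

namespace Three

variable {D : QData R K k} {q : ℕ} [NeZero q] {T : Two D q} {i : K →+* K'} {ζ : K'ˣ}
  (H : Three T i ζ) (D' : QData R' K' k) (iR : R →+* R')
  (hi : ∀ r, i (algebraMap R K r) = algebraMap R' K' (iR r))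
  (hres : ∀ r, D'.res (iR r) = D.res r) (ω : R'ˣ) (hζ : ζ = GNorm.uK ω)

include hi hres hζ in
/-- **ORTH** at the level `q²`, in the shape of the chart layer (`horth`). -/
theorem horth_of [Fact q.Prime] [CharP k q] (hprim : IsPrimitiveRoot (ω : R') q)
    (c0 : R') (hc : (ω : R') - 1 = D'.ϖ * c0) (hc0 : D'.res c0 ≠ 0)
    (c : R) (hcq : (q : R) = D.ϖ * c) (hcq0 : D.res c ≠ 0) (a : Fin q → T.F)
    (h : (∑ j, H.al (a j) * H.jz ^ (j : ℕ)) ∈ H.O D') : ∀ j, a j ∈ T.O := by
  obtain ⟨P, hP, hco, hev⟩ := exists_polyFin (Nat.pos_of_ne_zero (NeZero.ne q)) a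
  have HO := H.orth3_of D' iR hi hres ω hζ hprim c0 hc hc0 c hcq hcq0
  intro j
  rw [← hco j]
  refine (HO.mem_iff P hP).1 ?_ j
  rw [hev]
  exact h

include hi hres hζ in
/-- every element of `H.O D'` is `∑ al (a j) z ^ j` with `a j ∈ T.O`. -/
theorem exists_rep_of [Fact q.Prime] [CharP k q] (hprim : IsPrimitiveRoot (ω : R') q)
    (c0 : R') (hc : (ω : R') - 1 = D'.ϖ * c0) (hc0 : D'.res c0 ≠ 0)
    (c : R) (hcq : (q : R) = D.ϖ * c) (hcq0 : D.res c ≠ 0) (g : H.F) (hg : g ∈ H.O D') :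
    ∃ a : Fin q → T.F, (∀ j, a j ∈ T.O) ∧ g = ∑ j, H.al (a j) * H.jz ^ (j : ℕ) := by
  obtain ⟨a, rfl⟩ := H.exists_rep g
  exact ⟨a, H.horth_of D' iR hi hres ω hζ hprim c0 hc hc0 c hcq hcq0 a hg, rfl⟩

include hi hres hζ in
/-- the chart is contained in the Gauss ring of the middle cusp (`hC`). -/
theorem hC_of (hω : D'.res ω = 1) (X : D.Coord) : ∀ f ∈ H.chart X, f ∈ H.OC D' :=
  H.chart_le_OC D' X (H.toEmb3 D' iR hi hres ω hζ hω).bddC iR hi

include hi hres hζ in
/-- **the chart of level `M₀ q²` is a chart**, no geometric hypothesis left. -/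
theorem isChartS_of [Fact q.Prime] [CharP k q] (hprim : IsPrimitiveRoot (ω : R') q)
    (c0 : R') (hc : (ω : R') - 1 = D'.ϖ * c0) (hc0 : D'.res c0 ≠ 0)
    (c : R) (hcq : (q : R) = D.ϖ * c) (hcq0 : D.res c ≠ 0) (X : D.Coord)
    {m : ℕ} (hm : IsUnit (m : R)) : IsChartS (H.O D') H.ϖF m (H.chart X) := by
  have hω : D'.res ω = 1 := GNorm.res_eq_one q ω (by
    ext
    rw [Units.val_pow_eq_pow_val, Units.val_one]
    exact hprim.pow_eq_one)
  exact H.isChartS D' X Fact.out (H.horth_of D' iR hi hres ω hζ hprim c0 hc hc0 c hcq hcq0)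
    (H.hC_of D' iR hi hres ω hζ hω X) hm

include hi hres hζ in
/-- **the overlap of the two charts is a chart**, no geometric hypothesis left. -/
theorem isChartS12_of [Fact q.Prime] [CharP k q] (hprim : IsPrimitiveRoot (ω : R') q)
    (c0 : R') (hc : (ω : R') - 1 = D'.ϖ * c0) (hc0 : D'.res c0 ≠ 0)
    (c : R) (hcq : (q : R) = D.ϖ * c) (hcq0 : D.res c ≠ 0) (X : D.Coord)
    (y : LaurentSeries R) (hy : X.xW * y = 1)
    {m : ℕ} (hm : IsUnit (m : R)) : IsChartS (H.O D') H.ϖF m (H.chart12 X) := by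
  have hω : D'.res ω = 1 := GNorm.res_eq_one q ω (by
    ext
    rw [Units.val_pow_eq_pow_val, Units.val_one]
    exact hprim.pow_eq_one)
  exact H.isChartS12 D' X y hy Fact.out
    (H.horth_of D' iR hi hres ω hζ hprim c0 hc hc0 c hcq hcq0)
    (H.hC_of D' iR hi hres ω hζ hω X) (H.hC_of D' iR hi hres ω hζ hω (X.inv y hy)) hm

end Three

end Fermat.Agent.S36
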