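import Mathlib

/-!
# S36, block G-THREE : gluing two embeddings of the level `M₀ q` field (abstract part)

`F0 ⇉ F1 ⇉ F2` (degeneracy maps `α₁, β₁`, `α = algebraMap, β`), `α β₁ = β α₁`.
Two embeddings `φ, ψ : F1 → L` with `φ β₁ = ψ α₁` and `ψ (β₁ j) ≠ φ (α₁ j)` glue to an embedding
`e : F2 → L` with `e α = φ`, `e β = ψ`.
-/

set_option autoImplicit false

noncomputable section

namespace Fermat.Agent.S36

open Polynomial IntermediateField

theorem eval_map_aux {F0 E : Type*} [Field F0] [Field E] (n : ℕ) (a : Fin n → F0) (g : F0 →+* E)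
    (t : E) : ((X ^ n - ∑ i : Fin n, C (a i) * X ^ (i : ℕ) : F0[X]).map g).eval t
      = t ^ n - ∑ i : Fin n, g (a i) * t ^ (i : ℕ) := by
  simp [Polynomial.eval_finsetSum, Polynomial.map_sum]

theorem exists_emb_abs {F0 F1 F2 L : Type*} [Field F0] [Field F1] [Field F2] [Field L]
    [Algebra F1 F2] (q : ℕ) (hq : 0 < q)
    (α1 β1 : F0 →+* F1) (β : F1 →+* F2) (j : F0)
    (hαβ : ∀ u, algebraMap F1 F2 (β1 u) = β (α1 u))
    (W : F1 →+* F1) (hWα : ∀ u, W (α1 u) = β1 u) (hWβ : ∀ u, W (β1 u) = α1 u)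
    (hspan : ∀ f : F1, ∃ a : Fin (q + 1) → F0, f = ∑ i, α1 (a i) * β1 j ^ (i : ℕ))
    (hgen : ∀ S : Subfield F2, (∀ y, algebraMap F1 F2 y ∈ S) → (∀ y, β y ∈ S) → ∀ x, x ∈ S)
    (hfr : Module.finrank F1 F2 = q)
    (hz : β (β1 j) ≠ algebraMap F1 F2 (α1 j))
    (φ ψ : F1 →+* L) (h1 : ∀ u, φ (β1 u) = ψ (α1 u)) (hne : ψ (β1 j) ≠ φ (α1 j)) :
    ∃ e : F2 →+* L, (∀ h, e (algebraMap F1 F2 h) = φ h) ∧ (∀ h, e (β h) = ψ h) := by
  classical
  have : FiniteDimensional F1 F2 := Module.finite_of_finrank_pos (by rw [hfr]; exact hq)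
  -- the polynomial `m`
  obtain ⟨a, ha⟩ := hspan (β1 j ^ (q + 1))
  set m : F0[X] := X ^ (q + 1) - ∑ i : Fin (q + 1), C (a i) * X ^ (i : ℕ) with hm
  have hdeg_sum : (∑ i : Fin (q + 1), C (a i) * X ^ (i : ℕ) : F0[X]).degree ≤ (q : WithBot ℕ) := by
    refine (Polynomial.degree_sum_le _ _).trans ?_
    refine Finset.sup_le fun i _ => ?_
    refine (Polynomial.degree_C_mul_X_pow_le _ _).trans ?_
    exact_mod_cast Nat.lt_succ_iff.1 i.2
  have hmonic : m.Monic := Polynomial.monic_X_pow_sub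
    (hdeg_sum.trans_lt (by exact_mod_cast Nat.lt_succ_self q))
  have hmdeg : m.natDegree = q + 1 := by
    apply Polynomial.natDegree_eq_of_degree_eq_some
    rw [hm, Polynomial.degree_sub_eq_left_of_degree_lt, Polynomial.degree_X_pow]
    rw [Polynomial.degree_X_pow]
    exact hdeg_sum.trans_lt (by exact_mod_cast Nat.lt_succ_self q)
  have hm_eval : ∀ {E : Type _} [Field E] (g : F0 →+* E) (t : E),
      (m.map g).eval t = t ^ (q + 1) - ∑ i : Fin (q + 1), g (a i) * t ^ (i : ℕ) := by
    intro E _ g t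
    exact eval_map_aux (q + 1) a g t
  have hm_eval2 : ∀ (g : F0 →+* F2) (t : F2),
      (m.map g).eval t = t ^ (q + 1) - ∑ i : Fin (q + 1), g (a i) * t ^ (i : ℕ) :=
    fun g t => eval_map_aux (q + 1) a g t
  have hm_evalL : ∀ (g : F0 →+* L) (t : L),
      (m.map g).eval t = t ^ (q + 1) - ∑ i : Fin (q + 1), g (a i) * t ^ (i : ℕ) :=
    fun g t => eval_map_aux (q + 1) a g t
  have hm1 : (m.map α1).eval (β1 j) = 0 := by rw [hm_eval, ← ha, sub_self]
  have hm2 : (m.map β1).eval (α1 j) = 0 := by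
    have := congrArg W hm1
    rw [hm_eval, map_zero, map_sub, map_pow, map_sum, hWβ] at this
    rw [hm_eval, ← this]
    congr 1
    refine Finset.sum_congr rfl fun i _ => ?_
    rw [map_mul, map_pow, hWα, hWβ]
  obtain ⟨Ψ, hΨ⟩ := Polynomial.dvd_iff_isRoot.2 hm2
  have hΨmonic : Ψ.Monic := by
    have h := hmonic.map β1
    rw [hΨ] at h
    exact (Polynomial.monic_X_sub_C _).of_mul_monic_left h
  have hΨdeg : Ψ.natDegree = q := by
    have h := congrArg Polynomial.natDegree hΨ
    rw [hmonic.natDegree_map, hmdeg, (Polynomial.monic_X_sub_C _).natDegree_mul hΨmonic,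
      Polynomial.natDegree_X_sub_C] at h
    omega
  set z : F2 := β (β1 j) with hzdef
  -- `Ψ` kills `z`
  have hΨz : (Ψ.map (algebraMap F1 F2)).eval z = 0 := by
    have h0 : ((m.map β1).map (algebraMap F1 F2)).eval z = 0 := by
      rw [Polynomial.map_map, hm_eval2]
      have := congrArg β hm1
      rw [hm_eval, map_zero, map_sub, map_pow, map_sum] at this
      rw [← this]
      congr 1
      refine Finset.sum_congr rfl fun i _ => ?_
      rw [map_mul, map_pow, RingHom.comp_apply, hαβ]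
    rw [hΨ, Polynomial.map_mul, Polynomial.eval_mul, Polynomial.map_sub, Polynomial.map_X,
      Polynomial.map_C, Polynomial.eval_sub, Polynomial.eval_X, Polynomial.eval_C] at h0
    exact (mul_eq_zero.1 h0).resolve_left (sub_ne_zero.2 hz)
  -- `F1(z) = F2`
  have htop : F1⟮z⟯ = ⊤ := by
    rw [eq_top_iff]
    intro x _
    refine hgen F1⟮z⟯.toSubfield (fun y => F1⟮z⟯.algebraMap_mem y) (fun y => ?_) x
    obtain ⟨b, hb⟩ := hspan y
    rw [hb, map_sum]
    refine Subfield.sum_mem _ fun i _ => ?_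
    rw [map_mul, map_pow, ← hαβ]
    exact mul_mem (F1⟮z⟯.algebraMap_mem _) (pow_mem (mem_adjoin_simple_self F1 z) _)
  have hint : IsIntegral F1 z := Algebra.IsIntegral.isIntegral z
  have hmin : minpoly F1 z = Ψ := by
    have hdvd : minpoly F1 z ∣ Ψ := minpoly.dvd F1 z (by
      rw [Polynomial.aeval_def, ← Polynomial.eval_map]; exact hΨz)
    have hd : (minpoly F1 z).natDegree = q := by
      rw [← IntermediateField.adjoin.finrank hint, htop, IntermediateField.finrank_top', hfr]
    refine (Polynomial.eq_of_monic_of_dvd_of_natDegree_le (minpoly.monic hint) hΨmonic hdvd ?_).symm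
    rw [hd, hΨdeg]
  -- the root in `L`
  set r : L := ψ (β1 j) with hr
  have hΨr : (Ψ.map φ).eval r = 0 := by
    have h0 : ((m.map β1).map φ).eval r = 0 := by
      rw [Polynomial.map_map, hm_evalL]
      have := congrArg ψ hm1
      rw [hm_eval, map_zero, map_sub, map_pow, map_sum] at this
      rw [← this]
      congr 1
      refine Finset.sum_congr rfl fun i _ => ?_
      rw [map_mul, map_pow, RingHom.comp_apply, h1]
    rw [hΨ, Polynomial.map_mul, Polynomial.eval_mul, Polynomial.map_sub, Polynomial.map_X,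
      Polynomial.map_C, Polynomial.eval_sub, Polynomial.eval_X, Polynomial.eval_C] at h0
    exact (mul_eq_zero.1 h0).resolve_left (sub_ne_zero.2 hne)
  let _ : Algebra F1 L := φ.toAlgebra
  let pb := IntermediateField.adjoin.powerBasis hint
  have hpb : Polynomial.aeval r (minpoly F1 pb.gen) = 0 := by
    rw [IntermediateField.adjoin.powerBasis_gen, IntermediateField.minpoly_gen, hmin,
      Polynomial.aeval_def, ← Polynomial.eval_map]
    exact hΨr
  let e0 : F2 →ₐ[F1] L := (pb.lift r hpb).comp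
    ((IntermediateField.equivOfEq htop.symm).toAlgHom.comp
      (IntermediateField.topEquiv (F := F1) (E := F2)).symm.toAlgHom)
  have he0z : e0 z = r := by
    have : (IntermediateField.equivOfEq htop.symm).toAlgHom
        ((IntermediateField.topEquiv (F := F1) (E := F2)).symm.toAlgHom z) = pb.gen := by
      rw [IntermediateField.adjoin.powerBasis_gen]
      exact Subtype.ext rfl
    show pb.lift r hpb ((IntermediateField.equivOfEq htop.symm).toAlgHom
        ((IntermediateField.topEquiv (F := F1) (E := F2)).symm.toAlgHom z)) = r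
    rw [this, PowerBasis.lift_gen]
  have he0α : ∀ h, e0 (algebraMap F1 F2 h) = φ h := fun h => e0.commutes h
  refine ⟨e0.toRingHom, he0α, fun h => ?_⟩
  show e0 (β h) = ψ h
  obtain ⟨b, hb⟩ := hspan h
  rw [hb, map_sum, map_sum, map_sum]
  refine Finset.sum_congr rfl fun i _ => ?_
  rw [map_mul, map_mul, map_mul, map_pow, map_pow, map_pow, ← hαβ, he0α, h1]
  rw [← hzdef, he0z]

end Fermat.Agent.S36
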