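import Fermat.Agent.S36.Gauss3
import Fermat.Agent.S36.TDefs
import Fermat.Agent.S36.Mid
import Fermat.Agent.S35.GW

/-!
# S36, modular block : the Gauss rings of `H : Three T i ζ`

Adapter `Three → Emb3` (`S36/Gauss3.lean`): base change `Λ → Λ'`, the twist, the mirrored span, the
middle valuation (`S36/Mid.lean`), and finally all the non-norm fields of `Lvl1` for `H`.
-/

set_option autoImplicit false
set_option linter.unusedSectionVars false
set_option linter.unusedVariables false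

noncomputable section

namespace Fermat.Agent.S36

open ModularCurve Polynomial
open Fermat.Agent.ES.QE Fermat.Agent.ES.Model Fermat.Agent.S34 Fermat.Agent.S35

variable {R K k : Type*} [CommRing R] [IsDomain R] [IsNoetherianRing R] [IsIntegrallyClosed R]
  [Field K] [Algebra R K] [IsFractionRing R K] [Field k]
  {R' K' : Type*} [CommRing R'] [IsDomain R'] [IsNoetherianRing R'] [IsIntegrallyClosed R']
  [Field K'] [Algebra R' K'] [IsFractionRing R' K']

/-! ### base change -/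

namespace TBC

variable {D : QData R K k} {D' : QData R' K' k} {i : K →+* K'} {iR : R →+* R'}
  (hi : ∀ r, i (algebraMap R K r) = algebraMap R' K' (iR r))
  (hres : ∀ r, D'.res (iR r) = D.res r)

include hi in
theorem inc_bc (w : LaurentSeries R) : D'.inc (coeffMap iR w) = coeffMap i (D.inc w) := by
  ext n
  simp only [QData.inc, coeffMap_coeff, hi]

include hres in
theorem red_bc (w : LaurentSeries R) : D'.red (coeffMap iR w) = D.red w := by
  ext n
  simp only [QData.red, coeffMap_coeff, hres]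

include hi hres in
theorem isFrac_bc {f : LaurentSeries K} {t w : LaurentSeries R} (h : D.IsFrac f t w) :
    D'.IsFrac (coeffMap i f) (coeffMap iR t) (coeffMap iR w) :=
  ⟨by rw [red_bc hres]; exact h.1, by rw [inc_bc hi, inc_bc hi, ← map_mul, h.2]⟩

include hi hres in
theorem bc_mem {f : LaurentSeries K} (hf : f ∈ D.LamRing) : coeffMap i f ∈ D'.LamRing := by
  obtain ⟨t, w, h⟩ := hf
  exact ⟨_, _, isFrac_bc hi hres h⟩

include hi hres in
theorem bc_rho {f : LaurentSeries K} (hf : f ∈ D.LamRing) (hf' : coeffMap i f ∈ D'.LamRing) :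
    D'.rho ⟨coeffMap i f, hf'⟩ = D.rho ⟨f, hf⟩ := by
  obtain ⟨t, w, h⟩ := id hf
  rw [QData.rho_eq (f := ⟨coeffMap i f, hf'⟩) (isFrac_bc hi hres h),
    QData.rho_eq (f := ⟨f, hf⟩) h, red_bc hres, red_bc hres]

include hi hres in
theorem bc_bdd {f : LaurentSeries K} (hf : NVal.IsBdd D f) : NVal.IsBdd D' (coeffMap i f) := by
  obtain ⟨c, t, w, ht, h⟩ := hf
  have hs : coeffMap iR (D.ϖW ^ c * t) ≠ 0 := by
    intro h0
    have h1 : coeffMap i (D.inc (D.ϖW ^ c * t)) = 0 := by rw [← inc_bc (D' := D') hi, h0, map_zero]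
    have h2 : D.inc (D.ϖW ^ c * t) = 0 := (coeffMap i).injective (by rw [h1, map_zero])
    have h3 : D.ϖW ^ c * t = 0 := D.inc_injective (by rw [h2, map_zero])
    rcases mul_eq_zero.1 h3 with h4 | h4
    · exact NVal.ϖW_ne_zero D (eq_zero_of_pow_eq_zero h4)
    · exact ht (by rw [h4, map_zero])
  obtain ⟨a, s', hs', e⟩ := NVal.exists_prim D' hs
  refine ⟨a, s', coeffMap iR w, hs', ?_⟩
  rw [← D'.inc_ϖW, ← map_pow, ← map_mul, ← e, inc_bc (D := D) hi, inc_bc (D := D) hi, ← map_mul,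
    map_mul D.inc, map_pow, D.inc_ϖW, h]

include hi hres in
theorem bc_mem' {f : LaurentSeries K} (hf : NVal.IsBdd D f) (h : coeffMap i f ∈ D'.LamRing) :
    f ∈ D.LamRing := by
  by_cases hf0 : f = 0
  · rw [hf0]; exact zero_mem _
  obtain ⟨a, g, hg, hg', e⟩ := Bdd_normal (D := D) hf hf0
  have hE : D.ϖE ∈ D.LamRing := G3.ϖE_mem
  rcases le_or_gt 0 a with ha | ha
  · rw [e]
    lift a to ℕ using ha
    rw [zpow_natCast]
    exact mul_mem (pow_mem hE _) hg
  · exfalso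
    obtain ⟨n, rfl⟩ : ∃ n : ℕ, a = -((n : ℤ) + 1) := ⟨(-a - 1).toNat, by omega⟩
    have hg0 : g ≠ 0 := by
      rintro rfl
      exact hf0 (by rw [e, mul_zero])
    have h1 : (D.ϖE ^ (n + 1))⁻¹ = f * g⁻¹ := by
      rw [e, mul_assoc, mul_inv_cancel₀ hg0, mul_one, zpow_neg]
      norm_cast
    have h2 : coeffMap i (D.ϖE ^ (n + 1))⁻¹ ∈ D'.LamRing := by
      rw [h1, map_mul]
      exact mul_mem h (bc_mem hi hres hg')
    have hE' : coeffMap i D.ϖE ∈ D'.LamRing := bc_mem hi hres hE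
    have h3 : (⟨coeffMap i D.ϖE, hE'⟩ : D'.LamRing) ^ (n + 1) * ⟨_, h2⟩ = 1 := by
      apply Subtype.ext
      rw [Subring.coe_mul, Subring.coe_pow, Subring.coe_one, ← map_pow, ← map_mul,
        mul_inv_cancel₀ (pow_ne_zero _ D.ϖE_ne_zero), map_one]
    have h4 := congrArg D'.rho h3
    rw [map_mul, map_pow, bc_rho hi hres hE, G3.rho_ϖE, zero_pow (Nat.succ_ne_zero n), zero_mul,
      map_one] at h4
    exact zero_ne_one h4

end TBC

/-! ### the twist -/

namespace TTw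

variable {D' : QData R' K' k} (ω : R'ˣ) (hω : D'.res ω = 1)

theorem twist_twist_inv (ζ : K'ˣ) (f : LaurentSeries K') : S28.twist ζ⁻¹ (S28.twist ζ f) = f := by
  ext n
  rw [S28.twist_coeff, S28.twist_coeff, ← mul_assoc, ← Units.val_mul, inv_zpow, inv_mul_cancel,
    Units.val_one, one_mul]

theorem uK_inv : (GNorm.uK ω⁻¹ : K'ˣ) = (GNorm.uK ω)⁻¹ := map_inv _ _

include hω in
theorem res_inv : D'.res ((ω⁻¹ : R'ˣ) : R') = 1 := by
  have := GNorm.res_zpow (D := D') ω hω (-1)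
  rwa [zpow_neg_one] at this

include hω in
theorem tw_mem (f : LaurentSeries K') :
    S28.twist (GNorm.uK ω) f ∈ D'.LamRing ↔ f ∈ D'.LamRing := by
  refine ⟨fun h => ?_, fun h => GNorm.twist_mem_LamRing ω hω h⟩
  have := GNorm.twist_mem_LamRing (D := D') ω⁻¹ (res_inv ω hω) h
  rwa [uK_inv, twist_twist_inv] at this

include hω in
theorem tw_bdd {f : LaurentSeries K'} (hf : NVal.IsBdd D' f) :
    NVal.IsBdd D' (S28.twist (GNorm.uK ω) f) := by
  obtain ⟨c, t, w, ht, h⟩ := hf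
  refine ⟨c, S28.twist ω t, S28.twist ω w, by rw [GNorm.red_twist ω hω]; exact ht, ?_⟩
  have hE : S28.twist (GNorm.uK ω) D'.ϖE = D'.ϖE := by
    rw [← D'.inc_ϖW, ← GNorm.inc_twist]
    congr 1
    ext n
    rw [S28.twist_coeff, QData.ϖW]
    by_cases hn : n = 0
    · subst hn; simp
    · rw [HahnSeries.C_apply, HahnSeries.coeff_single_of_ne hn, mul_zero]
  rw [GNorm.inc_twist, GNorm.inc_twist, ← h, map_mul, map_mul, map_pow, hE]

end TTw

/-! ### the involution and the mirrored span -/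

namespace Three

variable {D : QData R K k} {q : ℕ} [NeZero q] {T : Two D q} {i : K →+* K'} {ζ : K'ˣ}
  (H : Three T i ζ)

theorem exists_poly (f : H.F) : ∃ P : T.F[X], P.natDegree < q ∧ f = eval₂ H.al H.jz P := by
  obtain ⟨a, ha, hf⟩ := H.span f f.2
  refine ⟨∑ j : Fin q, C (⟨a j, ha j⟩ : T.F) * X ^ (j : ℕ), ?_, ?_⟩
  · have h := degree_sum_fin_lt (fun j : Fin q => (⟨a j, ha j⟩ : T.F))
    by_cases h0 : (∑ j : Fin q, C (⟨a j, ha j⟩ : T.F) * X ^ (j : ℕ)) = 0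
    · rw [h0, natDegree_zero]; exact Nat.pos_of_ne_zero (NeZero.ne q)
    · exact (natDegree_lt_iff_degree_lt h0).2 h
  · apply Subtype.ext
    rw [hf, eval₂_finsetSum, IntermediateField.coe_sum]
    refine Finset.sum_congr rfl fun j _ => ?_
    rw [eval₂_mul, eval₂_C, eval₂_pow, eval₂_X, IntermediateField.coe_mul,
      IntermediateField.coe_pow]
    rfl

theorem eB_mem (f : H.F) : H.eB f ∈ H.F := by
  obtain ⟨P, -, rfl⟩ := H.exists_poly f
  rw [eval₂_eq_sum_range, map_sum]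
  refine sum_mem fun j _ => ?_
  rw [map_mul, map_pow, H.eB_al, jz, H.eB_be]
  exact mul_mem (H.V_mem _ (e2_mem T _)) (pow_mem (H.le (e2_mem T _)) _)

/-- the Atkin-Lehner involution of level `q²`. -/
def Wh : H.F →+* H.F := H.eB.codRestrict H.F H.eB_mem

theorem Wh_al (u : T.F) : H.Wh (H.al u) = H.be (Wt T u) := Subtype.ext (H.eB_al u)

theorem Wh_be (u : T.F) : H.Wh (H.be u) = H.al (Wt T u) := Subtype.ext (H.eB_be u)

theorem Wh_jz : H.Wh H.jz = H.jx := by rw [jz, Wh_be, Wt_be]; rfl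

theorem Wh_jx : H.Wh H.jx = H.jz := by rw [jx, Wh_al, Wt_al]; rfl

theorem Wh_Wh (f : H.F) : H.Wh (H.Wh f) = f := by
  obtain ⟨P, -, rfl⟩ := H.exists_poly f
  rw [hom_eval₂, hom_eval₂, Wh_jz, Wh_jx]
  congr 1
  ext u
  simp only [RingHom.comp_apply, Wh_al, Wh_be, Wt_Wt]

theorem exists_poly' (f : H.F) : ∃ P : T.F[X], P.natDegree < q ∧ f = eval₂ H.be H.jx P := by
  obtain ⟨P, hP, e⟩ := H.exists_poly (H.Wh f)
  refine ⟨P.map (Wt T : T.F →+* T.F), lt_of_le_of_lt natDegree_map_le hP, ?_⟩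
  rw [← H.Wh_Wh f, e, hom_eval₂, Wh_jz, eval₂_map]
  congr 1
  ext u
  simp only [RingHom.comp_apply, Wh_al, RingHom.coe_coe]

/-- **The adapter.** -/
def toEmb3 (D' : QData R' K' k) (iR : R →+* R')
    (hi : ∀ r, i (algebraMap R K r) = algebraMap R' K' (iR r))
    (hres : ∀ r, D'.res (iR r) = D.res r) (ω : R'ˣ) (hζ : ζ = GNorm.uK ω) (hω : D'.res ω = 1) :
    Emb3 T D' H.F where
  al := H.al
  be := H.be
  eA := H.eA
  eB := H.eB
  eC := H.eC
  bc := coeffMap i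
  tw := S28.twist ζ
  eA_al := H.eA_al
  eA_be := H.eA_be
  eC_al := H.eC_al
  eC_be := H.eC_be
  eB_al := H.eB_al
  eB_be := H.eB_be
  span := H.exists_poly
  span' := H.exists_poly'
  bc_bdd := fun _ h => TBC.bc_bdd hi hres h
  bc_mem := fun _ h => TBC.bc_mem hi hres h
  bc_mem' := fun _ h h' => TBC.bc_mem' hi hres h h'
  tw_bdd := fun _ h => by rw [hζ]; exact TTw.tw_bdd ω hω h
  tw_mem := fun f => by rw [hζ]; exact TTw.tw_mem ω hω f

section

variable (D' : QData R' K' k) (iR : R →+* R')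
    (hi : ∀ r, i (algebraMap R K r) = algebraMap R' K' (iR r))
    (hres : ∀ r, D'.res (iR r) = D.res r) (ω : R'ˣ) (hζ : ζ = GNorm.uK ω)

include hi in
theorem eC_jxG : H.eC H.jx = D'.inc (jqModC R') := by
  rw [jx, H.eC_al, D'.inc_j]
  show coeffMap i (jqModC K) = _
  exact coeffMap_jqModC _

theorem eC_jzG : H.eC H.jz = S28.twist ζ (H.eC H.jx) := by
  rw [jz, H.eC_be, jx, H.eC_al, T.e2_be]
  rfl

theorem hθ : ∃ n : ℤ, (n : k) * (D'.red (jqModC R')).coeff n ≠ 0 :=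
  ⟨-1, by rw [D'.red_j, coeff_jqModC_neg_one]; simp⟩

include hi hres hζ in
/-- the middle valuation ring. -/
theorem dvCG (hω : D'.res ω = 1) (c0 : R') (hc : (ω : R') - 1 = D'.ϖ * c0) (hc0 : D'.res c0 ≠ 0) :
    IsDV (H.OC D') H.tC :=
  Mid.isDV_mid H.eC (H.toEmb3 D' iR hi hres ω hζ hω).bddC ω hω c0 hc hc0 (jqModC R') (hθ D')
    H.jx H.jz (H.eC_jxG D' iR hi) (by rw [H.eC_jzG]; exact congrArg (fun z => S28.twist z (H.eC H.jx)) hζ)

include hi hres hζ in
/-- the ramification of the middle valuation ring (unramified base). -/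
theorem ramCG (hq : q.Prime) (hω : D'.res ω = 1) (hprim : IsPrimitiveRoot (ω : R') q)
    (c : R) (hc : (q : R) = D.ϖ * c) (hc0 : D.res c ≠ 0) :
    IsU (H.OC D') (H.tC ^ (q - 1) / H.ϖF) := by
  obtain ⟨w, hw, e⟩ := Mid.exists_ram H.eC hq ω hω hprim (jqModC R') (hθ D')
    H.jx H.jz (H.eC_jxG D' iR hi) (by rw [H.eC_jzG]; exact congrArg (fun z => S28.twist z (H.eC H.jx)) hζ)
  let E := H.toEmb3 D' iR hi hres ω hζ hω
  -- the constant `c`
  let cF : T.F := algebraMap K T.F (algebraMap R K c)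
  have hcF : T.e1 cF = D.inc (HahnSeries.C c) := by
    show algebraMap K (LaurentSeries K) _ = _
    rw [algebraMap_eq_C]
    exact (coeffMap_C _ _).symm
  have hcm : T.e1 cF ∈ D.LamRing := by rw [hcF]; exact QData.inc_mem_LamRing _
  have hcU : IsU T.O1 cF := by
    refine G3.isU_of_rho T.e1 hcm ?_
    rw [rho_congr hcm hcF, QData.rho_inc]
    exact Mid.red_C_ne_zero hc0
  have hcU' : IsU (H.OC D') (H.al cF) :=
    ⟨(_root_.map_ne_zero _).2 hcU.ne_zero, (E.al_C cF).2 hcU.mem, by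
      rw [← map_inv₀]; exact (E.al_C _).2 hcU.inv_mem⟩
  have hq' : (q : H.F) = H.ϖF * H.al cF := by
    have h1 : (q : T.F) = T.ϖF * cF := by
      show _ = algebraMap K T.F (algebraMap R K D.ϖ) * algebraMap K T.F (algebraMap R K c)
      rw [← map_mul, ← map_mul, ← hc, map_natCast, map_natCast]
    rw [H.ϖF_eq_al, ← map_mul, ← h1, map_natCast]
  have h0 : H.ϖF ≠ 0 := E.dvA.ne_zero
  have : H.tC ^ (q - 1) / H.ϖF = H.al cF * w := by
    rw [tC, e, hq']
    field_simp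
  rw [this]
  exact hcU'.mul hw

include hi hres hζ in
/-- **All the fields of `Lvl1` for `H : Three T i ζ`**, the norm formulas being hypotheses. -/
theorem lvl1_of [Fact q.Prime] [CharP k q] (hprim : IsPrimitiveRoot (ω : R') q)
    (c0 : R') (hc : (ω : R') - 1 = D'.ϖ * c0) (hc0 : D'.res c0 ≠ 0)
    (c : R) (hcq : (q : R) = D.ϖ * c) (hcq0 : D.res c ≠ 0)
    (nA nB : H.F →* T.F)
    (nA1 : ∀ u, u ∈ H.OA → u ∈ H.OC D' → u ∈ H.OB → ∀ a ∈ T.O1, ∀ c ∈ T.O1,
      DivS H.OA H.ϖF 1 (u - H.al a) → DivS (H.OC D') H.tC 1 (u - H.al c) →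
      DivS T.O1 T.ϖF 1 (nA u - a * c ^ (q - 1)))
    (nA2 : ∀ u, u ∈ H.OA → u ∈ H.OC D' → u ∈ H.OB → DivS H.OB H.ϖF 1 (H.al (nA u) - u ^ q))
    (nB2 : ∀ u, u ∈ H.OA → u ∈ H.OC D' → u ∈ H.OB → ∀ b ∈ T.O2, ∀ c ∈ T.O2,
      DivS H.OB H.ϖF 1 (u - H.be b) → DivS (H.OC D') H.tC 1 (u - H.be c) →
      DivS T.O2 T.ϖF 1 (nB u - b * c ^ (q - 1)))
    (nB1 : ∀ u, u ∈ H.OA → u ∈ H.OC D' → u ∈ H.OB → DivS H.OA H.ϖF 1 (H.be (nB u) - u ^ q))
    (nA_al : ∀ x, nA (H.al x) = x ^ q) (nB_be : ∀ x, nB (H.be x) = x ^ q) :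
    Lvl1 q T.O1 T.O2 T.ϖF H.OA (H.OC D') H.OB H.ϖF H.tC H.al H.be nA nB := by
  have hω : D'.res ω = 1 := GNorm.res_eq_one q ω (by
    ext
    rw [Units.val_pow_eq_pow_val, Units.val_one]
    exact hprim.pow_eq_one)
  exact (H.toEmb3 D' iR hi hres ω hζ hω).lvl1 (H.dvCG D' iR hi hres ω hζ hω c0 hc hc0)
    (H.ramCG D' iR hi hres ω hζ Fact.out hω hprim c hcq hcq0) nA nB nA1 nA2 nB2 nB1 nA_al nB_be

include hi hres hζ in
/-- `Orth3` for `H`. -/
theorem orth3_of [Fact q.Prime] [CharP k q] (hprim : IsPrimitiveRoot (ω : R') q)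
    (c0 : R') (hc : (ω : R') - 1 = D'.ϖ * c0) (hc0 : D'.res c0 ≠ 0)
    (c : R) (hcq : (q : R) = D.ϖ * c) (hcq0 : D.res c ≠ 0) :
    Orth3 H.al T.O1 T.O2 T.ϖF H.OA (H.OC D') H.OB q (T.al D.jF) H.jz := by
  have hω : D'.res ω = 1 := GNorm.res_eq_one q ω (by
    ext
    rw [Units.val_pow_eq_pow_val, Units.val_one]
    exact hprim.pow_eq_one)
  exact (H.toEmb3 D' iR hi hres ω hζ hω).orth3 (H.dvCG D' iR hi hres ω hζ hω c0 hc hc0)
    (H.ramCG D' iR hi hres ω hζ Fact.out hω hprim c hcq hcq0)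

end

end Three

end Fermat.Agent.S36
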