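import Fermat.Agent.S36.NormDict
import Fermat.Agent.S36.TGauss
import Fermat.Agent.S36.TNorm
import Fermat.Agent.S36.EmbAbs

/-!
# S36, modular block : the structure `Lvl1` for `H : Three T i ζ`

The conjugates of the middle expansion are constructed with `exists_emb_abs`; the four norm
congruences come from `Dict.nA1 nA2 nB2 nB1`; all the other fields from `Emb3.lvl1`.
-/

set_option autoImplicit false
set_option linter.unusedSectionVars false
set_option linter.style.haveILetI false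

noncomputable section

namespace Fermat.Agent.S36

open ModularCurve Polynomial
open Fermat.Agent.ES.QE Fermat.Agent.ES.Model Fermat.Agent.S34 Fermat.Agent.S35
  Fermat.Agent.S35.GNorm

variable {R K k : Type*} [CommRing R] [IsDomain R] [IsNoetherianRing R] [IsIntegrallyClosed R]
  [Field K] [Algebra R K] [IsFractionRing R K] [Field k]
  {R' K' : Type*} [CommRing R'] [IsDomain R'] [IsNoetherianRing R'] [IsIntegrallyClosed R']
  [Field K'] [Algebra R' K'] [IsFractionRing R' K']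

namespace Three

variable {D : QData R K k} {q : ℕ} [NeZero q] {T : Two D q} {i : K →+* K'} {ζ : K'ˣ}
  (H : Three T i ζ)

/-- the conjugates of the middle expansion. -/
theorem exists_conj (hz : H.jz ≠ H.jx) (ω : K'ˣ) (hω : ω ^ q = 1) (hω1 : ω ≠ 1) :
    ∃ e : H.F →+* LaurentSeries K', (∀ h, e (H.al h) = coeffMap i (T.e1 h)) ∧
      ∀ h, e (H.be h) = S28.twist ω (coeffMap i (T.e2 h)) := by
  letI := H.al.toAlgebra
  refine exists_emb_abs q (Nat.pos_of_ne_zero (NeZero.ne q)) T.al T.be H.be D.jF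
    (fun u => Subtype.ext rfl) (S35.Wt T).toRingHom (S35.Wt_al T) (S35.Wt_be T) T.exists_rep
    ?_ H.finrank_al hz ((coeffMap i).comp T.e1)
    ((S28.twist ω).comp ((coeffMap i).comp T.e2)) ?_ ?_
  · intro S h1 h2 x
    obtain ⟨a, rfl⟩ := H.exists_rep x
    exact sum_mem fun j _ => mul_mem (h1 _) (pow_mem (h2 _) _)
  · intro u
    show coeffMap i (T.e1 (T.be u)) = S28.twist ω (coeffMap i (T.e2 (T.al u)))
    rw [T.e2_al, coeffMap_qExpand, twist_qExpand q ω hω, ← coeffMap_qExpand]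
    rfl
  · intro h
    have h1 : S28.twist ω (coeffMap i (T.e2 (T.be D.jF))) = coeffMap i (T.e1 (T.al D.jF)) := h
    rw [T.e2_be] at h1
    have h2 : T.e1 (T.al D.jF) = jqModC K := rfl
    have h3 : ((D.jF : D.F0) : LaurentSeries K) = jqModC K := rfl
    rw [h2, h3] at h1
    have h4 := congrArg (fun f => HahnSeries.coeff f (-1)) h1
    simp only [S28.twist_coeff, coeffMap_coeff, coeff_jqModC_neg_one, map_one, mul_one] at h4
    apply hω1
    have h5 : (ω ^ (-1 : ℤ) : K'ˣ) = 1 := Units.ext h4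
    rwa [zpow_neg_one, inv_eq_one] at h5

end Three

theorem uK_injective : Function.Injective (uK : R'ˣ → K'ˣ) := by
  intro a b h
  have h1 : ((uK a : K'ˣ) : K') = ((uK b : K'ˣ) : K') := by rw [h]
  exact Units.ext (IsFractionRing.injective R' K' h1)

namespace Three

variable {D : QData R K k} {q : ℕ} [NeZero q] {T : Two D q} {i : K →+* K'} {ζR : R'ˣ}
  (H : Three T i (uK ζR))

/-- the dictionary. -/
theorem exists_dict (hprim : IsPrimitiveRoot ζR q) (hz : H.jz ≠ H.jx) :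
    ∃ eC : ℕ → (H.F →+* LaurentSeries K'), Dict i ζR q H.al H.be T.e1 T.e2 H.eA H.eB H.eC eC := by
  classical
  have key : ∀ a : ℕ, a + 1 < q → ∃ e : H.F →+* LaurentSeries K',
      (∀ h, e (H.al h) = coeffMap i (T.e1 h)) ∧
      ∀ h, e (H.be h) = S28.twist (uK (ζR ^ (a + 1))) (coeffMap i (T.e2 h)) := by
    intro a ha
    refine H.exists_conj hz _ ?_ ?_
    · rw [uK, ← map_pow, ← pow_mul, mul_comm, pow_mul, hprim.pow_eq_one, one_pow, map_one]
    · intro h
      have h1 : ζR ^ (a + 1) = 1 := uK_injective (K' := K') (by rw [h]; exact (map_one _).symm)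
      exact hprim.pow_ne_one_of_pos_of_lt (Nat.succ_ne_zero a) ha h1
  refine ⟨fun a => if h : a + 1 < q then (key a h).choose else H.eC, ?_⟩
  exact
  { F_al := H.eA_al
    F_be := H.eA_be
    V_al := H.eB_al
    V_be := H.eB_be
    M_al := H.eC_al
    M_be := H.eC_be
    C_al := fun a ha c => by
      simp only [dif_pos ha]
      exact (key a ha).choose_spec.1 c
    C_be := fun a ha c => by
      simp only [dif_pos ha]
      exact (key a ha).choose_spec.2 c }

/-- **The structure `Lvl1` of `H : Three T i ζ`**, the middle valuation ring being given. -/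
theorem lvl1_dv [Fact q.Prime] [CharP k q] [CharZero K] (D' : QData R' K' k) (iR : R →+* R')
    (hi : ∀ r, i (algebraMap R K r) = algebraMap R' K' (iR r))
    (hres : ∀ r, D'.res (iR r) = D.res r) (hprim : IsPrimitiveRoot (ζR : R') q)
    (dvC : IsDV (H.OC D') H.tC) (ram : IsU (H.OC D') (H.tC ^ (q - 1) / H.ϖF)) :
    Lvl1 q T.O1 T.O2 T.ϖF H.OA (H.OC D') H.OB H.ϖF H.tC H.al H.be H.nA H.nB := by
  haveI : CharZero T.F := charZero_of_injective_algebraMap (algebraMap K T.F).injective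
  have hp : IsPrimitiveRoot ζR q := IsPrimitiveRoot.coe_units_iff.1 hprim
  have hω : D'.res (ζR : R') = 1 := res_eq_one q ζR hp.pow_eq_one
  have hz : H.jz ≠ H.jx := sub_ne_zero.1 dvC.ne_zero
  obtain ⟨eC, HD⟩ := H.exists_dict hp hz
  let E := H.toEmb3 D' iR hi hres ζR rfl hω
  have dv1 : IsDV T.O1 T.ϖF := L0.isDV_O1 T
  have dv2 : IsDV T.O2 T.ϖF := L0.isDV_O2 T
  have dvA : IsDV H.OA H.ϖF := E.dvA
  have dvB : IsDV H.OB H.ϖF := E.dvB
  have hj1 : ((D.jF : D.F0) : LaurentSeries K).coeff (-1) ≠ 0 := by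
    have h3 : ((D.jF : D.F0) : LaurentSeries K) = jqModC K := rfl
    rw [h3, coeff_jqModC_neg_one]
    exact one_ne_zero
  have hzc : (T.e2 (T.be D.jF)).coeff (-1) ≠ 0 := by rw [T.e2_be]; exact hj1
  have hxc : (T.e1 (T.al D.jF)).coeff (-1) ≠ 0 := hj1
  have hzm : T.e2 (T.be D.jF) ∈ D.LamRing := (be_mem_O T Emb3.jF_mem).2
  have hxm : T.e1 (T.al D.jF) ∈ D.LamRing := (al_mem_O T Emb3.jF_mem).1
  refine E.lvl1 dvC ram H.nA H.nB ?_ ?_ ?_ ?_ H.nA_al H.nB_be
  · intro u hA hC hB a ha c hc h1 h2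
    obtain ⟨P, hP, hu⟩ := E.span u
    have hco := ((E.orth3 dvC ram).mem_iff P hP).1 (by
      show eval₂ E.al (E.be (T.be D.jF)) P ∈ _
      rw [← hu]; exact ⟨⟨hA, hC⟩, hB⟩)
    exact HD.nA1 iR hi hres hp H.finrank_al dv1 dvA dvC (T.be D.jF) hzm hzc u hA hC
      ⟨P, fun n => (hco n).1, hu⟩ a ha c hc h1 h2
  · intro u _ _ hB
    exact HD.nA2 (D := D) (D' := D') iR hi hres hp H.finrank_al dvB (T.be D.jF) hzc u hB
  · intro u hA hC hB b hb c hc h1 h2
    obtain ⟨P, hP, hu⟩ := E.span' u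
    have hco := ((E.orth3' dvC ram).mem_iff P hP).1 (by
      show eval₂ E.be (E.al (T.al D.jF)) P ∈ _
      rw [← hu]; exact ⟨⟨hB, hC⟩, hA⟩)
    exact HD.nB2 iR hi hres hp H.finrank_be dv2 dvB dvC (T.al D.jF) hxm hxc u hB hC
      ⟨P, fun n => (hco n).1, hu⟩ b hb c hc h1 h2
  · intro u hA _ _
    exact HD.nB1 (D := D) (D' := D') iR hi hres hp H.finrank_be dvA (T.al D.jF) hxc u hA

/-- **The structure `Lvl1` of `H : Three T i ζ`** (binders of `Three.lvl1_of`). -/
theorem lvl1 [Fact q.Prime] [CharP k q] [CharZero K] (D' : QData R' K' k) (iR : R →+* R')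
    (hi : ∀ r, i (algebraMap R K r) = algebraMap R' K' (iR r))
    (hres : ∀ r, D'.res (iR r) = D.res r) (hprim : IsPrimitiveRoot (ζR : R') q)
    (c0 : R') (hc : (ζR : R') - 1 = D'.ϖ * c0) (hc0 : D'.res c0 ≠ 0)
    (c : R) (hcq : (q : R) = D.ϖ * c) (hcq0 : D.res c ≠ 0) :
    Lvl1 q T.O1 T.O2 T.ϖF H.OA (H.OC D') H.OB H.ϖF H.tC H.al H.be H.nA H.nB := by
  have hp : IsPrimitiveRoot ζR q := IsPrimitiveRoot.coe_units_iff.1 hprim
  have hω : D'.res (ζR : R') = 1 := res_eq_one q ζR hp.pow_eq_one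
  exact H.lvl1_dv D' iR hi hres hprim (H.dvCG D' iR hi hres ζR rfl hω c0 hc hc0)
    (H.ramCG D' iR hi hres ζR rfl Fact.out hω hprim c hcq hcq0)

end Three

end Fermat.Agent.S36
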