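import Fermat.Agent.S36.TNorm
import Fermat.Agent.S36.GDefs
import Fermat.Agent.S34.NRed

/-!
# S36, chart layer, piece [CH-4] (membership part) : the fields `al_mem be_mem nA_mem nB_mem root`
of `ChartL` for `H : Three T i ζ`.
-/

set_option autoImplicit false
set_option linter.unusedSectionVars false
set_option linter.style.haveILetI false

noncomputable section

namespace Fermat.Agent.S36

open ModularCurve Polynomial
open Fermat.Agent.ES.QE Fermat.Agent.ES.Model Fermat.Agent.S34

namespace TNormMem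

/-- the norm of an integral element is integral. -/
theorem norm_isIntegralElem {A F1 F2 : Type*} [CommRing A] [Field F1] [Field F2] (φ : A →+* F1)
    (f : F1 →+* F2) {b : F2} (hb : (f.comp φ).IsIntegralElem b) :
    φ.IsIntegralElem ((letI := f.toAlgebra; Algebra.norm F1 : F2 →* F1) b) := by
  letI := f.toAlgebra
  letI := φ.toAlgebra
  letI := (f.comp φ).toAlgebra
  haveI : IsScalarTower A F1 F2 := IsScalarTower.of_algebraMap_eq (fun _ => rfl)
  exact Algebra.isIntegral_norm F1 hb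

/-- transport of integrality along a ring homomorphism `W` such that `W ∘ φ` has integral values. -/
theorem isIntegralElem_map {A E : Type*} [CommRing A] [CommRing E] (φ : A →+* E) (W : E →+* E)
    (hW : ∀ σ, φ.IsIntegralElem (W (φ σ))) {b : E} (hb : φ.IsIntegralElem b) :
    φ.IsIntegralElem (W b) := by
  obtain ⟨P, hP, h⟩ := hb
  refine NRed.isIntegralElem_of_coeff φ (W.comp φ) hW ⟨P, hP, ?_⟩
  rw [← hom_eval₂, h, map_zero]

end TNormMem

variable {R K k : Type*} [CommRing R] [IsDomain R] [IsNoetherianRing R] [IsIntegrallyClosed R]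
  [Field K] [Algebra R K] [IsFractionRing R K] [Field k]
  {D : QData R K k} {q : ℕ} [NeZero q] {T : Two D q}
  {K' : Type*} [Field K'] {i : K →+* K'} {ζ : K'ˣ} (H : Three T i ζ) (X : D.Coord)

/-- the Atkin-Lehner involution of level `M₀ q` preserves the chart. -/
theorem Wt_mem_chart (hVx : X.phi.IsIntegralElem (qExpand K q (D.inc X.xW))) {b : T.F}
    (hb : b ∈ T.chart X) : S35.Wt T b ∈ T.chart X := by
  rw [mem_chart_iff] at hb ⊢
  refine TNormMem.isIntegralElem_map (phiT T X) (S35.Wt T : T.F →+* T.F) (fun σ => ?_) hb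
  rw [← mem_chart_iff]
  show S35.Wt T (T.al (X.phiF σ)) ∈ T.chart X
  rw [S35.Wt_al]
  exact NRed.be_mem_chart X T hVx _ (X.phiF_mem_chart σ)

namespace Three

/-- the Atkin-Lehner involution of level `M₀ q²` preserves the chart. -/
theorem Wt_mem_chart (hVx : X.phi.IsIntegralElem (qExpand K q (D.inc X.xW))) {b : H.F}
    (hb : b ∈ H.chart X) : H.Wt b ∈ H.chart X := by
  rw [mem_chart_iff] at hb ⊢
  refine TNormMem.isIntegralElem_map (H.phiH X) (H.Wt : H.F →+* H.F) (fun σ => ?_) hb
  rw [← mem_chart_iff]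
  show H.Wt (H.al (T.al (X.phiF σ))) ∈ H.chart X
  rw [H.Wt_al, S35.Wt_al]
  exact H.be_mem_chart X hVx (NRed.be_mem_chart X T hVx _ (X.phiF_mem_chart σ))

/-- **nA_mem** -/
theorem nA_mem {b : H.F} (hb : b ∈ H.chart X) : H.nA b ∈ T.chart X := by
  rw [mem_chart_iff] at hb
  rw [S34.mem_chart_iff]
  exact TNormMem.norm_isIntegralElem (phiT T X) H.al hb

/-- **nB_mem** -/
theorem nB_mem (hVx : X.phi.IsIntegralElem (qExpand K q (D.inc X.xW))) {b : H.F}
    (hb : b ∈ H.chart X) : H.nB b ∈ T.chart X := by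
  rw [H.nB_eq]
  exact S36.Wt_mem_chart X hVx (H.nA_mem X (H.Wt_mem_chart X hVx hb))

/-- **`ChartL` for `H`**, from the four residue surjectivities. -/
theorem chartL {R' : Type*} [CommRing R'] [IsDomain R'] [IsNoetherianRing R']
    [IsIntegrallyClosed R'] [Algebra R' K'] [IsFractionRing R' K'] (D' : QData R' K' k)
    (hVx : X.phi.IsIntegralElem (qExpand K q (D.inc X.xW))) {m : ℕ} (hm : 0 < m)
    (sA : ∀ b ∈ H.chart X, ∃ a ∈ T.chart X, DivS H.OA H.ϖF 1 (b - H.al a))
    (sC : ∀ b ∈ H.chart X, ∃ a ∈ T.chart X, DivS (H.OC D') H.tC 1 (b - H.al a))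
    (sB : ∀ b ∈ H.chart X, ∃ a ∈ T.chart X, DivS H.OB H.ϖF 1 (b - H.be a))
    (sC' : ∀ b ∈ H.chart X, ∃ a ∈ T.chart X, DivS (H.OC D') H.tC 1 (b - H.be a)) :
    ChartL H.OA (H.OC D') H.OB H.ϖF H.tC m (H.chart X) (T.chart X) H.al H.be H.nA H.nB where
  al_mem := fun _ hx => H.al_mem_chart X hx
  be_mem := fun _ hx => H.be_mem_chart X hVx hx
  nA_mem := fun _ hx => H.nA_mem X hx
  nB_mem := fun _ hx => H.nB_mem X hVx hx
  root := fun _ hx => S34.chart_root T X hm hx
  surjA := sA
  surjC := sC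
  surjB := sB
  surjC' := sC'

end Three

end Fermat.Agent.S36
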