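import Fermat.Agent.S35.GNorm

/-!
# S36, geometry : abstract cores of the norm formulas from level `M₀ q²` to level `M₀ q`

`D : QData R K k` is the `q`-expansion data over a ring `R` containing `ζ_q`.
`F1 → F2` is a field extension of degree `q`.

* `norm_red_gal` : one embedding and `q - 1` conjugates of a second one by automorphisms which are
  trivial on the residue field: `red (N u) = red (s₀ u) * red (s₁ u) ^ (q - 1)`;
* `norm_red_tw`  : the `q` twists `T ↦ ζ ^ b T` of one embedding over `V ∘ e`: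
  `red (N u) = Frob (red (s u))`.
-/

set_option autoImplicit false
set_option linter.unusedSectionVars false
set_option linter.style.haveILetI false

noncomputable section

namespace Fermat.Agent.S36

open ModularCurve Polynomial Finset
open Fermat.Agent.ES Fermat.Agent.ES.QE Fermat.Agent.ES.Model Fermat.Agent.S34 Fermat.Agent.S35
  Fermat.Agent.S35.GNorm

variable {R K k : Type*} [CommRing R] [IsDomain R] [IsNoetherianRing R] [IsIntegrallyClosed R]
  [Field K] [Algebra R K] [IsFractionRing R K] [Field k]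

namespace NormCore

variable {D : QData R K k}

/-- an element of `Λ` with nonzero reduction is a unit of `Λ`. -/
theorem inv_mem_LamRing {f : LaurentSeries K} (hf : f ∈ D.LamRing) (h : D.rho ⟨f, hf⟩ ≠ 0) :
    f⁻¹ ∈ D.LamRing := by
  obtain ⟨t, w, ht, hw⟩ := hf
  have hw0 : D.red w ≠ 0 := by
    intro hw0
    apply h
    rw [QData.rho_eq (f := ⟨f, _⟩) (⟨ht, hw⟩ : D.IsFrac _ t w), hw0, zero_div]
  have hf0 : f ≠ 0 := by
    rintro rfl
    apply h
    exact map_zero D.rho
  refine ⟨w, t, hw0, ?_⟩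
  rw [← hw]
  field_simp

/-- descent of integrality along `V`, for a "valuation ring". -/
theorem mem_LamRing_of_qExpand (q : ℕ) [NeZero q] {f : LaurentSeries K}
    (hval : f ∈ D.LamRing ∨ f⁻¹ ∈ D.LamRing) (h : qExpand K q f ∈ D.LamRing) : f ∈ D.LamRing := by
  rcases hval with hf | hf'
  · exact hf
  by_cases hf0 : f = 0
  · rw [hf0]; exact zero_mem _
  by_cases h1 : D.rho ⟨f⁻¹, hf'⟩ = 0
  · exfalso
    have h2 := NOrth.rho_qExpand q (D := D) (f := f⁻¹) hf'
    rw [h1, map_zero] at h2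
    have h3 : (⟨qExpand K q f⁻¹, NOrth.qExpand_mem_LamRing q hf'⟩ : D.LamRing)
        * ⟨qExpand K q f, h⟩ = 1 := by
      apply Subtype.ext
      rw [Subring.coe_mul, Subring.coe_one, ← map_mul, inv_mul_cancel₀ hf0, map_one]
    have h4 := congrArg D.rho h3
    rw [map_mul, h2, zero_mul, map_one] at h4
    exact zero_ne_one h4
  · have := inv_mem_LamRing hf' h1
    rwa [inv_inv] at this

/-- distinctness of embeddings from one coefficient of one element. -/
theorem injective_emb {F2 X : Type*} [Field F2] (σ : X → (F2 →+* LaurentSeries K)) (θ : F2) (n : ℤ)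
    (h : Function.Injective fun i => (σ i θ).coeff n) : Function.Injective σ :=
  fun i j hij => h (by show (σ i θ).coeff n = (σ j θ).coeff n; rw [hij])

end NormCore

open NormCore

/-- **[N-I]** one embedding and `q - 1` conjugates of a second one. -/
theorem norm_red_gal {D : QData R K k} (q : ℕ) [Fact q.Prime]
    {F1 F2 : Type*} [Field F1] [Field F2] [Algebra F1 F2] [CharZero F1]
    (hfr : Module.finrank F1 F2 = q)
    (φ : F1 →+* LaurentSeries K) (s0 s1 : F2 →+* LaurentSeries K)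
    (h0 : ∀ c : F1, s0 (algebraMap F1 F2 c) = φ c) (h1 : ∀ c : F1, s1 (algebraMap F1 F2 c) = φ c)
    (g : Fin (q - 1) → (LaurentSeries K →+* LaurentSeries K))
    (hgφ : ∀ a (c : F1), g a (φ c) = φ c)
    (hgL : ∀ a (f : LaurentSeries K) (hf : f ∈ D.LamRing),
      ∃ h : g a f ∈ D.LamRing, D.rho ⟨g a f, h⟩ = D.rho ⟨f, hf⟩)
    (hinj : Function.Injective (fun i : Option (Fin (q - 1)) =>
      (match i with
        | none => s0
        | some a => (g a).comp s1 : F2 →+* LaurentSeries K)))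
    (u : F2) (hu0 : s0 u ∈ D.LamRing) (hu1 : s1 u ∈ D.LamRing) :
    ∃ hN : φ (Algebra.norm F1 u) ∈ D.LamRing,
      D.rho ⟨φ (Algebra.norm F1 u), hN⟩ = D.rho ⟨s0 u, hu0⟩ * D.rho ⟨s1 u, hu1⟩ ^ (q - 1) := by
  classical
  have hq : q.Prime := Fact.out
  have hfd : FiniteDimensional F1 F2 :=
    Module.finite_of_finrank_pos (by rw [hfr]; exact hq.pos)
  let σ : Option (Fin (q - 1)) → (F2 →+* LaurentSeries K) := fun i =>
    match i with
    | none => s0
    | some a => (g a).comp s1
  have hσφ : ∀ i (c : F1), σ i (algebraMap F1 F2 c) = φ c := by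
    rintro (_ | a) c
    · exact h0 c
    · show g a (s1 (algebraMap F1 F2 c)) = _
      rw [h1, hgφ]
  have hcard : Fintype.card (Option (Fin (q - 1))) = Module.finrank F1 F2 := by
    rw [Fintype.card_option, Fintype.card_fin, hfr]
    have := hq.pos
    omega
  have hprod := KEmb.norm_eq_prod φ σ hinj hσφ hcard u
  rw [Fintype.prod_option] at hprod
  let U0 : D.LamRing := ⟨s0 u, hu0⟩
  let Ua : Fin (q - 1) → D.LamRing := fun a => ⟨g a (s1 u), (hgL a _ hu1).1⟩
  have hP : φ (Algebra.norm F1 u) = ((U0 * ∏ a, Ua a : D.LamRing) : LaurentSeries K) := by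
    rw [hprod, Subring.coe_mul, SubmonoidClass.coe_finsetProd]
    rfl
  have hN : φ (Algebra.norm F1 u) ∈ D.LamRing := by
    rw [hP]
    exact Subtype.property _
  refine ⟨hN, ?_⟩
  have e : (⟨φ (Algebra.norm F1 u), hN⟩ : D.LamRing) = U0 * ∏ a, Ua a := Subtype.ext hP
  rw [e, map_mul, map_prod]
  have e2 : ∀ a, D.rho (Ua a) = D.rho ⟨s1 u, hu1⟩ := fun a => (hgL a _ hu1).2
  simp only [e2]
  rw [Finset.prod_const, Finset.card_univ, Fintype.card_fin]

/-- **[N-II]** the `q` twists of one embedding. -/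
theorem norm_red_tw {D : QData R K k} (q : ℕ) [Fact q.Prime] [CharP k q]
    {F1 F2 : Type*} [Field F1] [Field F2] [Algebra F1 F2] [CharZero F1]
    (hfr : Module.finrank F1 F2 = q)
    (e : F1 →+* LaurentSeries K) (hval : ∀ x : F1, e x ∈ D.LamRing ∨ (e x)⁻¹ ∈ D.LamRing)
    (s : F2 →+* LaurentSeries K)
    (h : ∀ c : F1, s (algebraMap F1 F2 c) = qExpand K q (e c))
    (θ : F2) (hθ : (s θ).coeff (-1) ≠ 0) (ζ : Rˣ) (hζ : IsPrimitiveRoot ζ q)
    (u : F2) (hu : s u ∈ D.LamRing) :
    ∃ hN : e (Algebra.norm F1 u) ∈ D.LamRing,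
      D.rho ⟨e (Algebra.norm F1 u), hN⟩ = coeffMap (frobenius k q) (D.rho ⟨s u, hu⟩) := by
  classical
  have hq : q.Prime := Fact.out
  have hfd : FiniteDimensional F1 F2 :=
    Module.finite_of_finrank_pos (by rw [hfr]; exact hq.pos)
  have hζq : ∀ b : ℕ, (ζ ^ b) ^ q = 1 := fun b => by
    rw [← pow_mul, mul_comm, pow_mul, hζ.pow_eq_one, one_pow]
  have hres : ∀ b : ℕ, D.res ((ζ ^ b : Rˣ) : R) = 1 := fun b => res_eq_one q _ (hζq b)
  have hKq : ∀ b : ℕ, (uK (K := K) (ζ ^ b)) ^ q = 1 := fun b => by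
    rw [uK, ← map_pow, hζq, map_one]
  let φ : F1 →+* LaurentSeries K := (qExpand K q).comp e
  let σ : Fin q → (F2 →+* LaurentSeries K) := fun b => (S28.twist (uK (ζ ^ (b : ℕ)))).comp s
  have hσφ : ∀ i (c : F1), σ i (algebraMap F1 F2 c) = φ c := by
    intro b c
    show S28.twist (uK (ζ ^ (b : ℕ))) (s (algebraMap F1 F2 c)) = _
    rw [h, twist_qExpand q _ (hKq b)]
    rfl
  have hcoeff : ∀ b : Fin q, (σ b θ).coeff (-1)
      = algebraMap R K (((ζ ^ (b : ℕ)) ^ (-1 : ℤ) : Rˣ) : R) * (s θ).coeff (-1) := by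
    intro b
    show (S28.twist (uK (ζ ^ (b : ℕ))) (s θ)).coeff (-1) = _
    rw [S28.twist_coeff, coe_uK_zpow]
  have hinj : Function.Injective σ := by
    intro b b' hbb
    have h3 := congrArg (fun g : F2 →+* LaurentSeries K => (g θ).coeff (-1)) hbb
    simp only [hcoeff] at h3
    have h3' := mul_right_cancel₀ hθ h3
    have h4 : ((ζ ^ (b : ℕ)) ^ (-1 : ℤ) : Rˣ) = (ζ ^ (b' : ℕ)) ^ (-1 : ℤ) :=
      Units.ext (IsFractionRing.injective R K h3')
    rw [zpow_neg_one, zpow_neg_one, inv_inj] at h4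
    exact Fin.ext (hζ.pow_inj b.2 b'.2 h4)
  have hcard : Fintype.card (Fin q) = Module.finrank F1 F2 := by
    rw [Fintype.card_fin, hfr]
  have hprod := KEmb.norm_eq_prod φ σ hinj hσφ hcard u
  let Ub : Fin q → D.LamRing := fun b =>
    ⟨S28.twist (uK (ζ ^ (b : ℕ))) (s u), twist_mem_LamRing _ (hres b) hu⟩
  have hP : φ (Algebra.norm F1 u) = ((∏ b, Ub b : D.LamRing) : LaurentSeries K) := by
    rw [hprod, SubmonoidClass.coe_finsetProd]
    rfl
  have hVN : qExpand K q (e (Algebra.norm F1 u)) ∈ D.LamRing := by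
    have : qExpand K q (e (Algebra.norm F1 u)) = φ (Algebra.norm F1 u) := rfl
    rw [this, hP]
    exact Subtype.property _
  have hN := mem_LamRing_of_qExpand q (hval _) hVN
  refine ⟨hN, ?_⟩
  apply qExpand_injective (R := k) q
  rw [← NOrth.rho_qExpand q (D := D) hN]
  have e' : (⟨qExpand K q (e (Algebra.norm F1 u)), NOrth.qExpand_mem_LamRing q hN⟩ : D.LamRing)
      = ∏ b, Ub b := Subtype.ext hP
  rw [e', map_prod, ← KCong.pow_char]
  have e2 : ∀ b, D.rho (Ub b) = D.rho ⟨s u, hu⟩ := fun b => rho_twist _ (hres b) hu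
  simp only [e2]
  rw [Finset.prod_const, Finset.card_univ, Fintype.card_fin]

end Fermat.Agent.S36
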