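import Fermat.Agent.S36.Gauss3a
import Fermat.Agent.S36.NormCore
import Fermat.Agent.S36.NCDefs
import Fermat.Agent.S35.L0

/-!
# S36, geometry : the three Gauss rings at the level `M₀ q²`

`T : Two D q` is the level `M₀ q` over the (unramified) data `D`; `D'` is the data over the ring
containing `ζ_q`.  `E : Emb3 T D' F2` : the field `F2` of level `M₀ q²` with the two degeneracy maps
`al be : T.F → F2` and the three expansions `eA eB : F2 → K((T))`, `eC : F2 → K'((T))`: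

  `eA (al h) = e1 h`,      `eA (be h) = V (e1 h)`,
  `eC (al h) = bc (e1 h)`, `eC (be h) = tw (bc (e2 h))`,
  `eB (al h) = V (e2 h)`,  `eB (be h) = e2 h`.

Output: all the fields of `Lvl1` which do not involve the norms.
-/

set_option autoImplicit false
set_option linter.unusedSectionVars false
set_option linter.unusedVariables false

noncomputable section

namespace Fermat.Agent.S36

open ModularCurve Polynomial
open Fermat.Agent.ES.QE Fermat.Agent.ES.Model Fermat.Agent.S34 Fermat.Agent.S35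

variable {R K k : Type*} [CommRing R] [IsDomain R] [IsNoetherianRing R] [IsIntegrallyClosed R]
  [Field K] [Algebra R K] [IsFractionRing R K] [Field k]
  {R' K' : Type*} [CommRing R'] [IsDomain R'] [IsNoetherianRing R'] [IsIntegrallyClosed R']
  [Field K'] [Algebra R' K'] [IsFractionRing R' K']

namespace G3

section General

variable {D : QData R K k} {F : Type*} [Field F]

theorem isDV_comap (e : F →+* LaurentSeries K) (hb : ∀ f, NVal.IsBdd D (e f)) (ϖ : F)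
    (hϖ : e ϖ = D.ϖE) : IsDV (D.LamRing.comap e) ϖ where
  ne_zero := (NVal.valOf_isUnif e hb ϖ hϖ).ne_zero
  mem := (NVal.valOf_isUnif e hb ϖ hϖ).mem
  inv_notMem := (NVal.valOf_isUnif e hb ϖ hϖ).inv_notMem
  disc := fun x hx => NVal.valOf_discrete e hb ϖ hϖ x hx

theorem rho_ne_zero_of_isU (e : F →+* LaurentSeries K) {f : F} (hu : IsU (D.LamRing.comap e) f) :
    D.rho ⟨e f, hu.mem⟩ ≠ 0 := by
  intro h
  have h1 : (⟨e f, hu.mem⟩ : D.LamRing) * ⟨e f⁻¹, hu.inv_mem⟩ = 1 := by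
    apply Subtype.ext
    rw [Subring.coe_mul, Subring.coe_one, ← map_mul, mul_inv_cancel₀ hu.ne_zero, map_one]
  have := congrArg D.rho h1
  rw [map_mul, h, zero_mul, map_one] at this
  exact zero_ne_one this

theorem divS_of_rho (e : F →+* LaurentSeries K) {π : F} (hdv : IsDV (D.LamRing.comap e) π) {f : F}
    (hf : e f ∈ D.LamRing) (h : D.rho ⟨e f, hf⟩ = 0) : DivS (D.LamRing.comap e) π 1 f := by
  rcases hdv.isU_or (x := f) hf with hu | hd
  · exact absurd h (rho_ne_zero_of_isU e hu)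
  · exact hd

theorem rho_of_divS (e : F →+* LaurentSeries K) {π : F} (hπ : e π ∈ D.LamRing)
    (hπ0 : D.rho ⟨e π, hπ⟩ = 0) {f : F} (hf : e f ∈ D.LamRing)
    (h : DivS (D.LamRing.comap e) π 1 f) : D.rho ⟨e f, hf⟩ = 0 := by
  obtain ⟨y, hy, rfl⟩ := h
  have h1 : (⟨e (π ^ 1 * y), hf⟩ : D.LamRing) = ⟨e π, hπ⟩ * ⟨e y, hy⟩ := by
    apply Subtype.ext
    show e (π ^ 1 * y) = e π * e y
    rw [pow_one, map_mul]
  rw [h1, map_mul, hπ0, zero_mul]

theorem isU_of_rho (e : F →+* LaurentSeries K) {f : F} (hf : e f ∈ D.LamRing)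
    (h : D.rho ⟨e f, hf⟩ ≠ 0) : IsU (D.LamRing.comap e) f := by
  refine ⟨?_, hf, ?_⟩
  · rintro rfl
    apply h
    have : (⟨e 0, hf⟩ : D.LamRing) = 0 := Subtype.ext (map_zero e)
    rw [this, map_zero]
  · show e f⁻¹ ∈ D.LamRing
    rw [map_inv₀]
    exact NormCore.inv_mem_LamRing hf h

theorem rho_ϖE (h : D.ϖE ∈ D.LamRing) : D.rho ⟨D.ϖE, h⟩ = 0 :=
  QData.rho_eq_zero_iff_exists.2 ⟨1, D.LamRing.one_mem, by rw [mul_one]⟩

theorem ϖE_mem : D.ϖE ∈ D.LamRing := by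
  rw [← D.inc_ϖW]; exact QData.inc_mem_LamRing _

theorem rho_inc' (w : LaurentSeries R) (h : D.inc w ∈ D.LamRing) : D.rho ⟨D.inc w, h⟩ = D.red w :=
  QData.rho_inc w

theorem isDV_neg {O : Subring F} {ϖ : F} (h : IsDV O ϖ) : IsDV O (-ϖ) where
  ne_zero := neg_ne_zero.2 h.ne_zero
  mem := O.neg_mem h.mem
  inv_notMem := fun hm => h.inv_notMem (by
    have := O.neg_mem hm
    rwa [inv_neg, neg_neg] at this)
  disc := fun x hx => by
    obtain ⟨a, h1, h2⟩ := h.disc x hx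
    refine ⟨a, ?_⟩
    have e : (-ϖ) ^ a = (-1) ^ a * ϖ ^ a := by rw [← mul_zpow, neg_one_mul]
    rcases Int.even_or_odd a with ha | ha
    · rw [e, ha.neg_one_zpow, one_mul]
      exact ⟨h1, h2⟩
    · rw [e, ha.neg_one_zpow, neg_one_mul, mul_neg, inv_neg]
      exact ⟨O.neg_mem h1, O.neg_mem h2⟩

/-- residue independence of `1, w, …, w ^ (q - 1)` over the image of `V`. -/
theorem indep_gen {q : ℕ} [NeZero q] {F1 : Type*} [Field F1] (e : F1 →+* LaurentSeries K)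
    {ϖ1 : F1} (hdv : IsDV (D.LamRing.comap e) ϖ1) (E : F →+* LaurentSeries K) (ι : F1 →+* F)
    (w : F) (hι : ∀ h, E (ι h) = qExpand K q (e h)) (hw : E w = jqModC K) (π : F)
    (hπ : E π = D.ϖE) (P : F1[X]) (hP : P.natDegree < q)
    (hc' : ∀ n, P.coeff n ∈ D.LamRing.comap e)
    (hd : DivS (D.LamRing.comap E) π 1 (eval₂ ι w P)) (n : ℕ) :
    DivS (D.LamRing.comap e) ϖ1 1 (P.coeff n) := by
  have hc : ∀ n, e (P.coeff n) ∈ D.LamRing := hc'
  have hj : jqModC K ∈ D.LamRing := by rw [← D.inc_j]; exact QData.inc_mem_LamRing _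
  have hjr : D.rho ⟨jqModC K, hj⟩ = jqModC k := by
    have := rho_congr (D := D) hj D.inc_j.symm
    rw [this, QData.rho_inc, D.red_j]
  have hmem : E (eval₂ ι w P) ∈ D.LamRing := by
    have hπm : π ∈ D.LamRing.comap E := by
      show E π ∈ D.LamRing
      rw [hπ]; exact ϖE_mem
    exact hd.mem hπm
  have h0 : D.rho ⟨E (eval₂ ι w P), hmem⟩ = 0 :=
    rho_of_divS E (by rw [hπ]; exact ϖE_mem) (by
      have := rho_congr (D := D) (f := E π) (by rw [hπ]; exact ϖE_mem) hπ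
      rw [this]; exact rho_ϖE _) hmem hd
  let b : ℕ → LaurentSeries k := fun i => D.rho ⟨e (P.coeff i), hc i⟩
  have hsum : (⟨E (eval₂ ι w P), hmem⟩ : D.LamRing)
      = ∑ i ∈ Finset.range q, (⟨qExpand K q (e (P.coeff i)), qExpand_mem_LamRing (hc i)⟩ : D.LamRing)
          * (⟨jqModC K, hj⟩ : D.LamRing) ^ i := by
    apply Subtype.ext
    show E (eval₂ ι w P) = _
    rw [eval₂_eq_sum_range' ι hP, map_sum]
    simp only [AddSubmonoidClass.coe_finset_sum, Subring.coe_mul, Subring.coe_pow, map_mul,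
      map_pow, hι, hw]
  rw [hsum, map_sum] at h0
  have h1 : ∑ i ∈ Finset.range q, qExpand k q (b i) * jqModC k ^ i = 0 := by
    rw [← h0]
    refine Finset.sum_congr rfl fun i _ => ?_
    rw [map_mul, map_pow, hjr]
    congr 1
    exact (rho_qExpand (D := D) (q := q) ⟨e (P.coeff i), hc i⟩).symm
  have h2 := OrthL.indep q (jqModC k) (Fermat.Agent.S28.Ord.order_jqModC k) b h1
  by_cases hn : n < q
  · exact divS_of_rho e hdv (hc n) (h2 n hn)
  · rw [coeff_eq_zero_of_natDegree_lt (by omega)]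
    exact divS_zero 1

end General

end G3

/-- **The three expansions at the level `M₀ q²`.** -/
structure Emb3 {D : QData R K k} {q : ℕ} [NeZero q] (T : Two D q) (D' : QData R' K' k)
    (F2 : Type*) [Field F2] where
  al : T.F →+* F2
  be : T.F →+* F2
  eA : F2 →+* LaurentSeries K
  eB : F2 →+* LaurentSeries K
  eC : F2 →+* LaurentSeries K'
  bc : LaurentSeries K →+* LaurentSeries K'
  tw : LaurentSeries K' →+* LaurentSeries K'
  eA_al : ∀ h, eA (al h) = T.e1 h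
  eA_be : ∀ h, eA (be h) = qExpand K q (T.e1 h)
  eC_al : ∀ h, eC (al h) = bc (T.e1 h)
  eC_be : ∀ h, eC (be h) = tw (bc (T.e2 h))
  eB_al : ∀ h, eB (al h) = qExpand K q (T.e2 h)
  eB_be : ∀ h, eB (be h) = T.e2 h
  span : ∀ f : F2, ∃ P : T.F[X], P.natDegree < q ∧ f = eval₂ al (be (T.be D.jF)) P
  span' : ∀ f : F2, ∃ P : T.F[X], P.natDegree < q ∧ f = eval₂ be (al (T.al D.jF)) P
  bc_bdd : ∀ f, NVal.IsBdd D f → NVal.IsBdd D' (bc f)
  bc_mem : ∀ f, f ∈ D.LamRing → bc f ∈ D'.LamRing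
  bc_mem' : ∀ f, NVal.IsBdd D f → bc f ∈ D'.LamRing → f ∈ D.LamRing
  tw_bdd : ∀ f, NVal.IsBdd D' f → NVal.IsBdd D' (tw f)
  tw_mem : ∀ f, tw f ∈ D'.LamRing ↔ f ∈ D'.LamRing

namespace Emb3

variable {D : QData R K k} {q : ℕ} [NeZero q] {T : Two D q} {D' : QData R' K' k}
  {F2 : Type*} [Field F2] (E : Emb3 T D' F2)

/-- `j(T^{q²})`. -/
def z : F2 := E.be (T.be D.jF)
/-- `j(T)`. -/
def x : F2 := E.al (T.al D.jF)
/-- the uniformiser of the middle component. -/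
def t : F2 := E.z - E.x
/-- the uniformiser. -/
def ϖ : F2 := E.al T.ϖF

/-- the Gauss ring at `∞`. -/
def OA : Subring F2 := D.LamRing.comap E.eA
/-- the Gauss ring at `0`. -/
def OB : Subring F2 := D.LamRing.comap E.eB
/-- the Gauss ring at the middle cusps. -/
def OC : Subring F2 := D'.LamRing.comap E.eC

theorem coe_jF : ((D.jF : D.F0) : LaurentSeries K) = jqModC K := rfl

theorem eA_x : E.eA E.x = jqModC K := by rw [x, E.eA_al]; rfl
theorem eA_z : E.eA E.z = qExpand K q (qExpand K q (jqModC K)) := by rw [z, E.eA_be]; rfl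
theorem eB_z : E.eB E.z = jqModC K := by rw [z, E.eB_be, T.e2_be]; rfl
theorem eB_x : E.eB E.x = qExpand K q (qExpand K q (jqModC K)) := by
  rw [x, E.eB_al, T.e2_al]; rfl

theorem eA_ϖ : E.eA E.ϖ = D.ϖE := by rw [ϖ, E.eA_al]; exact T.e1_ϖF
theorem eB_ϖ : E.eB E.ϖ = D.ϖE := by rw [ϖ, E.eB_al, Two.e2_ϖF, NVal.qExpand_ϖE]

theorem be_ϖF : E.be T.ϖF = E.ϖ := by
  apply E.eA.injective
  rw [E.eA_ϖ, E.eA_be, T.e1_ϖF, NVal.qExpand_ϖE]

theorem bddA (f : F2) : NVal.IsBdd D (E.eA f) := by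
  obtain ⟨P, -, rfl⟩ := E.span f
  rw [eval₂_eq_sum_range, map_sum]
  refine NVal.IsBdd.sum _ _ fun i _ => ?_
  rw [map_mul, map_pow, E.eA_al, E.eA_be]
  exact (T.isBdd_e1 _).mul (((T.isBdd_e1 _).qExpand q).pow i)

theorem bddB (f : F2) : NVal.IsBdd D (E.eB f) := by
  obtain ⟨P, -, rfl⟩ := E.span f
  rw [eval₂_eq_sum_range, map_sum]
  refine NVal.IsBdd.sum _ _ fun i _ => ?_
  rw [map_mul, map_pow, E.eB_al, E.eB_be]
  exact ((T.isBdd_e2 _).qExpand q).mul ((T.isBdd_e2 _).pow i)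

theorem bddC (f : F2) : NVal.IsBdd D' (E.eC f) := by
  obtain ⟨P, -, rfl⟩ := E.span f
  rw [eval₂_eq_sum_range, map_sum]
  refine NVal.IsBdd.sum _ _ fun i _ => ?_
  rw [map_mul, map_pow, E.eC_al, E.eC_be]
  exact (E.bc_bdd _ (T.isBdd_e1 _)).mul ((E.tw_bdd _ (E.bc_bdd _ (T.isBdd_e2 _))).pow i)

theorem dvA : IsDV E.OA E.ϖ := G3.isDV_comap E.eA E.bddA E.ϖ E.eA_ϖ
theorem dvB : IsDV E.OB E.ϖ := G3.isDV_comap E.eB E.bddB E.ϖ E.eB_ϖ

theorem al_A (a : T.F) : E.al a ∈ E.OA ↔ a ∈ T.O1 := by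
  show E.eA (E.al a) ∈ D.LamRing ↔ _
  rw [E.eA_al]; rfl

theorem be_B (a : T.F) : E.be a ∈ E.OB ↔ a ∈ T.O2 := by
  show E.eB (E.be a) ∈ D.LamRing ↔ _
  rw [E.eB_be]; rfl

theorem al_B (a : T.F) : E.al a ∈ E.OB ↔ a ∈ T.O2 := by
  show E.eB (E.al a) ∈ D.LamRing ↔ T.e2 a ∈ D.LamRing
  rw [E.eB_al]
  refine ⟨fun h => NormCore.mem_LamRing_of_qExpand q ?_ h, fun h => qExpand_mem_LamRing h⟩
  rcases (L0.isDV_O2 T).mem_or_inv_mem a with h1 | h1
  · exact Or.inl h1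
  · right
    rw [← map_inv₀]; exact h1

theorem be_A (a : T.F) : E.be a ∈ E.OA ↔ a ∈ T.O1 := by
  show E.eA (E.be a) ∈ D.LamRing ↔ T.e1 a ∈ D.LamRing
  rw [E.eA_be]
  refine ⟨fun h => NormCore.mem_LamRing_of_qExpand q ?_ h, fun h => qExpand_mem_LamRing h⟩
  rcases (L0.isDV_O1 T).mem_or_inv_mem a with h1 | h1
  · exact Or.inl h1
  · right
    rw [← map_inv₀]; exact h1

theorem al_C (a : T.F) : E.al a ∈ E.OC ↔ a ∈ T.O1 := by
  show E.eC (E.al a) ∈ D'.LamRing ↔ T.e1 a ∈ D.LamRing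
  rw [E.eC_al]
  exact ⟨E.bc_mem' _ (T.isBdd_e1 a), E.bc_mem _⟩

theorem be_C (a : T.F) : E.be a ∈ E.OC ↔ a ∈ T.O2 := by
  show E.eC (E.be a) ∈ D'.LamRing ↔ T.e2 a ∈ D.LamRing
  rw [E.eC_be, E.tw_mem]
  exact ⟨E.bc_mem' _ (T.isBdd_e2 a), E.bc_mem _⟩


/-! ### the element `t = z - x` -/

theorem j_mem : jqModC K ∈ D.LamRing := by rw [← D.inc_j]; exact QData.inc_mem_LamRing _

theorem VVj_eq : qExpand K q (qExpand K q (jqModC K))
    = D.inc (qExpand R q (qExpand R q (jqModC R))) := by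
  rw [NVal.inc_qExpand, NVal.inc_qExpand, D.inc_j]

theorem one_lt_of [Fact q.Prime] : 1 < q := (Fact.out : q.Prime).one_lt

theorem red_sub_ne (hq : 1 < q) :
    D.red (qExpand R q (qExpand R q (jqModC R)) - jqModC R) ≠ 0 := by
  intro h
  have h1 := congrArg (fun f => HahnSeries.coeff f (-1)) h
  simp only [map_sub, NVal.red_qExpand, D.red_j, HahnSeries.coeff_sub, HahnSeries.coeff_zero] at h1
  rw [qExpand_coeff_of_not_dvd, coeff_jqModC_neg_one] at h1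
  · simp at h1
  · intro hd
    have h2 : (q : ℤ) ∣ 1 := by simpa using hd
    have h3 := Int.le_of_dvd one_pos h2
    omega

theorem isU_A_t (hq : 1 < q) : IsU E.OA E.t := by
  have e : E.eA E.t = D.inc (qExpand R q (qExpand R q (jqModC R)) - jqModC R) := by
    rw [t, map_sub, E.eA_z, E.eA_x, map_sub, ← VVj_eq, D.inc_j]
  have hm : E.eA E.t ∈ D.LamRing := by rw [e]; exact QData.inc_mem_LamRing _
  refine G3.isU_of_rho E.eA hm ?_
  rw [rho_congr hm e, QData.rho_inc]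
  exact red_sub_ne hq

theorem isU_B_t (hq : 1 < q) : IsU E.OB E.t := by
  have e : E.eB (-E.t) = D.inc (qExpand R q (qExpand R q (jqModC R)) - jqModC R) := by
    rw [t, neg_sub, map_sub, E.eB_z, E.eB_x, map_sub, ← VVj_eq, D.inc_j]
  have hm : E.eB (-E.t) ∈ D.LamRing := by rw [e]; exact QData.inc_mem_LamRing _
  have : IsU E.OB (-E.t) := by
    refine G3.isU_of_rho E.eB hm ?_
    rw [rho_congr hm e, QData.rho_inc]
    exact red_sub_ne hq
  have h2 := this.neg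
  rwa [neg_neg] at h2

theorem jF_mem : D.jF ∈ D.gaussO := by
  rw [D.mem_gaussO]; exact j_mem

/-- `V V j ≡ j ^ (q²)`. -/
theorem red_VVj [Fact q.Prime] [CharP k q] :
    D.red (qExpand R q (qExpand R q (jqModC R)) - jqModC R ^ (q * q)) = 0 := by
  rw [map_sub, NVal.red_qExpand, NVal.red_qExpand, map_pow, D.red_j, L0.hjq, map_pow, L0.hjq,
    ← pow_mul, sub_self]

theorem z_cong_A [Fact q.Prime] [CharP k q] :
    DivS E.OA E.ϖ 1 (E.z - E.al (T.al D.jF ^ (q * q))) := by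
  have e : E.eA (E.z - E.al (T.al D.jF ^ (q * q)))
      = D.inc (qExpand R q (qExpand R q (jqModC R)) - jqModC R ^ (q * q)) := by
    rw [map_sub, E.eA_z, E.eA_al, map_pow, map_sub, ← VVj_eq, map_pow, D.inc_j]
    rfl
  have hm : E.eA (E.z - E.al (T.al D.jF ^ (q * q))) ∈ D.LamRing := by
    rw [e]; exact QData.inc_mem_LamRing _
  refine G3.divS_of_rho E.eA E.dvA hm ?_
  rw [rho_congr hm e, QData.rho_inc]
  exact red_VVj

theorem x_cong_B [Fact q.Prime] [CharP k q] :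
    DivS E.OB E.ϖ 1 (E.x - E.be (T.be D.jF ^ (q * q))) := by
  have e : E.eB (E.x - E.be (T.be D.jF ^ (q * q)))
      = D.inc (qExpand R q (qExpand R q (jqModC R)) - jqModC R ^ (q * q)) := by
    rw [map_sub, E.eB_x, E.eB_be, map_pow, T.e2_be, map_sub, ← VVj_eq, map_pow, D.inc_j]
    rfl
  have hm : E.eB (E.x - E.be (T.be D.jF ^ (q * q))) ∈ D.LamRing := by
    rw [e]; exact QData.inc_mem_LamRing _
  refine G3.divS_of_rho E.eB E.dvB hm ?_
  rw [rho_congr hm e, QData.rho_inc]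
  exact red_VVj

/-- `q ∈ ϖ O₁`. -/
theorem divS_q [CharP k q] : DivS T.O1 T.ϖF 1 (q : T.F) := by
  have hm : T.e1 (q : T.F) ∈ D.LamRing := by rw [map_natCast]; exact natCast_mem _ _
  refine G3.divS_of_rho T.e1 (L0.isDV_O1 T) hm ?_
  have e : (⟨T.e1 (q : T.F), hm⟩ : D.LamRing) = ((q : ℕ) : D.LamRing) := by
    apply Subtype.ext
    show T.e1 (q : T.F) = _
    rw [map_natCast]
    simp
  rw [e, map_natCast, ← map_natCast (HahnSeries.C : k →+* LaurentSeries k), CharP.cast_eq_zero,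
    map_zero]

/-! ### the membership rules, `Orth3`, and the non-norm fields of `Lvl1` -/

variable (dvC : IsDV E.OC E.t) (ram : IsU E.OC (E.t ^ (q - 1) / E.ϖ))

include dvC ram

theorem mem3 [Fact q.Prime] : G3a.Mem3 q T.O1 T.O2 T.ϖF E.OA E.OC E.OB E.ϖ E.t E.al E.be where
  hq := (Fact.out : q.Prime).two_le
  dv1 := L0.isDV_O1 T
  dv2 := L0.isDV_O2 T
  dvF := E.dvA
  dvM := dvC
  dvV := E.dvB
  al_unif := rfl
  be_unif := E.be_ϖF
  ram := ram
  al_F := E.al_A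
  al_M := E.al_C
  al_V := E.al_B
  be_F := E.be_A
  be_M := E.be_C
  be_V := E.be_B

theorem orth3 [Fact q.Prime] :
    Orth3 E.al T.O1 T.O2 T.ϖF E.OA E.OC E.OB q (T.al D.jF) E.z where
  dv1 := L0.isDV_O1 T
  dv2 := L0.isDV_O2 T
  dvM := dvC
  hq := (Fact.out : q.Prime).one_lt.le
  x_mem := al_mem_O T jF_mem
  ram := ⟨_, ram, by
    have h0 : E.al T.ϖF ≠ 0 := E.dvA.ne_zero
    show E.t ^ (q - 1) = E.al T.ϖF * (E.t ^ (q - 1) / E.al T.ϖF)
    field_simp⟩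
  unitF := E.isU_A_t one_lt_of
  memF := E.al_A
  memM := E.al_C
  memV := E.al_B
  zV := by
    show E.eB E.z ∈ D.LamRing
    rw [E.eB_z]; exact j_mem
  indepV := fun P hP hc hd n =>
    G3.indep_gen T.e2 (L0.isDV_O2 T) E.eB E.al E.z E.eB_al E.eB_z (E.al T.ϖF) E.eB_ϖ P hP hc hd n

theorem orth3' [Fact q.Prime] :
    Orth3 E.be T.O2 T.O1 T.ϖF E.OB E.OC E.OA q (T.be D.jF) E.x where
  dv1 := L0.isDV_O2 T
  dv2 := L0.isDV_O1 T
  dvM := by
    have := G3.isDV_neg dvC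
    rwa [t, neg_sub] at this
  hq := (Fact.out : q.Prime).one_lt.le
  x_mem := ⟨(be_mem_O T jF_mem).2, (be_mem_O T jF_mem).1⟩
  ram := by
    have h0 : E.ϖ ≠ 0 := E.dvA.ne_zero
    have hu : IsU E.OC ((-1 : F2) ^ (q - 1)) := (isU_one.neg).pow _
    refine ⟨(-1) ^ (q - 1) * (E.t ^ (q - 1) / E.ϖ), hu.mul ram, ?_⟩
    rw [E.be_ϖF]
    have : E.x - E.be (T.be D.jF) = -1 * E.t := by rw [t, z]; ring
    rw [this, mul_pow]
    field_simp
  unitF := by
    have := (E.isU_B_t one_lt_of).neg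
    rwa [t, neg_sub] at this
  memF := E.be_B
  memM := E.be_C
  memV := E.be_A
  zV := by
    show E.eA E.x ∈ D.LamRing
    rw [E.eA_x]; exact j_mem
  indepV := fun P hP hc hd n =>
    G3.indep_gen T.e1 (L0.isDV_O1 T) E.eA E.be E.x E.eA_be E.eA_x (E.be T.ϖF)
      (by rw [E.be_ϖF, E.eA_ϖ]) P hP hc hd n

/-- **All the fields of `Lvl1`**, the norm formulas being hypotheses. -/
theorem lvl1 [Fact q.Prime] [CharP k q] (nA nB : F2 →* T.F)
    (nA1 : ∀ u, u ∈ E.OA → u ∈ E.OC → u ∈ E.OB → ∀ a ∈ T.O1, ∀ c ∈ T.O1,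
      DivS E.OA E.ϖ 1 (u - E.al a) → DivS E.OC E.t 1 (u - E.al c) →
      DivS T.O1 T.ϖF 1 (nA u - a * c ^ (q - 1)))
    (nA2 : ∀ u, u ∈ E.OA → u ∈ E.OC → u ∈ E.OB → DivS E.OB E.ϖ 1 (E.al (nA u) - u ^ q))
    (nB2 : ∀ u, u ∈ E.OA → u ∈ E.OC → u ∈ E.OB → ∀ b ∈ T.O2, ∀ c ∈ T.O2,
      DivS E.OB E.ϖ 1 (u - E.be b) → DivS E.OC E.t 1 (u - E.be c) →
      DivS T.O2 T.ϖF 1 (nB u - b * c ^ (q - 1)))
    (nB1 : ∀ u, u ∈ E.OA → u ∈ E.OC → u ∈ E.OB → DivS E.OA E.ϖ 1 (E.be (nB u) - u ^ q))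
    (nA_al : ∀ x, nA (E.al x) = x ^ q) (nB_be : ∀ x, nB (E.be x) = x ^ q) :
    Lvl1 q T.O1 T.O2 T.ϖF E.OA E.OC E.OB E.ϖ E.t E.al E.be nA nB := by
  have H := E.mem3 dvC ram
  obtain ⟨e, he, he1, he2⟩ := exists_idem T L0.one_lt L0.hjq
  have he' : 1 - e ∈ T.O2 ⊓ T.O1 :=
    ⟨T.O2.sub_mem T.O2.one_mem he.2, T.O1.sub_mem T.O1.one_mem he.1⟩
  have he1' : DivS T.O2 T.ϖF 1 (1 - e - 1) := by
    have : 1 - e - 1 = -e := by ring
    rw [this]; exact he2.neg
  have he2' : DivS T.O1 T.ϖF 1 (1 - e) := by rw [← neg_sub]; exact he1.neg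
  exact
  { dv1 := H.dv1
    dv2 := H.dv2
    dvF := H.dvF
    dvM := H.dvM
    dvV := H.dvV
    al_unif := H.al_unif
    be_unif := H.be_unif
    ram := ram
    qdiv := by
      have := H.alM' (divS_q (T := T))
      rwa [map_natCast] at this
    tF := (E.isU_A_t L0.one_lt).mem
    tV := (E.isU_B_t L0.one_lt).mem
    al_F := H.al_F
    al_M := H.al_M
    al_V := H.al_V
    be_F := H.be_F
    be_M := H.be_M
    be_V := H.be_V
    surjF := H.surjF (E.orth3 dvC ram) E.span e he he1 he2 _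
      (T.O1.pow_mem (al_mem_O T jF_mem).1 _) E.z_cong_A
    surjM := H.surjM (E.orth3 dvC ram) divS_self E.span e he he1 he2
    surjM' := H.swap.surjM (E.orth3' dvC ram) (by
      have : E.x - E.be (T.be D.jF) = -E.t := by rw [t, z]; ring
      rw [this]; exact divS_self.neg) E.span' (1 - e) he' he1' he2'
    surjV := H.swap.surjF (E.orth3' dvC ram) E.span' (1 - e) he' he1' he2' _
      (T.O2.pow_mem (be_mem_O T jF_mem).2 _) E.x_cong_B
    nA1 := nA1
    nA2 := nA2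
    nB2 := nB2
    nB1 := nB1
    nA_al := nA_al
    nB_be := nB_be
    idemF := H.idemF e he he1 he2
    idemM := H.idemM e he he1 he2
    idemV := H.idemV e he he1 he2 }

end Emb3

end Fermat.Agent.S36
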