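import Fermat.Agent.S36.TDefs
import Fermat.Agent.S34.QChart2

/-!
# S36, modular block : the chart `H.chart X` of level `M₀ q²` (copy of `S34/QChart`, `QChart2`)

The only inputs which are not proved here are hypotheses:
* `horth` : `∑ α(a j) z ^ j ∈ O → ∀ j, a j ∈ T.O` (ORTH-3);
* `hC` : the chart is contained in the Gauss ring of the middle cusp.
-/

set_option autoImplicit false
set_option linter.unusedSectionVars false

noncomputable section

namespace Fermat.Agent.S36

open ModularCurve Polynomial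
open Fermat.Agent.ES.QE Fermat.Agent.ES.Model Fermat.Agent.S34

variable {R K k : Type*} [CommRing R] [IsDomain R] [IsNoetherianRing R] [IsIntegrallyClosed R]
  [Field K] [Algebra R K] [IsFractionRing R K] [Field k]
  {D : QData R K k} {q : ℕ} [NeZero q] {T : Two D q}
  {K' : Type*} [Field K'] {i : K →+* K'} {ζ : K'ˣ} (H : Three T i ζ)
  {R' : Type*} [CommRing R'] [IsDomain R'] [IsNoetherianRing R'] [IsIntegrallyClosed R']
  [Algebra R' K'] [IsFractionRing R' K'] (D' : QData R' K' k) (X : D.Coord)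

namespace TChart

/-- transfer of integrality along a ring endomorphism `V`. -/
theorem isIntegralElem_map_of {A E : Type*} [CommRing A] [CommRing E] [Nontrivial E]
    (φ : A →+* E) (V : E →+* E) (hV : ∀ σ, φ.IsIntegralElem (V (φ σ))) {b : E}
    (hb : φ.IsIntegralElem b) : φ.IsIntegralElem (V b) := by
  obtain ⟨P, hP, h⟩ := hb
  let _ := φ.toAlgebra
  show IsIntegral A (V b)
  have hev : eval (V b) (P.map (V.comp φ)) = 0 := by
    rw [eval_map, ← hom_eval₂, h, map_zero]
  refine IsIntegral.of_aeval_monic_of_isIntegral_coeff (p := P.map (V.comp φ))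
    (hP.map _) ?_ (by rw [hev]; exact isIntegral_zero) ?_
  · rw [hP.natDegree_map]
    intro h0
    have h1 : P = 1 := hP.natDegree_eq_zero.mp h0
    rw [h1, Polynomial.map_one, eval_one] at hev
    exact one_ne_zero hev
  · intro i
    rw [coeff_map]
    exact hV _

/-- `V (φ σ)` is integral as soon as `V x` is. -/
theorem isIntegralElem_V_phi (w : LaurentSeries R)
    (hVx : (D.inc.comp (evS w)).IsIntegralElem (qExpand K q (D.inc w))) (σ : R[X]) :
    (D.inc.comp (evS w)).IsIntegralElem (qExpand K q ((D.inc.comp (evS w)) σ)) := by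
  let _ := (D.inc.comp (evS w)).toAlgebra
  show IsIntegral R[X] (qExpand K q ((D.inc.comp (evS w)) σ))
  induction σ using Polynomial.induction_on' with
  | add p r hp hr => rw [map_add, map_add]; exact hp.add hr
  | monomial n a =>
    rw [← C_mul_X_pow_eq_monomial, map_mul, map_pow, map_mul, map_pow]
    refine IsIntegral.mul ?_ (IsIntegral.pow ?_ n)
    · have : qExpand K q ((D.inc.comp (evS w)) (C a))
          = algebraMap R[X] (LaurentSeries K) (C a) := by
        show _ = (D.inc.comp (evS w)) (C a)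
        rw [RingHom.comp_apply, evS_C]
        have : D.inc (HahnSeries.C a) = HahnSeries.C (algebraMap R K a) := coeffMap_C _ _
        rw [this, qExpand_C]
      rw [this]
      exact isIntegral_algebraMap
    · rw [RingHom.comp_apply, evS_X]
      exact hVx

end TChart

namespace Three

/-- evaluation at `x`, with values in `H.F`. -/
def phiH : R[X] →+* H.F := H.al.comp (phiT T X)

lemma coe_phiH (σ : R[X]) : ((H.phiH X σ : H.F) : LaurentSeries K) = X.phi σ := rfl

lemma eA_comp_phiH : H.eA.comp (H.phiH X) = X.phi := rfl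

lemma eB_phiH (σ : R[X]) :
    H.eB (H.phiH X σ) = D.inc (qExpand R q (qExpand R q (evS X.xW σ))) := by
  rw [NVal.inc_qExpand, ← e2_phiT]
  exact H.eB_al (phiT T X σ)

lemma eB_comp_phiH : H.eB.comp (H.phiH X)
    = D.inc.comp (((qExpand R q).comp (qExpand R q)).comp (evS X.xW)) :=
  RingHom.ext fun σ => H.eB_phiH X σ

lemma mem_chart_iff {f : H.F} : f ∈ H.chart X ↔ (H.phiH X).IsIntegralElem f := by
  rw [H.mem_chart]
  constructor
  · rintro ⟨P, hP, h⟩
    refine ⟨P, hP, Subtype.ext ?_⟩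
    have : ((eval₂ (H.phiH X) f P : H.F) : LaurentSeries K) = H.eA (eval₂ (H.phiH X) f P) := rfl
    rw [this, hom_eval₂, eA_comp_phiH]
    exact h
  · rintro ⟨P, hP, h⟩
    refine ⟨P, hP, ?_⟩
    have := congrArg H.eA h
    rw [hom_eval₂, eA_comp_phiH, map_zero] at this
    exact this

lemma coe_jz : (H.jz : LaurentSeries K) = qExpand K q (qExpand K q (jqModC K)) := rfl

/-- the decomposition `f = ∑ α(a j) z ^ j`. -/
lemma exists_rep (f : H.F) : ∃ a : Fin q → T.F, f = ∑ j, H.al (a j) * H.jz ^ (j : ℕ) := by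
  obtain ⟨a, ha, h⟩ := H.span f f.2
  refine ⟨fun j => ⟨a j, ha j⟩, Subtype.ext ?_⟩
  rw [h]
  have : ((∑ j, H.al ⟨a j, ha j⟩ * H.jz ^ (j : ℕ) : H.F) : LaurentSeries K)
      = ∑ j, ((H.al ⟨a j, ha j⟩ * H.jz ^ (j : ℕ) : H.F) : LaurentSeries K) :=
    map_sum (algebraMap H.F (LaurentSeries K)) _ _
  rw [this]
  rfl

lemma eB_jz : H.eB H.jz = jqModC K := by
  show H.eB (H.be (T.be D.jF)) = _
  rw [H.eB_be, T.e2_be]
  rfl

lemma isBdd_eA (f : H.F) : NVal.IsBdd D (H.eA f) := by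
  obtain ⟨a, rfl⟩ := H.exists_rep f
  rw [map_sum]
  refine NVal.IsBdd.sum _ _ fun j _ => ?_
  rw [map_mul, map_pow, H.eA_al]
  exact (T.isBdd_e1 (a j)).mul ((((NVal.IsBdd.of_mem_F0 D.j_mem).qExpand q).qExpand q).pow _)

lemma isBdd_eB (f : H.F) : NVal.IsBdd D (H.eB f) := by
  obtain ⟨a, rfl⟩ := H.exists_rep f
  rw [map_sum]
  refine NVal.IsBdd.sum _ _ fun j _ => ?_
  rw [map_mul, map_pow, H.eB_al, H.eB_jz]
  exact ((T.isBdd_e2 (a j)).qExpand q).mul ((NVal.IsBdd.of_mem_F0 D.j_mem).pow _)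

theorem chart_le_OA : ∀ f ∈ H.chart X, f ∈ H.OA := by
  intro f hf
  exact (H.isBdd_eA f).mem_LamRing_of_isIntegralElem (RingHom.IsIntegralElem.of_comp hf)

theorem chart_le_OB : ∀ f ∈ H.chart X, f ∈ H.OB := by
  intro f hf
  refine (H.isBdd_eB f).mem_LamRing_of_isIntegralElem ?_
  obtain ⟨P, hP, h⟩ := (H.mem_chart_iff X).1 hf
  have h2 := congrArg H.eB h
  rw [hom_eval₂, eB_comp_phiH, map_zero] at h2
  exact RingHom.IsIntegralElem.of_comp
    (f := ((qExpand R q).comp (qExpand R q)).comp (evS X.xW)) ⟨P, hP, h2⟩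

/-- the chart is contained in the Gauss ring of the middle cusp, from boundedness. -/
theorem chart_le_OC (hb : ∀ f : H.F, NVal.IsBdd D' (H.eC f)) (iR : R →+* R')
    (hi : ∀ r, i (algebraMap R K r) = algebraMap R' K' (iR r)) :
    ∀ f ∈ H.chart X, f ∈ H.OC D' := by
  intro f hf
  refine (hb f).mem_LamRing_of_isIntegralElem ?_
  obtain ⟨P, hP, h⟩ := (H.mem_chart_iff X).1 hf
  have h2 := congrArg H.eC h
  have e : H.eC.comp (H.phiH X) = D'.inc.comp ((coeffMap iR).comp (evS X.xW)) := by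
    refine RingHom.ext fun σ => ?_
    have h1 : H.eC (H.phiH X σ) = coeffMap i (X.phi σ) := H.eC_al (phiT T X σ)
    show H.eC (H.phiH X σ) = coeffMap (algebraMap R' K') (coeffMap iR (evS X.xW σ))
    rw [h1, coeffMap_coeffMap]
    show coeffMap i (coeffMap (algebraMap R K) (evS X.xW σ)) = _
    rw [coeffMap_coeffMap]
    exact coeffMap_congr (RingHom.ext hi) _
  rw [hom_eval₂, e, map_zero] at h2
  exact RingHom.IsIntegralElem.of_comp (f := (coeffMap iR).comp (evS X.xW)) ⟨P, hP, h2⟩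

lemma phiH_mem_chart (σ : R[X]) : H.phiH X σ ∈ H.chart X := X.phi.isIntegralElem_map

/-- `z = j(T^{q²})` is integral over `R[j]`. -/
theorem jz_int (T : Two D q) : (D.inc.comp (evS (jqModC R))).IsIntegralElem
    (qExpand K q (qExpand K q (jqModC K))) := by
  have h0 : D.inc (jqModC R) = jqModC K := coeffMap_jqModC _
  have h1 : (D.inc.comp (evS (jqModC R))).IsIntegralElem (qExpand K q (D.inc (jqModC R))) := by
    rw [h0]; exact T.jq_int
  exact TChart.isIntegralElem_map_of _ (qExpand K q)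
    (TChart.isIntegralElem_V_phi (jqModC R) h1) T.jq_int

/-- every element of `O` has a primitive denominator. -/
theorem exists_mul_mem_chart (hq : q.Prime) [CharP k q]
    (horth : ∀ a : Fin q → T.F, (∑ j, H.al (a j) * H.jz ^ (j : ℕ)) ∈ H.O D' → ∀ j, a j ∈ T.O)
    {g : H.F} (hg : g ∈ H.O D') :
    ∃ σ : R[X], ¬ C D.ϖ ∣ σ ∧ H.phiH X σ * g ∈ H.chart X := by
  classical
  obtain ⟨a, rfl⟩ := H.exists_rep g
  have ha := horth a hg
  have h1 : ∀ j, ∃ σ : R[X], ¬ C D.ϖ ∣ σ ∧ T.al (X.phiF σ) * a j ∈ T.chart X :=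
    fun j => S34.exists_mul_mem_chart T X hq (ha j)
  choose σ hσ hint using h1
  obtain ⟨m, hm⟩ := X.exists_pow_mul_isIntegralElem (jz_int T)
  refine ⟨(∏ j, σ j) * X.Q ^ (m * q), ?_, ?_⟩
  · intro hd
    rcases D.prime_C_ϖ.dvd_or_dvd hd with h | h
    · obtain ⟨j, -, hj⟩ := (D.prime_C_ϖ.dvd_finsetProd_iff _).1 h
      exact hσ j hj
    · exact X.Q_prim (D.prime_C_ϖ.dvd_of_dvd_pow h)
  · rw [Finset.mul_sum]
    refine Subring.sum_mem _ fun j _ => ?_
    have hj : (j : ℕ) ≤ q := j.2.le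
    have e1 : H.phiH X ((∏ j, σ j) * X.Q ^ (m * q)) * (H.al (a j) * H.jz ^ (j : ℕ))
        = H.phiH X ((∏ l ∈ Finset.univ.erase j, σ l) * X.Q ^ (m * (q - j)))
          * ((H.phiH X (σ j) * H.al (a j)) * (H.phiH X X.Q ^ m * H.jz) ^ (j : ℕ)) := by
      have e2 : (∏ j, σ j) = σ j * ∏ l ∈ Finset.univ.erase j, σ l :=
        (Finset.mul_prod_erase _ _ (Finset.mem_univ j)).symm
      have e3 : X.Q ^ (m * q) = X.Q ^ (m * (q - j)) * (X.Q ^ m) ^ (j : ℕ) := by
        rw [← pow_mul, ← pow_add, ← mul_add, Nat.sub_add_cancel hj]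
      rw [e2, e3]
      simp only [map_mul, map_pow]
      ring
    rw [e1]
    refine Subring.mul_mem _ (H.phiH_mem_chart X _)
      (Subring.mul_mem _ ?_ (Subring.pow_mem _ ?_ _))
    · exact hint j
    · exact hm

lemma phiH_C_ϖ : H.phiH X (C D.ϖ) = H.ϖF := by
  show H.al (phiT T X (C D.ϖ)) = _
  rw [phiT_C_ϖ]
  rfl

/-- saturation. -/
theorem chart_sat (hq : q.Prime) [CharP k q]
    (horth : ∀ a : Fin q → T.F, (∑ j, H.al (a j) * H.jz ^ (j : ℕ)) ∈ H.O D' → ∀ j, a j ∈ T.O)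
    {f : H.F} (hf : f ∈ H.chart X) {y : H.F}
    (hy : y ∈ H.O D') (h : f = H.ϖF * y) : y ∈ H.chart X := by
  obtain ⟨σ, hσ, hint⟩ := H.exists_mul_mem_chart D' X hq horth hy
  refine isIntegralElem_of_prime_mul X.phi X.phi_injective D.prime_C_ϖ hσ ?_ hint
  have : X.phi (C D.ϖ) * (y : LaurentSeries K) = (f : LaurentSeries K) := by
    rw [h, ← H.phiH_C_ϖ X]
    rfl
  rw [this]
  exact hf

theorem chart_root {m : ℕ} (hm : 0 < m) {f : H.F} (hf : f ^ m ∈ H.chart X) : f ∈ H.chart X := by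
  rw [H.mem_chart, IntermediateField.coe_pow] at hf
  exact isIntegralElem_of_pow _ hm hf

theorem chart_le_O (hC : ∀ f ∈ H.chart X, f ∈ H.OC D') : ∀ f ∈ H.chart X, f ∈ H.O D' :=
  fun f hf => ⟨⟨H.chart_le_OA X f hf, hC f hf⟩, H.chart_le_OB X f hf⟩

/-- **the chart of level `M₀ q²` is a chart.** -/
theorem isChartS (hq : q.Prime) [CharP k q]
    (horth : ∀ a : Fin q → T.F, (∑ j, H.al (a j) * H.jz ^ (j : ℕ)) ∈ H.O D' → ∀ j, a j ∈ T.O)
    (hC : ∀ f ∈ H.chart X, f ∈ H.OC D') {m : ℕ} (hm : IsUnit (m : R)) :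
    IsChartS (H.O D') H.ϖF m (H.chart X) where
  le := H.chart_le_O D' X hC
  unif_mem := H.ϖF_mem_chart X
  m_ne := by
    have h := (S34.isChartS T X hq hm).m_ne
    intro h0
    apply h
    apply H.al.injective
    rw [map_natCast, map_zero]
    exact h0
  inv_mem := by
    have h := H.al_mem_chart X (S34.isChartS T X hq hm).inv_mem
    rwa [map_inv₀, map_natCast] at h
  sat := by
    rintro f hf ⟨y, hy, h⟩
    rw [pow_one] at h
    exact ⟨y, H.chart_sat D' X hq horth hf hy h, h⟩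
  root := by
    intro f hf
    refine H.chart_root X (Nat.pos_of_ne_zero ?_) hf
    rintro rfl
    rw [Nat.cast_zero] at hm
    exact not_isUnit_zero hm

theorem RF_le_chart : H.RF ≤ H.chart X := by
  rintro _ ⟨a, rfl⟩
  exact H.al_mem_chart X (S34.RF_le_chart T X ⟨a, rfl⟩)

theorem ϖF_mem_RF : H.ϖF ∈ H.RF := ⟨D.ϖ, rfl⟩

theorem isNoetherianRing_RF : IsNoetherianRing H.RF := by
  unfold Three.RF
  infer_instance

/-- `β` maps the chart of level `M₀ q` to the chart of level `M₀ q²`. -/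
theorem be_mem_chart (hVx : X.phi.IsIntegralElem (qExpand K q (D.inc X.xW))) {b : T.F}
    (hb : b ∈ T.chart X) : H.be b ∈ H.chart X := by
  rw [H.mem_chart, H.coe_be]
  exact TChart.isIntegralElem_map_of _ (qExpand K q) (TChart.isIntegralElem_V_phi X.xW hVx) hb

end Three

end Fermat.Agent.S36
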