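import Fermat.Agent.S36.TRedAbs
import Fermat.Agent.S36.TChart
import Fermat.Agent.S36.Gauss3
import Fermat.Agent.S36.BC

/-!
# S36, modular block : the middle branch of the chart of `H : Three T i ζ`

* `TRedAbs.ic_branch` : the abstract `ic` of one branch;
* `Three.surjC`, `Three.surjC'` : the residue surjectivities `T.chart X → H.chart X / pC` along
  `H.al` and along `H.be`;
* `Three.icC` : `f ∈ O_C`, `f ^ m ≡ e ∈ B` ⟹ `f ≡ a ∈ B`.
-/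

set_option autoImplicit false
set_option linter.unusedSectionVars false
set_option linter.unusedVariables false

noncomputable section

namespace Fermat.Agent.S36

open ModularCurve Polynomial
open Fermat.Agent.ES.QE Fermat.Agent.ES.Model Fermat.Agent.S34 Fermat.Agent.S35

namespace TRedAbs

variable {F : Type*} [Field F] {F1 : Type*} [Field F1] {O' : Subring F1} {ϖ1 : F1}
  {OX : Subring F} {tX : F} {φ : F1 →+* F}

/-- the abstract `ic` of one branch : `f ∈ O_X`, `f ^ m ≡ e ∈ B` ⟹ `f ≡ φ a`, `a ∈ B'`. -/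
theorem ic_branch (hO' : IsDV O' ϖ1) (hOX : IsDV OX tX) (hφ : ∀ a, φ a ∈ OX ↔ a ∈ O')
    (hϖ : DivS OX tX 1 (φ ϖ1)) (hsurj : ∀ u ∈ OX, ∃ a ∈ O', DivS OX tX 1 (u - φ a))
    {B' : Subring F1} (hB'O : ∀ x ∈ B', x ∈ O')
    (lift : ∀ f ∈ O', ∀ P : B'[X], P.Monic → DivS O' ϖ1 1 (P.eval₂ B'.subtype f) →
      ∃ c : B', DivS O' ϖ1 1 (f - (c : F1)))
    {B : Subring F} (hs : ∀ b ∈ B, ∃ a ∈ B', DivS OX tX 1 (b - φ a))
    {m : ℕ} (hm : 0 < m) (f : F) (hf : f ∈ OX) (e : F) (he : e ∈ B)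
    (h : DivS OX tX 1 (f ^ m - e)) : ∃ a ∈ B', DivS OX tX 1 (f - φ a) := by
  obtain ⟨e', he', h'⟩ := hs e he
  refine surj_branch hO' hOX hφ hϖ hsurj hB'O lift f hf (X ^ m - C (⟨e', he'⟩ : B'))
    (monic_X_pow_sub_C _ hm.ne') ?_
  rw [eval₂_sub, eval₂_pow, eval₂_X, eval₂_C]
  have := h.add h'
  rwa [sub_add_sub_cancel] at this

end TRedAbs

open TRedAbs

variable {R K k : Type*} [CommRing R] [IsDomain R] [IsNoetherianRing R] [IsIntegrallyClosed R]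
  [Field K] [Algebra R K] [IsFractionRing R K] [Field k]
  {R' K' : Type*} [CommRing R'] [IsDomain R'] [IsNoetherianRing R'] [IsIntegrallyClosed R']
  [Field K'] [Algebra R' K'] [IsFractionRing R' K']

namespace Three

variable {D : QData R K k} {q : ℕ} [NeZero q] {T : Two D q} {i : K →+* K'} {ζ : K'ˣ}
  (H : Three T i ζ) (X : D.Coord) (D' : QData R' K' k)

/-- `R[X] → T.chart X`. -/
def phiTB : R[X] →+* T.chart X :=
  (T.al.comp X.phiF).codRestrict (T.chart X) (fun σ => X.phi.isIntegralElem_map)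

/-- `R[X] → T.chart X`, `X ↦ x(T^q)`. -/
def phiTB' (hbe : ∀ a ∈ X.chart, T.be a ∈ T.chart X) : R[X] →+* T.chart X :=
  (T.be.comp X.phiF).codRestrict (T.chart X) (fun σ => hbe _ (X.phiF_mem_chart σ))

variable {nA nB : H.F →* T.F} {m : ℕ}

/-- **`surjC`.** -/
theorem surjC (L : Lvl1 q T.O1 T.O2 T.ϖF H.OA (H.OC D') H.OB H.ϖF H.tC H.al H.be nA nB)
    (hq : 2 ≤ q) [(T.p1 X).IsPrime] [IsDedekindDomain (T.chart X ⧸ T.p1 X)]
    (hB' : Chart2 T.O1 T.O2 T.ϖF m (T.chart X) (T.p1 X) (T.p2 X))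
    (hC : ∀ f ∈ H.chart X, f ∈ H.OC D') :
    ∀ b ∈ H.chart X, ∃ a ∈ T.chart X, DivS (H.OC D') H.tC 1 (b - H.al a) := by
  intro b hb
  refine surj_branch' L.dv1 L.dvM L.al_M (by rw [L.al_unif]; exact L.unif_divS_M hq) L.surjM
    (fun x hx => (hB'.chart.le x hx).1) (fun f hf P hP he => icP1 L.dv1 hB' f hf P hP he)
    (H.phiH X) (phiTB X) (fun σ => ?_) b (hC b hb) ((H.mem_chart_iff X).1 hb)
  have : H.phiH X σ - H.al ((phiTB (T := T) X σ : T.chart X) : T.F) = 0 := sub_self _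
  rw [this]
  exact ⟨0, zero_mem _, by rw [mul_zero]⟩

/-- `x(T) ≡ x(ζ T)` on the middle branch. -/
theorem divS_phiH_sub_be (dvC : IsDV (H.OC D') H.tC) {iR : R →+* R'}
    (Bc : BCData D D' iR i) (ω : R'ˣ) (hζ : ζ = GNorm.uK ω) (hω : D'.res ω = 1)
    (σ : R[X]) : DivS (H.OC D') H.tC 1 (H.phiH X σ - H.be (T.be (X.phiF σ))) := by
  have e1 : H.eC (H.phiH X σ) = coeffMap i (X.phi σ) := H.eC_al (T.al (X.phiF σ))
  have e2 : H.eC (H.be (T.be (X.phiF σ))) = S28.twist (GNorm.uK ω) (coeffMap i (X.phi σ)) := by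
    rw [H.eC_be, T.e2_be, hζ]
    rfl
  have hm0 : X.phi σ ∈ D.LamRing := QData.inc_mem_LamRing _
  have hm1 : coeffMap i (X.phi σ) ∈ D'.LamRing := Bc.bc_mem hm0
  have hm2 := GNorm.twist_mem_LamRing ω hω hm1
  have hmem : H.eC (H.phiH X σ - H.be (T.be (X.phiF σ))) ∈ D'.LamRing := by
    rw [map_sub, e1, e2]
    exact sub_mem hm1 hm2
  refine G3.divS_of_rho H.eC dvC hmem ?_
  have e3 : (⟨H.eC (H.phiH X σ - H.be (T.be (X.phiF σ))), hmem⟩ : D'.LamRing)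
      = ⟨_, hm1⟩ - ⟨_, hm2⟩ := Subtype.ext (by
    show H.eC (H.phiH X σ - H.be (T.be (X.phiF σ))) = _
    rw [map_sub, e1, e2]; rfl)
  rw [e3, map_sub, GNorm.rho_twist ω hω hm1, sub_self]

/-- **`surjC'`.** -/
theorem surjC' (L : Lvl1 q T.O1 T.O2 T.ϖF H.OA (H.OC D') H.OB H.ϖF H.tC H.al H.be nA nB)
    (hq : 2 ≤ q) [(T.p2 X).IsPrime] [IsDedekindDomain (T.chart X ⧸ T.p2 X)]
    (hB' : Chart2 T.O1 T.O2 T.ϖF m (T.chart X) (T.p1 X) (T.p2 X))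
    (hC : ∀ f ∈ H.chart X, f ∈ H.OC D') (hbe : ∀ a ∈ X.chart, T.be a ∈ T.chart X)
    {iR : R →+* R'} (Bc : BCData D D' iR i) (ω : R'ˣ) (hζ : ζ = GNorm.uK ω)
    (hω : D'.res ω = 1) :
    ∀ b ∈ H.chart X, ∃ a ∈ T.chart X, DivS (H.OC D') H.tC 1 (b - H.be a) := by
  intro b hb
  exact surj_branch' L.dv2 L.dvM L.be_M (by rw [L.be_unif]; exact L.unif_divS_M hq) L.surjM'
    (fun x hx => (hB'.chart.le x hx).2) (fun f hf P hP he => icP2 L.dv2 hB' f hf P hP he)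
    (H.phiH X) (phiTB' X hbe) (fun σ => H.divS_phiH_sub_be X D' L.dvM Bc ω hζ hω σ)
    b (hC b hb) ((H.mem_chart_iff X).1 hb)

/-- **`icC`.** -/
theorem icC (L : Lvl1 q T.O1 T.O2 T.ϖF H.OA (H.OC D') H.OB H.ϖF H.tC H.al H.be nA nB)
    (hq : 2 ≤ q) [(T.p1 X).IsPrime] [IsDedekindDomain (T.chart X ⧸ T.p1 X)]
    (hB' : Chart2 T.O1 T.O2 T.ϖF m (T.chart X) (T.p1 X) (T.p2 X))
    (hC : ∀ f ∈ H.chart X, f ∈ H.OC D') {n : ℕ} (hn : 0 < n) :
    ∀ f ∈ H.OC D', ∀ e ∈ H.chart X, DivS (H.OC D') H.tC 1 (f ^ n - e) →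
      ∃ a ∈ H.chart X, DivS (H.OC D') H.tC 1 (f - a) := by
  intro f hf e he h
  obtain ⟨a, ha, h'⟩ := ic_branch L.dv1 L.dvM L.al_M (by rw [L.al_unif]; exact L.unif_divS_M hq)
    L.surjM (fun x hx => (hB'.chart.le x hx).1) (fun f hf P hP he => icP1 L.dv1 hB' f hf P hP he)
    (H.surjC X D' L hq hB' hC) hn f hf e he h
  exact ⟨H.al a, H.al_mem_chart X ha, h'⟩

end Three

end Fermat.Agent.S36
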