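import Fermat.Agent.S36.TFixGen
import Fermat.Agent.S36.TLvl1
import Fermat.Agent.S36.THorth
import Fermat.Agent.S36.TNormMem
import Fermat.Agent.S36.TRedC
import Fermat.Agent.S36.TConst
import Fermat.Agent.S36.BrReg
import Fermat.Agent.S36.FixU2
import Fermat.Agent.S35.GChartT
import Fermat.Agent.S34.UChart
import Fermat.Agent.S34.UDefs

/-!
# S36, geometry, modular block : `FixGen` from the instance data, `(T1)` and `(T2)`
-/

set_option autoImplicit false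
set_option linter.unusedVariables false
set_option linter.unusedSectionVars false
set_option linter.style.haveILetI false
set_option synthInstance.maxHeartbeats 400000

noncomputable section

namespace Fermat.Agent.S36

open ModularCurve Polynomial
open Fermat.Agent.ES Fermat.Agent.ES.QE Fermat.Agent.ES.Model Fermat.Agent.S34 Fermat.Agent.S35

variable {R K k : Type*} [CommRing R] [IsDomain R] [IsDiscreteValuationRing R]
  [Field K] [Algebra R K] [IsFractionRing R K] [Field k] [CharZero K]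
  {R' K' : Type*} [CommRing R'] [IsDomain R'] [IsNoetherianRing R'] [IsIntegrallyClosed R']
  [Field K'] [Algebra R' K'] [IsFractionRing R' K']
  {q : ℕ} [NeZero q] [Fact q.Prime] [CharP k q]
  {D : QData R K k} {T : Two D q} {i : K →+* K'} {ζR : R'ˣ}

/-- thickness one at the nodes of the chart of level `M₀ q`. -/
def HT1 (T : Two D q) (X : D.Coord) : Prop :=
  ∀ n : Ideal (T.chart X), n.IsMaximal → T.p1 X ≤ n → T.p2 X ≤ n →
    ∃ a b s : T.chart X, a ∈ T.p1 X ∧ b ∈ T.p2 X ∧ s ∉ n ∧ s * T.ϖB X = a * b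

/-- the middle component is locally principal at its ordinary points. -/
def HT2 (H : Three T i (GNorm.uK ζR)) (D' : QData R' K' k) (X : D.Coord) : Prop :=
  ∀ n : Ideal (H.chart X), n.IsMaximal → H.pC X D' ≤ n → ¬ H.pA X ≤ n → ¬ H.pB X ≤ n →
    ∃ x ∈ H.pC X D', ∃ s, s ∉ n ∧ ∃ c, s * H.ϖB X = c * x ^ (q - 1)

set_option maxHeartbeats 1000000 in
/-- one chart : `ChartL` and `RegAt`. -/
theorem three_chart (H : Three T i (GNorm.uK ζR)) (D' : QData R' K' k) (iR : R →+* R')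
    (hi : ∀ r, i (algebraMap R K r) = algebraMap R' K' (iR r))
    (hres : ∀ r, D'.res (iR r) = D.res r) (hω : D'.res (ζR : R') = 1)
    (L : Lvl1 q T.O1 T.O2 T.ϖF H.OA (H.OC D') H.OB H.ϖF H.tC H.al H.be H.nA H.nB)
    (X : D.Coord) {m : ℕ} (hm : 0 < m) (h1 : IsChartS (H.O D') H.ϖF m (H.chart X))
    (hded : IsDedekindDomain (X.chart ⧸ Ideal.span {Inst.ϖB X}))
    (hxq : qExpand k q (D.red X.xW) = D.red X.xW ^ q)
    (hVx : X.phi.IsIntegralElem (qExpand K q (D.inc X.xW)))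
    (hc : Chart2 T.O1 T.O2 T.ϖF m (T.chart X) (T.p1 X) (T.p2 X))
    (pr1 : (T.p1 X).IsPrime) (pr2 : (T.p2 X).IsPrime)
    (d1 : IsDedekindDomain (T.chart X ⧸ T.p1 X)) (d2 : IsDedekindDomain (T.chart X ⧸ T.p2 X))
    (t1 : HT1 T X) (t2 : HT2 H D' X) :
    ChartL H.OA (H.OC D') H.OB H.ϖF H.tC m (H.chart X) (T.chart X) H.al H.be H.nA H.nB ∧
    ∀ n : Ideal (H.chart X), n.IsMaximal → H.ϖB X ∈ n →
      RegAt q (H.ϖB X) (H.pA X) (H.pC X D') (H.pB X) n := by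
  have hq2 : 2 ≤ q := (Fact.out : q.Prime).two_le
  haveI : IsDedekindDomain (X.chart ⧸ Ideal.span {X.ϖC}) := hded
  have hA : ∀ b ∈ H.chart X, b ∈ H.OA := fun b hb => (h1.le b hb).1.1
  have hC : ∀ b ∈ H.chart X, b ∈ H.OC D' := fun b hb => (h1.le b hb).1.2
  have hB : ∀ b ∈ H.chart X, b ∈ H.OB := fun b hb => (h1.le b hb).2
  have hbe : ∀ a ∈ X.chart, T.be a ∈ T.chart X := NRed.be_mem_chart X T hVx
  have hL : ChartL H.OA (H.OC D') H.OB H.ϖF H.tC m (H.chart X) (T.chart X) H.al H.be H.nA H.nB :=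
    H.chartL X D' hVx hm (H.surjA X hA L.surjF) (H.surjC X D' L hq2 hc hC)
      (H.surjB X hxq hB L.surjV hbe)
      (H.surjC' X D' L hq2 hc hC hbe (⟨hi, hres⟩ : BCData D D' iR i) ζR rfl hω)
  refine ⟨hL, ?_⟩
  haveI := H.isNoetherianRing_chart X
  obtain ⟨⟨dF, prF⟩, ⟨dM, prM⟩, -⟩ := br_ded L hq2 (TRedA.mem_pA H X hA) (TRedA.mem_pC H X D' hC)
    (TRedA.mem_pB H X hB) hL (T.p1 X) (T.p2 X) hc.mem1 hc.mem2
  intro n hn hϖn
  exact regAt_all L hq2 h1 (H.frac_chart X) (TRedA.mem_pA H X hA) (TRedA.mem_pC H X D' hC)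
    (TRedA.mem_pB H X hB) hL hc.mem1 hc.mem2 hc.chart.unif_mem t1 t2 n hn hϖn

set_option maxHeartbeats 2000000 in
/-- **`FixGen` from the instance data, `(T1)` and `(T2)`.** -/
theorem fixGen_of (H : Three T i (GNorm.uK ζR)) (D' : QData R' K' k) (iR : R →+* R')
    (hi : ∀ r, i (algebraMap R K r) = algebraMap R' K' (iR r))
    (hres : ∀ r, D'.res (iR r) = D.res r) (hprim : IsPrimitiveRoot (ζR : R') q)
    (c0 : R') (hc : (ζR : R') - 1 = D'.ϖ * c0) (hc0 : D'.res c0 ≠ 0)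
    (c : R) (hcq : (q : R) = D.ϖ * c) (hcq0 : D.res c ≠ 0)
    (X : D.Coord) (y : LaurentSeries R) (hy : X.xW * y = 1) (m : ℕ) (hm : IsUnit (m : R))
    (hmq : Nat.Coprime q m)
    (hded1 : IsDedekindDomain (X.chart ⧸ Ideal.span {Inst.ϖB X}))
    (hded2 : IsDedekindDomain ((X.inv y hy).chart ⧸ Ideal.span {Inst.ϖB (X.inv y hy)}))
    (hxq : qExpand k q (D.red X.xW) = D.red X.xW ^ q)
    (hyq : qExpand k q (D.red y) = D.red y ^ q)
    (Φ : TAut T) (hΦ : ∀ c, Φ.sk c = c ^ q)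
    (hΦx : coeffMap (Φ.sR : R →+* R) X.xW = X.xW)
    (hΦy : coeffMap (Φ.sR : R →+* R) y = y)
    (hxy1 : XYData T X) (hxy2 : XYData T (X.inv y hy))
    (t11 : HT1 T X) (t12 : HT1 T (X.inv y hy))
    (t21 : HT2 H D' X) (t22 : HT2 H D' (X.inv y hy))
    (r : R) (hr : IsPrimitiveRoot r m) :
    FixGen m ((q + 1) * (q - 1) * ((q ^ 2 - 1) * q)) H X (X.inv y hy) := by
  have hq : q.Prime := Fact.out
  have hm0 : 0 < m := by
    rcases Nat.eq_zero_or_pos m with rfl | h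
    · rw [Nat.cast_zero] at hm
      exact absurd hm not_isUnit_zero
    · exact h
  have hω : D'.res (ζR : R') = 1 := GNorm.res_eq_one q ζR (by
    ext
    rw [Units.val_pow_eq_pow_val, Units.val_one]
    exact hprim.pow_eq_one)
  obtain ⟨hVx1, ⟨θ1, hθ1⟩, Xu1, Yu1, c1, e1, hXY1, hXa1, hXb1⟩ := hxy1
  obtain ⟨hVx2, ⟨θ2, hθ2⟩, Xu2, Yu2, c2, e2, hXY2, hXa2, hXb2⟩ := hxy2
  obtain ⟨pr11, pr12, hp1, d11, d12, hN1⟩ := UChart.chartData T X hq hded1 hxq Φ hΦ hΦx hVx1 θ1 hθ1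
    Xu1 Yu1 c1 e1 hXY1 hXa1 hXb1
  obtain ⟨pr21, pr22, hp2, d21, d22, hN2⟩ := UChart.chartData T (X.inv y hy) hq hded2 hyq Φ hΦ hΦy
    hVx2 θ2 hθ2 Xu2 Yu2 c2 e2 hXY2 hXa2 hXb2
  have hc1 := chart2 T X hq hm hxq hVx1 hN1
  have hc2 := chart2 T (X.inv y hy) hq hm hyq hVx2 hN2
  have L := H.lvl1 D' iR hi hres hprim c0 hc hc0 c hcq hcq0
  have h1 := H.isChartS_of D' iR hi hres ζR rfl hprim c0 hc hc0 c hcq hcq0 X hm
  have h2 := H.isChartS_of D' iR hi hres ζR rfl hprim c0 hc hc0 c hcq hcq0 (X.inv y hy) hm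
  have h12 := H.isChartS12_of D' iR hi hres ζR rfl hprim c0 hc hc0 c hcq hcq0 X y hy hm
  obtain ⟨hL1, hreg1⟩ := three_chart H D' iR hi hres hω L X hm0 h1 hded1 hxq hVx1 hc1 pr11 pr12
    d11 d12 t11 t21
  obtain ⟨hL2, hreg2⟩ := three_chart H D' iR hi hres hω L (X.inv y hy) hm0 h2 hded2 hyq hVx2 hc2
    pr21 pr22 d21 d22 t12 t22
  intro u hu hd1 hd2 hA hB
  have conv : ∀ (B : Subring H.F), HdivIn B m u →
      ∃ (n : ℕ) (g g' : Fin n → H.F), (∀ i, g i ^ m * u ∈ B) ∧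
      (∀ i, g' i ^ m * u⁻¹ ∈ B) ∧ ∑ i, g i * g' i = 1 := by
    rintro B ⟨ι, hι, g, g', a1, a2, a3⟩
    refine ⟨Fintype.card ι, g ∘ (Fintype.equivFin ι).symm, g' ∘ (Fintype.equivFin ι).symm,
      fun j => ?_, fun j => ?_, ?_⟩
    · obtain ⟨d, hd⟩ := a1 ((Fintype.equivFin ι).symm j)
      exact hd ▸ d.2
    · obtain ⟨d, hd⟩ := a2 ((Fintype.equivFin ι).symm j)
      exact hd ▸ d.2
    · rw [← a3]
      exact Equiv.sum_comp (Fintype.equivFin ι).symm (fun j => g j * g' j)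
  exact fix_gen hq D T H D' X y hy m hm0 hmq H.nA H.nB L h1 h2 h12 hL1 hL2 hc1 hc2 d11 d12 d21 d22
    hreg1 hreg2 r hr (fun f => H.const_of_mem_charts X y hy f) u hu (conv _ hd1) (conv _ hd2) hA hB

end Fermat.Agent.S36
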