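import Fermat.Agent.S36.FixU4
import Fermat.Agent.S36.CuspRel2
import Fermat.Agent.S36.TFixGen2

/-!
# S36, block G : the whole chain above `(T1)`, `(T2)`

* `Core2`, `claimA_all_of2` : `FixU4.Core`, `claimA_all_of` with `ZCuspRel Z` added;
* `HTAll` : `(T1)` and `(T2)` for the two charts, for the objects of `exists_full_layer`;
* `core2_of_ht` : `HTAll q A → Core2 q A` (`TFixGen2.fixGen_of`);
* `claimA_all_of_ht` : `HTAll q A → ClaimA p M0 q A`.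
-/

set_option autoImplicit false

noncomputable section

namespace Fermat.Agent.S36

open ModularCurve AlgebraicCurve Polynomial IntermediateField
open Fermat.Agent.S24 Fermat.Agent.S28 Fermat.Agent.ES Fermat.Agent.ES.QE Fermat.Agent.ES.Model
  Fermat.Agent.ES.IDvr Fermat.Agent.ES.Inst Fermat.Agent.S34
open Fermat.Agent.S34.WK

/-- the statement which the geometry has to deliver (with `ZCuspRel Z`). -/
def Core2 (q : ℕ) [Fact q.Prime] (A : ValuationSubring Kb) : Prop :=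
  ∀ (m M0 : ℕ) [NeZero M0] (hqM : ¬ q ∣ M0), ¬ q ∣ m → ∀ (Z : ZCoord M0 q), Z.Unram →
    WGood M0 q Z.xF → ZCuspRel Z → NoElliptic M0 → NoElliptic (M0 * q) →
    NoElliptic (M0 * q * q) →
    ∀ (K0 : IntermediateField ℚ Kb), FiniteDimensional ℚ K0 → Unr A K0 → Stab A K0 →
    ∀ [IsDiscreteValuationRing (R0 K0 A)]
      (D : QData (R0 K0 A) K0 (kA A)) (T : Two D q) (X : D.Coord)
      (y : LaurentSeries (R0 K0 A)) (hxy : X.xW * y = 1)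
      (K0' : IntermediateField ℚ Kb) (hle : K0 ≤ K0')
      [IsDiscreteValuationRing (R0 K0' A)] (ζR : (R0 K0' A)ˣ)
      (D' : QData (R0 K0' A) K0' (kA A))
      (H : Three T (IntermediateField.inclusion hle).toRingHom (S35.GNorm.uK ζR)),
      (D.F0 = F0 K0 M0 ∧ D.res = res0 K0 A ∧ D.ϖ = ((q : ℕ) : R0 K0 A) ∧
      T.F = F0 K0 (M0 * q) ∧
      (∀ (f : T.F) (hf : bc K0 (f : LaurentSeries K0) ∈ modularFunctionFieldBar (M0 * q)),
        bc K0 (T.e2 f) = ((Wb M0 q hqM ⟨_, hf⟩ : FF (M0 * q)) : LaurentSeries Kb)) ∧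
      X.xW = zS (R0 K0 A) Z.xZ ∧ y = zS (R0 K0 A) Z.yZ ∧
      bc K0 (X.x : LaurentSeries K0) = (Z.xF : LaurentSeries Kb) ∧
      IsDedekindDomain (X.chart ⧸ Ideal.span {Inst.ϖB X}) ∧
      IsDedekindDomain ((X.inv y hxy).chart ⧸ Ideal.span {Inst.ϖB (X.inv y hxy)}) ∧
      qExpand (kA A) q (D.red X.xW) = D.red X.xW ^ q ∧
      qExpand (kA A) q (D.red y) = D.red y ^ q ∧
      XYData T X ∧ XYData T (X.inv y hxy) ∧ Nonempty D.Theta) →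
      (FiniteDimensional ℚ K0' ∧ IsPrimitiveRoot (ζR : R0 K0' A) q ∧
      D'.F0 = F0 K0' M0 ∧ D'.res = res0 K0' A ∧ D'.res ζR = 1 ∧
      (∃ c0, (ζR : R0 K0' A) - 1 = D'.ϖ * c0 ∧ D'.res c0 ≠ 0) ∧
      BCData D D' (UnrCyc.iR A hle) (IntermediateField.inclusion hle).toRingHom) →
      (H.F = F0 K0 (M0 * q * q) ∧
      (∀ (f : H.F) (hf : bc K0 (f : LaurentSeries K0) ∈ modularFunctionFieldBar (M0 * q * q)),
        bc K0 (H.eB f) = ((Wb2 M0 q hqM ⟨_, hf⟩ : FF (M0 * q * q)) : LaurentSeries Kb))) →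
      (∃ ζm : (R0 K0 A)ˣ, IsPrimitiveRoot ζm m) →
      ∀ (Φ : TAut T), (∀ c, Φ.sk c = c ^ q) →
        coeffMap (Φ.sR : R0 K0 A →+* R0 K0 A) X.xW = X.xW →
        coeffMap (Φ.sR : R0 K0 A →+* R0 K0 A) y = y →
      FixGen m (cFix q) H X (X.inv y hxy)

/-- `(T1)` and `(T2)` on the two charts, for all the objects. -/
def HTAll (q : ℕ) [Fact q.Prime] (A : ValuationSubring Kb) : Prop :=
  ∀ (m M0 : ℕ) [NeZero M0] (hqM : ¬ q ∣ M0), ¬ q ∣ m → ∀ (Z : ZCoord M0 q), Z.Unram →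
    WGood M0 q Z.xF → ZCuspRel Z → NoElliptic M0 → NoElliptic (M0 * q) →
    NoElliptic (M0 * q * q) →
    ∀ (K0 : IntermediateField ℚ Kb), FiniteDimensional ℚ K0 → Unr A K0 → Stab A K0 →
    ∀ [IsDiscreteValuationRing (R0 K0 A)]
      (D : QData (R0 K0 A) K0 (kA A)) (T : Two D q) (X : D.Coord)
      (y : LaurentSeries (R0 K0 A)) (hxy : X.xW * y = 1)
      (K0' : IntermediateField ℚ Kb) (hle : K0 ≤ K0')
      [IsDiscreteValuationRing (R0 K0' A)] (ζR : (R0 K0' A)ˣ)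
      (D' : QData (R0 K0' A) K0' (kA A))
      (H : Three T (IntermediateField.inclusion hle).toRingHom (S35.GNorm.uK ζR)),
      (D.F0 = F0 K0 M0 ∧ D.res = res0 K0 A ∧ D.ϖ = ((q : ℕ) : R0 K0 A) ∧
      T.F = F0 K0 (M0 * q) ∧
      (∀ (f : T.F) (hf : bc K0 (f : LaurentSeries K0) ∈ modularFunctionFieldBar (M0 * q)),
        bc K0 (T.e2 f) = ((Wb M0 q hqM ⟨_, hf⟩ : FF (M0 * q)) : LaurentSeries Kb)) ∧
      X.xW = zS (R0 K0 A) Z.xZ ∧ y = zS (R0 K0 A) Z.yZ ∧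
      bc K0 (X.x : LaurentSeries K0) = (Z.xF : LaurentSeries Kb) ∧
      IsDedekindDomain (X.chart ⧸ Ideal.span {Inst.ϖB X}) ∧
      IsDedekindDomain ((X.inv y hxy).chart ⧸ Ideal.span {Inst.ϖB (X.inv y hxy)}) ∧
      qExpand (kA A) q (D.red X.xW) = D.red X.xW ^ q ∧
      qExpand (kA A) q (D.red y) = D.red y ^ q ∧
      XYData T X ∧ XYData T (X.inv y hxy) ∧ Nonempty D.Theta) →
      (FiniteDimensional ℚ K0' ∧ IsPrimitiveRoot (ζR : R0 K0' A) q ∧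
      D'.F0 = F0 K0' M0 ∧ D'.res = res0 K0' A ∧ D'.res ζR = 1 ∧
      (∃ c0, (ζR : R0 K0' A) - 1 = D'.ϖ * c0 ∧ D'.res c0 ≠ 0) ∧
      BCData D D' (UnrCyc.iR A hle) (IntermediateField.inclusion hle).toRingHom) →
      (H.F = F0 K0 (M0 * q * q) ∧
      (∀ (f : H.F) (hf : bc K0 (f : LaurentSeries K0) ∈ modularFunctionFieldBar (M0 * q * q)),
        bc K0 (H.eB f) = ((Wb2 M0 q hqM ⟨_, hf⟩ : FF (M0 * q * q)) : LaurentSeries Kb))) →
      (∃ ζm : (R0 K0 A)ˣ, IsPrimitiveRoot ζm m) →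
      ∀ (Φ : TAut T), (∀ c, Φ.sk c = c ^ q) →
        coeffMap (Φ.sR : R0 K0 A →+* R0 K0 A) X.xW = X.xW →
        coeffMap (Φ.sR : R0 K0 A →+* R0 K0 A) y = y →
      HT1 T X ∧ HT1 T (X.inv y hxy) ∧ HT2 H D' X ∧ HT2 H D' (X.inv y hxy)

/-- **The whole chain above `FixGen`** (with `ZCuspRel Z`). -/
theorem claimA_all_of2 (p q : ℕ) [Fact q.Prime] (hp : p.Prime) (hqp : q ≠ p)
    (A : ValuationSubring Kb) (hA : A.LiesOverPrime q) (hcore : Core2 q A)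
    (M0 : ℕ) [NeZero M0] (hqM : ¬ q ∣ M0) : ClaimA p M0 q A := by
  have hq : q.Prime := Fact.out
  refine claimA_of_coord' p q A (fun M1 _ hqM1 Z hU hW hZ n1 n2 n3 => ?_) M0 hqM
  refine claimA_of_fixK0_stab p M1 q hp hq hqp A hA (cFix q) (cFix_pos hq) fun m hqm => ?_
  have hm0 : 0 < m := Nat.pos_of_ne_zero (by rintro rfl; exact hqm (dvd_zero _))
  obtain ⟨K1, hK1, hu1, hL⟩ := exists_full_layer m M1 q hqM1 hqm A hA Z hU hW
  refine ⟨K1, hK1, hu1, fun K0 hle hK0 hu0 hst => ?_⟩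
  obtain ⟨hdvr, D, T, X, y, hxy, K0', hle', hdvr', ζR, D', H, h1, h2, h3, h4⟩ := hL K0 hle hK0 hu0
  obtain ⟨Φ, hΦ, hΦz⟩ := exists_frob_of_stab hq hA hst D h1.1 h1.2.1 T h1.2.2.2.1
  have hXW := h1.2.2.2.2.2.1
  have hy := h1.2.2.2.2.2.2.1
  refine fixK0_of_layer M1 q hqM1 hm0 Z T X y hxy h1.2.2.1 h1.2.2.2.1 h1.2.2.2.2.2.2.2.1 H h3.1 ?_
  exact hcore m M1 hqM1 hqm Z hU hW hZ n1 n2 n3 K0 hK0 hu0 hst D T X y hxy K0' hle' ζR D' H
    h1 h2 h3 h4 Φ hΦ (by rw [hXW]; exact hΦz _) (by rw [hy]; exact hΦz _)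

set_option maxHeartbeats 1000000 in
/-- `Core2` from `(T1)`, `(T2)`. -/
theorem core2_of_ht (q : ℕ) [Fact q.Prime] (A : ValuationSubring Kb) (hA : A.LiesOverPrime q)
    (h : HTAll q A) : Core2 q A := by
  have hq : q.Prime := Fact.out
  intro m M0 _ hqM hqm Z hU hW hZ n1 n2 n3 K0 hK0 hu0 hst _ D T X y hxy K0' hle _ ζR D' H
    h1 h2 h3 h4 Φ hΦ hΦx hΦy
  obtain ⟨t11, t12, t21, t22⟩ := h m M0 hqM hqm Z hU hW hZ n1 n2 n3 K0 hK0 hu0 hst D T X y hxy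
    K0' hle ζR D' H h1 h2 h3 h4 Φ hΦ hΦx hΦy
  obtain ⟨hF, hres, hϖ, hT, hTW, hXW, hy, hX, hded1, hded2, hxq, hyq, hxy1, hxy2, -⟩ := h1
  obtain ⟨-, hprim, -, hres', -, ⟨c0, hc, hc0⟩, hbc⟩ := h2
  obtain ⟨ζm, hζm⟩ := h4
  have hchar : CharP (kA A) q := ResField.charP hq hA
  exact fixGen_of H D' (UnrCyc.iR A hle) hbc.comm hbc.res hprim c0 hc hc0 1
    (by rw [hϖ, mul_one]) (by rw [map_one]; exact one_ne_zero) X y hxy m
    (natCast_isUnit_R0 K0 A hq hA hqm) ((Nat.Prime.coprime_iff_not_dvd hq).2 hqm)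
    hded1 hded2 hxq hyq Φ hΦ hΦx hΦy hxy1 hxy2 t11 t12 t21 t22 (ζm : R0 K0 A)
    (IsPrimitiveRoot.coe_units_iff.2 hζm)

/-- **The whole chain above `(T1)`, `(T2)`.** -/
theorem claimA_all_of_ht (p q : ℕ) [Fact q.Prime] (hp : p.Prime) (hqp : q ≠ p)
    (A : ValuationSubring Kb) (hA : A.LiesOverPrime q) (h : HTAll q A)
    (M0 : ℕ) [NeZero M0] (hqM : ¬ q ∣ M0) : ClaimA p M0 q A :=
  claimA_all_of2 p q hp hqp A hA (core2_of_ht q A hA h) M0 hqM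

end Fermat.Agent.S36
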