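import Fermat.Agent.S28.Coset

/-!
# S36, [D7] : the arithmetic lemma for the middle cusps

`(d 0; 0 1) γ = γ' (a b; 0 d/a)` (`S28.exists_decomp`), `gcd (a, b, d/a) = 1`.
For `d = q * q` and `a = q` : `q ∤ b`.
-/

set_option autoImplicit false

namespace Fermat.Agent.S36.CuspAr

open Fermat.Agent.S28
open scoped MatrixGroups

/-- no prime divides `a`, `b` and `d / a`. -/
theorem not_dvd_all (γ : SL(2, ℤ)) (d : ℕ) (hd : d ≠ 0) (ℓ : ℤ) (hℓ : ¬ IsUnit ℓ)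
    (ha : ℓ ∣ (aOf γ d : ℤ)) (hb : ℓ ∣ bOf γ d) (hd' : ℓ ∣ ((d / aOf γ d : ℕ) : ℤ)) : False := by
  obtain ⟨γ', h⟩ := exists_decomp γ d hd
  have h10 := congrFun (congrFun h 1) 0
  have h11 := congrFun (congrFun h 1) 1
  simp [Matrix.mul_apply, Fin.sum_univ_two] at h10 h11
  have e10 : ℓ ∣ γ 1 0 := by rw [h10]; exact Dvd.dvd.mul_left ha _
  have e11 : ℓ ∣ γ 1 1 := by
    rw [h11]; exact dvd_add (Dvd.dvd.mul_left hb _) (Dvd.dvd.mul_left hd' _)
  have hdet : γ 0 0 * γ 1 1 - γ 0 1 * γ 1 0 = 1 := by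
    have := γ.2
    rw [Matrix.det_fin_two] at this
    exact this
  apply hℓ
  rw [isUnit_iff_dvd_one, ← hdet]
  exact dvd_sub (Dvd.dvd.mul_left e11 _) (Dvd.dvd.mul_left e10 _)

/-- **the middle cusps** : `a = d / a = q` forces `q ∤ b`. -/
theorem not_dvd_bOf (γ : SL(2, ℤ)) (q : ℕ) (hq : q.Prime) (ha : aOf γ (q * q) = q) :
    ¬ (q : ℤ) ∣ bOf γ (q * q) := by
  intro hb
  refine not_dvd_all γ (q * q) (mul_ne_zero hq.ne_zero hq.ne_zero) (q : ℤ) ?_ ?_ hb ?_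
  · intro hu
    have := Int.isUnit_iff_natAbs_eq.1 hu
    simp at this
    exact hq.one_lt.ne' this
  · rw [ha]
  · rw [ha, Nat.mul_div_cancel _ hq.pos]

/-- the three types of cusps at `q ^ 2`. -/
theorem aOf_cases (γ : SL(2, ℤ)) (q : ℕ) (hq : q.Prime) :
    aOf γ (q * q) = 1 ∨ aOf γ (q * q) = q ∨ aOf γ (q * q) = q * q := by
  have h : aOf γ (q * q) ∣ q ^ 2 := by
    rw [pow_two, aOf_eq]; exact Nat.gcd_dvd_left _ _
  obtain ⟨i, hi, e⟩ := (Nat.dvd_prime_pow hq).1 h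
  interval_cases i
  · left; simpa using e
  · right; left; simpa using e
  · right; right; rw [e, pow_two]

end Fermat.Agent.S36.CuspAr
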