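import Mathlib
import Fermat.Agent.S28.Ord
import Fermat.Agent.S24.PlaceBasic
import Fermat.Agent.S37.Const
import Fermat.Agent.S36.CuspAr
import Fermat.Agent.ES.QEMod
import Fermat.Agent.S34.NXu

/-!
# S36, [C0] : at a cusp with `ord jz = ord jx`, the ratio `jz / jx` is a non trivial `q`-th root
of unity (algebraic proof, from the modular equation of level `q * q`).
-/

set_option autoImplicit false
open ModularCurve AlgebraicCurve Polynomial
open Fermat.Agent.S28
noncomputable section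
namespace Fermat.Agent.S36.CuspC0

section series

variable {E : Type*} [Field E]

theorem lc_of (z : LaurentSeries E) (a : ℤ) (c : E) (hc : c ≠ 0) (h1 : z.coeff a = c)
    (h2 : ∀ k < a, z.coeff k = 0) : z.leadingCoeff = c := by
  rw [HahnSeries.leadingCoeff_eq, Ord.order_eq_of (by rw [h1]; exact hc) h2, h1]

theorem lc_pow (x : LaurentSeries E) (d : ℕ) : (x ^ d).leadingCoeff = x.leadingCoeff ^ d := by
  induction d with
  | zero => simp
  | succ d ih => rw [pow_succ, HahnSeries.leadingCoeff_mul, ih, pow_succ]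

theorem lc_prod {ι : Type*} (s : Finset ι) (f : ι → LaurentSeries E) :
    (∏ i ∈ s, f i).leadingCoeff = ∏ i ∈ s, (f i).leadingCoeff := by
  classical
  induction s using Finset.induction_on with
  | empty => simp
  | insert a s ha ih => rw [Finset.prod_insert ha, Finset.prod_insert ha,
      HahnSeries.leadingCoeff_mul, ih]

theorem lc_aeval (J : LaurentSeries E) (hJ : J.order < 0) (hJ1 : J.leadingCoeff = 1) (G : E[X])
    (hG : G ≠ 0) : (aeval J G).leadingCoeff = G.leadingCoeff := by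
  have hJ0 : J ≠ 0 := by rintro rfl; simp at hJ
  have key : ∀ k : ℤ, k ≤ (J ^ G.natDegree).order →
      (aeval J G).coeff k = G.leadingCoeff * (J ^ G.natDegree).coeff k := by
    intro k hk
    simp only [Polynomial.aeval_eq_sum_range, Algebra.smul_def, Ord.algebraMap_eq_C]
    rw [HahnSeries.coeff_sum, Finset.sum_range_succ, Finset.sum_eq_zero, zero_add,
      Ord.coeff_C_mul']
    · rfl
    · intro i hi
      rw [Ord.coeff_C_mul', HahnSeries.coeff_eq_zero_of_lt_order, mul_zero]
      rw [HahnSeries.order_pow, nsmul_eq_mul] at hk ⊢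
      have hi' : (i : ℤ) < G.natDegree := by exact_mod_cast Finset.mem_range.mp hi
      nlinarith
  apply lc_of _ (J ^ G.natDegree).order
  · exact leadingCoeff_ne_zero.2 hG
  · rw [key _ le_rfl, ← HahnSeries.leadingCoeff_eq, lc_pow, hJ1, one_pow, mul_one]
  · intro k hk
    rw [key _ hk.le, HahnSeries.coeff_eq_zero_of_lt_order hk, mul_zero]

/-- the series `j (ω t ^ m)`. -/
def xs (E : Type*) [Field E] (m : ℕ) (ω : Eˣ) : LaurentSeries E :=
  qExp E m (twist ω (jqModC E))

theorem coeff_j : (jqModC E).coeff (-1) = 1 :=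
  Ord.coeff_single_mul_ofPS E (-1) jNum constantCoeff_jNum

theorem xs_coeff_lt (m : ℕ) (hm : m ≠ 0) (ω : Eˣ) (k : ℤ) (hk : k < -(m : ℤ)) :
    (xs E m ω).coeff k = 0 := by
  apply HahnSeries.coeff_eq_zero_of_lt_order
  rw [xs, Ord.order_qExp m hm, Ord.order_twist, Ord.order_jqModC]
  linarith

theorem xs_coeff (m : ℕ) (hm : m ≠ 0) (ω : Eˣ) :
    (xs E m ω).coeff (-(m : ℤ)) = ((ω⁻¹ : Eˣ) : E) := by
  have : -(m : ℤ) = (m : ℤ) * (-1) := by ring
  rw [this, xs, Ord.qExp_coeff_mul m hm, twist_coeff, coeff_j, mul_one, zpow_neg_one]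

/-- the three cases for the leading coefficient of `ρ J - c`. -/
theorem lc_cases (n : ℕ) (hn : n ≠ 0) (m : ℕ) (hm : m ≠ 0) (ω : Eˣ) (ρ : E) (hρ : ρ ≠ 0)
    (hne : ρ - ((ω⁻¹ : Eˣ) : E) ≠ 0) :
    (m < n ∧ (HahnSeries.C ρ * xs E n 1 - xs E m ω).leadingCoeff = ρ) ∨
    (m = n ∧ (HahnSeries.C ρ * xs E n 1 - xs E m ω).leadingCoeff = ρ - ((ω⁻¹ : Eˣ) : E)) ∨
    (n < m ∧ (HahnSeries.C ρ * xs E n 1 - xs E m ω).leadingCoeff = - ((ω⁻¹ : Eˣ) : E)) := by
  rcases lt_trichotomy m n with h | h | h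
  · refine Or.inl ⟨h, lc_of _ (-(n : ℤ)) _ hρ ?_ ?_⟩
    · rw [HahnSeries.coeff_sub, Ord.coeff_C_mul', xs_coeff n hn, xs_coeff_lt m hm]
      · simp
      · have : (m : ℤ) < n := by exact_mod_cast h
        linarith
    · intro k hk
      rw [HahnSeries.coeff_sub, Ord.coeff_C_mul', xs_coeff_lt n hn _ _ hk, xs_coeff_lt m hm]
      · simp
      · have : (m : ℤ) < n := by exact_mod_cast h
        linarith
  · subst h
    refine Or.inr (Or.inl ⟨rfl, lc_of _ (-(m : ℤ)) _ hne ?_ ?_⟩)
    · rw [HahnSeries.coeff_sub, Ord.coeff_C_mul', xs_coeff m hm, xs_coeff m hm]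
      simp
    · intro k hk
      rw [HahnSeries.coeff_sub, Ord.coeff_C_mul', xs_coeff_lt m hm _ _ hk,
        xs_coeff_lt m hm _ _ hk]
      simp
  · refine Or.inr (Or.inr ⟨h, lc_of _ (-(m : ℤ)) _ (neg_ne_zero.2 (Units.ne_zero _)) ?_ ?_⟩)
    · rw [HahnSeries.coeff_sub, Ord.coeff_C_mul', xs_coeff m hm, xs_coeff_lt n hn]
      · simp
      · have : (n : ℤ) < m := by exact_mod_cast h
        linarith
    · intro k hk
      rw [HahnSeries.coeff_sub, Ord.coeff_C_mul', xs_coeff_lt m hm _ _ hk, xs_coeff_lt n hn]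
      · simp
      · have : (n : ℤ) < m := by exact_mod_cast h
        linarith

theorem coeffMap_xs {K : Type*} [Field K] (f : K →+* E) (m : ℕ) (ω : Kˣ) :
    coeffMap f (xs K m ω) = xs E m (Units.map (f : K →* E) ω) := by
  rw [xs, xs, Ord.coeffMap_qExp, Ord.coeffMap_twist, coeffMap_jqModC]

end series

section core

variable {K E : Type*} [Field K] [Field E] [Algebra K E]

/-- place side : `1 / jx` divides the leading coefficient. -/
theorem ord_lc_pos (W : Place K E) (G : (W.toValuationSubring)[X]) (hG : G ≠ 0) (jx : E)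
    (h1 : W.ord jx < 0) (h0 : eval₂ W.toValuationSubring.subtype jx G = 0) :
    0 < W.ord (G.leadingCoeff : E) := by
  have hj0 : jx ≠ 0 := by rintro rfl; simp at h1
  have hξ : 0 ≤ W.ord jx⁻¹ := by rw [Place.ord_inv]; linarith
  have hξm : jx⁻¹ ∈ W.toValuationSubring :=
    (S24.Place.mem_iff_ord_nonneg W (inv_ne_zero hj0)).2 hξ
  have hrev : eval₂ W.toValuationSubring.subtype jx⁻¹ G.reverse = 0 := by
    let _ : Invertible jx := invertibleOfNonzero hj0
    have := eval₂_reverse_mul_pow W.toValuationSubring.subtype jx G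
    rw [h0, invOf_eq_inv] at this
    exact (mul_eq_zero.1 this).resolve_right (pow_ne_zero _ hj0)
  have hrev' : G.reverse.eval (⟨jx⁻¹, hξm⟩ : W.toValuationSubring) = 0 := by
    apply Subtype.ext
    have := Polynomial.hom_eval₂ G.reverse (RingHom.id _) W.toValuationSubring.subtype
      (⟨jx⁻¹, hξm⟩ : W.toValuationSubring)
    rw [RingHom.comp_id] at this
    have e : W.toValuationSubring.subtype (⟨jx⁻¹, hξm⟩ : W.toValuationSubring) = jx⁻¹ := rfl
    rw [e, hrev] at this
    exact this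
  obtain ⟨c, hc⟩ := Polynomial.sub_dvd_eval_sub (⟨jx⁻¹, hξm⟩ : W.toValuationSubring) 0 G.reverse
  rw [hrev', ← coeff_zero_eq_eval_zero, coeff_zero_reverse, sub_zero, zero_sub] at hc
  have hlc : (G.leadingCoeff : E) = jx⁻¹ * (-(c : E)) := by
    have : -(G.leadingCoeff : E) = jx⁻¹ * (c : E) :=
      congrArg (fun z : W.toValuationSubring => (z : E)) hc
    linear_combination -this
  have hlc0 : (G.leadingCoeff : E) ≠ 0 := by
    intro h
    exact leadingCoeff_ne_zero.2 hG (Subtype.ext h)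
  have hc0 : -(c : E) ≠ 0 := by
    intro h
    rw [h, mul_zero] at hlc
    exact hlc0 hlc
  rw [hlc, Place.ord_mul W (inv_ne_zero hj0) hc0, Place.ord_inv]
  have := S24.Place.ord_nonneg_of_mem W (neg_mem c.2)
  linarith

/-- **the core** : some `ρ - ω⁻¹` with `m = n` vanishes at `W`. -/
theorem core (W : Place K E) (n : ℕ) (hn : n ≠ 0) {ι : Type*} [Fintype ι] (m : ι → ℕ)
    (hm : ∀ i, m i ≠ 0) (ω : ι → Kˣ) (P : K[X][X])
    (hP : P.map (aeval (xs K n 1) : K[X] →ₐ[K] LaurentSeries K).toRingHom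
      = ∏ i, (X - C (xs K (m i) (ω i))))
    (jx jz : E) (h0 : eval₂ (aeval jx : K[X] →ₐ[K] E).toRingHom jz P = 0)
    (hne : ∀ w : K, jz ≠ algebraMap K E w * jx) (h1 : W.ord jx < 0)
    (h2 : W.ord jz = W.ord jx) :
    ∃ i, m i = n ∧ 0 < W.ord (jz / jx - algebraMap K E ((ω i)⁻¹ : Kˣ)) := by
  have hj0 : jx ≠ 0 := by rintro rfl; simp at h1
  have hz0 : jz ≠ 0 := by
    intro h
    exact hne 0 (by rw [h, map_zero, zero_mul])
  have hρ0 : jz / jx ≠ 0 := div_ne_zero hz0 hj0
  have hρord : W.ord (jz / jx) = 0 := by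
    rw [div_eq_mul_inv, Place.ord_mul W hz0 (inv_ne_zero hj0), Place.ord_inv, h2]
    ring
  have hρm : jz / jx ∈ W.toValuationSubring :=
    (S24.Place.mem_iff_ord_nonneg W hρ0).2 hρord.ge
  have hρne : ∀ w : K, jz / jx - algebraMap K E w ≠ 0 := by
    intro w h
    apply hne w
    rw [sub_eq_zero] at h
    rw [← h]
    field_simp
  set ρ' : W.toValuationSubring := ⟨jz / jx, hρm⟩ with hρ'
  set G' : (W.toValuationSubring)[X] :=
    P.eval₂ (mapRingHom (algebraMap K W.toValuationSubring)) (C ρ' * X) with hG'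
  -- (a) the root
  have ha : eval₂ W.toValuationSubring.subtype jx G' = 0 := by
    have e := Polynomial.hom_eval₂ P (mapRingHom (algebraMap K W.toValuationSubring))
      (eval₂RingHom W.toValuationSubring.subtype jx) (C ρ' * X)
    have e1 : (eval₂RingHom W.toValuationSubring.subtype jx).comp
        (mapRingHom (algebraMap K W.toValuationSubring))
        = (aeval jx : K[X] →ₐ[K] E).toRingHom := by
      apply Polynomial.ringHom_ext
      · intro a
        simp
      · simp
    have e2 : eval₂RingHom W.toValuationSubring.subtype jx (C ρ' * X) = jz := by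
      simp only [coe_eval₂RingHom, eval₂_mul, eval₂_C, eval₂_X]
      show jz / jx * jx = jz
      field_simp
    rw [e1, e2, h0] at e
    exact e
  -- (b) the series identity
  have hb : aeval (xs E n 1) (G'.map W.toValuationSubring.subtype)
      = ∏ i, (HahnSeries.C (jz / jx) * xs E n 1
        - xs E (m i) (Units.map (algebraMap K E : K →* E) (ω i))) := by
    rw [aeval_def, eval₂_map]
    have e := Polynomial.hom_eval₂ P (mapRingHom (algebraMap K W.toValuationSubring))
      (eval₂RingHom ((algebraMap E (LaurentSeries E)).comp W.toValuationSubring.subtype)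
        (xs E n 1)) (C ρ' * X)
    have e1 : (eval₂RingHom ((algebraMap E (LaurentSeries E)).comp
        W.toValuationSubring.subtype) (xs E n 1)).comp
        (mapRingHom (algebraMap K W.toValuationSubring))
        = (coeffMap (algebraMap K E)).comp
          (aeval (xs K n 1) : K[X] →ₐ[K] LaurentSeries K).toRingHom := by
      apply Polynomial.ringHom_ext
      · intro a
        simp only [RingHom.comp_apply, coe_mapRingHom, map_C, coe_eval₂RingHom, eval₂_C,
          AlgHom.toRingHom_eq_coe, RingHom.coe_coe, aeval_C, Ord.coeffMap_algebraMap']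
        rfl
      · simp only [RingHom.comp_apply, coe_mapRingHom, map_X, coe_eval₂RingHom, eval₂_X,
          AlgHom.toRingHom_eq_coe, RingHom.coe_coe, aeval_X, coeffMap_xs, map_one]
    have e2 : eval₂RingHom ((algebraMap E (LaurentSeries E)).comp
        W.toValuationSubring.subtype) (xs E n 1) (C ρ' * X)
        = HahnSeries.C (jz / jx) * xs E n 1 := by
      simp only [coe_eval₂RingHom, eval₂_mul, eval₂_C, eval₂_X, RingHom.comp_apply,
        Ord.algebraMap_eq_C]
      rfl
    rw [e1, e2] at e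
    rw [coe_eval₂RingHom] at e
    rw [e, eval₂_eq_eval_map, ← Polynomial.map_map, hP, Polynomial.map_prod, eval_prod]
    refine Finset.prod_congr rfl fun i _ => ?_
    rw [Polynomial.map_sub, map_X, map_C, eval_sub, eval_X, eval_C, coeffMap_xs]
  by_contra hcon
  push Not at hcon
  -- the leading coefficients
  have hlc : ∀ i, (HahnSeries.C (jz / jx) * xs E n 1
        - xs E (m i) (Units.map (algebraMap K E : K →* E) (ω i))).leadingCoeff ≠ 0 ∧
      W.ord (HahnSeries.C (jz / jx) * xs E n 1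
        - xs E (m i) (Units.map (algebraMap K E : K →* E) (ω i))).leadingCoeff = 0 := by
    intro i
    have ew : (((Units.map (algebraMap K E : K →* E) (ω i))⁻¹ : Eˣ) : E)
        = algebraMap K E ((ω i)⁻¹ : Kˣ) := by
      rw [← map_inv]; rfl
    rcases lc_cases n hn (m i) (hm i) (Units.map (algebraMap K E : K →* E) (ω i)) (jz / jx) hρ0
      (by rw [ew]; exact hρne _) with ⟨-, h⟩ | ⟨hmn, h⟩ | ⟨-, h⟩
    · rw [h]; exact ⟨hρ0, hρord⟩
    · rw [h, ew]
      refine ⟨hρne _, le_antisymm (hcon i hmn) ?_⟩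
      exact S24.Place.ord_nonneg_of_mem W (sub_mem hρm (W.algebraMap_mem' _))
    · rw [h, ew, ← map_neg]
      refine ⟨?_, S24.Place.ord_algebraMap W _⟩
      rw [map_neg]
      exact neg_ne_zero.2 (by rw [← ew]; exact Units.ne_zero _)
  have hinj : Function.Injective W.toValuationSubring.subtype := Subtype.val_injective
  have hlcprod := congrArg HahnSeries.leadingCoeff hb
  rw [lc_prod] at hlcprod
  have hprod0 : ∏ i, (HahnSeries.C (jz / jx) * xs E n 1
        - xs E (m i) (Units.map (algebraMap K E : K →* E) (ω i))).leadingCoeff ≠ 0 :=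
    Finset.prod_ne_zero_iff.2 fun i _ => (hlc i).1
  have hG0 : G'.map W.toValuationSubring.subtype ≠ 0 := by
    intro h
    rw [h, map_zero] at hlcprod
    exact hprod0 (by rw [← hlcprod]; simp)
  have hG'0 : G' ≠ 0 := by
    intro h
    exact hG0 (by rw [h, Polynomial.map_zero])
  have hJord : (xs E n 1).order < 0 := by
    rw [xs, Ord.order_qExp n hn, Ord.order_twist, Ord.order_jqModC]
    have : (0 : ℤ) < n := by exact_mod_cast Nat.pos_of_ne_zero hn
    linarith
  have hJlc : (xs E n 1).leadingCoeff = 1 :=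
    lc_of _ (-(n : ℤ)) 1 one_ne_zero (by rw [xs_coeff n hn]; simp)
      (fun k hk => xs_coeff_lt n hn _ _ hk)
  rw [lc_aeval _ hJord hJlc _ hG0, leadingCoeff_map_of_injective hinj] at hlcprod
  have hpos := ord_lc_pos W G' hG'0 jx h1 ha
  have e3 : (G'.leadingCoeff : E) = W.toValuationSubring.subtype G'.leadingCoeff := rfl
  rw [e3, hlcprod, S37.Const.ord_prod W _ _ (fun i _ => (hlc i).1),
    Finset.sum_eq_zero (fun i _ => (hlc i).2)] at hpos
  exact lt_irrefl _ hpos

/-- the cyclotomic sum vanishes at `W`. -/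
theorem ord_geom_pos (W : Place K E) (q : ℕ) (ρ : E) (w : K) (hw : w ^ q = 1) (hw1 : w ≠ 1)
    (hρm : ρ ∈ W.toValuationSubring) (hpos : 0 < W.ord (ρ - algebraMap K E w))
    (hS : ∑ i ∈ Finset.range q, ρ ^ i ≠ 0) : 0 < W.ord (∑ i ∈ Finset.range q, ρ ^ i) := by
  have hw0 : ∑ i ∈ Finset.range q, w ^ i = 0 := by
    have := geom_sum_mul w q
    rw [hw, sub_self] at this
    exact (mul_eq_zero.1 this).resolve_right (sub_ne_zero.2 hw1)
  obtain ⟨c, hc⟩ := Polynomial.sub_dvd_eval_sub (⟨ρ, hρm⟩ : W.toValuationSubring)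
    (algebraMap K W.toValuationSubring w) (∑ i ∈ Finset.range q, (X : (W.toValuationSubring)[X]) ^ i)
  simp only [eval_finsetSum, eval_pow, eval_X] at hc
  have hw0' : ∑ x ∈ Finset.range q, (algebraMap K W.toValuationSubring) w ^ x = 0 := by
    simp only [← map_pow]
    rw [← map_sum, hw0, map_zero]
  rw [hw0', sub_zero] at hc
  have hc' : ∑ i ∈ Finset.range q, ρ ^ i = (ρ - algebraMap K E w) * (c : E) := by
    have := congrArg W.toValuationSubring.subtype hc
    rw [map_sum, map_mul, map_sub] at this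
    simp only [map_pow] at this
    exact this
  have hc0 : (c : E) ≠ 0 := by
    intro h
    rw [h, mul_zero] at hc'
    exact hS hc'
  have h10 : ρ - algebraMap K E w ≠ 0 := by
    intro h
    rw [h, zero_mul] at hc'
    exact hS hc'
  rw [hc', Place.ord_mul W h10 hc0]
  have := S24.Place.ord_nonneg_of_mem W c.2
  linarith

end core

section inst

open Fermat.Agent.S24 Fermat.Agent.ES Fermat.Agent.ES.QE

/-- a primitive root of unity of `ℚ̄` with the modular equation. -/
theorem exists_zeta_prim (n : ℕ) [NeZero n] :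
    ∃ ζ : Kbˣ, IsPrimitiveRoot ζ n ∧ ModEq Kb ζ n := by
  obtain ⟨ζ₁, hζ₁⟩ := ResField.exists_zetaQ n
  have hprim : IsPrimitiveRoot ζ₁ n := by
    refine IsPrimitiveRoot.of_map_of_injective (f := ResField.iot) (hf := ResField.iot.injective) ?_
    rw [hζ₁]
    exact IsPrimitiveRoot.coe_units_iff.mpr (Degree.isPrimitiveRoot_zetaC n)
  have h0 : ζ₁ ≠ 0 := hprim.ne_zero (NeZero.ne n)
  have h := ResField.transfer ResField.iot ResField.iot.injective n (Units.mk0 ζ₁ h0) (by
    ext
    exact hζ₁)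
  refine ⟨Units.mk0 ζ₁ h0, ?_, h.1⟩
  rw [← IsPrimitiveRoot.coe_units_iff]
  exact hprim

/-- the root of the modular polynomial. -/
theorem root_of_modEq {A : Type*} [CommRing A] (N : ℕ) [NeZero N] (ζ : Aˣ) (hζ : ζ ^ N = 1)
    (U : MvPolynomial (Gen N) A) (P : A[X][X])
    (hP : P.map (Polynomial.aeval (Jt A N)).toRingHom =
      ∏ i : Cos N, (Polynomial.X - Polynomial.C (ev A ζ N (rep i) U))) :
    eval₂ (evS (jqModC A)) (ev0 A N U) P = 0 := by
  have hq : Function.Injective (qExp A N) := by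
    rw [qExp_eq]; exact qExpand_injective N
  rw [aeval_Jt_eq] at hP
  apply hq
  rw [map_zero, hom_eval₂, ← eval_map, hP, eval_prod]
  apply Finset.prod_eq_zero (i := ((1 : Matrix.SpecialLinearGroup (Fin 2) ℤ) : Cos N))
    (Finset.mem_univ _)
  rw [eval_sub, eval_X, eval_C, ev_of_mem_Gamma0 ζ hζ ((rep_mem_Gamma0_iff _).mpr rfl), sub_self]

/-- **[C0]** -/
theorem c0 (q : ℕ) (hq : q.Prime) (N : ℕ) (W : Place Kb (FF N)) (jx jz : FF N)
    (hx : (jx : LaurentSeries Kb) = jqModC Kb)
    (hz : (jz : LaurentSeries Kb) = qExp Kb (q * q) (jqModC Kb))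
    (h1 : W.ord jx < 0) (h2 : W.ord jz = W.ord jx) :
    0 < W.ord (∑ i ∈ Finset.range q, (jz / jx) ^ i) := by
  have hn : q * q ≠ 0 := mul_ne_zero hq.ne_zero hq.ne_zero
  have : NeZero (q * q) := ⟨hn⟩
  obtain ⟨ζ, hprim, hmod⟩ := exists_zeta_prim (q * q)
  obtain ⟨P, hP⟩ := hmod (MvPolynomial.X (false, ⟨q * q, Nat.mem_divisors_self _ hn⟩))
  have hroot := root_of_modEq (q * q) ζ hprim.pow_eq_one _ P hP
  have hev0 : ev0 Kb (q * q) (MvPolynomial.X (false, ⟨q * q, Nat.mem_divisors_self _ hn⟩))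
      = qExp Kb (q * q) (jqModC Kb) := by
    rw [ev0, MvPolynomial.aeval_X]
    rfl
  rw [hev0] at hroot
  have hJ : Jt Kb (q * q) = xs Kb (q * q) 1 := by
    rw [Jt, xs, Ord.twist_one]
  have hP' : P.map (aeval (xs Kb (q * q) 1) : Kb[X] →ₐ[Kb] LaurentSeries Kb).toRingHom
      = ∏ i : Cos (q * q), (X - C (xs Kb (mOf (q * q) (rep i) (q * q))
          (omOf Kb ζ (q * q) (rep i) (q * q)))) := by
    rw [← hJ, hP]
    refine Finset.prod_congr rfl fun i _ => ?_
    rw [ev, MvPolynomial.aeval_X]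
    rfl
  -- the root in `FF N`
  have h0 : eval₂ (aeval jx : Kb[X] →ₐ[Kb] FF N).toRingHom jz P = 0 := by
    apply Subtype.val_injective
    have e := Polynomial.hom_eval₂ P (aeval jx : Kb[X] →ₐ[Kb] FF N).toRingHom
      (algebraMap (FF N) (LaurentSeries Kb)) jz
    have e1 : (algebraMap (FF N) (LaurentSeries Kb)).comp
        (aeval jx : Kb[X] →ₐ[Kb] FF N).toRingHom = evS (jqModC Kb) := by
      apply Polynomial.ringHom_ext
      · intro a
        simp only [RingHom.comp_apply, AlgHom.toRingHom_eq_coe, RingHom.coe_coe, aeval_C, evS_C]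
        rw [← IsScalarTower.algebraMap_apply, QE.algebraMap_eq_C]
      · simp only [RingHom.comp_apply, AlgHom.toRingHom_eq_coe, RingHom.coe_coe, aeval_X, evS_X]
        exact hx
    have e2 : algebraMap (FF N) (LaurentSeries Kb) jz = qExp Kb (q * q) (jqModC Kb) := hz
    rw [e1, e2, hroot] at e
    exact e
  have hq2 : (1 : ℤ) < ((q * q : ℕ) : ℤ) := by
    have := hq.two_le
    have : 1 < q * q := by nlinarith
    exact_mod_cast this
  have hzc : (jz : LaurentSeries Kb).coeff (-((q * q : ℕ) : ℤ)) = 1 := by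
    have := xs_coeff (E := Kb) (q * q) hn 1
    rw [xs, Ord.twist_one] at this
    rw [hz, this]
    simp
  have hne : ∀ w : Kb, jz ≠ algebraMap Kb (FF N) w * jx := by
    intro w h
    have e : (jz : LaurentSeries Kb).coeff (-((q * q : ℕ) : ℤ))
        = ((algebraMap Kb (FF N) w * jx : FF N) : LaurentSeries Kb).coeff
          (-((q * q : ℕ) : ℤ)) := by rw [← h]
    rw [hzc] at e
    have e3 : ((algebraMap Kb (FF N) w * jx : FF N) : LaurentSeries Kb)
        = HahnSeries.C w * jqModC Kb := by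
      rw [← hx, ← QE.algebraMap_eq_C]
      rfl
    rw [e3, Ord.coeff_C_mul', HahnSeries.coeff_eq_zero_of_lt_order, mul_zero] at e
    · exact one_ne_zero e
    · rw [Ord.order_jqModC]
      linarith
  obtain ⟨i, hi, hpos⟩ := core W (q * q) hn (fun i : Cos (q * q) => mOf (q * q) (rep i) (q * q))
    (fun i => Ord.mOf_ne_zero hn (rep i) dvd_rfl)
    (fun i => omOf Kb ζ (q * q) (rep i) (q * q)) P hP' jx jz h0 hne h1 h2
  have ha : aOf (rep i) (q * q) = q := by
    have h : aOf (rep i) (q * q) ^ 2 * (q * q / (q * q)) = q * q := hi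
    rw [Nat.div_self (Nat.pos_of_ne_zero hn), mul_one, pow_two] at h
    exact Nat.mul_self_inj.1 h
  have hb := CuspAr.not_dvd_bOf (rep i) q hq ha
  have hω : omOf Kb ζ (q * q) (rep i) (q * q) = ζ ^ ((q : ℤ) * bOf (rep i) (q * q)) := by
    rw [omOf, Nat.div_self (Nat.pos_of_ne_zero hn), one_mul, ha]
  have hωq : (omOf Kb ζ (q * q) (rep i) (q * q)) ^ q = 1 := by
    rw [hω, ← zpow_natCast, ← zpow_mul]
    have : (q : ℤ) * bOf (rep i) (q * q) * (q : ℤ) = ((q * q : ℕ) : ℤ) * bOf (rep i) (q * q) := by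
      push_cast; ring
    rw [this, zpow_mul, zpow_natCast, hprim.pow_eq_one, one_zpow]
  have hω1 : omOf Kb ζ (q * q) (rep i) (q * q) ≠ 1 := by
    intro h
    rw [hω, hprim.zpow_eq_one_iff_dvd] at h
    apply hb
    have hq0 : (q : ℤ) ≠ 0 := by exact_mod_cast hq.ne_zero
    have h' : (q : ℤ) * (q : ℤ) ∣ (q : ℤ) * bOf (rep i) (q * q) := by
      have e : ((q * q : ℕ) : ℤ) = (q : ℤ) * (q : ℤ) := by push_cast; ring
      rwa [e] at h
    exact (mul_dvd_mul_iff_left hq0).1 h'
  have hj0 : jx ≠ 0 := by rintro rfl; simp at h1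
  have hz0 : jz ≠ 0 := by
    intro h
    exact hne 0 (by rw [h, map_zero, zero_mul])
  have hρ0 : jz / jx ≠ 0 := div_ne_zero hz0 hj0
  have hρord : W.ord (jz / jx) = 0 := by
    rw [div_eq_mul_inv, AlgebraicCurve.Place.ord_mul W hz0 (inv_ne_zero hj0),
      AlgebraicCurve.Place.ord_inv, h2]
    ring
  have hρm : jz / jx ∈ W.toValuationSubring :=
    (S24.Place.mem_iff_ord_nonneg W hρ0).2 hρord.ge
  refine ord_geom_pos W q (jz / jx) (((omOf Kb ζ (q * q) (rep i) (q * q))⁻¹ : Kbˣ) : Kb) ?_ ?_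
    hρm hpos ?_
  · rw [← Units.val_pow_eq_pow_val, inv_pow, hωq, inv_one, Units.val_one]
  · intro h
    apply hω1
    rw [← Units.val_one, Units.val_inj, inv_eq_one] at h
    exact h
  · intro hS
    have h3 := geom_sum_mul (jz / jx) q
    rw [hS, zero_mul] at h3
    have h4 : jz ^ q = jx ^ q := by
      have : (jz / jx) ^ q = 1 := (sub_eq_zero.1 h3.symm)
      rw [div_pow, div_eq_one_iff_eq (pow_ne_zero _ hj0)] at this
      exact this
    have h5 : ((jz : LaurentSeries Kb)) ^ q = (jx : LaurentSeries Kb) ^ q :=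
      congrArg (fun z : FF N => (z : LaurentSeries Kb)) h4
    have h6 := congrArg HahnSeries.order h5
    rw [HahnSeries.order_pow, HahnSeries.order_pow, hx, hz, Ord.order_qExp _ hn,
      Ord.order_jqModC, nsmul_eq_mul, nsmul_eq_mul] at h6
    have hq0 : (0 : ℤ) < q := by exact_mod_cast hq.pos
    nlinarith

end inst

end Fermat.Agent.S36.CuspC0
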