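import Fermat.Agent.S24.MerGerm

/-!
# S36, [C0], field lemma : if `g ≡ c` at the point and `∑_{i<q} c^i = 0`, then `∑_{i<q} g^i`
vanishes at the point.
-/

set_option autoImplicit false

namespace Fermat.Agent.S36.CuspGeom

open Fermat.Agent.S24 Finset

variable {x : ℂ}

/-- regular germs. -/
def Reg (a : MerGerm x) : Prop := 0 ≤ a.ord

theorem Reg.add {a b : MerGerm x} (ha : Reg a) (hb : Reg b) : Reg (a + b) := by
  unfold Reg at *
  by_cases h1 : a = 0
  · rwa [h1, zero_add]
  by_cases h2 : b = 0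
  · rwa [h2, add_zero]
  by_cases h3 : a + b = 0
  · rw [h3, MerGerm.ord_zero]
  · exact le_trans (le_min ha hb) (MerGerm.ord_add h1 h2 h3)

theorem Reg.mul {a b : MerGerm x} (ha : Reg a) (hb : Reg b) : Reg (a * b) := by
  unfold Reg at *
  by_cases h1 : a = 0
  · rw [h1, zero_mul, MerGerm.ord_zero]
  by_cases h2 : b = 0
  · rw [h2, mul_zero, MerGerm.ord_zero]
  · rw [MerGerm.ord_mul h1 h2]
    omega

theorem Reg.one : Reg (1 : MerGerm x) := by
  unfold Reg
  rw [MerGerm.ord_one]

theorem Reg.zero : Reg (0 : MerGerm x) := by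
  unfold Reg
  rw [MerGerm.ord_zero]

theorem Reg.pow {a : MerGerm x} (ha : Reg a) (n : ℕ) : Reg (a ^ n) := by
  induction n with
  | zero => rw [pow_zero]; exact Reg.one
  | succ n ih => rw [pow_succ]; exact ih.mul ha

theorem Reg.sum {ι : Type*} (s : Finset ι) (f : ι → MerGerm x) (h : ∀ i ∈ s, Reg (f i)) :
    Reg (∑ i ∈ s, f i) := by
  classical
  induction s using Finset.induction_on with
  | empty => rw [Finset.sum_empty]; exact Reg.zero
  | insert a s ha ih =>
    rw [Finset.sum_insert ha]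
    exact (h a (Finset.mem_insert_self a s)).add
      (ih fun i hi => h i (Finset.mem_insert_of_mem hi))

theorem Reg.const (c : ℂ) : Reg (MerGerm.const x c) := by
  unfold Reg
  rw [MerGerm.ord_const]

/-- **the field lemma of [C0]**. -/
theorem ord_geom_pos (g : MerGerm x) (c : ℂ) (q : ℕ) (hc : ∑ i ∈ range q, c ^ i = 0)
    (hg : 0 < (g - MerGerm.const x c).ord) (hne : ∑ i ∈ range q, g ^ i ≠ 0) :
    0 < (∑ i ∈ range q, g ^ i).ord := by
  set C := MerGerm.const x c with hC
  set h := g - C with hh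
  have hgReg : Reg g := by
    have : g = h + C := by rw [hh]; ring
    rw [this]
    exact Reg.add (le_of_lt hg) (Reg.const c)
  have hsumC : ∑ i ∈ range q, C ^ i = 0 := by
    have := congrArg (MerGerm.const x) hc
    rw [map_sum, map_zero] at this
    simpa only [map_pow] using this
  have key : ∑ i ∈ range q, g ^ i
      = h * ∑ i ∈ range q, ∑ j ∈ range i, g ^ j * C ^ (i - 1 - j) := by
    have e1 : ∑ i ∈ range q, g ^ i = ∑ i ∈ range q, (g ^ i - C ^ i) := by
      rw [Finset.sum_sub_distrib, hsumC, sub_zero]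
    rw [e1, Finset.mul_sum]
    refine Finset.sum_congr rfl fun i _ => ?_
    rw [hh, mul_comm]
    exact ((Commute.all g C).geom_sum₂_mul i).symm
  set r := ∑ i ∈ range q, ∑ j ∈ range i, g ^ j * C ^ (i - 1 - j) with hr
  have hrReg : Reg r :=
    Reg.sum _ _ fun i _ => Reg.sum _ _ fun j _ => (hgReg.pow j).mul ((Reg.const c).pow _)
  rw [key] at hne ⊢
  have h0 : h ≠ 0 := left_ne_zero_of_mul hne
  have r0 : r ≠ 0 := right_ne_zero_of_mul hne
  rw [MerGerm.ord_mul h0 r0]
  have : 0 ≤ r.ord := hrReg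
  omega

end Fermat.Agent.S36.CuspGeom
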