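import Fermat.Agent.S36.TAsm

/-!
# S36, block G-REG, [C1] : (T2) at the cusps of the middle component, abstract form

`ρ = b / s` a unit at `n`, `ρ ≡ 1` on the middle component, and `Φ_q(ρ)` vanishes on a horizontal
prime `P ≤ n`.  Then `x = b - s` satisfies `s' ϖ = c x ^ (q-1)` with `s' ∉ n`.
-/

set_option autoImplicit false

namespace Fermat.Agent.S36

open Fermat.Agent.S34 Fermat.Agent.S35

namespace TAsm

variable {F : Type*} [Field F] {OF OM OV : Subring F} {ϖ t : F} {m q : ℕ} {B : Subring F}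
  {pF pM pV : Ideal B}

/-- the cofactor `r` of `(x + s) ^ q = x ^ q + s ^ q + q x s r` is `≡ s ^ (q-2)` modulo `x`. -/
theorem cofactor_notMem {A : Type*} [CommRing A] {q : ℕ} (hq : q.Prime) (n : Ideal A)
    (hn : n.IsPrime) (x s : A) (hx : x ∈ n) (hs : s ∉ n) :
    ∑ k ∈ Finset.Ioo 0 q, x ^ (k - 1) * s ^ (q - k - 1) * ((q.choose k / q : ℕ) : A) ∉ n := by
  classical
  have h1 : 1 ∈ Finset.Ioo 0 q := Finset.mem_Ioo.2 ⟨one_pos, hq.one_lt⟩
  rw [← Finset.add_sum_erase _ _ h1]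
  intro h
  have hrest : ∑ k ∈ (Finset.Ioo 0 q).erase 1,
      x ^ (k - 1) * s ^ (q - k - 1) * ((q.choose k / q : ℕ) : A) ∈ n := by
    refine Ideal.sum_mem n fun k hk => ?_
    obtain ⟨hk1, hk2⟩ := Finset.mem_erase.1 hk
    obtain ⟨hk0, -⟩ := Finset.mem_Ioo.1 hk2
    refine n.mul_mem_right _ (n.mul_mem_right _ (Ideal.pow_mem_of_mem n hx _ (by omega)))
  have h2 := (Ideal.add_mem_iff_left n hrest).1 h
  rw [Nat.sub_self, pow_zero, one_mul, Nat.choose_one_right, Nat.div_self hq.pos, Nat.cast_one,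
    mul_one] at h2
  exact hs (hn.mem_of_pow_mem _ h2)

/-- **[C1]** (T2) at a cusp of the middle component, abstract form. -/
theorem t2_cusp_abs (hϖ0 : ϖ ≠ 0) (hB : IsChartS (OF ⊓ OM ⊓ OV) ϖ m B)
    (memF : ∀ b : B, b ∈ pF ↔ DivS OF ϖ 1 (b : F))
    (memM : ∀ b : B, b ∈ pM ↔ DivS OM t 1 (b : F))
    (memV : ∀ b : B, b ∈ pV ↔ DivS OV ϖ 1 (b : F))
    (hram : IsU OM (ϖ / t ^ (q - 1))) (hq : q.Prime) (hϖq : ϖ = (q : F))
    (n : Ideal B) (hn : n.IsPrime) (hM : pM ≤ n) (hF : ¬ pF ≤ n) (hV : ¬ pV ≤ n)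
    (s b : B) (hs : s ∉ n) (_hb : b ∉ n) (h2 : DivS OM t 1 ((b : F) - s))
    (P : Ideal B) [hP : P.IsPrime] (hPn : P ≤ n) (hϖP : (⟨ϖ, hB.unif_mem⟩ : B) ∉ P)
    (h3 : ∑ i ∈ Finset.range q, b ^ i * s ^ (q - 1 - i) ∈ P) :
    ∃ x ∈ pM, ∃ s', s' ∉ n ∧ ∃ c, s' * (⟨ϖ, hB.unif_mem⟩ : B) = c * x ^ (q - 1) := by
  have hx : b - s ∈ pM := (memM _).2 h2
  set x : B := b - s with hxdef
  have hbx : b = x + s := by rw [hxdef]; ring
  have hqB : (⟨ϖ, hB.unif_mem⟩ : B) = (q : B) := Subtype.ext (by simp [hϖq])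
  obtain ⟨θ, hθ, hθ'⟩ := exists_theta hB memF memV n hn hF hV
  obtain ⟨yx, hyx, ex⟩ := (memM x).1 hx
  obtain ⟨h0, -, h2'⟩ := hram
  have ht : t ^ (q - 1) ≠ 0 := fun h => h0 (by rw [h, div_zero])
  obtain ⟨wB, hwB⟩ := hθ' (x ^ (q - 1)) ⟨(ϖ / t ^ (q - 1))⁻¹ * yx ^ (q - 1),
    OM.mul_mem h2' (OM.pow_mem hyx _), by
      rw [Subring.coe_pow, ex, pow_one, pow_one, mul_pow]
      field_simp⟩
  set r : B := ∑ k ∈ Finset.Ioo 0 q, x ^ (k - 1) * s ^ (q - k - 1) * ((q.choose k / q : ℕ) : B)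
    with hr
  have hrn : r ∉ n := cofactor_notMem hq n hn x s (hM hx) hs
  have hadd : b ^ q = x ^ q + s ^ q + q * x * s * r := by
    rw [hbx]; exact add_pow_prime_eq hq x s
  have hgeom : (∑ i ∈ Finset.range q, b ^ i * s ^ (q - 1 - i)) * x = b ^ q - s ^ q :=
    geom_sum₂_mul b s q
  have hxq : x ^ q = x * x ^ (q - 1) := by
    rw [← pow_succ', Nat.sub_add_cancel hq.one_le]
  -- `x ∉ P`
  have hxP : x ∉ P := by
    intro hxP
    have e1 : Ideal.Quotient.mk P b = Ideal.Quotient.mk P s := (Ideal.Quotient.eq).2 hxP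
    have e2 := (Ideal.Quotient.eq_zero_iff_mem).2 h3
    rw [map_sum] at e2
    simp only [map_mul, map_pow, e1] at e2
    rw [geom_sum₂_self, ← map_pow, ← map_natCast (Ideal.Quotient.mk P), ← map_mul,
      Ideal.Quotient.eq_zero_iff_mem] at e2
    rcases hP.mem_or_mem e2 with h | h
    · exact hϖP (hqB ▸ h)
    · exact hs (hPn (hP.mem_of_pow_mem _ h))
  have key : x * ((q : B) * (wB + θ * s * r)) ∈ P := by
    have e : x * ((q : B) * (wB + θ * s * r))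
        = θ * ((∑ i ∈ Finset.range q, b ^ i * s ^ (q - 1 - i)) * x) := by
      rw [hgeom, hadd, hxq]
      have : θ * x ^ (q - 1) = (q : B) * wB := by rw [hwB, hqB]
      linear_combination (-x) * this
    rw [e, ← mul_assoc]
    exact P.mul_mem_right _ (P.mul_mem_left _ h3)
  have hmem : wB + θ * s * r ∈ P := by
    rcases hP.mem_or_mem key with h | h
    · exact absurd h hxP
    · rcases hP.mem_or_mem h with h | h
      · exact absurd (hqB ▸ h) hϖP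
      · exact h
  refine ⟨x, hx, wB, fun hw => ?_, θ, by rw [mul_comm wB, ← hwB]⟩
  have h5 : θ * s * r ∈ n := (Ideal.add_mem_iff_right n hw).1 (hPn hmem)
  rcases hn.mem_or_mem h5 with h | h
  · exact (hn.mem_or_mem h).elim hθ hs
  · exact hrn h

end TAsm

end Fermat.Agent.S36
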