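import Fermat.Agent.S36.CuspRho2
import Fermat.Agent.S36.CuspP
import Fermat.Agent.S36.CuspUnitC
import Fermat.Agent.S36.CuspRel
import Fermat.Agent.S36.T2Cusp
import Fermat.Agent.S36.DCentre3
import Fermat.Agent.S36.BC
import Fermat.Agent.S36.NormCore

/-!
# S36 : (T2) at the cusps of the middle component (glue of [C0]-[C3], [C5])
-/

set_option autoImplicit false
set_option linter.unusedSectionVars false
set_option linter.unusedVariables false
set_option linter.style.haveILetI false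
set_option synthInstance.maxHeartbeats 400000

noncomputable section

namespace Fermat.Agent.S36.CuspGlue

open ModularCurve AlgebraicCurve Polynomial IsDedekindDomain IntermediateField
open Fermat.Agent.S24 Fermat.Agent.ES Fermat.Agent.ES.QE Fermat.Agent.ES.Model Fermat.Agent.S34
  Fermat.Agent.S35 Fermat.Agent.S34.QNode
open Fermat.Agent.ES.IDvr Fermat.Agent.ES.Inst Fermat.Agent.S28

section Gen

variable {R K k : Type*} [CommRing R] [IsDomain R] [IsNoetherianRing R] [IsIntegrallyClosed R]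
  [Field K] [Algebra R K] [IsFractionRing R K] [Field k]
  {R' K' : Type*} [CommRing R'] [IsDomain R'] [IsNoetherianRing R'] [IsIntegrallyClosed R']
  [Field K'] [Algebra R' K'] [IsFractionRing R' K']
  {D : QData R K k} {D' : QData R' K' k} {iR : R →+* R'} {i : K →+* K'}
  {q : ℕ} [NeZero q] {T : Two D q} {ζ : K'ˣ} (H : Three T i ζ)

/-- a coordinate is a unit of the Gauss ring of the middle component. -/
theorem coord_inv_mem (B : BCData D D' iR i) (Y : D.Coord) :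
    (H.al (T.al Y.x))⁻¹ ∈ H.OC D' := by
  show H.eC (H.al (T.al Y.x))⁻¹ ∈ D'.LamRing
  rw [map_inv₀, H.eC_al]
  have h1 : T.e1 (T.al Y.x) = D.inc Y.xW := rfl
  rw [h1, ← map_inv₀]
  exact B.bc_mem (NormCore.inv_mem_LamRing (QData.inc_mem_LamRing _) (by
    rw [QData.rho_inc]
    exact red_xW_ne_zero Y))

theorem jx_inv_mem (B : BCData D D' iR i) : H.jx⁻¹ ∈ H.OC D' := by
  have := coord_inv_mem H B D.coordJ
  rwa [QData.coordJ_x] at this

theorem isUnit_of_res [IsDiscreteValuationRing R] (r : R) (hr : D.res r ≠ 0) : IsUnit r := by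
  have hp : (RingHom.ker D.res).IsPrime := RingHom.ker_isPrime _
  have hne : RingHom.ker D.res ≠ ⊥ := by
    rw [D.ker_res, Ne, Ideal.span_singleton_eq_bot]
    exact D.ϖ_ne
  have hmax := hp.isMaximal hne
  have := IsLocalRing.eq_maximalIdeal hmax
  rw [← IsLocalRing.notMem_maximalIdeal, ← this, RingHom.mem_ker]
  exact hr

/-- **(T2) at the cusps of the middle component** (`hcusp` of `T2Inst.t2_all`). -/
theorem t2_cusp_gen [IsDiscreteValuationRing R] [CharZero K] (hq : q.Prime)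
    (X : D.Coord) (B : BCData D D' iR i) {nA nB : H.F →* T.F}
    (L : Lvl1 q T.O1 T.O2 T.ϖF H.OA (H.OC D') H.OB H.ϖF H.tC H.al H.be nA nB)
    [CharP k q] (hxq : qExpand k q (D.red X.xW) = D.red X.xW ^ q)
    (θ θ' : T.chart X) (hθ : (θ : T.F) * T.x X = T.be X.x ^ q)
    (hθ' : (θ' : T.F) * T.be X.x = T.x X ^ q)
    (hbe1 : ∀ c ∈ X.chart, T.be c ∈ T.chart X) (hbe2 : ∀ b ∈ T.chart X, H.be b ∈ H.chart X)
    (hϖ : D.ϖ = (q : R)) {m : ℕ}
    (hB : IsChartS (H.OA ⊓ H.OC D' ⊓ H.OB) H.ϖF m (H.chart X))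
    (memF : ∀ b : H.chart X, b ∈ H.pA X ↔ DivS H.OA H.ϖF 1 (b : H.F))
    (memM : ∀ b : H.chart X, b ∈ H.pC X D' ↔ DivS (H.OC D') H.tC 1 (b : H.F))
    (memV : ∀ b : H.chart X, b ∈ H.pB X ↔ DivS H.OB H.ϖF 1 (b : H.F))
    (hram : IsU (H.OC D') (H.ϖF / H.tC ^ (q - 1)))
    (hK : HDivDesc.IsAway D) {Kc E : Type*} [Field Kc] [Field E] [Algebra Kc E] (ι : H.F →+* E)
    (hplace : ∀ (Q : Ideal (H.away X)) [Q.IsPrime], Q ≠ ⊥ → ∃ W : Place Kc E,
      (∀ (n : ℕ) (b : H.away X), b ∈ Q ^ n → b ≠ 0 → (n : ℤ) ≤ W.ord (ι (b : H.F))) ∧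
      ∀ b : H.away X, b ∉ Q → W.ord (ι (b : H.F)) = 0)
    (hC0 : ∀ W : Place Kc E, W.ord (ι H.jx) < 0 → W.ord (ι H.jz) = W.ord (ι H.jx) →
      0 < W.ord (∑ i ∈ Finset.range q, (ι H.jz / ι H.jx) ^ i))
    (hrel : CuspRel X) :
    ∀ n : Ideal (H.chart X), n.IsMaximal → H.pC X D' ≤ n → ¬ H.pA X ≤ n →
      ¬ H.pB X ≤ n → (⟨H.x X, X.x_mem_chart⟩ : H.chart X) ∈ n →
      ∃ x ∈ H.pC X D', ∃ s, s ∉ n ∧ ∃ c,
        s * (⟨H.ϖF, hB.unif_mem⟩ : H.chart X) = c * x ^ (q - 1) := by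
  intro n hn hM hF hV hxn
  haveI := hn.isPrime
  have hn1 : (1 : H.chart X) ∉ n := fun h => hn.ne_top ((Ideal.eq_top_iff_one n).2 h)
  obtain ⟨a, ha, P, hP0, hrelP⟩ := hrel
  obtain ⟨r', hr⟩ : ∃ r', P.coeff 0 * r' = 1 := by
    have := isUnit_of_res (D := D) (P.eval 0) hP0
    rw [← Polynomial.coeff_zero_eq_eval_zero] at this
    obtain ⟨u, hu⟩ := this
    exact ⟨↑u⁻¹, by rw [← hu]; exact u.mul_inv⟩
  obtain ⟨s, b, hs, hb, hsb⟩ := cusp_unit H X L hq hxq θ θ' hθ hθ' hbe1 hbe2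
    (H.root_chart X q hq.pos) memM n hM hxn a P r' hr hrelP
  -- the relation `j x ^ a = P(x)`
  have hrel0 : D.jF * X.x ^ a = X.phiF P := by
    apply Subtype.ext
    have h1 := congrArg D.inc hrelP
    rw [map_mul, map_pow] at h1
    have h2 : D.inc (jqModC R) = jqModC K := coeffMap_jqModC _
    rw [h2] at h1
    exact h1
  have hP : X.phiF P = X.phiF (C (P.coeff 0)) + X.x * X.phiF (divX P) := by
    conv_lhs => rw [← divX_mul_X_add P]
    rw [map_add, map_mul, X.phiF_X]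
    ring
  set φA : D.F0 →+* H.F := H.al.comp T.al with hφA
  have hmemA : ∀ c ∈ X.chart, φA c ∈ H.chart X := fun c hc => hc
  let xB' : H.chart X := ⟨H.x X, X.x_mem_chart⟩
  let p0 : H.chart X := ⟨φA (X.phiF (C (P.coeff 0))), hmemA _ (X.phiF_mem_chart _)⟩
  let p0' : H.chart X := ⟨φA (X.phiF (C r')), hmemA _ (X.phiF_mem_chart _)⟩
  let ux : H.chart X := ⟨φA (X.phiF (divX P)), hmemA _ (X.phiF_mem_chart _)⟩
  have hp0 : p0 ∉ n := by
    intro h
    apply hn1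
    have h1 : p0 * p0' = 1 := by
      apply Subtype.ext
      show φA (X.phiF (C (P.coeff 0))) * φA (X.phiF (C r')) = 1
      rw [← map_mul, ← map_mul, ← C_mul, hr, C_1, map_one, map_one]
    rw [← h1]
    exact n.mul_mem_right _ h
  have hPx : H.jx * ((xB' : H.chart X) : H.F) ^ a = ((p0 + xB' * ux : H.chart X) : H.F) := by
    show φA D.jF * (φA X.x) ^ a = φA (X.phiF (C (P.coeff 0))) + φA X.x * φA (X.phiF (divX P))
    rw [← map_pow, ← map_mul, hrel0, hP, map_add, map_mul]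
  have hPxn : p0 + xB' * ux ∉ n := fun h =>
    hp0 ((Ideal.add_mem_iff_left n (n.mul_mem_right _ hxn)).1 h)
  have hjx0 : H.jx ≠ 0 := by
    intro h
    rw [h, zero_mul] at hPx
    exact hPxn (by rw [show p0 + xB' * ux = 0 from Subtype.ext hPx.symm]; exact n.zero_mem)
  have hx0 : ((xB' : H.chart X) : H.F) ≠ 0 := by
    intro h
    rw [h, zero_pow (by omega), mul_zero] at hPx
    exact hPxn (by rw [show p0 + xB' * ux = 0 from Subtype.ext hPx.symm]; exact n.zero_mem)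
  have hxM : ((xB' : H.chart X) : H.F)⁻¹ ∈ H.OC D' := coord_inv_mem H B X
  have hρ : H.jz * (s : H.F) = H.jx * b := by
    rw [← hsb]
    field_simp
  have h2 : DivS (H.OC D') H.tC 1 ((b : H.F) - s) := by
    refine ⟨(s : H.F) * H.jx⁻¹, (H.OC D').mul_mem (hB.le _ s.2).1.2 (jx_inv_mem H B), ?_⟩
    rw [← hsb, pow_one, Three.tC]
    field_simp
  have hϖq : H.ϖF = (q : H.F) := by
    rw [Three.ϖF, hϖ, map_natCast, map_natCast]
  letI := H.algBD X
  haveI := H.tower_away X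
  haveI := H.isDedekindDomain_away X hK
  haveI := H.isFractionRing_away X hK
  haveI : IsLocalization.Away (⟨H.ϖF, hB.unif_mem⟩ : H.chart X) (H.away X) :=
    H.isLocalization_away X
  obtain ⟨Pp, hPp, hPn, hϖP, h3⟩ := CuspP.exists_P (D := H.away X) (Kb := Kc)
    (E := E) H.ϖF_ne_zero hB memF memV n hF hV xB' hxn hx0 hxM ι
    (fun Q => by
      haveI := Q.isPrime
      obtain ⟨W, h3, h4⟩ := hplace Q.asIdeal Q.ne_bot
      refine ⟨W, fun d hd hd0 => ?_, fun d hd => h4 d hd⟩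
      have := h3 1 d (by rwa [pow_one]) hd0
      exact lt_of_lt_of_le zero_lt_one (by exact_mod_cast this))
    a (by omega) (p0 + xB' * ux) hPxn H.jx H.jz hPx s b hs hb hρ q
    hC0
  exact TAsm.t2_cusp_abs H.ϖF_ne_zero hB memF memM memV hram hq hϖq n hn.isPrime hM hF hV s b hs hb
    h2 Pp hPn hϖP h3

end Gen

section Main

variable {M0 q : ℕ} [NeZero M0] [Fact q.Prime] {A : ValuationSubring Kb}
  {K0 : IntermediateField ℚ Kb} [IsDiscreteValuationRing (R0 K0 A)]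
  {D : QData (R0 K0 A) K0 (kA A)} {T : Two D q}
  {R' K' : Type*} [CommRing R'] [IsDomain R'] [IsNoetherianRing R'] [IsIntegrallyClosed R']
  [Field K'] [Algebra R' K'] [IsFractionRing R' K'] {D' : QData R' K' (kA A)}
  {iR : R0 K0 A →+* R'} {i : K0 →+* K'} {ζ : K'ˣ}

/-- **(T2) at the cusps of the middle component** (`hcusp` of `T2Inst.t2_all`). -/
theorem t2_cusp (H : Three T i ζ) (hH : H.F = F0 K0 (M0 * q * q)) (hT : T.F = F0 K0 (M0 * q))
    (X : D.Coord) (B : BCData D D' iR i) {nA nB : H.F →* T.F}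
    (L : Lvl1 q T.O1 T.O2 T.ϖF H.OA (H.OC D') H.OB H.ϖF H.tC H.al H.be nA nB)
    [CharP (kA A) q] (hxq : qExpand (kA A) q (D.red X.xW) = D.red X.xW ^ q)
    (θ θ' : T.chart X) (hθ : (θ : T.F) * T.x X = T.be X.x ^ q)
    (hθ' : (θ' : T.F) * T.be X.x = T.x X ^ q)
    (hbe1 : ∀ c ∈ X.chart, T.be c ∈ T.chart X) (hbe2 : ∀ b ∈ T.chart X, H.be b ∈ H.chart X)
    (hϖ : D.ϖ = (q : R0 K0 A)) {m : ℕ}
    (hB : IsChartS (H.OA ⊓ H.OC D' ⊓ H.OB) H.ϖF m (H.chart X))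
    (memF : ∀ b : H.chart X, b ∈ H.pA X ↔ DivS H.OA H.ϖF 1 (b : H.F))
    (memM : ∀ b : H.chart X, b ∈ H.pC X D' ↔ DivS (H.OC D') H.tC 1 (b : H.F))
    (memV : ∀ b : H.chart X, b ∈ H.pB X ↔ DivS H.OB H.ϖF 1 (b : H.F))
    (hram : IsU (H.OC D') (H.ϖF / H.tC ^ (q - 1)))
    (htr : Transcendental Kb (iotaH H hH (H.x X)))
    [FiniteDimensional Kb⟮iotaH H hH (H.x X)⟯ (FF (M0 * q * q))]
    (hrel : CuspRel X) :
    ∀ n : Ideal (H.chart X), n.IsMaximal → H.pC X D' ≤ n → ¬ H.pA X ≤ n →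
      ¬ H.pB X ≤ n → (⟨H.x X, X.x_mem_chart⟩ : H.chart X) ∈ n →
      ∃ x ∈ H.pC X D', ∃ s, s ∉ n ∧ ∃ c,
        s * (⟨H.ϖF, hB.unif_mem⟩ : H.chart X) = c * x ^ (q - 1) :=
  t2_cusp_gen H Fact.out X B L hxq θ θ' hθ hθ' hbe1 hbe2 hϖ hB memF memM memV hram
    (InstDesc.isAway_of_dvr D) (Kc := Kb) (iotaH H hH)
    (fun Q _ hQ => by
      obtain ⟨W, -, -, h3, h4⟩ := DCentre.exists_place_away3 (M0 * q * q) H X (iotaH H hH)
        (fun _ => rfl) htr Q hQ
      exact ⟨W, h3, h4⟩)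
    (fun W => hC0_iotaH H hH hT W) hrel

end Main

end Fermat.Agent.S36.CuspGlue
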