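import Fermat.Agent.ES.CuspJ

/-!
# S36 : at a cusp where `j(q² τ)` and `j(τ)` have the same order, `j(q² τ) / j(τ)` is a primitive
`q`-th root of unity
-/

set_option autoImplicit false

namespace Fermat.Agent.S36.CuspRho

open UpperHalfPlane ModularForm CongruenceSubgroup ModularCurve AlgebraicCurve Filter Topology
open Fermat.Agent.S24 Fermat.Agent.S21 Fermat.Agent.ES Fermat.Agent.S23.Prim Fermat.Agent.S28
open Fermat.Agent.ES.CuspOrd
open Matrix.SpecialLinearGroup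
open scoped MatrixGroups Manifold

/-! ### leading coefficients of power series -/

/-- `P = Xⁿ (α + ⋯)` -/
def LC (n : ℕ) (P : PowerSeries ℂ) (α : ℂ) : Prop :=
  ∃ U : PowerSeries ℂ, P = PowerSeries.X ^ n * U ∧ PowerSeries.constantCoeff U = α

lemma LC.of_coeff {n : ℕ} {P : PowerSeries ℂ} {α : ℂ} (h1 : ∀ i < n, P.coeff i = 0)
    (h2 : P.coeff n = α) : LC n P α := by
  obtain ⟨U, hU⟩ := PowerSeries.X_pow_dvd_iff.2 h1
  refine ⟨U, hU, ?_⟩
  rw [← h2, hU, ← PowerSeries.coeff_zero_eq_constantCoeff_apply]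
  have := PowerSeries.coeff_X_pow_mul U n 0
  rw [zero_add] at this
  exact this.symm

lemma LC.coeff_lt {n : ℕ} {P : PowerSeries ℂ} {α : ℂ} (h : LC n P α) (i : ℕ) (hi : i < n) :
    P.coeff i = 0 := by
  obtain ⟨U, hU, -⟩ := h
  exact PowerSeries.X_pow_dvd_iff.1 ⟨U, hU⟩ i hi

lemma LC.coeff_eq {n : ℕ} {P : PowerSeries ℂ} {α : ℂ} (h : LC n P α) : P.coeff n = α := by
  obtain ⟨U, hU, hα⟩ := h
  rw [← hα, hU, ← PowerSeries.coeff_zero_eq_constantCoeff_apply]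
  have := PowerSeries.coeff_X_pow_mul U n 0
  rw [zero_add] at this
  exact this

lemma LC.mul {n m : ℕ} {P Q : PowerSeries ℂ} {α β : ℂ} (h : LC n P α) (h' : LC m Q β) :
    LC (n + m) (P * Q) (α * β) := by
  obtain ⟨U, hU, hα⟩ := h
  obtain ⟨V, hV, hβ⟩ := h'
  refine ⟨U * V, ?_, by rw [map_mul, hα, hβ]⟩
  rw [hU, hV, pow_add]
  ring

lemma LC.one : LC 0 1 1 := ⟨1, by simp, by simp⟩

lemma LC.pow {n : ℕ} {P : PowerSeries ℂ} {α : ℂ} (h : LC n P α) (r : ℕ) :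
    LC (n * r) (P ^ r) (α ^ r) := by
  obtain ⟨U, hU, hα⟩ := h
  refine ⟨U ^ r, ?_, by rw [map_pow, hα]⟩
  rw [hU, mul_pow, pow_mul]

lemma LC.sum {ι : Type*} (s : Finset ι) {n : ℕ} {P : ι → PowerSeries ℂ} {α : ι → ℂ}
    (h : ∀ i ∈ s, LC n (P i) (α i)) : LC n (∑ i ∈ s, P i) (∑ i ∈ s, α i) := by
  apply LC.of_coeff
  · intro i hi
    rw [map_sum]
    exact Finset.sum_eq_zero fun j hj => (h j hj).coeff_lt i hi
  · rw [map_sum]
    exact Finset.sum_congr rfl fun j hj => (h j hj).coeff_eq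

lemma LC.congr {n m : ℕ} {P : PowerSeries ℂ} {α β : ℂ} (h : LC n P α) (hn : n = m) (hα : α = β) :
    LC m P β := by
  subst hn hα
  exact h

section nice

variable (h : ℕ) [NeZero h]

lemma cOrd_eq_of_LC (F : nice h) {n : ℕ} {α : ℂ} (hF : LC n (qHom h F) α) (hα : α ≠ 0) :
    cOrd h F = n :=
  cOrd_eq_of_coeff h F n hF.coeff_lt (by rw [hF.coeff_eq]; exact hα)

lemma lt_cOrd_of_LC (F : nice h) (hF0 : F ≠ 0) {n : ℕ} (hF : LC n (qHom h F) 0) :
    (n : ℤ) < cOrd h F := by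
  obtain ⟨r, hr, hr'⟩ := exists_cOrd_eq h F hF0
  rw [hr']
  obtain ⟨h1, h2⟩ := (analyticOrderAt_cuspFunction_eq_iff h F r).1 hr
  by_contra hlt
  have hle : r ≤ n := by
    have : ¬ ((n : ℤ) < (r : ℤ)) := hlt
    omega
  rcases hle.lt_or_eq with h3 | h3
  · exact h2 (hF.coeff_lt r h3)
  · rw [h3] at h2
    exact h2 hF.coeff_eq

lemma LC_utNice (a b d : ℤ) (ha : 0 < a) (hd : 0 < d) (k : ℕ) (hk : a * h = d * k)
    (F : nice 1) (n : ℕ) (α : ℂ) (hF : LC n (qHom 1 F) α) :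
    LC (k * n) (qHom h (utNice a b d ha hd h ⟨k, hk⟩ F))
      (α * Complex.exp (2 * Real.pi * Complex.I * b / d) ^ n) := by
  have hk0 : 0 < k := by
    rcases Nat.eq_zero_or_pos k with h0 | h0
    · exfalso
      rw [h0] at hk
      have : 0 < a * h := mul_pos ha (by exact_mod_cast Nat.pos_of_ne_zero (NeZero.ne h))
      simp at hk
      rcases hk with h1 | h1
      · omega
      · exact NeZero.ne h h1
    · exact h0
  apply LC.of_coeff
  · intro i hi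
    rw [qHom_utNice_coeff a b d ha hd h k hk F]
    split_ifs with hd'
    · obtain ⟨m, rfl⟩ := hd'
      rw [Nat.mul_div_cancel_left _ hk0, hF.coeff_lt m (lt_of_mul_lt_mul_left hi (Nat.zero_le k))]
      simp
    · rfl
  · rw [qHom_utNice_coeff a b d ha hd h k hk F, if_pos (dvd_mul_right _ _),
      Nat.mul_div_cancel_left _ hk0, hF.coeff_eq]

end nice

/-- `F(e ·) ∣[k] γ = d⁻ᵏ F((a τ + b) / d)`, with the same `(a, b, d)` for all `F`. -/
theorem comp_Dm_slash2 (e : ℕ) [NeZero e] (γ : SL(2, ℤ)) :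
    ∃ (a b d : ℤ) (ha : 0 < a) (hd : 0 < d), a = T23.cg e γ ∧ a * d = e ∧
      (∀ r : ℤ, r ∣ a → r ∣ b → r ∣ d → r ∣ 1) ∧
      ∀ (k : ℤ) (f : ℍ → ℂ), IsMF ⊤ k f → ∀ τ : ℍ, ((fun τ => f (Dm e • τ)) ∣[k] γ) τ
        = ((d : ℂ) ^ k)⁻¹ * f (utZ a b d ha hd • τ) := by
  obtain ⟨δ, a, b, d, ha, hd, had, -, hmat⟩ := exists_decomp e γ
  have haeq := T23.decomp_a_eq e γ δ a b d ha hd hmat
  refine ⟨a, b, d, by exact_mod_cast ha, by exact_mod_cast hd, haeq, had, ?_, fun k f hf τ => ?_⟩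
  · intro r h1 h2 h3
    have h10 := congrArg (fun M : GL (Fin 2) ℝ => (M : Matrix (Fin 2) (Fin 2) ℝ) 1 0) hmat
    have h11 := congrArg (fun M : GL (Fin 2) ℝ => (M : Matrix (Fin 2) (Fin 2) ℝ) 1 1) hmat
    simp [Dm, Matrix.mul_apply, Fin.sum_univ_two] at h10 h11
    have e10 : γ 1 0 = δ 1 0 * a := by exact_mod_cast h10
    have e11 : γ 1 1 = δ 1 0 * b + δ 1 1 * d := by exact_mod_cast h11
    have hγ := Matrix.det_fin_two γ.1
    rw [γ.2] at hγ
    have hγ' : γ 0 0 * γ 1 1 - γ 0 1 * γ 1 0 = 1 := hγ.symm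
    rw [← hγ', e10, e11]
    exact dvd_sub (Dvd.dvd.mul_left (dvd_add (Dvd.dvd.mul_left h2 _) (Dvd.dvd.mul_left h3 _)) _)
      (Dvd.dvd.mul_left (Dvd.dvd.mul_left h1 _) _)
  have he0 : (e : ℂ) ≠ 0 := by exact_mod_cast NeZero.ne e
  have hdC : (d : ℂ) ≠ 0 := by
    have : (d : ℝ) ≠ 0 := hd.ne'
    exact_mod_cast this
  have e1 : (fun τ => f (Dm e • τ)) = (((e : ℂ) ^ (k - 1))⁻¹ • (f ∣[k] Dm e)) := by
    funext τ
    rw [Pi.smul_apply, DegMF.slash_Dm_apply', smul_eq_mul]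
    have := zpow_ne_zero (k - 1) he0
    field_simp
  rw [e1, SL_smul_slash, SL_slash, ← SlashAction.slash_mul]
  have : Dm e * (γ : GL (Fin 2) ℝ) = mapGL ℝ δ * upperTriangularGL a b d (mul_pos ha hd).ne' :=
    hmat
  rw [this, SlashAction.slash_mul]
  have hE : (f ∣[k] mapGL ℝ δ) = f := hf.inv δ trivial
  rw [hE, Pi.smul_apply, slash_ut_apply _ _ (mul_pos ha hd), smul_eq_mul]
  have had' : (((a : ℝ) * (d : ℝ) : ℝ) : ℂ) = e := by exact_mod_cast had
  rw [had', utZ, zpow_neg]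
  have := zpow_ne_zero (k - 1) he0
  have hcast : (((d : ℝ) : ℂ)) = (d : ℂ) := by push_cast; rfl
  rw [hcast]
  field_simp

lemma LC.smul {n : ℕ} {P : PowerSeries ℂ} {α : ℂ} (h : LC n P α) (c : ℂ) :
    LC n (c • P) (c * α) := by
  apply LC.of_coeff
  · intro i hi
    rw [PowerSeries.coeff_smul, h.coeff_lt i hi, smul_zero]
  · rw [PowerSeries.coeff_smul, h.coeff_eq, smul_eq_mul]

lemma merGerm_ord_pow {x : ℂ} {a : MerGerm x} (ha : a ≠ 0) (n : ℕ) : (a ^ n).ord = n * a.ord := by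
  induction n with
  | zero => simp
  | succ n ih =>
    rw [pow_succ, MerGerm.ord_mul (pow_ne_zero n ha) ha, ih]
    push_cast
    ring

lemma sum_div_pow {F : Type*} [Field F] (x y : F) (hy : y ≠ 0) (q : ℕ) :
    ∑ i ∈ Finset.range q, (x / y) ^ i
      = (∑ i ∈ Finset.range q, x ^ i * y ^ (q - 1 - i)) / y ^ (q - 1) := by
  rw [Finset.sum_div]
  refine Finset.sum_congr rfl fun i hi => ?_
  have hi' : i < q := Finset.mem_range.1 hi
  have : y ^ (q - 1) = y ^ i * y ^ (q - 1 - i) := by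
    rw [← pow_add]
    congr 1
    omega
  rw [this, div_pow, mul_div_mul_right _ _ (pow_ne_zero _ hy)]

variable (N : ℕ) [NeZero N]

/-- the leading term of `F(e τ) ∣ δ` -/
lemma LC_slash (e : ℕ) [NeZero e] (δ : SL(2, ℤ)) (a b d : ℤ) (ha : 0 < a) (hd : 0 < d)
    (hsl : ∀ (k : ℤ) (f : ℍ → ℂ), IsMF ⊤ k f → ∀ τ : ℍ, ((fun τ => f (Dm e • τ)) ∣[k] δ) τ
        = ((d : ℂ) ^ k)⁻¹ * f (utZ a b d ha hd • τ))
    (kk : ℕ) (hk : a * N = d * kk) (k : ℤ) (F : nice 1) (hF : IsMF ⊤ k F.1) (n : ℕ) (α : ℂ)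
    (hFL : LC n (qHom 1 F) α) (A : Hol) (hA1 : A.1 = fun τ => F.1 (Dm e • τ))
    (hA : IsMF (Gamma0 N) k A.1) :
    LC (kk * n) (qHom N (slashNice N k A hA δ))
      (((d : ℂ) ^ k)⁻¹ * (α * Complex.exp (2 * Real.pi * Complex.I * b / d) ^ n)) := by
  have e1 : slashNice N k A hA δ = ((d : ℂ) ^ k)⁻¹ • utNice a b d ha hd N ⟨_, hk⟩ F := by
    apply Subtype.ext
    funext τ
    change (A.1 ∣[k] δ) τ = ((d : ℂ) ^ k)⁻¹ • (utNice a b d ha hd N ⟨_, hk⟩ F : ℍ → ℂ) τ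
    rw [hA1, hsl k _ hF, utNice_apply, smul_eq_mul]
  rw [e1, map_smul]
  exact (LC_utNice N a b d ha hd kk hk F n α hFL).smul _

lemma cuspEmb_jd (e : ℕ) [NeZero e] (he : e ∣ N) (δ : SL(2, ℤ)) :
    cuspEmb N δ (jd N e he)
      = LocInf.niceGerm N (slashNice N 12 (EeHol e) (isMF_EeHol N e he) δ)
        / LocInf.niceGerm N (slashNice N 12 (DeHol e) (isMF_DeHol N e he) δ) := by
  rw [cuspEmb, RingHom.comp_apply, sigmaCusp_eq_div N 12 (EeHol e) (DeHol e) (isMF_EeHol N e he)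
    (isMF_DeHol N e he) (DeHol_ne_zero e) _ (Psi_jd_mul N e he) δ, map_div₀,
    LocInf.germCusp_toFr, LocInf.germCusp_toFr]

lemma geom_ne_zero (e : ℕ) [NeZero e] (he : e ∣ N) (he1 : e ≠ 1) (q : ℕ) (hq : q ≠ 0) :
    ∑ i ∈ Finset.range q, (jd N e he / jF N) ^ i ≠ 0 := by
  intro h0
  have hN0 : (N : ℤ) ≠ 0 := by exact_mod_cast NeZero.ne N
  have he0 : (e : ℤ) ≠ 0 := by exact_mod_cast NeZero.ne e
  have o1 := ord_cuspEmb_jd N e he 1
  have o2 := ord_cuspEmb_jF N 1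
  have hcg : T23.cg e 1 = e := by simp [T23.cg]
  rw [hcg] at o1
  have hj0 : cuspEmb N 1 (jF N) ≠ 0 := by
    intro h
    rw [h, MerGerm.ord_zero] at o2
    exact hN0 (by linarith)
  have hz0 : cuspEmb N 1 (jd N e he) ≠ 0 := by
    intro h
    rw [h, MerGerm.ord_zero, zero_mul] at o1
    have : (N : ℤ) * (e : ℤ) ^ 2 = 0 := by linarith
    exact mul_ne_zero hN0 (pow_ne_zero 2 he0) this
  have hj0' : jF N ≠ 0 := fun h => hj0 (by rw [h, map_zero])
  have h1 := mul_geom_sum (jd N e he / jF N) q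
  rw [h0, mul_zero] at h1
  have h2 : jd N e he ^ q = jF N ^ q := by
    have : (jd N e he / jF N) ^ q = 1 := by linear_combination -h1
    rw [div_pow, div_eq_one_iff_eq (pow_ne_zero q hj0')] at this
    exact this
  have h3 := congrArg (fun x => (cuspEmb N 1 x).ord) h2
  simp only [map_pow] at h3
  rw [merGerm_ord_pow hz0, merGerm_ord_pow hj0, o2] at h3
  have hq0 : (q : ℤ) ≠ 0 := by exact_mod_cast hq
  have h4 := mul_left_cancel₀ hq0 h3
  rw [h4] at o1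
  have h5 : (N : ℤ) * (e : ℤ) * 1 = N * e * e := by linarith
  have h6 := mul_left_cancel₀ (mul_ne_zero hN0 he0) h5
  exact he1 (by exact_mod_cast h6.symm)

/-- **[C0]** at a place above `j = ∞` where `j(q² τ)` and `j(τ)` have the same order,
`Φ_q(j(q² τ) / j(τ))` vanishes. -/
theorem ord_geom_pos (q : ℕ) (hq : q.Prime) [NeZero (q * q)] (he : q * q ∣ N)
    (W : Place Kb (FF N)) (hW : W.ord (jF N) < 0)
    (h : W.ord (jd N (q * q) he) = W.ord (jF N)) :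
    0 < W.ord (∑ i ∈ Finset.range q, (jd N (q * q) he / jF N) ^ i) := by
  classical
  obtain ⟨δ, m, hm, hord⟩ := exists_cusp N W hW
  have hj0 : jF N ≠ 0 := by
    rintro h0
    rw [h0, Place.ord_zero] at hW
    exact lt_irrefl _ hW
  have hjz0 : jd N (q * q) he ≠ 0 := by
    rintro h0
    rw [h0, Place.ord_zero] at h
    rw [← h] at hW
    exact lt_irrefl _ hW
  have hN0 : (N : ℤ) ≠ 0 := by exact_mod_cast NeZero.ne N
  have hq0 : (q : ℤ) ≠ 0 := by exact_mod_cast hq.ne_zero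
  have hcg : T23.cg (q * q) δ = q := by
    have h1 := ord_cuspEmb_jd N (q * q) he δ
    rw [hord _ hjz0, h, ← hord _ hj0, ord_cuspEmb_jF] at h1
    have h2 : (N : ℤ) * ((T23.cg (q * q) δ : ℤ) ^ 2) = N * ((q : ℤ) ^ 2) := by
      push_cast at h1
      linarith
    have h3 := mul_left_cancel₀ hN0 h2
    have h4 : (T23.cg (q * q) δ) ^ 2 = q ^ 2 := by exact_mod_cast h3
    exact Nat.pow_left_injective (by norm_num) h4
  obtain ⟨a, b, d, ha, hd, haeq, had, hprim, hsl⟩ := comp_Dm_slash2 (q * q) δ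
  obtain ⟨a', b', d', ha', hd', haeq', had', -, hsl'⟩ := comp_Dm_slash2 1 δ
  rw [hcg] at haeq
  have hdq : d = q := by
    rw [haeq] at had
    push_cast at had
    exact mul_left_cancel₀ hq0 had
  rw [cg_one, Nat.cast_one] at haeq'
  have hd1 : d' = 1 := by
    rw [haeq'] at had'
    simpa using had'
  subst haeq hdq haeq' hd1
  have hk : (q : ℤ) * N = q * (N : ℕ) := rfl
  have hk' : (1 : ℤ) * N = 1 * (N : ℕ) := rfl
  have LD : LC 1 (qHom 1 Dn) 1 := LC.of_coeff (fun i hi => by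
    have : i = 0 := by omega
    rw [this, qHom_Dn_coeff_zero]) qHom_Dn_coeff_one
  have LE : LC 0 (qHom 1 (E4n ^ 3)) 1 := LC.of_coeff (fun i hi => absurd hi (by omega)) (by
    rw [map_pow, PowerSeries.coeff_zero_eq_constantCoeff_apply, map_pow,
      ← PowerSeries.coeff_zero_eq_constantCoeff_apply, qHom_E4n_coeff_zero]
    norm_num)
  have L1 := LC_slash N (q * q) δ q b q ha hd hsl N hk 12 (E4n ^ 3) isMF_E4n_cube 0 1 LE
    (EeHol (q * q)) (EeHol_coe (q * q)) (isMF_EeHol N (q * q) he)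
  have L2 := LC_slash N (q * q) δ q b q ha hd hsl N hk 12 Dn isMF_Dn 1 1 LD
    (DeHol (q * q)) (DeHol_coe (q * q)) (isMF_DeHol N (q * q) he)
  have L3 := LC_slash N 1 δ 1 b' 1 ha' hd' hsl' N hk' 12 (E4n ^ 3) isMF_E4n_cube 0 1 LE
    (EeHol 1) (EeHol_coe 1) (isMF_EeHol N 1 (one_dvd _))
  have L4 := LC_slash N 1 δ 1 b' 1 ha' hd' hsl' N hk' 12 Dn isMF_Dn 1 1 LD
    (DeHol 1) (DeHol_coe 1) (isMF_DeHol N 1 (one_dvd _))
  set a1 := slashNice N 12 (EeHol (q * q)) (isMF_EeHol N (q * q) he) δ with ha1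
  set d1 := slashNice N 12 (DeHol (q * q)) (isMF_DeHol N (q * q) he) δ with hd1
  set a0 := slashNice N 12 (EeHol 1) (isMF_EeHol N 1 (one_dvd _)) δ with ha0
  set d0 := slashNice N 12 (DeHol 1) (isMF_DeHol N 1 (one_dvd _)) δ with hd0
  set ω : ℂ := Complex.exp (2 * Real.pi * Complex.I * b / ((q : ℤ) : ℂ)) with hω
  set c : ℂ := ((((q : ℤ) : ℂ)) ^ (12 : ℤ))⁻¹ with hc
  have hqC : (((q : ℤ) : ℂ)) ≠ 0 := by exact_mod_cast hq0
  have hc0 : c ≠ 0 := inv_ne_zero (zpow_ne_zero _ hqC)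
  have hω' : Complex.exp (2 * Real.pi * Complex.I * b' / ((1 : ℤ) : ℂ)) = 1 := by
    rw [Int.cast_one, div_one, mul_comm]
    exact Complex.exp_int_mul_two_pi_mul_I b'
  have hωq : ω ^ q = 1 := by
    rw [hω, ← Complex.exp_nat_mul]
    have : (q : ℂ) * (2 * Real.pi * Complex.I * b / ((q : ℤ) : ℂ)) = b * (2 * Real.pi * Complex.I) := by
      have : ((q : ℤ) : ℂ) = (q : ℂ) := by push_cast; rfl
      rw [this] at hqC ⊢
      field_simp
    rw [this]
    exact Complex.exp_int_mul_two_pi_mul_I b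
  have hω1 : ω ≠ 1 := by
    intro h1
    rw [hω, Complex.exp_eq_one_iff] at h1
    obtain ⟨n, hn⟩ := h1
    have h2 : (b : ℂ) = n * ((q : ℤ) : ℂ) := by
      have hpi : (2 * Real.pi * Complex.I : ℂ) ≠ 0 := Complex.two_pi_I_ne_zero
      field_simp at hn
      rw [hn]
      ring
    have h3 : b = n * q := by exact_mod_cast h2
    have h4 := hprim q dvd_rfl ⟨n, by rw [h3]; ring⟩ dvd_rfl
    have h5 : q ∣ 1 := by exact_mod_cast h4
    exact hq.one_lt.ne' (Nat.dvd_one.1 h5)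
  have LA : LC N (qHom N (a1 * d0)) c := by
    rw [map_mul]
    exact (L1.mul L4).congr (by ring) (by rw [hω']; simp)
  have LB : LC N (qHom N (d1 * a0)) (c * ω) := by
    rw [map_mul]
    exact (L2.mul L3).congr (by ring) (by rw [hω']; simp)
  have hsum0 : ∑ i ∈ Finset.range q, c ^ i * (c * ω) ^ (q - 1 - i) = 0 := by
    have h1 := geom_sum₂_mul c (c * ω) q
    rw [mul_pow, hωq, mul_one, sub_self] at h1
    rcases mul_eq_zero.1 h1 with h2 | h2
    · exact h2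
    · exfalso
      apply hω1
      have : c * (1 - ω) = 0 := by linear_combination h2
      rcases mul_eq_zero.1 this with h3 | h3
      · exact absurd h3 hc0
      · linear_combination -h3
  have Lnum : LC (N * (q - 1))
      (qHom N (∑ i ∈ Finset.range q, (a1 * d0) ^ i * (d1 * a0) ^ (q - 1 - i))) 0 := by
    rw [map_sum]
    refine (LC.sum (Finset.range q) (n := N * (q - 1))
      (α := fun i => c ^ i * (c * ω) ^ (q - 1 - i)) fun i hi => ?_).congr rfl hsum0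
    rw [map_mul, map_pow, map_pow]
    refine ((LA.pow i).mul (LB.pow (q - 1 - i))).congr ?_ rfl
    have hi' : i < q := Finset.mem_range.1 hi
    rw [← mul_add]
    congr 1
    omega
  have Lden : LC (N * (q - 1)) (qHom N ((d1 * a0) ^ (q - 1))) ((c * ω) ^ (q - 1)) := by
    rw [map_pow]
    exact LB.pow (q - 1)
  have hω0 : ω ≠ 0 := Complex.exp_ne_zero _
  have hΦ0 := geom_ne_zero N (q * q) he (by
    intro h1
    have := hq.one_lt
    nlinarith) q hq.ne_zero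
  have hg : ∀ F : nice N, F ≠ 0 → LocInf.niceGerm N F ≠ 0 := fun F hF => by
    rw [Ne, map_eq_zero_iff _ (LocInf.niceGerm_injective N)]
    exact hF
  have hd1' : LocInf.niceGerm N d1 ≠ 0 := hg _ (slashNice_ne_zero N 12 _ _ δ (DeHol_ne_zero _))
  have hd0' : LocInf.niceGerm N d0 ≠ 0 := hg _ (slashNice_ne_zero N 12 _ _ δ (DeHol_ne_zero _))
  have ha0' : LocInf.niceGerm N a0 ≠ 0 := hg _ (slashNice_ne_zero N 12 _ _ δ (EeHol_ne_zero _))
  have key : cuspEmb N δ (∑ i ∈ Finset.range q, (jd N (q * q) he / jF N) ^ i)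
      = LocInf.niceGerm N (∑ i ∈ Finset.range q, (a1 * d0) ^ i * (d1 * a0) ^ (q - 1 - i))
        / LocInf.niceGerm N ((d1 * a0) ^ (q - 1)) := by
    have e1 : cuspEmb N δ (jd N (q * q) he / jF N)
        = LocInf.niceGerm N (a1 * d0) / LocInf.niceGerm N (d1 * a0) := by
      rw [map_div₀, cuspEmb_jd, jF, cuspEmb_jd, map_mul, map_mul, ← ha1, ← hd1, ← ha0, ← hd0]
      field_simp
    simp only [map_sum, map_pow, e1]
    rw [sum_div_pow _ _ (by rw [map_mul]; exact mul_ne_zero hd1' ha0')]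
    simp only [map_mul, map_pow]
  have hG0 : cuspEmb N δ (∑ i ∈ Finset.range q, (jd N (q * q) he / jF N) ^ i) ≠ 0 := by
    rw [Ne, map_eq_zero]
    exact hΦ0
  have hnum0 : (∑ i ∈ Finset.range q, (a1 * d0) ^ i * (d1 * a0) ^ (q - 1 - i)) ≠ 0 := by
    intro h0
    apply hG0
    rw [key, h0, map_zero, zero_div]
  have hden0 : LocInf.niceGerm N ((d1 * a0) ^ (q - 1)) ≠ 0 := by
    rw [map_pow, map_mul]
    exact pow_ne_zero _ (mul_ne_zero hd1' ha0')
  have o1 := lt_cOrd_of_LC N _ hnum0 Lnum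
  have o2 := cOrd_eq_of_LC N _ Lden (pow_ne_zero _ (mul_ne_zero hc0 hω0))
  have o3 := hord _ hΦ0
  rw [key, div_eq_mul_inv, MerGerm.ord_mul (hg _ hnum0) (inv_ne_zero hden0), MerGerm.ord_inv] at o3
  unfold cOrd at o1 o2
  rw [o2] at o3
  have o4 : 0 < m * W.ord (∑ i ∈ Finset.range q, (jd N (q * q) he / jF N) ^ i) := by
    rw [← o3]
    linarith
  exact (mul_pos_iff_of_pos_left hm).1 o4

end Fermat.Agent.S36.CuspRho
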