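import Fermat.Agent.S36.CuspTh
import Fermat.Agent.S35.GU

/-!
# S36, block G : the mirror `θ'` of the `θ` of `XYData`, on the two charts, in the context of
`exists_full_layer`
-/

set_option autoImplicit false
set_option linter.unusedVariables false

noncomputable section

namespace Fermat.Agent.S36

open ModularCurve AlgebraicCurve Polynomial IntermediateField
open Fermat.Agent.S24 Fermat.Agent.S28 Fermat.Agent.ES Fermat.Agent.ES.QE Fermat.Agent.ES.Model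
  Fermat.Agent.ES.IDvr Fermat.Agent.ES.Inst Fermat.Agent.S37.Rat Fermat.Agent.S34
  Fermat.Agent.S35
open Fermat.Agent.ES.Inst.InstFinal Fermat.Agent.ES.Inst.InstCoord
open Fermat.Agent.S34.UAux

variable {K0 : IntermediateField ℚ Kb} {A : ValuationSubring Kb}
  [IsDiscreteValuationRing (R0 K0 A)] {D : QData (R0 K0 A) K0 (kA A)} {q : ℕ} [Fact q.Prime]

set_option maxHeartbeats 2000000 in
/-- `θ'` on the two charts. -/
theorem theta'_both (M0 : ℕ) [NeZero M0] (hqM : ¬ q ∣ M0) (hA : A.LiesOverPrime q)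
    (Z : ZCoord M0 q) (hW : WGood M0 q Z.xF)
    (T : Two D q) (hT : T.F = F0 K0 (M0 * q)) (X : D.Coord)
    (y : LaurentSeries (R0 K0 A)) (hxy : X.xW * y = 1)
    (hX : bc K0 (X.x : LaurentSeries K0) = (Z.xF : LaurentSeries Kb)) :
    (∃ θ' : T.chart X, (θ' : T.F) * T.be X.x = T.x X ^ q) ∧
      ∃ θ' : T.chart (X.inv y hxy),
        (θ' : T.F) * T.be (X.inv y hxy).x = T.x (X.inv y hxy) ^ q := by
  have hq : q.Prime := Fact.out
  have hmemN : zS Kb Z.xZ ∈ modularFunctionFieldBar (M0 * q) := by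
    have h := (heckeAlphaBar Kb M0 q Z.xF).2
    rwa [coe_heckeAlphaBar] at h
  obtain ⟨ZN, hZN⟩ : ∃ ZN : ZCoord (M0 * q) q, ZN.xF = heckeAlphaBar Kb M0 q Z.xF :=
    ⟨{ Z with mem := hmemN }, Subtype.ext (coe_heckeAlphaBar M0 q Z.xF).symm⟩
  have hxt := transcendental_xF ZN
  have hxt' : Transcendental Kb ZN.xF⁻¹ := FF.transcendental_inv hxt
  have hfd := finiteDimensional_xF ZN
  have hfd' := finiteDimensional_xF_inv ZN
  have hαx : heckeAlphaBar Kb M0 q Z.xF = ZN.xF := hZN.symm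
  have hαx' : heckeAlphaBar Kb M0 q Z.xF⁻¹ = ZN.xF⁻¹ := by rw [map_inv₀, hαx]
  have hX' : bc K0 ((X.inv y hxy).x : LaurentSeries K0) = ((Z.xF⁻¹ : FF M0) : LaurentSeries Kb) := by
    rw [X.inv_x y hxy]
    have : ((X.x⁻¹ : D.F0) : LaurentSeries K0) = (X.x : LaurentSeries K0)⁻¹ := rfl
    rw [this, map_inv₀, hX]
    rfl
  have hyx : (X.inv y hxy).xW * X.xW = 1 := by
    rw [mul_comm]
    exact hxy
  haveI h1 : FiniteDimensional Kb⟮heckeAlphaBar Kb M0 q Z.xF⟯ (FF (M0 * q)) := by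
    rw [hαx]; exact hfd
  haveI h2 : FiniteDimensional Kb⟮heckeAlphaBar Kb M0 q Z.xF⁻¹⟯ (FF (M0 * q)) := by
    rw [hαx']; exact hfd'
  refine ⟨exists_theta' hq hA D T hT (WK.Wb M0 q hqM) (WK.Wb_alpha M0 q hqM)
    (WK.Wb_beta M0 q hqM) X y hxy Z.xF hX (by rw [hαx]; exact hxt) hW.pos, ?_⟩
  exact exists_theta' hq hA D T hT (WK.Wb M0 q hqM) (WK.Wb_alpha M0 q hqM)
    (WK.Wb_beta M0 q hqM) (X.inv y hxy) X.xW hyx Z.xF⁻¹ hX' (by rw [hαx']; exact hxt') hW.inv.pos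

end Fermat.Agent.S36
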