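import Mathlib

/-!
# S36 [C2](b)(c), pure algebra : `ρ = j_z / j_x` is a unit at a cusp `n` of the middle component
-/

set_option autoImplicit false

namespace Fermat.Agent.S36

/-- `z / x` is a unit at `n`. -/
theorem cusp_ratio_abs {F : Type*} [Field F] (B : Subring F) (q : ℕ) (hq : 0 < q)
    (hroot : ∀ f : F, f ^ q ∈ B → f ∈ B) (n : Ideal B) [n.IsPrime] (x y z : B)
    (hx0 : x ≠ 0) (hy0 : y ≠ 0) (θa θb : B) (h1 : θa * y = x ^ q) (h2 : θb * y = z ^ q)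
    (hθa : θa ∉ n) (hθb : θb ∉ n) : ∃ c : B, c ∉ n ∧ c * x = θa * z := by
  have hx : (x : F) ≠ 0 := fun h => hx0 (Subtype.ext h)
  have hy : (y : F) ≠ 0 := fun h => hy0 (Subtype.ext h)
  have e1 : (θa : F) * y = (x : F) ^ q := congrArg Subtype.val h1
  have e2 : (θb : F) * y = (z : F) ^ q := congrArg Subtype.val h2
  obtain ⟨k, rfl⟩ : ∃ k, q = k + 1 := ⟨q - 1, by omega⟩
  have hc : ((θa : F) * z / x) ^ (k + 1) = ((θa ^ k * θb : B) : F) := by
    rw [div_pow, mul_pow, ← e2, ← e1]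
    push_cast
    have hθ : (θa : F) ≠ 0 := by
      intro h
      rw [h, zero_mul] at e1
      exact pow_ne_zero _ hx e1.symm
    field_simp
    ring
  have hmem : (θa : F) * z / x ∈ B := hroot _ (by rw [hc]; exact Subtype.prop _)
  refine ⟨⟨_, hmem⟩, ?_, ?_⟩
  · intro hn
    have h3 : (⟨_, hmem⟩ : B) ^ (k + 1) ∈ n := Ideal.pow_mem_of_mem n hn _ (Nat.succ_pos k)
    have h4 : (⟨_, hmem⟩ : B) ^ (k + 1) = θa ^ k * θb := Subtype.ext hc
    rw [h4] at h3
    rcases Ideal.IsPrime.mem_or_mem ‹_› h3 with h5 | h5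
    · exact hθa (Ideal.IsPrime.mem_of_pow_mem ‹_› k h5)
    · exact hθb h5
  · apply Subtype.ext
    show (θa : F) * z / x * x = θa * z
    field_simp

/-- **`ρ = j_z / j_x` is a unit at `n`.** -/
theorem cusp_unit_abs {F : Type*} [Field F] (B : Subring F) (q : ℕ) (hq : 0 < q)
    (hroot : ∀ f : F, f ^ q ∈ B → f ∈ B) (n : Ideal B) [n.IsPrime] (x y z : B)
    (hx0 : x ≠ 0) (hy0 : y ≠ 0) (hz0 : z ≠ 0) (jx jz : F) (hjx : jx ≠ 0) (θa θb : B)
    (h1 : θa * y = x ^ q) (h2 : θb * y = z ^ q) (hθa : θa - 1 ∈ n) (hθb : θb - 1 ∈ n)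
    (hxn : x ∈ n) (a : ℕ) (p0 ux uz : B) (hp0 : p0 ∉ n)
    (hPx : jx * (x : F) ^ a = ((p0 + x * ux : B) : F))
    (hPz : jz * (z : F) ^ a = ((p0 + z * uz : B) : F)) :
    ∃ s b : B, s ∉ n ∧ b ∉ n ∧ (s : F) * (jz / jx) = b := by
  have hn1 : (1 : B) ∉ n := fun h => (Ideal.IsPrime.ne_top ‹_›) ((Ideal.eq_top_iff_one n).2 h)
  have hθa' : θa ∉ n := fun h => hn1 (by simpa using n.sub_mem h hθa)
  have hθb' : θb ∉ n := fun h => hn1 (by simpa using n.sub_mem h hθb)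
  have hyn : y ∈ n := by
    have h3 : θa * y ∈ n := by rw [h1]; exact Ideal.pow_mem_of_mem n hxn q hq
    exact (Ideal.IsPrime.mem_or_mem ‹_› h3).resolve_left hθa'
  have hzn : z ∈ n := by
    have h3 : z ^ q ∈ n := by rw [← h2]; exact n.mul_mem_left _ hyn
    exact Ideal.IsPrime.mem_of_pow_mem ‹_› q h3
  have hPxn : p0 + x * ux ∉ n := fun h =>
    hp0 (by simpa using n.sub_mem h (n.mul_mem_right ux hxn))
  have hPzn : p0 + z * uz ∉ n := fun h =>
    hp0 (by simpa using n.sub_mem h (n.mul_mem_right uz hzn))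
  obtain ⟨c, hcn, hc⟩ := cusp_ratio_abs B q hq hroot n x y z hx0 hy0 θa θb h1 h2 hθa' hθb'
  have hx : (x : F) ≠ 0 := fun h => hx0 (Subtype.ext h)
  have hz : (z : F) ≠ 0 := fun h => hz0 (Subtype.ext h)
  have hc' : (c : F) * x = θa * z := congrArg Subtype.val hc
  refine ⟨(p0 + x * ux) * c ^ a, (p0 + z * uz) * θa ^ a, ?_, ?_, ?_⟩
  · intro h
    rcases Ideal.IsPrime.mem_or_mem ‹_› h with h5 | h5
    · exact hPxn h5
    · exact hcn (Ideal.IsPrime.mem_of_pow_mem ‹_› a h5)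
  · intro h
    rcases Ideal.IsPrime.mem_or_mem ‹_› h with h5 | h5
    · exact hPzn h5
    · exact hθa' (Ideal.IsPrime.mem_of_pow_mem ‹_› a h5)
  · have e3 : ((c : F) * x) ^ a = ((θa : F) * z) ^ a := by rw [hc']
    rw [mul_pow, mul_pow] at e3
    rw [Subring.coe_mul, Subring.coe_mul, Subring.coe_pow, Subring.coe_pow, ← hPx, ← hPz]
    have hxa : (x : F) ^ a ≠ 0 := pow_ne_zero _ hx
    have hza : (z : F) ^ a ≠ 0 := pow_ne_zero _ hz
    generalize (x : F) ^ a = X at *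
    generalize (z : F) ^ a = Z at *
    generalize (c : F) ^ a = Cc at *
    generalize (θa : F) ^ a = Th at *
    field_simp
    linear_combination jz * e3

end Fermat.Agent.S36
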