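import Fermat.Agent.S36.CuspUnitC
import Fermat.Agent.ES.QEMod

/-!
# S36 [C2]/[C4] glue : the congruence `b ≡ s` on the middle component
-/

set_option autoImplicit false
set_option linter.unusedSectionVars false
set_option linter.unusedVariables false

noncomputable section

namespace Fermat.Agent.S36

open ModularCurve Polynomial
open Fermat.Agent.ES.QE Fermat.Agent.ES.Model Fermat.Agent.S34 Fermat.Agent.S34.QNode
  Fermat.Agent.S35

variable {R K k : Type*} [CommRing R] [IsDomain R] [IsNoetherianRing R] [IsIntegrallyClosed R]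
  [Field K] [Algebra R K] [IsFractionRing R K] [Field k]
  {D : QData R K k} {q : ℕ} [NeZero q]

/-- `1 / j` lies in the Gauss ring at `∞`. -/
theorem al_jF_inv_mem_O1 (T : Two D q) : (T.al D.jF)⁻¹ ∈ T.O1 := by
  show T.e1 (T.al D.jF)⁻¹ ∈ D.LamRing
  have h1 : T.e1 (T.al D.jF)⁻¹ = D.inc (jInvW R) := by
    rw [map_inv₀]
    have h2 : T.e1 (T.al D.jF) = jqModC K := rfl
    rw [h2]
    have h3 := congrArg D.inc (jqModC_mul_jInvW R)
    rw [map_mul, map_one] at h3
    have h4 : D.inc (jqModC R) = jqModC K := coeffMap_jqModC _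
    rw [h4] at h3
    exact inv_eq_of_mul_eq_one_right h3
  rw [h1]
  exact QData.inc_mem_LamRing (D := D) _

variable {T : Two D q} {K' : Type*} [Field K'] {i : K →+* K'} {ζ : K'ˣ} (H : Three T i ζ)
  {R' : Type*} [CommRing R'] [IsDomain R'] [IsNoetherianRing R'] [IsIntegrallyClosed R']
  [Algebra R' K'] [IsFractionRing R' K'] {D' : QData R' K' k}

/-- `1 / j_x` lies in the Gauss ring of the middle component. -/
theorem jx_inv_mem_OC {nA nB : H.F →* T.F}
    (L : Lvl1 q T.O1 T.O2 T.ϖF H.OA (H.OC D') H.OB H.ϖF H.tC H.al H.be nA nB) :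
    H.jx⁻¹ ∈ H.OC D' := by
  have h1 := (L.al_M _).2 (al_jF_inv_mem_O1 T)
  rw [map_inv₀] at h1
  exact h1

/-- **h2 of [C1]** : `b ≡ s` on the middle component when `s * (j_z / j_x) = b`. -/
theorem cusp_h2 {nA nB : H.F →* T.F}
    (L : Lvl1 q T.O1 T.O2 T.ϖF H.OA (H.OC D') H.OB H.ϖF H.tC H.al H.be nA nB)
    (hjx : H.jx ≠ 0) (s b : H.F) (hs : s ∈ H.OC D') (h : s * (H.jz / H.jx) = b) :
    DivS (H.OC D') H.tC 1 (b - s) := by
  refine ⟨s * H.jx⁻¹, (H.OC D').mul_mem hs (jx_inv_mem_OC H L), ?_⟩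
  rw [← h, Three.tC]
  field_simp

end Fermat.Agent.S36
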