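import Fermat.Agent.ES.UDesc

/-!
# S36 / G-REG : a place over a prime, with its centre

Strengthened copy of `ES.UDesc.exists_place_over`: the place `v` lying over the nonzero prime `Q`
of `B0` has centre exactly `Q` on `B0`.
-/

set_option autoImplicit false
set_option linter.style.haveILetI false
set_option linter.unusedSectionVars false

namespace Fermat.Agent.S36.DCentre

open Polynomial AlgebraicCurve IsDedekindDomain IntermediateField Fermat.Agent.S24

noncomputable section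

section Poly

variable {Kb E : Type*} [Field Kb] [Field E] [Algebra Kb E] [CharZero Kb]
  [Algebra Kb[X] E] [Algebra (RatFunc Kb) E] [IsScalarTower Kb[X] (RatFunc Kb) E]
  [IsScalarTower Kb Kb[X] E] [FiniteDimensional (RatFunc Kb) E]

local notation "𝓑" => FunctionField.ringOfIntegers Kb E

/-- a nonzero prime of a ring under the integral closure of `Kb[X]` is the centre of a place. -/
theorem exists_place_centre_aux {B0 : Type*} [CommRing B0] (ψ : B0 →+* E)
    (hψ : Function.Injective ψ) (hint : ∀ b, IsIntegral Kb[X] (ψ b))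
    (hint' : ∀ e : E, IsIntegral Kb[X] e → ψ.IsIntegralElem e)
    (Q : Ideal B0) [Q.IsPrime] (hQ : Q ≠ ⊥) :
    ∃ v : Place Kb E, (∀ e : E, IsIntegral Kb[X] e → e ∈ v.toValuationSubring) ∧
      (∀ (n : ℕ) (b : B0), b ∈ Q ^ n → b ≠ 0 → (n : ℤ) ≤ v.ord (ψ b)) ∧
      ∀ b : B0, b ∉ Q → v.ord (ψ b) = 0 := by
  let φ : B0 →+* 𝓑 := ψ.codRestrict (integralClosure Kb[X] E).toSubring hint
  have hφ : ∀ b, algebraMap 𝓑 E (φ b) = ψ b := fun b => rfl
  have hφinj : Function.Injective φ := by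
    intro a b h
    exact hψ (by rw [← hφ, ← hφ, h])
  letI : Algebra B0 𝓑 := φ.toAlgebra
  haveI : Algebra.IsIntegral B0 𝓑 := ⟨fun e => by
    obtain ⟨p, hp, hp0⟩ := hint' (algebraMap 𝓑 E e) e.2
    refine ⟨p, hp, ?_⟩
    apply FaithfulSMul.algebraMap_injective 𝓑 E
    rw [map_zero, ← hp0, hom_eval₂]
    rfl⟩
  obtain ⟨Q', -, hQ'p, hQ'⟩ := Ideal.exists_ideal_over_prime_of_isIntegral Q (⊥ : Ideal 𝓑) (by
    intro b hb
    have : φ b = 0 := hb
    rw [hφinj (this.trans (map_zero φ).symm)]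
    exact Q.zero_mem)
  have hQ'bot : Q' ≠ ⊥ := by
    rintro rfl
    apply hQ
    rw [← hQ', eq_bot_iff]
    intro b hb
    have : φ b = 0 := hb
    rw [hφinj (this.trans (map_zero φ).symm)]
    exact Ideal.zero_mem _
  let w : HeightOneSpectrum 𝓑 := ⟨Q', hQ'p, hQ'bot⟩
  refine ⟨Place.ofHeightOneSpectrum (K := Kb) (F := E) w, ?_, ?_, ?_⟩
  · intro e he
    exact w.valuation_le_one (⟨e, he⟩ : 𝓑)
  · intro n b hb hb0
    have h1 : φ b ∈ Q' ^ n := by
      have h2 : (Q.map φ) ^ n ≤ Q' ^ n :=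
        Ideal.pow_right_mono (Ideal.map_le_iff_le_comap.2 hQ'.ge) n
      apply h2
      rw [← Ideal.map_pow]
      exact Ideal.mem_map_of_mem φ hb
    rw [FF.ord_ofHeightOneSpectrum, ← hφ, HeightOneSpectrum.valuation_of_algebraMap]
    have h3 : w.intValuation (φ b) ≤ WithZero.exp (-(n : ℤ)) :=
      (w.intValuation_le_pow_iff_mem _ _).2 h1
    have h4 : w.intValuation (φ b) ≠ 0 :=
      w.intValuation_ne_zero _ fun h => hb0 (hφinj (h.trans (map_zero φ).symm))
    have h5 := (WithZero.log_le_log h4 WithZero.exp_ne_zero).2 h3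
    rw [WithZero.log_exp] at h5
    omega
  · intro b hb
    have h1 : φ b ∉ Q' := by
      intro h
      apply hb
      rw [← hQ']
      exact h
    rw [FF.ord_ofHeightOneSpectrum, ← hφ, HeightOneSpectrum.valuation_of_algebraMap]
    have h2 : w.intValuation (φ b) = 1 := by
      by_contra h
      exact h1 ((w.intValuation_lt_one_iff_mem _).1 (lt_of_le_of_ne (w.intValuation_le_one _) h))
    rw [h2]
    simp

end Poly

section Adjoin

variable {Kb E : Type*} [Field Kb] [Field E] [Algebra Kb E] [CharZero Kb]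

/-- a nonzero prime `Q` of a ring `B0 ⊆ E`, integral over `Kb[y]` and over which the integral
closure of `Kb[y]` is integral, is the centre on `B0` of a place of `E / Kb` at which `y` is
finite. -/
theorem exists_place_centre (y : E) (hy : Transcendental Kb y) [FiniteDimensional Kb⟮y⟯ E]
    {B0 : Type*} [CommRing B0] (ψ : B0 →+* E) (hψ : Function.Injective ψ)
    (hint : ∀ b, ((aeval y : Kb[X] →ₐ[Kb] E) : Kb[X] →+* E).IsIntegralElem (ψ b))
    (hint' : ∀ e : E, ((aeval y : Kb[X] →ₐ[Kb] E) : Kb[X] →+* E).IsIntegralElem e →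
      ψ.IsIntegralElem e)
    (Q : Ideal B0) [Q.IsPrime] (hQ : Q ≠ ⊥) :
    ∃ v : Place Kb E, y ∈ v.toValuationSubring ∧
      (∀ e : E, ((aeval y : Kb[X] →ₐ[Kb] E) : Kb[X] →+* E).IsIntegralElem e →
        e ∈ v.toValuationSubring) ∧
      (∀ (n : ℕ) (b : B0), b ∈ Q ^ n → b ≠ 0 → (n : ℤ) ≤ v.ord (ψ b)) ∧
      ∀ b : B0, b ∉ Q → v.ord (ψ b) = 0 := by
  letI a1 : Algebra Kb[X] E := (aeval y : Kb[X] →ₐ[Kb] E).toRingHom.toAlgebra
  let i : RatFunc Kb ≃+* Kb⟮y⟯ := (RatFunc.algEquivOfTranscendental y hy).toRingEquiv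
  letI a2 : Algebra (RatFunc Kb) E := ((algebraMap Kb⟮y⟯ E).comp i.toRingHom).toAlgebra
  haveI t1 : IsScalarTower Kb[X] (RatFunc Kb) E := IsScalarTower.of_algebraMap_eq fun P => by
    show aeval y P = ((RatFunc.algEquivOfTranscendental y hy (algebraMap _ _ P) : Kb⟮y⟯) : E)
    rw [RatFunc.algEquivOfTranscendental_algebraMap]
    have := aeval_algebraMap_apply E (AdjoinSimple.gen Kb y) P
    rw [AdjoinSimple.algebraMap_gen] at this
    exact this
  haveI t2 : IsScalarTower Kb Kb[X] E := IsScalarTower.of_algebraMap_eq fun a => by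
    show algebraMap Kb E a = aeval y (C a)
    simp
  haveI fd : FiniteDimensional (RatFunc Kb) E :=
    Module.Finite.of_equiv_equiv i.symm (RingEquiv.refl E) (by
      ext x
      show algebraMap Kb⟮y⟯ E (i (i.symm x)) = algebraMap Kb⟮y⟯ E x
      rw [RingEquiv.apply_symm_apply])
  obtain ⟨v, hv1, hv2, hv3⟩ :=
    exists_place_centre_aux (Kb := Kb) (E := E) ψ hψ hint hint' Q hQ
  refine ⟨v, hv1 y ?_, hv1, hv2, hv3⟩
  have : y = algebraMap Kb[X] E X := by
    show y = aeval y X
    simp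
  rw [this]
  exact isIntegral_algebraMap

end Adjoin

end

end Fermat.Agent.S36.DCentre
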