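import Fermat.Agent.S36.DCentre
import Fermat.Agent.S34.UHdiv
import Fermat.Agent.S34.LP
import Fermat.Agent.ES.InstDesc
import Fermat.Agent.ES.InstUp

/-!
# S36 / G-REG : places of `FF N` over the primes of the generic fibre `T.away X`

* `exists_place_away` : every nonzero prime `Q` of `T.away X` is the centre of a place `W` of
  `FF N / ℚ̄` at which `x` is finite.
-/

set_option autoImplicit false
set_option linter.style.haveILetI false
set_option linter.unusedSectionVars false

noncomputable section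

namespace Fermat.Agent.S36.DCentre

open ModularCurve AlgebraicCurve Polynomial IntermediateField IsDedekindDomain
open Fermat.Agent.S24 Fermat.Agent.S28 Fermat.Agent.ES Fermat.Agent.ES.QE Fermat.Agent.ES.IDvr
  Fermat.Agent.ES.Inst Fermat.Agent.S34

variable {K0 : IntermediateField ℚ Kb} {A : ValuationSubring Kb}
  [IsDiscreteValuationRing (R0 K0 A)] {D : QData (R0 K0 A) K0 (kA A)} {q : ℕ} [NeZero q]

theorem exists_place_away (N : ℕ) (T : Two D q) (X : D.Coord) (ι : T.F →+* FF N)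
    (hι : ∀ f : T.F, ((ι f : FF N) : LaurentSeries Kb) = bc K0 (f : LaurentSeries K0))
    (htr : Transcendental Kb (ι (T.x X))) [FiniteDimensional Kb⟮ι (T.x X)⟯ (FF N)]
    (Q : Ideal (T.away X)) [Q.IsPrime] (hQ : Q ≠ ⊥) :
    ∃ W : Place Kb (FF N), 0 ≤ W.ord (ι (T.x X)) ∧
      (∀ b : T.away X, 0 ≤ W.ord (ι (b : T.F))) ∧
      (∀ (n : ℕ) (b : T.away X), b ∈ Q ^ n → b ≠ 0 → (n : ℤ) ≤ W.ord (ι (b : T.F))) ∧
      ∀ b : T.away X, b ∉ Q → W.ord (ι (b : T.F)) = 0 := by
  have hK := InstDesc.isAway_of_dvr D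
  let y : FF N := ι (T.x X)
  let α : Kb[X] →+* FF N := ((aeval y : Kb[X] →ₐ[Kb] FF N) : Kb[X] →+* FF N)
  let κ : K0 →+* Kb := algebraMap K0 Kb
  have halg : Algebra.IsAlgebraic ℚ Kb := AlgebraicClosure.isAlgebraic ℚ
  have : Algebra.IsAlgebraic K0 Kb := Algebra.IsAlgebraic.tower_top (K := ℚ) K0
  have hκ : ∀ c : Kb, κ.IsIntegralElem c := fun c =>
    (Algebra.IsIntegral.isIntegral (R := K0) c)
  let ψ : T.away X →+* FF N := ι.comp (T.away X).subtype
  have hψ : Function.Injective ψ := ι.injective.comp Subtype.val_injective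
  have hcst : ∀ a : K0, ι (algebraMap K0 T.F a) = algebraMap Kb (FF N) (κ a) := fun a =>
    Subtype.ext ((hι _).trans (InstUp.bc_algebraMap K0 a))
  have hcomp : α.comp (mapRingHom κ) = ι.comp (T.psiT X) := by
    apply Polynomial.ringHom_ext
    · intro a
      show aeval y (Polynomial.map κ (C a)) = ι (aeval (T.x X) (C a))
      rw [Polynomial.map_C, aeval_C, aeval_C, hcst]
    · show aeval y (Polynomial.map κ Polynomial.X) = ι (aeval (T.x X) Polynomial.X)
      rw [Polynomial.map_X, aeval_X, aeval_X]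
  have hmem : ∀ p, T.psiT X p ∈ T.away X := fun p =>
    (T.mem_away_iff X hK _).2 (T.psiT X).isIntegralElem_map
  have hcomp2 : ι.comp (T.psiT X) = ψ.comp ((T.psiT X).codRestrict (T.away X) hmem) := rfl
  have hint : ∀ b, α.IsIntegralElem (ψ b) := by
    intro b
    obtain ⟨p, hp, hp0⟩ := (T.mem_away_iff X hK _).1 b.2
    refine ⟨p.map (mapRingHom κ), hp.map _, ?_⟩
    rw [eval₂_map, hcomp]
    show eval₂ (ι.comp (T.psiT X)) (ι (b : T.F)) p = 0
    rw [← hom_eval₂, hp0, map_zero]
  have hint' : ∀ e : FF N, α.IsIntegralElem e → ψ.IsIntegralElem e := by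
    intro e he
    have h1 : (α.comp (mapRingHom κ)).IsIntegralElem e := by
      letI : Algebra K0[X] Kb[X] := (mapRingHom κ).toAlgebra
      letI : Algebra Kb[X] (FF N) := α.toAlgebra
      letI : Algebra K0[X] (FF N) := (α.comp (mapRingHom κ)).toAlgebra
      haveI : IsScalarTower K0[X] Kb[X] (FF N) := IsScalarTower.of_algebraMap_eq fun _ => rfl
      haveI : Algebra.IsIntegral K0[X] Kb[X] := ⟨UDesc.mapRingHom_isIntegral κ hκ⟩
      exact isIntegral_trans (R := K0[X]) (A := Kb[X]) e he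
    rw [hcomp, hcomp2] at h1
    exact RingHom.IsIntegralElem.of_comp h1
  obtain ⟨W, h1, h2, h3, h4⟩ := exists_place_centre y htr ψ hψ hint hint' Q hQ
  exact ⟨W, FF.ord_nonneg_of_mem W h1, fun b => FF.ord_nonneg_of_mem W (h2 _ (hint b)), h3, h4⟩

end Fermat.Agent.S36.DCentre
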