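import Fermat.Agent.S36.Unr2
import Fermat.Agent.S34.NWx

/-!
# S36 [DIFF] : the fibres of `α`, `β` over a place where the coordinate is a unit
-/

set_option autoImplicit false

namespace Fermat.Agent.S36

open AlgebraicCurve ModularCurve Fermat.Agent.S24 Fermat.Agent.ES Fermat.Agent.S37
  Fermat.Agent.S34

noncomputable section

namespace DFib

variable {M q : ℕ} [NeZero M] [NeZero q] {x0 : FF M}

theorem nc_of_ord_eq_zero (h : WGood M q x0) (W : Place Kb (FF (M * q)))
    (hW : W.ord (heckeAlphaBar Kb M q x0) = 0) : 0 ≤ W.ord (jF (M * q)) := by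
  by_contra hlt
  push Not at hlt
  exact h.cusp W hlt hW

theorem ord_beta_eq_zero_iff (h : WGood M q x0) (W : Place Kb (FF (M * q))) :
    W.ord (heckeBetaBar Kb M q x0) = 0 ↔ W.ord (heckeAlphaBar Kb M q x0) = 0 := by
  constructor
  · intro hb
    rcases le_total 0 (W.ord (heckeAlphaBar Kb M q x0)) with h0 | h0
    · have := (h.pos W h0).2
      rw [hb, mul_zero] at this
      omega
    · have := (h.neg W h0).2
      rw [hb, mul_zero] at this
      omega
  · intro ha
    have h1 := (h.pos W ha.ge).1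
    have h2 := (h.neg W ha.le).1
    omega

/-- orders at two places with the same restriction vanish simultaneously. -/
theorem ord_eq_zero_of_restrict {N : ℕ} [NeZero N] (φ : FF M →ₐ[Kb] FF N)
    (W W' : Place Kb (FF N))
    (hr : W'.restrictAlong φ (HI.integralAlong φ) = W.restrictAlong φ (HI.integralAlong φ))
    (f : FF M) (hW : W.ord (φ f) = 0) : W'.ord (φ f) = 0 := by
  rw [Place.ord_restrictAlong φ (HI.integralAlong φ)] at hW ⊢
  rw [hr]
  have hpos := StabH.ramificationIndexAlong_pos φ (HI.integralAlong φ) W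
  rcases mul_eq_zero.1 hW with h | h
  · exfalso
    have : W.ramificationIndexAlong φ = 0 := by exact_mod_cast h
    omega
  · rw [h, mul_zero]

theorem fib_alpha (hM : NoElliptic M) (h : WGood M q x0) (W W' : Place Kb (FF (M * q)))
    (hW : W.ord (heckeAlphaBar Kb M q x0) = 0)
    (hr : W'.restrictAlong (heckeAlphaBar Kb M q) (HI.integralAlong _)
      = W.restrictAlong (heckeAlphaBar Kb M q) (HI.integralAlong _)) :
    W'.ramificationIndexAlong (heckeAlphaBar Kb M q) = 1 ∧
      W'.ord (heckeAlphaBar Kb M q x0) = 0 := by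
  have h1 := ord_eq_zero_of_restrict (heckeAlphaBar Kb M q) W W' hr x0 hW
  exact ⟨ram_alpha_eq_one M q hM W' (nc_of_ord_eq_zero h W' h1), h1⟩

theorem fib_beta [Fact q.Prime] (hq : ¬ q ∣ M) (hM : NoElliptic M) (h : WGood M q x0)
    (W W' : Place Kb (FF (M * q))) (hW : W.ord (heckeAlphaBar Kb M q x0) = 0)
    (hr : W'.restrictAlong (heckeBetaBar Kb M q) (HI.integralAlong _)
      = W.restrictAlong (heckeBetaBar Kb M q) (HI.integralAlong _)) :
    W'.ramificationIndexAlong (heckeBetaBar Kb M q) = 1 ∧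
      W'.ord (heckeAlphaBar Kb M q x0) = 0 := by
  have h0 := (ord_beta_eq_zero_iff h W).2 hW
  have h1 := ord_eq_zero_of_restrict (heckeBetaBar Kb M q) W W' hr x0 h0
  have h2 := (ord_beta_eq_zero_iff h W').1 h1
  exact ⟨ram_beta_eq_one M q hq hM W' (nc_of_ord_eq_zero h W' h2), h2⟩

end DFib

end

end Fermat.Agent.S36
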