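import Fermat.Agent.ES.UDesc
import Fermat.Agent.S37.Rat

/-!
# S36, G-REG, [SEP] : integral elements separate the finite places

`W1 ≠ W2` two places of a function field `E / Kb`, both finite at `x` ⟹ there is `z`, integral
over `Kb[x]`, vanishing at `W1` and not at `W2`.
-/

set_option autoImplicit false
set_option linter.style.haveILetI false
set_option linter.unusedSectionVars false

namespace Fermat.Agent.S36.DSep

open Polynomial AlgebraicCurve IsDedekindDomain IntermediateField Fermat.Agent.S24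

noncomputable section

section Poly

variable {Kb E : Type*} [Field Kb] [Field E] [Algebra Kb E]
  [Algebra Kb[X] E] [Algebra (RatFunc Kb) E] [IsScalarTower Kb[X] (RatFunc Kb) E]
  [IsScalarTower Kb Kb[X] E] [FiniteDimensional (RatFunc Kb) E] [CharZero Kb]

local notation "𝓑" => FunctionField.ringOfIntegers Kb E

theorem sep_aux (W1 W2 : Place Kb E) (hne : W1 ≠ W2)
    (h1 : algebraMap Kb[X] E X ∈ W1.toValuationSubring)
    (h2 : algebraMap Kb[X] E X ∈ W2.toValuationSubring) :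
    ∃ z : E, IsIntegral Kb[X] z ∧ z ≠ 0 ∧ 0 < W1.ord z ∧ W2.ord z = 0 := by
  obtain ⟨w1, hw1⟩ := FF.exists_heightOneSpectrum (R := 𝓑) W1 (FF.ringOfIntegers_le W1 h1)
  obtain ⟨w2, hw2⟩ := FF.exists_heightOneSpectrum (R := 𝓑) W2 (FF.ringOfIntegers_le W2 h2)
  have hw : w1 ≠ w2 := by
    rintro rfl
    exact hne (hw1.symm.trans hw2)
  have hnle : ¬ w1.asIdeal ≤ w2.asIdeal := by
    intro hle
    apply hw
    apply HeightOneSpectrum.ext
    exact (w1.isMaximal.eq_of_le w2.isPrime.ne_top hle)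
  obtain ⟨z, hz1, hz2⟩ := SetLike.not_le_iff_exists.1 hnle
  have hz0 : z ≠ 0 := by
    rintro rfl
    exact hz2 (Ideal.zero_mem _)
  have hzE : algebraMap 𝓑 E z ≠ 0 := by
    intro h
    exact hz0 (FaithfulSMul.algebraMap_injective 𝓑 E (h.trans (map_zero _).symm))
  refine ⟨algebraMap 𝓑 E z, z.2, hzE, ?_, ?_⟩
  · rw [← hw1, FF.ord_ofHeightOneSpectrum, HeightOneSpectrum.valuation_of_algebraMap]
    have h3 : w1.intValuation z < 1 := (w1.intValuation_lt_one_iff_mem z).2 hz1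
    have h4 : w1.intValuation z ≠ 0 := w1.intValuation_ne_zero _ hz0
    have h5 := (WithZero.log_lt_log h4 one_ne_zero).2 h3
    rw [WithZero.log_one] at h5
    omega
  · rw [← hw2, FF.ord_ofHeightOneSpectrum, HeightOneSpectrum.valuation_of_algebraMap]
    have h3 : w2.intValuation z = 1 := (w2.intValuation_eq_one_iff).2 hz2
    rw [h3, WithZero.log_one, neg_zero]

end Poly

section Adjoin

variable {Kb E : Type*} [Field Kb] [Field E] [Algebra Kb E] [CharZero Kb]

/-- integral elements separate the finite places (orders). -/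
theorem sep_ord (x : E) (hx : Transcendental Kb x) [FiniteDimensional Kb⟮x⟯ E]
    (W1 W2 : Place Kb E) (hne : W1 ≠ W2) (h1 : x ∈ W1.toValuationSubring)
    (h2 : x ∈ W2.toValuationSubring) :
    ∃ z : E, ((aeval x : Kb[X] →ₐ[Kb] E) : Kb[X] →+* E).IsIntegralElem z ∧ z ≠ 0 ∧
      0 < W1.ord z ∧ W2.ord z = 0 := by
  refine FF.with_ratFunc hx fun a1 a2 t1 t2 t3 fd e1 _ _ => ?_
  have hX : algebraMap Kb[X] E X = x := by
    rw [e1]
    show aeval x X = x
    simp
  obtain ⟨z, hz, hz0, hz1, hz2⟩ := sep_aux W1 W2 hne (by rw [hX]; exact h1) (by rw [hX]; exact h2)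
  refine ⟨z, ?_, hz0, hz1, hz2⟩
  have hz' : (algebraMap Kb[X] E).IsIntegralElem z := hz
  rw [e1] at hz'
  exact hz'

theorem isIntegral_adjoin_of_elem (x z : E)
    (hz : ((aeval x : Kb[X] →ₐ[Kb] E) : Kb[X] →+* E).IsIntegralElem z) :
    IsIntegral (Algebra.adjoin Kb {x}) z := by
  obtain ⟨p, hp, hp0⟩ := hz
  let g : Kb[X] →+* Algebra.adjoin Kb {x} :=
    ((aeval x : Kb[X] →ₐ[Kb] E) : Kb[X] →+* E).codRestrict
      (Algebra.adjoin Kb {x}).toSubring (fun P => by
        show aeval x P ∈ Algebra.adjoin Kb {x}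
        rw [Algebra.adjoin_singleton_eq_range_aeval]
        exact ⟨P, rfl⟩)
  refine ⟨p.map g, hp.map g, ?_⟩
  rw [eval₂_map]
  exact hp0

end Adjoin

section Val

variable {Kb E : Type*} [Field Kb] [Field E] [Algebra Kb E] [CharZero Kb] [IsAlgClosed Kb]
  [FF.IsFF Kb E]

/-- **[SEP]** -/
theorem sep (x : E) (hx : Transcendental Kb x) [FiniteDimensional Kb⟮x⟯ E]
    (W1 W2 : Place Kb E) (hne : W1 ≠ W2) (h1 : x ∈ W1.toValuationSubring)
    (h2 : x ∈ W2.toValuationSubring) :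
    ∃ z : E, IsIntegral (Algebra.adjoin Kb {x}) z ∧ z ∈ W1.toValuationSubring ∧
      z ∈ W2.toValuationSubring ∧ S37.Rat.val W1 z ≠ S37.Rat.val W2 z := by
  obtain ⟨z, hz, hz0, hz1, hz2⟩ := sep_ord x hx W1 W2 hne h1 h2
  have m1 : z ∈ W1.toValuationSubring := (FF.mem_iff_ord_nonneg W1 hz0).2 hz1.le
  have m2 : z ∈ W2.toValuationSubring := (FF.mem_iff_ord_nonneg W2 hz0).2 hz2.ge
  refine ⟨z, isIntegral_adjoin_of_elem x z hz, m1, m2, ?_⟩
  have e1 : S37.Rat.val W1 z = 0 := (S37.Rat.val_eq_zero_iff W1 m1).2 (Or.inr hz1)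
  have e2 : S37.Rat.val W2 z ≠ 0 := by
    intro h
    rcases (S37.Rat.val_eq_zero_iff W2 m2).1 h with h | h
    · exact hz0 h
    · omega
  rw [e1]
  exact e2.symm

end Val

end

end Fermat.Agent.S36.DSep
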