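import Fermat.Agent.S36.DiffKb
import Fermat.Agent.S34.LP

/-!
# S36 [DIFF] : `δ = g'(y₀)` is a unit on the tube, abstract form
-/

set_option autoImplicit false
set_option linter.unusedSectionVars false

namespace Fermat.Agent.S36

open AlgebraicCurve Polynomial IsDedekindDomain Fermat.Agent.S24 Fermat.Agent.S37 Fermat.Agent.S34

noncomputable section

namespace DTube

variable {Kb FF0 FF1 : Type*} [Field Kb] [IsAlgClosed Kb] [CharZero Kb] [Field FF0] [Field FF1]
  [Algebra Kb FF0] [Algebra Kb FF1] [FF.IsFF Kb FF0] [FF.IsFF Kb FF1]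
  [HasPrincipalDivisors Kb FF1]

theorem eval₂_mem_range {F0 F1 B : Type*} [Field F0] [Field F1] [CommRing B] [Algebra B F1]
    (φ : F0 →+* F1) (C : Subring F0) (hCB : ∀ c ∈ C, ∃ b : B, algebraMap B F1 b = φ c) (y : B)
    (P : F0[X]) (hP : ∀ i, P.coeff i ∈ C) :
    ∃ b : B, algebraMap B F1 b = eval₂ φ (algebraMap B F1 y) P := by
  have : eval₂ φ (algebraMap B F1 y) P ∈ (algebraMap B F1).range := by
    rw [eval₂_eq_sum_range]
    refine Subring.sum_mem _ fun i _ => ?_
    have hy : algebraMap B F1 y ∈ (algebraMap B F1).range := ⟨y, rfl⟩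
    refine Subring.mul_mem _ ?_ (Subring.pow_mem _ hy _)
    obtain ⟨b, hb⟩ := hCB _ (hP i)
    exact ⟨b, hb⟩
  exact this

theorem map_eval₂ {F0 F1 : Type*} [Field F0] [Field F1] (Φ : FF0 →ₐ[Kb] FF1) (φ : F0 →+* F1)
    (ι0 : F0 →+* FF0) (ι1 : F1 →+* FF1) (hι : ∀ c, ι1 (φ c) = Φ (ι0 c)) (y : F1) (P : F0[X]) :
    ι1 (eval₂ φ y P) = eval₂ (Φ : FF0 →+* FF1) (ι1 y) (P.map ι0) := by
  rw [hom_eval₂, eval₂_map]
  congr 1
  exact RingHom.ext fun c => hι c

/-- **abstract form of the tube statement.** -/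
theorem tube_abs (Φ : FF0 →ₐ[Kb] FF1) (hΦ : Φ.toRingHom.IsIntegral)
    {F0 F1 : Type*} [Field F0] [Field F1] (φ : F0 →+* F1)
    (ι0 : F0 →+* FF0) (ι1 : F1 →+* FF1) (hι : ∀ c, ι1 (φ c) = Φ (ι0 c)) (C : Subring F0)
    {B D : Type*} [CommRing B] [IsDomain B] [Algebra B F1] [CommRing D] [Algebra B D]
    [IsDedekindDomain D] [Algebra D F1] [IsScalarTower B D F1] [IsFractionRing D F1] (ϖ : B)
    [IsLocalization.Away ϖ D] (n : Ideal B) [n.IsPrime]
    (hCB : ∀ c ∈ C, ∃ b : B, algebraMap B F1 b = φ c)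
    (hP : ∀ Q : HeightOneSpectrum D, LP.Tb n Q → ∃ W : Place Kb FF1,
      (∀ d : D, d ∈ Q.asIdeal → d ≠ 0 → 0 < W.ord (ι1 (algebraMap D F1 d))) ∧
      (∀ d : D, d ∉ Q.asIdeal → W.ord (ι1 (algebraMap D F1 d)) = 0) ∧
      (∀ W' : Place Kb FF1, W'.restrictAlong Φ hΦ = W.restrictAlong Φ hΦ →
        W'.ramificationIndexAlong Φ = 1 ∧
          ∀ b : B, ι1 (algebraMap B F1 b) ∈ W'.toValuationSubring))
    (hS : ∀ W1 W2 : Place Kb FF1, W1 ≠ W2 →
      (∀ b : B, ι1 (algebraMap B F1 b) ∈ W1.toValuationSubring) →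
      (∀ b : B, ι1 (algebraMap B F1 b) ∈ W2.toValuationSubring) →
      ∃ b : B, Rat.val W1 (ι1 (algebraMap B F1 b)) ≠ Rat.val W2 (ι1 (algebraMap B F1 b)))
    (y0 : B) (s : F0) (hsC : s ∈ C) (sB : B) (hsB : algebraMap B F1 sB = φ s) (hsn : sB ∉ n)
    (hmono : ∀ a : B, ∃ P : F0[X], (∀ i, P.coeff i ∈ C) ∧
      φ s * algebraMap B F1 a = eval₂ φ (algebraMap B F1 y0) P)
    (g : F0[X]) (hg : g.Monic) (hgC : ∀ i, g.coeff i ∈ C)
    (hdeg : g.natDegree = finrankAlong Kb Φ)
    (hroot : eval₂ φ (algebraMap B F1 y0) g = 0) :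
    InTube ϖ n (eval₂ φ (algebraMap B F1 y0) g.derivative)⁻¹ := by
  have hg'C : ∀ i, g.derivative.coeff i ∈ C := by
    intro i
    rw [coeff_derivative]
    refine mul_mem (hgC _) ?_
    exact add_mem (natCast_mem C i) (one_mem C)
  obtain ⟨δB, hδB⟩ := eval₂_mem_range φ C hCB y0 g.derivative hg'C
  rw [← hδB]
  refine LP.tube (D := D) ϖ n _ fun Q hQ => ?_
  rw [IsScalarTower.algebraMap_apply B D F1, map_inv₀]
  by_cases hδQ : algebraMap B D δB ∈ Q.asIdeal
  · exfalso
    obtain ⟨W, hW1, hW2, hW3⟩ := hP Q hQ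
    set v := W.restrictAlong Φ hΦ with hv
    have hfib : ∀ W' ∈ Place.fiberAlong Φ hΦ v, W'.restrictAlong Φ hΦ = v := fun W' h =>
      Place.mem_fiberAlong.1 h
    have hCv : ∀ c ∈ C, ι0 c ∈ v.toValuationSubring := by
      intro c hc
      obtain ⟨b, hb⟩ := hCB c hc
      have := (hW3 W rfl).2 b
      rw [hb, hι] at this
      exact this
    have hcoef : ∀ (P : F0[X]), (∀ i, P.coeff i ∈ C) →
        ∀ i, (P.map ι0).coeff i ∈ v.toValuationSubring := by
      intro P hP i
      rw [coeff_map]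
      exact hCv _ (hP i)
    -- the value of `s` at `v` is not zero
    have hsv : Rat.val v (ι0 s) ≠ 0 := by
      intro h0
      have hsQ : algebraMap B D sB ∉ Q.asIdeal := fun h => hsn (hQ h)
      have h1 := hW2 _ hsQ
      rw [← IsScalarTower.algebraMap_apply B D F1, hsB, hι] at h1
      rcases (Rat.val_eq_iff v (hCv s hsC) 0).1 h0 with h2 | h2
      · rw [map_zero] at h2
        have h3 : sB = 0 := by
          have h4 : algebraMap B F1 sB = 0 := by
            rw [hsB]
            apply ι1.injective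
            rw [hι, h2, map_zero, map_zero]
          have h5 : algebraMap D F1 (algebraMap B D sB) = 0 := by
            rw [← IsScalarTower.algebraMap_apply, h4]
          have h6 : algebraMap B D sB = 0 :=
            (map_eq_zero_iff _ (IsFractionRing.injective D F1)).1 h5
          exact absurd (h6 ▸ Q.asIdeal.zero_mem) hsQ
        exact hsn (h3 ▸ n.zero_mem)
      · rw [map_zero, sub_zero, hv, ← StabH.ord_pos_iff, h1] at h2
        exact lt_irrefl _ h2
    have key := DiffKb.ord_derivative_eq_zero Φ hΦ v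
      (fun W' h => (hW3 W' (hfib W' h)).1) (ι1 (algebraMap B F1 y0))
      (fun W' h => (hW3 W' (hfib W' h)).2 y0) ?_ (g.map ι0) (hg.map _)
      (by rw [hg.natDegree_map, hdeg]) (hcoef g hgC)
      (by rw [← map_eval₂ Φ φ ι0 ι1 hι, hroot, map_zero]) W (Place.mem_fiberAlong.2 rfl)
    · rw [derivative_map, ← map_eval₂ Φ φ ι0 ι1 hι, ← hδB,
        IsScalarTower.algebraMap_apply B D F1] at key
      have hne : algebraMap B D δB ≠ 0 := by
        intro h
        apply key.1
        rw [h, map_zero, map_zero]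
      have := hW1 _ hδQ hne
      rw [key.2] at this
      exact lt_irrefl _ this
    · intro W1 h1 W2 h2 hval
      by_contra hne
      obtain ⟨b, hb⟩ := hS W1 W2 hne (hW3 W1 (hfib W1 h1)).2 (hW3 W2 (hfib W2 h2)).2
      obtain ⟨P, hPC, hPe⟩ := hmono b
      obtain ⟨Pb, hPb⟩ := DiffKb.exists_red Φ hΦ v (P.map ι0) (hcoef P hPC)
      have e := congrArg ι1 hPe
      rw [map_mul, hι, map_eval₂ Φ φ ι0 ι1 hι] at e
      have hval' : ∀ W' ∈ Place.fiberAlong Φ hΦ v,
          Rat.val v (ι0 s) * Rat.val W' (ι1 (algebraMap B F1 b))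
            = eval (Rat.val W' (ι1 (algebraMap B F1 y0))) Pb := by
        intro W' h'
        have hr := hfib W' h'
        rw [← (hPb W' hr _ ((hW3 W' hr).2 y0)).2, ← e]
        have hm1 : Φ (ι0 s) ∈ W'.toValuationSubring := by
          have : ι0 s ∈ (W'.restrictAlong Φ hΦ).toValuationSubring := by
            rw [hr]
            exact hCv s hsC
          exact this
        rw [Rat.val_mul W' hm1 ((hW3 W' hr).2 b)]
        congr 1
        have := DiffKb.val_phi Φ hΦ W' (ι0 s) (by rw [hr]; exact hCv s hsC)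
        rw [this, hr]
      have e1 := hval' W1 h1
      have e2 := hval' W2 h2
      rw [hval, ← e2] at e1
      exact hb (mul_left_cancel₀ hsv e1)
  · have h1 : Q.valuation F1 (algebraMap D F1 (algebraMap B D δB)) = 1 := by
      apply le_antisymm (Q.valuation_le_one _)
      by_contra hlt
      push Not at hlt
      exact hδQ ((Q.valuation_lt_one_iff_mem _).1 hlt)
    rw [h1, inv_one]

end DTube

end

end Fermat.Agent.S36
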