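import Fermat.Agent.S36.DTube
import Fermat.Agent.S36.HdivK0
import Fermat.Agent.ES.InstDesc

/-!
# S36 [DIFF] : `δ = g'(y₀)` is a unit on the tube, for the charts of `T : Two D q`
-/

set_option autoImplicit false
set_option linter.unusedSectionVars false
set_option linter.style.haveILetI false

namespace Fermat.Agent.S36

open ModularCurve AlgebraicCurve Polynomial IntermediateField IsDedekindDomain
open Fermat.Agent.S24 Fermat.Agent.S28 Fermat.Agent.ES Fermat.Agent.ES.QE Fermat.Agent.ES.IDvr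
  Fermat.Agent.ES.Inst Fermat.Agent.S34 Fermat.Agent.S34.SpanDesc Fermat.Agent.S37

noncomputable section

namespace DTube

/-- integral over `ℚ̄[x]`, `x` regular ⟹ regular. -/
theorem mem_of_isIntegral_adjoin {N : ℕ} (W : Place Kb (FF N)) (xF e : FF N)
    (hx : xF ∈ W.toValuationSubring) (h : IsIntegral (Algebra.adjoin Kb {xF}) e) :
    e ∈ W.toValuationSubring := by
  refine Rat.mem_of_isIntegralElem W (algebraMap (Algebra.adjoin Kb {xF}) (FF N)) (fun s => ?_) h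
  obtain ⟨s, hs⟩ := s
  show s ∈ W.toValuationSubring
  induction hs using Algebra.adjoin_induction with
  | mem y hy =>
    rw [Set.mem_singleton_iff] at hy
    rw [hy]
    exact hx
  | algebraMap r => exact W.algebraMap_mem' r
  | add a b _ _ ha hb => exact add_mem ha hb
  | mul a b _ _ ha hb => exact mul_mem ha hb

/-- the integral closure of `ℚ̄[x]` is spanned by the integral closure of `K₀[x]`. -/
theorem exists_int_span (N : ℕ) [NeZero N] (K0 : IntermediateField ℚ Kb) (xF z : FF N)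
    (x0 : LaurentSeries K0) (hx : bc K0 x0 = (xF : LaurentSeries Kb))
    (h : IsIntegral (Algebra.adjoin Kb {xF}) z) :
    ∃ (J : Type) (s : Finset J) (c : J → Kb) (zz : J → FF N),
      (∀ l, ∃ f ∈ F0 K0 N, bc K0 f = (zz l : LaurentSeries Kb)) ∧
      (∀ l, IsIntegral (Algebra.adjoin Kb {xF}) (zz l)) ∧
      z = ∑ l ∈ s, zz l * algebraMap Kb (FF N) (c l) := by
  have halg : Algebra.IsAlgebraic ℚ Kb := AlgebraicClosure.isAlgebraic ℚ
  have : Algebra.IsAlgebraic K0 Kb := Algebra.IsAlgebraic.tower_top (K := ℚ) K0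
  set b := Module.Basis.ofVectorSpace K0 Kb with hb
  have hz := FF_mem_bigField K0 N z
  obtain ⟨s, hs⟩ := HdivK0.exists_expansion (F0 K0 N) b hz
  have hmem : ∀ l, lam (b.coord l) (z : LaurentSeries Kb) ∈ F0 K0 N := fun l =>
    lam_mem _ _ hz
  refine ⟨_, s, fun l => b l, fun l => ⟨bc K0 (lam (b.coord l) (z : LaurentSeries Kb)),
    bc_mem K0 N (hmem l)⟩, fun l => ⟨_, hmem l, rfl⟩, fun l => ?_, ?_⟩
  · refine HdivK0.isIntegral_adjoin_of_series N K0 xF _ x0 _ hx rfl ?_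
    have h1 := HdivK0.isIntegralElem_fL_of_adjoin N K0 xF z x0 hx h
    have h2 := HdivK0.key (F0 K0 N) x0 1 one_pos 1 (b.coord l) hz
      (by rw [pow_one, map_one, mul_one]; exact h1)
    rwa [pow_one, mul_one] at h2
  · apply Subtype.ext
    have h3 := hs s (Finset.Subset.refl _)
    have : ((∑ l ∈ s, (⟨bc K0 (lam (b.coord l) (z : LaurentSeries Kb)),
        bc_mem K0 N (hmem l)⟩ : FF N) * algebraMap Kb (FF N) (b l) : FF N) : LaurentSeries Kb)
        = ∑ l ∈ s, bc K0 (lam (b.coord l) (z : LaurentSeries Kb)) * HahnSeries.C (b l) := by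
      have e := map_sum (modularFunctionFieldBar N).val.toRingHom
        (fun l => (⟨bc K0 (lam (b.coord l) (z : LaurentSeries Kb)),
          bc_mem K0 N (hmem l)⟩ : FF N) * algebraMap Kb (FF N) (b l)) s
      refine e.trans (Finset.sum_congr rfl fun l _ => ?_)
      rw [map_mul]
      congr 1
      exact QE.algebraMap_eq_C _
    exact h3.trans this.symm

theorem val_sum {N : ℕ} [NeZero N] (W : Place Kb (FF N)) {J : Type} (s : Finset J)
    (f : J → FF N) (hf : ∀ l ∈ s, f l ∈ W.toValuationSubring) :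
    Rat.val W (∑ l ∈ s, f l) = ∑ l ∈ s, Rat.val W (f l) := by
  classical
  induction s using Finset.induction_on with
  | empty =>
    rw [Finset.sum_empty, Finset.sum_empty, ← map_zero (algebraMap Kb (FF N)),
      Rat.val_algebraMap]
  | insert a s ha ih =>
    rw [Finset.sum_insert ha, Finset.sum_insert ha,
      Rat.val_add W (hf a (Finset.mem_insert_self a s))
        (sum_mem fun l hl => hf l (Finset.mem_insert_of_mem hl)),
      ih fun l hl => hf l (Finset.mem_insert_of_mem hl)]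

variable {K0 : IntermediateField ℚ Kb} {A : ValuationSubring Kb}
  [IsDiscreteValuationRing (R0 K0 A)] {D : QData (R0 K0 A) K0 (kA A)} {q : ℕ} [NeZero q]

/-- the chart separates the places at which `x` is regular. -/
theorem sep_chart (N : ℕ) [NeZero N] (T : Two D q) (X : D.Coord) (ι1 : T.F →+* FF N)
    (hι1 : ∀ f : T.F, ((ι1 f : FF N) : LaurentSeries Kb) = bc K0 (f : LaurentSeries K0))
    (hF : F0 K0 N ≤ T.F)
    (hsep : ∀ W1 W2 : Place Kb (FF N), W1 ≠ W2 → ι1 (T.x X) ∈ W1.toValuationSubring →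
      ι1 (T.x X) ∈ W2.toValuationSubring → ∃ z : FF N,
        IsIntegral (Algebra.adjoin Kb {ι1 (T.x X)}) z ∧ Rat.val W1 z ≠ Rat.val W2 z)
    (W1 W2 : Place Kb (FF N)) (hne : W1 ≠ W2) (h1 : ι1 (T.x X) ∈ W1.toValuationSubring)
    (h2 : ι1 (T.x X) ∈ W2.toValuationSubring) :
    ∃ b : T.chart X, Rat.val W1 (ι1 (b : T.F)) ≠ Rat.val W2 (ι1 (b : T.F)) := by
  obtain ⟨z, hz, hval⟩ := hsep W1 W2 hne h1 h2
  obtain ⟨J, s, c, zz, hdef, hint, hsum⟩ := exists_int_span N K0 (ι1 (T.x X)) z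
    ((T.x X : T.F) : LaurentSeries K0) (hι1 _).symm hz
  have hreg : ∀ (W : Place Kb (FF N)), ι1 (T.x X) ∈ W.toValuationSubring →
      ∀ l, zz l ∈ W.toValuationSubring := fun W hW l =>
    mem_of_isIntegral_adjoin W _ _ hW (hint l)
  have hv : ∀ (W : Place Kb (FF N)), ι1 (T.x X) ∈ W.toValuationSubring →
      Rat.val W z = ∑ l ∈ s, Rat.val W (zz l) * c l := by
    intro W hW
    rw [hsum, val_sum W s _ fun l _ => mul_mem (hreg W hW l) (W.algebraMap_mem' _)]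
    refine Finset.sum_congr rfl fun l _ => ?_
    rw [Rat.val_mul W (hreg W hW l) (W.algebraMap_mem' _), Rat.val_algebraMap]
  obtain ⟨l, hl⟩ : ∃ l, Rat.val W1 (zz l) ≠ Rat.val W2 (zz l) := by
    by_contra hcon
    push Not at hcon
    apply hval
    rw [hv W1 h1, hv W2 h2]
    exact Finset.sum_congr rfl fun l _ => by rw [hcon l]
  obtain ⟨f, hf, hfe⟩ := hdef l
  have e : ι1 (⟨f, hF hf⟩ : T.F) = zz l := Subtype.ext ((hι1 _).trans hfe)
  have haw : (⟨f, hF hf⟩ : T.F) ∈ T.away X := by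
    rw [UHdiv.mem_away_iff_isIntegral N T X ι1 hι1, e]
    exact hint l
  obtain ⟨k, hk⟩ := haw
  refine ⟨⟨_, hk⟩, ?_⟩
  have hc : ι1 (T.ϖF ^ k) = algebraMap Kb (FF N)
      (algebraMap K0 Kb (algebraMap (R0 K0 A) K0 D.ϖ) ^ k) := by
    rw [map_pow, map_pow]
    congr 1
    apply Subtype.ext
    rw [hι1]
    have e1 : ((T.ϖF : T.F) : LaurentSeries K0)
        = HahnSeries.C (algebraMap (R0 K0 A) K0 D.ϖ) := QE.algebraMap_eq_C _
    rw [e1, bc, QE.coeffMap_C]
    exact (QE.algebraMap_eq_C _).symm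
  have hc0 : algebraMap K0 Kb (algebraMap (R0 K0 A) K0 D.ϖ) ^ k ≠ 0 := by
    apply pow_ne_zero
    rw [Ne, map_eq_zero_iff _ (algebraMap K0 Kb).injective,
      map_eq_zero_iff _ (IsFractionRing.injective (R0 K0 A) K0)]
    exact D.ϖ_ne
  show Rat.val W1 (ι1 (T.ϖF ^ k * ⟨f, hF hf⟩)) ≠ Rat.val W2 (ι1 (T.ϖF ^ k * ⟨f, hF hf⟩))
  rw [map_mul, e, hc, Rat.val_mul W1 (W1.algebraMap_mem' _) (hreg W1 h1 l),
    Rat.val_mul W2 (W2.algebraMap_mem' _) (hreg W2 h2 l), Rat.val_algebraMap, Rat.val_algebraMap]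
  exact fun h => hl (mul_left_cancel₀ hc0 h)

/-- **`δ` is a unit on the tube**, for a general degeneracy map `φ`. -/
theorem tube_delta_gen (M N : ℕ) [NeZero M] [NeZero N] (T : Two D q) (X : D.Coord)
    (ι0 : D.F0 →+* FF M) (ι1 : T.F →+* FF N)
    (hι1 : ∀ f : T.F, ((ι1 f : FF N) : LaurentSeries Kb) = bc K0 (f : LaurentSeries K0))
    (hF : F0 K0 N ≤ T.F)
    (Φ : FF M →ₐ[Kb] FF N) (φ : D.F0 →+* T.F) (hι : ∀ c, ι1 (φ c) = Φ (ι0 c))
    (hCB : ∀ c ∈ X.chart, φ c ∈ T.chart X)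
    (hfib : ∀ W W' : Place Kb (FF N), W.ord (ι1 (T.x X)) = 0 →
      W'.restrictAlong Φ (HI.integralAlong Φ) = W.restrictAlong Φ (HI.integralAlong Φ) →
      W'.ramificationIndexAlong Φ = 1 ∧ W'.ord (ι1 (T.x X)) = 0)
    (hcentre : ∀ Q : Ideal (T.away X), Q.IsPrime → Q ≠ ⊥ → ∃ W : Place Kb (FF N),
      (∀ d : T.away X, d ∈ Q → d ≠ 0 → 0 < W.ord (ι1 (d : T.F))) ∧
      (∀ d : T.away X, d ∉ Q → W.ord (ι1 (d : T.F)) = 0))
    (hsep : ∀ W1 W2 : Place Kb (FF N), W1 ≠ W2 → ι1 (T.x X) ∈ W1.toValuationSubring →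
      ι1 (T.x X) ∈ W2.toValuationSubring → ∃ z : FF N,
        IsIntegral (Algebra.adjoin Kb {ι1 (T.x X)}) z ∧ Rat.val W1 z ≠ Rat.val W2 z)
    (n : Ideal (T.chart X)) [n.IsPrime] (hx : (⟨T.x X, X.x_mem_chart⟩ : T.chart X) ∉ n)
    (y0 : T.chart X) (s : D.F0) (hsC : s ∈ X.chart)
    (hsn : (⟨φ s, hCB s hsC⟩ : T.chart X) ∉ n)
    (hmono : ∀ a : T.chart X, ∃ P : D.F0[X], (∀ i, P.coeff i ∈ X.chart) ∧
      φ s * (a : T.F) = eval₂ φ (y0 : T.F) P)
    (g : D.F0[X]) (hg : g.Monic) (hgC : ∀ i, g.coeff i ∈ X.chart)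
    (hdeg : g.natDegree = finrankAlong Kb Φ) (hroot : eval₂ φ (y0 : T.F) g = 0) :
    InTube (T.ϖB X) n (eval₂ φ (y0 : T.F) g.derivative)⁻¹ := by
  letI : Algebra (T.chart X) T.F := Algebra.ofSubsemiring (T.chart X)
  letI : Algebra (T.away X) T.F := Algebra.ofSubsemiring (T.away X)
  letI := T.algRB X
  letI := T.algBD X
  haveI := T.isDedekindDomain_away X (InstDesc.isAway_of_dvr D)
  haveI := T.isFractionRing_away X (InstDesc.isAway_of_dvr D)
  haveI : IsLocalization.Away (T.ϖB X) (T.away X) := T.isLocalization_away X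
  haveI := T.tower_away X
  haveI := hasPrincipalDivisors_FF N
  have hregx : ∀ W : Place Kb (FF N), W.ord (ι1 (T.x X)) = 0 →
      ι1 (T.x X) ∈ W.toValuationSubring := fun W hW => StabH.mem_of_ord_nonneg W hW.ge
  have hreg : ∀ W : Place Kb (FF N), ι1 (T.x X) ∈ W.toValuationSubring →
      ∀ b : T.chart X, ι1 (b : T.F) ∈ W.toValuationSubring := by
    intro W hW b
    refine mem_of_isIntegral_adjoin W _ _ hW ?_
    rw [← UHdiv.mem_away_iff_isIntegral N T X ι1 hι1]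
    exact le_awayS _ _ _ b.2
  refine tube_abs (B := T.chart X) (D := T.away X) Φ (HI.integralAlong Φ) φ ι0 ι1 hι X.chart
    (T.ϖB X) n (fun c hc => ⟨⟨_, hCB c hc⟩, rfl⟩) ?_ ?_ y0 s hsC ⟨φ s, hCB s hsC⟩ rfl hsn hmono g
    hg hgC hdeg hroot
  · intro Q hQ
    obtain ⟨W, hW1, hW2⟩ := hcentre Q.asIdeal Q.isPrime Q.ne_bot
    refine ⟨W, hW1, hW2, fun W' hr => ?_⟩
    have hxQ : (⟨T.x X, le_awayS _ _ _ X.x_mem_chart⟩ : T.away X) ∉ Q.asIdeal := by
      intro h
      apply hx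
      apply hQ
      rw [Ideal.mem_comap]
      exact h
    have h0 : W.ord (ι1 (T.x X)) = 0 := hW2 ⟨T.x X, le_awayS _ _ _ X.x_mem_chart⟩ hxQ
    obtain ⟨h1, h2⟩ := hfib W W' h0 hr
    exact ⟨h1, hreg W' (hregx W' h2)⟩
  · intro W1 W2 hne h1 h2
    exact sep_chart N T X ι1 hι1 hF hsep W1 W2 hne (h1 ⟨T.x X, X.x_mem_chart⟩)
      (h2 ⟨T.x X, X.x_mem_chart⟩)

end DTube

end

end Fermat.Agent.S36
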