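import Fermat.Agent.S36.DTube2
import Fermat.Agent.S36.DFib
import Fermat.Agent.S36.DCentre2
import Fermat.Agent.S36.DSep

/-!
# S36 [DIFF] : `δ = g'(y₀)` is a unit on the tube, for `φ = T.al` and `φ = T.be`
-/

set_option autoImplicit false
set_option linter.unusedSectionVars false
set_option linter.style.haveILetI false

namespace Fermat.Agent.S36

open ModularCurve AlgebraicCurve Polynomial IntermediateField IsDedekindDomain
open Fermat.Agent.S24 Fermat.Agent.S28 Fermat.Agent.ES Fermat.Agent.ES.QE Fermat.Agent.ES.IDvr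
  Fermat.Agent.ES.Inst Fermat.Agent.S34 Fermat.Agent.S37

noncomputable section

variable {K0 : IntermediateField ℚ Kb} {A : ValuationSubring Kb}
  [IsDiscreteValuationRing (R0 K0 A)] {D : QData (R0 K0 A) K0 (kA A)} {q : ℕ} [Fact q.Prime]

namespace DTube

theorem iota_al (M0 : ℕ) [NeZero M0] (T : Two D q) (ι0 : D.F0 →+* FF M0)
    (hι0 : ∀ f : D.F0, ((ι0 f : FF M0) : LaurentSeries Kb) = bc K0 (f : LaurentSeries K0))
    (ι1 : T.F →+* FF (M0 * q))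
    (hι1 : ∀ f : T.F, ((ι1 f : FF (M0 * q)) : LaurentSeries Kb) = bc K0 (f : LaurentSeries K0))
    (c : D.F0) : ι1 (T.al c) = heckeAlphaBar Kb M0 q (ι0 c) := by
  apply Subtype.ext
  rw [hι1, coe_heckeAlphaBar, hι0, T.coe_al]

theorem iota_be (M0 : ℕ) [NeZero M0] (T : Two D q) (ι0 : D.F0 →+* FF M0)
    (hι0 : ∀ f : D.F0, ((ι0 f : FF M0) : LaurentSeries Kb) = bc K0 (f : LaurentSeries K0))
    (ι1 : T.F →+* FF (M0 * q))
    (hι1 : ∀ f : T.F, ((ι1 f : FF (M0 * q)) : LaurentSeries Kb) = bc K0 (f : LaurentSeries K0))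
    (c : D.F0) : ι1 (T.be c) = heckeBetaBar Kb M0 q (ι0 c) := by
  apply Subtype.ext
  rw [hι1, coe_heckeBetaBar, hι0, T.coe_be, bc, coeffMap_qExpand]

end DTube

/-- **`δ` is a unit on the tube, `φ = α`.** -/
theorem tube_delta_al (M0 : ℕ) [NeZero M0] (hqM : ¬ q ∣ M0) (T : Two D q) (X : D.Coord)
    (ι0 : D.F0 →+* FF M0)
    (hι0 : ∀ f : D.F0, ((ι0 f : FF M0) : LaurentSeries Kb) = bc K0 (f : LaurentSeries K0))
    (ι1 : T.F →+* FF (M0 * q))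
    (hι1 : ∀ f : T.F, ((ι1 f : FF (M0 * q)) : LaurentSeries Kb) = bc K0 (f : LaurentSeries K0))
    (hF : F0 K0 (M0 * q) ≤ T.F)
    (htr : Transcendental Kb (ι1 (T.x X))) [FiniteDimensional Kb⟮ι1 (T.x X)⟯ (FF (M0 * q))]
    (hM : NoElliptic M0) (hW : WGood M0 q (ι0 X.x))
    (n : Ideal (T.chart X)) [n.IsPrime] (hx : (⟨T.x X, X.x_mem_chart⟩ : T.chart X) ∉ n)
    (y0 : T.chart X) (s : D.F0) (hsC : s ∈ X.chart)
    (hsn : (⟨T.al s, T.al_mem_chart X hsC⟩ : T.chart X) ∉ n)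
    (hmono : ∀ a : T.chart X, ∃ P : D.F0[X], (∀ i, P.coeff i ∈ X.chart) ∧
      T.al s * (a : T.F) = eval₂ T.al (y0 : T.F) P)
    (g : D.F0[X]) (hg : g.Monic) (hgC : ∀ i, g.coeff i ∈ X.chart)
    (hdeg : g.natDegree = q + 1) (hroot : eval₂ T.al (y0 : T.F) g = 0) :
    InTube (T.ϖB X) n (eval₂ T.al (y0 : T.F) g.derivative)⁻¹ := by
  have hxe : ι1 (T.x X) = heckeAlphaBar Kb M0 q (ι0 X.x) := DTube.iota_al M0 T ι0 hι0 ι1 hι1 X.x
  refine DTube.tube_delta_gen M0 (M0 * q) T X ι0 ι1 hι1 hF (heckeAlphaBar Kb M0 q) T.al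
    (DTube.iota_al M0 T ι0 hι0 ι1 hι1) (fun c hc => T.al_mem_chart X hc) ?_ ?_ ?_ n hx y0 s hsC hsn
    hmono g hg hgC (by rw [hdeg, Fermat.Agent.ES.finrank_heckeAlpha M0 q hqM]) hroot
  · intro W W' h0 hr
    rw [hxe] at h0 ⊢
    exact DFib.fib_alpha hM hW W W' h0 hr
  · intro Q hQp hQ
    obtain ⟨W, -, -, h3, h4⟩ := DCentre.exists_place_away (M0 * q) T X ι1 hι1 htr Q hQ
    refine ⟨W, fun d hd hd0 => ?_, h4⟩
    have := h3 1 d (by rwa [pow_one]) hd0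
    omega
  · intro W1 W2 hne h1 h2
    obtain ⟨z, hz, -, -, hv⟩ := DSep.sep (ι1 (T.x X)) htr W1 W2 hne h1 h2
    exact ⟨z, hz, hv⟩

/-- **`δ` is a unit on the tube, `φ = β`.** -/
theorem tube_delta_be (M0 : ℕ) [NeZero M0] (hqM : ¬ q ∣ M0) (T : Two D q) (X : D.Coord)
    (ι0 : D.F0 →+* FF M0)
    (hι0 : ∀ f : D.F0, ((ι0 f : FF M0) : LaurentSeries Kb) = bc K0 (f : LaurentSeries K0))
    (ι1 : T.F →+* FF (M0 * q))
    (hι1 : ∀ f : T.F, ((ι1 f : FF (M0 * q)) : LaurentSeries Kb) = bc K0 (f : LaurentSeries K0))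
    (hF : F0 K0 (M0 * q) ≤ T.F)
    (htr : Transcendental Kb (ι1 (T.x X))) [FiniteDimensional Kb⟮ι1 (T.x X)⟯ (FF (M0 * q))]
    (hM : NoElliptic M0) (hW : WGood M0 q (ι0 X.x))
    (hbe : ∀ c ∈ X.chart, T.be c ∈ T.chart X)
    (n : Ideal (T.chart X)) [n.IsPrime] (hx : (⟨T.x X, X.x_mem_chart⟩ : T.chart X) ∉ n)
    (y0 : T.chart X) (s : D.F0) (hsC : s ∈ X.chart)
    (hsn : (⟨T.be s, hbe s hsC⟩ : T.chart X) ∉ n)
    (hmono : ∀ a : T.chart X, ∃ P : D.F0[X], (∀ i, P.coeff i ∈ X.chart) ∧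
      T.be s * (a : T.F) = eval₂ T.be (y0 : T.F) P)
    (g : D.F0[X]) (hg : g.Monic) (hgC : ∀ i, g.coeff i ∈ X.chart)
    (hdeg : g.natDegree = q + 1) (hroot : eval₂ T.be (y0 : T.F) g = 0) :
    InTube (T.ϖB X) n (eval₂ T.be (y0 : T.F) g.derivative)⁻¹ := by
  have hxe : ι1 (T.x X) = heckeAlphaBar Kb M0 q (ι0 X.x) := DTube.iota_al M0 T ι0 hι0 ι1 hι1 X.x
  refine DTube.tube_delta_gen M0 (M0 * q) T X ι0 ι1 hι1 hF (heckeBetaBar Kb M0 q) T.be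
    (DTube.iota_be M0 T ι0 hι0 ι1 hι1) hbe ?_ ?_ ?_ n hx y0 s hsC hsn
    hmono g hg hgC (by rw [hdeg, KT.finrank_heckeBeta M0 q hqM]) hroot
  · intro W W' h0 hr
    rw [hxe] at h0 ⊢
    exact DFib.fib_beta hqM hM hW W W' h0 hr
  · intro Q hQp hQ
    obtain ⟨W, -, -, h3, h4⟩ := DCentre.exists_place_away (M0 * q) T X ι1 hι1 htr Q hQ
    refine ⟨W, fun d hd hd0 => ?_, h4⟩
    have := h3 1 d (by rwa [pow_one]) hd0
    omega
  · intro W1 W2 hne h1 h2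
    obtain ⟨z, hz, -, -, hv⟩ := DSep.sep (ι1 (T.x X)) htr W1 W2 hne h1 h2
    exact ⟨z, hz, hv⟩

end

end Fermat.Agent.S36
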