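import Fermat.Agent.S35.Defs

/-!
# S36 : shared definitions (interface between the wrapper and the geometry)

* `FixNew m c0 M0 q A` : a class of level `M0 q²`, fixed by the inertia group of `A`, with trivial
  norms to the level `M0 q` along the two degeneracy maps, is killed by `c0`;
* `ClaimA p M0 q A` : `FixNew (p ^ r) c0 M0 q A` for all `r`, with `c0 > 0` independent of `r`.
-/

set_option autoImplicit false

noncomputable section

namespace Fermat.Agent.S36

open Fermat.Agent.ES Fermat.Agent.S24 Fermat.Agent.S16 Fermat.Agent.S31 Fermat.Agent.S30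
  Fermat.Agent.S30.FinLvl Fermat.Agent.S35 CuspForm CongruenceSubgroup ModularCurve AlgebraicCurve

/-- classes of level `M0 q²` fixed by inertia with trivial norms are killed by `c0`. -/
def FixNew (m c0 M0 q : ℕ) [NeZero (M0 * q)] [NeZero q] (A : ValuationSubring Kb) : Prop :=
  ∀ u : FF (M0 * q * q), IsPDiv m (M0 * q * q) u →
    (∀ σ ∈ A.inertiaSubgroupIn ℚ, ∃ z : FF (M0 * q * q), gal (M0 * q * q) σ u = u * z ^ m) →
    (∃ z, normA (M0 * q) q u = z ^ m) → (∃ z, normB (M0 * q) q u = z ^ m) →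
    ∃ z : FF (M0 * q * q), u ^ c0 = z ^ m

/-- **CLAIM A**. -/
def ClaimA (p M0 q : ℕ) [NeZero (M0 * q)] [NeZero q] (A : ValuationSubring Kb) : Prop :=
  ∃ c0 : ℕ, 0 < c0 ∧ ∀ r : ℕ, FixNew (p ^ r) c0 M0 q A

end Fermat.Agent.S36
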