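import Fermat.Agent.S34.SpanDesc
import Fermat.Agent.ES.KDefs

/-!
# S36, block G-DESC : descent of a class fixed by a group of Galois automorphisms

* `Unr A K0` : `K0` is fixed pointwise by the inertia group of `A`;
* `exists_fixed_rep` : if `σ u / u` is an `m`-th power for all `σ ∈ G`, then `u = u0 * h ^ m` with
  `σ u0 = u0` for all `σ ∈ G`;
* `isDef_of_coeff_mem`, `exists_unr_isDef` : fields of definition;
* `root_descent` : an `m`-th root over `ℚ̄` of a function defined over `K0` is defined over `K0`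
  up to a constant.
-/

set_option autoImplicit false

noncomputable section

namespace Fermat.Agent.S36

open ModularCurve AlgebraicCurve
open Fermat.Agent.S24 Fermat.Agent.S28 Fermat.Agent.ES Fermat.Agent.ES.QE Fermat.Agent.ES.Inst
  Fermat.Agent.S34

/-- `K0` is unramified at `A`. -/
def Unr (A : ValuationSubring Kb) (K0 : IntermediateField ℚ Kb) : Prop :=
  ∀ σ ∈ A.inertiaSubgroupIn ℚ, ∀ x ∈ K0, σ x = x

theorem Unr.sup {A : ValuationSubring Kb} {K0 K1 : IntermediateField ℚ Kb} (h0 : Unr A K0)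
    (h1 : Unr A K1) : Unr A (K0 ⊔ K1) := by
  intro σ hσ x hx
  have hle : K0 ⊔ K1 ≤ IntermediateField.fixedField (A.inertiaSubgroupIn ℚ) := by
    refine sup_le ?_ ?_
    · intro y hy
      rw [IntermediateField.mem_fixedField_iff]
      exact fun τ hτ => h0 τ hτ y hy
    · intro y hy
      rw [IntermediateField.mem_fixedField_iff]
      exact fun τ hτ => h1 τ hτ y hy
  exact (IntermediateField.mem_fixedField_iff _ _).1 (hle hx) σ hσ

theorem Unr.mono {A : ValuationSubring Kb} {K0 K1 : IntermediateField ℚ Kb} (h : K0 ≤ K1)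
    (h1 : Unr A K1) : Unr A K0 := fun σ hσ x hx => h1 σ hσ x (h hx)

theorem unr_bot (A : ValuationSubring Kb) : Unr A ⊥ := by
  intro σ _ x hx
  obtain ⟨r, rfl⟩ := IntermediateField.mem_bot.1 hx
  exact σ.commutes r

namespace Desc

/-! ### series with leading coefficient `1` -/

/-- `x = T ^ n (1 + ⋯)`. -/
def Ld (x : LaurentSeries Kb) (n : ℤ) : Prop := x.order = n ∧ x.leadingCoeff = 1

theorem Ld.ne_zero {x : LaurentSeries Kb} {n : ℤ} (h : Ld x n) : x ≠ 0 := by
  rw [← HahnSeries.leadingCoeff_ne_zero, h.2]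
  exact one_ne_zero

theorem Ld.coeff {x : LaurentSeries Kb} {n : ℤ} (h : Ld x n) : x.coeff n = 1 := by
  have := h.2
  rw [HahnSeries.leadingCoeff_eq, h.1] at this
  exact this

theorem ld_one : Ld (1 : LaurentSeries Kb) 0 := by
  refine ⟨HahnSeries.order_one, ?_⟩
  rw [HahnSeries.leadingCoeff_eq, HahnSeries.order_one, HahnSeries.coeff_one, if_pos rfl]

theorem Ld.mul {x y : LaurentSeries Kb} {a b : ℤ} (hx : Ld x a) (hy : Ld y b) :
    Ld (x * y) (a + b) := by
  refine ⟨?_, ?_⟩
  · rw [HahnSeries.order_mul hx.ne_zero hy.ne_zero, hx.1, hy.1]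
  · rw [HahnSeries.leadingCoeff_mul, hx.2, hy.2, one_mul]

theorem Ld.pow {x : LaurentSeries Kb} {a : ℤ} (hx : Ld x a) (k : ℕ) : Ld (x ^ k) (k * a) := by
  induction k with
  | zero => simpa using ld_one
  | succ k ih =>
    rw [pow_succ]
    have := ih.mul hx
    have e : (k : ℤ) * a + a = ((k + 1 : ℕ) : ℤ) * a := by push_cast; ring
    rwa [e] at this

theorem order_coeffMap (σ : GQ) (x : LaurentSeries Kb) :
    (coeffMap (σ : Kb →+* Kb) x).order = x.order := by
  by_cases hx : x = 0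
  · rw [hx, map_zero]
  have hy : coeffMap (σ : Kb →+* Kb) x ≠ 0 := by
    intro h
    apply hx
    ext n
    have := congrArg (fun z => HahnSeries.coeff z n) h
    simp only [coeffMap_coeff, HahnSeries.coeff_zero] at this
    rw [HahnSeries.coeff_zero]
    exact (map_eq_zero (σ : Kb →+* Kb)).1 this
  apply le_antisymm
  · apply HahnSeries.order_le_of_coeff_ne_zero
    rw [coeffMap_coeff, ← HahnSeries.leadingCoeff_eq]
    exact (map_ne_zero (σ : Kb →+* Kb)).2 (HahnSeries.leadingCoeff_ne_zero.2 hx)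
  · apply HahnSeries.order_le_of_coeff_ne_zero
    have := HahnSeries.leadingCoeff_ne_zero.2 hy
    rw [HahnSeries.leadingCoeff_eq, coeffMap_coeff] at this
    exact fun h => this (by rw [h, map_zero])

theorem leadingCoeff_coeffMap (σ : GQ) (x : LaurentSeries Kb) :
    (coeffMap (σ : Kb →+* Kb) x).leadingCoeff = σ x.leadingCoeff := by
  rw [HahnSeries.leadingCoeff_eq, order_coeffMap, coeffMap_coeff, HahnSeries.leadingCoeff_eq]
  rfl

theorem Ld.map {x : LaurentSeries Kb} {a : ℤ} (hx : Ld x a) (σ : GQ) :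
    Ld (coeffMap (σ : Kb →+* Kb) x) a := by
  refine ⟨by rw [order_coeffMap, hx.1], ?_⟩
  rw [leadingCoeff_coeffMap, hx.2, map_one]

/-- uniqueness of normalised roots. -/
theorem Ld.eq_of_pow_eq {x y : LaurentSeries Kb} {a b : ℤ} (hx : Ld x a) (hy : Ld y b) {m : ℕ}
    (hm : 0 < m) (h : x ^ m = y ^ m) : x = y := by
  have hab : a = b := by
    have h1 := (hx.pow m).1
    rw [h, (hy.pow m).1] at h1
    have hm' : (m : ℤ) ≠ 0 := by exact_mod_cast hm.ne'
    exact (mul_left_cancel₀ hm' h1).symm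
  subst hab
  have key := geom_sum₂_mul x y m
  rw [h, sub_self] at key
  rcases mul_eq_zero.1 key with h0 | h0
  · exfalso
    have hc : (∑ i ∈ Finset.range m, x ^ i * y ^ (m - 1 - i)).coeff (((m - 1 : ℕ) : ℤ) * a)
        = (m : Kb) := by
      rw [HahnSeries.coeff_sum]
      have : ∀ i ∈ Finset.range m,
          (x ^ i * y ^ (m - 1 - i)).coeff (((m - 1 : ℕ) : ℤ) * a) = 1 := by
        intro i hi
        have hi' := Finset.mem_range.1 hi
        have h2 := ((hx.pow i).mul (hy.pow (m - 1 - i))).coeff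
        have e : (i : ℤ) * a + ((m - 1 - i : ℕ) : ℤ) * a = ((m - 1 : ℕ) : ℤ) * a := by
          rw [← add_mul]
          congr 1
          have : i + (m - 1 - i) = m - 1 := by omega
          exact_mod_cast this
        rwa [e] at h2
      rw [Finset.sum_congr rfl this]
      simp
    rw [h0, HahnSeries.coeff_zero] at hc
    exact (Nat.cast_ne_zero.2 hm.ne') hc.symm
  · exact sub_eq_zero.1 h0


/-! ### functions -/

variable {N : ℕ}

theorem coe_gal (σ : GQ) (f : FF N) :
    ((gal N σ f : FF N) : LaurentSeries Kb) = coeffMap (σ : Kb →+* Kb) (f : LaurentSeries Kb) := rfl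

theorem coe_const (c : Kb) :
    ((algebraMap Kb (FF N) c : FF N) : LaurentSeries Kb) = HahnSeries.C c := by
  have : ((algebraMap Kb (FF N) c : FF N) : LaurentSeries Kb)
      = algebraMap Kb (LaurentSeries Kb) c := rfl
  rw [this, LaurentSeries.algebraMap_apply]

theorem gal_const (σ : GQ) (c : Kb) :
    gal N σ (algebraMap Kb (FF N) c) = algebraMap Kb (FF N) (σ c) :=
  arithmeticRingAut_algebraMap _ σ c

theorem gal_mul (σ τ : GQ) (f : FF N) : gal N (σ * τ) f = gal N σ (gal N τ f) := by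
  apply Subtype.ext
  rw [coe_gal, coe_gal, coe_gal, coeffMap_coeffMap]
  exact coeffMap_congr (RingHom.ext fun _ => rfl) _

theorem gal_one (f : FF N) : gal N 1 f = f := by
  apply Subtype.ext
  rw [coe_gal]
  ext n
  rw [coeffMap_coeff]
  rfl

/-- the leading coefficient. -/
def lc (f : FF N) : Kb := (f : LaurentSeries Kb).leadingCoeff

theorem lc_ne_zero {f : FF N} (hf : f ≠ 0) : lc f ≠ 0 :=
  HahnSeries.leadingCoeff_ne_zero.2 fun h => hf (Subtype.ext h)

theorem lc_mul (f g : FF N) : lc (f * g) = lc f * lc g :=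
  HahnSeries.leadingCoeff_mul (f : LaurentSeries Kb) (g : LaurentSeries Kb)

theorem lc_const (c : Kb) : lc (algebraMap Kb (FF N) c : FF N) = c := by
  rw [lc, coe_const, HahnSeries.C_apply, HahnSeries.leadingCoeff_of_single]

theorem order_const {c : Kb} : ((algebraMap Kb (FF N) c : FF N) : LaurentSeries Kb).order = 0 := by
  rw [coe_const, HahnSeries.order_C]

/-- the normalisation of `f`. -/
def nz (f : FF N) : FF N := f * algebraMap Kb (FF N) (lc f)⁻¹

theorem eq_nz_mul (f : FF N) (hf : f ≠ 0) : f = nz f * algebraMap Kb (FF N) (lc f) := by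
  rw [nz, mul_assoc, ← map_mul, inv_mul_cancel₀ (lc_ne_zero hf), map_one, mul_one]

theorem ld_nz {f : FF N} (hf : f ≠ 0) :
    Ld ((nz f : FF N) : LaurentSeries Kb) (f : LaurentSeries Kb).order := by
  have hc : (algebraMap Kb (FF N) (lc f)⁻¹ : FF N) ≠ 0 :=
    (map_ne_zero _).2 (inv_ne_zero (lc_ne_zero hf))
  refine ⟨?_, ?_⟩
  · have : ((nz f : FF N) : LaurentSeries Kb)
        = (f : LaurentSeries Kb) * ((algebraMap Kb (FF N) (lc f)⁻¹ : FF N) : LaurentSeries Kb) := rfl
    rw [this, HahnSeries.order_mul (fun h => hf (Subtype.ext h)) (fun h => hc (Subtype.ext h)),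
      order_const, add_zero]
  · have : ((nz f : FF N) : LaurentSeries Kb).leadingCoeff = lc (nz f) := rfl
    rw [this, nz, lc_mul, lc_const, mul_inv_cancel₀ (lc_ne_zero hf)]

theorem nz_ne_zero {f : FF N} (hf : f ≠ 0) : nz f ≠ 0 := fun h => by
  have := (ld_nz hf).ne_zero
  rw [h] at this
  exact this rfl

/-- the orbit of a function under `Gal(ℚ̄/ℚ)` is finite. -/
theorem finite_orbit [NeZero N] (f : FF N) : (Set.range fun σ : GQ => gal N σ f).Finite := by
  obtain ⟨K1, h1, -, hS⟩ := exists_K0 N ⊥ {f}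
  obtain ⟨f0, -, hf0⟩ := hS f (Finset.mem_singleton_self f)
  have hfac : Function.FactorsThrough (fun σ : GQ => gal N σ f)
      (fun σ : GQ => ((σ : Kb →ₐ[ℚ] Kb).comp K1.val : K1 →ₐ[ℚ] Kb)) := by
    intro σ τ h
    apply Subtype.ext
    show coeffMap (σ : Kb →+* Kb) (f : LaurentSeries Kb) = coeffMap (τ : Kb →+* Kb) f
    ext n
    rw [coeffMap_coeff, coeffMap_coeff, ← hf0, bc, coeffMap_coeff]
    exact DFunLike.congr_fun h (f0.coeff n)
  obtain ⟨e, he⟩ := (Function.factorsThrough_iff _).1 hfac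
  have : (Set.range fun σ : GQ => gal N σ f) ⊆ Set.range e := by
    rintro _ ⟨σ, rfl⟩
    exact ⟨_, (congrFun he σ).symm⟩
  exact (Set.finite_range e).subset this

end Desc

open Desc

/-- **[D1]** a class fixed by `G` is represented by a function fixed by `G`. -/
theorem exists_fixed_rep (m N : ℕ) [NeZero N] (hm : 0 < m) (G : Subgroup GQ) (u : FF N)
    (hu : u ≠ 0) (h : ∀ σ ∈ G, ∃ z : FF N, gal N σ u = u * z ^ m) :
    ∃ u0 h0 : FF N, h0 ≠ 0 ∧ u = u0 * h0 ^ m ∧ ∀ σ ∈ G, gal N σ u0 = u0 := by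
  classical
  set v : FF N := nz u with hv
  have hv0 : v ≠ 0 := nz_ne_zero hu
  have hvl := ld_nz hu
  -- normalised roots
  have hroot : ∀ σ ∈ G, ∃ z : FF N, Ld (z : LaurentSeries Kb) 0 ∧ gal N σ v = v * z ^ m := by
    intro σ hσ
    obtain ⟨z, hz⟩ := h σ hσ
    have hz0 : z ≠ 0 := by
      rintro rfl
      rw [zero_pow hm.ne', mul_zero] at hz
      exact hu ((map_eq_zero (gal N σ)).1 hz)
    have hgv : Ld ((gal N σ v : FF N) : LaurentSeries Kb) (u : LaurentSeries Kb).order :=
      hvl.map σ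
    -- `gal σ v = v * (nz z)^m * const`
    have e1 : gal N σ v = v * nz z ^ m
        * algebraMap Kb (FF N) (lc u * lc z ^ m * (σ (lc u))⁻¹) := by
      have h1 : gal N σ v = gal N σ u * algebraMap Kb (FF N) (σ (lc u))⁻¹ := by
        rw [hv, nz, map_mul, gal_const, map_inv₀]
      have h2 : u = v * algebraMap Kb (FF N) (lc u) := eq_nz_mul u hu
      have h3 : z ^ m = nz z ^ m * algebraMap Kb (FF N) (lc z) ^ m := by
        rw [← mul_pow, ← eq_nz_mul z hz0]
      rw [h1, hz, h3, map_mul, map_mul, map_pow]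
      calc u * (nz z ^ m * algebraMap Kb (FF N) (lc z) ^ m) * algebraMap Kb (FF N) (σ (lc u))⁻¹
          = (v * algebraMap Kb (FF N) (lc u)) * (nz z ^ m * algebraMap Kb (FF N) (lc z) ^ m)
            * algebraMap Kb (FF N) (σ (lc u))⁻¹ := by rw [← h2]
        _ = _ := by ring
    set c : Kb := lc u * lc z ^ m * (σ (lc u))⁻¹ with hc
    have hzl := ld_nz hz0
    have h2 : lc (gal N σ v) = 1 := hgv.2
    have h3 : lc (v * nz z ^ m) = 1 := (hvl.mul (hzl.pow m)).2
    have hc1 : c = 1 := by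
      have := congrArg lc e1
      rw [h2, lc_mul, h3, lc_const, one_mul] at this
      exact this.symm
    rw [hc1, map_one, mul_one] at e1
    have hord : (z : LaurentSeries Kb).order = 0 := by
      have h4 := (hvl.mul (hzl.pow m)).1
      have h5 : ((gal N σ v : FF N) : LaurentSeries Kb)
          = (v : LaurentSeries Kb) * (nz z : LaurentSeries Kb) ^ m := by
        rw [e1]; rfl
      rw [← h5, hgv.1] at h4
      have hm' : (m : ℤ) ≠ 0 := by exact_mod_cast hm.ne'
      have : (m : ℤ) * (z : LaurentSeries Kb).order = 0 := by linarith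
      exact (mul_eq_zero.1 this).resolve_left hm'
    rw [hord] at hzl
    exact ⟨nz z, hzl, e1⟩
  -- the finite set of normalised roots
  set R : Set (FF N) := {z | Ld (z : LaurentSeries Kb) 0 ∧ ∃ σ ∈ G, gal N σ v = v * z ^ m} with hR
  have hinj : Set.InjOn (fun z : FF N => v * z ^ m) R := by
    intro z hz z' hz' e
    have e' : z ^ m = z' ^ m := mul_left_cancel₀ hv0 e
    apply Subtype.ext
    exact hz.1.eq_of_pow_eq hz'.1 hm (congrArg (fun w : FF N => (w : LaurentSeries Kb)) e')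
  have hfin : R.Finite := by
    refine Set.Finite.of_finite_image ((finite_orbit v).subset ?_) hinj
    rintro _ ⟨z, ⟨-, σ, -, hσ⟩, rfl⟩
    exact ⟨σ, hσ⟩
  set Rf : Finset (FF N) := hfin.toFinset with hRf
  have hmem : ∀ z, z ∈ Rf ↔ z ∈ R := fun z => hfin.mem_toFinset
  have h1R : (1 : FF N) ∈ Rf := by
    rw [hmem]
    exact ⟨ld_one, 1, G.one_mem, by rw [gal_one, one_pow, mul_one]⟩
  set h0 : FF N := ∑ z ∈ Rf, z with hh0
  have hh0ne : h0 ≠ 0 := by
    intro e
    have hc : (h0 : LaurentSeries Kb).coeff 0 = (Rf.card : Kb) := by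
      have : (h0 : LaurentSeries Kb) = ∑ z ∈ Rf, (z : LaurentSeries Kb) := by
        rw [hh0]
        exact map_sum (modularFunctionFieldBar N).val _ _
      rw [this, HahnSeries.coeff_sum, Finset.sum_congr rfl fun z hz => ((hmem z).1 hz).1.coeff]
      simp
    rw [e] at hc
    have h2 : (Rf.card : Kb) ≠ 0 := Nat.cast_ne_zero.2 (Finset.card_ne_zero_of_mem h1R)
    exact h2 hc.symm
  have hkey : ∀ τ ∈ G, ∀ zτ : FF N, Ld (zτ : LaurentSeries Kb) 0 → gal N τ v = v * zτ ^ m →
      zτ * gal N τ h0 = h0 := by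
    intro τ hτ zτ hzl hzτ
    have hzτ0 : zτ ≠ 0 := fun e => hzl.ne_zero (by rw [e]; rfl)
    set Θ : FF N → FF N := fun z => zτ * gal N τ z with hΘ
    have hΘinj : Function.Injective Θ := by
      intro a b e
      exact (gal N τ).injective (mul_left_cancel₀ hzτ0 e)
    have hΘR : ∀ z ∈ Rf, Θ z ∈ Rf := by
      intro z hz
      rw [hmem] at hz ⊢
      obtain ⟨hzl', σ, hσ, hzσ⟩ := hz
      refine ⟨?_, τ * σ, G.mul_mem hτ hσ, ?_⟩
      · have := hzl.mul (hzl'.map τ)
        rwa [add_zero] at this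
      · rw [gal_mul, hzσ, map_mul, map_pow, hzτ, hΘ]
        ring
    have himg : Rf.image Θ = Rf := by
      apply Finset.eq_of_subset_of_card_le
      · intro y hy
        obtain ⟨z, hz, rfl⟩ := Finset.mem_image.1 hy
        exact hΘR z hz
      · rw [Finset.card_image_of_injective _ hΘinj]
    calc zτ * gal N τ h0 = ∑ z ∈ Rf, Θ z := by
          rw [hh0, map_sum, Finset.mul_sum]
      _ = ∑ y ∈ Rf.image Θ, y :=
          (Finset.sum_image (f := fun y : FF N => y) fun a _ b _ e => hΘinj e).symm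
      _ = h0 := by rw [himg]
  obtain ⟨d, hd⟩ := IsAlgClosed.exists_pow_nat_eq (lc u) hm
  refine ⟨v * h0 ^ m, algebraMap Kb (FF N) d * h0⁻¹, ?_, ?_, ?_⟩
  · refine mul_ne_zero ((map_ne_zero _).2 ?_) (inv_ne_zero hh0ne)
    rintro rfl
    rw [zero_pow hm.ne'] at hd
    exact lc_ne_zero hu hd.symm
  · rw [mul_pow, ← map_pow, hd, inv_pow]
    have h2 : u = v * algebraMap Kb (FF N) (lc u) := eq_nz_mul u hu
    have : h0 ^ m ≠ 0 := pow_ne_zero _ hh0ne
    rw [mul_comm (algebraMap Kb (FF N) (lc u)), ← mul_assoc, mul_assoc v, mul_inv_cancel₀ this,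
      mul_one]
    exact h2
  · intro τ hτ
    obtain ⟨zτ, hzl, hzτ⟩ := hroot τ hτ
    rw [map_mul, map_pow, hzτ, mul_assoc, ← mul_pow, hkey τ hτ zτ hzl hzτ]

end Fermat.Agent.S36
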