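import Fermat.Agent.S36.Desc

/-!
# S36, block G-DESC, part 2 : fields of definition

* `isDef_of_coeff_mem` : a function whose `q`-expansion has its coefficients in `K0` is defined
  over `K0`;
* `isDef_of_fixed` : a function fixed by `Gal(ℚ̄/K0)` is defined over `K0`;
* `exists_unr_isDef` : functions fixed by the inertia group are defined over an unramified number
  field;
* `root_descent` : `m`-th roots, up to a constant.
-/

set_option autoImplicit false
set_option linter.unusedSectionVars false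

noncomputable section

namespace Fermat.Agent.S36

open ModularCurve AlgebraicCurve
open Fermat.Agent.S24 Fermat.Agent.S28 Fermat.Agent.ES Fermat.Agent.ES.QE Fermat.Agent.ES.Inst
  Fermat.Agent.S34 Desc

variable {N : ℕ} [NeZero N]

/-- **[D2]** -/
theorem isDef_of_coeff_mem (K0 : IntermediateField ℚ Kb) (f : FF N)
    (h : ∀ n, (f : LaurentSeries Kb).coeff n ∈ K0) :
    ∃ f0 ∈ F0 K0 N, bc K0 f0 = (f : LaurentSeries Kb) := by
  let g : LaurentSeries K0 :=
    { coeff := fun n => ⟨(f : LaurentSeries Kb).coeff n, h n⟩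
      isPWO_support' := by
        refine (f : LaurentSeries Kb).isPWO_support'.mono ?_
        intro n hn h0
        exact hn (Subtype.ext h0) }
  have hg : bc K0 g = (f : LaurentSeries Kb) := by
    ext n
    rw [bc, coeffMap_coeff]
    rfl
  obtain ⟨a', ha', e⟩ := span_descent K0 N g (fun _ : Fin 1 => 1) (fun _ => f) (by
    rw [hg]
    simp)
  refine ⟨g, ?_, hg⟩
  rw [e]
  simpa using ha' 0

theorem mem_of_fixed (K0 : IntermediateField ℚ Kb) (x : Kb)
    (h : ∀ σ : GQ, (∀ y ∈ K0, σ y = y) → σ x = x) : x ∈ K0 := by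
  have h1 : x ∈ IntermediateField.fixedField (IntermediateField.fixingSubgroup K0) := by
    rw [IntermediateField.mem_fixedField_iff]
    intro σ hσ
    exact h σ fun y hy => (IntermediateField.mem_fixingSubgroup_iff K0 σ).1 hσ y hy
  have h4 : IsAlgClosure ℚ Kb := @AlgebraicClosure.instIsAlgClosure ℚ _
  have h5 : IsGalois ℚ Kb := IsAlgClosure.isGalois ℚ Kb
  rwa [InfiniteGalois.fixedField_fixingSubgroup] at h1

theorem coeff_fixed {σ : GQ} {f : FF N} (h : gal N σ f = f) (n : ℤ) :
    σ ((f : LaurentSeries Kb).coeff n) = (f : LaurentSeries Kb).coeff n := by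
  have := congrArg (fun w : FF N => (w : LaurentSeries Kb).coeff n) h
  simp only [coe_gal, coeffMap_coeff] at this
  exact this

theorem isDef_of_fixed (K0 : IntermediateField ℚ Kb) (f : FF N)
    (h : ∀ σ : GQ, (∀ y ∈ K0, σ y = y) → gal N σ f = f) :
    ∃ f0 ∈ F0 K0 N, bc K0 f0 = (f : LaurentSeries Kb) :=
  isDef_of_coeff_mem K0 f fun n => mem_of_fixed K0 _ fun σ hσ => coeff_fixed (h σ hσ) n

theorem gal_of_isDef (K0 : IntermediateField ℚ Kb) (f : FF N)
    (h : ∃ f0 ∈ F0 K0 N, bc K0 f0 = (f : LaurentSeries Kb)) (σ : GQ) (hσ : ∀ y ∈ K0, σ y = y) :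
    gal N σ f = f := by
  obtain ⟨f0, -, hf0⟩ := h
  apply Subtype.ext
  rw [coe_gal]
  ext n
  rw [coeffMap_coeff, ← hf0, bc, coeffMap_coeff]
  exact hσ _ (f0.coeff n).2

/-- **[D2']** functions fixed by the inertia group are defined over an unramified number field. -/
theorem exists_unr_isDef (A : ValuationSubring Kb) (S : Finset (FF N))
    (hS : ∀ f ∈ S, ∀ σ ∈ A.inertiaSubgroupIn ℚ, gal N σ f = f) :
    ∃ K0 : IntermediateField ℚ Kb, FiniteDimensional ℚ K0 ∧ Unr A K0 ∧
      ∀ K0' : IntermediateField ℚ Kb, K0 ≤ K0' →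
        ∀ f ∈ S, ∃ f0 ∈ F0 K0' N, bc K0' f0 = (f : LaurentSeries Kb) := by
  obtain ⟨K1, h1, -, hK1⟩ := exists_K0 N ⊥ S
  set K0 : IntermediateField ℚ Kb :=
    K1 ⊓ IntermediateField.fixedField (A.inertiaSubgroupIn ℚ) with hK0
  have hle : K0 ≤ K1 := inf_le_left
  refine ⟨K0, ?_, ?_, ?_⟩
  · exact FiniteDimensional.of_injective (IntermediateField.inclusion hle).toLinearMap
      (IntermediateField.inclusion_injective hle)
  · intro σ hσ x hx
    exact (IntermediateField.mem_fixedField_iff _ _).1 hx.2 σ hσ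
  · intro K0' hle' f hf
    refine InstUp.IsDef.mono hle' (isDef_of_coeff_mem K0 f fun n => ⟨?_, ?_⟩)
    · obtain ⟨f0, -, hf0⟩ := hK1 f hf
      rw [← hf0, bc, coeffMap_coeff]
      exact (f0.coeff n).2
    · show _ ∈ IntermediateField.fixedField (A.inertiaSubgroupIn ℚ)
      rw [IntermediateField.mem_fixedField_iff]
      exact fun σ hσ => coeff_fixed (hS f hf σ hσ) n

/-- **[D3]** an `m`-th root of a function defined over `K0` is defined over `K0`, up to a
constant of `K0`. -/
theorem root_descent (K0 : IntermediateField ℚ Kb) (m : ℕ) (hm : 0 < m) (v z : FF N) (hv0 : v ≠ 0)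
    (hv : ∃ f0 ∈ F0 K0 N, bc K0 f0 = (v : LaurentSeries Kb)) (h : v = z ^ m) :
    ∃ (c : K0) (z0 : FF N), c ≠ 0 ∧ z0 ≠ 0 ∧
      (∃ f0 ∈ F0 K0 N, bc K0 f0 = (z0 : LaurentSeries Kb)) ∧
      v = algebraMap Kb (FF N) (c : Kb) * z0 ^ m := by
  have hz0 : z ≠ 0 := by
    rintro rfl
    rw [zero_pow hm.ne'] at h
    exact hv0 h
  have hlc : lc v = lc z ^ m := by
    rw [h]
    clear h
    induction m with
    | zero => exact absurd hm (lt_irrefl 0)
    | succ k ih =>
      rcases Nat.eq_zero_or_pos k with rfl | hk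
      · simp
      · rw [pow_succ, lc_mul, pow_succ, ih hk]
  have hcK : lc v ∈ K0 := by
    obtain ⟨f0, -, hf0⟩ := hv
    rw [lc, HahnSeries.leadingCoeff_eq, ← hf0, bc, coeffMap_coeff]
    exact (f0.coeff _).2
  have e1 : v = algebraMap Kb (FF N) (lc v) * nz z ^ m := by
    rw [hlc, map_pow, ← mul_pow, mul_comm, ← eq_nz_mul z hz0, h]
  refine ⟨⟨lc v, hcK⟩, nz z, ?_, nz_ne_zero hz0, ?_, e1⟩
  · intro e
    exact lc_ne_zero hv0 (congrArg Subtype.val e)
  · apply isDef_of_fixed
    intro σ hσ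
    have hc0 : (algebraMap Kb (FF N) (lc v) : FF N) ≠ 0 := (map_ne_zero _).2 (lc_ne_zero hv0)
    have e2 : gal N σ (nz z) ^ m = nz z ^ m := by
      have := congrArg (gal N σ) e1
      rw [gal_of_isDef K0 v hv σ hσ, map_mul, gal_const, hσ _ hcK, map_pow] at this
      exact (mul_left_cancel₀ hc0 (e1.symm.trans this)).symm
    apply Subtype.ext
    exact ((ld_nz hz0).map σ).eq_of_pow_eq (ld_nz hz0) hm
      (congrArg (fun w : FF N => (w : LaurentSeries Kb)) e2)

end Fermat.Agent.S36
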