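import Fermat.Agent.S36.UnrZeta

/-!
# S36, block G-DESC, package D5 : `m`-th roots of units are unramified (`q ∤ m`)

* `inertia_fix_root` : `d ^ m = c`, `c` a unit of `A` fixed by `σ ∈ I_A`, `q ∤ m`, then `σ d = d`;
* `exists_unr_root`, `exists_unr_roots` : finite unramified fields containing the roots;
* `exists_unr_root_mul_pow` : the same for `c = q ^ (m i) * unit`.
-/

set_option autoImplicit false

noncomputable section

namespace Fermat.Agent.S36

open Fermat.Agent.S24 Fermat.Agent.ES Fermat.Agent.ES.Inst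

variable {A : ValuationSubring Kb}

theorem Desc.mem_of_pow_mem {x : Kb} {n : ℕ} (hn : n ≠ 0) (h : x ^ n ∈ A) : x ∈ A := by
  have hx : IsIntegral A x := by
    refine ⟨Polynomial.X ^ n - Polynomial.C (⟨x ^ n, h⟩ : A),
      Polynomial.monic_X_pow_sub_C (⟨x ^ n, h⟩ : A) hn, ?_⟩
    rw [Polynomial.eval₂_sub, Polynomial.eval₂_pow, Polynomial.eval₂_X, Polynomial.eval₂_C]
    exact sub_self _
  obtain ⟨a, ha⟩ := (IsIntegrallyClosed.isIntegral_iff (R := A) (K := Kb)).mp hx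
  rw [← ha]
  exact a.2

/-- a root of unity of order prime to `q` which is `1` in the residue field is `1`. -/
theorem Desc.eq_one_of_residue_eq_one {q n : ℕ} (hq : q.Prime) (hA : A.LiesOverPrime q)
    (hn : ¬ q ∣ n) {z : A} (hz : z ^ n = 1) (h1 : IsLocalRing.residue A z = 1) : z = 1 := by
  have hn0 : n ≠ 0 := by
    rintro rfl
    exact hn (dvd_zero q)
  have hfin : IsOfFinOrder z := isOfFinOrder_iff_pow_eq_one.mpr ⟨n, Nat.pos_of_ne_zero hn0, hz⟩
  have hd : orderOf z ∣ n := orderOf_dvd_of_pow_eq_one hz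
  have := ECyc.charP_residue hq hA
  have hpne : ((orderOf z : ℕ) : IsLocalRing.ResidueField A) ≠ 0 := by
    intro h0
    exact hn (((CharP.cast_eq_zero_iff (IsLocalRing.ResidueField A) q _).mp h0).trans hd)
  have h2 : IsPrimitiveRoot (IsLocalRing.residue A z) (orderOf z) :=
    ECyc.isPrimitiveRoot_map (IsLocalRing.residue A) (IsPrimitiveRoot.orderOf z) hpne
  rw [h1] at h2
  have h3 : orderOf z = 1 := by
    have := h2.eq_orderOf
    rwa [orderOf_one] at this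
  exact orderOf_eq_one_iff.1 h3

/-- **D5** : the inertia group fixes the `m`-th roots (`q ∤ m`) of the units it fixes. -/
theorem inertia_fix_root {q m : ℕ} (hq : q.Prime) (hA : A.LiesOverPrime q) (hm : ¬ q ∣ m)
    {c d : Kb} (hc : c ∈ A) (hc' : c⁻¹ ∈ A) (hd : d ^ m = c) (σ : GQ)
    (hσ : σ ∈ A.inertiaSubgroupIn ℚ) (hσc : σ c = c) : σ d = d := by
  have hm0 : m ≠ 0 := by
    rintro rfl
    exact hm (dvd_zero q)
  by_cases hd0 : d = 0
  · rw [hd0, map_zero]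
  have hdA : d ∈ A := Desc.mem_of_pow_mem hm0 (hd ▸ hc)
  have hdA' : d⁻¹ ∈ A := Desc.mem_of_pow_mem hm0 (by rw [inv_pow, hd]; exact hc')
  obtain ⟨τ, hτ, rfl⟩ := hσ
  have hres : ∀ z : IsLocalRing.ResidueField A, τ • z = z := fun z =>
    DFunLike.congr_fun (show MulSemiringAction.toRingAut (A.decompositionSubgroup ℚ)
      (IsLocalRing.ResidueField A) τ = 1 from hτ) z
  set dA : A := ⟨d, hdA⟩ with hdAdef
  set eA : A := ⟨d⁻¹, hdA'⟩ with heAdef
  have hde : dA * eA = 1 := Subtype.ext (mul_inv_cancel₀ hd0)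
  set z : A := (τ • dA) * eA with hzdef
  have hzv : (z : Kb) = (τ : GQ) d * d⁻¹ := rfl
  have hzm : z ^ m = 1 := by
    apply Subtype.ext
    rw [SubmonoidClass.coe_pow, hzv, mul_pow, ← map_pow, inv_pow, hd]
    have : ((A.decompositionSubgroup ℚ).subtype τ) c = c := hσc
    have h2 : (τ : GQ) c = c := this
    rw [h2]
    have hc0 : c ≠ 0 := by
      rw [← hd]
      exact pow_ne_zero _ hd0
    exact mul_inv_cancel₀ hc0
  have hz1 : IsLocalRing.residue A z = 1 := by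
    rw [hzdef, map_mul, IsLocalRing.ResidueField.residue_smul, hres, ← map_mul, hde, map_one]
  have hz := Desc.eq_one_of_residue_eq_one hq hA hm hzm hz1
  have h3 : (τ : GQ) d * d⁻¹ = 1 := by
    rw [← hzv, hz]
    rfl
  have h4 : (τ : GQ) d = d := by
    have := congrArg (· * d) h3
    simpa [mul_assoc, inv_mul_cancel₀ hd0] using this
  exact h4

/-- **D5, fields** : finitely many units fixed by inertia have all their `m`-th roots in a finite
unramified field. -/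
theorem exists_unr_roots {q m : ℕ} (hq : q.Prime) (hA : A.LiesOverPrime q) (hm : ¬ q ∣ m)
    (S : Finset Kb) (hS : ∀ c ∈ S, c ∈ A ∧ c⁻¹ ∈ A ∧ ∀ σ ∈ A.inertiaSubgroupIn ℚ, σ c = c) :
    ∃ K1 : IntermediateField ℚ Kb, FiniteDimensional ℚ K1 ∧ Unr A K1 ∧
      ∀ c ∈ S, ∀ d : Kb, d ^ m = c → d ∈ K1 := by
  classical
  have hm0 : m ≠ 0 := by
    rintro rfl
    exact hm (dvd_zero q)
  set T : Finset Kb := S.biUnion fun c => (Polynomial.nthRoots m c).toFinset with hT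
  have hmem : ∀ d : Kb, d ∈ T ↔ d ^ m ∈ S := by
    intro d
    rw [hT, Finset.mem_biUnion]
    constructor
    · rintro ⟨c, hc, hd⟩
      rw [Multiset.mem_toFinset, Polynomial.mem_nthRoots (Nat.pos_of_ne_zero hm0)] at hd
      rwa [hd]
    · intro h
      refine ⟨d ^ m, h, ?_⟩
      rw [Multiset.mem_toFinset, Polynomial.mem_nthRoots (Nat.pos_of_ne_zero hm0)]
  refine ⟨IntermediateField.adjoin ℚ (T : Set Kb), finiteDimensional_adjoin_finset T,
    unr_adjoin _ ?_, ?_⟩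
  · intro d hd σ hσ
    have h1 : d ^ m ∈ S := (hmem d).1 hd
    obtain ⟨h2, h3, h4⟩ := hS _ h1
    exact inertia_fix_root hq hA hm h2 h3 rfl σ hσ (h4 σ hσ)
  · intro c hc d hd
    exact IntermediateField.subset_adjoin ℚ _ ((hmem d).2 (hd ▸ hc))

/-- **D5, one constant of an unramified field.** -/
theorem exists_unr_root {q m : ℕ} (hq : q.Prime) (hA : A.LiesOverPrime q) (hm : ¬ q ∣ m)
    (K0 : IntermediateField ℚ Kb) [FiniteDimensional ℚ K0] (hK0 : Unr A K0) (c : Kb)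
    (hcK : c ∈ K0) (hc : c ∈ A) (hc' : c⁻¹ ∈ A) :
    ∃ K1 : IntermediateField ℚ Kb, K0 ≤ K1 ∧ FiniteDimensional ℚ K1 ∧ Unr A K1 ∧
      ∃ d ∈ K1, d ^ m = c := by
  have hm0 : m ≠ 0 := by
    rintro rfl
    exact hm (dvd_zero q)
  obtain ⟨K1, hf, hu, h⟩ := exists_unr_roots hq hA hm {c} (by
    intro c' hc1
    rw [Finset.mem_singleton] at hc1
    subst hc1
    exact ⟨hc, hc', fun σ hσ => hK0 σ hσ _ hcK⟩)
  obtain ⟨d, hd⟩ := IsAlgClosed.exists_pow_nat_eq c (Nat.pos_of_ne_zero hm0)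
  have := hf
  exact ⟨K0 ⊔ K1, le_sup_left, IntermediateField.finiteDimensional_sup K0 K1, hK0.sup hu, d,
    le_sup_right (a := K0) (h c (Finset.mem_singleton_self c) d hd), hd⟩

/-- **D5, with a power of `q`** : `c = q ^ (m i) * unit`. -/
theorem exists_unr_root_mul_zpow {q m : ℕ} (hq : q.Prime) (hA : A.LiesOverPrime q)
    (hm : ¬ q ∣ m) (K0 : IntermediateField ℚ Kb) [FiniteDimensional ℚ K0] (hK0 : Unr A K0)
    (c : Kb) (hcK : c ∈ K0) (i : ℤ) (hc : c * (q : Kb) ^ ((m : ℤ) * i) ∈ A)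
    (hc' : (c * (q : Kb) ^ ((m : ℤ) * i))⁻¹ ∈ A) :
    ∃ K1 : IntermediateField ℚ Kb, K0 ≤ K1 ∧ FiniteDimensional ℚ K1 ∧ Unr A K1 ∧
      ∃ d ∈ K1, d ^ m = c := by
  have hq0 : (q : Kb) ≠ 0 := Nat.cast_ne_zero.2 hq.ne_zero
  have hqK : ∀ K : IntermediateField ℚ Kb, (q : Kb) ∈ K := fun K => natCast_mem K q
  obtain ⟨K1, h01, hf, hu, d, hd, hdm⟩ := exists_unr_root hq hA hm K0 hK0
    (c * (q : Kb) ^ ((m : ℤ) * i)) (mul_mem hcK (zpow_mem (hqK K0) _)) hc hc'
  refine ⟨K1, h01, hf, hu, d * ((q : Kb) ^ i)⁻¹, mul_mem hd (inv_mem (zpow_mem (hqK K1) _)), ?_⟩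
  rw [mul_pow, hdm, inv_pow, ← zpow_natCast ((q : Kb) ^ i) m, ← zpow_mul, mul_comm i (m : ℤ),
    mul_assoc, mul_inv_cancel₀ (zpow_ne_zero _ hq0), mul_one]

end Fermat.Agent.S36
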