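import Fermat.Agent.ES.Ram

/-!
# S36, G-REG : the abstract core of the DIFFERENT argument  [D0]

`A ⊆ B` Dedekind domains in characteristic zero, `y : B` a generator of the field extension.
If `B` is monogenic (generated by `y`) at a prime `Q` and `Q` is unramified over `A`, then the
derivative of the minimal polynomial of `y` at `y` is not in `Q`.
-/

set_option autoImplicit false
set_option linter.unusedSectionVars false

namespace Fermat.Agent.S36

open Ideal Algebra Polynomial

variable (A K L : Type*) {B : Type*} [CommRing A] [Field K] [CommRing B] [Field L]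
  [Algebra A K] [Algebra B L] [Algebra A B] [Algebra K L] [Algebra A L]
  [IsScalarTower A K L] [IsScalarTower A B L] [IsFractionRing A K]
  [FiniteDimensional K L] [Algebra.IsSeparable K L] [IsIntegralClosure B A L]
  [IsDedekindDomain A] [IsDedekindDomain B] [IsFractionRing B L]
  [Module.IsTorsionFree A B] [Module.Finite A B]

include K L in
/-- **[D0]** : monogenic + unramified at `Q` ⟹ `g'(y) ∉ Q`. -/
theorem deriv_notMem [Algebra ℚ A] (y : B) (hy : Algebra.adjoin K {algebraMap B L y} = ⊤)
    (Q : Ideal B) (hQp : Q.IsPrime) (hQ : Q ≠ ⊥) (s : A) (hs : algebraMap A B s ∉ Q)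
    (hmono : ∀ b : B, s • b ∈ Algebra.adjoin A {y})
    (hunr : ¬ Q ^ 2 ∣ (Q.comap (algebraMap A B)).map (algebraMap A B)) :
    aeval y (derivative (minpoly A y)) ∉ Q := by
  intro hmem
  have hprime : Prime Q := Ideal.prime_of_isPrime hQ hQp
  have hmul := conductor_mul_differentIdeal A K L y hy
  have hdvd : Q ∣ conductor A y * differentIdeal A B := by
    rw [hmul, Ideal.dvd_iff_le, Ideal.span_singleton_le_iff_mem]
    exact hmem
  rcases hprime.dvd_or_dvd hdvd with h | h
  · apply hs
    rw [Ideal.dvd_iff_le] at h
    apply h
    rw [mem_conductor_iff]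
    intro b
    rw [← Algebra.smul_def]
    exact hmono b
  · obtain ⟨e, he1, he, he', hd⟩ := ES.Ram.exists_exponent A K L Q hprime
    have he1' : e = 1 := by
      by_contra hne
      have h2 : 2 ≤ e := by omega
      exact hunr ((pow_dvd_pow Q h2).trans he)
    subst he1'
    rw [pow_one] at hd
    exact hd h

end Fermat.Agent.S36
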