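import Fermat.Agent.S37.StabH
import Fermat.Agent.S37.HI2

/-!
# S36 [DIFF], the part over an algebraically closed field of constants

`φ : F → E` a map of function fields over `K = K̄`, `v` a place of `F` such that all the places of
`E` over `v` are unramified.  If `y` is regular at these places and takes distinct values at them
and `g` is a monic polynomial of degree `[E : F]`, regular at `v`, with `g(y) = 0`, then `g'(y)` is
a unit at all the places over `v`.
-/

set_option autoImplicit false
set_option linter.unusedSectionVars false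

namespace Fermat.Agent.S36

open AlgebraicCurve Polynomial Fermat.Agent.S24 Fermat.Agent.S37

noncomputable section

namespace DiffKb

variable {K F E : Type*} [Field K] [IsAlgClosed K] [CharZero K] [Field F] [Field E]
  [Algebra K F] [Algebra K E] [FF.IsFF K F] [FF.IsFF K E]

/-- values are compatible with restriction. -/
theorem val_phi (φ : F →ₐ[K] E) (hφ : φ.toRingHom.IsIntegral) (W : Place K E) (a : F)
    (ha : a ∈ (W.restrictAlong φ hφ).toValuationSubring) :
    Rat.val W (φ a) = Rat.val (W.restrictAlong φ hφ) a := by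
  have ha' : φ a ∈ W.toValuationSubring := ha
  rw [Rat.val_eq_iff W ha']
  rcases Rat.val_spec (W.restrictAlong φ hφ) ha with h | h
  · left
    conv_lhs => rw [h]
    exact φ.commutes _
  · right
    rw [← StabH.ord_pos_iff, map_sub, AlgHom.commutes] at h
    exact h

/-- `𝒪_v → 𝒪_W`. -/
def rho (φ : F →ₐ[K] E) (hφ : φ.toRingHom.IsIntegral) (W : Place K E) :
    (W.restrictAlong φ hφ).toValuationSubring →+* W.toValuationSubring :=
  ((φ : F →+* E).comp (W.restrictAlong φ hφ).toValuationSubring.subtype).codRestrict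
    W.toValuationSubring.toSubring (fun a => a.2)

theorem coe_rho (φ : F →ₐ[K] E) (hφ : φ.toRingHom.IsIntegral) (W : Place K E)
    (a : (W.restrictAlong φ hφ).toValuationSubring) : ((rho φ hφ W a : W.toValuationSubring) : E)
      = φ (a : F) := rfl

theorem ev_rho (φ : F →ₐ[K] E) (hφ : φ.toRingHom.IsIntegral) (W : Place K E)
    (a : (W.restrictAlong φ hφ).toValuationSubring) :
    Rat.ev W (rho φ hφ W a) = Rat.ev (W.restrictAlong φ hφ) a := by
  have h1 := val_phi φ hφ W (a : F) a.2
  rw [Rat.val_of_mem _ a.2, Rat.val_of_mem W (show φ (a : F) ∈ W.toValuationSubring from a.2)] at h1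
  exact h1

/-- evaluation of a polynomial with coefficients regular at `v`. -/
theorem eval_aux (φ : F →ₐ[K] E) (hφ : φ.toRingHom.IsIntegral) (W : Place K E) (y : E)
    (hy : y ∈ W.toValuationSubring) (P : ((W.restrictAlong φ hφ).toValuationSubring)[X]) :
    eval₂ ((φ : F →+* E).comp (W.restrictAlong φ hφ).toValuationSubring.subtype) y P
        ∈ W.toValuationSubring ∧
      Rat.val W (eval₂ ((φ : F →+* E).comp (W.restrictAlong φ hφ).toValuationSubring.subtype) y P)
        = eval (Rat.val W y) (P.map (Rat.ev (W.restrictAlong φ hφ))) := by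
  have h1 : eval₂ ((φ : F →+* E).comp (W.restrictAlong φ hφ).toValuationSubring.subtype) y P
      = ((eval₂ (rho φ hφ W) (⟨y, hy⟩ : W.toValuationSubring) P : W.toValuationSubring) : E) := by
    have := hom_eval₂ P (rho φ hφ W) W.toValuationSubring.subtype (⟨y, hy⟩ : W.toValuationSubring)
    exact this.symm
  rw [h1]
  refine ⟨Subtype.prop _, ?_⟩
  rw [Rat.val_of_mem W (Subtype.prop _), Rat.val_of_mem W hy, eval_map]
  have h2 := hom_eval₂ P (rho φ hφ W) (Rat.ev W) (⟨y, hy⟩ : W.toValuationSubring)
  have h3 : (Rat.ev W).comp (rho φ hφ W) = Rat.ev (W.restrictAlong φ hφ) :=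
    RingHom.ext fun a => ev_rho φ hφ W a
  rw [h3] at h2
  exact h2

theorem eval_aux' (φ : F →ₐ[K] E) (hφ : φ.toRingHom.IsIntegral) (v : Place K F) (W : Place K E)
    (hW : W.restrictAlong φ hφ = v) (y : E)
    (hy : y ∈ W.toValuationSubring) (P : (v.toValuationSubring)[X]) :
    eval₂ ((φ : F →+* E).comp v.toValuationSubring.subtype) y P ∈ W.toValuationSubring ∧
      Rat.val W (eval₂ ((φ : F →+* E).comp v.toValuationSubring.subtype) y P)
        = eval (Rat.val W y) (P.map (Rat.ev v)) := by
  subst hW
  exact eval_aux φ hφ W y hy P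

/-- the reduction at `v` of a polynomial with coefficients regular at `v`. -/
theorem exists_red (φ : F →ₐ[K] E) (hφ : φ.toRingHom.IsIntegral) (v : Place K F) (P : F[X])
    (hP : ∀ i, P.coeff i ∈ v.toValuationSubring) :
    ∃ Pb : K[X], ∀ (W : Place K E), W.restrictAlong φ hφ = v → ∀ y : E,
      y ∈ W.toValuationSubring → eval₂ (φ : F →+* E) y P ∈ W.toValuationSubring ∧
        Rat.val W (eval₂ (φ : F →+* E) y P) = eval (Rat.val W y) Pb := by
  have hl : P ∈ lifts v.toValuationSubring.subtype := by
    rw [lifts_iff_coeff_lifts]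
    intro i
    exact ⟨⟨_, hP i⟩, rfl⟩
  obtain ⟨P0, hP0⟩ := hl
  refine ⟨P0.map (Rat.ev v), fun W hW y hy => ?_⟩
  have := eval_aux' φ hφ v W hW y hy P0
  rw [← eval₂_map] at this
  have e : map v.toValuationSubring.subtype P0 = P := hP0
  rwa [e] at this

/-- a monic polynomial of degree `n` with `n` distinct roots has simple roots. -/
theorem derivative_ne_zero_of_card {k : Type*} [Field k] (p : k[X]) (hp : p.Monic)
    (T : Finset k) (hT : ∀ t ∈ T, p.IsRoot t) (hcard : T.card = p.natDegree) (c : k)
    (hc : c ∈ T) : eval c p.derivative ≠ 0 := by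
  classical
  have hp0 : p ≠ 0 := hp.ne_zero
  have hle : T.val ≤ p.roots := by
    rw [Multiset.le_iff_subset T.nodup]
    intro t ht
    exact (mem_roots hp0).2 (hT t ht)
  have hcr : p.roots.card ≤ T.val.card := by
    rw [Finset.card_val, hcard]
    exact card_roots' p
  have heq : T.val = p.roots := Multiset.eq_of_le_of_card_le hle hcr
  have hm : p.rootMultiplicity c = 1 := by
    rw [← count_roots, ← heq]
    exact Multiset.count_eq_one_of_mem T.nodup hc
  intro h0
  have := (one_lt_rootMultiplicity_iff_isRoot hp0).2 ⟨hT c hc, h0⟩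
  omega

variable [HasPrincipalDivisors K E]

/-- the number of places over `v`. -/
theorem card_fiber (φ : F →ₐ[K] E) (hφ : φ.toRingHom.IsIntegral) (v : Place K F)
    (hram : ∀ W ∈ Place.fiberAlong φ hφ v, W.ramificationIndexAlong φ = 1) :
    (Place.fiberAlong φ hφ v).card = finrankAlong K φ := by
  have h := sum_ramificationIndexAlong φ hφ v
  rw [Finset.sum_congr rfl (fun W hW => by rw [hram W hW])] at h
  simpa using h

/-- **the derivative of the minimal polynomial is a unit over an unramified place.** -/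
theorem ord_derivative_eq_zero (φ : F →ₐ[K] E) (hφ : φ.toRingHom.IsIntegral) (v : Place K F)
    (hram : ∀ W ∈ Place.fiberAlong φ hφ v, W.ramificationIndexAlong φ = 1)
    (y : E) (hy : ∀ W ∈ Place.fiberAlong φ hφ v, y ∈ W.toValuationSubring)
    (hinj : ∀ W ∈ Place.fiberAlong φ hφ v, ∀ W' ∈ Place.fiberAlong φ hφ v,
      Rat.val W y = Rat.val W' y → W = W')
    (g : F[X]) (hg : g.Monic) (hdeg : g.natDegree = finrankAlong K φ)
    (hcoef : ∀ i, g.coeff i ∈ v.toValuationSubring)
    (hroot : eval₂ (φ : F →+* E) y g = 0)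
    (W : Place K E) (hW : W ∈ Place.fiberAlong φ hφ v) :
    eval₂ (φ : F →+* E) y g.derivative ≠ 0 ∧
      W.ord (eval₂ (φ : F →+* E) y g.derivative) = 0 := by
  classical
  have hl : g ∈ lifts v.toValuationSubring.subtype := by
    rw [lifts_iff_coeff_lifts]
    intro i
    exact ⟨⟨_, hcoef i⟩, rfl⟩
  obtain ⟨g0, hg0, hg0d, hg0m⟩ := lifts_and_natDegree_eq_and_monic hl hg
  set gb : K[X] := g0.map (Rat.ev v) with hgb
  have hgbm : gb.Monic := hg0m.map _
  have hgbd : gb.natDegree = finrankAlong K φ := by
    rw [hgb, hg0m.natDegree_map, hg0d, hdeg]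
  have hev : ∀ P : (v.toValuationSubring)[X],
      eval₂ ((φ : F →+* E).comp v.toValuationSubring.subtype) y P
        = eval₂ (φ : F →+* E) y (P.map v.toValuationSubring.subtype) := fun P =>
    (eval₂_map _ _ _).symm
  set T : Finset K := (Place.fiberAlong φ hφ v).image (fun W => Rat.val W y) with hT
  have hTcard : T.card = gb.natDegree := by
    rw [hT, Finset.card_image_of_injOn, card_fiber φ hφ v hram, hgbd]
    intro W1 h1 W2 h2 h
    exact hinj W1 h1 W2 h2 h
  have hTroot : ∀ t ∈ T, gb.IsRoot t := by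
    intro t ht
    obtain ⟨W1, h1, rfl⟩ := Finset.mem_image.1 ht
    have := (eval_aux' φ hφ v W1 (Place.mem_fiberAlong.1 h1) y (hy W1 h1) g0).2
    rw [hev, hg0, hroot] at this
    rw [IsRoot, ← this, ← map_zero (algebraMap K E), Rat.val_algebraMap]
  have hne := derivative_ne_zero_of_card gb hgbm T hTroot hTcard (Rat.val W y)
    (Finset.mem_image_of_mem _ hW)
  obtain ⟨hmem, hval⟩ := eval_aux' φ hφ v W (Place.mem_fiberAlong.1 hW) y (hy W hW) g0.derivative
  rw [hev, ← derivative_map, hg0, ← derivative_map, ← hgb] at hval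
  rw [hev, ← derivative_map, hg0] at hmem
  rw [← hval] at hne
  have h0 := S24.Place.ord_nonneg_of_mem W hmem
  refine ⟨fun h => hne (by rw [h, ← map_zero (algebraMap K E), Rat.val_algebraMap]), ?_⟩
  by_contra hcon
  have hpos : 0 < W.ord (eval₂ (φ : F →+* E) y g.derivative) := lt_of_le_of_ne h0 (Ne.symm hcon)
  apply hne
  rw [Rat.val_eq_iff W hmem, map_zero, sub_zero]
  exact Or.inr hpos

end DiffKb

end

end Fermat.Agent.S36
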