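import Fermat.Agent.S36.Span2
import Fermat.Agent.S34.NIncl

/-!
# S36 : the expansion `e_VV` (at the cusp `0`) of level `M₀ q q` over a number field

From `e2 : F0 K0 (M₀ q) → K0((T))` with `bc (e2 f) = W₁ (bc f)` we get
`eB : F0 K0 (M₀ q q) → K0((T))` with `bc (eB f) = W₂ (bc f)`,
`eB a = V_q (e2 a)`, `eB (V_q a) = e2 a` for `a ∈ F0 K0 (M₀ q)`.
-/

set_option autoImplicit false
set_option linter.unusedSectionVars false

noncomputable section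

namespace Fermat.Agent.S36

open ModularCurve AlgebraicCurve Polynomial
open Fermat.Agent.S24 Fermat.Agent.S28 Fermat.Agent.ES Fermat.Agent.ES.QE Fermat.Agent.ES.Inst
open Fermat.Agent.S34 Fermat.Agent.S34.WK

variable (M0 q : ℕ) [NeZero M0] [Fact q.Prime]

theorem exists_eVV (h : ¬ q ∣ M0) (K0 : IntermediateField ℚ Kb)
    (e2 : F0 K0 (M0 * q) →+* LaurentSeries K0)
    (he2 : ∀ (f : F0 K0 (M0 * q))
      (hf : bc K0 (f : LaurentSeries K0) ∈ modularFunctionFieldBar (M0 * q)),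
      bc K0 (e2 f) = ((Wb M0 q h ⟨_, hf⟩ : FF (M0 * q)) : LaurentSeries Kb)) :
    ∃ eB : F0 K0 (M0 * q * q) →+* LaurentSeries K0,
      (∀ (f : F0 K0 (M0 * q * q))
        (hf : bc K0 (f : LaurentSeries K0) ∈ modularFunctionFieldBar (M0 * q * q)),
        bc K0 (eB f) = ((Wb2 M0 q h ⟨_, hf⟩ : FF (M0 * q * q)) : LaurentSeries Kb)) ∧
      (∀ (a : F0 K0 (M0 * q)) (ha : (a : LaurentSeries K0) ∈ F0 K0 (M0 * q * q)),
        eB ⟨a, ha⟩ = qExpand K0 q (e2 a)) ∧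
      (∀ (a : F0 K0 (M0 * q)) (ha : qExpand K0 q (a : LaurentSeries K0) ∈ F0 K0 (M0 * q * q)),
        eB ⟨_, ha⟩ = e2 a) := by
  have hqK : (q : K0) ≠ 0 := Nat.cast_ne_zero.2 (NeZero.ne q)
  let ι : F0 K0 (M0 * q * q) →+* FF (M0 * q * q) :=
    ((bc K0).comp (algebraMap (F0 K0 (M0 * q * q)) (LaurentSeries K0))).codRestrict
      (modularFunctionFieldBar (M0 * q * q)) (fun f => bc_mem K0 (M0 * q * q) f.2)
  let ψ : F0 K0 (M0 * q * q) →+* LaurentSeries Kb :=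
    (modularFunctionFieldBar (M0 * q * q)).val.toRingHom.comp
      ((Wb2 M0 q h : FF (M0 * q * q) →+* FF (M0 * q * q)).comp ι)
  have hια : ∀ (u : LaurentSeries K0) (hu : u ∈ F0 K0 (M0 * q)),
      ι ⟨u, F0_le (M0 * q) q K0 hu⟩
        = heckeAlphaBar Kb (M0 * q) q ⟨bc K0 u, bc_mem K0 (M0 * q) hu⟩ :=
    fun u hu => Subtype.ext (bc_alpha (M0 * q) q K0 hu).symm
  have hιβ : ∀ (u : LaurentSeries K0) (hu : u ∈ F0 K0 (M0 * q)),
      ι ⟨qExpand K0 q u, V_mem_F0 (M0 * q) q K0 hqK hu⟩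
        = heckeBetaBar Kb (M0 * q) q ⟨bc K0 u, bc_mem K0 (M0 * q) hu⟩ :=
    fun u hu => Subtype.ext (bc_beta (M0 * q) q K0 hu).symm
  have hψα : ∀ (u : LaurentSeries K0) (hu : u ∈ F0 K0 (M0 * q)),
      ψ ⟨u, F0_le (M0 * q) q K0 hu⟩ = bc K0 (qExpand K0 q (e2 ⟨u, hu⟩)) := by
    intro u hu
    show ((Wb2 M0 q h (ι ⟨u, F0_le (M0 * q) q K0 hu⟩) : FF (M0 * q * q)) : LaurentSeries Kb) = _
    rw [hια u hu, Wb2_alpha, coe_heckeBetaBar, S34.bc_qExpand,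
      he2 ⟨u, hu⟩ (bc_mem K0 (M0 * q) hu)]
  have hψβ : ∀ (u : LaurentSeries K0) (hu : u ∈ F0 K0 (M0 * q)),
      ψ ⟨qExpand K0 q u, V_mem_F0 (M0 * q) q K0 hqK hu⟩ = bc K0 (e2 ⟨u, hu⟩) := by
    intro u hu
    show ((Wb2 M0 q h (ι ⟨qExpand K0 q u, V_mem_F0 (M0 * q) q K0 hqK hu⟩) : FF (M0 * q * q)) :
      LaurentSeries Kb) = _
    rw [hιβ u hu, Wb2_beta, coe_heckeAlphaBar, he2 ⟨u, hu⟩ (bc_mem K0 (M0 * q) hu)]
  -- `w = j`
  have hj0 : jqModC K0 ∈ F0 K0 M0 := by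
    have := gX_mem_F0 K0 (N := M0) (d := 1) (NeZero.ne M0) (one_dvd _)
    rwa [gX, Ord.qExp_one] at this
  have hjV : qExpand K0 q (jqModC K0) ∈ F0 K0 (M0 * q) := V_mem_F0 M0 q K0 hqK hj0
  have hjmem : bc K0 (jqModC K0) ∈ modularFunctionFieldBar M0 := bc_mem K0 M0 hj0
  have hjord : (bc K0 (jqModC K0)).order = -1 := by
    rw [S34.bc_jq]
    exact Ord.order_jqModC Kb
  have hmem : ∀ f : F0 K0 (M0 * q * q), ψ f ∈ (bc K0).fieldRange := by
    intro f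
    obtain ⟨a, ha, hf⟩ := span2_K0 M0 q h K0 (jqModC K0) hjmem hjord f.2
    have e : f = ∑ i, (⟨a i, F0_le (M0 * q) q K0 (ha i)⟩ : F0 K0 (M0 * q * q))
        * (⟨qExpand K0 q (qExpand K0 q (jqModC K0)), V_mem_F0 (M0 * q) q K0 hqK hjV⟩ :
          F0 K0 (M0 * q * q)) ^ (i : ℕ) := by
      apply Subtype.ext
      rw [IntermediateField.coe_sum, hf]
      rfl
    rw [e, map_sum]
    refine sum_mem fun i _ => ?_
    rw [map_mul, map_pow, hψα _ (ha i), hψβ _ hjV]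
    have hr : ∀ z : LaurentSeries K0, bc K0 z ∈ (bc K0).fieldRange := fun z => ⟨z, rfl⟩
    exact mul_mem (hr _) (pow_mem (hr _) _)
  let eB : F0 K0 (M0 * q * q) →+* LaurentSeries K0 :=
    ((bc K0).rangeRestrictFieldEquiv.symm : (bc K0).fieldRange →+* LaurentSeries K0).comp
      (ψ.codRestrict (bc K0).fieldRange hmem)
  have heB : ∀ f, bc K0 (eB f) = ψ f := fun f =>
    (bc K0).rangeRestrictFieldEquiv_apply_symm_apply _
  refine ⟨eB, fun f hf => heB f, fun a ha => ?_, fun a ha => ?_⟩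
  · apply S34.bc_injective K0
    rw [heB]
    exact hψα a a.2
  · apply S34.bc_injective K0
    rw [heB]
    exact hψβ a a.2

end Fermat.Agent.S36
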