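import Fermat.Agent.S36.Span2
import Fermat.Agent.S36.EmbAbs
import Fermat.Agent.S34.NIncl
import Fermat.Agent.S28.Ord

/-!
# S36, block G-THREE, package T-EMB : embeddings of `FF (M₀ q²)`, the expansion `e_C`

Two embeddings `φ, ψ` of `FF (M₀ q)` which agree on the overlap (`φ β₁ = ψ α₁`) and are not
"diagonal" glue to an embedding of `FF (M₀ q²)`.  Application: the expansion at the middle cusp,
`e_C (α h) = h`, `e_C (β h) = (W h)(ζ T)`, first over `Kb`, then over number fields `K0 ≤ K0' ∋ ζ`.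
-/

set_option autoImplicit false
set_option linter.unusedSectionVars false

noncomputable section

namespace Fermat.Agent.S36

open ModularCurve AlgebraicCurve Polynomial
open Fermat.Agent.S24 Fermat.Agent.S28 Fermat.Agent.ES Fermat.Agent.ES.QE Fermat.Agent.ES.Inst
open Fermat.Agent.S34 Fermat.Agent.S34.WK

variable (M0 q : ℕ) [NeZero M0] [Fact q.Prime]

theorem alpha_beta_comm (u : FF M0) :
    heckeAlphaBar Kb (M0 * q) q (heckeBetaBar Kb M0 q u)
      = heckeBetaBar Kb (M0 * q) q (heckeAlphaBar Kb M0 q u) :=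
  Subtype.ext (by
    rw [coe_heckeAlphaBar, coe_heckeBetaBar, coe_heckeBetaBar, coe_heckeAlphaBar])

theorem exists_emb (hqM : ¬ q ∣ M0) {L : Type*} [Field L]
    (φ ψ : FF (M0 * q) →+* L)
    (h1 : ∀ u : FF M0, φ (heckeBetaBar Kb M0 q u) = ψ (heckeAlphaBar Kb M0 q u))
    (hne : ψ (heckeBetaBar Kb M0 q (jF M0)) ≠ φ (heckeAlphaBar Kb M0 q (jF M0))) :
    ∃ e : FF (M0 * q * q) →+* L, (∀ h, e (heckeAlphaBar Kb (M0 * q) q h) = φ h) ∧
      (∀ h, e (heckeBetaBar Kb (M0 * q) q h) = ψ h) := by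
  have hq : q.Prime := Fact.out
  let _ := algebraAlong (heckeAlphaBar Kb (M0 * q) q)
  have hfr : Module.finrank (FF (M0 * q)) (FF (M0 * q * q)) = q :=
    finrank_heckeAlpha_of_dvd (M0 * q) q (dvd_mul_left q M0)
  refine exists_emb_abs q hq.pos (heckeAlphaBar Kb M0 q).toRingHom (heckeBetaBar Kb M0 q).toRingHom
    (heckeBetaBar Kb (M0 * q) q).toRingHom (jF M0) (alpha_beta_comm M0 q)
    (Wb M0 q hqM : FF (M0 * q) →+* FF (M0 * q)) (Wb_alpha M0 q hqM) (Wb_beta M0 q hqM)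
    (span_Kb M0 q hq hqM) ?_ hfr ?_ φ ψ h1 hne
  · intro S hα hβ x
    exact S37.KT.map_mem (M0 * q) q (RingHom.id _) S hα hβ x
  · intro h
    have h2 : qExpand Kb q (qExpand Kb q (jqModC Kb)) = jqModC Kb := by
      have h3 := congrArg Subtype.val h
      have h4 : ((heckeBetaBar Kb (M0 * q) q (heckeBetaBar Kb M0 q (jF M0)) : FF (M0 * q * q)) :
          LaurentSeries Kb) = ((heckeAlphaBar Kb (M0 * q) q (heckeAlphaBar Kb M0 q (jF M0)) :
          FF (M0 * q * q)) : LaurentSeries Kb) := h3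
      rwa [coe_heckeBetaBar, coe_heckeBetaBar, coe_heckeAlphaBar, coe_heckeAlphaBar, coe_jF'] at h4
    have h5 := congrArg (fun f => f.coeff (-1 : ℤ)) h2
    rw [coeff_jqModC_neg_one, qExpand_coeff_of_not_dvd] at h5
    · exact zero_ne_one h5
    · intro hd
      have := Int.natAbs_dvd_natAbs.2 hd
      simp at this
      exact hq.one_lt.ne' this

/-- `f(T^q)` is invariant under `T ↦ ζ T`. -/
theorem twist_qExpand_of_pow {K : Type*} [Field K] (ω : Kˣ) (hω : ω ^ q = 1)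
    (f : LaurentSeries K) : S28.twist ω (qExpand K q f) = qExpand K q f := by
  ext n
  rw [S28.twist_coeff]
  by_cases hn : (q : ℤ) ∣ n
  · obtain ⟨c, rfl⟩ := hn
    rw [zpow_mul, zpow_natCast, hω, one_zpow, Units.val_one, one_mul]
  · rw [qExpand_coeff_of_not_dvd q f hn, mul_zero]

/-- **the expansion at the middle cusp**, over `Kb`. -/
theorem exists_eC_Kb (hqM : ¬ q ∣ M0) (ζ : Kbˣ) (hζ1 : ζ ≠ 1) (hζq : ζ ^ q = 1) :
    ∃ e : FF (M0 * q * q) →+* LaurentSeries Kb,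
      (∀ h : FF (M0 * q), e (heckeAlphaBar Kb (M0 * q) q h) = (h : LaurentSeries Kb)) ∧
      (∀ h : FF (M0 * q), e (heckeBetaBar Kb (M0 * q) q h)
        = S28.twist ζ ((Wb M0 q hqM h : FF (M0 * q)) : LaurentSeries Kb)) := by
  refine exists_emb M0 q hqM (modularFunctionFieldBar (M0 * q)).val.toRingHom
    ((S28.twist ζ).comp ((modularFunctionFieldBar (M0 * q)).val.toRingHom.comp
      (Wb M0 q hqM : FF (M0 * q) →+* FF (M0 * q)))) ?_ ?_
  · intro u
    show ((heckeBetaBar Kb M0 q u : FF (M0 * q)) : LaurentSeries Kb)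
      = S28.twist ζ ((Wb M0 q hqM (heckeAlphaBar Kb M0 q u) : FF (M0 * q)) : LaurentSeries Kb)
    rw [Wb_alpha, coe_heckeBetaBar, twist_qExpand_of_pow q ζ hζq]
  · intro h
    have h' : S28.twist ζ ((Wb M0 q hqM (heckeBetaBar Kb M0 q (jF M0)) : FF (M0 * q)) :
        LaurentSeries Kb) = ((heckeAlphaBar Kb M0 q (jF M0) : FF (M0 * q)) : LaurentSeries Kb) := h
    rw [Wb_beta, coe_heckeAlphaBar, coe_jF'] at h'
    have h5 := congrArg (fun f => f.coeff (-1 : ℤ)) h'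
    simp only [S28.twist_coeff, coeff_jqModC_neg_one, mul_one] at h5
    apply hζ1
    have h6 : ζ ^ (-1 : ℤ) = 1 := Units.ext h5
    rwa [zpow_neg_one, inv_eq_one] at h6

/-- `bc K0 = bc K0' ∘ (K0 ⊆ K0')`. -/
theorem bc_incl {K0 K0' : IntermediateField ℚ Kb} (hle : K0 ≤ K0') (f : LaurentSeries K0) :
    bc K0' (coeffMap (IntermediateField.inclusion hle).toRingHom f) = bc K0 f := by
  rw [bc, coeffMap_coeffMap]
  rfl

/-- **the expansion at the middle cusp**, over number fields `K0 ≤ K0' ∋ ζ`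
(fields `eC`, `eC_alpha`, `eC_beta` of `Three`). -/
theorem exists_eC (h : ¬ q ∣ M0) (K0 K0' : IntermediateField ℚ Kb) (hle : K0 ≤ K0')
    (ζ : K0'ˣ) (hζ1 : ζ ≠ 1) (hζq : ζ ^ q = 1)
    (e2 : F0 K0 (M0 * q) →+* LaurentSeries K0)
    (he2 : ∀ (f : F0 K0 (M0 * q))
      (hf : bc K0 (f : LaurentSeries K0) ∈ modularFunctionFieldBar (M0 * q)),
      bc K0 (e2 f) = ((Wb M0 q h ⟨_, hf⟩ : FF (M0 * q)) : LaurentSeries Kb)) :
    ∃ eC : F0 K0 (M0 * q * q) →+* LaurentSeries K0',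
      (∀ (a : F0 K0 (M0 * q)) (ha : (a : LaurentSeries K0) ∈ F0 K0 (M0 * q * q)),
        eC ⟨a, ha⟩ = coeffMap (IntermediateField.inclusion hle).toRingHom (a : LaurentSeries K0)) ∧
      (∀ (a : F0 K0 (M0 * q)) (ha : qExpand K0 q (a : LaurentSeries K0) ∈ F0 K0 (M0 * q * q)),
        eC ⟨_, ha⟩ = S28.twist ζ (coeffMap (IntermediateField.inclusion hle).toRingHom (e2 a))) := by
  have hqK : (q : K0) ≠ 0 := Nat.cast_ne_zero.2 (NeZero.ne q)
  set i : K0 →+* K0' := (IntermediateField.inclusion hle).toRingHom with hi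
  set ζb : Kbˣ := Units.map ((algebraMap K0' Kb : K0' →+* Kb) : K0' →* Kb) ζ with hζb
  have hζb1 : ζb ≠ 1 := by
    intro h1
    apply hζ1
    apply Units.ext
    have := congrArg Units.val h1
    exact (algebraMap K0' Kb).injective (by rw [Units.val_one, map_one]; exact this)
  have hζbq : ζb ^ q = 1 := by rw [hζb, ← map_pow, hζq, map_one]
  obtain ⟨e, heα, heβ⟩ := exists_eC_Kb M0 q h ζb hζb1 hζbq
  let ι : F0 K0 (M0 * q * q) →+* FF (M0 * q * q) :=
    ((bc K0).comp (algebraMap (F0 K0 (M0 * q * q)) (LaurentSeries K0))).codRestrict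
      (modularFunctionFieldBar (M0 * q * q)) (fun f => bc_mem K0 (M0 * q * q) f.2)
  let ψ : F0 K0 (M0 * q * q) →+* LaurentSeries Kb := e.comp ι
  have hια : ∀ (u : LaurentSeries K0) (hu : u ∈ F0 K0 (M0 * q)),
      ι ⟨u, F0_le (M0 * q) q K0 hu⟩
        = heckeAlphaBar Kb (M0 * q) q ⟨bc K0 u, bc_mem K0 (M0 * q) hu⟩ :=
    fun u hu => Subtype.ext (bc_alpha (M0 * q) q K0 hu).symm
  have hιβ : ∀ (u : LaurentSeries K0) (hu : u ∈ F0 K0 (M0 * q)),
      ι ⟨qExpand K0 q u, V_mem_F0 (M0 * q) q K0 hqK hu⟩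
        = heckeBetaBar Kb (M0 * q) q ⟨bc K0 u, bc_mem K0 (M0 * q) hu⟩ :=
    fun u hu => Subtype.ext (bc_beta (M0 * q) q K0 hu).symm
  have hψα : ∀ (u : LaurentSeries K0) (hu : u ∈ F0 K0 (M0 * q)),
      ψ ⟨u, F0_le (M0 * q) q K0 hu⟩ = bc K0' (coeffMap i u) := by
    intro u hu
    show e (ι ⟨u, F0_le (M0 * q) q K0 hu⟩) = _
    rw [hια u hu, heα, bc_incl hle]
  have hψβ : ∀ (u : LaurentSeries K0) (hu : u ∈ F0 K0 (M0 * q)),
      ψ ⟨qExpand K0 q u, V_mem_F0 (M0 * q) q K0 hqK hu⟩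
        = bc K0' (S28.twist ζ (coeffMap i (e2 ⟨u, hu⟩))) := by
    intro u hu
    show e (ι ⟨qExpand K0 q u, V_mem_F0 (M0 * q) q K0 hqK hu⟩) = _
    rw [hιβ u hu, heβ, ← he2 ⟨u, hu⟩ (bc_mem K0 (M0 * q) hu), bc, bc, Ord.coeffMap_twist,
      ← bc, ← bc, bc_incl hle]
  have hj0 : jqModC K0 ∈ F0 K0 M0 := by
    have := gX_mem_F0 K0 (N := M0) (d := 1) (NeZero.ne M0) (one_dvd _)
    rwa [gX, Ord.qExp_one] at this
  have hjV : qExpand K0 q (jqModC K0) ∈ F0 K0 (M0 * q) := V_mem_F0 M0 q K0 hqK hj0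
  have hjmem : bc K0 (jqModC K0) ∈ modularFunctionFieldBar M0 := bc_mem K0 M0 hj0
  have hjord : (bc K0 (jqModC K0)).order = -1 := by
    rw [S34.bc_jq]
    exact Ord.order_jqModC Kb
  have hmem : ∀ f : F0 K0 (M0 * q * q), ψ f ∈ (bc K0').fieldRange := by
    intro f
    obtain ⟨a, ha, hf⟩ := span2_K0 M0 q h K0 (jqModC K0) hjmem hjord f.2
    have e' : f = ∑ i, (⟨a i, F0_le (M0 * q) q K0 (ha i)⟩ : F0 K0 (M0 * q * q))
        * (⟨qExpand K0 q (qExpand K0 q (jqModC K0)), V_mem_F0 (M0 * q) q K0 hqK hjV⟩ :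
          F0 K0 (M0 * q * q)) ^ (i : ℕ) := by
      apply Subtype.ext
      rw [IntermediateField.coe_sum, hf]
      rfl
    rw [e', map_sum]
    refine sum_mem fun i _ => ?_
    rw [map_mul, map_pow, hψα _ (ha i), hψβ _ hjV]
    have hr : ∀ z : LaurentSeries K0', bc K0' z ∈ (bc K0').fieldRange := fun z => ⟨z, rfl⟩
    exact mul_mem (hr _) (pow_mem (hr _) _)
  let eC : F0 K0 (M0 * q * q) →+* LaurentSeries K0' :=
    ((bc K0').rangeRestrictFieldEquiv.symm : (bc K0').fieldRange →+* LaurentSeries K0').comp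
      (ψ.codRestrict (bc K0').fieldRange hmem)
  have heC : ∀ f, bc K0' (eC f) = ψ f := fun f =>
    (bc K0').rangeRestrictFieldEquiv_apply_symm_apply _
  refine ⟨eC, fun a ha => ?_, fun a ha => ?_⟩
  · apply S34.bc_injective K0'
    rw [heC]
    exact hψα a a.2
  · apply S34.bc_injective K0'
    rw [heC]
    exact hψβ a a.2

end Fermat.Agent.S36
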