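import Fermat.Agent.S36.Defs
import Fermat.Agent.S35.FindRel

/-!
# S36, block W, package W3a : `FixNew` in matrix form

A vector of `(ℤ / m) ^ d` in the image of `θ = τ(t0)`, `(t0, 0) ∈ PP (M0 q) q`, which is fixed by the
inertia group of `A`, is killed by `c0`.
-/

set_option autoImplicit false

noncomputable section

namespace Fermat.Agent.S36

open Fermat.Agent.ES Fermat.Agent.S24 Fermat.Agent.S16 Fermat.Agent.S31 Fermat.Agent.S30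
  Fermat.Agent.S30.FinLvl Fermat.Agent.S35 Fermat.Agent.S35.Find
  CuspForm CongruenceSubgroup ModularCurve AlgebraicCurve

/-- **W3a**, general form (`M1` is the level `M0 q`; no coprimality hypothesis). -/
theorem fix_mulVec (m c0 M1 q : ℕ) [NeZero m] [NeZero M1] [NeZero (M1 * q)] [NeZero q]
    (I : Set GQ)
    (hPA : ∀ u : FF (M1 * q), IsPDiv m (M1 * q) u → IsPDiv m M1 (normA M1 q u))
    (hPB : ∀ u : FF (M1 * q), IsPDiv m (M1 * q) u → IsPDiv m M1 (normB M1 q u))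
    (hHA : ∀ (ℓ : ℕ) [Fact ℓ.Prime], ¬ ℓ ∣ M1 * q → ∀ u : FF (M1 * q),
      normA M1 q (heckeMul (M1 * q) ℓ u) = heckeMul M1 ℓ (normA M1 q u))
    (hHB : ∀ (ℓ : ℕ) [Fact ℓ.Prime], ¬ ℓ ∣ M1 * q → ∀ u : FF (M1 * q),
      normB M1 q (heckeMul (M1 * q) ℓ u) = heckeMul M1 ℓ (normB M1 q u))
    (hfix : ∀ u : FF (M1 * q), IsPDiv m (M1 * q) u →
      (∀ σ ∈ I, ∃ z : FF (M1 * q), gal (M1 * q) σ u = u * z ^ m) →
      (∃ z, normA M1 q u = z ^ m) → (∃ z, normB M1 q u = z ^ m) →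
      ∃ z : FF (M1 * q), u ^ c0 = z ^ m)
    (t0 : TN M1 q) (ht0 : (t0, 0) ∈ PP M1 q) (x : Fin (dN (M1 * q)) → ZMod m)
    (hx : ∀ σ ∈ I, (alpha (bN (M1 * q)) m σ).mulVec
        ((toO (ZMod m) (tau (bN (M1 * q)) (S0 (M1 * q)) t0)).mulVec x)
      = (toO (ZMod m) (tau (bN (M1 * q)) (S0 (M1 * q)) t0)).mulVec x) :
    c0 • (toO (ZMod m) (tau (bN (M1 * q)) (S0 (M1 * q)) t0)).mulVec x = 0 := by
  obtain ⟨f, rfl⟩ := coord_surjective (bN (M1 * q)) m x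
  rw [tau_mulVec] at hx ⊢
  set g := Core.actL (M1 * q) (S0 (M1 * q)) t0 f with hg
  have hA0 : push (normA M1 q) hPA (io (M1 * q) m g) = 0 :=
    map_act_eq_zero _ (fun ℓ _ hℓ y => push_heckeV _ _ ℓ (hHA ℓ hℓ) y) t0 ht0 f
  have hB0 : push (normB M1 q) hPB (io (M1 * q) m g) = 0 :=
    map_act_eq_zero _ (fun ℓ _ hℓ y => push_heckeV _ _ ℓ (hHB ℓ hℓ) y) t0 ht0 f
  obtain ⟨u, hu⟩ := KV.mk_surjective (io (M1 * q) m g)
  rw [← hu] at hA0 hB0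
  have hI : ∀ σ ∈ I, ∃ z : FF (M1 * q),
      gal (M1 * q) σ ((u : (FF (M1 * q))ˣ) : FF (M1 * q)) = ((u : (FF (M1 * q))ˣ) : FF (M1 * q)) * z ^ m := by
    intro σ hσ
    have h1 := hx σ hσ
    rw [alpha_mulVec, ← eqv_io] at h1
    have h2 := (eqv (bN (M1 * q)) m).injective h1
    rw [← hu, ← mk_gP, KV.mk_eq_iff] at h2
    obtain ⟨z, hz⟩ := h2
    refine ⟨z, ?_⟩
    have := congrArg (fun y : (FF (M1 * q))ˣ => (y : FF (M1 * q))) hz
    rw [← coe_gP (m := m)]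
    simpa using this
  obtain ⟨z, hz⟩ := hfix _ (mem_pdivUnits_iff.1 u.2) hI ((push_mk_eq_zero_iff _ _ u).1 hA0)
    ((push_mk_eq_zero_iff _ _ u).1 hB0)
  have hz0 : z ≠ 0 := by
    rintro rfl
    rw [zero_pow (NeZero.ne m)] at hz
    exact (pow_ne_zero c0 (u : (FF (M1 * q))ˣ).ne_zero) hz
  have h3 : c0 • KV.mk u = 0 := by
    rw [← KV.mk_pow, KV.mk_eq_zero_iff]
    exact ⟨Units.mk0 z hz0, Units.ext (by simpa using hz.symm)⟩
  rw [hu] at h3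
  rw [← eqv_io, ← map_nsmul, h3, map_zero]

end Fermat.Agent.S36
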