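import Fermat.Agent.S36.Fix
import Fermat.Agent.S36.Asm36

/-!
# S36, block W, package W3a (end) : `FixH` from `ClaimA` and the properties of the two norms
-/

set_option autoImplicit false
set_option linter.overlappingInstances false

noncomputable section

namespace Fermat.Agent.S36

open Fermat.Agent.ES Fermat.Agent.S24 Fermat.Agent.S16 Fermat.Agent.S31 Fermat.Agent.S30
  Fermat.Agent.S30.FinLvl Fermat.Agent.S35 Fermat.Agent.S35.Find
  CuspForm CongruenceSubgroup ModularCurve AlgebraicCurve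

/-- **W3a** : `FixH` from `ClaimA` (block G) and the four properties of the norms (package W4). -/
theorem fixH_of (p M0 q : ℕ) [Fact p.Prime] [NeZero (M0 * q)] [NeZero (M0 * q * q)] [NeZero q]
    (A : ValuationSubring Kb) (hA : A.LiesOverPrime q) (hC : ClaimA p M0 q A)
    (hPA : ∀ (r : ℕ) (u : FF (M0 * q * q)), IsPDiv (p ^ r) (M0 * q * q) u →
      IsPDiv (p ^ r) (M0 * q) (normA (M0 * q) q u))
    (hPB : ∀ (r : ℕ) (u : FF (M0 * q * q)), IsPDiv (p ^ r) (M0 * q * q) u →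
      IsPDiv (p ^ r) (M0 * q) (normB (M0 * q) q u))
    (hHA : ∀ (ℓ : ℕ) [Fact ℓ.Prime], ¬ ℓ ∣ M0 * q * q → ∀ u : FF (M0 * q * q),
      normA (M0 * q) q (heckeMul (M0 * q * q) ℓ u) = heckeMul (M0 * q) ℓ (normA (M0 * q) q u))
    (hHB : ∀ (ℓ : ℕ) [Fact ℓ.Prime], ¬ ℓ ∣ M0 * q * q → ∀ u : FF (M0 * q * q),
      normB (M0 * q) q (heckeMul (M0 * q * q) ℓ u) = heckeMul (M0 * q) ℓ (normB (M0 * q) q u)) :
    FixH p M0 q := by
  intro t0 ht0
  obtain ⟨c0, hc0, hfix⟩ := hC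
  refine ⟨A, hA, c0, hc0, fun r x hx => ?_⟩
  haveI : NeZero (p ^ r) := ⟨pow_ne_zero _ (Fact.out : p.Prime).ne_zero⟩
  exact fix_mulVec (p ^ r) c0 (M0 * q) q (A.inertiaSubgroupIn ℚ : Set GQ) (hPA r) (hPB r) hHA hHB
    (hfix r) t0 ht0 x hx

end Fermat.Agent.S36
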