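import Mathlib
import Fermat.Agent.ES.IDvr
import Fermat.Agent.S14.Lift

/-!
# S36, block G-UNR, [U1] : `q` is a uniformiser of every number field fixed by the inertia group

* `div_mem_of_inertia_fixed` : `x : ℚ̄` fixed by the inertia group of `A`, `x ∈ A.nonunits` ⟹
  `x / q ∈ A`;
* `irreducible_natCast` : `K0` a number field fixed pointwise by the inertia group of `A` ⟹
  `q` is irreducible in `A ∩ K0`;
* `maximalIdeal_eq_span`.
-/

set_option autoImplicit false
set_option linter.style.haveILetI false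
set_option linter.unusedSectionVars false

namespace Fermat.Agent.S36.UnrUnif

open NumberField Ideal Pointwise IsLocalRing IsDedekindDomain Fermat.Agent.ES

section inertiaField

variable {F : Type*} [Field F] [NumberField F] [IsGalois ℚ F]

/-- the inertia field -/
noncomputable abbrev inF (P : Ideal (𝓞 F)) : IntermediateField ℚ F :=
  FixedPoints.intermediateField (Ideal.inertia Gal(F/ℚ) P)

theorem ramIdx_inF (P : Ideal (𝓞 F)) [P.IsPrime] :
    (P.under (𝓞 (inF P))).ramificationIdx ℤ = 1 := by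
  classical
  haveI : IsGaloisGroup (Ideal.inertia Gal(F/ℚ) P) (inF P) F :=
    IsGaloisGroup.subgroup Gal(F/ℚ) ℚ F (Ideal.inertia Gal(F/ℚ) P)
  haveI : IsGaloisGroup (Ideal.inertia Gal(F/ℚ) P) (𝓞 (inF P)) (𝓞 F) :=
    IsGaloisGroup.of_isFractionRing _ _ _ (inF P) F
  let PE : Ideal (𝓞 (inF P)) := P.under (𝓞 (inF P))
  let p : Ideal ℤ := P.under ℤ
  haveI : P.LiesOver PE := ⟨rfl⟩
  haveI : P.LiesOver p := ⟨rfl⟩
  haveI : PE.IsPrime := Ideal.IsPrime.under _ P
  haveI : p.IsPrime := Ideal.IsPrime.under _ P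
  have h1 := Ideal.card_inertia_eq_ramificationIdxIn (G := Gal(F/ℚ)) p P
  have h2 := Ideal.card_inertia_eq_ramificationIdxIn (G := (Ideal.inertia Gal(F/ℚ) P)) PE P
  have h3 : Ideal.inertia (Ideal.inertia Gal(F/ℚ) P) P = ⊤ := by
    rw [eq_top_iff]
    intro g _
    rw [AddSubgroup.mem_inertia]
    intro y
    exact AddSubgroup.mem_inertia.1 g.2 y
  rw [h3, Subgroup.card_top, h1, ramificationIdxIn_eq_ramificationIdx p P Gal(F/ℚ),
    ramificationIdxIn_eq_ramificationIdx PE P (Ideal.inertia Gal(F/ℚ) P)] at h2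
  have h4 := ramificationIdx_tower (R := ℤ) PE P
  rw [h2] at h4
  have h5 : 0 < P.ramificationIdx (𝓞 (inF P)) := ramificationIdx_pos P _
  exact (Nat.eq_of_mul_eq_mul_right h5 (by rw [one_mul]; exact h4)).symm

end inertiaField

section bridge

variable {M : Type*} [Field M] [NumberField M] (V : ValuationSubring M)

theorem algebraMap_mem (a : 𝓞 M) : algebraMap (𝓞 M) M a ∈ V.toSubring := by
  have h1 : IsIntegral ℤ (algebraMap _ M a) := NumberField.RingOfIntegers.isIntegral_coe a
  have h2 : IsIntegral V (algebraMap _ M a) := h1.tower_top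
  obtain ⟨y, hy⟩ := IsIntegrallyClosed.isIntegral_iff.mp h2
  exact hy ▸ y.2

/-- `𝓞 M → V` -/
noncomputable def toV : 𝓞 M →+* V :=
  (algebraMap (𝓞 M) M).codRestrict V.toSubring (algebraMap_mem V)

theorem coe_toV (a : 𝓞 M) : ((toV V a : V) : M) = algebraMap (𝓞 M) M a := rfl

/-- the prime of `𝓞 M` below `V` -/
noncomputable def below : Ideal (𝓞 M) := (maximalIdeal V).comap (toV V)

instance : (below V).IsPrime := Ideal.comap_isPrime _ _

theorem mem_below (a : 𝓞 M) : a ∈ below V ↔ algebraMap (𝓞 M) M a ∈ V.nonunits := by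
  rw [below, Ideal.mem_comap, ← ValuationSubring.coe_mem_nonunits_iff, coe_toV]

theorem natCast_mem_below {ℓ : ℕ} (hV : V.LiesOverPrime ℓ) : (ℓ : 𝓞 M) ∈ below V := by
  rw [mem_below]
  have h : (ℓ : M) ∈ V.nonunits := hV
  simpa using h

theorem inv_mem_of_not_mem_below {s : 𝓞 M} (hs : s ∉ below V) :
    (algebraMap (𝓞 M) M s)⁻¹ ∈ V := by
  rw [mem_below, ValuationSubring.mem_nonunits_iff_or, not_or, not_not] at hs
  exact hs.2

/-- every element of `V` is a fraction with denominator outside the prime below `V` -/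
theorem exists_frac {ℓ : ℕ} (hℓ : ℓ.Prime) (hV : V.LiesOverPrime ℓ) {x : M} (hx : x ∈ V) :
    ∃ a s : 𝓞 M, s ∉ below V ∧ x = algebraMap (𝓞 M) M a * (algebraMap (𝓞 M) M s)⁻¹ := by
  have hne : below V ≠ ⊥ := by
    intro hbot
    have h1 := natCast_mem_below V hV
    rw [hbot, Ideal.mem_bot] at h1
    exact hℓ.ne_zero (by exact_mod_cast h1)
  let v : HeightOneSpectrum (𝓞 M) := ⟨below V, inferInstance, hne⟩
  have hle : HeightOneSpectrum.valuationSubringAtPrime M v ≤ V := by
    rintro x ⟨a, s, hs, rfl⟩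
    exact V.mul_mem _ _ (algebraMap_mem V a) (inv_mem_of_not_mem_below V hs)
  have heq := ValuationSubring.eq_of_le_of_ne_top _ hle (IDvr.ne_top_of_liesOver V hℓ hV)
  rw [← heq] at hx
  obtain ⟨a, s, hs, rfl⟩ := hx
  exact ⟨a, s, hs, rfl⟩

theorem under_below {ℓ : ℕ} (hℓ : ℓ.Prime) (hV : V.LiesOverPrime ℓ) :
    (below V).under ℤ = Ideal.span {(ℓ : ℤ)} := by
  have hmax : (Ideal.span {(ℓ : ℤ)}).IsMaximal :=
    PrincipalIdealRing.isMaximal_of_irreducible (Nat.prime_iff_prime_int.1 hℓ).irreducible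
  refine (hmax.eq_of_le (Ideal.IsPrime.under ℤ (below V)).ne_top ?_).symm
  rw [Ideal.span_singleton_le_iff_mem, Ideal.mem_comap]
  simpa using natCast_mem_below V hV

/-- unramified: the prime below `V` is locally generated by `ℓ` -/
theorem exists_mul_eq {ℓ : ℕ} (hℓ : ℓ.Prime) (hV : V.LiesOverPrime ℓ)
    (he : (below V).ramificationIdx ℤ = 1) {x : 𝓞 M} (hx : x ∈ below V) :
    ∃ s a : 𝓞 M, s ∉ below V ∧ s * x = (ℓ : 𝓞 M) * a := by
  rw [ramificationIdx_def, ENat.toNat_eq_iff_eq_natCast, Nat.cast_one, Module.length_eq_one_iff,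
    isSimpleModule_iff_isCoatom, ← Ideal.isMaximal_def, IsLocalRing.isMaximal_iff,
    under_below V hℓ hV, Ideal.map_span, Set.image_singleton] at he
  have h1 : algebraMap (𝓞 M) (Localization.AtPrime (below V)) x ∈
      maximalIdeal (Localization.AtPrime (below V)) :=
    (IsLocalization.AtPrime.to_map_mem_maximal_iff _ (below V) x).2 hx
  rw [← he, Ideal.mem_span_singleton'] at h1
  obtain ⟨c, hc⟩ := h1
  obtain ⟨a, s, rfl⟩ := IsLocalization.exists_mk'_eq (below V).primeCompl c
  refine ⟨s, a, s.2, ?_⟩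
  apply IsLocalization.injective (Localization.AtPrime (below V))
    (Ideal.primeCompl_le_nonZeroDivisors (below V))
  rw [map_mul, ← hc, map_mul, map_natCast]
  have h2 := IsLocalization.mk'_spec (Localization.AtPrime (below V)) a s
  simp only [map_natCast] 
  linear_combination (ℓ : Localization.AtPrime (below V)) * h2


theorem mul_mem_nonunits {y z : M} (hy : y ∈ V.nonunits) (hz : z ∈ V) : y * z ∈ V.nonunits := by
  obtain ⟨hy1, hy2⟩ := ValuationSubring.mem_nonunits_iff_exists_mem_maximalIdeal.1 hy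
  have h := Ideal.mul_mem_right (⟨z, hz⟩ : V) _ hy2
  exact ValuationSubring.coe_mem_nonunits_iff.2 h

/-- unramified: the maximal ideal of `V` is generated by `ℓ` -/
theorem div_mem {ℓ : ℕ} (hℓ : ℓ.Prime) (hV : V.LiesOverPrime ℓ)
    (he : (below V).ramificationIdx ℤ = 1) {y : M} (hy : y ∈ V.nonunits) : y / (ℓ : M) ∈ V := by
  obtain ⟨a, s0, hs0, hya⟩ := exists_frac V hℓ hV (ValuationSubring.nonunits_subset hy)
  have hs00 : algebraMap (𝓞 M) M s0 ≠ 0 := by
    intro h0
    apply hs0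
    rw [mem_below, h0]
    exact V.nonunits.zero_mem
  have ha : a ∈ below V := by
    rw [mem_below]
    have h1 : algebraMap (𝓞 M) M a = y * algebraMap (𝓞 M) M s0 := by
      rw [hya]; field_simp
    rw [h1]
    exact mul_mem_nonunits V hy (algebraMap_mem V s0)
  obtain ⟨s, b, hs, hsb⟩ := exists_mul_eq V hℓ hV he ha
  have hs0' : algebraMap (𝓞 M) M s ≠ 0 := by
    intro h0
    apply hs
    rw [mem_below, h0]
    exact V.nonunits.zero_mem
  have hℓ0 : (ℓ : M) ≠ 0 := by exact_mod_cast hℓ.ne_zero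
  have h2 : algebraMap (𝓞 M) M s * algebraMap (𝓞 M) M a = (ℓ : M) * algebraMap (𝓞 M) M b := by
    rw [← map_mul, hsb, map_mul, map_natCast]
  have h3 : y / (ℓ : M) = algebraMap (𝓞 M) M b * (algebraMap (𝓞 M) M s)⁻¹ *
      (algebraMap (𝓞 M) M s0)⁻¹ := by
    rw [hya]
    field_simp
    linear_combination h2
  rw [h3]
  exact V.mul_mem _ _ (V.mul_mem _ _ (algebraMap_mem V b) (inv_mem_of_not_mem_below V hs))
    (inv_mem_of_not_mem_below V hs0)

end bridge

section galois

variable {F : Type*} [Field F] [NumberField F] [IsGalois ℚ F] (V : ValuationSubring F)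

theorem mem_nonunits_comap (E : IntermediateField ℚ F) (x : E) :
    x ∈ (V.comap (algebraMap E F)).nonunits ↔ (x : F) ∈ V.nonunits := by
  rw [ValuationSubring.mem_nonunits_iff_or, ValuationSubring.mem_nonunits_iff_or,
    ValuationSubring.mem_comap]
  simp

theorem below_comap (E : IntermediateField ℚ F) :
    below (V.comap (algebraMap E F)) = (below V).under (𝓞 E) := by
  ext a
  rw [mem_below, mem_nonunits_comap, Ideal.mem_comap, mem_below]
  rfl

theorem div_mem_of_fixed {ℓ : ℕ} (hℓ : ℓ.Prime) (hV : V.LiesOverPrime ℓ) {y : F}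
    (hfix : ∀ g ∈ Ideal.inertia Gal(F/ℚ) (below V), g y = y) (hy : y ∈ V.nonunits) :
    y / (ℓ : F) ∈ V := by
  have hyE : y ∈ inF (below V) := fun g => hfix g.1 g.2
  have hVE : (V.comap (algebraMap (inF (below V)) F)).LiesOverPrime ℓ := by
    change ((ℓ : inF (below V))) ∈ (V.comap (algebraMap (inF (below V)) F)).nonunits
    rw [mem_nonunits_comap]
    have h : (ℓ : F) ∈ V.nonunits := hV
    simpa using h
  have he : (below (V.comap (algebraMap (inF (below V)) F))).ramificationIdx ℤ = 1 := by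
    rw [below_comap]
    exact ramIdx_inF (below V)
  have h1 := div_mem (V.comap (algebraMap (inF (below V)) F)) hℓ hVE he
    (y := ⟨y, hyE⟩) ((mem_nonunits_comap V _ _).2 hy)
  rw [ValuationSubring.mem_comap] at h1
  simpa using h1

end galois

local notation "Kb" => AlgebraicClosure ℚ

/-- **[U1], field-free form.** -/
theorem div_mem_of_inertia_fixed (A : ValuationSubring Kb) {q : ℕ} (hq : q.Prime)
    (hA : A.LiesOverPrime q) {x : Kb} (hfix : ∀ σ ∈ A.inertiaSubgroupIn ℚ, σ x = x)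
    (hx : x ∈ A.nonunits) : x / (q : Kb) ∈ A := by
  have h1' : Algebra.IsAlgebraic ℚ Kb := AlgebraicClosure.isAlgebraic ℚ
  have h2' : IsAlgClosure ℚ Kb := ⟨inferInstance, inferInstance⟩
  have h3' : Normal ℚ Kb := IsAlgClosure.normal ℚ Kb
  haveI : FiniteDimensional ℚ (IntermediateField.adjoin ℚ {x}) :=
    IntermediateField.adjoin.finiteDimensional (Algebra.IsAlgebraic.isAlgebraic x).isIntegral
  let F : IntermediateField ℚ Kb :=
    IntermediateField.normalClosure ℚ (IntermediateField.adjoin ℚ {x}) Kb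
  have h4' : Normal ℚ F := by
    convert normalClosure.normal ℚ (IntermediateField.adjoin ℚ {x}) Kb
    exact Subsingleton.elim _ _
  haveI : FiniteDimensional ℚ F := inferInstance
  haveI : IsGalois ℚ F := ⟨⟩
  have hxF : x ∈ F := (IntermediateField.adjoin ℚ {x}).le_normalClosure
    (IntermediateField.mem_adjoin_simple_self ℚ x)
  have hV := IDvr.liesOverPrime_R0 F A hA
  have h := div_mem_of_fixed (IDvr.R0 F A) hq hV (y := ⟨x, hxF⟩) (by
    intro g hg
    obtain ⟨σ, hσ, hσg⟩ := Fermat.Agent.S14.exists_lift_inertia F A hq hA g (by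
      intro z hz
      let y : 𝓞 F := ⟨z, hz⟩
      have h3 := (AddSubgroup.mem_inertia.1 hg) y
      have h4 : (g • y - y) ∈ below (IDvr.R0 F A) := h3
      have h5 := (mem_below (IDvr.R0 F A) (g • y - y)).1 h4
      exact (IDvr.mem_nonunits_R0 F A _).1 h5)
    apply Subtype.ext
    rw [← hσg ⟨x, hxF⟩]
    exact hfix σ hσ) ((IDvr.mem_nonunits_R0 F A _).2 hx)
  rw [IDvr.mem_R0] at h
  simpa using h

/-- **[U1]** : the maximal ideal of `A ∩ K0` is generated by `q`. -/
theorem maximalIdeal_eq_span (A : ValuationSubring Kb) {q : ℕ} (hq : q.Prime)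
    (hA : A.LiesOverPrime q) (K0 : IntermediateField ℚ Kb)
    (h : ∀ σ ∈ A.inertiaSubgroupIn ℚ, ∀ x ∈ K0, σ x = x) :
    maximalIdeal (IDvr.R0 K0 A) = Ideal.span {((q : ℕ) : IDvr.R0 K0 A)} := by
  have hq0 : (q : Kb) ≠ 0 := by exact_mod_cast hq.ne_zero
  apply le_antisymm
  · intro y hy
    rw [← ValuationSubring.coe_mem_nonunits_iff, IDvr.mem_nonunits_R0] at hy
    have h1 := div_mem_of_inertia_fixed A hq hA (fun σ hσ => h σ hσ _ (y : K0).2) hy
    rw [Ideal.mem_span_singleton']
    refine ⟨⟨(y : K0) / (q : K0), ?_⟩, ?_⟩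
    · rw [IDvr.mem_R0]
      simpa using h1
    · apply Subtype.ext
      have hq0' : (q : K0) ≠ 0 := by exact_mod_cast hq.ne_zero
      change (y : K0) / (q : K0) * ((q : ℕ) : K0) = (y : K0)
      field_simp
  · rw [Ideal.span_singleton_le_iff_mem, ← ValuationSubring.coe_mem_nonunits_iff]
    exact IDvr.liesOverPrime_R0 K0 A hA

/-- **[U1]** : `q` is a uniformiser of `A ∩ K0`. -/
theorem irreducible_natCast (A : ValuationSubring Kb) {q : ℕ} (hq : q.Prime)
    (hA : A.LiesOverPrime q) (K0 : IntermediateField ℚ Kb) [FiniteDimensional ℚ K0]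
    (h : ∀ σ ∈ A.inertiaSubgroupIn ℚ, ∀ x ∈ K0, σ x = x) :
    Irreducible ((q : ℕ) : IDvr.R0 K0 A) := by
  haveI := IDvr.isDVR K0 A hq hA
  rw [IsDiscreteValuationRing.irreducible_iff_uniformizer]
  exact maximalIdeal_eq_span A hq hA K0 h

end Fermat.Agent.S36.UnrUnif
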