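import Fermat.Agent.S36.Defs
import Fermat.Agent.S36.Desc2
import Fermat.Agent.S36.Desc3
import Fermat.Agent.S36.UnrUnif
import Fermat.Agent.S36.WNormB

/-!
# S36, block G : the `FF`-level end, part 1 (descent to an unramified number field)

* `FixK0 m c0 M0 q K0` : the statement over the number field `K0`, read in `FF (M0 q²)`:
  `u` defined over `K0`, divisor divisible by `m`, the two norms of the shape `q ^ k * z ^ m`
  with `z` defined over `K0`; then `z ^ m * u ^ c0` is a constant for some `z ≠ 0`;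
* `fixNew_of_fixK0` : `FixK0` for all large finite unramified `K0` gives `FixNew`;
* `claimA_of_fixK0` : the same for `ClaimA`.
-/

set_option autoImplicit false
set_option linter.unusedSectionVars false

noncomputable section

namespace Fermat.Agent.S36

open ModularCurve AlgebraicCurve
open Fermat.Agent.S24 Fermat.Agent.S28 Fermat.Agent.ES Fermat.Agent.ES.QE Fermat.Agent.ES.Inst
  Fermat.Agent.S34 Fermat.Agent.S35 Desc

/-- the statement over `K0`, read in `FF (M0 q²)`. -/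
def FixK0 (m c0 M0 q : ℕ) [NeZero (M0 * q)] [NeZero q] (K0 : IntermediateField ℚ Kb) : Prop :=
  ∀ u : FF (M0 * q * q), IsPDiv m (M0 * q * q) u →
    (∃ f0 ∈ F0 K0 (M0 * q * q), bc K0 f0 = (u : LaurentSeries Kb)) →
    (∃ (k : ℤ) (z : FF (M0 * q)), z ≠ 0 ∧ (∃ f0 ∈ F0 K0 (M0 * q), bc K0 f0 = (z : LaurentSeries Kb)) ∧
      normA (M0 * q) q u = algebraMap Kb (FF (M0 * q)) (q : Kb) ^ k * z ^ m) →
    (∃ (k : ℤ) (z : FF (M0 * q)), z ≠ 0 ∧ (∃ f0 ∈ F0 K0 (M0 * q), bc K0 f0 = (z : LaurentSeries Kb)) ∧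
      normB (M0 * q) q u = algebraMap Kb (FF (M0 * q)) (q : Kb) ^ k * z ^ m) →
    ∃ (z : FF (M0 * q * q)) (c : Kb), z ≠ 0 ∧ z ^ m * u ^ c0 = algebraMap Kb (FF (M0 * q * q)) c

namespace FixU

/-- a non-zero constant of a finite unramified field is a power of `q` times a unit of `A`. -/
theorem exists_zpow_unit {A : ValuationSubring Kb} {q : ℕ} (hq : q.Prime)
    (hA : A.LiesOverPrime q) (K0 : IntermediateField ℚ Kb) [FiniteDimensional ℚ K0]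
    (hK0 : Unr A K0) (c : Kb) (hc : c ∈ K0) (hc0 : c ≠ 0) :
    ∃ (k : ℤ) (e : Kb), e ∈ K0 ∧ e ∈ A ∧ e⁻¹ ∈ A ∧ c = (q : Kb) ^ k * e := by
  have := IDvr.isDVR K0 A hq hA
  have hirr := UnrUnif.irreducible_natCast A hq hA K0 hK0
  have key : ∀ x : IDvr.R0 K0 A, x ≠ 0 →
      ∃ (n : ℕ) (e : Kb), e ∈ K0 ∧ e ∈ A ∧ e⁻¹ ∈ A ∧ (((x : K0) : Kb)) = (q : Kb) ^ n * e := by
    intro x hx
    obtain ⟨n, e, he⟩ := IsDiscreteValuationRing.eq_unit_mul_pow_irreducible hx hirr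
    refine ⟨n, (((e : IDvr.R0 K0 A) : K0) : Kb), ((e : IDvr.R0 K0 A) : K0).2,
      (e : IDvr.R0 K0 A).2, ?_, ?_⟩
    · have h1 : (((e⁻¹ : (IDvr.R0 K0 A)ˣ) : IDvr.R0 K0 A) : K0) = ((e : IDvr.R0 K0 A) : K0)⁻¹ := by
        have h2 : (((e : IDvr.R0 K0 A) : K0)) * (((e⁻¹ : (IDvr.R0 K0 A)ˣ) : IDvr.R0 K0 A) : K0) = 1 := by
          exact congrArg (fun w : IDvr.R0 K0 A => (w : K0)) e.mul_inv
        exact eq_inv_of_mul_eq_one_right h2
      have h3 : (((((e⁻¹ : (IDvr.R0 K0 A)ˣ) : IDvr.R0 K0 A) : K0)) : Kb) ∈ A :=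
        ((e⁻¹ : (IDvr.R0 K0 A)ˣ) : IDvr.R0 K0 A).2
      rw [h1] at h3
      simpa using h3
    · rw [he]
      push_cast
      ring
  rcases (IDvr.R0 K0 A).mem_or_inv_mem (⟨c, hc⟩ : K0) with h | h
  · obtain ⟨n, e, h1, h2, h3, h4⟩ := key ⟨⟨c, hc⟩, h⟩ (by
      intro h0
      exact hc0 (congrArg (fun w : IDvr.R0 K0 A => ((w : K0) : Kb)) h0))
    exact ⟨n, e, h1, h2, h3, by rw [zpow_natCast]; exact h4⟩
  · obtain ⟨n, e, h1, h2, h3, h4⟩ := key ⟨(⟨c, hc⟩ : K0)⁻¹, h⟩ (by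
      intro h0
      have := congrArg (fun w : IDvr.R0 K0 A => ((w : K0) : Kb)) h0
      simp only [IntermediateField.coe_inv] at this
      exact inv_ne_zero hc0 this)
    refine ⟨-n, e⁻¹, inv_mem h1, h3, by rwa [inv_inv], ?_⟩
    have h5 : c⁻¹ = (q : Kb) ^ n * e := h4
    rw [zpow_neg, zpow_natCast, ← mul_inv, ← h5, inv_inv]

theorem isPDiv_of_mul_pow {m N : ℕ} {u u0 h0 : FF N} (hu : IsPDiv m N u) (e : u = u0 * h0 ^ m) :
    IsPDiv m N u0 := by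
  have hu0 : u0 ≠ 0 := by
    rintro rfl
    exact hu.1 (by rw [e, zero_mul])
  have hh : h0 ^ m ≠ 0 := by
    intro h
    exact hu.1 (by rw [e, h, mul_zero])
  refine ⟨hu0, fun v => ?_⟩
  have h1 := hu.2 v
  rw [e, v.ord_mul hu0 hh, ← zpow_natCast, v.ord_zpow] at h1
  exact (Int.dvd_add_left (Dvd.intro _ rfl)).1 h1

/-- the shape of the norm after the descent: one norm map `nr` commuting with Galois. -/
theorem norm_shape {A : ValuationSubring Kb} {q m : ℕ} (hq : q.Prime) (hA : A.LiesOverPrime q)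
    (hqm : ¬ q ∣ m) {N N' : ℕ} [NeZero N] [NeZero N'] (nr : FF N' →* FF N)
    (hgal : ∀ (σ : GQ) (u : FF N'), nr (gal N' σ u) = gal N σ (nr u))
    (K0 : IntermediateField ℚ Kb) [FiniteDimensional ℚ K0] (hK0 : Unr A K0)
    (u : FF N') (hu0 : u ≠ 0) (hu : ∃ f0 ∈ F0 K0 N', bc K0 f0 = (u : LaurentSeries Kb))
    (z : FF N) (hz : nr u = z ^ m) :
    ∃ K1 : IntermediateField ℚ Kb, FiniteDimensional ℚ K1 ∧ Unr A K1 ∧
      ∀ K2 : IntermediateField ℚ Kb, K1 ≤ K2 →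
        ∃ (k : ℤ) (z : FF N), z ≠ 0 ∧ (∃ f0 ∈ F0 K2 N, bc K2 f0 = (z : LaurentSeries Kb)) ∧
          nr u = algebraMap Kb (FF N) (q : Kb) ^ k * z ^ m := by
  have hm0 : 0 < m := Nat.pos_of_ne_zero (by rintro rfl; exact hqm (dvd_zero _))
  have hv0 : nr u ≠ 0 := by
    intro h
    have h1 : nr u * nr u⁻¹ = 1 := by rw [← map_mul, mul_inv_cancel₀ hu0, map_one]
    rw [h, zero_mul] at h1
    exact zero_ne_one h1
  have hv : ∃ f0 ∈ F0 K0 N, bc K0 f0 = ((nr u : FF N) : LaurentSeries Kb) := by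
    apply isDef_of_fixed
    intro σ hσ
    rw [← hgal, gal_of_isDef K0 u hu σ hσ]
  obtain ⟨c, z0, hc0, hz0, hz0d, e⟩ := root_descent K0 m hm0 (nr u) z hv0 hv hz
  obtain ⟨k, e0, he0K, he0A, he0A', hce⟩ := exists_zpow_unit hq hA K0 hK0 (c : Kb) c.2
    (fun h => hc0 (Subtype.ext h))
  obtain ⟨K1, h01, hf1, hu1, d, hd1, hdm⟩ := exists_unr_root hq hA hqm K0 hK0 e0 he0K he0A he0A'
  refine ⟨K1, hf1, hu1, fun K2 h12 => ⟨k, algebraMap Kb (FF N) d * z0, ?_, ?_, ?_⟩⟩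
  · refine mul_ne_zero ((map_ne_zero _).2 ?_) hz0
    rintro rfl
    rw [zero_pow hm0.ne'] at hdm
    rw [← hdm, mul_zero] at hce
    exact hc0 (Subtype.ext hce)
  · exact InstUp.IsDef.mul (InstUp.isDef_const (h12 hd1))
      (InstUp.IsDef.mono (h01.trans h12) hz0d)
  · rw [e, hce, mul_pow, ← map_pow, hdm, map_mul, map_zpow₀, mul_assoc]

end FixU

/-- **descent** : `FixK0` over all large finite unramified fields gives `FixNew`. -/
theorem fixNew_of_fixK0 (m c0 M0 q : ℕ) [NeZero (M0 * q)] [NeZero q] (hq : q.Prime)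
    (hqm : ¬ q ∣ m) (A : ValuationSubring Kb) (hA : A.LiesOverPrime q)
    (h : ∃ K1 : IntermediateField ℚ Kb, FiniteDimensional ℚ K1 ∧ Unr A K1 ∧
      ∀ K0 : IntermediateField ℚ Kb, K1 ≤ K0 → FiniteDimensional ℚ K0 → Unr A K0 →
        FixK0 m c0 M0 q K0) : FixNew m c0 M0 q A := by
  intro u hu hI ⟨z1, hz1⟩ ⟨z2, hz2⟩
  have hqF : Fact q.Prime := ⟨hq⟩
  have hm0 : 0 < m := Nat.pos_of_ne_zero (by rintro rfl; exact hqm (dvd_zero _))
  obtain ⟨K1, hf1, hu1, hK⟩ := h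
  obtain ⟨u0, h0, hh0, e, hfix⟩ :=
    exists_fixed_rep m (M0 * q * q) hm0 (A.inertiaSubgroupIn ℚ) u hu.1 hI
  have hu0 := FixU.isPDiv_of_mul_pow hu e
  obtain ⟨K2, hf2, hu2, hd2⟩ := exists_unr_isDef A {u0} (by
    intro f hf σ hσ
    rw [Finset.mem_singleton] at hf
    rw [hf]
    exact hfix σ hσ)
  have hnz : ∀ nr : FF (M0 * q * q) →* FF (M0 * q), nr h0 ≠ 0 := by
    intro nr h
    have h1 : nr h0 * nr h0⁻¹ = 1 := by rw [← map_mul, mul_inv_cancel₀ hh0, map_one]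
    rw [h, zero_mul] at h1
    exact zero_ne_one h1
  have hroot : ∀ (nr : FF (M0 * q * q) →* FF (M0 * q)) (z : FF (M0 * q)), nr u = z ^ m →
      nr u0 = (z / nr h0) ^ m := by
    intro nr z hz
    rw [e, map_mul, map_pow] at hz
    rw [div_pow, ← hz, mul_div_cancel_right₀ _ (pow_ne_zero _ (hnz nr))]
  obtain ⟨K3, hf3, hu3, hA3⟩ := FixU.norm_shape hq hA hqm (normA (M0 * q) q)
    (fun σ u => normA_gal' (M0 * q) q σ u) K2 hu2 u0 hu0.1
    (hd2 K2 le_rfl u0 (Finset.mem_singleton_self _)) _ (hroot _ z1 hz1)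
  obtain ⟨K4, hf4, hu4, hB4⟩ := FixU.norm_shape hq hA hqm (normB (M0 * q) q)
    (fun σ u => normB_gal' (M0 * q) q σ u) K2 hu2 u0 hu0.1
    (hd2 K2 le_rfl u0 (Finset.mem_singleton_self _)) _ (hroot _ z2 hz2)
  have hf12 : FiniteDimensional ℚ ↥(K1 ⊔ K2) := IntermediateField.finiteDimensional_sup K1 K2
  have hf123 : FiniteDimensional ℚ ↥(K1 ⊔ K2 ⊔ K3) :=
    IntermediateField.finiteDimensional_sup (K1 ⊔ K2) K3
  have hf : FiniteDimensional ℚ ↥(K1 ⊔ K2 ⊔ K3 ⊔ K4) :=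
    IntermediateField.finiteDimensional_sup (K1 ⊔ K2 ⊔ K3) K4
  obtain ⟨z, c, hz, hzc⟩ := hK (K1 ⊔ K2 ⊔ K3 ⊔ K4)
    ((le_sup_left.trans le_sup_left).trans le_sup_left) hf (((hu1.sup hu2).sup hu3).sup hu4)
    u0 hu0 (hd2 _ ((le_sup_right.trans le_sup_left).trans le_sup_left) u0
      (Finset.mem_singleton_self _))
    (hA3 _ (le_sup_right.trans le_sup_left)) (hB4 _ le_sup_right)
  obtain ⟨c', hc'⟩ := IsAlgClosed.exists_pow_nat_eq c hm0
  refine ⟨algebraMap Kb _ c' / z * h0 ^ c0, ?_⟩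
  rw [mul_pow, div_pow, ← map_pow, hc', ← hzc, mul_div_cancel_left₀ _ (pow_ne_zero _ hz), e,
    mul_pow, ← pow_mul, ← pow_mul, mul_comm m c0]

/-- **descent** for `ClaimA`. -/
theorem claimA_of_fixK0 (p M0 q : ℕ) [NeZero (M0 * q)] [NeZero q] (hp : p.Prime) (hq : q.Prime)
    (hqp : q ≠ p) (A : ValuationSubring Kb) (hA : A.LiesOverPrime q) (c0 : ℕ) (hc0 : 0 < c0)
    (h : ∀ m : ℕ, ¬ q ∣ m → ∃ K1 : IntermediateField ℚ Kb, FiniteDimensional ℚ K1 ∧ Unr A K1 ∧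
      ∀ K0 : IntermediateField ℚ Kb, K1 ≤ K0 → FiniteDimensional ℚ K0 → Unr A K0 →
        FixK0 m c0 M0 q K0) : ClaimA p M0 q A := by
  refine ⟨c0, hc0, fun r => ?_⟩
  have hqm : ¬ q ∣ p ^ r := fun hd => hqp ((Nat.prime_dvd_prime_iff_eq hq hp).1 (hq.dvd_of_dvd_pow hd))
  exact fixNew_of_fixK0 (p ^ r) c0 M0 q hq hqm A hA (h _ hqm)

end Fermat.Agent.S36
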