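import Fermat.Agent.S36.FixU2
import Fermat.Agent.S36.TIota
import Fermat.Agent.S36.TChart2
import Fermat.Agent.ES.InstXF

/-!
# S36, block G : the `FF`-level end, part 3 (the concrete embeddings)

* `HdivIn.to_fin` : the hypothesis `hdiv` in the shape of `fix_gen`;
* `fixK0_of_layer` : on the data of `exists_unr_layer` and `exists_three`, `FixGen` gives `FixK0`.
-/

set_option autoImplicit false
set_option linter.unusedSectionVars false

noncomputable section

namespace Fermat.Agent.S36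

open ModularCurve AlgebraicCurve Polynomial IntermediateField
open Fermat.Agent.S24 Fermat.Agent.S28 Fermat.Agent.ES Fermat.Agent.ES.QE Fermat.Agent.ES.Model
  Fermat.Agent.ES.IDvr Fermat.Agent.ES.Inst Fermat.Agent.S34 Fermat.Agent.S35

/-- `hdiv` in the shape of `fix_gen`. -/
theorem HdivIn.to_fin {F : Type*} [Field F] {B : Subring F} {m : ℕ} {u : F} (h : HdivIn B m u) :
    ∃ (n : ℕ) (g g' : Fin n → F), (∀ i, g i ^ m * u ∈ B) ∧ (∀ i, g' i ^ m * u⁻¹ ∈ B) ∧
      ∑ i, g i * g' i = 1 := by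
  obtain ⟨J, hJ, g, g', h1, h2, h3⟩ := h
  set e := Fintype.equivFin J with he
  refine ⟨Fintype.card J, fun i => g (e.symm i), fun i => g' (e.symm i), fun i => ?_, fun i => ?_,
    ?_⟩
  · obtain ⟨d, hd⟩ := h1 (e.symm i)
    rw [← hd]
    exact d.2
  · obtain ⟨d, hd⟩ := h2 (e.symm i)
    rw [← hd]
    exact d.2
  · rw [← h3]
    exact Equiv.sum_comp e.symm fun j => g j * g' j

variable {A : ValuationSubring Kb} {K0 : IntermediateField ℚ Kb}
  [IsDiscreteValuationRing (R0 K0 A)] {D : QData (R0 K0 A) K0 (kA A)}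

/-- **the concrete transport.** -/
theorem fixK0_of_layer (M0 q : ℕ) [NeZero M0] [Fact q.Prime] (hqM : ¬ q ∣ M0) {m c0 : ℕ}
    (hm : 0 < m) (Z : ZCoord M0 q) (T : Two D q) (X : D.Coord) (y : LaurentSeries (R0 K0 A))
    (hxy : X.xW * y = 1) (hϖ : D.ϖ = ((q : ℕ) : R0 K0 A)) (hT : T.F = F0 K0 (M0 * q))
    (hX : bc K0 (X.x : LaurentSeries K0) = (Z.xF : LaurentSeries Kb))
    {K' : Type*} [Field K'] {i : K0 →+* K'} {ζ : K'ˣ} (H : Three T i ζ)
    (hH : H.F = F0 K0 (M0 * q * q)) (hgen : FixGen m c0 H X (X.inv y hxy)) :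
    FixK0 m c0 M0 q K0 := by
  have hmemN : zS Kb Z.xZ ∈ modularFunctionFieldBar (M0 * q * q) := by
    have h := (heckeAlphaBar Kb (M0 * q) q (heckeAlphaBar Kb M0 q Z.xF)).2
    rwa [coe_heckeAlphaBar, coe_heckeAlphaBar] at h
  obtain ⟨ZN, hZN⟩ : ∃ ZN : ZCoord (M0 * q * q) q, (ZN.xF : LaurentSeries Kb) = Z.xF :=
    ⟨{ Z with mem := hmemN }, rfl⟩
  have hιx : iotaH H hH (H.x X) = ZN.xF := by
    apply Subtype.ext
    rw [coe_iotaH, hZN, ← hX]
    rfl
  have hιx' : iotaH H hH (H.x (X.inv y hxy)) = ZN.xF⁻¹ := by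
    rw [← hιx, ← map_inv₀, H.x_inv X y hxy]
  have hxt := transcendental_xF ZN
  have hxt' : Transcendental Kb ZN.xF⁻¹ := FF.transcendental_inv hxt
  have hfd : FiniteDimensional Kb⟮iotaH H hH (H.x X)⟯ (FF (M0 * q * q)) := by
    rw [hιx]
    exact finiteDimensional_xF ZN
  have hfd' : FiniteDimensional Kb⟮iotaH H hH (H.x (X.inv y hxy))⟯ (FF (M0 * q * q)) := by
    rw [hιx']
    exact finiteDimensional_xF_inv ZN
  exact fixK0_of_fixGen hm hϖ hT H hH (iotaT T hT) (fun _ => rfl) (iotaH H hH) (fun _ => rfl)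
    (iotaT_nA H hH hT hqM) (iotaT_nB H hH hT hqM) X (X.inv y hxy) (by rw [hιx]; exact hxt)
    (by rw [hιx']; exact hxt') hgen

end Fermat.Agent.S36
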