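import Fermat.Agent.S36.UnrFrob
import Fermat.Agent.S36.AuxCoord
import Fermat.Agent.S36.FixU3

/-!
# S36, block G : the whole chain above `FixGen`

`claimA_all_of` : `ClaimA p M0 q A` for every `M0` prime to `q`, from ONE hypothesis `hcore` :
`FixGen` for the objects of `exists_full_layer` (over a finite field `K0`, unramified at `A` and
stable under the decomposition group), with the Frobenius `Φ`.
-/

set_option autoImplicit false

noncomputable section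

namespace Fermat.Agent.S36

open ModularCurve AlgebraicCurve Polynomial IntermediateField
open Fermat.Agent.S24 Fermat.Agent.S28 Fermat.Agent.ES Fermat.Agent.ES.QE Fermat.Agent.ES.Model
  Fermat.Agent.ES.IDvr Fermat.Agent.ES.Inst Fermat.Agent.S34
open Fermat.Agent.S34.WK

/-- the exponent. -/
def cFix (q : ℕ) : ℕ := (q + 1) * (q - 1) * ((q ^ 2 - 1) * q)

theorem cFix_pos {q : ℕ} (hq : q.Prime) : 0 < cFix q := by
  have h2 := hq.two_le
  have h1 : 0 < q - 1 := by omega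
  have h3 : 0 < q ^ 2 - 1 := by
    have : 2 ^ 2 ≤ q ^ 2 := Nat.pow_le_pow_left h2 2
    omega
  unfold cFix
  positivity

/-- the statement which the geometry has to deliver. -/
def Core (q : ℕ) [Fact q.Prime] (A : ValuationSubring Kb) : Prop :=
  ∀ (m M0 : ℕ) [NeZero M0] (hqM : ¬ q ∣ M0), ¬ q ∣ m → ∀ (Z : ZCoord M0 q), Z.Unram →
    WGood M0 q Z.xF → NoElliptic M0 → NoElliptic (M0 * q) → NoElliptic (M0 * q * q) →
    ∀ (K0 : IntermediateField ℚ Kb), FiniteDimensional ℚ K0 → Unr A K0 → Stab A K0 →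
    ∀ [IsDiscreteValuationRing (R0 K0 A)]
      (D : QData (R0 K0 A) K0 (kA A)) (T : Two D q) (X : D.Coord)
      (y : LaurentSeries (R0 K0 A)) (hxy : X.xW * y = 1)
      (K0' : IntermediateField ℚ Kb) (hle : K0 ≤ K0')
      [IsDiscreteValuationRing (R0 K0' A)] (ζR : (R0 K0' A)ˣ)
      (D' : QData (R0 K0' A) K0' (kA A))
      (H : Three T (IntermediateField.inclusion hle).toRingHom (S35.GNorm.uK ζR)),
      (D.F0 = F0 K0 M0 ∧ D.res = res0 K0 A ∧ D.ϖ = ((q : ℕ) : R0 K0 A) ∧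
      T.F = F0 K0 (M0 * q) ∧
      (∀ (f : T.F) (hf : bc K0 (f : LaurentSeries K0) ∈ modularFunctionFieldBar (M0 * q)),
        bc K0 (T.e2 f) = ((Wb M0 q hqM ⟨_, hf⟩ : FF (M0 * q)) : LaurentSeries Kb)) ∧
      X.xW = zS (R0 K0 A) Z.xZ ∧ y = zS (R0 K0 A) Z.yZ ∧
      bc K0 (X.x : LaurentSeries K0) = (Z.xF : LaurentSeries Kb) ∧
      IsDedekindDomain (X.chart ⧸ Ideal.span {Inst.ϖB X}) ∧
      IsDedekindDomain ((X.inv y hxy).chart ⧸ Ideal.span {Inst.ϖB (X.inv y hxy)}) ∧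
      qExpand (kA A) q (D.red X.xW) = D.red X.xW ^ q ∧
      qExpand (kA A) q (D.red y) = D.red y ^ q ∧
      XYData T X ∧ XYData T (X.inv y hxy) ∧ Nonempty D.Theta) →
      (FiniteDimensional ℚ K0' ∧ IsPrimitiveRoot (ζR : R0 K0' A) q ∧
      D'.F0 = F0 K0' M0 ∧ D'.res = res0 K0' A ∧ D'.res ζR = 1 ∧
      (∃ c0, (ζR : R0 K0' A) - 1 = D'.ϖ * c0 ∧ D'.res c0 ≠ 0) ∧
      BCData D D' (UnrCyc.iR A hle) (IntermediateField.inclusion hle).toRingHom) →
      (H.F = F0 K0 (M0 * q * q) ∧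
      (∀ (f : H.F) (hf : bc K0 (f : LaurentSeries K0) ∈ modularFunctionFieldBar (M0 * q * q)),
        bc K0 (H.eB f) = ((Wb2 M0 q hqM ⟨_, hf⟩ : FF (M0 * q * q)) : LaurentSeries Kb))) →
      (∃ ζm : (R0 K0 A)ˣ, IsPrimitiveRoot ζm m) →
      ∀ (Φ : TAut T), (∀ c, Φ.sk c = c ^ q) →
        coeffMap (Φ.sR : R0 K0 A →+* R0 K0 A) X.xW = X.xW →
        coeffMap (Φ.sR : R0 K0 A →+* R0 K0 A) y = y →
      FixGen m (cFix q) H X (X.inv y hxy)

/-- **The whole chain above `FixGen`.** -/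
theorem claimA_all_of (p q : ℕ) [Fact q.Prime] (hp : p.Prime) (hqp : q ≠ p)
    (A : ValuationSubring Kb) (hA : A.LiesOverPrime q) (hcore : Core q A)
    (M0 : ℕ) [NeZero M0] (hqM : ¬ q ∣ M0) : ClaimA p M0 q A := by
  have hq : q.Prime := Fact.out
  refine claimA_of_coord p q A (fun M1 _ hqM1 Z hU hW n1 n2 n3 => ?_) M0 hqM
  refine claimA_of_fixK0_stab p M1 q hp hq hqp A hA (cFix q) (cFix_pos hq) fun m hqm => ?_
  have hm0 : 0 < m := Nat.pos_of_ne_zero (by rintro rfl; exact hqm (dvd_zero _))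
  obtain ⟨K1, hK1, hu1, hL⟩ := exists_full_layer m M1 q hqM1 hqm A hA Z hU hW
  refine ⟨K1, hK1, hu1, fun K0 hle hK0 hu0 hst => ?_⟩
  obtain ⟨hdvr, D, T, X, y, hxy, K0', hle', hdvr', ζR, D', H, h1, h2, h3, h4⟩ := hL K0 hle hK0 hu0
  obtain ⟨Φ, hΦ, hΦz⟩ := exists_frob_of_stab hq hA hst D h1.1 h1.2.1 T h1.2.2.2.1
  have hXW := h1.2.2.2.2.2.1
  have hy := h1.2.2.2.2.2.2.1
  refine fixK0_of_layer M1 q hqM1 hm0 Z T X y hxy h1.2.2.1 h1.2.2.2.1 h1.2.2.2.2.2.2.2.1 H h3.1 ?_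
  exact hcore m M1 hqM1 hqm Z hU hW n1 n2 n3 K0 hK0 hu0 hst D T X y hxy K0' hle' ζR D' H h1 h2 h3 h4
    Φ hΦ (by rw [hXW]; exact hΦz _) (by rw [hy]; exact hΦz _)

end Fermat.Agent.S36
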