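import Fermat.Agent.S36.FixU

/-!
# S36, block G : the `FF`-level end, part 5 (fields stable under the decomposition group)

* `fixK0_mono` : `FixK0` goes down;
* `FixU.exists_stable` : every finite unramified field lies in a finite unramified field stable
  under the decomposition group;
* `fixNew_of_fixK0'`, `claimA_of_fixK0'` : `FixK0` is only needed over the finite unramified fields
  which are stable under the decomposition group.
-/

set_option autoImplicit false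
set_option linter.unusedSectionVars false

noncomputable section

namespace Fermat.Agent.S36

open ModularCurve AlgebraicCurve
open Fermat.Agent.S24 Fermat.Agent.S28 Fermat.Agent.ES Fermat.Agent.ES.QE Fermat.Agent.ES.Inst
  Fermat.Agent.S34 Fermat.Agent.S35 Desc

theorem fixK0_mono {m c0 M0 q : ℕ} [NeZero (M0 * q)] [NeZero q] {K0 K0' : IntermediateField ℚ Kb}
    (hle : K0 ≤ K0') (h : FixK0 m c0 M0 q K0') : FixK0 m c0 M0 q K0 := by
  intro u hu hd hA hB
  refine h u hu (InstUp.IsDef.mono hle hd) ?_ ?_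
  · obtain ⟨k, z, hz, hzd, e⟩ := hA
    exact ⟨k, z, hz, InstUp.IsDef.mono hle hzd, e⟩
  · obtain ⟨k, z, hz, hzd, e⟩ := hB
    exact ⟨k, z, hz, InstUp.IsDef.mono hle hzd, e⟩

theorem FixU.conj_mem_inertia (A : ValuationSubring Kb) {σ τ : GQ}
    (hσ : σ ∈ A.decompositionSubgroup ℚ) (hτ : τ ∈ A.inertiaSubgroupIn ℚ) :
    σ⁻¹ * τ * σ ∈ A.inertiaSubgroupIn ℚ := by
  obtain ⟨τ', hτ', rfl⟩ := hτ
  have hn : (A.inertiaSubgroup ℚ).Normal := by
    unfold ValuationSubring.inertiaSubgroup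
    infer_instance
  have h := hn.conj_mem τ' hτ' (⟨σ, hσ⟩ : A.decompositionSubgroup ℚ)⁻¹
  refine ⟨_, h, ?_⟩
  simp

theorem FixU.exists_stable (A : ValuationSubring Kb) (K0 : IntermediateField ℚ Kb)
    (hf : FiniteDimensional ℚ K0) (h : Unr A K0) :
    ∃ K0' : IntermediateField ℚ Kb, K0 ≤ K0' ∧ FiniteDimensional ℚ K0' ∧ Unr A K0' ∧
      ∀ σ ∈ A.decompositionSubgroup ℚ, ∀ x ∈ K0', σ x ∈ K0' := by
  have h1' : Algebra.IsAlgebraic ℚ Kb := AlgebraicClosure.isAlgebraic ℚ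
  have h2' : IsAlgClosure ℚ Kb := ⟨inferInstance, inferInstance⟩
  have h3' : Normal ℚ Kb := IsAlgClosure.normal ℚ Kb
  set N : IntermediateField ℚ Kb := IntermediateField.normalClosure ℚ K0 Kb with hN
  have hNn : Normal ℚ N := normalClosure.normal ℚ K0 Kb
  have hNf : FiniteDimensional ℚ N := normalClosure.is_finiteDimensional ℚ K0 Kb
  set K0' : IntermediateField ℚ Kb := N ⊓ IntermediateField.fixedField (A.inertiaSubgroupIn ℚ)
    with hK0'
  have hle : K0' ≤ N := inf_le_left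
  refine ⟨K0', le_inf K0.le_normalClosure ?_, ?_, ?_, ?_⟩
  · intro x hx
    rw [IntermediateField.mem_fixedField_iff]
    exact fun σ hσ => h σ hσ x hx
  · exact FiniteDimensional.of_injective (IntermediateField.inclusion hle).toLinearMap
      (IntermediateField.inclusion_injective hle)
  · intro σ hσ x hx
    exact (IntermediateField.mem_fixedField_iff _ _).1 hx.2 σ hσ
  · intro σ hσ x hx
    refine ⟨?_, ?_⟩
    · have := (IntermediateField.normal_iff_forall_map_le'.1 hNn) σ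
      exact this ⟨x, hx.1, rfl⟩
    · show _ ∈ IntermediateField.fixedField (A.inertiaSubgroupIn ℚ)
      rw [IntermediateField.mem_fixedField_iff]
      intro τ hτ
      have h5 := (IntermediateField.mem_fixedField_iff _ _).1 hx.2 _
        (FixU.conj_mem_inertia A hσ hτ)
      have h6 : σ⁻¹ (τ (σ x)) = x := h5
      have h7 := congrArg σ h6
      simpa using h7

/-- reduction to the stable fields. -/
theorem exists_K1_of_stable {m c0 M0 q : ℕ} [NeZero (M0 * q)] [NeZero q]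
    (A : ValuationSubring Kb)
    (h : ∃ K1 : IntermediateField ℚ Kb, FiniteDimensional ℚ K1 ∧ Unr A K1 ∧
      ∀ K0 : IntermediateField ℚ Kb, K1 ≤ K0 → FiniteDimensional ℚ K0 → Unr A K0 →
        (∀ σ ∈ A.decompositionSubgroup ℚ, ∀ x ∈ K0, σ x ∈ K0) → FixK0 m c0 M0 q K0) :
    ∃ K1 : IntermediateField ℚ Kb, FiniteDimensional ℚ K1 ∧ Unr A K1 ∧
      ∀ K0 : IntermediateField ℚ Kb, K1 ≤ K0 → FiniteDimensional ℚ K0 → Unr A K0 →
        FixK0 m c0 M0 q K0 := by
  obtain ⟨K1, hf1, hu1, hK⟩ := h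
  refine ⟨K1, hf1, hu1, fun K0 hle hf hu => ?_⟩
  obtain ⟨K0', hle', hf', hu', hs'⟩ := FixU.exists_stable A K0 hf hu
  exact fixK0_mono hle' (hK K0' (hle.trans hle') hf' hu' hs')

theorem fixNew_of_fixK0' (m c0 M0 q : ℕ) [NeZero (M0 * q)] [NeZero q] (hq : q.Prime)
    (hqm : ¬ q ∣ m) (A : ValuationSubring Kb) (hA : A.LiesOverPrime q)
    (h : ∃ K1 : IntermediateField ℚ Kb, FiniteDimensional ℚ K1 ∧ Unr A K1 ∧
      ∀ K0 : IntermediateField ℚ Kb, K1 ≤ K0 → FiniteDimensional ℚ K0 → Unr A K0 →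
        (∀ σ ∈ A.decompositionSubgroup ℚ, ∀ x ∈ K0, σ x ∈ K0) → FixK0 m c0 M0 q K0) :
    FixNew m c0 M0 q A :=
  fixNew_of_fixK0 m c0 M0 q hq hqm A hA (exists_K1_of_stable A h)

theorem claimA_of_fixK0' (p M0 q : ℕ) [NeZero (M0 * q)] [NeZero q] (hp : p.Prime) (hq : q.Prime)
    (hqp : q ≠ p) (A : ValuationSubring Kb) (hA : A.LiesOverPrime q) (c0 : ℕ) (hc0 : 0 < c0)
    (h : ∀ m : ℕ, ¬ q ∣ m → ∃ K1 : IntermediateField ℚ Kb, FiniteDimensional ℚ K1 ∧ Unr A K1 ∧
      ∀ K0 : IntermediateField ℚ Kb, K1 ≤ K0 → FiniteDimensional ℚ K0 → Unr A K0 →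
        (∀ σ ∈ A.decompositionSubgroup ℚ, ∀ x ∈ K0, σ x ∈ K0) → FixK0 m c0 M0 q K0) :
    ClaimA p M0 q A :=
  claimA_of_fixK0 p M0 q hp hq hqp A hA c0 hc0 fun m hm => exists_K1_of_stable A (h m hm)

end Fermat.Agent.S36
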