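import Fermat.Agent.S36.GenMin

/-!
# S36, block G-REG, piece [GEN] : from `MonoAt` to the data `(s, hmono, g)` of `tube_delta` / `Val1`

For ANY `φ : D.F0 →+* T.F` (`T.al` or `T.be`) and `γ : X.chart →+* T.chart X` its restriction, with
`T.chart X` finite over `X.chart` along `γ`.
-/

set_option autoImplicit false
set_option linter.unusedSectionVars false
set_option linter.unusedVariables false
set_option linter.style.haveILetI false

noncomputable section

namespace Fermat.Agent.S36

open ModularCurve Polynomial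
open Fermat.Agent.S34 Fermat.Agent.S35 Fermat.Agent.ES Fermat.Agent.ES.QE Fermat.Agent.ES.Model

variable {R K k : Type*} [CommRing R] [IsDomain R] [IsNoetherianRing R] [IsIntegrallyClosed R]
  [Field K] [Algebra R K] [IsFractionRing R K] [Field k]

namespace GenT

variable {D : QData R K k} {q : ℕ} [NeZero q] (T : Two D q) (X : D.Coord)

/-- `X.chart` is integrally closed in `D.F0`. -/
theorem mem_chart_of_isIntegral (c : D.F0) (hc : X.chart.subtype.IsIntegralElem c) :
    c ∈ X.chart := by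
  letI a0 : Algebra X.chart D.F0 := X.chart.subtype.toAlgebra
  letI a1 : Algebra R[X] X.chart := (NRed.phiC X).toAlgebra
  letI a2 : Algebra R[X] D.F0 := X.phiF.toAlgebra
  haveI t : IsScalarTower R[X] X.chart D.F0 := IsScalarTower.of_algebraMap_eq fun _ => rfl
  haveI hint : Algebra.IsIntegral R[X] X.chart := by
    refine ⟨fun b => ?_⟩
    obtain ⟨p, hp, hp0⟩ := b.2
    refine ⟨p, hp, ?_⟩
    apply Subtype.val_injective
    apply Subtype.val_injective
    have h1 := hom_eval₂ p (algebraMap R[X] X.chart)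
      ((algebraMap D.F0 (LaurentSeries K)).comp X.chart.subtype) b
    have h2 : ((algebraMap D.F0 (LaurentSeries K)).comp X.chart.subtype).comp
        (algebraMap R[X] X.chart) = X.phi := RingHom.ext fun _ => rfl
    rw [h2] at h1
    exact h1.trans hp0
  have h3 : IsIntegral R[X] c := isIntegral_trans c hc
  obtain ⟨p, hp, hp0⟩ := h3
  refine ⟨p, hp, ?_⟩
  have := hom_eval₂ p (algebraMap R[X] D.F0) (algebraMap D.F0 (LaurentSeries K)) c
  rw [hp0, map_zero] at this
  exact this.symm

/-- the minimal polynomial over `φ(F0)` of an element of the chart, `B` finite over `C`. -/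
theorem exists_minpoly_gen (φ : D.F0 →+* T.F) (γ : X.chart →+* T.chart X)
    (hγ : ∀ c : X.chart, ((γ c : T.chart X) : T.F) = φ (c : D.F0))
    (hfin : letI := γ.toAlgebra; Module.Finite X.chart (T.chart X))
    (hfr : letI := φ.toAlgebra; Module.finrank D.F0 T.F = q + 1)
    (y : T.chart X) (s : D.F0) (hs : s ≠ 0)
    (hfrac : ∀ f : T.F, ∃ a ∈ T.chart X, ∃ b ∈ T.chart X, b ≠ 0 ∧ f * b = a)
    (hmono : ∀ a : T.chart X, ∃ P : D.F0[X], φ s * (a : T.F) = eval₂ φ (y : T.F) P) :
    ∃ g : D.F0[X], g.Monic ∧ (∀ i, g.coeff i ∈ X.chart) ∧ g.natDegree = q + 1 ∧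
      eval₂ φ (y : T.F) g = 0 ∧ (letI := φ.toAlgebra; g = minpoly D.F0 (y : T.F)) := by
  letI a0 : Algebra X.chart D.F0 := X.chart.subtype.toAlgebra
  letI a1 : Algebra D.F0 T.F := φ.toAlgebra
  letI a3 : Algebra X.chart (T.chart X) := γ.toAlgebra
  haveI := hfin
  have hfd : FiniteDimensional D.F0 T.F := Module.finite_of_finrank_pos (by rw [hfr]; omega)
  have hint : IsIntegral D.F0 (y : T.F) := Algebra.IsIntegral.isIntegral _
  refine ⟨minpoly D.F0 (y : T.F), minpoly.monic hint, fun i => ?_, ?_, ?_, rfl⟩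
  · -- coefficients
    haveI : Algebra.IsIntegral X.chart (T.chart X) := Algebra.IsIntegral.of_finite _ _
    obtain ⟨P, hP, hroot⟩ : IsIntegral X.chart y := Algebra.IsIntegral.isIntegral y
    have hdvd : minpoly D.F0 (y : T.F) ∣ P.map (algebraMap X.chart D.F0) := by
      refine minpoly.dvd _ _ ?_
      rw [aeval_def, eval₂_map]
      have e1 : (algebraMap D.F0 T.F).comp (algebraMap X.chart D.F0)
          = (T.chart X).subtype.comp γ := RingHom.ext fun c => (hγ c).symm
      rw [e1]
      have e2 := hom_eval₂ P γ (T.chart X).subtype y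
      have e3 : eval₂ γ y P = 0 := hroot
      rw [e3, map_zero] at e2
      exact e2.symm
    exact mem_chart_of_isIntegral X _
      (Polynomial.isIntegral_coeff_of_dvd P _ hP (minpoly.monic hint) hdvd i)
  · -- degree
    have htop : IntermediateField.adjoin D.F0 {(y : T.F)} = ⊤ := by
      rw [eq_top_iff]
      intro f _
      have hy : (y : T.F) ∈ IntermediateField.adjoin D.F0 {(y : T.F)} :=
        IntermediateField.subset_adjoin _ _ (Set.mem_singleton _)
      have hB : ∀ a : T.chart X, (a : T.F) ∈ IntermediateField.adjoin D.F0 {(y : T.F)} := by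
        intro a
        obtain ⟨P, hP⟩ := hmono a
        have h1 : eval₂ φ (y : T.F) P ∈ IntermediateField.adjoin D.F0 {(y : T.F)} := by
          rw [eval₂_eq_sum_range]
          refine sum_mem fun i _ => mul_mem ?_ (pow_mem hy i)
          exact (IntermediateField.adjoin D.F0 {(y : T.F)}).algebraMap_mem _
        have h2 : φ s ≠ 0 := by rwa [Ne, map_eq_zero]
        have h3 : (a : T.F) = (φ s)⁻¹ * eval₂ φ (y : T.F) P := by
          rw [← hP, ← mul_assoc, inv_mul_cancel₀ h2, one_mul]
        rw [h3]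
        refine mul_mem (inv_mem ?_) h1
        exact (IntermediateField.adjoin D.F0 {(y : T.F)}).algebraMap_mem _
      obtain ⟨a, ha, b, hb, hb0, e⟩ := hfrac f
      have h3 : f = a * b⁻¹ := by rw [← e, mul_assoc, mul_inv_cancel₀ hb0, mul_one]
      rw [h3]
      exact mul_mem (hB ⟨a, ha⟩) (inv_mem (hB ⟨b, hb⟩))
    rw [← IntermediateField.adjoin.finrank hint, htop, IntermediateField.finrank_top', hfr]
  · exact minpoly.aeval D.F0 (y : T.F)

/-- **the adapter** : `MonoAt` ⟹ `(s, hmono, g)` in the shapes of `tube_delta_al/be` and `Val1`. -/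
theorem exists_data (φ : D.F0 →+* T.F) (γ : X.chart →+* T.chart X)
    (hγ : ∀ c : X.chart, ((γ c : T.chart X) : T.F) = φ (c : D.F0))
    (hfin : letI := γ.toAlgebra; Module.Finite X.chart (T.chart X))
    (hfr : letI := φ.toAlgebra; Module.finrank D.F0 T.F = q + 1)
    (hfrac : ∀ f : T.F, ∃ a ∈ T.chart X, ∃ b ∈ T.chart X, b ≠ 0 ∧ f * b = a)
    (n0 : Ideal X.chart) (hn0 : n0.IsPrime) (y : T.chart X)
    (hmono : letI := γ.toAlgebra; MonoAt n0 y) :
    ∃ s : X.chart, s ∉ n0 ∧
      (∀ a : T.chart X, ∃ P : D.F0[X], (∀ i, P.coeff i ∈ X.chart) ∧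
        φ (s : D.F0) * (a : T.F) = eval₂ φ (y : T.F) P) ∧
      ∃ g : D.F0[X], g.Monic ∧ (∀ i, g.coeff i ∈ X.chart) ∧ g.natDegree = q + 1 ∧
        eval₂ φ (y : T.F) g = 0 ∧ (letI := φ.toAlgebra; g = minpoly D.F0 (y : T.F)) := by
  letI a3 : Algebra X.chart (T.chart X) := γ.toAlgebra
  haveI := hfin
  obtain ⟨s, hs, hsa⟩ := MonoAt.uniform hn0 hmono
  have hs0 : (s : D.F0) ≠ 0 := by
    intro h0
    apply hs
    have : s = 0 := Subtype.ext h0
    rw [this]
    exact Ideal.zero_mem _
  have hm : ∀ a : T.chart X, ∃ P : D.F0[X], (∀ i, P.coeff i ∈ X.chart) ∧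
      φ (s : D.F0) * (a : T.F) = eval₂ φ (y : T.F) P := by
    intro a
    obtain ⟨P, hP, e⟩ := exists_poly_of_adjoin T X φ γ hγ y (s • a) (hsa a)
    refine ⟨P, hP, ?_⟩
    rw [← e, ← hγ s]
    rfl
  refine ⟨s, hs, hm, ?_⟩
  exact exists_minpoly_gen T X φ γ hγ hfin hfr y s hs0 hfrac
    (fun a => by obtain ⟨P, -, e⟩ := hm a; exact ⟨P, e⟩)

end GenT

end Fermat.Agent.S36
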