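import Fermat.Agent.S36.ValTh
import Fermat.Agent.S34.NRed
import Fermat.Agent.S34.LocDefs

/-!
# S36, G-REG, [D3] : WLOG `θ (ρ₂ y₀) ≠ 0`

* `tht_add`, `tht_C`, `tht_one`, `tht_evS_eq_zero`, `tht_j_ne_zero`;
* `tht_red_xW` : `θ x̄ ≠ 0` for EVERY coordinate `X : D.Coord` (from `j Q(x) = P(x)`);
* `tht_fix` : `θ Y = 0`, `Y ≠ 0`, `θ x̄ ≠ 0` ⟹ `θ (Y (1 + Y x̄)) ≠ 0`;
* `LocGen.mul_unit` : a local generator times an element outside `n` is a local generator;
* `exists_theta2` : at a node the generator `y₀ ∈ p₁` of `n` modulo `p₂` may be chosen with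
  `θ (ρ₂ y₀) ≠ 0`; `exists_theta1` : the mirror statement.
-/

set_option autoImplicit false
set_option linter.unusedSectionVars false

noncomputable section

namespace Fermat.Agent.S36.GenTheta

open ModularCurve Polynomial
open Fermat.Agent.S34 Fermat.Agent.S35 Fermat.Agent.ES.QE Fermat.Agent.ES.Model
open Fermat.Agent.S36.ValTh

section basic

variable {A : Type*} [CommRing A]

theorem tht_add (f g : LaurentSeries A) : tht (f + g) = tht f + tht g := by
  ext n
  rw [HahnSeries.coeff_add, tht_coeff, tht_coeff, tht_coeff, HahnSeries.coeff_add, mul_add]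

theorem tht_C (a : A) : tht (HahnSeries.C a : LaurentSeries A) = 0 := by
  ext n
  rw [tht_coeff, HahnSeries.coeff_zero, HahnSeries.C_apply, HahnSeries.coeff_single]
  split_ifs with h
  · rw [h]; simp
  · simp

theorem tht_one : tht (1 : LaurentSeries A) = 0 := by
  rw [← map_one (HahnSeries.C : A →+* LaurentSeries A)]
  exact tht_C 1

theorem tht_pow_eq_zero (x : LaurentSeries A) (hx : tht x = 0) (n : ℕ) : tht (x ^ n) = 0 := by
  induction n with
  | zero => rw [pow_zero]; exact tht_one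
  | succ n ih => rw [pow_succ, tht_mul, ih, hx, zero_mul, mul_zero, add_zero]

theorem tht_evS_eq_zero (x : LaurentSeries A) (hx : tht x = 0) (p : A[X]) :
    tht (evS x p) = 0 := by
  induction p using Polynomial.induction_on' with
  | add p r hp hr => rw [map_add, tht_add, hp, hr, add_zero]
  | monomial n a =>
    rw [← C_mul_X_pow_eq_monomial, map_mul, map_pow, evS_C, evS_X, tht_mul, tht_C,
      tht_pow_eq_zero x hx, zero_mul, mul_zero, add_zero]

theorem tht_j_ne_zero [Nontrivial A] : tht (jqModC A) ≠ 0 := by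
  rw [tht_ne_zero_iff]
  refine ⟨-1, ?_⟩
  rw [ModularCurve.coeff_jqModC_neg_one]
  simp

end basic

theorem tht_fix {k : Type*} [Field k] (Y x : LaurentSeries k) (hY : Y ≠ 0) (hx : tht x ≠ 0)
    (h : tht Y = 0) : tht (Y * (1 + Y * x)) ≠ 0 := by
  rw [tht_mul, h, zero_mul, zero_add, tht_add, tht_one, zero_add, tht_mul, h, zero_mul, zero_add]
  exact mul_ne_zero hY (mul_ne_zero hY hx)

variable {R K k : Type*} [CommRing R] [IsDomain R] [IsNoetherianRing R] [IsIntegrallyClosed R]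
  [Field K] [Algebra R K] [IsFractionRing R K] [Field k]

variable {D : QData R K k}

/-- `θ x̄ ≠ 0` for every coordinate. -/
theorem tht_red_xW (X : D.Coord) : tht (D.red X.xW) ≠ 0 := by
  intro h
  have hrel := congrArg D.red X.rel
  rw [map_mul, D.red_j, D.red_evS, D.red_evS] at hrel
  have h1 := congrArg tht hrel
  rw [tht_mul, tht_evS_eq_zero _ h, tht_evS_eq_zero _ h, mul_zero, add_zero] at h1
  rcases mul_eq_zero.1 h1 with h2 | h2
  · exact tht_j_ne_zero h2
  · by_cases hQ : X.Q.map D.res = 0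
    · exact X.Q_prim ((D.map_res_eq_zero_iff X.Q).1 hQ)
    · exact X.trans _ hQ h2

end Fermat.Agent.S36.GenTheta

namespace Fermat.Agent.S34

theorem LocGen.mul_unit {B : Type*} [CommRing B] {n p : Ideal B} [n.IsPrime] {x : B}
    (h : LocGen n p x) (u : B) (hu : u ∉ n) : LocGen n p (x * u) := by
  refine ⟨n.mul_mem_right _ h.1, fun b hb => ?_⟩
  obtain ⟨s, hs, c, hc⟩ := h.2 b hb
  refine ⟨u * s, fun hh => ?_, c, ?_⟩
  · rcases Ideal.IsPrime.mem_or_mem inferInstance hh with h' | h'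
    · exact hu h'
    · exact hs h'
  · have : u * s * b - c * (x * u) = u * (s * b - c * x) := by ring
    rw [this]
    exact p.mul_mem_left _ hc

end Fermat.Agent.S34

namespace Fermat.Agent.S36.GenTheta

open ModularCurve Polynomial
open Fermat.Agent.S34 Fermat.Agent.S35 Fermat.Agent.ES.QE Fermat.Agent.ES.Model
open Fermat.Agent.S36.ValTh

variable {R K k : Type*} [CommRing R] [IsDomain R] [IsNoetherianRing R] [IsIntegrallyClosed R]
  [Field K] [Algebra R K] [IsFractionRing R K] [Field k]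

variable {D : QData R K k} {q : ℕ} [NeZero q] (T : Two D q) (X : D.Coord)

/-- the reduction of the chart on the first component. -/
def r1 (hle : ∀ b ∈ T.chart X, b ∈ T.O) : T.chart X →+* LaurentSeries k :=
  T.rho1.comp (Subring.inclusion (fun b hb => (hle b hb).1 : T.chart X ≤ T.O1))

/-- the reduction of the chart on the second component. -/
def r2 (hle : ∀ b ∈ T.chart X, b ∈ T.O) : T.chart X →+* LaurentSeries k :=
  T.rho2.comp (Subring.inclusion (fun b hb => (hle b hb).2 : T.chart X ≤ T.O2))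

theorem r1_apply (hle : ∀ b ∈ T.chart X, b ∈ T.O) (b : T.chart X) :
    r1 T X hle b = D.rho ⟨T.e1 b, (hle b b.2).1⟩ := rfl

theorem r2_apply (hle : ∀ b ∈ T.chart X, b ∈ T.O) (b : T.chart X) :
    r2 T X hle b = D.rho ⟨T.e2 b, (hle b b.2).2⟩ := rfl

theorem r1_eq_zero_iff (hle : ∀ b ∈ T.chart X, b ∈ T.O) (b : T.chart X) :
    r1 T X hle b = 0 ↔ b ∈ T.p1 X := by
  rw [NRed.mem_p1 X T hle, NRed.divS_O1_iff, r1_apply, QData.rho_eq_zero_iff_exists]

theorem r2_eq_zero_iff (hle : ∀ b ∈ T.chart X, b ∈ T.O) (b : T.chart X) :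
    r2 T X hle b = 0 ↔ b ∈ T.p2 X := by
  rw [NRed.mem_p2 X T hle, NRed.divS_O2_iff, r2_apply, QData.rho_eq_zero_iff_exists]

theorem r2_be_x (hle : ∀ b ∈ T.chart X, b ∈ T.O) (hbe : ∀ a ∈ X.chart, T.be a ∈ T.chart X) :
    r2 T X hle (NRed.beC X T hbe ⟨X.x, X.x_mem_chart⟩) = D.red X.xW := by
  rw [r2_apply, ← QData.rho_inc]
  congr 1
  exact Subtype.ext (T.e2_be X.x)

theorem r1_al_x (hle : ∀ b ∈ T.chart X, b ∈ T.O) :
    r1 T X hle (NRed.alC X T ⟨X.x, X.x_mem_chart⟩) = D.red X.xW := by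
  rw [r1_apply, ← QData.rho_inc]
  rfl

/-- a local generator of `n` modulo `p ≠ n` is not in `p`. -/
theorem notMem_of_locGen {B : Type*} [CommRing B] {n p : Ideal B} [p.IsPrime] (hpn : p ≤ n)
    (hne : p ≠ n) {y : B} (hy : LocGen n p y) : y ∉ p := by
  intro hyp
  apply hne
  refine le_antisymm hpn fun b hb => ?_
  obtain ⟨s, hs, c, hc⟩ := hy.2 b hb
  have h1 : s * b ∈ p := by
    have : s * b = (s * b - c * y) + c * y := by ring
    rw [this]
    exact p.add_mem hc (p.mul_mem_left _ hyp)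
  rcases Ideal.IsPrime.mem_or_mem inferInstance h1 with h | h
  · exact absurd (hpn h) hs
  · exact h

/-- abstract form of the modification. -/
theorem exists_theta_abs {B : Type*} [CommRing B] (r : B →+* LaurentSeries k) (n p p' : Ideal B)
    [n.IsPrime] (hr : ∀ b, r b = 0 ↔ b ∈ p) (x : B) (hx : tht (r x) ≠ 0)
    (y0 : B) (hy : LocGen n p y0) (hy1 : y0 ∈ p') (hy2 : y0 ∉ p) :
    ∃ y : B, LocGen n p y ∧ y ∈ p' ∧ y ∉ p ∧ tht (r y) ≠ 0 := by
  by_cases h : tht (r y0) = 0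
  · have hu : 1 + y0 * x ∉ n := by
      intro hh
      have : (1 : B) ∈ n := by
        have e : (1 : B) = (1 + y0 * x) - y0 * x := by ring
        rw [e]
        exact n.sub_mem hh (n.mul_mem_right _ hy.1)
      exact (Ideal.IsPrime.ne_top inferInstance) ((Ideal.eq_top_iff_one n).2 this)
    have hth : tht (r (y0 * (1 + y0 * x))) ≠ 0 := by
      rw [map_mul, map_add, map_one, map_mul]
      exact tht_fix _ _ (fun h0 => hy2 ((hr _).1 h0)) hx h
    refine ⟨y0 * (1 + y0 * x), hy.mul_unit _ hu, p'.mul_mem_right _ hy1, fun hp => hth ?_, hth⟩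
    rw [(hr _).2 hp]
    ext m
    simp
  · exact ⟨y0, hy, hy1, hy2, h⟩

/-- **WLOG `θ (ρ₂ y₀) ≠ 0`** (for `φ = T.al`, at a node). -/
theorem exists_theta2 (hle : ∀ b ∈ T.chart X, b ∈ T.O)
    (hbe : ∀ a ∈ X.chart, T.be a ∈ T.chart X) [(T.p2 X).IsPrime]
    (n : Ideal (T.chart X)) [n.IsPrime] (h2 : T.p2 X ≤ n) (hne : T.p2 X ≠ n)
    (y0 : T.chart X) (hy : LocGen n (T.p2 X) y0) (hy1 : y0 ∈ T.p1 X) :
    ∃ y : T.chart X, LocGen n (T.p2 X) y ∧ y ∈ T.p1 X ∧ y ∉ T.p2 X ∧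
      tht (D.rho ⟨T.e2 y, (hle y y.2).2⟩) ≠ 0 :=
  exists_theta_abs (r2 T X hle) n (T.p2 X) (T.p1 X) (r2_eq_zero_iff T X hle)
    (NRed.beC X T hbe ⟨X.x, X.x_mem_chart⟩) (by rw [r2_be_x]; exact tht_red_xW X) y0 hy hy1
    (notMem_of_locGen h2 hne hy)

/-- **WLOG `θ (ρ₁ y₀) ≠ 0`** (mirror, for `φ = T.be`). -/
theorem exists_theta1 (hle : ∀ b ∈ T.chart X, b ∈ T.O) [(T.p1 X).IsPrime]
    (n : Ideal (T.chart X)) [n.IsPrime] (h1 : T.p1 X ≤ n) (hne : T.p1 X ≠ n) (p' : Ideal (T.chart X))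
    (y0 : T.chart X) (hy : LocGen n (T.p1 X) y0) (hy1 : y0 ∈ p') :
    ∃ y : T.chart X, LocGen n (T.p1 X) y ∧ y ∈ p' ∧ y ∉ T.p1 X ∧
      tht (D.rho ⟨T.e1 y, (hle y y.2).1⟩) ≠ 0 :=
  exists_theta_abs (r1 T X hle) n (T.p1 X) p' (r1_eq_zero_iff T X hle)
    (NRed.alC X T ⟨X.x, X.x_mem_chart⟩) (by rw [r1_al_x]; exact tht_red_xW X) y0 hy hy1
    (notMem_of_locGen h1 hne hy)

end Fermat.Agent.S36.GenTheta
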