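import Fermat.Agent.S36.Desc
import Fermat.Agent.S31.CycM
import Fermat.Agent.ES.ResField
import Fermat.Agent.ES.InstDefs

/-!
# S36, block G-UNR, package U2 : roots of unity of order prime to `q` are unramified at `A`

* `inertia_fix_of_pow_eq_one` : `z ^ n = 1`, `q ∤ n`, `σ ∈ I_A` implies `σ z = z`;
* `unr_adjoin`, `unr_adjoin_roots` : fields generated by elements fixed by inertia;
* `exists_teichmuller` : every nonzero element of the residue field of `A` is the residue of a root
  of unity of order prime to `q`;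
* `exists_unr_lifts` : a finite set of residues lifts to a finite unramified field.
-/

set_option autoImplicit false
set_option linter.style.haveILetI false

noncomputable section

namespace Fermat.Agent.S36

open Fermat.Agent.S24 Fermat.Agent.ES Fermat.Agent.ES.Inst Fermat.Agent.ES.IDvr

variable {A : ValuationSubring Kb}

/-- **U2 (a)** : the inertia group fixes the roots of unity of order prime to `q`. -/
theorem inertia_fix_of_pow_eq_one {q n : ℕ} (hq : q.Prime) (hA : A.LiesOverPrime q)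
    (hn : ¬ q ∣ n) {z : Kb} (hz : z ^ n = 1) (σ : GQ) (hσ : σ ∈ A.inertiaSubgroupIn ℚ) :
    σ z = z := by
  have hn0 : n ≠ 0 := by
    rintro rfl
    exact hn (dvd_zero q)
  have hfin : IsOfFinOrder z := isOfFinOrder_iff_pow_eq_one.mpr ⟨n, Nat.pos_of_ne_zero hn0, hz⟩
  have hd : orderOf z ∣ n := orderOf_dvd_of_pow_eq_one hz
  haveI : NeZero (orderOf z) := ⟨hfin.orderOf_pos.ne'⟩
  exact S31.CycM.inertia_zeta (IsPrimitiveRoot.orderOf z) hq (fun h => hn (h.trans hd)) hA σ hσ

/-- a field generated by elements fixed by the inertia group is unramified. -/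
theorem unr_adjoin (S : Set Kb) (h : ∀ z ∈ S, ∀ σ ∈ A.inertiaSubgroupIn ℚ, σ z = z) :
    Unr A (IntermediateField.adjoin ℚ S) := by
  intro σ hσ x hx
  have hle : IntermediateField.adjoin ℚ S ≤
      IntermediateField.fixedField (A.inertiaSubgroupIn ℚ) := by
    rw [IntermediateField.adjoin_le_iff]
    intro y hy
    exact (IntermediateField.mem_fixedField_iff _ _).2 (fun τ hτ => h y hy τ hτ)
  exact (IntermediateField.mem_fixedField_iff _ _).1 (hle hx) σ hσ

/-- **U2 (b)** : a field generated by roots of unity of order prime to `q` is unramified. -/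
theorem unr_adjoin_roots {q : ℕ} (hq : q.Prime) (hA : A.LiesOverPrime q) (S : Set Kb)
    (h : ∀ z ∈ S, ∃ n : ℕ, ¬ q ∣ n ∧ z ^ n = 1) : Unr A (IntermediateField.adjoin ℚ S) :=
  unr_adjoin S fun z hz σ hσ => by
    obtain ⟨n, hn, hzn⟩ := h z hz
    exact inertia_fix_of_pow_eq_one hq hA hn hzn σ hσ

theorem finiteDimensional_adjoin_finset (S : Finset Kb) :
    FiniteDimensional ℚ (IntermediateField.adjoin ℚ (S : Set Kb)) := by
  haveI : Algebra.IsAlgebraic ℚ Kb := AlgebraicClosure.isAlgebraic ℚ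
  exact IntermediateField.finiteDimensional_adjoin fun x _ =>
    (Algebra.IsAlgebraic.isAlgebraic x).isIntegral

/-- every element of the residue field of `A` is a root of a nonzero polynomial over `𝔽_q`. -/
theorem exists_poly_residue {q : ℕ} (hq : q.Prime) (_hA : A.LiesOverPrime q) (x : kA A) :
    ∃ P : Polynomial ℤ, P.map (Int.castRingHom (ZMod q)) ≠ 0 ∧
      Polynomial.eval₂ (Int.castRingHom (kA A)) x P = 0 := by
  obtain ⟨a, rfl⟩ := IsLocalRing.residue_surjective x
  have halg : IsAlgebraic ℤ (a : Kb) := by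
    haveI : Algebra.IsAlgebraic ℚ Kb := AlgebraicClosure.isAlgebraic ℚ
    have : IsAlgebraic ℚ (a : Kb) := Algebra.IsAlgebraic.isAlgebraic _
    exact (IsFractionRing.isAlgebraic_iff ℤ ℚ Kb).mpr this
  obtain ⟨p, hp0, hpx⟩ := halg
  have hq' : Polynomial.aeval (a : Kb) p.primPart = 0 := Polynomial.aeval_primPart_eq_zero hp0 hpx
  have hprim := p.isPrimitive_primPart
  refine ⟨p.primPart, ?_, ?_⟩
  · intro h0
    have hdvd : ∀ i, (q : ℤ) ∣ p.primPart.coeff i := by
      intro i
      have := congrArg (fun f => Polynomial.coeff f i) h0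
      simp only [Polynomial.coeff_map, Polynomial.coeff_zero, eq_intCast] at this
      exact (ZMod.intCast_zmod_eq_zero_iff_dvd _ _).1 this
    have := hprim (q : ℤ) ((Polynomial.C_dvd_iff_dvd_coeff _ _).mpr hdvd)
    exact (Nat.prime_iff_prime_int.mp hq).not_isUnit this
  · have h1 : Polynomial.eval₂ (Int.castRingHom A) a p.primPart = 0 := by
      apply Subtype.val_injective
      have h2 := Polynomial.hom_eval₂ p.primPart (Int.castRingHom A) A.subtype a
      rw [ZeroMemClass.coe_zero]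
      refine h2.trans ?_
      rw [Polynomial.aeval_def] at hq'
      have e : A.subtype.comp (Int.castRingHom A) = algebraMap ℤ Kb := RingHom.ext_int _ _
      rw [e]
      exact hq'
    have h3 := Polynomial.hom_eval₂ p.primPart (Int.castRingHom A) (IsLocalRing.residue A) a
    rw [h1, map_zero] at h3
    have e : (IsLocalRing.residue A).comp (Int.castRingHom A) = Int.castRingHom (kA A) :=
      RingHom.ext_int _ _
    rw [e] at h3
    exact h3.symm

/-- every nonzero element of the residue field of `A` is a root of unity of order prime to `q`. -/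
theorem exists_pow_eq_one_residue {q : ℕ} (hq : q.Prime) (hA : A.LiesOverPrime q) (x : kA A)
    (hx : x ≠ 0) : ∃ n : ℕ, ¬ q ∣ n ∧ x ^ n = 1 := by
  haveI : Fact q.Prime := ⟨hq⟩
  haveI hchar : CharP (kA A) q := ResField.charP hq hA
  letI : Algebra (ZMod q) (kA A) := ZMod.algebra (kA A) q
  obtain ⟨P, hP0, hPx⟩ := exists_poly_residue hq hA x
  have halg : IsAlgebraic (ZMod q) x := by
    refine ⟨P.map (Int.castRingHom (ZMod q)), hP0, ?_⟩
    rw [Polynomial.aeval_def, Polynomial.eval₂_map]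
    have e : (algebraMap (ZMod q) (kA A)).comp (Int.castRingHom (ZMod q))
        = Int.castRingHom (kA A) := RingHom.ext_int _ _
    rw [e]
    exact hPx
  have hint : IsIntegral (ZMod q) x := halg.isIntegral
  haveI : Module.Finite (ZMod q) (Algebra.adjoin (ZMod q) {x}) :=
    Module.Finite.iff_fg.2 hint.fg_adjoin_singleton
  haveI : Finite (Algebra.adjoin (ZMod q) {x}) := Module.finite_of_finite (ZMod q)
  let f : ℕ → Algebra.adjoin (ZMod q) {x} := fun i =>
    ⟨x ^ i, Subalgebra.pow_mem _ (Algebra.self_mem_adjoin_singleton _ x) i⟩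
  obtain ⟨i, j, hij, hf⟩ := Finite.exists_ne_map_eq_of_infinite f
  have hxij : x ^ i = x ^ j := congrArg Subtype.val hf
  have hfin : IsOfFinOrder x := by
    rw [isOfFinOrder_iff_pow_eq_one]
    rcases lt_or_gt_of_ne hij with h | h
    · refine ⟨j - i, by omega, ?_⟩
      have : x ^ i * x ^ (j - i) = x ^ i * 1 := by
        rw [← pow_add, mul_one, Nat.add_sub_cancel' h.le, hxij]
      exact mul_left_cancel₀ (pow_ne_zero i hx) this
    · refine ⟨i - j, by omega, ?_⟩
      have : x ^ j * x ^ (i - j) = x ^ j * 1 := by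
        rw [← pow_add, mul_one, Nat.add_sub_cancel' h.le, hxij]
      exact mul_left_cancel₀ (pow_ne_zero j hx) this
  haveI : NeZero (orderOf x) := ⟨hfin.orderOf_pos.ne'⟩
  refine ⟨orderOf x, ?_, pow_orderOf_eq_one x⟩
  intro hdvd
  have h1 : NeZero ((orderOf x : ℕ) : kA A) := (IsPrimitiveRoot.orderOf x).neZero'
  exact h1.out ((CharP.cast_eq_zero_iff (kA A) q _).2 hdvd)

/-- **U2 (c)**, TEICHMUELLER : every nonzero element of the residue field of `A` is the residue of
a root of unity of order prime to `q`. -/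
theorem exists_teichmuller {q : ℕ} (hq : q.Prime) (hA : A.LiesOverPrime q) (x : kA A)
    (hx : x ≠ 0) : ∃ (n : ℕ) (z : A), ¬ q ∣ n ∧ z ^ n = 1 ∧ IsLocalRing.residue A z = x := by
  obtain ⟨n, hn, hxn⟩ := exists_pow_eq_one_residue hq hA x hx
  have hn0 : n ≠ 0 := by
    rintro rfl
    exact hn (dvd_zero q)
  haveI : NeZero n := ⟨hn0⟩
  haveI hchar : CharP (kA A) q := ResField.charP hq hA
  obtain ⟨ζ, hζ, -, -⟩ := ResField.exists_zetaA A n
  have hζ' : IsPrimitiveRoot (ζ : A) n := IsPrimitiveRoot.coe_units_iff.mpr hζ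
  have hnk : (n : kA A) ≠ 0 := by
    rw [Ne, CharP.cast_eq_zero_iff _ q]
    exact hn
  have h2 : IsPrimitiveRoot (IsLocalRing.residue A (ζ : A)) n :=
    ResField.isPrimitiveRoot_map (IsLocalRing.residue A) hζ' hnk
  obtain ⟨i, -, hi⟩ := h2.eq_pow_of_pow_eq_one hxn
  refine ⟨n, (ζ : A) ^ i, hn, ?_, ?_⟩
  · rw [← pow_mul, mul_comm, pow_mul, hζ'.pow_eq_one, one_pow]
  · rw [map_pow, hi]

/-- Teichmüller lifts, including `0`, as elements of `ℚ̄` fixed by inertia. -/
theorem exists_lift_fixed {q : ℕ} (hq : q.Prime) (hA : A.LiesOverPrime q) (x : kA A) :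
    ∃ z : A, IsLocalRing.residue A z = x ∧
      (z = 0 ∨ ∃ n : ℕ, ¬ q ∣ n ∧ z ^ n = 1) ∧
      ∀ σ ∈ A.inertiaSubgroupIn ℚ, σ (z : Kb) = (z : Kb) := by
  by_cases hx : x = 0
  · exact ⟨0, by rw [map_zero, hx], Or.inl rfl, fun σ _ => by simp⟩
  · obtain ⟨n, z, hn, hzn, hz⟩ := exists_teichmuller hq hA x hx
    refine ⟨z, hz, Or.inr ⟨n, hn, hzn⟩, fun σ hσ => ?_⟩
    refine inertia_fix_of_pow_eq_one hq hA hn ?_ σ hσ
    have := congrArg (Subtype.val : A → Kb) hzn
    simpa using this

/-- a finite set of residues lifts to a finite extension of `ℚ` unramified at `A`: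
`res0 K0 A : R0 K0 A → kA A` hits every element of `S` as soon as `K1 ≤ K0`. -/
theorem exists_unr_lifts {q : ℕ} (hq : q.Prime) (hA : A.LiesOverPrime q) (S : Finset (kA A)) :
    ∃ K1 : IntermediateField ℚ Kb, FiniteDimensional ℚ K1 ∧ Unr A K1 ∧
      ∀ K0 : IntermediateField ℚ Kb, K1 ≤ K0 → ∀ x ∈ S, ∃ a : R0 K0 A, res0 K0 A a = x := by
  classical
  choose z hz1 _ hz3 using fun x : kA A => exists_lift_fixed hq hA x
  let T : Finset Kb := S.image fun x => ((z x : A) : Kb)
  refine ⟨IntermediateField.adjoin ℚ (T : Set Kb), finiteDimensional_adjoin_finset T,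
    unr_adjoin _ ?_, ?_⟩
  · intro y hy σ hσ
    obtain ⟨x, -, rfl⟩ := Finset.mem_image.1 (Finset.mem_coe.1 hy)
    exact hz3 x σ hσ
  · intro K0 hle x hx
    have hmem : ((z x : A) : Kb) ∈ K0 :=
      hle (IntermediateField.subset_adjoin ℚ _ (Finset.mem_coe.2 (Finset.mem_image_of_mem _ hx)))
    refine ⟨⟨⟨((z x : A) : Kb), hmem⟩, (z x).2⟩, ?_⟩
    rw [res0, RingHom.comp_apply]
    have : incl K0 A ⟨⟨((z x : A) : Kb), hmem⟩, (z x).2⟩ = z x := Subtype.ext rfl
    rw [this, hz1]

/-- the `n`-th cyclotomic field, `q ∤ n`, is unramified at `A` and contains every `n`-th root of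
unity. -/
theorem exists_unr_zeta {q : ℕ} (hq : q.Prime) (hA : A.LiesOverPrime q) (n : ℕ) (hn : ¬ q ∣ n) :
    ∃ K1 : IntermediateField ℚ Kb, FiniteDimensional ℚ K1 ∧ Unr A K1 ∧
      ∀ z : Kb, z ^ n = 1 → z ∈ K1 := by
  classical
  have hn0 : n ≠ 0 := by
    rintro rfl
    exact hn (dvd_zero q)
  let T : Finset Kb := (Polynomial.nthRoots n (1 : Kb)).toFinset
  have hT : ∀ z : Kb, z ∈ T ↔ z ^ n = 1 := fun z => by
    rw [Multiset.mem_toFinset, Polynomial.mem_nthRoots (Nat.pos_of_ne_zero hn0)]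
  refine ⟨IntermediateField.adjoin ℚ (T : Set Kb), finiteDimensional_adjoin_finset T,
    unr_adjoin_roots hq hA _ ?_, ?_⟩
  · intro z hz
    exact ⟨n, hn, (hT z).1 (Finset.mem_coe.1 hz)⟩
  · intro z hz
    exact IntermediateField.subset_adjoin ℚ _ (Finset.mem_coe.2 ((hT z).2 hz))

end Fermat.Agent.S36
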