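import Fermat.Agent.S36.Perf
import Fermat.Agent.S36.UnrZeta
import Fermat.Agent.S36.TDefs
import Fermat.Agent.S34.NGen

/-!
# S36, block G-REG : perfect residue fields, the instances on the charts
-/

set_option autoImplicit false
set_option linter.unusedSectionVars false
set_option linter.style.haveILetI false

noncomputable section

namespace Fermat.Agent.S36.Perf

open ModularCurve Polynomial
open Fermat.Agent.ES Fermat.Agent.ES.QE Fermat.Agent.ES.Model Fermat.Agent.S34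
open Fermat.Agent.ES.Inst Fermat.Agent.ES.IDvr Fermat.Agent.S24

variable {R K k : Type*} [CommRing R] [IsDomain R] [IsNoetherianRing R] [IsIntegrallyClosed R]
  [Field K] [Algebra R K] [IsFractionRing R K] [Field k]
  {D : QData R K k}

/-- general form : `B` a subring of a field `F ⊆ K((T))`-like, integral over `R[x]`. -/
theorem perfect_subring {F : Type*} [Field F] (q : ℕ) [Fact q.Prime] [CharP k q]
    (hres : ∀ r : R, D.res r = 0 ∨ ∃ n : ℕ, n ≠ 0 ∧ D.res r ^ n = 1)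
    (φ : R[X] →+* F) (B : Subring F) (hφ : ∀ σ, φ σ ∈ B) (hB : ∀ b ∈ B, φ.IsIntegralElem b)
    (n : Ideal B) [n.IsMaximal] (hϖ : (⟨φ (C D.ϖ), hφ _⟩ : B) ∈ n) :
    ∀ a : B, ∃ b : B, b ^ q - a ∈ n := by
  let ψ : R[X] →+* B := φ.codRestrict B hφ
  have hint : ψ.IsIntegral := fun b =>
    HDivDesc.isIntegralElem_of_injective ψ B.subtype Subtype.val_injective (hB b b.2)
  refine perfect_quot q D.res hres ψ hint n fun r hr => ?_
  have h1 : r ∈ RingHom.ker D.res := hr
  rw [D.ker_res, Ideal.mem_span_singleton'] at h1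
  obtain ⟨c, rfl⟩ := h1
  rw [map_mul, map_mul]
  exact n.mul_mem_left _ hϖ

variable {q : ℕ} [NeZero q] (X : D.Coord)

theorem perfect_chart0 [Fact q.Prime] [CharP k q]
    (hres : ∀ r : R, D.res r = 0 ∨ ∃ n : ℕ, n ≠ 0 ∧ D.res r ^ n = 1)
    (n : Ideal X.chart) [n.IsMaximal]
    (hϖ : (⟨D.ϖF, by rw [← X.phiF_C_ϖ]; exact X.phiF_mem_chart _⟩ : X.chart) ∈ n) :
    ∀ a : X.chart, ∃ b : X.chart, b ^ q - a ∈ n := by
  refine perfect_subring (D := D) q hres X.phiF X.chart X.phiF_mem_chart (fun b hb => ?_) n ?_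
  · exact HDivDesc.isIntegralElem_of_injective X.phiF (algebraMap D.F0 (LaurentSeries K))
      (algebraMap D.F0 (LaurentSeries K)).injective hb
  · convert hϖ using 2
    exact X.phiF_C_ϖ

theorem perfect_chart1 (T : Two D q) [Fact q.Prime] [CharP k q]
    (hres : ∀ r : R, D.res r = 0 ∨ ∃ n : ℕ, n ≠ 0 ∧ D.res r ^ n = 1)
    (n : Ideal (T.chart X)) [n.IsMaximal] (hϖ : T.ϖB X ∈ n) :
    ∀ a : T.chart X, ∃ b : T.chart X, b ^ q - a ∈ n := by
  refine perfect_subring (D := D) q hres (T.phiT X) (T.chart X)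
    (fun σ => (T.mem_chart_iff X _).2 (T.phiT X).isIntegralElem_map)
    (fun b hb => (T.mem_chart_iff X b).1 hb) n ?_
  convert hϖ using 1
  apply Subtype.ext
  show T.al (X.phiF (C D.ϖ)) = T.ϖF
  rw [X.phiF_C_ϖ]
  rfl

/-- the hypothesis `hres` for `A ∩ K0`. -/
theorem hres_R0 {q : ℕ} (hq : q.Prime) {A : ValuationSubring Kb} (hA : A.LiesOverPrime q)
    (K0 : IntermediateField ℚ Kb) (r : R0 K0 A) :
    res0 K0 A r = 0 ∨ ∃ n : ℕ, n ≠ 0 ∧ res0 K0 A r ^ n = 1 := by
  by_cases h : res0 K0 A r = 0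
  · exact Or.inl h
  · obtain ⟨n, hn, h1⟩ := exists_pow_eq_one_residue hq hA _ h
    refine Or.inr ⟨n, ?_, h1⟩
    rintro rfl
    exact hn (dvd_zero q)

end Fermat.Agent.S36.Perf
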