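import Fermat.Agent.S36.GenOrdT
import Fermat.Agent.S36.GenMin2
import Fermat.Agent.S36.GenTheta
import Fermat.Agent.S36.LPReg
import Fermat.Agent.S36.PerfT
import Fermat.Agent.S35.GNormBC

/-!
# S36, block G-REG, piece [GEN-O] : the FINAL output at an ordinary point of the first component

`φ = T.be`.  For every maximal `n1 ⊇ p1`, `n1 ⊉ p2` : a generator `y0 ∈ n1` with `θ (ρ₁ y0) ≠ 0`,
`y0 ≡ β f2` modulo `p2`, `β f2 ∉ n1`, monogenicity data `(s, hmono)` and the monic polynomial `g`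
(= the hypothesis `hord` of `T2Inst2`).
-/

set_option autoImplicit false
set_option linter.unusedSectionVars false
set_option linter.unusedVariables false
set_option linter.style.haveILetI false

noncomputable section

namespace Fermat.Agent.S36

open ModularCurve Polynomial
open Fermat.Agent.S34 Fermat.Agent.S35 Fermat.Agent.ES Fermat.Agent.ES.QE Fermat.Agent.ES.Model
open Fermat.Agent.S36.ValTh

variable {R K k : Type*} [CommRing R] [IsDomain R] [IsNoetherianRing R] [IsIntegrallyClosed R]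
  [Field K] [Algebra R K] [IsFractionRing R K] [Field k]

namespace GenT

variable {D : QData R K k} {q : ℕ} [NeZero q] (T : Two D q) (X : D.Coord)

/-- the first component is not a closed point. -/
theorem p1_not_isMaximal (hle : ∀ b ∈ T.chart X, b ∈ T.O) : ¬ (T.p1 X).IsMaximal := by
  intro hmax
  let ψ : R[X] →+* T.chart X := (T.phiT X).codRestrict (T.chart X)
    (fun σ => (T.mem_chart_iff X _).2 (T.phiT X).isIntegralElem_map)
  have hint : ψ.IsIntegral := fun b =>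
    HDivDesc.isIntegralElem_of_injective ψ (T.chart X).subtype Subtype.val_injective
      ((T.mem_chart_iff X b).1 b.2)
  have hm : ((T.p1 X).comap ψ).IsMaximal :=
    Ideal.isMaximal_comap_of_isIntegral_of_isMaximal' ψ hint (T.p1 X)
  have hr : ∀ σ : R[X], σ ∈ (T.p1 X).comap ψ → σ.map D.res = 0 := by
    intro σ hσ
    have h1 : GenTheta.r1 T X hle (ψ σ) = 0 := (GenTheta.r1_eq_zero_iff T X hle _).2 hσ
    have h2 : GenTheta.r1 T X hle (ψ σ) = D.red (evS X.xW σ) := by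
      rw [GenTheta.r1_apply, ← QData.rho_inc]
      rfl
    rw [h2, D.red_evS] at h1
    by_contra hne
    exact X.trans _ hne h1
  have hX : (Polynomial.X : R[X]) ∉ (T.p1 X).comap ψ := by
    intro h
    have := hr _ h
    rw [Polynomial.map_X] at this
    exact Polynomial.X_ne_zero this
  obtain ⟨y, i, hi, e⟩ := hm.exists_inv hX
  have h3 := hr i hi
  have h4 := congrArg (Polynomial.map D.res) e
  rw [Polynomial.map_add, h3, add_zero, Polynomial.map_mul, Polynomial.map_X,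
    Polynomial.map_one] at h4
  have h5 := congrArg (Polynomial.eval 0) h4
  simp at h5

/-- **[GEN-O], final output** (= `hord` of `T2Inst2`). -/
theorem hord_fin [CharZero K] (hq : q.Prime) [CharP k q]
    (hded : IsDedekindDomain (X.chart ⧸ Ideal.span {Inst.ϖB X}))
    (hxq : qExpand k q (D.red X.xW) = D.red X.xW ^ q)
    (Φ : TAut T) (hΦ : ∀ c, Φ.sk c = c ^ q)
    (hΦx : coeffMap (Φ.sR : R →+* R) X.xW = X.xW)
    (hVx : X.phi.IsIntegralElem (qExpand K q (D.inc X.xW)))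
    (hres : ∀ r : R, D.res r = 0 ∨ ∃ n : ℕ, n ≠ 0 ∧ D.res r ^ n = 1)
    (hbe1 : ∀ c ∈ X.chart, T.be c ∈ T.chart X) (hle1 : ∀ b : T.chart X, (b : T.F) ∈ T.O1) :
    ∀ n1 : Ideal (T.chart X), n1.IsMaximal → T.p1 X ≤ n1 → ¬ T.p2 X ≤ n1 →
      (⟨T.x X, X.x_mem_chart⟩ : T.chart X) ∉ n1 →
      ∃ (y0 : T.chart X) (f2 : X.chart) (s : D.F0) (hsC : s ∈ X.chart) (g : D.F0[X]),
        y0 ∈ n1 ∧ (⟨T.be f2, hbe1 f2 f2.2⟩ : T.chart X) ∉ n1 ∧
        y0 - ⟨T.be f2, hbe1 f2 f2.2⟩ ∈ T.p2 X ∧ tht (T.rho1 ⟨y0, hle1 y0⟩) ≠ 0 ∧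
        (⟨T.be s, hbe1 s hsC⟩ : T.chart X) ∉ n1 ∧
        (∀ a : T.chart X, ∃ P : D.F0[X], (∀ i, P.coeff i ∈ X.chart) ∧
          T.be s * (a : T.F) = eval₂ T.be (y0 : T.F) P) ∧
        g.Monic ∧ (∀ i, g.coeff i ∈ X.chart) ∧ g.natDegree = q + 1 ∧
        eval₂ T.be (y0 : T.F) g = 0 := by
  intro n1 hn1 h1 h2 _
  haveI : Fact q.Prime := ⟨hq⟩
  haveI : IsDedekindDomain (X.chart ⧸ Ideal.span {X.ϖC}) := hded
  haveI := hn1
  haveI hn1p : n1.IsPrime := hn1.isPrime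
  have hO : NRed.HOrth T := fun f hf => T.exists_rep_of_mem_O hf
  have hjq := NOrth.qExpand_jq_char q k
  have hle := chart_le_O T X
  have hsat : ∀ x ∈ T.chart X, DivS T.O T.ϖF 1 x → ∃ y ∈ T.chart X, x = T.ϖF * y := by
    rintro x hx ⟨y, hy, h⟩
    rw [pow_one] at h
    exact ⟨y, chart_sat T X hq hx hy h, h⟩
  obtain ⟨d1, pr1⟩ := NRed.dedekind1 X T hO hjq hle
  haveI := d1
  haveI := pr1
  have hne : T.p1 X ≠ n1 := fun h => p1_not_isMaximal T X hle (h ▸ hn1)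
  have hP : ¬ n1 ≤ T.p1 X := fun h => hne (le_antisymm h1 h)
  -- (a) a local generator
  haveI : IsNoetherianRing (T.chart X) := T.isNoetherianRing_chart X
  obtain ⟨x0, hx0, σ, hσ, hgen⟩ := exists_gen_mod n1 (T.p1 X) h1 n1 hP
  have hloc0 : LocGen n1 (T.p1 X) x0 :=
    ⟨hx0, fun b hb => ⟨σ, hσ, (hgen b hb).choose, (hgen b hb).choose_spec⟩⟩
  -- (b) `θ ≠ 0`
  obtain ⟨x, hx, -, -, hθ⟩ := GenTheta.exists_theta1 T X hle n1 h1 hne ⊤ x0 hloc0 trivial
  -- (c) monogenicity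
  have hϖ : T.ϖB X ∈ n1 := by
    apply h1
    rw [NRed.mem_p1 X T hle]
    exact ⟨1, T.O1.one_mem, by rw [pow_one, mul_one]; rfl⟩
  obtain ⟨y0, hy0x, hy0, ⟨f2, hf2n, hf2⟩, hmono⟩ := monoAt_ord_two T X hVx hle hbe1 hsat
    (NRed.red1 X T hO hjq hle) (NRed.red2 X T hO hjq hxq hle)
    (fun c' => ⟨GChartT.toC X Φ hΦx c', GChartT.qExpand_rhoB_toC X Φ hΦ hΦx c'⟩)
    n1 h1 h2 (Perf.perfect_chart1 X T hres n1 hϖ) x hx
  -- (d) `θ` survives
  have hr : GenTheta.r1 T X hle y0 = GenTheta.r1 T X hle x := by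
    have := (GenTheta.r1_eq_zero_iff T X hle _).2 hy0x
    rwa [map_sub, sub_eq_zero] at this
  have hθ0 : tht (T.rho1 ⟨y0, hle1 y0⟩) ≠ 0 := by
    have e : T.rho1 ⟨y0, hle1 y0⟩ = GenTheta.r1 T X hle y0 := rfl
    rw [e, hr]
    exact hθ
  -- (e) the adapter
  obtain ⟨s, hs, hm, g, hgm, hgc, hgd, hgr, -⟩ := exists_data T X T.be (NRed.beC X T hbe1)
    (fun _ => rfl) (GenOrdT.finite_chart_be T X hVx hbe1) (S35.finrank_be T)
    (GChartT.frac T X hq) (n1.comap (NRed.beC X T hbe1)) (Ideal.comap_isPrime _ _) y0 hmono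
  exact ⟨y0, f2, s, s.2, g, hy0.1, hf2n, hf2, hθ0, hs, hm, hgm, hgc, hgd, hgr⟩

end GenT

end Fermat.Agent.S36
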