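import Fermat.Agent.S36.T2Fin
import Fermat.Agent.S36.GenOrdFin
import Fermat.Agent.S36.CoreFin

/-!
# S36, block G : `(T1)`, `(T2)` on the two charts in the context of `exists_full_layer`
-/

set_option autoImplicit false
set_option linter.unusedVariables false
set_option linter.unusedSectionVars false
set_option linter.style.haveILetI false
set_option synthInstance.maxHeartbeats 400000

noncomputable section

namespace Fermat.Agent.S36

open ModularCurve AlgebraicCurve Polynomial IntermediateField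
open Fermat.Agent.S24 Fermat.Agent.S28 Fermat.Agent.ES Fermat.Agent.ES.QE Fermat.Agent.ES.Model
  Fermat.Agent.ES.IDvr Fermat.Agent.ES.Inst Fermat.Agent.S34
open Fermat.Agent.S34.WK

set_option maxHeartbeats 2000000 in
/-- `(T1)` and `(T2)` on the two charts, from `(T2)` at the cusps. -/
theorem ht_ctx (M0 q : ℕ) [NeZero M0] [Fact q.Prime] (hqM : ¬ q ∣ M0) {m : ℕ} (hqm : ¬ q ∣ m)
    (A : ValuationSubring Kb) (hA : A.LiesOverPrime q) (Z : ZCoord M0 q)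
    (hW : WGood M0 q Z.xF) (n1 : NoElliptic M0)
    {K0 : IntermediateField ℚ Kb} [IsDiscreteValuationRing (R0 K0 A)]
    (D : QData (R0 K0 A) K0 (kA A)) (T : Two D q) (X : D.Coord)
    (y : LaurentSeries (R0 K0 A)) (hxy : X.xW * y = 1)
    {K0' : IntermediateField ℚ Kb} (hle : K0 ≤ K0')
    [IsDiscreteValuationRing (R0 K0' A)] (ζR : (R0 K0' A)ˣ)
    (D' : QData (R0 K0' A) K0' (kA A))
    (H : Three T (IntermediateField.inclusion hle).toRingHom (S35.GNorm.uK ζR))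
    (hF : D.F0 = F0 K0 M0) (hres : D.res = res0 K0 A) (hϖ : D.ϖ = ((q : ℕ) : R0 K0 A))
    (hT : T.F = F0 K0 (M0 * q))
    (hX : bc K0 (X.x : LaurentSeries K0) = (Z.xF : LaurentSeries Kb))
    (hded1 : IsDedekindDomain (X.chart ⧸ Ideal.span {Inst.ϖB X}))
    (hded2 : IsDedekindDomain ((X.inv y hxy).chart ⧸ Ideal.span {Inst.ϖB (X.inv y hxy)}))
    (hxq : qExpand (kA A) q (D.red X.xW) = D.red X.xW ^ q)
    (hyq : qExpand (kA A) q (D.red y) = D.red y ^ q)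
    (hxy1 : XYData T X) (hxy2 : XYData T (X.inv y hxy))
    (hprim : IsPrimitiveRoot (ζR : R0 K0' A) q)
    (c0 : R0 K0' A) (hc : (ζR : R0 K0' A) - 1 = D'.ϖ * c0) (hc0 : D'.res c0 ≠ 0)
    (hbc : BCData D D' (UnrCyc.iR A hle) (IntermediateField.inclusion hle).toRingHom)
    (Φ : TAut T) (hΦ : ∀ c, Φ.sk c = c ^ q)
    (hΦx : coeffMap (Φ.sR : R0 K0 A →+* R0 K0 A) X.xW = X.xW)
    (hΦy : coeffMap (Φ.sR : R0 K0 A →+* R0 K0 A) y = y)
    (hcusp1 : HCusp H D' X) (hcusp2 : HCusp H D' (X.inv y hxy)) :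
    HT1 T X ∧ HT1 T (X.inv y hxy) ∧ HT2 H D' X ∧ HT2 H D' (X.inv y hxy) := by
  have hq : q.Prime := Fact.out
  haveI hchar : CharP (kA A) q := ResField.charP hq hA
  have hm : IsUnit (m : R0 K0 A) := natCast_isUnit_R0 K0 A hq hA hqm
  have hι0x : iotaF D hF X.x = Z.xF := Subtype.ext hX
  have hι0x' : iotaF D hF (X.inv y hxy).x = Z.xF⁻¹ := by rw [X.inv_x y hxy, map_inv₀, hι0x]
  have hmemN : zS Kb Z.xZ ∈ modularFunctionFieldBar (M0 * q) := by
    have h := (heckeAlphaBar Kb M0 q Z.xF).2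
    rwa [coe_heckeAlphaBar] at h
  obtain ⟨ZN, hZN⟩ : ∃ ZN : ZCoord (M0 * q) q, (ZN.xF : LaurentSeries Kb) = Z.xF :=
    ⟨{ Z with mem := hmemN }, rfl⟩
  have hιx : iotaT T hT (T.x X) = ZN.xF := by
    apply Subtype.ext
    rw [coe_iotaT, hZN, ← hX]
    rfl
  have hιx' : iotaT T hT (T.x (X.inv y hxy)) = ZN.xF⁻¹ := by
    rw [← hιx, ← map_inv₀, S34.x_inv T X y hxy]
  have hxt := transcendental_xF ZN
  have hxt' : Transcendental Kb ZN.xF⁻¹ := FF.transcendental_inv hxt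
  haveI hfd : FiniteDimensional Kb⟮iotaT T hT (T.x X)⟯ (FF (M0 * q)) := by
    rw [hιx]
    exact finiteDimensional_xF ZN
  haveI hfd' : FiniteDimensional Kb⟮iotaT T hT (T.x (X.inv y hxy))⟯ (FF (M0 * q)) := by
    rw [hιx']
    exact finiteDimensional_xF_inv ZN
  have hresR : ∀ r : R0 K0 A, D.res r = 0 ∨ ∃ n : ℕ, n ≠ 0 ∧ D.res r ^ n = 1 := by
    rw [hres]
    exact Perf.hres_R0 hq hA K0
  obtain ⟨a1, a2⟩ := ht_fin M0 hqM T X (iotaF D hF) (fun _ => rfl) (iotaT T hT) (fun _ => rfl)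
    hT.ge (by rw [hιx]; exact hxt) n1 (by rw [hι0x]; exact hW) hbc.comm hbc.res hϖ ζR hprim
    c0 hc hc0 H hm hded1 hxq Φ hΦ hΦx hxy1
    (fun hbe1 hle1 => GenT.hord_fin T X hq hded1 hxq Φ hΦ hΦx hxy1.1 hresR hbe1 hle1) hcusp1
  obtain ⟨b1, b2⟩ := ht_fin M0 hqM T (X.inv y hxy) (iotaF D hF) (fun _ => rfl) (iotaT T hT)
    (fun _ => rfl) hT.ge (by rw [hιx']; exact hxt') n1 (by rw [hι0x']; exact hW.inv) hbc.comm
    hbc.res hϖ ζR hprim c0 hc hc0 H hm hded2 hyq Φ hΦ hΦy hxy2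
    (fun hbe1 hle1 => GenT.hord_fin T (X.inv y hxy) hq hded2 hyq Φ hΦ hΦy hxy2.1 hresR hbe1 hle1)
    hcusp2
  exact ⟨a1, b1, a2, b2⟩

end Fermat.Agent.S36
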