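import Fermat.Agent.S36.GCtx
import Fermat.Agent.S36.WFinal2

/-!
# S36, block G : `ClaimAll` from `(T2)` at the cusps of the middle component
-/

set_option autoImplicit false
set_option linter.unusedVariables false

noncomputable section

namespace Fermat.Agent.S36

open ModularCurve AlgebraicCurve Polynomial IntermediateField
open Fermat.Agent.S24 Fermat.Agent.S28 Fermat.Agent.ES Fermat.Agent.ES.QE Fermat.Agent.ES.Model
  Fermat.Agent.ES.IDvr Fermat.Agent.ES.Inst Fermat.Agent.S34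
open Fermat.Agent.S34.WK

/-- `(T2)` at the cusps of the middle component, on the two charts, for all the objects. -/
def HCuspAll (q : ℕ) [Fact q.Prime] (A : ValuationSubring Kb) : Prop :=
  ∀ (m M0 : ℕ) [NeZero M0] (hqM : ¬ q ∣ M0), ¬ q ∣ m → ∀ (Z : ZCoord M0 q), Z.Unram →
    WGood M0 q Z.xF → ZCuspRel Z → NoElliptic M0 → NoElliptic (M0 * q) →
    NoElliptic (M0 * q * q) →
    ∀ (K0 : IntermediateField ℚ Kb), FiniteDimensional ℚ K0 → Unr A K0 → Stab A K0 →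
    ∀ [IsDiscreteValuationRing (R0 K0 A)]
      (D : QData (R0 K0 A) K0 (kA A)) (T : Two D q) (X : D.Coord)
      (y : LaurentSeries (R0 K0 A)) (hxy : X.xW * y = 1)
      (K0' : IntermediateField ℚ Kb) (hle : K0 ≤ K0')
      [IsDiscreteValuationRing (R0 K0' A)] (ζR : (R0 K0' A)ˣ)
      (D' : QData (R0 K0' A) K0' (kA A))
      (H : Three T (IntermediateField.inclusion hle).toRingHom (S35.GNorm.uK ζR)),
      (D.F0 = F0 K0 M0 ∧ D.res = res0 K0 A ∧ D.ϖ = ((q : ℕ) : R0 K0 A) ∧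
      T.F = F0 K0 (M0 * q) ∧
      (∀ (f : T.F) (hf : bc K0 (f : LaurentSeries K0) ∈ modularFunctionFieldBar (M0 * q)),
        bc K0 (T.e2 f) = ((Wb M0 q hqM ⟨_, hf⟩ : FF (M0 * q)) : LaurentSeries Kb)) ∧
      X.xW = zS (R0 K0 A) Z.xZ ∧ y = zS (R0 K0 A) Z.yZ ∧
      bc K0 (X.x : LaurentSeries K0) = (Z.xF : LaurentSeries Kb) ∧
      IsDedekindDomain (X.chart ⧸ Ideal.span {Inst.ϖB X}) ∧
      IsDedekindDomain ((X.inv y hxy).chart ⧸ Ideal.span {Inst.ϖB (X.inv y hxy)}) ∧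
      qExpand (kA A) q (D.red X.xW) = D.red X.xW ^ q ∧
      qExpand (kA A) q (D.red y) = D.red y ^ q ∧
      XYData T X ∧ XYData T (X.inv y hxy) ∧ Nonempty D.Theta) →
      (FiniteDimensional ℚ K0' ∧ IsPrimitiveRoot (ζR : R0 K0' A) q ∧
      D'.F0 = F0 K0' M0 ∧ D'.res = res0 K0' A ∧ D'.res ζR = 1 ∧
      (∃ c0, (ζR : R0 K0' A) - 1 = D'.ϖ * c0 ∧ D'.res c0 ≠ 0) ∧
      BCData D D' (UnrCyc.iR A hle) (IntermediateField.inclusion hle).toRingHom) →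
      (H.F = F0 K0 (M0 * q * q) ∧
      (∀ (f : H.F) (hf : bc K0 (f : LaurentSeries K0) ∈ modularFunctionFieldBar (M0 * q * q)),
        bc K0 (H.eB f) = ((Wb2 M0 q hqM ⟨_, hf⟩ : FF (M0 * q * q)) : LaurentSeries Kb))) →
      (∃ ζm : (R0 K0 A)ˣ, IsPrimitiveRoot ζm m) →
      ∀ (Φ : TAut T), (∀ c, Φ.sk c = c ^ q) →
        coeffMap (Φ.sR : R0 K0 A →+* R0 K0 A) X.xW = X.xW →
        coeffMap (Φ.sR : R0 K0 A →+* R0 K0 A) y = y →
      HCusp H D' X ∧ HCusp H D' (X.inv y hxy)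

set_option maxHeartbeats 1000000 in
theorem htAll_of_cusp (q : ℕ) [Fact q.Prime] (A : ValuationSubring Kb) (hA : A.LiesOverPrime q)
    (h : HCuspAll q A) : HTAll q A := by
  intro m M0 _ hqM hqm Z hU hW hZ n1 n2 n3 K0 hK0 hu0 hst _ D T X y hxy K0' hle _ ζR D' H
    h1 h2 h3 h4 Φ hΦ hΦx hΦy
  obtain ⟨k1, k2⟩ := h m M0 hqM hqm Z hU hW hZ n1 n2 n3 K0 hK0 hu0 hst D T X y hxy
    K0' hle ζR D' H h1 h2 h3 h4 Φ hΦ hΦx hΦy
  obtain ⟨hF, hres, hϖ, hT, hTW, hXW, hy, hX, hded1, hded2, hxq, hyq, hxy1, hxy2, -⟩ := h1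
  obtain ⟨-, hprim, -, hres', -, ⟨c0, hc, hc0⟩, hbc⟩ := h2
  exact ht_ctx M0 q hqM hqm A hA Z hW n1 D T X y hxy hle ζR D' H hF hres hϖ hT hX hded1 hded2
    hxq hyq hxy1 hxy2 hprim c0 hc hc0 hbc Φ hΦ hΦx hΦy k1 k2

/-- **`ClaimAll`** from `(T2)` at the cusps. -/
theorem claimAll_of_cusp
    (h : ∀ (q : ℕ) [Fact q.Prime] (A : ValuationSubring Kb), A.LiesOverPrime q → HCuspAll q A) :
    ClaimAll := by
  intro p M0 q _ _ hp hq hqM hqp A hA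
  haveI : Fact q.Prime := ⟨hq⟩
  haveI : NeZero M0 := ⟨fun h0 => hqM (h0 ▸ dvd_zero q)⟩
  exact claimA_all_of_ht p q hp hqp A hA (htAll_of_cusp q A hA (h q A hA)) M0 hqM

end Fermat.Agent.S36
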