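import Fermat.Agent.S36.GFin0
import Fermat.Agent.S36.MidCuspL
import Fermat.Agent.S36.CuspRho2
import Fermat.Agent.S36.CuspThCtx
import Fermat.Agent.S36.CuspRel

/-!
# S36, block G : `(T2)` at the cusps in the context of `HCuspAll`, and `ClaimAll`
-/

set_option autoImplicit false
set_option linter.unusedVariables false
set_option linter.unusedSectionVars false
set_option linter.style.haveILetI false
set_option synthInstance.maxHeartbeats 400000

noncomputable section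

namespace Fermat.Agent.S36

open ModularCurve AlgebraicCurve Polynomial IntermediateField
open Fermat.Agent.S24 Fermat.Agent.S28 Fermat.Agent.ES Fermat.Agent.ES.QE Fermat.Agent.ES.Model
  Fermat.Agent.ES.IDvr Fermat.Agent.ES.Inst Fermat.Agent.S34 Fermat.Agent.S35
open Fermat.Agent.ES.Inst.InstFinal Fermat.Agent.ES.Inst.InstCoord
open Fermat.Agent.S34.WK

namespace GFin11

variable {K0 : IntermediateField ℚ Kb} {A : ValuationSubring Kb}
  [IsDiscreteValuationRing (R0 K0 A)] {D : QData (R0 K0 A) K0 (kA A)} {q : ℕ} [Fact q.Prime]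
  {R' K' : Type*} [CommRing R'] [IsDomain R'] [IsNoetherianRing R'] [IsIntegrallyClosed R']
  [Field K'] [Algebra R' K'] [IsFractionRing R' K']
  {D' : QData R' K' (kA A)} {iR : R0 K0 A →+* R'} {i : K0 →+* K'}

set_option maxHeartbeats 2000000 in
/-- `(T2)` at the cusps, one coordinate. -/
theorem hcusp_one (M0 : ℕ) [NeZero M0] (T : Two D q) (X : D.Coord)
    (hi : ∀ r, i (algebraMap (R0 K0 A) K0 r) = algebraMap R' K' (iR r))
    (hres : ∀ r, D'.res (iR r) = D.res r) (hϖ : D.ϖ = (q : R0 K0 A)) (ζR : R'ˣ)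
    (hprim : IsPrimitiveRoot (ζR : R') q)
    (c0 : R') (hc : (ζR : R') - 1 = D'.ϖ * c0) (hc0 : D'.res c0 ≠ 0)
    (H : Three T i (GNorm.uK ζR)) [CharP (kA A) q]
    (hxq : qExpand (kA A) q (D.red X.xW) = D.red X.xW ^ q)
    (hxy : XYData T X) (θ' : T.chart X) (hθ' : (θ' : T.F) * T.be X.x = T.x X ^ q)
    (hrel : CuspRel X)
    (hH : H.F = F0 K0 (M0 * q * q)) (hT : T.F = F0 K0 (M0 * q))
    (htr : Transcendental Kb (iotaH H hH (H.x X)))
    (hfd : FiniteDimensional Kb⟮iotaH H hH (H.x X)⟯ (FF (M0 * q * q))) :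
    HCusp H D' X := by
  have hq : q.Prime := Fact.out
  obtain ⟨hVx, ⟨θ, hθ⟩, -⟩ := hxy
  obtain ⟨a, ha, P, hP0, hP⟩ := hrel
  have hbe : ∀ a ∈ X.chart, T.be a ∈ T.chart X := NRed.be_mem_chart X T hVx
  have hcq : (q : R0 K0 A) = D.ϖ * 1 := by rw [mul_one, hϖ]
  have hcq0 : D.res 1 ≠ 0 := by rw [map_one]; exact one_ne_zero
  have L := H.lvl1 D' iR hi hres hprim c0 hc hc0 1 hcq hcq0
  have h1 := H.isChartS_of D' iR hi hres ζR rfl hprim c0 hc hc0 1 hcq hcq0 X (m := 1)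
    (by rw [Nat.cast_one]; exact isUnit_one)
  have hA : ∀ b ∈ H.chart X, b ∈ H.OA := fun b hb => (h1.le b hb).1.1
  have hC : ∀ b ∈ H.chart X, b ∈ H.OC D' := fun b hb => (h1.le b hb).1.2
  have hB : ∀ b ∈ H.chart X, b ∈ H.OB := fun b hb => (h1.le b hb).2
  exact MidCuspL.t2_cusp H X L hq hϖ hxq θ θ' hθ hθ' hbe (fun b hb => H.be_mem_chart X hVx hb)
    (fun f hf => H.root_chart X q hq.pos f hf) h1 (TRedA.mem_pA H X hA)
    (TRedA.mem_pC H X D' hC) (TRedA.mem_pB H X hB) a ha P hP0 hP (M0 * q * q) (iotaH H hH)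
    (fun _ => rfl) htr (hC0_iotaH H hH hT)

end GFin11

set_option maxHeartbeats 2000000 in
theorem hcuspAll11 (q : ℕ) [Fact q.Prime] (A : ValuationSubring Kb) (hA : A.LiesOverPrime q) :
    HCuspAll q A := by
  intro m M0 _ hqM hqm Z hU hW hZ n1 n2 n3 K0 hK0 hu0 hst _ D T X y hxy K0' hle _ ζR D' H
    h1 h2 h3 h4 Φ hΦ hΦx hΦy
  obtain ⟨hF, hres, hϖ, hT, hTW, hXW, hy, hX, hded1, hded2, hxq, hyq, hxy1, hxy2, -⟩ := h1
  obtain ⟨-, hprim, -, hres', -, ⟨c0, hc, hc0⟩, hbc⟩ := h2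
  obtain ⟨hH, -⟩ := h3
  have hq : q.Prime := Fact.out
  haveI hchar : CharP (kA A) q := ResField.charP hq hA
  obtain ⟨⟨θ1, hθ1⟩, ⟨θ2, hθ2⟩⟩ := theta'_both M0 hqM hA Z hW T hT X y hxy hX
  obtain ⟨r1, r2⟩ := cuspRel_of_zCuspRel Z hZ X y hxy hXW hy
  have hmemN : zS Kb Z.xZ ∈ modularFunctionFieldBar (M0 * q * q) := by
    have h := (heckeAlphaBar Kb (M0 * q) q (heckeAlphaBar Kb M0 q Z.xF)).2
    rwa [coe_heckeAlphaBar, coe_heckeAlphaBar] at h
  obtain ⟨ZN, hZN⟩ : ∃ ZN : ZCoord (M0 * q * q) q, (ZN.xF : LaurentSeries Kb) = Z.xF :=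
    ⟨{ Z with mem := hmemN }, rfl⟩
  have hιx : iotaH H hH (H.x X) = ZN.xF := by
    apply Subtype.ext
    rw [coe_iotaH, hZN, ← hX]
    rfl
  have hιx' : iotaH H hH (H.x (X.inv y hxy)) = ZN.xF⁻¹ := by
    rw [← hιx, ← map_inv₀, H.x_inv X y hxy]
  have hxt := transcendental_xF ZN
  have hxt' : Transcendental Kb ZN.xF⁻¹ := FF.transcendental_inv hxt
  have hfd : FiniteDimensional Kb⟮iotaH H hH (H.x X)⟯ (FF (M0 * q * q)) := by
    rw [hιx]
    exact finiteDimensional_xF ZN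
  have hfd' : FiniteDimensional Kb⟮iotaH H hH (H.x (X.inv y hxy))⟯ (FF (M0 * q * q)) := by
    rw [hιx']
    exact finiteDimensional_xF_inv ZN
  exact ⟨GFin11.hcusp_one M0 T X hbc.comm hbc.res hϖ ζR hprim c0 hc hc0 H hxq hxy1 θ1 hθ1 r1 hH hT
      (by rw [hιx]; exact hxt) hfd,
    GFin11.hcusp_one M0 T (X.inv y hxy) hbc.comm hbc.res hϖ ζR hprim c0 hc hc0 H hyq hxy2 θ2 hθ2 r2
      hH hT (by rw [hιx']; exact hxt') hfd'⟩

/-- **`ClaimAll`.** -/
theorem claimAll11 : ClaimAll := claimAll_of_cusp fun q _ A hA => hcuspAll11 q A hA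

end Fermat.Agent.S36
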