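import Fermat.Agent.S36.GFin0
import Fermat.Agent.S36.MidCuspL
import Fermat.Agent.S36.CuspRho2
import Fermat.Agent.S36.CuspTh
import Fermat.Agent.S36.CuspRel
import Fermat.Agent.S36.TGen

/-!
# S36, block G : `HCuspAll` from `MidCuspL.t2_cusp`, and `ClaimAll`
-/

set_option autoImplicit false
set_option linter.unusedVariables false
set_option linter.unusedSectionVars false
set_option linter.style.haveILetI false
set_option synthInstance.maxHeartbeats 400000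

noncomputable section

namespace Fermat.Agent.S36

open ModularCurve AlgebraicCurve Polynomial IntermediateField
open Fermat.Agent.S24 Fermat.Agent.S28 Fermat.Agent.ES Fermat.Agent.ES.QE Fermat.Agent.ES.Model
  Fermat.Agent.ES.IDvr Fermat.Agent.ES.Inst Fermat.Agent.S34 Fermat.Agent.S35
open Fermat.Agent.S34.WK

set_option maxHeartbeats 4000000 in
/-- `(T2)` at the cusps of the middle component, one chart, in the context. -/
theorem hcusp_one21 (M0 q : ℕ) [NeZero M0] [Fact q.Prime] (hqM : ¬ q ∣ M0) {m : ℕ}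
    (hqm : ¬ q ∣ m)
    (A : ValuationSubring Kb) (hA : A.LiesOverPrime q)
    {K0 : IntermediateField ℚ Kb} [IsDiscreteValuationRing (R0 K0 A)]
    (D : QData (R0 K0 A) K0 (kA A)) (T : Two D q) (X : D.Coord)
    (y : LaurentSeries (R0 K0 A)) (hxy : X.xW * y = 1)
    {K0' : IntermediateField ℚ Kb} (hle : K0 ≤ K0')
    [IsDiscreteValuationRing (R0 K0' A)] (ζR : (R0 K0' A)ˣ)
    (D' : QData (R0 K0' A) K0' (kA A))
    (H : Three T (IntermediateField.inclusion hle).toRingHom (S35.GNorm.uK ζR))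
    (hϖ : D.ϖ = ((q : ℕ) : R0 K0 A))
    (hT : T.F = F0 K0 (M0 * q)) (hH : H.F = F0 K0 (M0 * q * q))
    (xF : FF M0) (hX : bc K0 (X.x : LaurentSeries K0) = (xF : LaurentSeries Kb))
    (hW : WGood M0 q xF)
    (htr1 : Transcendental Kb (heckeAlphaBar Kb M0 q xF))
    [FiniteDimensional Kb⟮heckeAlphaBar Kb M0 q xF⟯ (FF (M0 * q))]
    (htr2 : Transcendental Kb (iotaH H hH (H.x X)))
    [FiniteDimensional Kb⟮iotaH H hH (H.x X)⟯ (FF (M0 * q * q))]
    (hxq : qExpand (kA A) q (D.red X.xW) = D.red X.xW ^ q)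
    (hxy1 : XYData T X) (hrel : CuspRel X)
    (hprim : IsPrimitiveRoot (ζR : R0 K0' A) q)
    (c0 : R0 K0' A) (hc : (ζR : R0 K0' A) - 1 = D'.ϖ * c0) (hc0 : D'.res c0 ≠ 0)
    (hbc : BCData D D' (UnrCyc.iR A hle) (IntermediateField.inclusion hle).toRingHom) :
    HCusp H D' X := by
  have hq : q.Prime := Fact.out
  haveI hchar : CharP (kA A) q := ResField.charP hq hA
  have hm : IsUnit (m : R0 K0 A) := natCast_isUnit_R0 K0 A hq hA hqm
  obtain ⟨hVx, ⟨θ, hθ⟩, -⟩ := hxy1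
  obtain ⟨θ', hθ'⟩ := exists_theta' hq hA D T hT (Wb M0 q hqM) (Wb_alpha M0 q hqM)
    (Wb_beta M0 q hqM) X y hxy xF hX htr1 hW.pos
  obtain ⟨a, ha, P, hP0, hPrel⟩ := hrel
  have hcq : (q : R0 K0 A) = D.ϖ * 1 := by rw [mul_one, hϖ]
  have hcq0 : D.res 1 ≠ 0 := by rw [map_one]; exact one_ne_zero
  have L := H.lvl1 D' (UnrCyc.iR A hle) hbc.comm hbc.res hprim c0 hc hc0 1 hcq hcq0
  have h1 := H.isChartS_of D' (UnrCyc.iR A hle) hbc.comm hbc.res ζR rfl hprim c0 hc hc0 1 hcq hcq0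
    X hm
  have hA' : ∀ b ∈ H.chart X, b ∈ H.OA := fun b hb => (h1.le b hb).1.1
  have hC : ∀ b ∈ H.chart X, b ∈ H.OC D' := fun b hb => (h1.le b hb).1.2
  have hB : ∀ b ∈ H.chart X, b ∈ H.OB := fun b hb => (h1.le b hb).2
  have hbe : ∀ a ∈ X.chart, T.be a ∈ T.chart X := NRed.be_mem_chart X T hVx
  exact MidCuspL.t2_cusp H X L hq hϖ hxq θ θ' hθ hθ' hbe (fun b hb => H.be_mem_chart X hVx hb)
    (fun f hf => H.root_chart X q hq.pos f hf) h1 (TRedA.mem_pA H X hA')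
    (TRedA.mem_pC H X D' hC) (TRedA.mem_pB H X hB) a ha P hP0 hPrel (M0 * q * q) (iotaH H hH)
    (fun _ => rfl) htr2 (fun W h1 h2 => hC0_iotaH H hH hT W h1 h2)

set_option maxHeartbeats 4000000 in
/-- **`HCuspAll`.** -/
theorem hcuspAll21 (q : ℕ) [Fact q.Prime] (A : ValuationSubring Kb) (hA : A.LiesOverPrime q) :
    HCuspAll q A := by
  have hq : q.Prime := Fact.out
  haveI hchar : CharP (kA A) q := ResField.charP hq hA
  intro m M0 _ hqM hqm Z hU hW hZ n1 n2 n3 K0 hK0 hu0 hst _ D T X y hxy K0' hle _ ζR D' H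
    h1 h2 h3 h4 Φ hΦ hΦx hΦy
  obtain ⟨hF, hres, hϖ, hT, hTW, hXW, hy, hX, hded1, hded2, hxq, hyq, hxy1, hxy2, -⟩ := h1
  obtain ⟨-, hprim, -, hres', -, ⟨c0, hc, hc0⟩, hbc⟩ := h2
  obtain ⟨hH, -⟩ := h3
  obtain ⟨r1, r2⟩ := cuspRel_of_zCuspRel Z hZ X y hxy hXW hy
  -- level `M0 q`
  have hmemN : zS Kb Z.xZ ∈ modularFunctionFieldBar (M0 * q) := by
    have h := (heckeAlphaBar Kb M0 q Z.xF).2
    rwa [coe_heckeAlphaBar] at h
  obtain ⟨ZN, hZN⟩ : ∃ ZN : ZCoord (M0 * q) q, ZN.xF = heckeAlphaBar Kb M0 q Z.xF :=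
    ⟨{ Z with mem := hmemN }, Subtype.ext (coe_heckeAlphaBar M0 q Z.xF).symm⟩
  have hxt := transcendental_xF ZN
  have hxt' : Transcendental Kb ZN.xF⁻¹ := FF.transcendental_inv hxt
  have hαx : heckeAlphaBar Kb M0 q Z.xF = ZN.xF := hZN.symm
  have hαx' : heckeAlphaBar Kb M0 q Z.xF⁻¹ = ZN.xF⁻¹ := by rw [map_inv₀, hαx]
  haveI hfdα : FiniteDimensional Kb⟮heckeAlphaBar Kb M0 q Z.xF⟯ (FF (M0 * q)) := by
    rw [hαx]; exact finiteDimensional_xF ZN
  haveI hfdα' : FiniteDimensional Kb⟮heckeAlphaBar Kb M0 q Z.xF⁻¹⟯ (FF (M0 * q)) := by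
    rw [hαx']; exact finiteDimensional_xF_inv ZN
  -- level `M0 q q`
  have hmemN2 : zS Kb Z.xZ ∈ modularFunctionFieldBar (M0 * q * q) := by
    have h := (heckeAlphaBar Kb (M0 * q) q (heckeAlphaBar Kb M0 q Z.xF)).2
    rwa [coe_heckeAlphaBar, coe_heckeAlphaBar] at h
  obtain ⟨ZN2, hZN2⟩ : ∃ ZN : ZCoord (M0 * q * q) q, (ZN.xF : LaurentSeries Kb) = Z.xF :=
    ⟨{ Z with mem := hmemN2 }, rfl⟩
  have hιx : iotaH H hH (H.x X) = ZN2.xF := by
    apply Subtype.ext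
    rw [coe_iotaH, hZN2, ← hX]
    rfl
  have hιx' : iotaH H hH (H.x (X.inv y hxy)) = ZN2.xF⁻¹ := by
    rw [← hιx, ← map_inv₀, H.x_inv X y hxy]
  have hxt2 := transcendental_xF ZN2
  have hxt2' : Transcendental Kb ZN2.xF⁻¹ := FF.transcendental_inv hxt2
  haveI hfd : FiniteDimensional Kb⟮iotaH H hH (H.x X)⟯ (FF (M0 * q * q)) := by
    rw [hιx]
    exact finiteDimensional_xF ZN2
  haveI hfd' : FiniteDimensional Kb⟮iotaH H hH (H.x (X.inv y hxy))⟯ (FF (M0 * q * q)) := by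
    rw [hιx']
    exact finiteDimensional_xF_inv ZN2
  have hι0x : iotaF D hF X.x = Z.xF := Subtype.ext hX
  have hι0x' : iotaF D hF (X.inv y hxy).x = Z.xF⁻¹ := by rw [X.inv_x y hxy, map_inv₀, hι0x]
  have hX' : bc K0 ((X.inv y hxy).x : LaurentSeries K0) = ((Z.xF⁻¹ : FF M0) : LaurentSeries Kb) := by
    rw [← hι0x']
    rfl
  refine ⟨?_, ?_⟩
  · exact hcusp_one21 M0 q hqM hqm A hA D T X y hxy hle ζR D' H hϖ hT hH Z.xF hX hW
      (by rw [hαx]; exact hxt) (by rw [hιx]; exact hxt2) hxq hxy1 r1 hprim c0 hc hc0 hbc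
  · exact hcusp_one21 M0 q hqM hqm A hA D T (X.inv y hxy) X.xW (by rw [mul_comm]; exact hxy)
      hle ζR D' H hϖ hT hH Z.xF⁻¹ hX' hW.inv
      (by rw [hαx']; exact hxt') (by rw [hιx']; exact hxt2') hyq hxy2 r2 hprim c0 hc hc0 hbc

/-- **`ClaimAll`.** -/
theorem claimAll21 : ClaimAll :=
  claimAll_of_cusp fun q _ A hA => hcuspAll21 q A hA

end Fermat.Agent.S36
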