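import Fermat.Agent.S36.HTAll29
import Fermat.Agent.S36.WFinal2

/-!
# S36 : `ClaimAll` from the cusps of the middle component (backup assembly)
-/

set_option autoImplicit false

noncomputable section

namespace Fermat.Agent.S36

open Fermat.Agent.ES Fermat.Agent.S24

/-- `ClaimAll` from the cusps. -/
theorem claimAll_of_cusp29
    (h : ∀ (q : ℕ) [Fact q.Prime] (A : ValuationSubring Kb), A.LiesOverPrime q →
      HCuspAll29 q A) : ClaimAll := by
  intro p M0 q _ _ hp hq hqM hqp A hA
  haveI : Fact q.Prime := ⟨hq⟩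
  haveI : NeZero M0 := ⟨by rintro rfl; exact hqM (dvd_zero _)⟩
  exact claimA_all_of_ht p q hp hqp A hA (htAll_of_cusp29 q A hA (h q A hA)) M0 hqM

end Fermat.Agent.S36
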