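import Fermat.Agent.S36.GDefs
import Fermat.Agent.S35.GLP

/-!
# S36, geometry, abstract block, piece [GA-L1a]

An element which is regular (resp. a unit) on the tube of `n` and on every branch through `n` is
regular (resp. a unit) at `n`.
-/

set_option autoImplicit false

namespace Fermat.Agent.S36

open Fermat.Agent.S34 Fermat.Agent.S35

variable {F : Type*} [Field F]

namespace GL1a

/-- the multiplier attached to one component. -/
theorem exists_mult {OX : Subring F} {ϖ tX : F} {e : ℕ} (hϖ0 : ϖ ≠ 0)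
    (hram : IsU OX (ϖ / tX ^ e)) {B : Subring F}
    (hle : ∀ x ∈ B, x ∈ OX) (p : Ideal B) (hmem : ∀ b : B, b ∈ p ↔ DivS OX tX 1 (b : F))
    (n : Ideal B) (hn : n.IsPrime) (x : F) (hx : p ≤ n → x ∈ OX) :
    ∃ θ : B, θ ∉ n ∧ ∀ (b c : B), (b : F) = c * ϖ * x → DivS OX ϖ 1 ((θ : F) * b) := by
  by_cases hp : p ≤ n
  · refine ⟨1, fun h => hn.ne_top ((Ideal.eq_top_iff_one n).2 h), fun b c hb => ?_⟩
    refine ⟨c * x, OX.mul_mem (hle _ c.2) (hx hp), ?_⟩
    rw [Subring.coe_one, one_mul, hb, pow_one]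
    ring
  · obtain ⟨θ, hθp, hθn⟩ := SetLike.not_le_iff_exists.1 hp
    refine ⟨θ ^ e, fun h => hθn (hn.mem_of_pow_mem e h), fun b c _ => ?_⟩
    obtain ⟨y, hy, hθy⟩ := (hmem θ).1 hθp
    obtain ⟨h0, -, h2⟩ := hram
    refine ⟨(ϖ / tX ^ e)⁻¹ * y ^ e * b, OX.mul_mem (OX.mul_mem h2 (OX.pow_mem hy e)) (hle _ b.2), ?_⟩
    have ht : tX ^ e ≠ 0 := fun h => h0 (by rw [h, div_zero])
    rw [Subring.coe_pow, hθy, pow_one, pow_one, mul_pow]
    field_simp

end GL1a

variable {OA OC OB : Subring F} {ϖ tC : F} {m e : ℕ} {B : Subring F} {pA pC pB : Ideal B}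

/-- **regular on the tube + regular on every branch through `n` ⟹ regular at `n`.** -/
theorem mem_at_of_tube (hϖ0 : ϖ ≠ 0) (hram : IsU OC (ϖ / tC ^ e))
    (h : Chart3 OA OC OB ϖ tC m B pA pC pB) (n : Ideal B) (hn : n.IsPrime) (x : F)
    (hx : InTube (⟨ϖ, h.chart.unif_mem⟩ : B) n x)
    (hxA : pA ≤ n → x ∈ OA) (hxC : pC ≤ n → x ∈ OC) (hxB : pB ≤ n → x ∈ OB) :
    ∃ s b : B, s ∉ n ∧ (s : F) * x = b := by
  obtain ⟨s, hs, k, b, hb⟩ := GLP.inTube_iff.1 hx
  have hleA : ∀ x ∈ B, x ∈ OA := fun x hx => (h.chart.le x hx).1.1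
  have hleC : ∀ x ∈ B, x ∈ OC := fun x hx => (h.chart.le x hx).1.2
  have hleB : ∀ x ∈ B, x ∈ OB := fun x hx => (h.chart.le x hx).2
  have hone : ∀ O : Subring F, IsU O (ϖ / ϖ ^ 1) := fun O => by
    rw [pow_one, div_self hϖ0]
    exact ⟨one_ne_zero, O.one_mem, by rw [inv_one]; exact O.one_mem⟩
  obtain ⟨θA, hθA, hA⟩ := GL1a.exists_mult hϖ0 (hone OA) hleA pA h.memA n hn x hxA
  obtain ⟨θC, hθC, hC⟩ := GL1a.exists_mult hϖ0 hram hleC pC h.memC n hn x hxC
  obtain ⟨θB, hθB, hB⟩ := GL1a.exists_mult hϖ0 (hone OB) hleB pB h.memB n hn x hxB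
  induction k generalizing s b with
  | zero => exact ⟨s, b, hs, by rw [← hb, pow_zero, mul_one]⟩
  | succ k ih =>
    have hb' : (b : F) = ((s * (⟨ϖ, h.chart.unif_mem⟩ : B) ^ k : B) : F) * ϖ * x := by
      rw [← hb, Subring.coe_mul, Subring.coe_pow, pow_succ]
      ring
    obtain ⟨yA, hyA, eA⟩ := hA b _ hb'
    obtain ⟨yC, hyC, eC⟩ := hC b _ hb'
    obtain ⟨yB, hyB, eB⟩ := hB b _ hb'
    rw [pow_one] at eA eC eB
    have hdiv : DivS (OA ⊓ OC ⊓ OB) ϖ 1 ((θA * θC * θB * b : B) : F) := by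
      refine ⟨(θA : F) * θC * θB * b * ϖ⁻¹, ⟨⟨?_, ?_⟩, ?_⟩, ?_⟩
      · have : (θA : F) * θC * θB * b * ϖ⁻¹ = θC * θB * yA := by
          have : (θA : F) * θC * θB * b = θC * θB * (θA * b) := by ring
          rw [this, eA]
          field_simp
        rw [SetLike.mem_coe, this]
        exact OA.mul_mem (OA.mul_mem (hleA _ θC.2) (hleA _ θB.2)) hyA
      · have : (θA : F) * θC * θB * b * ϖ⁻¹ = θA * θB * yC := by
          have : (θA : F) * θC * θB * b = θA * θB * (θC * b) := by ring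
          rw [this, eC]
          field_simp
        rw [SetLike.mem_coe, this]
        exact OC.mul_mem (OC.mul_mem (hleC _ θA.2) (hleC _ θB.2)) hyC
      · have : (θA : F) * θC * θB * b * ϖ⁻¹ = θA * θC * yB := by
          have : (θA : F) * θC * θB * b = θA * θC * (θB * b) := by ring
          rw [this, eB]
          field_simp
        rw [SetLike.mem_coe, this]
        exact OB.mul_mem (OB.mul_mem (hleB _ θA.2) (hleB _ θC.2)) hyB
      · simp only [Subring.coe_mul, pow_one]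
        field_simp
    obtain ⟨y, hy, ey⟩ := h.chart.sat _ (θA * θC * θB * b : B).2 hdiv
    refine ih (θA * θC * θB * s) ?_ ⟨y, hy⟩ ?_
    · intro h0
      rcases hn.mem_or_mem h0 with h1 | h1
      · rcases hn.mem_or_mem h1 with h2 | h2
        · rcases hn.mem_or_mem h2 with h3 | h3
          · exact hθA h3
          · exact hθC h3
        · exact hθB h2
      · exact hs h1
    · apply mul_left_cancel₀ hϖ0
      show ϖ * (((θA * θC * θB * s : B) : F) * ϖ ^ k * x) = ϖ * y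
      rw [← ey]
      simp only [Subring.coe_mul]
      rw [← hb, pow_succ]
      ring

/-- **[GA-L1a]** unit on the tube + unit on every branch through `n` ⟹ unit at `n`. -/
theorem unit_at_of_tube (hϖ0 : ϖ ≠ 0) (hram : IsU OC (ϖ / tC ^ e))
    (h : Chart3 OA OC OB ϖ tC m B pA pC pB) (n : Ideal B) (hn : n.IsPrime) (x : F) (hx0 : x ≠ 0)
    (hx : InTube (⟨ϖ, h.chart.unif_mem⟩ : B) n x)
    (hx' : InTube (⟨ϖ, h.chart.unif_mem⟩ : B) n x⁻¹)
    (hxA : pA ≤ n → IsU OA x) (hxC : pC ≤ n → IsU OC x) (hxB : pB ≤ n → IsU OB x) :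
    ∃ s b : B, s ∉ n ∧ b ∉ n ∧ (s : F) * x = b := by
  obtain ⟨s, b, hs, hb⟩ := mem_at_of_tube hϖ0 hram h n hn x hx (fun h => (hxA h).2.1)
    (fun h => (hxC h).2.1) (fun h => (hxB h).2.1)
  obtain ⟨s', b', hs', hb'⟩ := mem_at_of_tube hϖ0 hram h n hn x⁻¹ hx' (fun h => (hxA h).2.2)
    (fun h => (hxC h).2.2) (fun h => (hxB h).2.2)
  refine ⟨s, b, hs, fun hbn => ?_, hb⟩
  have e1 : b * b' = s * s' := by
    apply Subtype.ext
    rw [Subring.coe_mul, Subring.coe_mul, ← hb, ← hb']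
    field_simp
  have : s * s' ∈ n := e1 ▸ n.mul_mem_right b' hbn
  exact (hn.mem_or_mem this).elim hs hs'

end Fermat.Agent.S36
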