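import Fermat.Agent.S36.NGlue
import Fermat.Agent.S36.NCDefs
import Fermat.Agent.S36.GDefs

/-!
# S36, abstract block, [GA-L3] : the two norms make the gluing data constant

`w ≡ 1` modulo `ϖ O`, `nA w = z ^ m`, `nB w = z' ^ m`.  Then there is a unit `η` of `O`,
`η ^ m ≡ 1`, such that for `w' = w ^ Q / η ^ m`, `Q = (q - 1) (q + 1)`, every local root `f` of `w`
at a supersingular point `n` (of any chart) gives the local root `η f ^ Q` of `w'` with EQUAL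
branch values.
-/

set_option autoImplicit false
set_option linter.unusedVariables false

namespace Fermat.Agent.S36

open Fermat.Agent.S34 Fermat.Agent.S35

variable {F1 F : Type*} [Field F1] [Field F]

namespace GL3

/-- a product divisible by the uniformiser has a divisible factor. -/
theorem divS_prod {O : Subring F1} {ϖ1 : F1} (h : IsDV O ϖ1) {ι : Type*} (s : Finset ι)
    (g : ι → F1) (hg : ∀ i ∈ s, g i ∈ O) (hd : DivS O ϖ1 1 (∏ i ∈ s, g i)) :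
    ∃ i ∈ s, DivS O ϖ1 1 (g i) := by
  classical
  induction s using Finset.induction_on with
  | empty =>
    rw [Finset.prod_empty] at hd
    exact absurd hd (h.not_divS isU_one)
  | insert a s ha ih =>
    rw [Finset.prod_insert ha] at hd
    rcases h.divS_or (hg a (Finset.mem_insert_self a s))
      (Subring.prod_mem O fun i hi => hg i (Finset.mem_insert_of_mem hi)) hd with h1 | h1
    · exact ⟨a, Finset.mem_insert_self a s, h1⟩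
    · obtain ⟨i, hi, h2⟩ := ih (fun i hi => hg i (Finset.mem_insert_of_mem hi)) h1
      exact ⟨i, Finset.mem_insert_of_mem hi, h2⟩

theorem isU_zeta {O : Subring F1} {ϖ1 : F1} (h : IsDV O ϖ1) {m : ℕ} (hm : 0 < m) {ζ : F1}
    (hζ : ζ ^ m = 1) : IsU O ζ := h.isU_root hm (by rw [hζ]; exact isU_one)

/-- an `m`-th root of a one-unit is congruent to a root of unity. -/
theorem exists_pow_cong {O : Subring F1} {ϖ1 : F1} (h : IsDV O ϖ1) {m : ℕ} (hm : 0 < m) {ζ : F1}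
    (hζ : IsPrimitiveRoot ζ m) (z : F1) (hz : DivS O ϖ1 1 (z ^ m - 1)) :
    ∃ i : ℕ, DivS O ϖ1 1 (z - ζ ^ i) := by
  have hzO : z ∈ O := by
    apply h.root hm
    have := O.add_mem (hz.mem h.mem) O.one_mem
    rwa [sub_add_cancel] at this
  have e := hζ.pow_sub_pow_eq_prod_sub_mul z 1 hm
  rw [one_pow] at e
  rw [e] at hz
  have : NeZero m := ⟨hm.ne'⟩
  have hroot : ∀ μ ∈ Polynomial.nthRootsFinset m (1 : F1), ∃ i : ℕ, μ = ζ ^ i := by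
    intro μ hμ
    rw [Polynomial.mem_nthRootsFinset hm] at hμ
    obtain ⟨i, _, hi⟩ := hζ.eq_pow_of_pow_eq_one hμ
    exact ⟨i, hi.symm⟩
  obtain ⟨μ, hμ, hd⟩ := divS_prod h _ (fun μ => z - μ * 1) (fun μ hμ => by
    obtain ⟨i, rfl⟩ := hroot μ hμ
    rw [mul_one]
    exact O.sub_mem hzO (O.pow_mem (isU_zeta h hm hζ.pow_eq_one).mem i)) hz
  obtain ⟨i, rfl⟩ := hroot μ hμ
  exact ⟨i, by rwa [mul_one] at hd⟩

/-- **[GL-A]** on `Lvl1` (apply it to `L` and to `L.swap`). -/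
theorem glue_rel {q m : ℕ} (hm : 0 < m) {O1 O2 : Subring F1} {ϖ1 : F1}
    {OA OC OB : Subring F} {ϖ tC : F} {al be : F1 →+* F} {nA nB : F →* F1}
    (L : Lvl1 q O1 O2 ϖ1 OA OC OB ϖ tC al be nA nB)
    {B : Subring F} {B' : Subring F1}
    (hle : ∀ x ∈ B, x ∈ OA ∧ x ∈ OC ∧ x ∈ OB)
    (hal : ∀ x ∈ B', al x ∈ B) (hnAm : ∀ x ∈ B, nA x ∈ B')
    (hroot : ∀ x : F1, x ^ m ∈ B' → x ∈ B')
    (hsurjA : ∀ b ∈ B, ∃ a ∈ B', DivS OA ϖ 1 (b - al a))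
    (hsurjC : ∀ b ∈ B, ∃ a ∈ B', DivS OC tC 1 (b - al a))
    (n : Ideal B) [n.IsPrime]
    (hnA : ∀ b : B, DivS OA ϖ 1 (b : F) → b ∈ n) (hnC : ∀ b : B, DivS OC tC 1 (b : F) → b ∈ n)
    (hnB : ∀ b : B, DivS OB ϖ 1 (b : F) → b ∈ n)
    (w f : F) (s1 b1 : B) (hs1 : s1 ∉ n) (hf : (s1 : F) * (f ^ m * w) = b1)
    (hfA' : f ∈ OA) (hfC' : f ∈ OC) (hfB' : f ∈ OB)
    (sA cA sC cC sB cB : B) (hsA : sA ∉ n) (hsC : sC ∉ n)
    (hfA : DivS OA ϖ 1 ((sA : F) * f - cA)) (hfC : DivS OC tC 1 ((sC : F) * f - cC))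
    (hfB : DivS OB ϖ 1 ((sB : F) * f - cB))
    (z : F1) (hw : nA w = z ^ m) (l1 l2 : F1) (hl1 : l1 ∈ B') (hl2 : l2 ∈ B')
    (hz1 : DivS O1 ϖ1 1 (z - l1)) (hz2 : DivS O2 ϖ1 1 (z - l2)) :
    (⟨al l1, hal _ hl1⟩ : B) * cA * cC ^ (q - 1) * sB ^ q
      - (⟨al l2, hal _ hl2⟩ : B) * cB ^ q * sA * sC ^ (q - 1) ∈ n := by
  let alB : B' →+* B := (al.comp B'.subtype).codRestrict B (fun x => hal _ x.2)
  have halB : ∀ b, (alB b : F) = al b := fun _ => rfl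
  have hB1 : ∀ b ∈ B', b ∈ O1 := fun b hb => (L.al_F b).1 (hle _ (hal b hb)).1
  have hB2 : ∀ b ∈ B', b ∈ O2 := fun b hb => (L.al_V b).1 (hle _ (hal b hb)).2.2
  have hn1 : ∀ b : B', DivS O1 ϖ1 1 (b : F1) → alB b ∈ n := by
    intro b hb
    apply hnA
    obtain ⟨y, hy, e⟩ := hb
    refine ⟨al y, (L.al_F y).2 hy, ?_⟩
    rw [halB, e, map_mul, map_pow, L.al_unif]
  obtain ⟨S, C, hS, hSC⟩ := exists_SC q m hm al nA (OA := OA) (OC := OC) (OB := OB) (ϖ := ϖ)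
    L.nA2 alB halB (fun b hb => (hle b hb).1) (fun b hb => (hle b hb).2.1)
    (fun b hb => (hle b hb).2.2) hroot hnAm n hnB f w (f ^ m * w) rfl s1 b1 hs1 hf z 1
    (by
      rw [map_one]
      exact fun h => (Ideal.IsPrime.ne_top (I := n) inferInstance) ((Ideal.eq_top_iff_one n).2 h))
    (by rw [hw]; simp)
  exact glue_rel_core q al nA L.dv1 L.dv2.mem L.dvF.mem L.dvV.mem L.dvM.mem L.al_unif
    (fun a ha => (L.al_F a).2 ha) (fun a ha => (L.al_M a).2 ha) L.al_V L.nA1 L.nA2 alB halB hB1 hB2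
    (fun b hb => (hle b hb).1) (fun b hb => (hle b hb).2.1) (fun b hb => (hle b hb).2.2) n
    hnA hnC hnB hn1
    (fun c => by
      obtain ⟨a, ha, h⟩ := hsurjA c c.2
      exact ⟨⟨a, ha⟩, h⟩)
    (fun c => by
      obtain ⟨a, ha, h⟩ := hsurjC c c.2
      exact ⟨⟨a, ha⟩, h⟩)
    f hfA' hfC' hfB' sA cA sC cC sB cB hsA hsC hfA hfC hfB z ⟨l1, hl1⟩ ⟨l2, hl2⟩ hz1 hz2 S C hS hSC

theorem isU_map {O1 : Subring F1} {OA : Subring F} (al : F1 →+* F) (h : ∀ a, al a ∈ OA ↔ a ∈ O1)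
    {x : F1} (hx : IsU O1 x) : IsU OA (al x) :=
  ⟨(map_ne_zero al).2 hx.ne_zero, (h _).2 hx.mem, by rw [← map_inv₀]; exact (h _).2 hx.inv_mem⟩

theorem divS_pow_succ {O : Subring F} {ϖ : F} {e : F} (he : e ∈ O) (hd : DivS O ϖ 1 e) (r : ℕ) :
    DivS O ϖ 1 (e ^ (r + 1)) := by
  rw [pow_succ]
  exact hd.mul_left (O.pow_mem he r)

end GL3

open GL3

/-- **[GA-L3]** -/
theorem exists_eta {q m : ℕ} (hq : 1 < q) (hm : 0 < m) {O1 O2 : Subring F1} {ϖ1 : F1}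
    {OA OC OB : Subring F} {ϖ tC : F} {al be : F1 →+* F} {nA nB : F →* F1}
    (L : Lvl1 q O1 O2 ϖ1 OA OC OB ϖ tC al be nA nB)
    (ζ : F1) (hζ : IsPrimitiveRoot ζ m) (hζab : al ζ = be ζ)
    (w : F) (z z' : F1) (hzA : nA w = z ^ m) (hzB : nB w = z' ^ m)
    (hz1 : DivS O1 ϖ1 1 (z ^ m - 1)) (hz2 : DivS O2 ϖ1 1 (z ^ m - 1))
    (hz1' : DivS O1 ϖ1 1 (z' ^ m - 1)) (hz2' : DivS O2 ϖ1 1 (z' ^ m - 1)) :
    ∃ η : F, IsU OA η ∧ IsU OC η ∧ IsU OB η ∧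
      DivS OA ϖ 1 (η ^ m - 1) ∧ DivS OC ϖ 1 (η ^ m - 1) ∧ DivS OB ϖ 1 (η ^ m - 1) ∧
      ∀ (B : Subring F) (B' : Subring F1) (pA pC pB : Ideal B),
        Chart3 OA OC OB ϖ tC m B pA pC pB → ChartL OA OC OB ϖ tC m B B' al be nA nB → ζ ∈ B' →
        ∀ n : Ideal B, n.IsMaximal → pA ≤ n → pC ≤ n → pB ≤ n →
        ∀ (f : F) (s1 b1 : B), LRoot m B n w f s1 b1 → f ∈ OA → f ∈ OC → f ∈ OB →
        ∀ sA cA sC cC sB cB : B, Br OA ϖ B n f sA cA → Br OC tC B n f sC cC →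
          Br OB ϖ B n f sB cB →
        LRoot m B n (w ^ ((q - 1) * (q + 1)) / η ^ m) (η * f ^ ((q - 1) * (q + 1)))
            (s1 ^ ((q - 1) * (q + 1))) (b1 ^ ((q - 1) * (q + 1))) ∧
          ∃ cA' cB' : B,
            Br OA ϖ B n (η * f ^ ((q - 1) * (q + 1))) (sA ^ ((q - 1) * (q + 1))) cA' ∧
            Br OC tC B n (η * f ^ ((q - 1) * (q + 1))) (sC ^ ((q - 1) * (q + 1)))
              (cC ^ ((q - 1) * (q + 1))) ∧
            Br OB ϖ B n (η * f ^ ((q - 1) * (q + 1))) (sB ^ ((q - 1) * (q + 1))) cB' ∧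
            cA' * sC ^ ((q - 1) * (q + 1)) - cC ^ ((q - 1) * (q + 1)) * sA ^ ((q - 1) * (q + 1)) ∈ n ∧
            cB' * sC ^ ((q - 1) * (q + 1)) - cC ^ ((q - 1) * (q + 1)) * sB ^ ((q - 1) * (q + 1)) ∈ n := by
  obtain ⟨r, rfl⟩ : ∃ r, q = r + 1 := ⟨q - 1, by omega⟩
  obtain ⟨r', rfl⟩ : ∃ r', r = r' + 1 := ⟨r - 1, by omega⟩
  obtain ⟨k, rfl⟩ : ∃ k, m = k + 1 := ⟨m - 1, by omega⟩
  set r := r' + 1 with hr
  have hQ : (r + 1 - 1) * (r + 1 + 1) = r * (r + 2) := by rw [Nat.add_sub_cancel]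
  rw [hQ]
  set Q := r * (r + 2) with hQdef
  have hζm := hζ.pow_eq_one
  have u1 : IsU O1 ζ := isU_zeta L.dv1 hm hζm
  have u2 : IsU O2 ζ := isU_zeta L.dv2 hm hζm
  obtain ⟨i1, hi1⟩ := exists_pow_cong L.dv1 hm hζ z hz1
  obtain ⟨i2, hi2⟩ := exists_pow_cong L.dv2 hm hζ z hz2
  obtain ⟨j1, hj1⟩ := exists_pow_cong L.dv1 hm hζ z' hz1'
  obtain ⟨j2, hj2⟩ := exists_pow_cong L.dv2 hm hζ z' hz2'
  set eA : ℕ := ((r + 1) * j1 + i2) + k * ((r + 1) * j2 + i1) with heA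
  set eB : ℕ := ((r + 1) * i2 + j1) + k * ((r + 1) * i1 + j2) with heB
  have uA : ∀ e : ℕ, IsU OA (al ζ ^ e) := fun e => (isU_map al L.al_F u1).pow e
  have uC : ∀ e : ℕ, IsU OC (al ζ ^ e) := fun e => (isU_map al L.al_M u1).pow e
  have uB : ∀ e : ℕ, IsU OB (al ζ ^ e) := fun e => (isU_map al L.al_V u2).pow e
  have halm : al ζ ^ (k + 1) = 1 := by rw [← map_pow, hζm, map_one]
  obtain ⟨eF, hF1, hF2, hF3, hF4, hF5, hF6⟩ := L.idemF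
  obtain ⟨eV, hV1, hV2, hV3, hV4, hV5, hV6⟩ := L.idemV
  have hram := L.ram
  rw [Nat.add_sub_cancel] at hram
  have hϖ0 : ϖ ≠ 0 := L.dvF.ne_zero
  have ht0 : tC ≠ 0 := L.dvM.ne_zero
  -- from `tC` to `ϖ` on `OC`
  have up : ∀ e : F, DivS OC tC 1 e → DivS OC ϖ 1 (e ^ (r + 1)) := by
    rintro e ⟨y, hy, rfl⟩
    refine ⟨(tC ^ r / ϖ) * tC * y ^ (r + 1), OC.mul_mem (OC.mul_mem hram.mem L.dvM.mem)
      (OC.pow_mem hy _), ?_⟩
    field_simp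
    ring
  have down : ∀ e : F, DivS OC ϖ 1 e → DivS OC tC 1 e := by
    rintro e ⟨y, hy, rfl⟩
    refine ⟨tC ^ r' * (tC ^ r / ϖ)⁻¹ * y, OC.mul_mem (OC.mul_mem (OC.pow_mem L.dvM.mem _)
      hram.inv_mem) hy, ?_⟩
    rw [hr]
    field_simp
    ring
  set EF := eF ^ (r + 1) with hEF
  set EV := eV ^ (r + 1) with hEV
  have EF_A : DivS OA ϖ 1 (EF - 1) := by
    have := cong_pow (O := OA) (ϖ := ϖ) hF1 OA.one_mem hF4 (r + 1)
    rwa [one_pow] at this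
  have EF_C : DivS OC ϖ 1 EF := up _ hF5
  have EF_B : DivS OB ϖ 1 EF := divS_pow_succ hF3 hF6 r
  have EV_A : DivS OA ϖ 1 EV := divS_pow_succ hV1 hV4 r
  have EV_C : DivS OC ϖ 1 EV := up _ hV5
  have EV_B : DivS OB ϖ 1 (EV - 1) := by
    have := cong_pow (O := OB) (ϖ := ϖ) hV3 OB.one_mem hV6 (r + 1)
    rwa [one_pow] at this
  set ωA := al ζ ^ eA with hωA
  set ωB := al ζ ^ eB with hωB
  set η : F := 1 + (ωA - 1) * EF + (ωB - 1) * EV with hη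
  have cA0 : DivS OA ϖ 1 (η - ωA) := by
    have e : η - ωA = (ωA - 1) * (EF - 1) + (ωB - 1) * EV := by rw [hη]; ring
    rw [e]
    exact (EF_A.mul_left (OA.sub_mem (uA _).mem OA.one_mem)).add
      (EV_A.mul_left (OA.sub_mem (uA _).mem OA.one_mem))
  have cC0 : DivS OC ϖ 1 (η - 1) := by
    have e : η - 1 = (ωA - 1) * EF + (ωB - 1) * EV := by rw [hη]; ring
    rw [e]
    exact (EF_C.mul_left (OC.sub_mem (uC _).mem OC.one_mem)).add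
      (EV_C.mul_left (OC.sub_mem (uC _).mem OC.one_mem))
  have cB0 : DivS OB ϖ 1 (η - ωB) := by
    have e : η - ωB = (ωA - 1) * EF + (ωB - 1) * (EV - 1) := by rw [hη]; ring
    rw [e]
    exact (EF_B.mul_left (OB.sub_mem (uB _).mem OB.one_mem)).add
      (EV_B.mul_left (OB.sub_mem (uB _).mem OB.one_mem))
  have cC1 : DivS OC tC 1 (η - 1) := down _ cC0
  have ηA : IsU OA η := L.dvF.isU_of_sub (uA _) cA0
  have ηC : IsU OC η := L.dvM.isU_of_sub isU_one cC1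
  have ηB : IsU OB η := L.dvV.isU_of_sub (uB _) cB0
  have ωm : ∀ e : ℕ, (al ζ ^ e) ^ (k + 1) = 1 := fun e => by
    rw [← pow_mul, mul_comm, pow_mul, halm, one_pow]
  refine ⟨η, ηA, ηC, ηB, ?_, ?_, ?_, ?_⟩
  · have := cong_pow (O := OA) (ϖ := ϖ) ηA.mem (uA eA).mem cA0 (k + 1)
    rwa [ωm] at this
  · have := cong_pow (O := OC) (ϖ := ϖ) ηC.mem OC.one_mem cC0 (k + 1)
    rwa [one_pow] at this
  · have := cong_pow (O := OB) (ϖ := ϖ) ηB.mem (uB eB).mem cB0 (k + 1)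
    rwa [ωm] at this
  intro B B' pA pC pB h hL hζB n hn hpA hpC hpB f s1 b1 hf hfA hfC hfB sA cA sC cC sB cB bA bC bB
  have hnp : n.IsPrime := hn.isPrime
  have hle : ∀ x ∈ B, x ∈ OA ∧ x ∈ OC ∧ x ∈ OB := fun x hx =>
    ⟨(h.chart.le x hx).1.1, (h.chart.le x hx).1.2, (h.chart.le x hx).2⟩
  have hnA : ∀ b : B, DivS OA ϖ 1 (b : F) → b ∈ n := fun b hb => hpA ((h.memA b).2 hb)
  have hnC : ∀ b : B, DivS OC tC 1 (b : F) → b ∈ n := fun b hb => hpC ((h.memC b).2 hb)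
  have hnB : ∀ b : B, DivS OB ϖ 1 (b : F) → b ∈ n := fun b hb => hpB ((h.memB b).2 hb)
  have RA := glue_rel hm L hle hL.al_mem hL.nA_mem hL.root hL.surjA hL.surjC n hnA hnC hnB w f
    s1 b1 hf.2.1 hf.2.2.2 hfA hfC hfB sA cA sC cC sB cB bA.1 bC.1 bA.2.2 bC.2.2 bB.2.2 z hzA
    (ζ ^ i1) (ζ ^ i2) (B'.pow_mem hζB _) (B'.pow_mem hζB _) hi1 hi2
  have RB := glue_rel hm L.swap (fun x hx => ⟨(hle x hx).2.2, (hle x hx).2.1, (hle x hx).1⟩)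
    hL.be_mem hL.nB_mem hL.root hL.surjB hL.surjC' n hnB hnC hnA w f
    s1 b1 hf.2.1 hf.2.2.2 hfB hfC hfA sB cB sC cC sA cA bB.1 bC.1 bB.2.2 bC.2.2 bA.2.2 z' hzB
    (ζ ^ j2) (ζ ^ j1) (B'.pow_mem hζB _) (B'.pow_mem hζB _) hj2 hj1
  rw [Nat.add_sub_cancel] at RA RB
  set ZB : B := ⟨al ζ, hL.al_mem _ hζB⟩ with hZB
  have eal : ∀ (i : ℕ) (hi : al (ζ ^ i) ∈ B), (⟨al (ζ ^ i), hi⟩ : B) = ZB ^ i := fun i hi =>
    Subtype.ext (by
      rw [SubmonoidClass.coe_pow]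
      exact map_pow al ζ i)
  have ebe : ∀ (i : ℕ) (hi : be (ζ ^ i) ∈ B), (⟨be (ζ ^ i), hi⟩ : B) = ZB ^ i := fun i hi =>
    Subtype.ext (by
      rw [SubmonoidClass.coe_pow]
      show be (ζ ^ i) = al ζ ^ i
      rw [map_pow, hζab])
  rw [eal, eal] at RA
  rw [ebe, ebe] at RB
  have hZm : ZB ^ (k + 1) = 1 := Subtype.ext (by
    rw [SubmonoidClass.coe_pow]; exact halm)
  have h1n : (1 : B) ∉ n := fun h1 => hnp.ne_top ((Ideal.eq_top_iff_one n).2 h1)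
  have hZn : ∀ e : ℕ, ZB ^ e ∉ n := by
    intro e he
    have h2 : ZB ∈ n := hnp.mem_of_pow_mem e he
    apply h1n
    rw [← hZm]
    exact Ideal.pow_mem_of_mem n h2 _ (Nat.succ_pos k)
  -- the quotient
  set π := Ideal.Quotient.mk n with hπ
  have ne0 : ∀ b : B, b ∉ n → π b ≠ 0 := fun b hb h0 => hb (Ideal.Quotient.eq_zero_iff_mem.1 h0)
  have qA : π ZB ^ i1 * π cA * π cC ^ r * π sB ^ (r + 1)
      = π ZB ^ i2 * π cB ^ (r + 1) * π sA * π sC ^ r := by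
    have := Ideal.Quotient.eq_zero_iff_mem.2 RA
    simpa only [map_sub, map_mul, map_pow, sub_eq_zero] using this
  have qB : π ZB ^ j2 * π cB * π cC ^ r * π sA ^ (r + 1)
      = π ZB ^ j1 * π cA ^ (r + 1) * π sB * π sC ^ r := by
    have := Ideal.Quotient.eq_zero_iff_mem.2 RB
    simpa only [map_sub, map_mul, map_pow, sub_eq_zero] using this
  have K1 := const_of_rel r _ _ _ _ _ _ _ _ _ _ qA qB (ne0 _ bB.1) (ne0 _ bA.2.1) (ne0 _ bA.1)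
  have K2 := const_of_rel r _ _ _ _ _ _ _ _ _ _ qB qA (ne0 _ bA.1) (ne0 _ bB.2.1) (ne0 _ bB.1)
  rw [← hQdef] at K1 K2
  have hπZ : π ZB ^ (k + 1) = 1 := by rw [← map_pow, hZm, map_one]
  have hπZ0 : π ZB ≠ 0 := ne0 _ (by simpa using hZn 1)
  have pw : ∀ b : B, b ∉ n → b ^ Q ∉ n := fun b hb h0 => hb (hnp.mem_of_pow_mem Q h0)
  refine ⟨⟨mul_ne_zero ηA.ne_zero (pow_ne_zero _ hf.1), pw _ hf.2.1, pw _ hf.2.2.1, ?_⟩,
    ZB ^ eA * cA ^ Q, ZB ^ eB * cB ^ Q, ⟨pw _ bA.1, ?_, ?_⟩, ⟨pw _ bC.1, pw _ bC.2.1, ?_⟩,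
    ⟨pw _ bB.1, ?_, ?_⟩, ?_, ?_⟩
  · have h0 := ηA.ne_zero
    rw [SubmonoidClass.coe_pow, SubmonoidClass.coe_pow, ← hf.2.2.2]
    field_simp
    ring
  · exact fun h0 => (hnp.mem_or_mem h0).elim (hZn _) (pw _ bA.2.1)
  · have e : ((sA ^ Q : B) : F) * (η * f ^ Q) - ((ZB ^ eA * cA ^ Q : B) : F)
        = η * (((sA : F) * f) ^ Q - (cA : F) ^ Q) + (η - ωA) * (cA : F) ^ Q := by
      push_cast
      rw [hωA]
      ring
    rw [e]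
    exact ((cong_pow (OA.mul_mem (hle _ sA.2).1 hfA) (hle _ cA.2).1 bA.2.2 Q).mul_left ηA.mem).add
      (cA0.mul_right (OA.pow_mem (hle _ cA.2).1 Q))
  · have e : ((sC ^ Q : B) : F) * (η * f ^ Q) - ((cC ^ Q : B) : F)
        = η * (((sC : F) * f) ^ Q - (cC : F) ^ Q) + (η - 1) * (cC : F) ^ Q := by
      push_cast
      ring
    rw [e]
    exact ((cong_pow (OC.mul_mem (hle _ sC.2).2.1 hfC) (hle _ cC.2).2.1 bC.2.2 Q).mul_left
      ηC.mem).add (cC1.mul_right (OC.pow_mem (hle _ cC.2).2.1 Q))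
  · exact fun h0 => (hnp.mem_or_mem h0).elim (hZn _) (pw _ bB.2.1)
  · have e : ((sB ^ Q : B) : F) * (η * f ^ Q) - ((ZB ^ eB * cB ^ Q : B) : F)
        = η * (((sB : F) * f) ^ Q - (cB : F) ^ Q) + (η - ωB) * (cB : F) ^ Q := by
      push_cast
      rw [hωB]
      ring
    rw [e]
    exact ((cong_pow (OB.mul_mem (hle _ sB.2).2.2 hfB) (hle _ cB.2).2.2 bB.2.2 Q).mul_left
      ηB.mem).add (cB0.mul_right (OB.pow_mem (hle _ cB.2).2.2 Q))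
  · rw [← Ideal.Quotient.eq_zero_iff_mem]
    simp only [map_sub, map_mul, map_pow, sub_eq_zero]
    have hU : (π ZB ^ j2) ^ (r + 1) * π ZB ^ i1 ≠ 0 :=
      mul_ne_zero (pow_ne_zero _ (pow_ne_zero _ hπZ0)) (pow_ne_zero _ hπZ0)
    apply mul_left_cancel₀ hU
    have eZ : (π ZB ^ j2) ^ (r + 1) * π ZB ^ i1 * π ZB ^ eA
        = (π ZB ^ (k + 1)) ^ ((r + 1) * j2 + i1) * ((π ZB ^ j1) ^ (r + 1) * π ZB ^ i2) := by
      rw [heA]; ring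
    rw [hπZ, one_pow, one_mul] at eZ
    calc (π ZB ^ j2) ^ (r + 1) * π ZB ^ i1 * (π ZB ^ eA * π cA ^ Q * π sC ^ Q)
        = ((π ZB ^ j2) ^ (r + 1) * π ZB ^ i1 * π ZB ^ eA) * π cA ^ Q * π sC ^ Q := by ring
      _ = (π ZB ^ j1) ^ (r + 1) * π ZB ^ i2 * π cA ^ Q * π sC ^ Q := by rw [eZ]
      _ = (π ZB ^ j2) ^ (r + 1) * π ZB ^ i1 * π cC ^ Q * π sA ^ Q := K1.symm
      _ = _ := by ring
  · rw [← Ideal.Quotient.eq_zero_iff_mem]
    simp only [map_sub, map_mul, map_pow, sub_eq_zero]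
    have hU : (π ZB ^ i1) ^ (r + 1) * π ZB ^ j2 ≠ 0 :=
      mul_ne_zero (pow_ne_zero _ (pow_ne_zero _ hπZ0)) (pow_ne_zero _ hπZ0)
    apply mul_left_cancel₀ hU
    have eZ : (π ZB ^ i1) ^ (r + 1) * π ZB ^ j2 * π ZB ^ eB
        = (π ZB ^ (k + 1)) ^ ((r + 1) * i1 + j2) * ((π ZB ^ i2) ^ (r + 1) * π ZB ^ j1) := by
      rw [heB]; ring
    rw [hπZ, one_pow, one_mul] at eZ
    calc (π ZB ^ i1) ^ (r + 1) * π ZB ^ j2 * (π ZB ^ eB * π cB ^ Q * π sC ^ Q)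
        = ((π ZB ^ i1) ^ (r + 1) * π ZB ^ j2 * π ZB ^ eB) * π cB ^ Q * π sC ^ Q := by ring
      _ = (π ZB ^ i2) ^ (r + 1) * π ZB ^ j1 * π cB ^ Q * π sC ^ Q := by rw [eZ]
      _ = (π ZB ^ i1) ^ (r + 1) * π ZB ^ j2 * π cC ^ Q * π sB ^ Q := K2.symm
      _ = _ := by ring

end Fermat.Agent.S36
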