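import Fermat.Agent.S36.NGlue
import Fermat.Agent.S36.NCDefs
import Fermat.Agent.S36.GDefs

/-!
# S36, abstract block, [GA-L3] : the two norms make the gluing data constant

`w ≡ 1` modulo `ϖ O`, `nA w = z ^ m`, `nB w = z' ^ m`.  Then there is a unit `η` of `O`,
`η ^ m ≡ 1`, such that for `w' = w ^ Q / η ^ m`, `Q = (q - 1) (q + 1)`, every local root `f` of `w`
at a supersingular point `n` (of any chart) gives the local root `η f ^ Q` of `w'` with EQUAL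
branch values.
-/

set_option autoImplicit false
set_option linter.unusedVariables false

namespace Fermat.Agent.S36.GL3Plan

open Fermat.Agent.S34 Fermat.Agent.S35 Fermat.Agent.S36

variable {F1 F : Type*} [Field F1] [Field F]

/-- **[GA-L3]** -/
theorem exists_eta {q m : ℕ} (hq : 0 < q) (hm : 0 < m) {O1 O2 : Subring F1} {ϖ1 : F1}
    {OA OC OB : Subring F} {ϖ tC : F} {al be : F1 →+* F} {nA nB : F →* F1}
    (L : Lvl1 q O1 O2 ϖ1 OA OC OB ϖ tC al be nA nB)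
    (ζ : F1) (hζ : IsPrimitiveRoot ζ m) (hζab : al ζ = be ζ)
    (w : F) (z z' : F1) (hzA : nA w = z ^ m) (hzB : nB w = z' ^ m)
    (hz1 : DivS O1 ϖ1 1 (z ^ m - 1)) (hz2 : DivS O2 ϖ1 1 (z ^ m - 1))
    (hz1' : DivS O1 ϖ1 1 (z' ^ m - 1)) (hz2' : DivS O2 ϖ1 1 (z' ^ m - 1)) :
    ∃ η : F, IsU OA η ∧ IsU OC η ∧ IsU OB η ∧
      DivS OA ϖ 1 (η ^ m - 1) ∧ DivS OC ϖ 1 (η ^ m - 1) ∧ DivS OB ϖ 1 (η ^ m - 1) ∧
      ∀ (B : Subring F) (B' : Subring F1) (pA pC pB : Ideal B),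
        Chart3 OA OC OB ϖ tC m B pA pC pB → ChartL OA OC OB ϖ tC m B B' al be nA nB → ζ ∈ B' →
        ∀ n : Ideal B, n.IsMaximal → pA ≤ n → pC ≤ n → pB ≤ n →
        ∀ (f : F) (s1 b1 : B), LRoot m B n w f s1 b1 → f ∈ OA → f ∈ OC → f ∈ OB →
        ∀ sA cA sC cC sB cB : B, Br OA ϖ B n f sA cA → Br OC tC B n f sC cC →
          Br OB ϖ B n f sB cB →
        LRoot m B n (w ^ ((q - 1) * (q + 1)) / η ^ m) (η * f ^ ((q - 1) * (q + 1)))
            (s1 ^ ((q - 1) * (q + 1))) (b1 ^ ((q - 1) * (q + 1))) ∧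
          ∃ cA' cB' : B,
            Br OA ϖ B n (η * f ^ ((q - 1) * (q + 1))) (sA ^ ((q - 1) * (q + 1))) cA' ∧
            Br OC tC B n (η * f ^ ((q - 1) * (q + 1))) (sC ^ ((q - 1) * (q + 1)))
              (cC ^ ((q - 1) * (q + 1))) ∧
            Br OB ϖ B n (η * f ^ ((q - 1) * (q + 1))) (sB ^ ((q - 1) * (q + 1))) cB' ∧
            cA' * sC ^ ((q - 1) * (q + 1)) - cC ^ ((q - 1) * (q + 1)) * sA ^ ((q - 1) * (q + 1)) ∈ n ∧
            cB' * sC ^ ((q - 1) * (q + 1)) - cC ^ ((q - 1) * (q + 1)) * sB ^ ((q - 1) * (q + 1)) ∈ n := by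
  sorry

end Fermat.Agent.S36.GL3Plan
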