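import Fermat.Agent.S36.GDefs

/-!
# S36, geometry, abstract block : PLAN (stubs) of the LOCAL step

Pieces `[GA-L0] .. [GA-L4]`; each owner proves his statement VERBATIM in his own file
`S36/GL0.lean` ... (namespace `Fermat.Agent.S36`, same names), never importing this file.
-/

set_option autoImplicit false

namespace Fermat.Agent.S36.GPlan

open Fermat.Agent.S34 Fermat.Agent.S35 Fermat.Agent.ES.Model

variable {F : Type*} [Field F] {OA OC OB : Subring F} {ϖ tC : F} {m e : ℕ}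
  {B : Subring F} {pA pC pB : Ideal B}

/-- **[GA-L0]** some component passes through `n`. -/
theorem exists_comp (hA : IsDV OA ϖ) (hC : IsDV OC tC) (hB : IsDV OB ϖ)
    (hram : IsU OC (ϖ / tC ^ e)) (h : Chart3 OA OC OB ϖ tC m B pA pC pB)
    (n : Ideal B) (hn : n.IsMaximal) (hϖ : (⟨ϖ, h.chart.unif_mem⟩ : B) ∈ n) :
    pA ≤ n ∨ pC ≤ n ∨ pB ≤ n := sorry

/-- **[GA-L1]** from (LP) on the tube to a local root which is a unit on the branches through `n`.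
(vertical primes through `n` are locally principal: `ϖ` at the ordinary points of `A`, `B`
[`sat` + elements of the other components outside `n`], `regC`, `regN` + `LPReg.loc_principal`.) -/
theorem exists_lroot (hA : IsDV OA ϖ) (hC : IsDV OC tC) (hB : IsDV OB ϖ)
    (hram : IsU OC (ϖ / tC ^ e)) (he : 0 < e) (hm : 0 < m)
    [pA.IsPrime] [pC.IsPrime] [pB.IsPrime]
    [IsNoetherianRing B]
    [IsDedekindDomain (B ⧸ pA)] [IsDedekindDomain (B ⧸ pC)] [IsDedekindDomain (B ⧸ pB)]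
    (h : Chart3 OA OC OB ϖ tC m B pA pC pB)
    (hcases : ∀ n : Ideal B, n.IsMaximal → (pA ≤ n ∧ pC ≤ n ∧ pB ≤ n) ∨
      (pA ≤ n ∧ ¬ pC ≤ n ∧ ¬ pB ≤ n) ∨ (¬ pA ≤ n ∧ pC ≤ n ∧ ¬ pB ≤ n) ∨
      (¬ pA ≤ n ∧ ¬ pC ≤ n ∧ pB ≤ n) ∨ (¬ pA ≤ n ∧ ¬ pC ≤ n ∧ ¬ pB ≤ n))
    (n : Ideal B) (hn : n.IsMaximal) (hϖ : (⟨ϖ, h.chart.unif_mem⟩ : B) ∈ n)
    (w : F) (hwA : IsU OA w) (hwC : IsU OC w) (hwB : IsU OB w)
    (hlp : LP ϖ m B h.chart.unif_mem n w) :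
    ∃ (f : F) (s1 b1 : B), LRoot m B n w f s1 b1 ∧ (pA ≤ n → IsU OA f) ∧ (pC ≤ n → IsU OC f) ∧
      (pB ≤ n → IsU OB f) := sorry

/-- **[GA-L2]** branch datum of a local root on one component through `n`
(`(B/p)_n` is integrally closed : `S35.GIC`). -/
theorem exists_br {OX : Subring F} {tX : F} (hX : IsDV OX tX) (hm : 0 < m)
    (hle : ∀ x ∈ B, x ∈ OX) (p : Ideal B) [p.IsPrime] [IsDedekindDomain (B ⧸ p)]
    (hmem : ∀ b : B, b ∈ p ↔ DivS OX tX 1 (b : F))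
    (hfrac : ∀ f : F, ∃ a ∈ B, ∃ b ∈ B, b ≠ 0 ∧ f * b = a)
    (n : Ideal B) (hn : n.IsMaximal) (hpn : p ≤ n)
    (w f : F) (s1 b1 : B) (hf : LRoot m B n w f s1 b1) (hfU : IsU OX f)
    (hw : DivS OX tX 1 (w - 1)) :
    ∃ s c : B, Br OX tX B n f s c ∧ c ^ m * s1 - s ^ m * b1 ∈ n := sorry

/-- **[GA-L4]** the local datum of `abs_semi_local` from a local root with EQUAL branch values
(`Glue.glue_branches` + multiplication by elements of the components which do not pass through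
`n`). -/
theorem local_datum (hA : IsDV OA ϖ) (hC : IsDV OC tC) (hB : IsDV OB ϖ)
    (hram : IsU OC (ϖ / tC ^ e)) (he : 0 < e) (hm : 0 < m)
    [pA.IsPrime] [pC.IsPrime] [pB.IsPrime]
    (h : Chart3 OA OC OB ϖ tC m B pA pC pB)
    (n : Ideal B) (hn : n.IsMaximal) (hϖ : (⟨ϖ, h.chart.unif_mem⟩ : B) ∈ n)
    (w : F) (hw1 : DivS (OA ⊓ OC ⊓ OB) ϖ 1 (w - 1))
    (f : F) (s1 b1 : B) (hf : LRoot m B n w f s1 b1)
    (s0 c0 : B) (hs0 : s0 ∉ n) (hc0 : c0 ∉ n) (hroot : c0 ^ m * s1 - s0 ^ m * b1 ∈ n)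
    (hbA : pA ≤ n → ∃ s c : B, Br OA ϖ B n f s c ∧ c * s0 - c0 * s ∈ n)
    (hbC : pC ≤ n → ∃ s c : B, Br OC tC B n f s c ∧ c * s0 - c0 * s ∈ n)
    (hbB : pB ≤ n → ∃ s c : B, Br OB ϖ B n f s c ∧ c * s0 - c0 * s ∈ n) :
    ∃ g ∈ MM m w B, ∃ b : B, b ∉ n ∧ DivS (OA ⊓ OC ⊓ OB) ϖ 1 (g - (b : F)) := sorry

end Fermat.Agent.S36.GPlan
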