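import Fermat.Agent.S36.Orth3

/-!
# S36, geometry, abstract block : idempotents and residue surjectivity at the level `q²`

Everything in the `IsDV` / `DivS` language: from the membership rules of the two degeneracy maps,
the idempotent of the level `q` and `Orth3` we get the three idempotents and the residue
surjectivities of the structure `Lvl1`.
-/

set_option autoImplicit false

namespace Fermat.Agent.S36

open Fermat.Agent.S34 Fermat.Agent.S35 Polynomial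

namespace G3a

section General

variable {F : Type*} [Field F]

/-- weak approximation with an idempotent. -/
theorem approx {Oa Ob Oc : Subring F} {πa πb πc : F} (hb : IsDV Ob πb)
    (hc : IsDV Oc πc) (E : F) (hEa : E ∈ Oa) (hEb : E ∈ Ob) (hEc : E ∈ Oc)
    (h1 : DivS Oa πa 1 (E - 1)) (h2 : DivS Ob πb 1 E) (h3 : DivS Oc πc 1 E)
    (u : F) (hu : u ∈ Oa) :
    ∃ u', u' ∈ Oa ∧ u' ∈ Ob ∧ u' ∈ Oc ∧ DivS Oa πa 1 (u - u') := by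
  obtain ⟨j1, -, hj1⟩ := hb.exists_pow_mul h2 u
  obtain ⟨j2, -, hj2⟩ := hc.exists_pow_mul h3 u
  refine ⟨E ^ (j1 + j2) * u, Oa.mul_mem (Oa.pow_mem hEa _) hu, ?_, ?_, ?_⟩
  · have : E ^ (j1 + j2) * u = E ^ j2 * (E ^ j1 * u) := by rw [pow_add]; ring
    rw [this]
    exact Ob.mul_mem (Ob.pow_mem hEb _) (hj1.mem hb.mem)
  · have : E ^ (j1 + j2) * u = E ^ j1 * (E ^ j2 * u) := by rw [pow_add]; ring
    rw [this]
    exact Oc.mul_mem (Oc.pow_mem hEc _) (hj2.mem hc.mem)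
  · have h := cong_pow hEa Oa.one_mem h1 (j1 + j2)
    rw [one_pow] at h
    have h' := (h.neg).mul_right hu
    have e : u - E ^ (j1 + j2) * u = -(E ^ (j1 + j2) - 1) * u := by ring
    rw [e]
    exact h'

end General

variable {F1 F2 : Type*} [Field F1] [Field F2]

theorem divS_map {ι : F1 →+* F2} {O : Subring F1} {O' : Subring F2} {ϖ1 : F1}
    (h : ∀ a, a ∈ O → ι a ∈ O') {a : F1} {n : ℕ} (ha : DivS O ϖ1 n a) :
    DivS O' (ι ϖ1) n (ι a) := by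
  obtain ⟨y, hy, rfl⟩ := ha
  exact ⟨ι y, h y hy, by rw [map_mul, map_pow]⟩

/-- `ϖ O ⊆ t O` when `t ^ (q - 1) / ϖ` is a unit. -/
theorem divS_t {OM : Subring F2} {ϖ t : F2} {q : ℕ} (hq : 2 ≤ q) (ht : t ∈ OM) (hϖ : ϖ ≠ 0)
    (ram : IsU OM (t ^ (q - 1) / ϖ)) {y : F2} (h : DivS OM ϖ 1 y) : DivS OM t 1 y := by
  obtain ⟨c, hc, rfl⟩ := h
  obtain ⟨k, rfl⟩ : ∃ k, q = k + 2 := ⟨q - 2, by omega⟩
  have h0 := ram.ne_zero
  refine ⟨t ^ k * (t ^ (k + 2 - 1) / ϖ)⁻¹ * c,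
    OM.mul_mem (OM.mul_mem (OM.pow_mem ht k) ram.inv_mem) hc, ?_⟩
  have ht0 : t ≠ 0 := by
    rintro rfl
    apply h0
    simp
  have e : k + 2 - 1 = k + 1 := by omega
  rw [e]
  field_simp
  ring

/-- evaluation modulo `π`. -/
theorem eval_cong {ι : F1 →+* F2} {O : Subring F1} {O' : Subring F2} {π : F2}
    (h : ∀ a, a ∈ O → ι a ∈ O') {z : F2} {c : F1} (hz : z ∈ O') (hc : c ∈ O)
    (hzc : DivS O' π 1 (z - ι c)) (P : F1[X]) (hP : ∀ n, P.coeff n ∈ O) :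
    P.eval c ∈ O ∧ DivS O' π 1 (eval₂ ι z P - ι (P.eval c)) := by
  constructor
  · rw [eval_eq_sum_range]
    exact Subring.sum_mem _ fun i _ => O.mul_mem (hP i) (O.pow_mem hc i)
  · rw [eval₂_eq_sum_range, eval_eq_sum_range, map_sum, ← Finset.sum_sub_distrib]
    refine divS_sum _ _ _ fun i _ => ?_
    rw [map_mul, map_pow, ← mul_sub]
    exact (cong_pow hz (h c hc) hzc i).mul_left (h _ (hP i))

/-- The membership rules at the level `q²`. -/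
structure Mem3 (q : ℕ) (O1 O2 : Subring F1) (ϖ1 : F1) (OF OM OV : Subring F2) (ϖ t : F2)
    (al be : F1 →+* F2) : Prop where
  hq : 2 ≤ q
  dv1 : IsDV O1 ϖ1
  dv2 : IsDV O2 ϖ1
  dvF : IsDV OF ϖ
  dvM : IsDV OM t
  dvV : IsDV OV ϖ
  al_unif : al ϖ1 = ϖ
  be_unif : be ϖ1 = ϖ
  ram : IsU OM (t ^ (q - 1) / ϖ)
  al_F : ∀ a, al a ∈ OF ↔ a ∈ O1
  al_M : ∀ a, al a ∈ OM ↔ a ∈ O1
  al_V : ∀ a, al a ∈ OV ↔ a ∈ O2
  be_F : ∀ a, be a ∈ OF ↔ a ∈ O1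
  be_M : ∀ a, be a ∈ OM ↔ a ∈ O2
  be_V : ∀ a, be a ∈ OV ↔ a ∈ O2

namespace Mem3

variable {q : ℕ} {O1 O2 : Subring F1} {ϖ1 : F1} {OF OM OV : Subring F2} {ϖ t : F2}
  {al be : F1 →+* F2}

theorem swap (H : Mem3 q O1 O2 ϖ1 OF OM OV ϖ t al be) : Mem3 q O2 O1 ϖ1 OV OM OF ϖ t be al where
  hq := H.hq
  dv1 := H.dv2
  dv2 := H.dv1
  dvF := H.dvV
  dvM := H.dvM
  dvV := H.dvF
  al_unif := H.be_unif
  be_unif := H.al_unif
  ram := H.ram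
  al_F := H.be_V
  al_M := H.be_M
  al_V := H.be_F
  be_F := H.al_V
  be_M := H.al_M
  be_V := H.al_F

variable (H : Mem3 q O1 O2 ϖ1 OF OM OV ϖ t al be)

include H

theorem alF {a : F1} (h : DivS O1 ϖ1 1 a) : DivS OF ϖ 1 (al a) := by
  have := divS_map (ι := al) (O' := OF) (fun a ha => (H.al_F a).2 ha) h
  rwa [H.al_unif] at this

theorem alM' {a : F1} (h : DivS O1 ϖ1 1 a) : DivS OM ϖ 1 (al a) := by
  have := divS_map (ι := al) (O' := OM) (fun a ha => (H.al_M a).2 ha) h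
  rwa [H.al_unif] at this

theorem alM {a : F1} (h : DivS O1 ϖ1 1 a) : DivS OM t 1 (al a) :=
  divS_t H.hq H.dvM.mem H.dvF.ne_zero H.ram (H.alM' h)

theorem alV {a : F1} (h : DivS O2 ϖ1 1 a) : DivS OV ϖ 1 (al a) := by
  have := divS_map (ι := al) (O' := OV) (fun a ha => (H.al_V a).2 ha) h
  rwa [H.al_unif] at this

theorem beF {a : F1} (h : DivS O1 ϖ1 1 a) : DivS OF ϖ 1 (be a) := H.swap.alV h
theorem beM {a : F1} (h : DivS O2 ϖ1 1 a) : DivS OM t 1 (be a) := H.swap.alM h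
theorem beV {a : F1} (h : DivS O2 ϖ1 1 a) : DivS OV ϖ 1 (be a) := H.swap.alF h

theorem idemF (e : F1) (he : e ∈ O1 ⊓ O2) (h1 : DivS O1 ϖ1 1 (e - 1)) (h2 : DivS O2 ϖ1 1 e) :
    ∃ e, e ∈ OF ∧ e ∈ OM ∧ e ∈ OV ∧ DivS OF ϖ 1 (e - 1) ∧ DivS OM t 1 e ∧ DivS OV ϖ 1 e := by
  refine ⟨be e, (H.be_F e).2 he.1, (H.be_M e).2 he.2, (H.be_V e).2 he.2, ?_, H.beM h2, H.beV h2⟩
  have := H.beF h1
  rwa [map_sub, map_one] at this

theorem idemV (e : F1) (he : e ∈ O1 ⊓ O2) (h1 : DivS O1 ϖ1 1 (e - 1)) (h2 : DivS O2 ϖ1 1 e) :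
    ∃ e, e ∈ OF ∧ e ∈ OM ∧ e ∈ OV ∧ DivS OF ϖ 1 e ∧ DivS OM t 1 e ∧ DivS OV ϖ 1 (e - 1) := by
  have he1 : 1 - e ∈ O1 := O1.sub_mem O1.one_mem he.1
  have he2 : 1 - e ∈ O2 := O2.sub_mem O2.one_mem he.2
  have h1' : DivS O1 ϖ1 1 (1 - e) := by rw [← neg_sub]; exact h1.neg
  refine ⟨al (1 - e), (H.al_F _).2 he1, (H.al_M _).2 he1, (H.al_V _).2 he2, H.alF h1', H.alM h1',
    ?_⟩
  have := H.alV h2.neg
  have e' : al (1 - e) - 1 = al (-e) := by rw [map_sub, map_one, map_neg]; ring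
  rwa [e']

theorem idemM (e : F1) (he : e ∈ O1 ⊓ O2) (h1 : DivS O1 ϖ1 1 (e - 1)) (h2 : DivS O2 ϖ1 1 e) :
    ∃ e, e ∈ OF ∧ e ∈ OM ∧ e ∈ OV ∧ DivS OF ϖ 1 e ∧ DivS OM t 1 (e - 1) ∧ DivS OV ϖ 1 e := by
  have he1 : 1 - e ∈ O1 := O1.sub_mem O1.one_mem he.1
  have he2 : 1 - e ∈ O2 := O2.sub_mem O2.one_mem he.2
  have h1' : DivS O1 ϖ1 1 (1 - e) := by rw [← neg_sub]; exact h1.neg
  refine ⟨al e * be (1 - e), OF.mul_mem ((H.al_F _).2 he.1) ((H.be_F _).2 he1),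
    OM.mul_mem ((H.al_M _).2 he.1) ((H.be_M _).2 he2),
    OV.mul_mem ((H.al_V _).2 he.2) ((H.be_V _).2 he2),
    (H.beF h1').mul_left ((H.al_F _).2 he.1), ?_, (H.alV h2).mul_right ((H.be_V _).2 he2)⟩
  have e' : al e * be (1 - e) - 1 = al (e - 1) * be (1 - e) - be e := by
    simp only [map_sub, map_one]; ring
  rw [e']
  exact ((H.alM h1).mul_right ((H.be_M _).2 he2)).sub (H.beM h2)

/-- residue surjectivity at `OF`. -/
theorem surjF {x : F1} {z : F2} (HO : Orth3 al O1 O2 ϖ1 OF OM OV q x z)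
    (span : ∀ f : F2, ∃ P : F1[X], P.natDegree < q ∧ f = eval₂ al z P)
    (e : F1) (he : e ∈ O1 ⊓ O2) (h1 : DivS O1 ϖ1 1 (e - 1)) (h2 : DivS O2 ϖ1 1 e)
    (c : F1) (hc : c ∈ O1) (hzc : DivS OF ϖ 1 (z - al c)) :
    ∀ u ∈ OF, ∃ a ∈ O1, DivS OF ϖ 1 (u - al a) := by
  intro u hu
  obtain ⟨E, hEF, hEM, hEV, hE1, hE2, hE3⟩ := H.idemF e he h1 h2
  obtain ⟨u', hF, hM, hV, huu⟩ := approx H.dvM H.dvV E hEF hEM hEV hE1 hE2 hE3 u hu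
  obtain ⟨P, hP, rfl⟩ := span u'
  have hco := (HO.mem_iff P hP).1 ⟨⟨hF, hM⟩, hV⟩
  obtain ⟨ha, hcong⟩ := eval_cong (ι := al) (O := O1) (O' := OF) (π := ϖ)
    (fun a ha => (H.al_F a).2 ha) HO.z_mem.1.1 hc hzc P (fun n => (hco n).1)
  exact ⟨_, ha, DivS.trans huu hcong⟩

/-- residue surjectivity at `OM`. -/
theorem surjM {x : F1} {z : F2} (HO : Orth3 al O1 O2 ϖ1 OF OM OV q x z)
    (ht : DivS OM t 1 (z - al x))
    (span : ∀ f : F2, ∃ P : F1[X], P.natDegree < q ∧ f = eval₂ al z P)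
    (e : F1) (he : e ∈ O1 ⊓ O2) (h1 : DivS O1 ϖ1 1 (e - 1)) (h2 : DivS O2 ϖ1 1 e) :
    ∀ u ∈ OM, ∃ a ∈ O1, DivS OM t 1 (u - al a) := by
  intro u hu
  obtain ⟨E, hEF, hEM, hEV, hE1, hE2, hE3⟩ := H.idemM e he h1 h2
  obtain ⟨u', hM, hF, hV, huu⟩ := approx H.dvF H.dvV E hEM hEF hEV hE2 hE1 hE3 u hu
  obtain ⟨P, hP, rfl⟩ := span u'
  have hco := (HO.mem_iff P hP).1 ⟨⟨hF, hM⟩, hV⟩
  obtain ⟨ha, hcong⟩ := eval_cong (ι := al) (O := O1) (O' := OM) (π := t)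
    (fun a ha => (H.al_M a).2 ha) HO.z_mem.1.2 HO.x_mem.1 ht P
    (fun n => (hco n).1)
  exact ⟨_, ha, DivS.trans huu hcong⟩

end Mem3

end G3a

end Fermat.Agent.S36
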