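import Mathlib

/-!
# S36, block G-REG, piece [GEN] : `A` is monogenic over `C` at a maximal ideal `n0` of `C`

`C → A` finite, `n0` maximal in `C`.  `MonoAt n0 y0` : `A_(n0) = C_(n0)[y0]`.
* `monoAt_of_nakayama` : `A = C[y0] + n0 A` suffices;
* `monoAt_of_iter` : `A = C[y0] + P A + n0 A`, `P ∈ C[y0]` nilpotent modulo `n0 A`, suffices;
* `monoAt_node` : one point over `n0`, with residue field `C / n0` and local generator `y0`;
* `monoAt_two` : two points over `n0`, local generators `y0` and `y0 - c`.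
-/

set_option autoImplicit false

namespace Fermat.Agent.S36

variable {C A : Type*} [CommRing C] [CommRing A] [Algebra C A]

/-- `A_(n0) = C_(n0)[y0]`. -/
def MonoAt (n0 : Ideal C) (y0 : A) : Prop :=
  ∀ a : A, ∃ s : C, s ∉ n0 ∧ s • a ∈ Algebra.adjoin C {y0}

/-- **[GEN-0]** Nakayama. -/
theorem monoAt_of_nakayama [Module.Finite C A] (n0 : Ideal C) (hn0 : n0 ≠ ⊤) (y0 : A)
    (h : ∀ a : A, ∃ g ∈ Algebra.adjoin C {y0}, a - g ∈ n0.map (algebraMap C A)) :
    MonoAt n0 y0 := by
  set N : Submodule C A := Subalgebra.toSubmodule (Algebra.adjoin C {y0}) with hN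
  have hfg : (⊤ : Submodule C (A ⧸ N)).FG := Module.Finite.fg_top
  have hle : (⊤ : Submodule C (A ⧸ N)) ≤ n0 • (⊤ : Submodule C (A ⧸ N)) := by
    intro x _
    obtain ⟨a, rfl⟩ := N.mkQ_surjective x
    obtain ⟨g, hg, hag⟩ := h a
    have e1 : N.mkQ a = N.mkQ (a - g) := by
      rw [map_sub]
      have : N.mkQ g = 0 := by
        rw [Submodule.mkQ_apply, Submodule.Quotient.mk_eq_zero]; exact hg
      rw [this, sub_zero]
    rw [e1]
    have h2 : a - g ∈ n0 • (⊤ : Submodule C A) := by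
      rw [Ideal.smul_top_eq_map]; exact hag
    have h3 : N.mkQ (a - g) ∈ (n0 • (⊤ : Submodule C A)).map N.mkQ :=
      Submodule.mem_map_of_mem h2
    rw [Submodule.map_smul''] at h3
    exact Submodule.smul_mono le_rfl le_top h3
  obtain ⟨r, hr1, hr⟩ :=
    Submodule.exists_sub_one_mem_and_smul_eq_zero_of_fg_of_le_smul n0 ⊤ hfg hle
  intro a
  refine ⟨r, ?_, ?_⟩
  · intro hrn
    apply hn0
    rw [Ideal.eq_top_iff_one]
    have := n0.sub_mem hrn hr1
    simpa using this
  · have h4 := hr (N.mkQ a) trivial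
    rw [← map_smul, Submodule.mkQ_apply, Submodule.Quotient.mk_eq_zero] at h4
    exact h4

/-- **[GEN-1]** iteration. -/
theorem monoAt_of_iter [Module.Finite C A] (n0 : Ideal C) (hn0 : n0 ≠ ⊤) (y0 P : A)
    (hP : P ∈ Algebra.adjoin C {y0}) (k : ℕ) (hk : P ^ k ∈ n0.map (algebraMap C A))
    (h : ∀ a : A, ∃ g ∈ Algebra.adjoin C {y0}, ∃ b : A,
      a - g - P * b ∈ n0.map (algebraMap C A)) :
    MonoAt n0 y0 := by
  have key : ∀ j : ℕ, ∀ a : A, ∃ g ∈ Algebra.adjoin C {y0}, ∃ b : A,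
      a - g - P ^ j * b ∈ n0.map (algebraMap C A) := by
    intro j
    induction j with
    | zero =>
      intro a
      exact ⟨0, Subalgebra.zero_mem _, a, by simp⟩
    | succ j ih =>
      intro a
      obtain ⟨g, hg, b, hb⟩ := ih a
      obtain ⟨g', hg', b', hb'⟩ := h b
      refine ⟨g + P ^ j * g', Subalgebra.add_mem _ hg
        (Subalgebra.mul_mem _ (Subalgebra.pow_mem _ hP j) hg'), b', ?_⟩
      have e : a - (g + P ^ j * g') - P ^ (j + 1) * b'
          = (a - g - P ^ j * b) + P ^ j * (b - g' - P * b') := by ring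
      rw [e]
      exact Ideal.add_mem _ hb (Ideal.mul_mem_left _ _ hb')
  refine monoAt_of_nakayama n0 hn0 y0 (fun a => ?_)
  obtain ⟨g, hg, b, hb⟩ := key k a
  refine ⟨g, hg, ?_⟩
  have e : a - g = (a - g - P ^ k * b) + P ^ k * b := by ring
  rw [e]
  exact Ideal.add_mem _ hb (Ideal.mul_mem_right _ _ hk)

/-- membership in an ideal is local. -/
theorem mem_of_forall_maximal (I : Ideal A) (w : A)
    (h : ∀ m : Ideal A, m.IsMaximal → I ≤ m → ∃ t, t ∉ m ∧ t * w ∈ I) : w ∈ I := by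
  by_contra hw
  let J : Ideal A :=
    { carrier := {t | t * w ∈ I}
      add_mem' := by
        intro a b ha hb
        show (a + b) * w ∈ I
        rw [add_mul]; exact I.add_mem ha hb
      zero_mem' := by
        show (0 : A) * w ∈ I
        rw [zero_mul]; exact I.zero_mem
      smul_mem' := by
        intro c x hx
        show (c • x) * w ∈ I
        rw [smul_eq_mul, mul_assoc]; exact I.mul_mem_left c hx }
  have hJ : J ≠ ⊤ := by
    intro hJ
    have h1 : (1 : A) ∈ J := by rw [hJ]; trivial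
    have h2 : (1 : A) * w ∈ I := h1
    rw [one_mul] at h2
    exact hw h2
  obtain ⟨m, hm, hJm⟩ := Ideal.exists_le_maximal J hJ
  have hIJ : I ≤ J := fun t ht => I.mul_mem_right w ht
  obtain ⟨t, htm, ht⟩ := h m hm (hIJ.trans hJm)
  exact htm (hJm ht)

/-- an element lying in all the maximal ideals over `n0` is nilpotent modulo `n0 A`. -/
theorem exists_pow_mem_map [Module.Finite C A] (n0 : Ideal C) [n0.IsMaximal] (P : A)
    (h : ∀ m : Ideal A, m.IsMaximal → n0.map (algebraMap C A) ≤ m → P ∈ m) :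
    ∃ k : ℕ, P ^ k ∈ n0.map (algebraMap C A) := by
  have hrad : P ∈ (n0.map (algebraMap C A)).radical := by
    rw [Ideal.radical_eq_sInf, Ideal.mem_sInf]
    rintro J ⟨hJ, hJp⟩
    have hc : J.comap (algebraMap C A) = n0 := by
      have h1 : n0 ≤ J.comap (algebraMap C A) := Ideal.map_le_iff_le_comap.1 hJ
      have h2 : J.comap (algebraMap C A) ≠ ⊤ := (Ideal.comap_isPrime _ J).ne_top
      exact ((Ideal.IsMaximal.eq_of_le inferInstance h2 h1)).symm
    have hmax : J.IsMaximal := by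
      have : Algebra.IsIntegral C A := Algebra.IsIntegral.of_finite C A
      refine Ideal.isMaximal_of_isIntegral_of_isMaximal_comap (R := C) J ?_
      rw [hc]; infer_instance
    exact h J hmax hJ
  exact hrad

/-- **[GEN-N]** one point over `n0`. -/
theorem monoAt_node [Module.Finite C A] (n0 : Ideal C) [n0.IsMaximal] (n : Ideal A) (y0 : A)
    (huniq : ∀ m : Ideal A, m.IsMaximal → n0.map (algebraMap C A) ≤ m → m = n)
    (hres : ∀ a : A, ∃ c : C, a - algebraMap C A c ∈ n)
    (hy : y0 ∈ n)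
    (hgen : ∀ u ∈ n, ∃ t, t ∉ n ∧ t * u ∈ Ideal.span {y0} ⊔ n0.map (algebraMap C A)) :
    MonoAt n0 y0 := by
  obtain ⟨k, hk⟩ := exists_pow_mem_map n0 y0 (fun m hm hle => by rw [huniq m hm hle]; exact hy)
  refine monoAt_of_iter n0 (Ideal.IsMaximal.ne_top inferInstance) y0 y0
    (Algebra.subset_adjoin (Set.mem_singleton _)) k hk (fun a => ?_)
  obtain ⟨c, hc⟩ := hres a
  have h1 : a - algebraMap C A c ∈ Ideal.span {y0} ⊔ n0.map (algebraMap C A) := by
    refine mem_of_forall_maximal _ _ (fun m hm hle => ?_)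
    have hmn : m = n := huniq m hm (le_sup_right.trans hle)
    rw [hmn]
    exact hgen _ hc
  obtain ⟨u, hu, v, hv, huv⟩ := Submodule.mem_sup.1 h1
  obtain ⟨b, rfl⟩ := Ideal.mem_span_singleton'.1 hu
  refine ⟨algebraMap C A c, Subalgebra.algebraMap_mem _ c, b, ?_⟩
  have e : a - algebraMap C A c - y0 * b = v := by rw [← huv]; ring
  rw [e]; exact hv

/-- **[GEN-O]** two points over `n0`. -/
theorem monoAt_two [Module.Finite C A] (n0 : Ideal C) [n0.IsMaximal] (n1 n2 : Ideal A)
    (hn1 : n1.IsPrime) (hn2 : n2.IsPrime)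
    (h01 : n0.map (algebraMap C A) ≤ n1) (h02 : n0.map (algebraMap C A) ≤ n2) (y0 : A) (c : C)
    (hc : c ∉ n0)
    (huniq : ∀ m : Ideal A, m.IsMaximal → n0.map (algebraMap C A) ≤ m → m = n1 ∨ m = n2)
    (hres1 : ∀ a : A, ∃ d : C, a - algebraMap C A d ∈ n1)
    (hres2 : ∀ a : A, ∃ d : C, a - algebraMap C A d ∈ n2)
    (hy1 : y0 ∈ n1) (hy2 : y0 - algebraMap C A c ∈ n2)
    (hgen1 : ∀ u ∈ n1, ∃ t, t ∉ n1 ∧ t * u ∈ Ideal.span {y0} ⊔ n0.map (algebraMap C A))
    (hgen2 : ∀ u ∈ n2, ∃ t, t ∉ n2 ∧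
      t * u ∈ Ideal.span {y0 - algebraMap C A c} ⊔ n0.map (algebraMap C A)) :
    MonoAt n0 y0 := by
  have hy0 : y0 ∈ Algebra.adjoin C {y0} := Algebra.subset_adjoin (Set.mem_singleton _)
  have hcomap : ∀ m : Ideal A, m.IsPrime → n0.map (algebraMap C A) ≤ m →
      ∀ d : C, algebraMap C A d ∈ m → d ∈ n0 := by
    intro m hm hle d hd
    have h1 : n0 ≤ m.comap (algebraMap C A) := Ideal.map_le_iff_le_comap.1 hle
    have h2 : m.comap (algebraMap C A) ≠ ⊤ := (Ideal.comap_isPrime _ m).ne_top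
    have h3 := Ideal.IsMaximal.eq_of_le (inferInstance : n0.IsMaximal) h2 h1
    rw [h3]; exact hd
  -- `c ∉ n1`, `c ∉ n2`
  have hc1 : algebraMap C A c ∉ n1 := fun h => hc (hcomap n1 hn1 h01 c h)
  have hc2 : algebraMap C A c ∉ n2 := fun h => hc (hcomap n2 hn2 h02 c h)
  have hyc1 : y0 - algebraMap C A c ∉ n1 := by
    intro h
    apply hc1
    have := n1.sub_mem hy1 h
    simpa using this
  have hyc2 : y0 ∉ n2 := by
    intro h
    apply hc2
    have := n2.sub_mem h hy2
    simpa using this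
  set P : A := y0 * (y0 - algebraMap C A c) with hPdef
  have hP : P ∈ Algebra.adjoin C {y0} :=
    Subalgebra.mul_mem _ hy0 (Subalgebra.sub_mem _ hy0 (Subalgebra.algebraMap_mem _ c))
  obtain ⟨k, hk⟩ := exists_pow_mem_map n0 P (fun m hm hle => by
    rcases huniq m hm hle with h | h
    · rw [h]; exact n1.mul_mem_right _ hy1
    · rw [h]; exact n2.mul_mem_left _ hy2)
  -- inverse of `c` modulo `n0`
  obtain ⟨u, hu⟩ : ∃ u : C, u * c - 1 ∈ n0 := by
    obtain ⟨u, hu⟩ := Ideal.Quotient.exists_inv (I := n0)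
      (a := Ideal.Quotient.mk n0 c) (by
        intro h; exact hc (Ideal.Quotient.eq_zero_iff_mem.1 h))
    obtain ⟨u, rfl⟩ := Ideal.Quotient.mk_surjective u
    refine ⟨u, ?_⟩
    rw [← Ideal.Quotient.eq_zero_iff_mem, map_sub, map_mul, map_one, mul_comm, hu, sub_self]
  refine monoAt_of_iter n0 (Ideal.IsMaximal.ne_top inferInstance) y0 P hP k hk (fun a => ?_)
  obtain ⟨a1, ha1⟩ := hres1 a
  obtain ⟨a2, ha2⟩ := hres2 a
  set g : A := algebraMap C A a1 + algebraMap C A ((a2 - a1) * u) * y0 with hg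
  have hgmem : g ∈ Algebra.adjoin C {y0} :=
    Subalgebra.add_mem _ (Subalgebra.algebraMap_mem _ _)
      (Subalgebra.mul_mem _ (Subalgebra.algebraMap_mem _ _) hy0)
  have hw1 : a - g ∈ n1 := by
    have e : a - g = (a - algebraMap C A a1) - algebraMap C A ((a2 - a1) * u) * y0 := by
      rw [hg]; ring
    rw [e]
    exact n1.sub_mem ha1 (n1.mul_mem_left _ hy1)
  have hw2 : a - g ∈ n2 := by
    have e : a - g = (a - algebraMap C A a2)
        - algebraMap C A ((a2 - a1) * u) * (y0 - algebraMap C A c)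
        - algebraMap C A (a2 - a1) * algebraMap C A (u * c - 1) := by
      rw [hg]; simp only [map_sub, map_mul, map_one]; ring
    rw [e]
    refine n2.sub_mem (n2.sub_mem ha2 (n2.mul_mem_left _ hy2)) (n2.mul_mem_left _ ?_)
    exact h02 (Ideal.mem_map_of_mem _ hu)
  have h1 : a - g ∈ Ideal.span {P} ⊔ n0.map (algebraMap C A) := by
    refine mem_of_forall_maximal _ _ (fun m hm hle => ?_)
    rcases huniq m hm (le_sup_right.trans hle) with hmn | hmn
    · rw [hmn]
      obtain ⟨t, ht, htu⟩ := hgen1 _ hw1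
      refine ⟨(y0 - algebraMap C A c) * t, fun h => ?_, ?_⟩
      · rcases hn1.mem_or_mem h with h | h
        · exact hyc1 h
        · exact ht h
      · obtain ⟨x, hx, v, hv, hxv⟩ := Submodule.mem_sup.1 htu
        obtain ⟨b, rfl⟩ := Ideal.mem_span_singleton'.1 hx
        have e : (y0 - algebraMap C A c) * t * (a - g)
            = b * P + (y0 - algebraMap C A c) * v := by
          rw [mul_assoc, ← hxv, hPdef]; ring
        rw [e]
        exact Ideal.add_mem _
          (Ideal.mem_sup_left (Ideal.mul_mem_left _ _ (Ideal.mem_span_singleton_self _)))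
          (Ideal.mem_sup_right (Ideal.mul_mem_left _ _ hv))
    · rw [hmn]
      obtain ⟨t, ht, htu⟩ := hgen2 _ hw2
      refine ⟨y0 * t, fun h => ?_, ?_⟩
      · rcases hn2.mem_or_mem h with h | h
        · exact hyc2 h
        · exact ht h
      · obtain ⟨x, hx, v, hv, hxv⟩ := Submodule.mem_sup.1 htu
        obtain ⟨b, rfl⟩ := Ideal.mem_span_singleton'.1 hx
        have e : y0 * t * (a - g) = b * P + y0 * v := by
          rw [mul_assoc, ← hxv, hPdef]; ring
        rw [e]
        exact Ideal.add_mem _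
          (Ideal.mem_sup_left (Ideal.mul_mem_left _ _ (Ideal.mem_span_singleton_self _)))
          (Ideal.mem_sup_right (Ideal.mul_mem_left _ _ hv))
  obtain ⟨x, hx, v, hv, hxv⟩ := Submodule.mem_sup.1 h1
  obtain ⟨b, rfl⟩ := Ideal.mem_span_singleton'.1 hx
  refine ⟨g, hgmem, b, ?_⟩
  have e : a - g - P * b = v := by rw [← hxv]; ring
  rw [e]; exact hv

end Fermat.Agent.S36
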