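import Fermat.Agent.S36.GenNode
import Fermat.Agent.S35.GChartT
import Fermat.Agent.S35.GNorm
import Fermat.Agent.S34.NGen

/-!
# S36, block G-REG, piece [GEN] : monogenicity at a node, instance on `T : Two D q`

`C = X.chart`, `B = T.chart X`, `φ = T.al`.  At a node `n` of `B`, for every `y ∈ p1` which
generates `n` locally modulo `p2` : `B_(n0) = C_(n0)[y]`, and the minimal polynomial `g` of `y`
over `α(F0)` is monic of degree `q + 1` with coefficients in `C`.
-/

set_option autoImplicit false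
set_option linter.unusedSectionVars false
set_option linter.unusedVariables false
set_option linter.style.haveILetI false

noncomputable section

namespace Fermat.Agent.S36

open ModularCurve Polynomial
open Fermat.Agent.S34 Fermat.Agent.S35 Fermat.Agent.ES Fermat.Agent.ES.QE Fermat.Agent.ES.Model

variable {R K k : Type*} [CommRing R] [IsDomain R] [IsNoetherianRing R] [IsIntegrallyClosed R]
  [Field K] [Algebra R K] [IsFractionRing R K] [Field k]

namespace GenT

variable {D : QData R K k} {q : ℕ} [NeZero q] (T : Two D q) (X : D.Coord)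

/-- finiteness of `B` over `C` along a ring homomorphism `γ : C → B` over `R[x]`. -/
theorem finite_chart [CharZero K] (γ : X.chart →+* T.chart X)
    (hγ : ∀ σ : R[X], ((γ (NRed.phiC X σ) : T.chart X) : T.F) = T.phiT X σ) :
    letI := γ.toAlgebra
    Module.Finite X.chart (T.chart X) := by
  letI aC : Algebra X.chart (T.chart X) := γ.toAlgebra
  obtain ⟨a1, a2, a3, t1, fd, sep, t2, ic, hmap⟩ := GenInt.setup (T.phiT X) (T.phiT_injective X)
    T.bT (T.exists_span X) (T.chart X) (T.mem_chart_iff X)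
  have hfin : Module.Finite R[X] (T.chart X) :=
    IsIntegralClosure.finite R[X] (FractionRing R[X]) T.F (T.chart X)
  letI a4 : Algebra R[X] X.chart := (NRed.phiC X).toAlgebra
  haveI t3 : IsScalarTower R[X] X.chart (T.chart X) := by
    refine IsScalarTower.of_algebraMap_eq (fun σ => Subtype.ext ?_)
    have h1 : ((algebraMap R[X] (T.chart X) σ : T.chart X) : T.F) = T.phiT X σ := by
      rw [← hmap σ]
      exact (IsScalarTower.algebraMap_apply R[X] (T.chart X) T.F σ).symm
    rw [h1]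
    exact (hγ σ).symm
  exact Module.Finite.of_restrictScalars_finite R[X] X.chart (T.chart X)

/-- from `Algebra.adjoin` to polynomials over `F0` with coefficients in `C`. -/
theorem exists_poly_of_adjoin (φ : D.F0 →+* T.F) (γ : X.chart →+* T.chart X)
    (hγ : ∀ c : X.chart, ((γ c : T.chart X) : T.F) = φ (c : D.F0)) (y a : T.chart X)
    (h : letI := γ.toAlgebra; a ∈ Algebra.adjoin X.chart {y}) :
    ∃ P : D.F0[X], (∀ i, P.coeff i ∈ X.chart) ∧ (a : T.F) = eval₂ φ (y : T.F) P := by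
  letI aC : Algebra X.chart (T.chart X) := γ.toAlgebra
  rw [Algebra.adjoin_singleton_eq_range_aeval] at h
  obtain ⟨P, rfl⟩ := h
  refine ⟨P.map X.chart.subtype, fun i => ?_, ?_⟩
  · rw [coeff_map]; exact (P.coeff i).2
  · rw [eval₂_map]
    have e1 : ((aeval y P : T.chart X) : T.F)
        = eval₂ ((T.chart X).subtype.comp γ) (y : T.F) P := by
      exact hom_eval₂ P γ (T.chart X).subtype y
    have e2 : (T.chart X).subtype.comp γ = φ.comp X.chart.subtype := RingHom.ext fun c => hγ c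
    change ((aeval y P : T.chart X) : T.F) = _
    rw [e1, e2]

/-- the minimal polynomial over `φ(F0)` of an element of the chart. -/
theorem exists_minpoly (φ : D.F0 →+* T.F)
    (hφ : ∀ σ : R[X], φ (X.phiF σ) = T.phiT X σ)
    (hfr : letI := φ.toAlgebra; Module.finrank D.F0 T.F = q + 1)
    (y : T.chart X) (s : D.F0) (hs : s ≠ 0)
    (hfrac : ∀ f : T.F, ∃ a ∈ T.chart X, ∃ b ∈ T.chart X, b ≠ 0 ∧ f * b = a)
    (hmono : ∀ a : T.chart X, ∃ P : D.F0[X], φ s * (a : T.F) = eval₂ φ (y : T.F) P) :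
    ∃ g : D.F0[X], g.Monic ∧ (∀ i, g.coeff i ∈ X.chart) ∧ g.natDegree = q + 1 ∧
      eval₂ φ (y : T.F) g = 0 ∧ (letI := φ.toAlgebra; g = minpoly D.F0 (y : T.F)) := by
  letI a1 : Algebra D.F0 T.F := φ.toAlgebra
  letI a2 : Algebra R[X] D.F0 := X.phiF.toAlgebra
  have hfd : FiniteDimensional D.F0 T.F := Module.finite_of_finrank_pos (by rw [hfr]; omega)
  have hint : IsIntegral D.F0 (y : T.F) := Algebra.IsIntegral.isIntegral _
  refine ⟨minpoly D.F0 (y : T.F), minpoly.monic hint, fun i => ?_, ?_, ?_, rfl⟩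
  · -- coefficients
    obtain ⟨P, hP, hroot⟩ := (T.mem_chart_iff X _).1 y.2
    have hdvd : minpoly D.F0 (y : T.F) ∣ P.map (algebraMap R[X] D.F0) := by
      refine minpoly.dvd _ _ ?_
      rw [aeval_def, eval₂_map]
      have : (algebraMap D.F0 T.F).comp (algebraMap R[X] D.F0) = T.phiT X :=
        RingHom.ext fun σ => hφ σ
      rw [this, hroot]
    obtain ⟨p, hp, hp0⟩ := Polynomial.isIntegral_coeff_of_dvd P _ hP (minpoly.monic hint) hdvd i
    refine ⟨p, hp, ?_⟩
    have := hom_eval₂ p (algebraMap R[X] D.F0) (algebraMap D.F0 (LaurentSeries K))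
      ((minpoly D.F0 (y : T.F)).coeff i)
    rw [hp0, map_zero] at this
    exact this.symm
  · -- degree
    have htop : IntermediateField.adjoin D.F0 {(y : T.F)} = ⊤ := by
      rw [eq_top_iff]
      intro f _
      have hy : (y : T.F) ∈ IntermediateField.adjoin D.F0 {(y : T.F)} :=
        IntermediateField.subset_adjoin _ _ (Set.mem_singleton _)
      have hB : ∀ a : T.chart X, (a : T.F) ∈ IntermediateField.adjoin D.F0 {(y : T.F)} := by
        intro a
        obtain ⟨P, hP⟩ := hmono a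
        have h1 : eval₂ φ (y : T.F) P ∈ IntermediateField.adjoin D.F0 {(y : T.F)} := by
          rw [eval₂_eq_sum_range]
          refine sum_mem fun i _ => mul_mem ?_ (pow_mem hy i)
          exact (IntermediateField.adjoin D.F0 {(y : T.F)}).algebraMap_mem _
        have h2 : φ s ≠ 0 := by rwa [Ne, map_eq_zero]
        have h3 : (a : T.F) = (φ s)⁻¹ * eval₂ φ (y : T.F) P := by
          rw [← hP, ← mul_assoc, inv_mul_cancel₀ h2, one_mul]
        rw [h3]
        refine mul_mem (inv_mem ?_) h1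
        exact (IntermediateField.adjoin D.F0 {(y : T.F)}).algebraMap_mem _
      obtain ⟨a, ha, b, hb, hb0, e⟩ := hfrac f
      have h3 : f = a * b⁻¹ := by rw [← e, mul_assoc, mul_inv_cancel₀ hb0, mul_one]
      rw [h3]
      exact mul_mem (hB ⟨a, ha⟩) (inv_mem (hB ⟨b, hb⟩))
    rw [← IntermediateField.adjoin.finrank hint, htop, IntermediateField.finrank_top', hfr]
  · exact minpoly.aeval D.F0 (y : T.F)

/-- **[GEN-N], instance** : `φ = T.al`, at a node. -/
theorem exists_mono_node [CharZero K] (hq : q.Prime) [CharP k q]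
    (hded : IsDedekindDomain (X.chart ⧸ Ideal.span {Inst.ϖB X}))
    (hxq : qExpand k q (D.red X.xW) = D.red X.xW ^ q)
    (Φ : TAut T) (hΦ : ∀ c, Φ.sk c = c ^ q)
    (hΦx : coeffMap (Φ.sR : R →+* R) X.xW = X.xW)
    (n : Ideal (T.chart X)) (hn : n.IsMaximal) (h1 : T.p1 X ≤ n) (h2 : T.p2 X ≤ n)
    (y : T.chart X) (hy : LocGen n (T.p2 X) y) (hy1 : y ∈ T.p1 X) :
    ∃ s : X.chart, NRed.alC X T s ∉ n ∧
      (∀ a : T.chart X, ∃ P : D.F0[X], (∀ i, P.coeff i ∈ X.chart) ∧
        T.al (s : D.F0) * (a : T.F) = eval₂ T.al (y : T.F) P) ∧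
      ∃ g : D.F0[X], g.Monic ∧ (∀ i, g.coeff i ∈ X.chart) ∧ g.natDegree = q + 1 ∧
        eval₂ T.al (y : T.F) g = 0 ∧ (letI := T.al.toAlgebra; g = minpoly D.F0 (y : T.F)) := by
  haveI : Fact q.Prime := ⟨hq⟩
  haveI : IsDedekindDomain (X.chart ⧸ Ideal.span {X.ϖC}) := hded
  have hO : NRed.HOrth T := fun f hf => T.exists_rep_of_mem_O hf
  have hjq := NOrth.qExpand_jq_char q k
  have hle := chart_le_O T X
  have hsat : ∀ x ∈ T.chart X, DivS T.O T.ϖF 1 x → ∃ y ∈ T.chart X, x = T.ϖF * y := by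
    rintro x hx ⟨y, hy, h⟩
    rw [pow_one] at h
    exact ⟨y, chart_sat T X hq hx hy h, h⟩
  have hinf0 := NRed.p1_inf_p2 X T hle hsat
  letI aC : Algebra X.chart (T.chart X) := (NRed.alC X T).toAlgebra
  haveI hfin : Module.Finite X.chart (T.chart X) :=
    finite_chart T X (NRed.alC X T) (fun σ => rfl)
  have hϖe : algebraMap X.chart (T.chart X) X.ϖC = T.ϖB X := rfl
  have hϖ12 : T.ϖB X ∈ T.p1 X ⊓ T.p2 X := by
    rw [hinf0]; exact Ideal.mem_span_singleton_self _
  obtain ⟨hmax, hmono⟩ := monoAt_of_node (C := X.chart) (B := T.chart X) X.ϖC q hq.pos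
    (T.p1 X) (T.p2 X) n hn h1 h2 (by rw [hϖe]; exact hϖ12.1)
    (by
      intro b hb1 hb2
      have : b ∈ T.p1 X ⊓ T.p2 X := ⟨hb1, hb2⟩
      rw [hinf0] at this
      obtain ⟨c, hc⟩ := Ideal.mem_span_singleton'.1 this
      exact ⟨c, by rw [hϖe, ← hc, mul_comm]⟩)
    (by
      intro b
      obtain ⟨c, hc⟩ := NRed.red1 X T hO hjq hle b b.2
      exact ⟨c, (NRed.mem_p1 X T hle _).mpr hc⟩)
    (by
      intro b
      obtain ⟨c0, hc0⟩ := NRed.red2 X T hO hjq hxq hle b b.2
      refine ⟨GChartT.toC X Φ hΦx c0, (NRed.mem_p2 X T hle _).mpr ?_⟩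
      have e1 := NAdm.divS_O2_be_sub_al X T (GChartT.toC X Φ hΦx c0) c0
        (GChartT.qExpand_rhoB_toC X Φ hΦ hΦx c0)
      have e2 : DivS T.O2 T.ϖF 1 ((b : T.F) ^ q - T.be (c0 : D.F0) ^ q) :=
        cong_pow (hle b b.2).2 (NRed.be_mem_O T (X.chart_le_gaussO c0.2)).2 hc0 q
      have e3 : ((b ^ q - algebraMap X.chart (T.chart X) (GChartT.toC X Φ hΦx c0) : T.chart X) : T.F)
          = ((b : T.F) ^ q - T.be (c0 : D.F0) ^ q)
            + (T.be ((c0 : D.F0) ^ q) - T.al ((GChartT.toC X Φ hΦx c0 : X.chart) : D.F0)) := by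
        have : ((b ^ q - algebraMap X.chart (T.chart X) (GChartT.toC X Φ hΦx c0) : T.chart X) : T.F)
          = (b : T.F) ^ q - T.al ((GChartT.toC X Φ hΦx c0 : X.chart) : D.F0) := rfl
        rw [this, map_pow]; ring
      rw [e3]
      exact e2.add e1)
    y hy hy1
  obtain ⟨s, hs, hsa⟩ := hmono.uniform hmax.isPrime
  have hs0 : (s : D.F0) ≠ 0 := by
    intro h0
    apply hs
    have : s = 0 := Subtype.ext h0
    rw [this]
    exact Ideal.zero_mem _
  have hm : ∀ a : T.chart X, ∃ P : D.F0[X], (∀ i, P.coeff i ∈ X.chart) ∧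
      T.al (s : D.F0) * (a : T.F) = eval₂ T.al (y : T.F) P := by
    intro a
    obtain ⟨P, hP, e⟩ := exists_poly_of_adjoin T X T.al (NRed.alC X T) (fun c => rfl) y (s • a)
      (hsa a)
    exact ⟨P, hP, e⟩
  refine ⟨s, hs, hm, ?_⟩
  exact exists_minpoly T X T.al (fun σ => rfl) (GNorm.finrank_al T) y s hs0
    (GChartT.frac T X hq) (fun a => by obtain ⟨P, -, e⟩ := hm a; exact ⟨P, e⟩)

end GenT

end Fermat.Agent.S36
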