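import Fermat.Agent.S36.Gen
import Fermat.Agent.S34.LocDefs

/-!
# S36, block G-REG, piece [GEN] : monogenicity at a node (abstract, rings only)

`C → B` finite, `p1 p2` the two components of `B`, `p1 ⊓ p2 = (ϖ)`, `B = C + p1`
(`C → B ⧸ p1` onto), `B ^ q ⊆ C + p2` (`C → B ⧸ p2` radicial), `n ⊇ p1 + p2` a node,
`y ∈ p1` a local generator of `n` modulo `p2`.  Then `B_(n0) = C_(n0)[y]`, `n0 = n ∩ C`.
-/

set_option autoImplicit false

namespace Fermat.Agent.S36

open Fermat.Agent.S34

variable {C B : Type*} [CommRing C] [CommRing B] [Algebra C B]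

/-- a uniform denominator. -/
theorem MonoAt.uniform [Module.Finite C B] {n0 : Ideal C} (hn0 : n0.IsPrime) {y0 : B}
    (h : MonoAt n0 y0) : ∃ s : C, s ∉ n0 ∧ ∀ a : B, s • a ∈ Algebra.adjoin C {y0} := by
  classical
  obtain ⟨S, hS⟩ := (Module.Finite.fg_top : (⊤ : Submodule C B).FG)
  choose σ hσ hσm using h
  refine ⟨∏ a ∈ S, σ a, ?_, ?_⟩
  · intro hmem
    obtain ⟨a, _, ha⟩ := (hn0.prod_mem_iff).1 hmem
    exact hσ a ha
  · intro a
    have ha : a ∈ Submodule.span C (S : Set B) := by rw [hS]; trivial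
    induction ha using Submodule.span_induction with
    | mem x hx =>
      have e : (∏ a ∈ S, σ a) = (∏ a ∈ S.erase x, σ a) * σ x :=
        (Finset.prod_erase_mul S σ hx).symm
      rw [e, mul_smul]
      exact Subalgebra.smul_mem _ (hσm x) _
    | zero => rw [smul_zero]; exact Subalgebra.zero_mem _
    | add x y _ _ hx hy => rw [smul_add]; exact Subalgebra.add_mem _ hx hy
    | smul c x _ hx => rw [smul_comm]; exact Subalgebra.smul_mem _ hx _

/-- **[GEN-N], two components.** -/
theorem monoAt_of_node [Module.Finite C B] (ϖ0 : C) (q : ℕ) (hq : 0 < q) (p1 p2 n : Ideal B)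
    (hn : n.IsMaximal) (h1 : p1 ≤ n) (h2 : p2 ≤ n)
    (hϖ : algebraMap C B ϖ0 ∈ p1)
    (hinf : ∀ b, b ∈ p1 → b ∈ p2 → ∃ c, b = algebraMap C B ϖ0 * c)
    (hS1 : ∀ b : B, ∃ c : C, b - algebraMap C B c ∈ p1)
    (hS2 : ∀ b : B, ∃ c : C, b ^ q - algebraMap C B c ∈ p2)
    (y : B) (hy : LocGen n p2 y) (hy1 : y ∈ p1) :
    (n.comap (algebraMap C B)).IsMaximal ∧ MonoAt (n.comap (algebraMap C B)) y := by
  have hint : Algebra.IsIntegral C B := Algebra.IsIntegral.of_finite C B
  have hmax : (n.comap (algebraMap C B)).IsMaximal :=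
    Ideal.isMaximal_comap_of_isIntegral_of_isMaximal n
  refine ⟨hmax, ?_⟩
  have hϖ0 : ϖ0 ∈ n.comap (algebraMap C B) := h1 hϖ
  refine monoAt_node (n.comap (algebraMap C B)) n y ?_ ?_ hy.1 ?_
  · -- uniqueness
    intro m hm hle
    have hmp : m.IsPrime := hm.isPrime
    have hC : ∀ c : C, algebraMap C B c ∈ n → algebraMap C B c ∈ m :=
      fun c hc => hle (Ideal.mem_map_of_mem _ hc)
    have hϖm : algebraMap C B ϖ0 ∈ m := hC _ (h1 hϖ)
    have hnm : n ≤ m := by
      by_cases hp1 : p1 ≤ m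
      · intro b hb
        obtain ⟨c, hc⟩ := hS1 b
        have hcn : algebraMap C B c ∈ n := by
          have := n.sub_mem hb (h1 hc)
          simpa using this
        have := m.add_mem (hp1 hc) (hC c hcn)
        simpa using this
      · have hp2 : p2 ≤ m := by
          obtain ⟨a, ha, ham⟩ := SetLike.not_le_iff_exists.1 hp1
          intro b hb
          obtain ⟨c, hc⟩ := hinf (a * b) (p1.mul_mem_right _ ha) (p2.mul_mem_left _ hb)
          have : a * b ∈ m := by rw [hc]; exact m.mul_mem_right _ hϖm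
          exact (hmp.mem_or_mem this).resolve_left ham
        intro b hb
        obtain ⟨c, hc⟩ := hS2 b
        have hcn : algebraMap C B c ∈ n := by
          have := n.sub_mem (n.pow_mem_of_mem hb q hq) (h2 hc)
          simpa using this
        have : b ^ q ∈ m := by
          have := m.add_mem (hp2 hc) (hC c hcn)
          simpa using this
        exact hmp.mem_of_pow_mem q this
    exact (hn.eq_of_le hm.ne_top hnm).symm
  · intro a
    obtain ⟨c, hc⟩ := hS1 a
    exact ⟨c, h1 hc⟩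
  · intro u hu
    obtain ⟨c, hc⟩ := hS1 u
    have hcn : algebraMap C B c ∈ n := by
      have := n.sub_mem hu (h1 hc)
      simpa using this
    obtain ⟨s, hs, d, hd⟩ := hy.2 _ (h1 hc)
    have hd1 : s * (u - algebraMap C B c) - d * y ∈ p1 :=
      p1.sub_mem (p1.mul_mem_left _ hc) (p1.mul_mem_left _ hy1)
    obtain ⟨e, he⟩ := hinf _ hd1 hd
    refine ⟨s, hs, ?_⟩
    have e1 : s * u = d * y + (algebraMap C B ϖ0 * e + s * algebraMap C B c) := by
      rw [← he]; ring
    rw [e1]
    refine Ideal.add_mem _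
      (Ideal.mem_sup_left (Ideal.mul_mem_left _ _ (Ideal.mem_span_singleton_self _)))
      (Ideal.mem_sup_right (Ideal.add_mem _ (Ideal.mul_mem_right _ _ ?_)
        (Ideal.mul_mem_left _ _ ?_)))
    · exact Ideal.mem_map_of_mem _ hϖ0
    · exact Ideal.mem_map_of_mem _ hcn

end Fermat.Agent.S36
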