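import Fermat.Agent.S36.Gen
import Fermat.Agent.S34.NAdm
import Fermat.Agent.S34.NGen
import Fermat.Agent.S34.NFrob

/-!
# S36, block G-REG, piece [GEN], instance at a node

`A = T.chart X` is monogenic over `C = X.chart` (via `α`) at `n0 = α⁻¹ n`, `n` a node, with
generator any `y0 ∈ p1` which generates `n` locally modulo `p2`.
-/

set_option autoImplicit false
set_option linter.unusedSectionVars false
set_option linter.style.haveILetI false

noncomputable section

namespace Fermat.Agent.S36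

open Fermat.Agent.S34 ModularCurve Polynomial
open Fermat.Agent.ES.QE Fermat.Agent.ES.Model

/-- **[GEN-N]**, abstract form with the two components. -/
theorem monoAt_node_abs {C A : Type*} [CommRing C] [CommRing A] [Algebra C A] [Module.Finite C A]
    (ϖ : C) (p1 p2 : Ideal A) [p1.IsPrime] [p2.IsPrime]
    (hp : p1 ⊓ p2 = Ideal.span {algebraMap C A ϖ})
    (red1 : ∀ a : A, ∃ c : C, a - algebraMap C A c ∈ p1)
    (q : ℕ) (hq : q ≠ 0) (frob2 : ∀ a : A, ∃ c : C, a ^ q - algebraMap C A c ∈ p2)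
    (n : Ideal A) [hn : n.IsMaximal] (h1 : p1 ≤ n) (h2 : p2 ≤ n)
    (x y0 : A) (hx : LocGen n p1 x) (hy : LocGen n p2 y0) (hy1 : y0 ∈ p1) :
    MonoAt (n.comap (algebraMap C A)) y0 := by
  haveI : Algebra.IsIntegral C A := Algebra.IsIntegral.of_finite C A
  haveI hn0 : (n.comap (algebraMap C A)).IsMaximal :=
    Ideal.isMaximal_comap_of_isIntegral_of_isMaximal n
  have hϖn : algebraMap C A ϖ ∈ n :=
    h1 (hp.ge (Ideal.mem_span_singleton_self _)).1
  refine monoAt_node _ n y0 ?_ ?_ hy.1 ?_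
  · intro m hm hle
    have hmem : ∀ c : C, algebraMap C A c ∈ n → algebraMap C A c ∈ m := fun c hc =>
      hle (Ideal.mem_map_of_mem _ hc)
    have hmul : p1 * p2 ≤ m :=
      (Ideal.mul_le_inf.trans hp.le).trans ((Ideal.span_singleton_le_iff_mem _).2 (hmem ϖ hϖn))
    have hnm : n ≤ m := by
      rcases (hm.isPrime.mul_le).1 hmul with h | h
      · intro a ha
        obtain ⟨c, hc⟩ := red1 a
        have h3 : algebraMap C A c ∈ n := by
          have := n.sub_mem ha (h1 hc)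
          rwa [sub_sub_cancel] at this
        have := m.add_mem (h hc) (hmem c h3)
        rwa [sub_add_cancel] at this
      · intro a ha
        obtain ⟨c, hc⟩ := frob2 a
        have h3 : algebraMap C A c ∈ n := by
          have := n.sub_mem (n.pow_mem_of_mem ha q (Nat.pos_of_ne_zero hq)) (h2 hc)
          rwa [sub_sub_cancel] at this
        have := m.add_mem (h hc) (hmem c h3)
        rw [sub_add_cancel] at this
        exact hm.isPrime.mem_of_pow_mem q this
    exact (hn.eq_of_le hm.ne_top hnm).symm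
  · intro a
    obtain ⟨c, hc⟩ := red1 a
    exact ⟨c, h1 hc⟩
  · obtain ⟨c, hc⟩ := red1 x
    have hcn : algebraMap C A c ∈ n := by
      have := n.sub_mem hx.1 (h1 hc)
      rwa [sub_sub_cancel] at this
    have hx' : LocGen n p1 (algebraMap C A c) := by
      refine ⟨hcn, fun b hb => ?_⟩
      obtain ⟨s, hs, c', h'⟩ := hx.2 b hb
      refine ⟨s, hs, c', ?_⟩
      have e : s * b - c' * algebraMap C A c = (s * b - c' * x) + c' * (x - algebraMap C A c) := by
        ring
      rw [e]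
      exact p1.add_mem h' (p1.mul_mem_left _ hc)
    intro u hu
    obtain ⟨s, hs, c1, d, e, h⟩ := loc_node _ p1 p2 hp n _ y0 hx' hy hy1 u hu
    refine ⟨s, hs, ?_⟩
    rw [h]
    refine Ideal.add_mem _ (Ideal.add_mem _ ?_ ?_) ?_
    · exact Ideal.mem_sup_right (Ideal.mul_mem_left _ _ (Ideal.mem_map_of_mem _ hcn))
    · exact Ideal.mem_sup_left (Ideal.mul_mem_left _ _ (Ideal.mem_span_singleton_self _))
    · exact Ideal.mem_sup_right (Ideal.mul_mem_left _ _ (Ideal.mem_map_of_mem _ hϖn))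

/-- a uniform denominator. -/
theorem MonoAt.exists_uniform {C A : Type*} [CommRing C] [CommRing A] [Algebra C A]
    [Module.Finite C A] (n0 : Ideal C) [hn0 : n0.IsPrime] (y0 : A) (h : MonoAt n0 y0) :
    ∃ s : C, s ∉ n0 ∧ ∀ a : A, ∃ P : C[X], s • a = aeval y0 P := by
  classical
  obtain ⟨Z, hZ⟩ := (Module.Finite.fg_top : (⊤ : Submodule C A).FG)
  choose σ hσ hσ' using h
  refine ⟨∏ z ∈ Z, σ z, ?_, ?_⟩
  · intro hmem
    obtain ⟨z, _, hz⟩ := (Ideal.IsPrime.prod_mem_iff).1 hmem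
    exact hσ z hz
  · intro a
    have ha : a ∈ Submodule.span C (Z : Set A) := by rw [hZ]; trivial
    have key : (∏ z ∈ Z, σ z) • a ∈ Algebra.adjoin C {y0} := by
      induction ha using Submodule.span_induction with
      | mem x hx =>
        rw [← Finset.mul_prod_erase Z σ hx, mul_comm, mul_smul]
        exact Subalgebra.smul_mem _ (hσ' x) _
      | zero => rw [smul_zero]; exact Subalgebra.zero_mem _
      | add x y _ _ hx hy => rw [smul_add]; exact add_mem hx hy
      | smul c x _ hx => rw [smul_comm]; exact Subalgebra.smul_mem _ hx c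
    rw [Algebra.adjoin_singleton_eq_range_aeval] at key
    obtain ⟨P, hP⟩ := key
    exact ⟨P, hP.symm⟩

variable {R K k : Type*} [CommRing R] [IsDomain R] [IsNoetherianRing R] [IsIntegrallyClosed R]
  [Field K] [Algebra R K] [IsFractionRing R K] [Field k] [CharZero K]
  {D : QData R K k} {q : ℕ} [NeZero q] (T : Two D q) (X : D.Coord)

/-- the converse Frobenius formula : `(Φ c')(T^q) = c' ^ q` modulo `ϖ`. -/
theorem hFrob'_of_tAut [Fact q.Prime] [CharP k q] (Φ : TAut T)
    (hΦ : ∀ c, Φ.sk c = c ^ q) (hx : coeffMap (Φ.sR : R →+* R) X.xW = X.xW) :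
    ∀ c' : X.chart, ∃ c : X.chart, qExpand k q (X.rhoB c) = X.rhoB c' ^ q := by
  intro c'
  have htri : NFrob.Tri D (Φ.sK : K →+* K) (Φ.sR : R →+* R) (Φ.sk : k →+* k) :=
    ⟨Φ.hK, Φ.hk⟩
  have hc : Φ.toF0 (c' : D.F0) ∈ X.chart := NFrob.isIntegralElem_map htri X hx c'.2
  refine ⟨⟨Φ.toF0 (c' : D.F0), hc⟩, ?_⟩
  have e1 : X.rhoB ⟨Φ.toF0 (c' : D.F0), hc⟩
      = coeffMap (Φ.sk : k →+* k) (X.rhoB c') := NFrob.rho_map htri (NAdm.lam X c')
  rw [e1, Fermat.Agent.ES.KCong.pow_char q]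
  have : (Φ.sk : k →+* k) = frobenius k q := by
    ext a
    exact hΦ a
  rw [this]

/-- `T.chart X` is a finite module over `X.chart` via `α`. -/
theorem finite_chart_al :
    letI := (NRed.alC X T).toAlgebra
    Module.Finite X.chart (T.chart X) := by
  classical
  obtain ⟨a1, a2, a3, t1, fd, sep, t2, ic, hmap⟩ := GenInt.setup (T.phiT X) (T.phiT_injective X)
    T.bT (T.exists_span X) (T.chart X) (T.mem_chart_iff X)
  have hfin : Module.Finite R[X] (T.chart X) :=
    IsIntegralClosure.finite R[X] (FractionRing R[X]) T.F (T.chart X)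
  obtain ⟨Z, hZ⟩ := hfin.fg_top
  letI := (NRed.alC X T).toAlgebra
  refine ⟨⟨Z, ?_⟩⟩
  rw [eq_top_iff]
  intro f _
  have hf : f ∈ Submodule.span R[X] (Z : Set (T.chart X)) := by rw [hZ]; trivial
  induction hf using Submodule.span_induction with
  | mem x hx => exact Submodule.subset_span hx
  | zero => exact Submodule.zero_mem _
  | add x y _ _ hx hy => exact Submodule.add_mem _ (hx trivial) (hy trivial)
  | smul a x _ hx =>
    have : a • x = (⟨X.phiF a, X.phiF_mem_chart a⟩ : X.chart) • x := by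
      apply Subtype.ext
      change algebraMap (T.chart X) T.F (a • x) = _
      rw [Algebra.smul_def, map_mul, ← IsScalarTower.algebraMap_apply, hmap]
      rfl
    rw [this]
    exact Submodule.smul_mem _ _ (hx trivial)

/-- **[GEN-N]**, instance. -/
theorem monoAt_node_two (hle : ∀ b ∈ T.chart X, b ∈ T.O)
    (hbe : ∀ a ∈ X.chart, T.be a ∈ T.chart X)
    (hsat : ∀ x ∈ T.chart X, DivS T.O T.ϖF 1 x → ∃ y ∈ T.chart X, x = T.ϖF * y)
    (hred1 : ∀ b ∈ T.chart X, ∃ c : X.chart, DivS T.O1 T.ϖF 1 (b - T.al c))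
    (hred2 : ∀ b ∈ T.chart X, ∃ c : X.chart, DivS T.O2 T.ϖF 1 (b - T.be c))
    (hfrob' : ∀ c' : X.chart, ∃ c : X.chart, qExpand k q (X.rhoB c) = X.rhoB c' ^ q)
    [(T.p1 X).IsPrime] [(T.p2 X).IsPrime]
    (n : Ideal (T.chart X)) [n.IsMaximal] (h1 : T.p1 X ≤ n) (h2 : T.p2 X ≤ n)
    (x y0 : T.chart X) (hx : LocGen n (T.p1 X) x) (hy : LocGen n (T.p2 X) y0)
    (hy1 : y0 ∈ T.p1 X) :
    letI := (NRed.alC X T).toAlgebra
    MonoAt (n.comap (NRed.alC X T)) y0 := by
  letI := (NRed.alC X T).toAlgebra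
  haveI := finite_chart_al T X
  refine monoAt_node_abs X.ϖC (T.p1 X) (T.p2 X) ?_ ?_ q (NeZero.ne q) ?_ n h1 h2 x y0 hx hy hy1
  · exact NRed.p1_inf_p2 X T hle hsat
  · intro a
    obtain ⟨c, hc⟩ := hred1 a a.2
    exact ⟨c, (NRed.mem_p1 X T hle _).2 hc⟩
  · intro a
    obtain ⟨c, hc⟩ := hred2 a a.2
    obtain ⟨b0, hb0⟩ := hfrob' c
    refine ⟨b0, ?_⟩
    have h3 : a - NRed.beC X T hbe c ∈ T.p2 X := (NRed.mem_p2 X T hle _).2 hc
    have h4 : NRed.beC X T hbe (c ^ q) - NRed.alC X T b0 ∈ T.p2 X :=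
      (NRed.mem_p2 X T hle _).2 (NAdm.divS_O2_be_sub_al X T b0 c hb0)
    have h5 : a ^ q - NRed.beC X T hbe c ^ q ∈ T.p2 X :=
      Ideal.mem_of_dvd _ (sub_dvd_pow_sub_pow _ _ q) h3
    have e : a ^ q - algebraMap X.chart (T.chart X) b0
        = (a ^ q - NRed.beC X T hbe c ^ q) + (NRed.beC X T hbe (c ^ q) - NRed.alC X T b0) := by
      rw [map_pow]
      change a ^ q - NRed.alC X T b0 = _
      ring
    rw [e]
    exact (T.p2 X).add_mem h5 h4

end Fermat.Agent.S36
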