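import Fermat.Agent.S36.Gen
import Fermat.Agent.S34.LocDefs

/-!
# S36, block G-REG, piece [GEN], the ordinary fibre (abstract form with the two components)

`C → A` finite (in the application `β`), `p1 p2` the two components of `A`, `A = C + p2`,
`A ^ q ⊆ C + p1`.  `n1` a maximal ideal on the component `p1` only, `n0 = n1 ∩ C`.  The fibre over
`n0` is `{n1, n2}`, `n2 = p2 + n0 A`, and `A` is monogenic at `n0`, generated by any
`y0 ∉ n2` which is a local generator of `n1` modulo `p1`; every local generator `x` of `n1`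
modulo `p1` can be moved out of `n2` by an element of `p1`.
-/

set_option autoImplicit false
set_option linter.unusedSectionVars false
set_option linter.style.haveILetI false

namespace Fermat.Agent.S36

open Fermat.Agent.S34

namespace GenOrd

open Polynomial in
/-- **Rationality of the closed points.**  `A` integral over `R[X]`, `R → k` onto an algebraically
closed field, `n` a maximal ideal of `A` containing the kernel: then `A = R + n`. -/
theorem exists_const {R A k : Type*} [CommRing R] [CommRing A] [Field k] [IsAlgClosed k]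
    (ψ : R[X] →+* A) (hint : ∀ a : A, ψ.IsIntegralElem a) (res : R →+* k)
    (hsurj : Function.Surjective res) (n : Ideal A) [hn : n.IsMaximal]
    (hker : ∀ r : R, res r = 0 → ψ (C r) ∈ n) (a : A) : ∃ r : R, a - ψ (C r) ∈ n := by
  letI := Ideal.Quotient.field n
  let mk := Ideal.Quotient.mk n
  let f : R →+* A ⧸ n := mk.comp (ψ.comp C)
  have hkf : RingHom.ker res ≤ RingHom.ker f := by
    intro r hr
    rw [RingHom.mem_ker] at hr ⊢
    exact Ideal.Quotient.eq_zero_iff_mem.2 (hker r hr)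
  let g : k →+* A ⧸ n := res.liftOfSurjective hsurj ⟨f, hkf⟩
  have hg : ∀ r, g (res r) = f r := fun r =>
    RingHom.liftOfRightInverse_comp_apply res _ _ ⟨f, hkf⟩ r
  let h : k[X] →+* A ⧸ n := eval₂RingHom g (mk (ψ X))
  have hcomp : mk.comp ψ = h.comp (mapRingHom res) := by
    apply Polynomial.ringHom_ext
    · intro r
      simp only [RingHom.comp_apply, coe_mapRingHom, map_C, h, coe_eval₂RingHom, eval₂_C, hg]
      rfl
    · simp only [RingHom.comp_apply, coe_mapRingHom, map_X, h, coe_eval₂RingHom, eval₂_X]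
  have hhint : h.IsIntegral := by
    intro y
    obtain ⟨b, rfl⟩ := Ideal.Quotient.mk_surjective y
    obtain ⟨P, hP, hP0⟩ := hint b
    refine ⟨P.map (mapRingHom res), hP.map _, ?_⟩
    rw [eval₂_map, ← hcomp]
    have := congrArg mk hP0
    rw [hom_eval₂, map_zero] at this
    exact this
  have hmax : (Ideal.comap h ⊥).IsMaximal :=
    Ideal.isMaximal_comap_of_isIntegral_of_isMaximal' h hhint ⊥
  -- the maximal ideal is `(X - c)`
  obtain ⟨c, hc⟩ : ∃ c : k, h (X - C c) = 0 := by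
    set P := Ideal.comap h ⊥ with hPdef
    set p := Submodule.IsPrincipal.generator P with hp
    have hspan : Ideal.span {p} = P := Ideal.span_singleton_generator P
    have hdeg : p.degree ≠ 0 := by
      intro hd
      have hu : IsUnit p := Polynomial.isUnit_iff_degree_eq_zero.2 hd
      apply hmax.ne_top
      rw [← hspan]
      exact Ideal.span_singleton_eq_top.2 hu
    obtain ⟨c, hc⟩ := IsAlgClosed.exists_root p hdeg
    have hdvd : X - C c ∣ p := dvd_iff_isRoot.2 hc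
    have hle : P ≤ Ideal.span {X - C c} := by
      rw [← hspan, Ideal.span_singleton_le_span_singleton]
      exact hdvd
    have hne : Ideal.span {X - C c} ≠ (⊤ : Ideal k[X]) := by
      rw [Ne, Ideal.span_singleton_eq_top]
      exact Polynomial.not_isUnit_X_sub_C c
    have heq := hmax.eq_of_le hne hle
    refine ⟨c, ?_⟩
    have : X - C c ∈ P := by rw [heq]; exact Ideal.mem_span_singleton_self _
    simpa [hPdef, Ideal.mem_comap] using this
  have hx : mk (ψ X) = g c := by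
    have : h (X - C c) = mk (ψ X) - g c := by
      simp only [h, coe_eval₂RingHom, eval₂_sub, eval₂_X, eval₂_C]
    rw [this, sub_eq_zero] at hc
    exact hc
  have hh : h = g.comp (evalRingHom c) := by
    apply Polynomial.ringHom_ext
    · intro r
      simp [h]
    · simp [h, hx]
  have hgint : g.IsIntegral := by
    intro y
    obtain ⟨P, hP, hP0⟩ := hhint y
    refine ⟨P.map (evalRingHom c), hP.map _, ?_⟩
    rw [eval₂_map, ← hh]
    exact hP0
  obtain ⟨z, hz⟩ := (IsAlgClosed.ringHom_bijective_of_isIntegral g hgint).2 (mk a)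
  obtain ⟨r, rfl⟩ := hsurj z
  refine ⟨r, ?_⟩
  rw [hg] at hz
  exact Ideal.Quotient.eq.1 hz.symm

variable {C A : Type*} [CommRing C] [CommRing A] [Algebra C A]

/-- the point of the second component over `n0`. -/
def pt2 (p2 : Ideal A) (red2 : ∀ a : A, ∃ c : C, a - algebraMap C A c ∈ p2) (n0 : Ideal C) :
    Ideal A where
  carrier := {a | ∃ c ∈ n0, a - algebraMap C A c ∈ p2}
  zero_mem' := ⟨0, n0.zero_mem, by simp⟩
  add_mem' := by
    rintro a b ⟨c, hc, h⟩ ⟨d, hd, h'⟩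
    refine ⟨c + d, n0.add_mem hc hd, ?_⟩
    have : a + b - algebraMap C A (c + d) = (a - algebraMap C A c) + (b - algebraMap C A d) := by
      rw [map_add]; ring
    rw [this]
    exact p2.add_mem h h'
  smul_mem' := by
    rintro r a ⟨c, hc, h⟩
    obtain ⟨d, hd⟩ := red2 r
    refine ⟨d * c, n0.mul_mem_left _ hc, ?_⟩
    have : r • a - algebraMap C A (d * c)
        = r * (a - algebraMap C A c) + (r - algebraMap C A d) * algebraMap C A c := by
      rw [map_mul, smul_eq_mul]; ring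
    rw [this]
    exact p2.add_mem (p2.mul_mem_left _ h) (p2.mul_mem_right _ hd)

theorem mem_pt2 {p2 : Ideal A} {red2 : ∀ a : A, ∃ c : C, a - algebraMap C A c ∈ p2}
    {n0 : Ideal C} {a : A} :
    a ∈ pt2 p2 red2 n0 ↔ ∃ c ∈ n0, a - algebraMap C A c ∈ p2 := Iff.rfl

end GenOrd

open GenOrd in
/-- the fibre over `n0 = n1 ∩ C` is `{n1, n2}`. -/
theorem GenOrd.fibre {C A : Type*} [CommRing C] [CommRing A] [Algebra C A] [Module.Finite C A]
    (ϖ : C) (p1 p2 : Ideal A)
    (hp : p1 ⊓ p2 = Ideal.span {algebraMap C A ϖ})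
    (red2 : ∀ a : A, ∃ c : C, a - algebraMap C A c ∈ p2)
    (hker : ∀ c : C, algebraMap C A c ∈ p2 → algebraMap C A c ∈ p1)
    (q : ℕ) (hq : q ≠ 0) (frob1 : ∀ a : A, ∃ c : C, a ^ q - algebraMap C A c ∈ p1)
    (n1 : Ideal A) [hn1 : n1.IsMaximal] (h1 : p1 ≤ n1) (h2 : ¬ p2 ≤ n1) :
    (n1.comap (algebraMap C A)).IsMaximal ∧
    (pt2 p2 red2 (n1.comap (algebraMap C A))).IsMaximal ∧
    p2 ≤ pt2 p2 red2 (n1.comap (algebraMap C A)) ∧
    (n1.comap (algebraMap C A)).map (algebraMap C A) ≤ pt2 p2 red2 (n1.comap (algebraMap C A)) ∧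
    ¬ p1 ≤ pt2 p2 red2 (n1.comap (algebraMap C A)) ∧
    ϖ ∈ n1.comap (algebraMap C A) ∧
    ∀ m : Ideal A, m.IsMaximal → (n1.comap (algebraMap C A)).map (algebraMap C A) ≤ m →
      m = n1 ∨ m = pt2 p2 red2 (n1.comap (algebraMap C A)) := by
  haveI : Algebra.IsIntegral C A := Algebra.IsIntegral.of_finite C A
  haveI hn0 : (n1.comap (algebraMap C A)).IsMaximal :=
    Ideal.isMaximal_comap_of_isIntegral_of_isMaximal n1
  set n0 := n1.comap (algebraMap C A) with hn0def
  set n2 := pt2 p2 red2 n0 with hn2def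
  have hn1p : n1.IsPrime := hn1.isPrime
  have hϖ12 : algebraMap C A ϖ ∈ p1 ⊓ p2 := hp.ge (Ideal.mem_span_singleton_self _)
  have hϖ0 : ϖ ∈ n0 := h1 hϖ12.1
  have hp2n2 : p2 ≤ n2 := fun a ha => ⟨0, n0.zero_mem, by simpa using ha⟩
  have hmap2 : n0.map (algebraMap C A) ≤ n2 := by
    rw [Ideal.map_le_iff_le_comap]
    intro c hc
    exact ⟨c, hc, by simp⟩
  have hone2 : (1 : A) ∉ n2 := by
    rintro ⟨c, hc, h⟩
    have h3 : algebraMap C A (1 - c) ∈ p2 := by rwa [map_sub, map_one]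
    have h4 : (1 - c) ∈ n0 := h1 (hker _ h3)
    have h5 := n0.add_mem h4 hc
    rw [sub_add_cancel] at h5
    exact hn0.ne_top ((Ideal.eq_top_iff_one _).2 h5)
  have hn2 : n2.IsMaximal := by
    rw [Ideal.isMaximal_iff]
    refine ⟨hone2, fun J a hJ ha haJ => ?_⟩
    obtain ⟨d, hd⟩ := red2 a
    have hd0 : d ∉ n0 := fun h => ha ⟨d, h, hd⟩
    obtain ⟨d', i, hi, e⟩ := hn0.exists_inv hd0
    have e' : (1 : A) = algebraMap C A d' * algebraMap C A d + algebraMap C A i := by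
      rw [← map_mul, ← map_add, e, map_one]
    rw [e']
    refine J.add_mem (J.mul_mem_left _ ?_) (hJ (hmap2 (Ideal.mem_map_of_mem _ hi)))
    have := J.sub_mem haJ (hJ (hp2n2 hd))
    rwa [sub_sub_cancel] at this
  have hn2p : n2.IsPrime := hn2.isPrime
  -- a prime ideal over `n0` containing `p1` contains `n1`
  have hle1 : ∀ m : Ideal A, m.IsPrime → n0.map (algebraMap C A) ≤ m → p1 ≤ m → n1 ≤ m := by
    intro m hm hle h a ha
    obtain ⟨c, hc⟩ := frob1 a
    have h3 : algebraMap C A c ∈ n1 := by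
      have := n1.sub_mem (n1.pow_mem_of_mem ha q (Nat.pos_of_ne_zero hq)) (h1 hc)
      rwa [sub_sub_cancel] at this
    have := m.add_mem (h hc) (hle (Ideal.mem_map_of_mem _ h3))
    rw [sub_add_cancel] at this
    exact hm.mem_of_pow_mem q this
  have hle2 : ∀ m : Ideal A, n0.map (algebraMap C A) ≤ m → p2 ≤ m → n2 ≤ m := by
    rintro m hle h a ⟨c, hc, hac⟩
    have := m.add_mem (h hac) (hle (Ideal.mem_map_of_mem _ hc))
    rwa [sub_add_cancel] at this
  have hne : n1 ≠ n2 := fun h => h2 (h ▸ hp2n2)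
  have hp1n2 : ¬ p1 ≤ n2 := fun h =>
    hne (hn1.eq_of_le hn2.ne_top (hle1 n2 hn2p hmap2 h))
  refine ⟨hn0, hn2, hp2n2, hmap2, hp1n2, hϖ0, ?_⟩
  intro m hm hle
  have hmul : p1 * p2 ≤ m :=
    (Ideal.mul_le_inf.trans hp.le).trans
      ((Ideal.span_singleton_le_iff_mem _).2 (hle (Ideal.mem_map_of_mem _ hϖ0)))
  rcases (hm.isPrime.mul_le).1 hmul with h | h
  · exact Or.inl (hn1.eq_of_le hm.ne_top (hle1 m hm.isPrime hle h)).symm
  · exact Or.inr (hn2.eq_of_le hm.ne_top (hle2 m hle h)).symm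

open GenOrd in
/-- **[GEN-O]**, abstract form : every local generator `y0` of `n1` modulo `p1` whose value on the
second component is a unit at `n0` is a monogenic generator at `n0`. -/
theorem monoAt_ord_of {C A : Type*} [CommRing C] [CommRing A] [Algebra C A] [Module.Finite C A]
    (ϖ : C) (p1 p2 : Ideal A)
    (hp : p1 ⊓ p2 = Ideal.span {algebraMap C A ϖ})
    (red2 : ∀ a : A, ∃ c : C, a - algebraMap C A c ∈ p2)
    (hker : ∀ c : C, algebraMap C A c ∈ p2 → algebraMap C A c ∈ p1)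
    (q : ℕ) (hq : q ≠ 0) (frob1 : ∀ a : A, ∃ c : C, a ^ q - algebraMap C A c ∈ p1)
    (n1 : Ideal A) [hn1 : n1.IsMaximal] (h1 : p1 ≤ n1) (h2 : ¬ p2 ≤ n1)
    (hres1 : ∀ a : A, ∃ c : C, a - algebraMap C A c ∈ n1)
    (y0 : A) (hloc : LocGen n1 p1 y0) (f2 : C) (hf20 : algebraMap C A f2 ∉ n1)
    (hf2 : y0 - algebraMap C A f2 ∈ p2) :
    MonoAt (n1.comap (algebraMap C A)) y0 := by
  obtain ⟨hn0, hn2, hp2n2, hmap2, hp1n2, hϖ0, huniq⟩ :=
    GenOrd.fibre ϖ p1 p2 hp red2 hker q hq frob1 n1 h1 h2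
  set n0 := n1.comap (algebraMap C A) with hn0def
  set n2 := pt2 p2 red2 n0 with hn2def
  have hn1p : n1.IsPrime := hn1.isPrime
  have hn2p : n2.IsPrime := hn2.isPrime
  have hmap1 : n0.map (algebraMap C A) ≤ n1 := Ideal.map_comap_le
  obtain ⟨θ, hθ, hθn⟩ := SetLike.not_le_iff_exists.1 h2
  obtain ⟨θ', hθ', hθn'⟩ := SetLike.not_le_iff_exists.1 hp1n2
  refine monoAt_two n0 n1 n2 hn1p hn2p hmap1 hmap2 y0 f2 hf20 huniq hres1
    (fun a => (red2 a).imp fun c hc => hp2n2 hc) hloc.1 (hp2n2 hf2) ?_ ?_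
  · intro u hu
    obtain ⟨s, hs, c, hsc⟩ := hloc.2 u hu
    refine ⟨θ * s, fun h => (hn1p.mem_or_mem h).elim hθn hs, ?_⟩
    have e1 : θ * s * u = θ * c * y0 + θ * (s * u - c * y0) := by ring
    rw [e1]
    refine Ideal.add_mem _
      (Ideal.mem_sup_left (Ideal.mul_mem_left _ _ (Ideal.mem_span_singleton_self _)))
      (Ideal.mem_sup_right ?_)
    have h3 : θ * (s * u - c * y0) ∈ p1 ⊓ p2 :=
      ⟨p1.mul_mem_left _ hsc, p2.mul_mem_right _ hθ⟩
    rw [hp] at h3
    exact (Ideal.span_singleton_le_iff_mem _).2 (Ideal.mem_map_of_mem _ hϖ0) h3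
  · rintro u ⟨c, hc, huc⟩
    refine ⟨θ', hθn', Ideal.mem_sup_right ?_⟩
    have e1 : θ' * u = θ' * algebraMap C A c + θ' * (u - algebraMap C A c) := by ring
    rw [e1]
    refine Ideal.add_mem _ (Ideal.mul_mem_left _ _ (Ideal.mem_map_of_mem _ hc)) ?_
    have h3 : θ' * (u - algebraMap C A c) ∈ p1 ⊓ p2 :=
      ⟨p1.mul_mem_right _ hθ', p2.mul_mem_left _ huc⟩
    rw [hp] at h3
    exact (Ideal.span_singleton_le_iff_mem _).2 (Ideal.mem_map_of_mem _ hϖ0) h3

open GenOrd in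
/-- **[GEN-O]**, abstract form with the two components : every local generator `x` of `n1` modulo
`p1` can be corrected by an element of `p1`. -/
theorem monoAt_ord_abs {C A : Type*} [CommRing C] [CommRing A] [Algebra C A] [Module.Finite C A]
    (ϖ : C) (p1 p2 : Ideal A)
    (hp : p1 ⊓ p2 = Ideal.span {algebraMap C A ϖ})
    (red2 : ∀ a : A, ∃ c : C, a - algebraMap C A c ∈ p2)
    (hker : ∀ c : C, algebraMap C A c ∈ p2 → algebraMap C A c ∈ p1)
    (q : ℕ) (hq : q ≠ 0) (frob1 : ∀ a : A, ∃ c : C, a ^ q - algebraMap C A c ∈ p1)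
    (n1 : Ideal A) [hn1 : n1.IsMaximal] (h1 : p1 ≤ n1) (h2 : ¬ p2 ≤ n1)
    (hres1 : ∀ a : A, ∃ c : C, a - algebraMap C A c ∈ n1)
    (x : A) (hx : LocGen n1 p1 x) :
    ∃ y0 : A, y0 - x ∈ p1 ∧ LocGen n1 p1 y0 ∧
      (∃ f2 : C, algebraMap C A f2 ∉ n1 ∧ y0 - algebraMap C A f2 ∈ p2) ∧
      MonoAt (n1.comap (algebraMap C A)) y0 := by
  obtain ⟨hn0, hn2, hp2n2, hmap2, hp1n2, hϖ0, huniq⟩ :=
    GenOrd.fibre ϖ p1 p2 hp red2 hker q hq frob1 n1 h1 h2
  set n0 := n1.comap (algebraMap C A) with hn0def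
  set n2 := pt2 p2 red2 n0 with hn2def
  obtain ⟨θ', hθ', hθn'⟩ := SetLike.not_le_iff_exists.1 hp1n2
  -- move `x` out of `n2`
  obtain ⟨y0, hyx, hyn2⟩ : ∃ y0 : A, y0 - x ∈ p1 ∧ y0 ∉ n2 := by
    by_cases hxn : x ∈ n2
    · refine ⟨x + θ', by rwa [add_sub_cancel_left], fun h => hθn' ?_⟩
      have := n2.sub_mem h hxn
      rwa [add_sub_cancel_left] at this
    · exact ⟨x, by rw [sub_self]; exact p1.zero_mem, hxn⟩
  have hy1 : y0 ∈ n1 := by
    have := n1.add_mem (h1 hyx) hx.1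
    rwa [sub_add_cancel] at this
  have hloc : LocGen n1 p1 y0 := by
    refine ⟨hy1, fun b hb => ?_⟩
    obtain ⟨s, hs, c, hsc⟩ := hx.2 b hb
    refine ⟨s, hs, c, ?_⟩
    have : s * b - c * y0 = (s * b - c * x) - c * (y0 - x) := by ring
    rw [this]
    exact p1.sub_mem hsc (p1.mul_mem_left _ hyx)
  obtain ⟨f2, hf2⟩ := red2 y0
  have hf20 : f2 ∉ n0 := fun h => hyn2 ⟨f2, h, hf2⟩
  exact ⟨y0, hyx, hloc, ⟨f2, hf20, hf2⟩,
    monoAt_ord_of ϖ p1 p2 hp red2 hker q hq frob1 n1 h1 h2 hres1 y0 hloc f2 hf20 hf2⟩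

end Fermat.Agent.S36
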