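import Fermat.Agent.S36.GenOrd
import Fermat.Agent.S36.GenNodeT
import Fermat.Agent.S36.TNormMem

/-!
# S36, block G-REG, piece [GEN-O], instance : the ordinary fibre of `β : X.chart → T.chart X`

`A = T.chart X` is monogenic over `C = X.chart` (via `β`) at `β⁻¹ n1`, `n1` an ordinary point of the
first component.
-/

set_option autoImplicit false
set_option linter.unusedSectionVars false
set_option linter.style.haveILetI false

noncomputable section

namespace Fermat.Agent.S36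

open Fermat.Agent.S34 ModularCurve Polynomial
open Fermat.Agent.ES.QE Fermat.Agent.ES.Model

variable {R K k : Type*} [CommRing R] [IsDomain R] [IsNoetherianRing R] [IsIntegrallyClosed R]
  [Field K] [Algebra R K] [IsFractionRing R K] [Field k] [CharZero K]
  {D : QData R K k} {q : ℕ} [NeZero q] (T : Two D q) (X : D.Coord)

namespace GenOrdT

/-- the Atkin-Lehner involution on the chart, as an endomorphism. -/
def WtC0 (hVx : X.phi.IsIntegralElem (qExpand K q (D.inc X.xW))) : T.chart X →+* T.chart X :=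
  ((S35.Wt T : T.F →+* T.F).comp (T.chart X).subtype).codRestrict (T.chart X)
    (fun b => Wt_mem_chart X hVx b.2)

lemma WtC0_WtC0 (hVx : X.phi.IsIntegralElem (qExpand K q (D.inc X.xW))) (b : T.chart X) :
    WtC0 T X hVx (WtC0 T X hVx b) = b := Subtype.ext (S35.Wt_Wt T b)

/-- the Atkin-Lehner involution on the chart. -/
def WtC (hVx : X.phi.IsIntegralElem (qExpand K q (D.inc X.xW))) : T.chart X ≃+* T.chart X :=
  { WtC0 T X hVx with
    invFun := WtC0 T X hVx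
    left_inv := WtC0_WtC0 T X hVx
    right_inv := WtC0_WtC0 T X hVx }

lemma WtC_alC (hVx : X.phi.IsIntegralElem (qExpand K q (D.inc X.xW)))
    (hbe : ∀ a ∈ X.chart, T.be a ∈ T.chart X) (c : X.chart) :
    WtC T X hVx (NRed.alC X T c) = NRed.beC X T hbe c := Subtype.ext (S35.Wt_al T c)

/-- (i) `T.chart X` is a finite module over `X.chart` via `β`. -/
theorem finite_chart_be (hVx : X.phi.IsIntegralElem (qExpand K q (D.inc X.xW)))
    (hbe : ∀ a ∈ X.chart, T.be a ∈ T.chart X) :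
    letI := (NRed.beC X T hbe).toAlgebra
    Module.Finite X.chart (T.chart X) :=
  @Module.Finite.of_equiv_equiv X.chart (T.chart X) X.chart (T.chart X) _ _ _ _
    (NRed.alC X T).toAlgebra (NRed.beC X T hbe).toAlgebra (RingEquiv.refl _) (WtC T X hVx) (by
      apply RingHom.ext
      intro c
      exact (WtC_alC T X hVx hbe c).symm) (finite_chart_al T X)

lemma beC_ϖC (hbe : ∀ a ∈ X.chart, T.be a ∈ T.chart X) : NRed.beC X T hbe X.ϖC = T.ϖB X := by
  apply Subtype.ext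
  apply Subtype.ext
  show qExpand K q ((D.ϖF : D.F0) : LaurentSeries K) = ((T.ϖF : T.F) : LaurentSeries K)
  rw [D.coe_ϖF, QData.ϖE, qExpand_C]
  exact (NRed.e1_ϖF T).symm

/-- (iii) the Frobenius formula on the first component. -/
theorem frob1 (hle : ∀ b ∈ T.chart X, b ∈ T.O) (hbe : ∀ a ∈ X.chart, T.be a ∈ T.chart X)
    (hred1 : ∀ b ∈ T.chart X, ∃ c : X.chart, DivS T.O1 T.ϖF 1 (b - T.al c))
    (hfrob' : ∀ c' : X.chart, ∃ c : X.chart, qExpand k q (X.rhoB c) = X.rhoB c' ^ q)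
    (a : T.chart X) : ∃ c : X.chart, a ^ q - NRed.beC X T hbe c ∈ T.p1 X := by
  obtain ⟨c, hc⟩ := hred1 a a.2
  obtain ⟨b0, hb0⟩ := hfrob' c
  refine ⟨b0, ?_⟩
  have h3 : a - NRed.alC X T c ∈ T.p1 X := (NRed.mem_p1 X T hle _).2 hc
  have h4 : NRed.alC X T (c ^ q) - NRed.beC X T hbe b0 ∈ T.p1 X :=
    (NRed.mem_p1 X T hle _).2 (NAdm.divS_O1_al_sub_be X T b0 c hb0)
  have h5 : a ^ q - NRed.alC X T c ^ q ∈ T.p1 X :=
    Ideal.mem_of_dvd _ (sub_dvd_pow_sub_pow _ _ q) h3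
  have e : a ^ q - NRed.beC X T hbe b0
      = (a ^ q - NRed.alC X T c ^ q) + (NRed.alC X T (c ^ q) - NRed.beC X T hbe b0) := by
    rw [map_pow]
    ring
  rw [e]
  exact (T.p1 X).add_mem h5 h4

/-- (iv) -/
theorem hker (hle : ∀ b ∈ T.chart X, b ∈ T.O) (hbe : ∀ a ∈ X.chart, T.be a ∈ T.chart X)
    (c : X.chart) (h : NRed.beC X T hbe c ∈ T.p2 X) : NRed.beC X T hbe c ∈ T.p1 X := by
  rw [NRed.mem_p2 X T hle, NRed.divS_O2_iff] at h
  rw [NRed.mem_p1 X T hle, NRed.divS_O1_iff]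
  obtain ⟨g, hg, e⟩ := h
  refine ⟨qExpand K q g, NRed.V_mem q hg, ?_⟩
  have e2 : T.e2 (T.be (c : D.F0)) = D.ϖE * g := e
  rw [T.e2_be] at e2
  show qExpand K q ((c : D.F0) : LaurentSeries K) = _
  rw [e2, map_mul, QData.ϖE, qExpand_C]

end GenOrdT

open GenOrdT in
/-- **[GEN-O]**, instance. -/
theorem monoAt_ord_two (hVx : X.phi.IsIntegralElem (qExpand K q (D.inc X.xW)))
    (hle : ∀ b ∈ T.chart X, b ∈ T.O)
    (hbe : ∀ a ∈ X.chart, T.be a ∈ T.chart X)
    (hsat : ∀ x ∈ T.chart X, DivS T.O T.ϖF 1 x → ∃ y ∈ T.chart X, x = T.ϖF * y)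
    (hred1 : ∀ b ∈ T.chart X, ∃ c : X.chart, DivS T.O1 T.ϖF 1 (b - T.al c))
    (hred2 : ∀ b ∈ T.chart X, ∃ c : X.chart, DivS T.O2 T.ϖF 1 (b - T.be c))
    (hfrob' : ∀ c' : X.chart, ∃ c : X.chart, qExpand k q (X.rhoB c) = X.rhoB c' ^ q)
    (n1 : Ideal (T.chart X)) [n1.IsMaximal] (h1 : T.p1 X ≤ n1) (h2 : ¬ T.p2 X ≤ n1)
    (hperf : ∀ a : T.chart X, ∃ b : T.chart X, b ^ q - a ∈ n1)
    (x : T.chart X) (hx : LocGen n1 (T.p1 X) x) :
    letI := (NRed.beC X T hbe).toAlgebra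
    ∃ y0 : T.chart X, y0 - x ∈ T.p1 X ∧ LocGen n1 (T.p1 X) y0 ∧
      (∃ f2 : X.chart, NRed.beC X T hbe f2 ∉ n1 ∧ y0 - NRed.beC X T hbe f2 ∈ T.p2 X) ∧
      MonoAt (n1.comap (NRed.beC X T hbe)) y0 := by
  letI := (NRed.beC X T hbe).toAlgebra
  haveI := finite_chart_be T X hVx hbe
  refine monoAt_ord_abs X.ϖC (T.p1 X) (T.p2 X) ?_ ?_ ?_ q (NeZero.ne q) ?_ n1 h1 h2 ?_ x hx
  · rw [NRed.p1_inf_p2 X T hle hsat]
    congr 2
    exact (beC_ϖC T X hbe).symm
  · intro a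
    obtain ⟨c, hc⟩ := hred2 a a.2
    exact ⟨c, (NRed.mem_p2 X T hle _).2 hc⟩
  · exact fun c hc => hker T X hle hbe c hc
  · exact fun a => frob1 T X hle hbe hred1 hfrob' a
  · intro a
    obtain ⟨b, hb⟩ := hperf a
    obtain ⟨c, hc⟩ := frob1 T X hle hbe hred1 hfrob' b
    refine ⟨c, ?_⟩
    have e : a - algebraMap X.chart (T.chart X) c
        = (b ^ q - NRed.beC X T hbe c) - (b ^ q - a) := by
      change a - NRed.beC X T hbe c = _
      ring
    rw [e]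
    exact n1.sub_mem (h1 hc) hb

end Fermat.Agent.S36
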