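import Fermat.Agent.S36.GenOrdT

/-!
# S36, block G-REG, piece [GEN-O], instance (second form) : every `y0` with the right local shape
-/

set_option autoImplicit false
set_option linter.unusedSectionVars false
set_option linter.style.haveILetI false

noncomputable section

namespace Fermat.Agent.S36

open Fermat.Agent.S34 ModularCurve Polynomial
open Fermat.Agent.ES.QE Fermat.Agent.ES.Model

variable {R K k : Type*} [CommRing R] [IsDomain R] [IsNoetherianRing R] [IsIntegrallyClosed R]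
  [Field K] [Algebra R K] [IsFractionRing R K] [Field k] [CharZero K]
  {D : QData R K k} {q : ℕ} [NeZero q] (T : Two D q) (X : D.Coord)

open GenOrdT in
/-- **[GEN-O]**, instance of `monoAt_ord_of`. -/
theorem monoAt_ord_of_two (hVx : X.phi.IsIntegralElem (qExpand K q (D.inc X.xW)))
    (hle : ∀ b ∈ T.chart X, b ∈ T.O)
    (hbe : ∀ a ∈ X.chart, T.be a ∈ T.chart X)
    (hsat : ∀ x ∈ T.chart X, DivS T.O T.ϖF 1 x → ∃ y ∈ T.chart X, x = T.ϖF * y)
    (hred1 : ∀ b ∈ T.chart X, ∃ c : X.chart, DivS T.O1 T.ϖF 1 (b - T.al c))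
    (hred2 : ∀ b ∈ T.chart X, ∃ c : X.chart, DivS T.O2 T.ϖF 1 (b - T.be c))
    (hfrob' : ∀ c' : X.chart, ∃ c : X.chart, qExpand k q (X.rhoB c) = X.rhoB c' ^ q)
    (n1 : Ideal (T.chart X)) [n1.IsMaximal] (h1 : T.p1 X ≤ n1) (h2 : ¬ T.p2 X ≤ n1)
    (hperf : ∀ a : T.chart X, ∃ b : T.chart X, b ^ q - a ∈ n1)
    (y0 : T.chart X) (hloc : LocGen n1 (T.p1 X) y0) (f2 : X.chart)
    (hf20 : NRed.beC X T hbe f2 ∉ n1) (hf2 : y0 - NRed.beC X T hbe f2 ∈ T.p2 X) :
    letI := (NRed.beC X T hbe).toAlgebra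
    MonoAt (n1.comap (NRed.beC X T hbe)) y0 := by
  letI := (NRed.beC X T hbe).toAlgebra
  haveI := finite_chart_be T X hVx hbe
  refine monoAt_ord_of X.ϖC (T.p1 X) (T.p2 X) ?_ ?_ ?_ q (NeZero.ne q) ?_ n1 h1 h2 ?_ y0 hloc f2
    hf20 hf2
  · rw [NRed.p1_inf_p2 X T hle hsat]
    congr 2
    exact (beC_ϖC T X hbe).symm
  · intro a
    obtain ⟨c, hc⟩ := hred2 a a.2
    exact ⟨c, (NRed.mem_p2 X T hle _).2 hc⟩
  · exact fun c hc => hker T X hle hbe c hc
  · exact fun a => frob1 T X hle hbe hred1 hfrob' a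
  · intro a
    obtain ⟨b, hb⟩ := hperf a
    obtain ⟨c, hc⟩ := frob1 T X hle hbe hred1 hfrob' b
    refine ⟨c, ?_⟩
    have e : a - algebraMap X.chart (T.chart X) c
        = (b ^ q - NRed.beC X T hbe c) - (b ^ q - a) := by
      change a - NRed.beC X T hbe c = _
      ring
    rw [e]
    exact n1.sub_mem (h1 hc) hb

end Fermat.Agent.S36
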