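import Fermat.Agent.S35.GNormBC
import Fermat.Agent.S34.NGen
import Fermat.Agent.S34.NRed

/-!
# S36, G-REG, [D3] : the monic polynomial `g` of degree `q + 1`

For `y₀ ∈ T.chart X` : a monic `g : D.F0[X]` of degree `q + 1` with coefficients in `X.chart` and
`eval₂ φ y₀ g = 0`, for `φ = T.al` and `φ = T.be` (`g` = the characteristic polynomial
`minpoly ^ [F₁ : F₀(y₀)]`).
-/

set_option autoImplicit false
set_option linter.unusedSectionVars false
set_option linter.style.haveILetI false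

noncomputable section

namespace Fermat.Agent.S36.GenPoly

open ModularCurve Polynomial IntermediateField
open Fermat.Agent.S34 Fermat.Agent.S35 Fermat.Agent.ES.QE Fermat.Agent.ES.Model

/-- abstract form: the characteristic polynomial of an integral element. -/
theorem exists_monic_abs {A F0 F1 : Type*} [CommRing A] [Field F0] [Field F1] (ψ : A →+* F0)
    (φ : F0 →+* F1) (d : ℕ) (hd : 0 < d)
    (hfr : letI := φ.toAlgebra; Module.finrank F0 F1 = d)
    (y0 : F1) (hy : (φ.comp ψ).IsIntegralElem y0) :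
    ∃ g : F0[X], g.Monic ∧ g.natDegree = d ∧ (∀ i, ψ.IsIntegralElem (g.coeff i)) ∧
      eval₂ φ y0 g = 0 := by
  letI := φ.toAlgebra
  letI := ψ.toAlgebra
  haveI : Module.Finite F0 F1 := Module.finite_of_finrank_pos (by rw [hfr]; exact hd)
  obtain ⟨P, hP, hroot⟩ := hy
  have hint : IsIntegral F0 y0 := IsIntegral.of_finite F0 y0
  have hm := minpoly.monic hint
  have hdvd : minpoly F0 y0 ∣ P.map ψ := by
    apply minpoly.dvd
    rw [aeval_def, eval₂_map]
    exact hroot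
  have he : Module.finrank F0⟮y0⟯ F1 ≠ 0 := Module.finrank_pos.ne'
  refine ⟨minpoly F0 y0 ^ Module.finrank F0⟮y0⟯ F1, hm.pow _, ?_, ?_, ?_⟩
  · rw [hm.natDegree_pow, ← IntermediateField.adjoin.finrank hint, mul_comm,
      Module.finrank_mul_finrank, hfr]
  · intro i
    exact Polynomial.isIntegral_coeff_of_dvd (P ^ Module.finrank F0⟮y0⟯ F1) _ (hP.pow _) (hm.pow _)
      (by rw [Polynomial.map_pow]; exact pow_dvd_pow_of_dvd hdvd _) i
  · have h0 : eval₂ φ y0 (minpoly F0 y0) = 0 := minpoly.aeval F0 y0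
    rw [eval₂_pow, h0, zero_pow he]

variable {R K k : Type*} [CommRing R] [IsDomain R] [IsNoetherianRing R] [IsIntegrallyClosed R]
  [Field K] [Algebra R K] [IsFractionRing R K] [Field k]
  {D : QData R K k} {q : ℕ} [Fact q.Prime] [CharP k q] (T : Two D q) (X : D.Coord)

theorem mem_chart_of_phiF {f : D.F0} (h : X.phiF.IsIntegralElem f) : f ∈ X.chart :=
  (X.isIntegral_iff f).1 h

/-- **the polynomial `g` for `φ = T.al`.** -/
theorem exists_g_al {y0 : T.F} (hy : y0 ∈ T.chart X) :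
    ∃ g : D.F0[X], g.Monic ∧ g.natDegree = q + 1 ∧ (∀ i, g.coeff i ∈ X.chart) ∧
      eval₂ T.al y0 g = 0 := by
  obtain ⟨g, h1, h2, h3, h4⟩ := exists_monic_abs X.phiF T.al (q + 1) (Nat.succ_pos q)
    (GNorm.finrank_al T) y0 ((T.mem_chart_iff X y0).1 hy)
  exact ⟨g, h1, h2, fun i => mem_chart_of_phiF X (h3 i), h4⟩

/-- the Atkin-Lehner involution preserves the chart. -/
theorem Wt_mem (hbe : ∀ a ∈ X.chart, T.be a ∈ T.chart X) {b : T.F} (hb : b ∈ T.chart X) :
    Wt T b ∈ T.chart X := by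
  rw [T.mem_chart_iff] at hb ⊢
  obtain ⟨P, hP, h⟩ := hb
  refine NRed.isIntegralElem_of_coeff (T.phiT X) ((Wt T : T.F →+* T.F).comp (T.phiT X))
    (fun σ => ?_) ⟨P, hP, ?_⟩
  · rw [← T.mem_chart_iff]
    show Wt T (T.al (X.phiF σ)) ∈ T.chart X
    rw [Wt_al]
    exact hbe _ (X.phiF_mem_chart σ)
  · have h5 := congrArg (Wt T : T.F →+* T.F) h
    rw [map_zero, hom_eval₂] at h5
    exact h5

/-- **the polynomial `g` for `φ = T.be`.** -/
theorem exists_g_be (hbe : ∀ a ∈ X.chart, T.be a ∈ T.chart X) {y0 : T.F} (hy : y0 ∈ T.chart X) :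
    ∃ g : D.F0[X], g.Monic ∧ g.natDegree = q + 1 ∧ (∀ i, g.coeff i ∈ X.chart) ∧
      eval₂ T.be y0 g = 0 := by
  obtain ⟨g, h1, h2, h3, h4⟩ := exists_g_al T X (Wt_mem T X hbe hy)
  refine ⟨g, h1, h2, h3, ?_⟩
  have h5 := congrArg (Wt T : T.F →+* T.F) h4
  rw [map_zero, hom_eval₂] at h5
  have e1 : (Wt T : T.F →+* T.F) (Wt T y0) = y0 := Wt_Wt T y0
  have e2 : (Wt T : T.F →+* T.F).comp T.al = T.be := RingHom.ext fun c => Wt_al T c
  rwa [e1, e2] at h5

end Fermat.Agent.S36.GenPoly
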