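import Fermat.Agent.S36.GenTheta

/-!
# S36, G-REG, [GEN-O] : WLOG `θ (ρ₁ y₀) ≠ 0` at an ordinary point, without changing `y₀` modulo `p₂`

`y = y₀ (1 + y₀ z)`, `z = α x - (β x)^q ∈ p₂`, `θ (ρ₁ z) = θ x̄ ≠ 0`.
-/

set_option autoImplicit false
set_option linter.unusedSectionVars false

noncomputable section

namespace Fermat.Agent.S36.GenTheta

open ModularCurve Polynomial
open Fermat.Agent.S34 Fermat.Agent.S35 Fermat.Agent.ES.QE Fermat.Agent.ES.Model
open Fermat.Agent.S36.ValTh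

theorem tht_pow_succ {A : Type*} [CommRing A] (f : LaurentSeries A) (n : ℕ) :
    tht (f ^ (n + 1)) = ((n + 1 : ℕ) : LaurentSeries A) * f ^ n * tht f := by
  induction n with
  | zero => simp
  | succ n ih =>
    rw [pow_succ, tht_mul, ih]
    push_cast
    ring

theorem tht_pow_char {k : Type*} [Field k] (q : ℕ) [NeZero q] [CharP k q] (f : LaurentSeries k) :
    tht (f ^ q) = 0 := by
  obtain ⟨n, rfl⟩ : ∃ n, q = n + 1 := ⟨q - 1, (Nat.succ_pred_eq_of_ne_zero (NeZero.ne q)).symm⟩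
  rw [tht_pow_succ]
  have : ((n + 1 : ℕ) : LaurentSeries k) = 0 := by
    rw [← map_natCast (HahnSeries.C : k →+* LaurentSeries k), CharP.cast_eq_zero k (n + 1), map_zero]
  rw [this, zero_mul, zero_mul]

theorem tht_neg {A : Type*} [CommRing A] (f : LaurentSeries A) : tht (-f) = - tht f := by
  ext n
  rw [HahnSeries.coeff_neg, tht_coeff, tht_coeff, HahnSeries.coeff_neg, mul_neg]

variable {R K k : Type*} [CommRing R] [IsDomain R] [IsNoetherianRing R] [IsIntegrallyClosed R]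
  [Field K] [Algebra R K] [IsFractionRing R K] [Field k]

/-- abstract form of the modification by an element `z ∈ p'`. -/
theorem exists_theta_abs' {B : Type*} [CommRing B] (r : B →+* LaurentSeries k) (n p p' : Ideal B)
    [n.IsPrime] (hr : ∀ b, r b = 0 ↔ b ∈ p) (z : B) (hz : tht (r z) ≠ 0) (hz' : z ∈ p')
    (y0 : B) (hy : LocGen n p y0) (hy2 : y0 ∉ p) :
    ∃ y : B, LocGen n p y ∧ y - y0 ∈ p' ∧ y ∉ p ∧ tht (r y) ≠ 0 := by
  by_cases h : tht (r y0) = 0
  · have hu : 1 + y0 * z ∉ n := by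
      intro hh
      have : (1 : B) ∈ n := by
        have e : (1 : B) = (1 + y0 * z) - y0 * z := by ring
        rw [e]
        exact n.sub_mem hh (n.mul_mem_right _ hy.1)
      exact (Ideal.IsPrime.ne_top inferInstance) ((Ideal.eq_top_iff_one n).2 this)
    have hth : tht (r (y0 * (1 + y0 * z))) ≠ 0 := by
      rw [map_mul, map_add, map_one, map_mul]
      exact tht_fix _ _ (fun h0 => hy2 ((hr _).1 h0)) hz h
    refine ⟨y0 * (1 + y0 * z), hy.mul_unit _ hu, ?_, fun hp => hth ?_, hth⟩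
    · have e : y0 * (1 + y0 * z) - y0 = y0 * y0 * z := by ring
      rw [e]
      exact p'.mul_mem_left _ hz'
    · rw [(hr _).2 hp]
      ext m
      simp
  · exact ⟨y0, hy, by rw [sub_self]; exact p'.zero_mem, hy2, h⟩

variable {D : QData R K k} {q : ℕ} [NeZero q] (T : Two D q) (X : D.Coord)

theorem r1_be_x (hle : ∀ b ∈ T.chart X, b ∈ T.O) (hbe : ∀ a ∈ X.chart, T.be a ∈ T.chart X) :
    r1 T X hle (NRed.beC X T hbe ⟨X.x, X.x_mem_chart⟩) = qExpand k q (D.red X.xW) := by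
  rw [r1_apply, ← QData.rho_inc, ← NRed.rho_V q]
  rfl

theorem r2_al_x (hle : ∀ b ∈ T.chart X, b ∈ T.O) :
    r2 T X hle (NRed.alC X T ⟨X.x, X.x_mem_chart⟩) = qExpand k q (D.red X.xW) := by
  rw [r2_apply, ← QData.rho_inc, ← NRed.rho_V q]
  congr 1
  exact Subtype.ext (T.e2_al X.x)

/-- **WLOG `θ (ρ₁ y₀) ≠ 0`, keeping `y₀` modulo `p₂`** (for `φ = T.be`, ordinary fibre). -/
theorem exists_theta1' [CharP k q] (hle : ∀ b ∈ T.chart X, b ∈ T.O)
    (hbe : ∀ a ∈ X.chart, T.be a ∈ T.chart X)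
    (hxq : qExpand k q (D.red X.xW) = D.red X.xW ^ q) [(T.p1 X).IsPrime]
    (n : Ideal (T.chart X)) [n.IsPrime] (h1 : T.p1 X ≤ n) (hne : T.p1 X ≠ n)
    (y0 : T.chart X) (hy : LocGen n (T.p1 X) y0) :
    ∃ y : T.chart X, LocGen n (T.p1 X) y ∧ y - y0 ∈ T.p2 X ∧ y ∉ T.p1 X ∧
      tht (D.rho ⟨T.e1 y, (hle y y.2).1⟩) ≠ 0 := by
  refine exists_theta_abs' (r1 T X hle) n (T.p1 X) (T.p2 X) (r1_eq_zero_iff T X hle)
    (NRed.alC X T ⟨X.x, X.x_mem_chart⟩ - NRed.beC X T hbe ⟨X.x, X.x_mem_chart⟩ ^ q) ?_ ?_ y0 hy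
    (notMem_of_locGen h1 hne hy)
  · rw [map_sub, map_pow, r1_al_x, sub_eq_add_neg, tht_add, tht_neg, tht_pow_char, neg_zero,
      add_zero]
    exact tht_red_xW X
  · rw [← r2_eq_zero_iff T X hle, map_sub, map_pow, r2_al_x, r2_be_x, hxq, sub_self]

end Fermat.Agent.S36.GenTheta
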