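import Fermat.Agent.S35.GDV

/-!
# S36, abstract block : gluing of `r` branches (Nakayama)
-/

set_option autoImplicit false

open Polynomial IsLocalRing

namespace Fermat.Agent.S36

open Fermat.Agent.S34 Fermat.Agent.S35

section Poly

variable {A : Type*} [CommRing A] [IsLocalRing A]

/-- Nakayama for `A[X] / (P, Q)`, `Q` monic, with fibre `k`. -/
theorem exists_X_sub_C_mem (P Q : A[X]) (hQ : Q.Monic) (γ : A)
    (h : ∃ U V : A[X], ∀ i, (U * P + V * Q - (X - C γ)).coeff i ∈ maximalIdeal A) :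
    ∃ b : A, X - C b ∈ Ideal.span {P, Q} := by
  obtain ⟨U, V, hE⟩ := h
  set E := U * P + V * Q - (X - C γ) with hEdef
  set I : Ideal A[X] := Ideal.span {P, Q} with hI
  have hQI : Ideal.span {Q} ≤ I := Ideal.span_mono (by simp)
  have hfin0 : Module.Finite A (A[X] ⧸ Ideal.span {Q}) := hQ.finite_adjoinRoot
  have hfin : Module.Finite A (A[X] ⧸ I) :=
    Module.Finite.of_surjective (Ideal.Quotient.factorₐ A hQI).toLinearMap
      (Ideal.Quotient.factor_surjective hQI)
  have hcoef : ∀ G H : A[X], (∀ i, G.coeff i ∈ maximalIdeal A) →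
      Ideal.Quotient.mk I (G * H) ∈ maximalIdeal A • (⊤ : Submodule A (A[X] ⧸ I)) := by
    intro G H hG
    rw [G.as_sum_range_C_mul_X_pow, Finset.sum_mul, map_sum]
    refine Submodule.sum_mem _ fun i _ => ?_
    have : Ideal.Quotient.mk I (C (G.coeff i) * X ^ i * H)
        = G.coeff i • Ideal.Quotient.mk I (X ^ i * H) := by
      rw [mul_assoc, ← smul_eq_C_mul]
      rfl
    rw [this]
    exact Submodule.smul_mem_smul (hG i) trivial
  have hle : (⊤ : Submodule A (A[X] ⧸ I)) ≤ Submodule.span A {1}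
      ⊔ maximalIdeal A • (⊤ : Submodule A (A[X] ⧸ I)) := by
    intro x _
    obtain ⟨R, rfl⟩ := Ideal.Quotient.mk_surjective x
    obtain ⟨R1, hR1⟩ := X_sub_C_dvd_sub_C_eval (a := γ) (p := R)
    have e1 : R = C (R.eval γ) + (U * P + V * Q) * R1 - E * R1 := by
      have : X - C γ = U * P + V * Q - E := by rw [hEdef]; ring
      calc R = C (R.eval γ) + (R - C (R.eval γ)) := by ring
        _ = C (R.eval γ) + (X - C γ) * R1 := by rw [hR1]
        _ = _ := by rw [this]; ring
    have e2 : Ideal.Quotient.mk I ((U * P + V * Q) * R1) = 0 := by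
      rw [Ideal.Quotient.eq_zero_iff_mem]
      refine I.mul_mem_right _ (I.add_mem (I.mul_mem_left _ ?_) (I.mul_mem_left _ ?_))
      · exact Ideal.subset_span (by simp)
      · exact Ideal.subset_span (by simp)
    rw [e1, map_sub, map_add, e2, add_zero]
    refine Submodule.sub_mem _ (Submodule.mem_sup_left ?_) (Submodule.mem_sup_right (hcoef E R1 hE))
    have : Ideal.Quotient.mk I (C (R.eval γ)) = R.eval γ • (1 : A[X] ⧸ I) := by
      rw [← map_one (Ideal.Quotient.mk I), ← mul_one (C (R.eval γ)), ← smul_eq_C_mul]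
      rfl
    rw [this]
    exact Submodule.smul_mem _ _ (Submodule.mem_span_singleton_self _)
  have hN := Submodule.le_of_le_smul_of_le_jacobson_bot (Module.Finite.fg_top)
    (maximalIdeal_le_jacobson (⊥ : Ideal A)) hle
  have hX : Ideal.Quotient.mk I X ∈ Submodule.span A {(1 : A[X] ⧸ I)} := hN trivial
  obtain ⟨b, hb⟩ := Submodule.mem_span_singleton.1 hX
  refine ⟨b, ?_⟩
  rw [← Ideal.Quotient.eq_zero_iff_mem, map_sub, ← hb, sub_eq_zero]
  rw [← map_one (Ideal.Quotient.mk I), ← mul_one (C b), ← smul_eq_C_mul]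
  rfl

/-- Bezout over a field. -/
theorem bezout_field {k : Type*} [Field k] (g u : k) (hg : g ≠ 0) (hu : u ≠ 0) (m N : ℕ)
    (hm : (m : k) ≠ 0) (hN : 0 < N) :
    ∃ U V : k[X], U * (C u * (X - C g) ^ N) + V * (X ^ m - C (g ^ m)) = X - C g := by
  obtain ⟨H, hH⟩ : X - C g ∣ X ^ m - C (g ^ m) := by
    have := X_sub_C_dvd_sub_C_eval (a := g) (p := (X ^ m : k[X]))
    rwa [eval_pow, eval_X] at this
  have hHg : H.eval g = m * g ^ (m - 1) := by
    have h1 := congrArg (fun p => (derivative p).eval g) hH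
    simp only [derivative_sub, derivative_X_pow, derivative_C, sub_zero, derivative_mul,
      derivative_X, one_mul, eval_add, eval_mul, eval_sub, eval_X, eval_C, sub_self, zero_mul,
      add_zero, eval_pow] at h1
    exact h1.symm
  have hh : H.eval g ≠ 0 := by
    rw [hHg]; exact mul_ne_zero hm (pow_ne_zero _ hg)
  obtain ⟨H1, hH1⟩ := X_sub_C_dvd_sub_C_eval (a := g) (p := H)
  have hcop : IsCoprime (X - C g) H := by
    refine ⟨-(C (H.eval g)⁻¹ * H1), C (H.eval g)⁻¹, ?_⟩
    have : H = C (H.eval g) + (X - C g) * H1 := by rw [← hH1]; ring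
    calc -(C (H.eval g)⁻¹ * H1) * (X - C g) + C (H.eval g)⁻¹ * H
        = C (H.eval g)⁻¹ * (H - (X - C g) * H1) := by ring
      _ = C (H.eval g)⁻¹ * C (H.eval g) := by rw [← hH1]; ring
      _ = 1 := by rw [← C_mul, inv_mul_cancel₀ hh, C_1]
  obtain ⟨a, b, hab⟩ := hcop.pow_left (m := N - 1)
  refine ⟨C u⁻¹ * a, b, ?_⟩
  obtain ⟨N', rfl⟩ : ∃ N', N = N' + 1 := ⟨N - 1, by omega⟩
  rw [Nat.add_sub_cancel] at hab
  rw [hH]
  calc C u⁻¹ * a * (C u * (X - C g) ^ (N' + 1)) + b * ((X - C g) * H)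
      = (C u⁻¹ * C u) * (a * (X - C g) ^ N' * (X - C g)) + b * H * (X - C g) := by ring
    _ = (a * (X - C g) ^ N' + b * H) * (X - C g) := by
        rw [← C_mul, inv_mul_cancel₀ hu, C_1]; ring
    _ = X - C g := by rw [hab, one_mul]

/-- the two relations `∏ (s_j X - c_j)`, `X ^ m - b1` generate `X - b`. -/
theorem exists_X_sub_C_mem_prod (m : ℕ) (hm : IsUnit (m : A)) (b1 γ : A) (hγ : IsUnit γ)
    (hγb : γ ^ m - b1 ∈ maximalIdeal A) {ι : Type*} [Fintype ι] [Nonempty ι] (s c : ι → A)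
    (hs : ∀ j, IsUnit (s j)) (hc : ∀ j, c j - s j * γ ∈ maximalIdeal A) :
    ∃ b : A, X - C b ∈ Ideal.span {∏ j, (C (s j) * X - C (c j)), X ^ m - C b1} := by
  have hm0 : m ≠ 0 := by
    rintro rfl
    rw [Nat.cast_zero] at hm
    exact not_isUnit_zero hm
  refine exists_X_sub_C_mem _ _ (monic_X_pow_sub_C b1 hm0) γ ?_
  set r := residue A with hr
  have hres : ∀ {x y : A}, x - y ∈ maximalIdeal A → r x = r y := by
    intro x y h
    rw [← sub_eq_zero, ← map_sub]
    exact (residue_eq_zero_iff _).2 h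
  have hunit : ∀ {x : A}, IsUnit x → r x ≠ 0 := by
    intro x hx h
    exact ((residue_eq_zero_iff x).1 h) hx
  have hP : (∏ j, (C (s j) * X - C (c j))).map r
      = C (∏ j, r (s j)) * (X - C (r γ)) ^ Fintype.card ι := by
    rw [Polynomial.map_prod, map_prod, ← Finset.card_univ, ← Finset.prod_const,
      ← Finset.prod_mul_distrib]
    refine Finset.prod_congr rfl fun j _ => ?_
    rw [Polynomial.map_sub, Polynomial.map_mul, map_C, map_C, map_X, hres (hc j), map_mul, C_mul]
    ring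
  have hQ : (X ^ m - C b1 : A[X]).map r = X ^ m - C (r γ ^ m) := by
    rw [Polynomial.map_sub, Polynomial.map_pow, map_X, map_C, ← map_pow, hres hγb]
  obtain ⟨U0, V0, hUV⟩ := bezout_field (r γ) (∏ j, r (s j)) (hunit hγ)
    (Finset.prod_ne_zero_iff.2 fun j _ => hunit (hs j)) m (Fintype.card ι)
    (by rw [← map_natCast r]; exact hunit hm) Fintype.card_pos
  obtain ⟨U, rfl⟩ := map_surjective r residue_surjective U0
  obtain ⟨V, rfl⟩ := map_surjective r residue_surjective V0
  refine ⟨U, V, fun i => ?_⟩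
  rw [← residue_eq_zero_iff, ← hr, ← coeff_map]
  have : (U * ∏ j, (C (s j) * X - C (c j)) + V * (X ^ m - C b1) - (X - C γ)).map r = 0 := by
    rw [Polynomial.map_sub, Polynomial.map_add, Polynomial.map_mul, Polynomial.map_mul, hP, hQ, hUV,
      Polynomial.map_sub, map_X, map_C, sub_self]
  rw [this, coeff_zero]

end Poly

section Chart

variable {F : Type*} [Field F]

/-- **Gluing of `r` branches.** -/
theorem glue_branches (O : Subring F) (ϖ : F) (B : Subring F) (hBO : ∀ x ∈ B, x ∈ O)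
    (n : Ideal B) [n.IsMaximal] (hsat : ∀ x : B, DivS O ϖ 1 (x : F) → x ∈ n)
    (m : ℕ) (hmn : (m : B) ∉ n) (f : F) (hf : f ∈ O) (b1 : B) (hb1 : b1 ∉ n)
    (hfb : DivS O ϖ 1 (f ^ m - b1)) {ι : Type*} [Fintype ι] (j0 : ι) (s c : ι → B)
    (hs : ∀ j, s j ∉ n) (hprod : DivS O ϖ 1 (∏ j, ((s j : F) * f - c j)))
    (heq : ∀ j, c j * s j0 - c j0 * s j ∈ n) (hroot : c j0 ^ m - s j0 ^ m * b1 ∈ n) :
    ∃ s' b : B, s' ∉ n ∧ b ∉ n ∧ DivS O ϖ 1 ((s' : F) * f - b) := by
  classical
  have hnp : n.IsPrime := (inferInstance : n.IsMaximal).isPrime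
  have : Nonempty ι := ⟨j0⟩
  let A := Localization.AtPrime n
  have hg : ∀ y : n.primeCompl, IsUnit (B.subtype y) := by
    intro y
    apply IsUnit.mk0
    intro h
    apply y.2
    have : (y : B) = 0 := Subtype.ext h
    rw [this]
    exact n.zero_mem
  let φ : A →+* F := IsLocalization.lift (M := n.primeCompl) (g := B.subtype) hg
  have hφ : ∀ x : B, φ (algebraMap B A x) = (x : F) := fun x => IsLocalization.lift_eq hg x
  have hunit : ∀ {x : B}, x ∉ n → IsUnit (algebraMap B A x) :=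
    fun {x} hx => IsLocalization.map_units A (⟨x, hx⟩ : n.primeCompl)
  have hmax : ∀ {x : B}, x ∈ n → algebraMap B A x ∈ maximalIdeal A :=
    fun {x} hx => (IsLocalization.AtPrime.to_map_mem_maximal_iff A n x).2 hx
  have hden : ∀ a : A, ∃ t : B, t ∉ n ∧ ∃ d : B, (t : F) * φ a = d := by
    intro a
    obtain ⟨⟨d, t⟩, h⟩ := IsLocalization.surj n.primeCompl a
    refine ⟨t, t.2, d, ?_⟩
    have := congrArg φ h
    rw [map_mul, hφ, hφ] at this
    rw [mul_comm]; exact this
  have hdenP : ∀ G : A[X], ∃ t : B, t ∉ n ∧ (t : F) * eval₂ φ f G ∈ O := by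
    intro G
    induction G using Polynomial.induction_on' with
    | add p q hp hq =>
      obtain ⟨t1, h1, h1'⟩ := hp
      obtain ⟨t2, h2, h2'⟩ := hq
      refine ⟨t1 * t2, fun h => (hnp.mem_or_mem h).elim h1 h2, ?_⟩
      rw [eval₂_add, Subring.coe_mul]
      have : (t1 : F) * t2 * (eval₂ φ f p + eval₂ φ f q)
          = t2 * (t1 * eval₂ φ f p) + t1 * (t2 * eval₂ φ f q) := by ring
      rw [this]
      exact O.add_mem (O.mul_mem (hBO _ t2.2) h1') (O.mul_mem (hBO _ t1.2) h2')
    | monomial k a =>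
      obtain ⟨t, ht, d, hd⟩ := hden a
      refine ⟨t, ht, ?_⟩
      rw [eval₂_monomial, ← mul_assoc, hd]
      exact O.mul_mem (hBO _ d.2) (O.pow_mem hf k)
  -- the common value
  have hc0 : c j0 ∉ n := by
    intro h
    have h2 : s j0 ^ m * b1 ∈ n := by
      have := n.sub_mem (n.pow_mem_of_mem h m (Nat.pos_of_ne_zero (by
        rintro rfl
        exact hmn (by rw [Nat.cast_zero]; exact n.zero_mem)))) hroot
      simpa using this
    rcases hnp.mem_or_mem h2 with h3 | h3
    · exact hs j0 (hnp.mem_of_pow_mem _ h3)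
    · exact hb1 h3
  obtain ⟨σ, hσ⟩ := (hunit (hs j0)).exists_left_inv
  set γ : A := σ * algebraMap B A (c j0) with hγdef
  have hσu : IsUnit σ := IsUnit.of_mul_eq_one _ hσ
  have hsγ : algebraMap B A (s j0) * γ = algebraMap B A (c j0) := by
    rw [hγdef, ← mul_assoc, mul_comm _ σ, hσ, one_mul]
  have hγ : IsUnit γ := hσu.mul (hunit hc0)
  have hγb : γ ^ m - algebraMap B A b1 ∈ maximalIdeal A := by
    have h1 : algebraMap B A (s j0) ^ m * (γ ^ m - algebraMap B A b1) ∈ maximalIdeal A := by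
      have := hmax hroot
      rw [map_sub, map_mul, map_pow, map_pow, ← hsγ] at this
      convert this using 1
      ring
    exact (Ideal.unit_mul_mem_iff_mem _ ((hunit (hs j0)).pow m)).1 h1
  have hc : ∀ j, algebraMap B A (c j) - algebraMap B A (s j) * γ ∈ maximalIdeal A := by
    intro j
    have h1 : algebraMap B A (s j0) * (algebraMap B A (c j) - algebraMap B A (s j) * γ)
        ∈ maximalIdeal A := by
      have := hmax (heq j)
      rw [map_sub, map_mul, map_mul, ← hsγ] at this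
      convert this using 1
      ring
    exact (Ideal.unit_mul_mem_iff_mem _ (hunit (hs j0))).1 h1
  have hmA : IsUnit ((m : ℕ) : A) := by
    have := hunit hmn
    rwa [map_natCast] at this
  obtain ⟨b, hb⟩ := exists_X_sub_C_mem_prod m hmA (algebraMap B A b1) γ hγ hγb
    (fun j => algebraMap B A (s j)) (fun j => algebraMap B A (c j)) (fun j => hunit (hs j)) hc
  obtain ⟨U, V, hUV⟩ := Ideal.mem_span_pair.1 hb
  have hev := congrArg (eval₂ φ f) hUV
  rw [eval₂_add, eval₂_mul, eval₂_mul, eval₂_sub, eval₂_sub, eval₂_X, eval₂_C, eval₂_pow, eval₂_X,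
    eval₂_C, eval₂_finsetProd, hφ] at hev
  have hPe : ∀ j, eval₂ φ f (C (algebraMap B A (s j)) * X - C (algebraMap B A (c j)))
      = (s j : F) * f - c j := by
    intro j
    rw [eval₂_sub, eval₂_mul, eval₂_C, eval₂_C, eval₂_X, hφ, hφ]
  rw [Finset.prod_congr rfl (fun j _ => hPe j)] at hev
  obtain ⟨tU, htU, hU⟩ := hdenP U
  obtain ⟨tV, htV, hV⟩ := hdenP V
  obtain ⟨tb, htb, d, hd⟩ := hden b
  have hs' : tU * tV * tb ∉ n := fun h =>
    (hnp.mem_or_mem h).elim (fun h => (hnp.mem_or_mem h).elim htU htV) htb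
  have hcong : DivS O ϖ 1 (((tU * tV * tb : B) : F) * f - ((tU * tV * d : B) : F)) := by
    have e : ((tU * tV * tb : B) : F) * f - ((tU * tV * d : B) : F)
        = (∏ j, ((s j : F) * f - c j)) * ((tV : F) * tb * (tU * eval₂ φ f U))
          + (f ^ m - b1) * ((tU : F) * tb * (tV * eval₂ φ f V)) := by
      simp only [Subring.coe_mul]
      rw [← hd]
      linear_combination (-(tU : F) * tV * tb) * hev
    rw [e]
    exact (hprod.mul_right (O.mul_mem (O.mul_mem (hBO _ tV.2) (hBO _ tb.2)) hU)).add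
      (hfb.mul_right (O.mul_mem (O.mul_mem (hBO _ tU.2) (hBO _ tb.2)) hV))
  refine ⟨tU * tV * tb, tU * tV * d, hs', ?_, hcong⟩
  intro hbn
  -- `b ^ m ≡ s' ^ m b1`
  have h1 := cong_pow (O.mul_mem (hBO _ (tU * tV * tb).2) hf) (hBO _ (tU * tV * d).2) hcong m
  have h2 : DivS O ϖ 1 ((((tU * tV * tb) ^ m * b1 - (tU * tV * d) ^ m : B) : B) : F) := by
    have e : ((((tU * tV * tb) ^ m * b1 - (tU * tV * d) ^ m : B) : B) : F)
        = ((((tU * tV * tb : B) : F) * f) ^ m - ((tU * tV * d : B) : F) ^ m)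
          - (f ^ m - b1) * ((tU * tV * tb : B) : F) ^ m := by
      push_cast
      ring
    rw [e]
    exact h1.sub (hfb.mul_right (O.pow_mem (hBO _ (tU * tV * tb).2) m))
  have h3 := hsat _ h2
  have h4 : (tU * tV * tb) ^ m * b1 ∈ n := by
    have := n.add_mem h3 (n.pow_mem_of_mem hbn m (Nat.pos_of_ne_zero (by
      rintro rfl
      exact hmn (by rw [Nat.cast_zero]; exact n.zero_mem))))
    simpa using this
  rcases hnp.mem_or_mem h4 with h5 | h5
  · exact hs' (hnp.mem_of_pow_mem _ h5)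
  · exact hb1 h5

end Chart

end Fermat.Agent.S36
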