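import Fermat.Agent.S36.GFin0
import Fermat.Agent.S36.MidCuspL
import Fermat.Agent.S36.CuspTh
import Fermat.Agent.S36.CuspRho2
import Fermat.Agent.S36.FixU3
import Fermat.Agent.S35.GU

/-!
# S36, block G : `(T2)` at the cusps of the middle component in the context of `HTAll`; `ClaimAll`
-/

set_option autoImplicit false
set_option linter.unusedVariables false
set_option synthInstance.maxHeartbeats 400000

noncomputable section

namespace Fermat.Agent.S36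

open ModularCurve AlgebraicCurve Polynomial IntermediateField
open Fermat.Agent.S24 Fermat.Agent.S28 Fermat.Agent.ES Fermat.Agent.ES.QE Fermat.Agent.ES.Model
  Fermat.Agent.ES.IDvr Fermat.Agent.ES.Inst Fermat.Agent.S37.Rat Fermat.Agent.S34
  Fermat.Agent.S35
open Fermat.Agent.ES.Inst.InstFinal Fermat.Agent.ES.Inst.InstCoord
open Fermat.Agent.S34.UAux Fermat.Agent.S34.WK

section One

variable {K0 : IntermediateField ℚ Kb} {A : ValuationSubring Kb}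
  [IsDiscreteValuationRing (R0 K0 A)] {D : QData (R0 K0 A) K0 (kA A)} {q : ℕ} [Fact q.Prime]
  {R' K' : Type*} [CommRing R'] [IsDomain R'] [IsNoetherianRing R'] [IsIntegrallyClosed R']
  [Field K'] [Algebra R' K'] [IsFractionRing R' K']
  {D' : QData R' K' (kA A)} {iR : R0 K0 A →+* R'} {i : K0 →+* K'}

set_option maxHeartbeats 2000000 in
/-- `HCusp` on one chart : `xF` is the coordinate in `FF M0`. -/
theorem hcusp_one12 (M0 : ℕ) [NeZero M0] (hqM : ¬ q ∣ M0) (hA : A.LiesOverPrime q)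
    (T : Two D q) (hT : T.F = F0 K0 (M0 * q)) (X : D.Coord)
    (y : LaurentSeries (R0 K0 A)) (hxy : X.xW * y = 1)
    (xF : FF M0) (hX : bc K0 (X.x : LaurentSeries K0) = (xF : LaurentSeries Kb))
    (htr : Transcendental Kb (heckeAlphaBar Kb M0 q xF))
    (hfd : FiniteDimensional Kb⟮heckeAlphaBar Kb M0 q xF⟯ (FF (M0 * q)))
    (hW : WGood M0 q xF)
    (B : BCData D D' iR i) (hϖ : D.ϖ = ((q : ℕ) : R0 K0 A)) (ζR : R'ˣ)
    (hprim : IsPrimitiveRoot (ζR : R') q)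
    (c0 : R') (hc : (ζR : R') - 1 = D'.ϖ * c0) (hc0 : D'.res c0 ≠ 0)
    (H : Three T i (GNorm.uK ζR)) (hH : H.F = F0 K0 (M0 * q * q))
    (htr2 : Transcendental Kb (iotaH H hH (H.x X)))
    (hfd2 : FiniteDimensional Kb⟮iotaH H hH (H.x X)⟯ (FF (M0 * q * q)))
    (hxq : qExpand (kA A) q (D.red X.xW) = D.red X.xW ^ q)
    (hxyd : XYData T X) (hcr : CuspRel X) : HCusp H D' X := by
  have hq : q.Prime := Fact.out
  have hchar : CharP (kA A) q := ResField.charP hq hA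
  obtain ⟨hVx, ⟨θ, hθ⟩, -⟩ := hxyd
  obtain ⟨θ', hθ'⟩ := exists_theta' hq hA D T hT (Wb M0 q hqM) (Wb_alpha M0 q hqM)
    (Wb_beta M0 q hqM) X y hxy xF hX htr hW.pos
  have hcq : (q : R0 K0 A) = D.ϖ * 1 := by rw [mul_one, hϖ]
  have hcq0 : D.res 1 ≠ 0 := by rw [map_one]; exact one_ne_zero
  have L := H.lvl1 D' iR B.comm B.res hprim c0 hc hc0 1 hcq hcq0
  have h1 := H.isChartS_of D' iR B.comm B.res ζR rfl hprim c0 hc hc0 1 hcq hcq0 X (m := 1)
    (by rw [Nat.cast_one]; exact isUnit_one)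
  have hA' : ∀ b ∈ H.chart X, b ∈ H.OA := fun b hb => (h1.le b hb).1.1
  have hC : ∀ b ∈ H.chart X, b ∈ H.OC D' := fun b hb => (h1.le b hb).1.2
  have hB : ∀ b ∈ H.chart X, b ∈ H.OB := fun b hb => (h1.le b hb).2
  obtain ⟨a, ha, P, hP0, hrel⟩ := hcr
  exact MidCuspL.t2_cusp H X L hq hϖ hxq θ θ' hθ hθ' (NRed.be_mem_chart X T hVx)
    (fun b hb => H.be_mem_chart X hVx hb) (fun f hf => H.root_chart X q hq.pos f hf) h1
    (TRedA.mem_pA H X hA') (TRedA.mem_pC H X D' hC) (TRedA.mem_pB H X hB) a ha P hP0 hrel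
    (M0 * q * q) (iotaH H hH) (fun _ => rfl) htr2
    (fun W w1 w2 => hC0_iotaH H hH hT W w1 w2)

set_option maxHeartbeats 2000000 in
/-- `HCusp` on the two charts. -/
theorem hcusp_both12 (M0 : ℕ) [NeZero M0] (hqM : ¬ q ∣ M0) (hA : A.LiesOverPrime q)
    (Z : ZCoord M0 q) (hW : WGood M0 q Z.xF) (hZ : ZCuspRel Z)
    (T : Two D q) (hT : T.F = F0 K0 (M0 * q)) (X : D.Coord)
    (y : LaurentSeries (R0 K0 A)) (hxy : X.xW * y = 1)
    (hXW : X.xW = zS (R0 K0 A) Z.xZ) (hy : y = zS (R0 K0 A) Z.yZ)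
    (hX : bc K0 (X.x : LaurentSeries K0) = (Z.xF : LaurentSeries Kb))
    (B : BCData D D' iR i) (hϖ : D.ϖ = ((q : ℕ) : R0 K0 A)) (ζR : R'ˣ)
    (hprim : IsPrimitiveRoot (ζR : R') q)
    (c0 : R') (hc : (ζR : R') - 1 = D'.ϖ * c0) (hc0 : D'.res c0 ≠ 0)
    (H : Three T i (GNorm.uK ζR)) (hH : H.F = F0 K0 (M0 * q * q))
    (hxq : qExpand (kA A) q (D.red X.xW) = D.red X.xW ^ q)
    (hyq : qExpand (kA A) q (D.red y) = D.red y ^ q)
    (hxy1 : XYData T X) (hxy2 : XYData T (X.inv y hxy)) :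
    HCusp H D' X ∧ HCusp H D' (X.inv y hxy) := by
  have hq : q.Prime := Fact.out
  have hchar : CharP (kA A) q := ResField.charP hq hA
  obtain ⟨cr1, cr2⟩ := cuspRel_of_zCuspRel Z hZ X y hxy hXW hy
  -- level `M0 q`
  have hmemN : zS Kb Z.xZ ∈ modularFunctionFieldBar (M0 * q) := by
    have h := (heckeAlphaBar Kb M0 q Z.xF).2
    rwa [coe_heckeAlphaBar] at h
  obtain ⟨ZN, hZN⟩ : ∃ ZN : ZCoord (M0 * q) q, ZN.xF = heckeAlphaBar Kb M0 q Z.xF :=
    ⟨{ Z with mem := hmemN }, Subtype.ext (coe_heckeAlphaBar M0 q Z.xF).symm⟩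
  have hxt := transcendental_xF ZN
  have hxt' : Transcendental Kb ZN.xF⁻¹ := FF.transcendental_inv hxt
  have hfd := finiteDimensional_xF ZN
  have hfd' := finiteDimensional_xF_inv ZN
  have hαx : heckeAlphaBar Kb M0 q Z.xF = ZN.xF := hZN.symm
  have hαx' : heckeAlphaBar Kb M0 q Z.xF⁻¹ = ZN.xF⁻¹ := by rw [map_inv₀, hαx]
  have hX' : bc K0 ((X.inv y hxy).x : LaurentSeries K0) = ((Z.xF⁻¹ : FF M0) : LaurentSeries Kb) := by
    rw [X.inv_x y hxy]
    have : ((X.x⁻¹ : D.F0) : LaurentSeries K0) = (X.x : LaurentSeries K0)⁻¹ := rfl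
    rw [this, map_inv₀, hX]
    rfl
  -- level `M0 q²`
  have hmemN2 : zS Kb Z.xZ ∈ modularFunctionFieldBar (M0 * q * q) := by
    have h := (heckeAlphaBar Kb (M0 * q) q (heckeAlphaBar Kb M0 q Z.xF)).2
    rwa [coe_heckeAlphaBar, coe_heckeAlphaBar] at h
  obtain ⟨ZN2, hZN2⟩ : ∃ ZN2 : ZCoord (M0 * q * q) q, (ZN2.xF : LaurentSeries Kb) = Z.xF :=
    ⟨{ Z with mem := hmemN2 }, rfl⟩
  have hιx : iotaH H hH (H.x X) = ZN2.xF := by
    apply Subtype.ext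
    rw [coe_iotaH, hZN2, ← hX]
    rfl
  have hιx' : iotaH H hH (H.x (X.inv y hxy)) = ZN2.xF⁻¹ := by
    rw [← hιx, ← map_inv₀, H.x_inv X y hxy]
  have hxt2 := transcendental_xF ZN2
  have hxt2' : Transcendental Kb ZN2.xF⁻¹ := FF.transcendental_inv hxt2
  refine ⟨hcusp_one12 M0 hqM hA T hT X y hxy Z.xF hX (by rw [hαx]; exact hxt)
    (by rw [hαx]; exact hfd) hW B hϖ ζR hprim c0 hc hc0 H hH (by rw [hιx]; exact hxt2)
    (by rw [hιx]; exact finiteDimensional_xF ZN2) hxq hxy1 cr1, ?_⟩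
  exact hcusp_one12 M0 hqM hA T hT (X.inv y hxy) X.xW (by rw [mul_comm]; exact hxy) Z.xF⁻¹ hX'
    (by rw [hαx']; exact hxt') (by rw [hαx']; exact hfd') hW.inv B hϖ ζR hprim c0 hc hc0 H hH
    (by rw [hιx']; exact hxt2') (by rw [hιx']; exact finiteDimensional_xF_inv ZN2) hyq hxy2 cr2

end One

set_option maxHeartbeats 1000000 in
/-- **`HCuspAll`.** -/
theorem hCuspAll12 (q : ℕ) [Fact q.Prime] (A : ValuationSubring Kb) (hA : A.LiesOverPrime q) :
    HCuspAll q A := by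
  intro m M0 _ hqM hqm Z hU hW hZ n1 n2 n3 K0 hK0 hu0 hst _ D T X y hxy K0' hle _ ζR D' H
    h1 h2 h3 h4 Φ hΦ hΦx hΦy
  obtain ⟨hF, hres, hϖ, hT, hTW, hXW, hy, hX, hded1, hded2, hxq, hyq, hxy1, hxy2, -⟩ := h1
  obtain ⟨-, hprim, -, hres', -, ⟨c0, hc, hc0⟩, hbc⟩ := h2
  exact hcusp_both12 M0 hqM hA Z hW hZ T hT X y hxy hXW hy hX hbc hϖ ζR hprim c0 hc hc0 H h3.1
    hxq hyq hxy1 hxy2

/-- **`ClaimAll`.** -/
theorem claimAll12 : ClaimAll := claimAll_of_cusp fun q _ A hA => hCuspAll12 q A hA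

end Fermat.Agent.S36
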