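import Fermat.Agent.S36.T2Cusp
import Fermat.Agent.S36.CuspP
import Fermat.Agent.S36.DCentre3
import Fermat.Agent.S36.CuspUnitC
import Fermat.Agent.S36.CuspRho2
import Fermat.Agent.S36.Mid

/-!
# S36, G-REG, [D7] : (T2) at the cusps of the middle component (glue)
-/

set_option autoImplicit false
set_option linter.unusedSectionVars false
set_option linter.unusedVariables false
set_option linter.style.haveILetI false
set_option synthInstance.maxHeartbeats 400000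

noncomputable section

namespace Fermat.Agent.S36.MC26

open ModularCurve AlgebraicCurve Polynomial IntermediateField IsDedekindDomain
open Fermat.Agent.S24 Fermat.Agent.S28 Fermat.Agent.ES Fermat.Agent.ES.QE Fermat.Agent.ES.IDvr
  Fermat.Agent.ES.Inst Fermat.Agent.ES.Model Fermat.Agent.S34 Fermat.Agent.S35

variable {M0 q : ℕ} [NeZero M0] [Fact q.Prime] {A : ValuationSubring Kb}
  {K0 : IntermediateField ℚ Kb} [IsDiscreteValuationRing (R0 K0 A)]
  {D : QData (R0 K0 A) K0 (kA A)} {T : Two D q}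
  {K' : Type*} [Field K'] {i : K0 →+* K'} {ζ : K'ˣ}
  {R' : Type*} [CommRing R'] [IsDomain R'] [IsNoetherianRing R'] [IsIntegrallyClosed R']
  [Algebra R' K'] [IsFractionRing R' K'] {D' : QData R' K' (kA A)}

set_option maxHeartbeats 4000000 in
/-- **(T2) at the cusps of the middle component.** -/
theorem t2_cusp26 (H : Three T i ζ) (X : D.Coord) {nA nB : H.F →* T.F}
    (L : Lvl1 q T.O1 T.O2 T.ϖF H.OA (H.OC D') H.OB H.ϖF H.tC H.al H.be nA nB)
    [CharP (kA A) q] (hxq : qExpand (kA A) q (D.red X.xW) = D.red X.xW ^ q)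
    (hϖ : D.ϖ = (q : R0 K0 A)) {m : ℕ}
    (hB : IsChartS (H.OA ⊓ H.OC D' ⊓ H.OB) H.ϖF m (H.chart X))
    (memF : ∀ b : H.chart X, b ∈ H.pA X ↔ DivS H.OA H.ϖF 1 (b : H.F))
    (memM : ∀ b : H.chart X, b ∈ H.pC X D' ↔ DivS (H.OC D') H.tC 1 (b : H.F))
    (memV : ∀ b : H.chart X, b ∈ H.pB X ↔ DivS H.OB H.ϖF 1 (b : H.F))
    (hram : IsU (H.OC D') (H.ϖF / H.tC ^ (q - 1)))
    (θ θ' : T.chart X) (hθ : (θ : T.F) * T.x X = T.be X.x ^ q)
    (hθ' : (θ' : T.F) * T.be X.x = T.x X ^ q)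
    (hbe1 : ∀ c ∈ X.chart, T.be c ∈ T.chart X) (hbe2 : ∀ b ∈ T.chart X, H.be b ∈ H.chart X)
    (hroot : ∀ f : H.F, f ^ q ∈ H.chart X → f ∈ H.chart X)
    (a : ℕ) (ha : 1 ≤ a) (P : (R0 K0 A)[X]) (r' : R0 K0 A) (hr : P.coeff 0 * r' = 1)
    (hrel : jqModC (R0 K0 A) * X.xW ^ a = evS X.xW P)
    (hH : H.F = F0 K0 (M0 * q * q)) (hT : T.F = F0 K0 (M0 * q))
    (htr : Transcendental Kb (iotaH H hH (H.x X)))
    [FiniteDimensional Kb⟮iotaH H hH (H.x X)⟯ (FF (M0 * q * q))] :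
    ∀ n : Ideal (H.chart X), n.IsMaximal → H.pC X D' ≤ n → ¬ H.pA X ≤ n →
      ¬ H.pB X ≤ n → (⟨H.x X, X.x_mem_chart⟩ : H.chart X) ∈ n →
      ∃ x ∈ H.pC X D', ∃ s, s ∉ n ∧ ∃ c,
        s * (⟨H.ϖF, hB.unif_mem⟩ : H.chart X) = c * x ^ (q - 1) := by
  intro n hn hM hF hV hxn
  have hq : q.Prime := Fact.out
  haveI hnp : n.IsPrime := hn.isPrime
  have hϖ0 : H.ϖF ≠ 0 := fun h0 => hram.ne_zero (by rw [h0, zero_div])
  -- units of the Gauss ring
  have hxU : IsU D.LamRing (D.inc X.xW) := Mid.isU_inc (QNode.red_xW_ne_zero X)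
  have hjU : IsU D.LamRing (D.inc (jqModC (R0 K0 A))) := Mid.isU_inc (by
    rw [QData.red_j]; exact jqModC_ne_zero_of_nontrivial _)
  have hxM : (H.x X)⁻¹ ∈ H.OC D' := by
    have e : (H.x X)⁻¹ = H.al (T.x X)⁻¹ := by rw [map_inv₀]; rfl
    rw [e, L.al_M]
    show ((T.x X)⁻¹ : T.F).1 ∈ D.LamRing
    rw [IntermediateField.coe_inv]
    exact hxU.inv_mem
  have hjM : (H.jx)⁻¹ ∈ H.OC D' := by
    have e : (H.jx)⁻¹ = H.al (T.al D.jF)⁻¹ := by rw [map_inv₀]; rfl
    rw [e, L.al_M]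
    show ((T.al D.jF)⁻¹ : T.F).1 ∈ D.LamRing
    rw [IntermediateField.coe_inv]
    have e2 : ((T.al D.jF : T.F) : LaurentSeries K0) = D.inc (jqModC (R0 K0 A)) :=
      (coeffMap_jqModC _).symm
    rw [e2]
    exact hjU.inv_mem
  have hx0 : H.x X ≠ 0 := by
    intro h0
    have : ((H.x X : H.F) : LaurentSeries K0) = 0 := by rw [h0]; rfl
    exact hxU.ne_zero this
  have hjx0 : H.jx ≠ 0 := by
    intro h0
    have : ((H.jx : H.F) : LaurentSeries K0) = 0 := by rw [h0]; rfl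
    apply hjU.ne_zero
    rw [← this]
    exact coeffMap_jqModC _
  -- `ρ = b / s`
  obtain ⟨s, b, hs, hb, hsb⟩ := cusp_unit H X L hq hxq θ θ' hθ hθ' hbe1 hbe2 hroot memM n hM hxn
    a P r' hr hrel
  have hρ : H.jz * (s : H.F) = H.jx * b := by
    rw [← hsb]
    field_simp
  have h2 : DivS (H.OC D') H.tC 1 ((b : H.F) - s) := by
    refine ⟨(s : H.F) * (H.jx)⁻¹, (H.OC D').mul_mem (hB.le _ s.2).1.2 hjM, ?_⟩
    rw [← hsb, pow_one]
    show _ = (H.jz - H.jx) * _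
    field_simp
  -- the relation `jx * x ^ a = P(x)`
  have hn1 : (1 : H.chart X) ∉ n := fun h => hnp.ne_top ((Ideal.eq_top_iff_one n).2 h)
  have hrel0 : D.jF * X.x ^ a = X.phiF P := by
    apply Subtype.ext
    have h1 := congrArg D.inc hrel
    rw [map_mul, map_pow] at h1
    have h2 : D.inc (jqModC (R0 K0 A)) = jqModC K0 := coeffMap_jqModC _
    rw [h2] at h1
    exact h1
  have hP : X.phiF P = X.phiF (C (P.coeff 0)) + X.x * X.phiF (divX P) := by
    conv_lhs => rw [← divX_mul_X_add P]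
    rw [map_add, map_mul, X.phiF_X]
    ring
  set φA : D.F0 →+* H.F := H.al.comp T.al with hφA
  have hmemA : ∀ c ∈ X.chart, φA c ∈ H.chart X := fun c hc => hc
  let xB' : H.chart X := ⟨H.x X, X.x_mem_chart⟩
  let p0 : H.chart X := ⟨φA (X.phiF (C (P.coeff 0))), hmemA _ (X.phiF_mem_chart _)⟩
  let p0' : H.chart X := ⟨φA (X.phiF (C r')), hmemA _ (X.phiF_mem_chart _)⟩
  let ux : H.chart X := ⟨φA (X.phiF (divX P)), hmemA _ (X.phiF_mem_chart _)⟩
  have hp0 : p0 ∉ n := by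
    intro h
    apply hn1
    have h1 : p0 * p0' = 1 := by
      apply Subtype.ext
      show φA (X.phiF (C (P.coeff 0))) * φA (X.phiF (C r')) = 1
      rw [← map_mul, ← map_mul, ← C_mul, hr, C_1, map_one, map_one]
    rw [← h1]
    exact n.mul_mem_right _ h
  have hPx : H.jx * ((xB' : H.chart X) : H.F) ^ a = ((p0 + xB' * ux : H.chart X) : H.F) := by
    show φA D.jF * (φA X.x) ^ a = φA (X.phiF (C (P.coeff 0))) + φA X.x * φA (X.phiF (divX P))
    rw [← map_pow, ← map_mul, hrel0, hP, map_add, map_mul]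
  have hPxn : p0 + xB' * ux ∉ n := by
    intro h
    apply hp0
    have h3 : xB' * ux ∈ n := n.mul_mem_right _ hxn
    have := n.sub_mem h h3
    rwa [add_sub_cancel_right] at this
  -- the generic fibre
  have hA' : HDivDesc.IsAway D := Inst.InstDesc.isAway_of_dvr D
  letI := H.algRB X
  letI := H.algBD X
  haveI := H.isDedekindDomain_away X hA'
  haveI := H.isFractionRing_away X hA'
  haveI := H.tower_away X
  haveI : IsLocalization.Away (⟨H.ϖF, hB.unif_mem⟩ : H.chart X) (H.away X) :=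
    H.isLocalization_away X
  have hplace : ∀ Q : HeightOneSpectrum (H.away X), ∃ W : Place Kb (FF (M0 * q * q)),
      (∀ d : H.away X, d ∈ Q.asIdeal → d ≠ 0 →
        0 < W.ord (iotaH H hH (algebraMap (H.away X) H.F d))) ∧
      (∀ d : H.away X, d ∉ Q.asIdeal → W.ord (iotaH H hH (algebraMap (H.away X) H.F d)) = 0) := by
    intro Q
    haveI := Q.isPrime
    obtain ⟨W, -, -, h3, h4⟩ := DCentre.exists_place_away3 (M0 * q * q) H X (iotaH H hH)
      (fun _ => rfl) htr Q.asIdeal Q.ne_bot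
    refine ⟨W, fun d hd hd0 => ?_, fun d hd => h4 d hd⟩
    have := h3 1 d (by rw [pow_one]; exact hd) hd0
    have h5 : (1 : ℤ) ≤ W.ord (iotaH H hH (d : H.F)) := by exact_mod_cast this
    exact lt_of_lt_of_le one_pos h5
  obtain ⟨Pp, hPp, hPn, hϖP, h3⟩ := CuspP.exists_P (D := H.away X) (OF := H.OA) (OM := H.OC D')
    (OV := H.OB) (pF := H.pA X) (pV := H.pB X) hϖ0 hB memF memV n hF hV xB' hxn hx0 hxM
    (iotaH H hH) hplace a ha (p0 + xB' * ux) hPxn H.jx H.jz hPx s b hs hb hρ q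
    (fun W h1 h2 => hC0_iotaH H hH hT W h1 h2)
  have hϖq : H.ϖF = (q : H.F) := by
    show algebraMap K0 H.F (algebraMap (R0 K0 A) K0 D.ϖ) = _
    rw [hϖ, map_natCast, map_natCast]
  haveI := hPp
  exact TAsm.t2_cusp_abs hϖ0 hB memF memM memV hram hq hϖq n hnp hM hF hV s b hs hb h2 Pp hPn hϖP h3

end Fermat.Agent.S36.MC26
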