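import Fermat.Agent.S36.GFin29
import Fermat.Agent.S36.MidCusp26
import Fermat.Agent.S36.CuspTh
import Fermat.Agent.S36.CuspRel

/-!
# S36, block G : the cusps of the middle component in the context of `HTAll` (backup assembly)
-/

set_option autoImplicit false
set_option linter.unusedSectionVars false
set_option linter.unusedVariables false
set_option linter.style.haveILetI false
set_option synthInstance.maxHeartbeats 400000

noncomputable section

namespace Fermat.Agent.S36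

open ModularCurve AlgebraicCurve Polynomial IntermediateField
open Fermat.Agent.S24 Fermat.Agent.S28 Fermat.Agent.ES Fermat.Agent.ES.QE Fermat.Agent.ES.Model
  Fermat.Agent.ES.IDvr Fermat.Agent.ES.Inst Fermat.Agent.S34 Fermat.Agent.S35 Fermat.Agent.S37
open Fermat.Agent.S34.WK

section One

variable {K0 : IntermediateField ℚ Kb} {A : ValuationSubring Kb}
  [IsDiscreteValuationRing (R0 K0 A)] {D : QData (R0 K0 A) K0 (kA A)} {q : ℕ} [Fact q.Prime]
  {R' K' : Type*} [CommRing R'] [IsDomain R'] [IsNoetherianRing R'] [IsIntegrallyClosed R']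
  [Field K'] [Algebra R' K'] [IsFractionRing R' K']
  {D' : QData R' K' (kA A)} {iR : R0 K0 A →+* R'} {i : K0 →+* K'}

set_option maxHeartbeats 4000000 in
/-- the cusps of the middle component, one coordinate. -/
theorem hcusp_one29 (M0 : ℕ) [NeZero M0] (hqM : ¬ q ∣ M0) (hA : A.LiesOverPrime q)
    (T : Two D q) (X : D.Coord) (y : LaurentSeries (R0 K0 A)) (hxy : X.xW * y = 1)
    (hF : D.F0 = F0 K0 M0) (hT : T.F = F0 K0 (M0 * q)) (xF : FF M0)
    (hX : bc K0 (X.x : LaurentSeries K0) = (xF : LaurentSeries Kb))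
    (htr1 : Transcendental Kb (heckeAlphaBar Kb M0 q xF))
    (hfd1 : FiniteDimensional Kb⟮heckeAlphaBar Kb M0 q xF⟯ (FF (M0 * q)))
    (htr2 : Transcendental Kb (heckeAlphaBar Kb (M0 * q) q (heckeAlphaBar Kb M0 q xF)))
    (hfd2 : FiniteDimensional Kb⟮heckeAlphaBar Kb (M0 * q) q (heckeAlphaBar Kb M0 q xF)⟯
      (FF (M0 * q * q)))
    (hW : WGood M0 q xF)
    (hi : ∀ r, i (algebraMap (R0 K0 A) K0 r) = algebraMap R' K' (iR r))
    (hres : ∀ r, D'.res (iR r) = D.res r) (hϖ : D.ϖ = (q : R0 K0 A)) (ζR : R'ˣ)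
    (hprim : IsPrimitiveRoot (ζR : R') q)
    (c0 : R') (hc : (ζR : R') - 1 = D'.ϖ * c0) (hc0 : D'.res c0 ≠ 0)
    (H : Three T i (GNorm.uK ζR)) (hH : H.F = F0 K0 (M0 * q * q))
    {m : ℕ} (hm : IsUnit (m : R0 K0 A)) [CharP (kA A) q]
    (hxq : qExpand (kA A) q (D.red X.xW) = D.red X.xW ^ q)
    (hXY : XYData T X) (hC : CuspRel X) : HCusp H D' X := by
  have hq : q.Prime := Fact.out
  obtain ⟨hVx, ⟨θ, hθ⟩, -⟩ := hXY
  obtain ⟨θ', hθ'⟩ := exists_theta' hq hA D T hT (Wb M0 q hqM) (Wb_alpha M0 q hqM)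
    (Wb_beta M0 q hqM) X y hxy xF hX htr1 hW.pos
  obtain ⟨a, ha, P, hP, hrel⟩ := hC
  have hmax : (RingHom.ker D.res).IsMaximal := (RingHom.ker_isPrime D.res).isMaximal (by
    intro h0
    have h1 : D.ϖ ∈ RingHom.ker D.res := by
      rw [D.ker_res]; exact Ideal.mem_span_singleton_self _
    rw [h0] at h1
    exact D.ϖ_ne (by simpa using h1))
  have hk := IsLocalRing.eq_maximalIdeal hmax
  have hu : IsUnit (P.coeff 0) := by
    by_contra hnu
    have h1 : P.coeff 0 ∈ IsLocalRing.maximalIdeal (R0 K0 A) :=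
      (IsLocalRing.mem_maximalIdeal _).2 hnu
    rw [← hk, RingHom.mem_ker] at h1
    exact hP (by rw [← coeff_zero_eq_eval_zero]; exact h1)
  obtain ⟨r', hr⟩ := hu.exists_right_inv
  have hcq : (q : R0 K0 A) = D.ϖ * 1 := by rw [mul_one, hϖ]
  have hcq0 : D.res 1 ≠ 0 := by rw [map_one]; exact one_ne_zero
  have L := H.lvl1 D' iR hi hres hprim c0 hc hc0 1 hcq hcq0
  have h1 := H.isChartS_of D' iR hi hres ζR rfl hprim c0 hc hc0 1 hcq hcq0 X hm
  have hA' : ∀ b ∈ H.chart X, b ∈ H.OA := fun b hb => (h1.le b hb).1.1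
  have hC' : ∀ b ∈ H.chart X, b ∈ H.OC D' := fun b hb => (h1.le b hb).1.2
  have hB' : ∀ b ∈ H.chart X, b ∈ H.OB := fun b hb => (h1.le b hb).2
  have hram : IsU (H.OC D') (H.ϖF / H.tC ^ (q - 1)) := by
    have := L.ram.inv
    rwa [inv_div] at this
  have hιx0 : iotaF D hF X.x = xF := Subtype.ext (by rw [coe_iotaF, hX])
  have hιx : iotaT T hT (T.x X) = heckeAlphaBar Kb M0 q xF := by
    rw [← hιx0]
    exact iotaT_al T hT hF X.x
  have hιH : iotaH H hH (H.x X) = heckeAlphaBar Kb (M0 * q) q (heckeAlphaBar Kb M0 q xF) := by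
    rw [← hιx]
    exact iotaH_al H hH hT (T.x X)
  haveI : FiniteDimensional Kb⟮iotaH H hH (H.x X)⟯ (FF (M0 * q * q)) := by
    rw [hιH]
    exact hfd2
  exact MC26.t2_cusp26 H X L hxq hϖ h1 (TRedA.mem_pA H X hA') (TRedA.mem_pC H X D' hC')
    (TRedA.mem_pB H X hB') hram θ θ' hθ hθ' (NRed.be_mem_chart X T hVx)
    (fun b hb => H.be_mem_chart X hVx hb) (H.root_chart X q hq.pos) a ha P r' hr hrel hH hT
    (by rw [hιH]; exact htr2)

end One

set_option maxHeartbeats 4000000 in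
/-- the cusps of the middle component, in the context of `HTAll`. -/
theorem hcuspAll29 (q : ℕ) [Fact q.Prime] (A : ValuationSubring Kb)
    (hA : A.LiesOverPrime q) : HCuspAll29 q A := by
  have hq : q.Prime := Fact.out
  intro m M0 _ hqM hqm Z hU hW hZ n1 n2 n3 K0 hK0 hu0 hst _ D T X y hxy K0' hle _ ζR D' H
    h1 h2 h3 h4 Φ hΦ hΦx hΦy
  obtain ⟨hF, hres, hϖ, hT, hTW, hXW, hy, hX, hded1, hded2, hxq, hyq, hxy1, hxy2, -⟩ := h1
  obtain ⟨-, hprim, -, hres', -, ⟨c0, hc, hc0⟩, hbc⟩ := h2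
  have hchar : CharP (kA A) q := ResField.charP hq hA
  obtain ⟨r1, r2⟩ := cuspRel_of_zCuspRel Z hZ X y hxy hXW hy
  have hmemN : zS Kb Z.xZ ∈ modularFunctionFieldBar (M0 * q) := by
    have h := (heckeAlphaBar Kb M0 q Z.xF).2
    rwa [coe_heckeAlphaBar] at h
  obtain ⟨ZN, hZN⟩ : ∃ ZN : ZCoord (M0 * q) q, ZN.xF = heckeAlphaBar Kb M0 q Z.xF :=
    ⟨{ Z with mem := hmemN }, Subtype.ext (coe_heckeAlphaBar M0 q Z.xF).symm⟩
  have hmemN2 : zS Kb ZN.xZ ∈ modularFunctionFieldBar (M0 * q * q) := by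
    have h := (heckeAlphaBar Kb (M0 * q) q ZN.xF).2
    rwa [coe_heckeAlphaBar] at h
  obtain ⟨ZN2, hZN2⟩ : ∃ ZN2 : ZCoord (M0 * q * q) q,
      ZN2.xF = heckeAlphaBar Kb (M0 * q) q ZN.xF :=
    ⟨{ ZN with mem := hmemN2 }, Subtype.ext (coe_heckeAlphaBar (M0 * q) q ZN.xF).symm⟩
  have hxt := transcendental_xF ZN
  have hxt' : Transcendental Kb ZN.xF⁻¹ := FF.transcendental_inv hxt
  have hfd := finiteDimensional_xF ZN
  have hfd' := finiteDimensional_xF_inv ZN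
  have hxt2 := transcendental_xF ZN2
  have hxt2' : Transcendental Kb ZN2.xF⁻¹ := FF.transcendental_inv hxt2
  have hfd2 := finiteDimensional_xF ZN2
  have hfd2' := finiteDimensional_xF_inv ZN2
  have hιx0 : iotaF D hF X.x = Z.xF := Subtype.ext (by rw [coe_iotaF, hX])
  have hX' : bc K0 ((X.inv y hxy).x : LaurentSeries K0) = ((Z.xF⁻¹ : FF M0) : LaurentSeries Kb) := by
    rw [← coe_iotaF D hF, X.inv_x y hxy, map_inv₀, hιx0]
  have hmU : IsUnit (m : R0 K0 A) := natCast_isUnit_R0 K0 A hq hA hqm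
  have hyx : (X.inv y hxy).xW * X.xW = 1 := by
    rw [mul_comm]; exact hxy
  refine ⟨hcusp_one29 M0 hqM hA T X y hxy hF hT Z.xF hX (hZN ▸ hxt) (hZN ▸ hfd)
    (by rw [← hZN, ← hZN2]; exact hxt2) (by rw [← hZN, ← hZN2]; exact hfd2) hW hbc.comm hbc.res hϖ
    ζR hprim c0 hc hc0 H h3.1 hmU hxq hxy1 r1,
    hcusp_one29 M0 hqM hA T (X.inv y hxy) X.xW hyx hF hT Z.xF⁻¹ hX'
    (by rw [map_inv₀, ← hZN]; exact hxt') (by rw [map_inv₀, ← hZN]; exact hfd')
    (by rw [map_inv₀, map_inv₀, ← hZN, ← hZN2]; exact hxt2')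
    (by rw [map_inv₀, map_inv₀, ← hZN, ← hZN2]; exact hfd2') hW.inv hbc.comm hbc.res hϖ
    ζR hprim c0 hc hc0 H h3.1 hmU hyq hxy2 r2⟩

/-- **Block G.** -/
theorem claimAll29 : ClaimAll :=
  claimAll_of_cusp29 fun q _ A hA => hcuspAll29 q A hA

end Fermat.Agent.S36
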