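import Fermat.Agent.S36.GFin0
import Fermat.Agent.S36.MidCuspL
import Fermat.Agent.S36.CuspRho2
import Fermat.Agent.S36.CuspTh
import Fermat.Agent.S36.CuspRel2
import Fermat.Agent.S36.FixU3

/-!
# S36, block G : `(T2)` at the cusps of the middle component in the context of `HCuspAll`
-/

set_option autoImplicit false
set_option linter.unusedVariables false
set_option linter.unusedSectionVars false
set_option linter.style.haveILetI false
set_option synthInstance.maxHeartbeats 400000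

noncomputable section

namespace Fermat.Agent.S36.HC9

open ModularCurve AlgebraicCurve Polynomial IntermediateField
open Fermat.Agent.S24 Fermat.Agent.S28 Fermat.Agent.ES Fermat.Agent.ES.QE Fermat.Agent.ES.Model
  Fermat.Agent.ES.IDvr Fermat.Agent.ES.Inst Fermat.Agent.S34 Fermat.Agent.S35 Fermat.Agent.S37
open Fermat.Agent.S34.WK

variable {K0 : IntermediateField ℚ Kb} {A : ValuationSubring Kb}
  [IsDiscreteValuationRing (R0 K0 A)] {D : QData (R0 K0 A) K0 (kA A)} {q : ℕ} [Fact q.Prime]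
  {R' K' : Type*} [CommRing R'] [IsDomain R'] [IsNoetherianRing R'] [IsIntegrallyClosed R']
  [Field K'] [Algebra R' K'] [IsFractionRing R' K']
  {D' : QData R' K' (kA A)} {iR : R0 K0 A →+* R'} {i : K0 →+* K'}

set_option maxHeartbeats 2000000 in
/-- `(T2)` at the cusps of the middle component, one chart. -/
theorem hcusp_one (M0 : ℕ) [NeZero M0] (hqM : ¬ q ∣ M0) (hA : A.LiesOverPrime q)
    (T : Two D q) (hT : T.F = F0 K0 (M0 * q)) (X : D.Coord)
    (y : LaurentSeries (R0 K0 A)) (hy : X.xW * y = 1)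
    (xF : FF M0) (hX : bc K0 (X.x : LaurentSeries K0) = (xF : LaurentSeries Kb))
    (htr1 : Transcendental Kb (heckeAlphaBar Kb M0 q xF))
    (hfd1 : FiniteDimensional Kb⟮heckeAlphaBar Kb M0 q xF⟯ (FF (M0 * q)))
    (hW : WGood M0 q xF)
    (hi : ∀ r, i (algebraMap (R0 K0 A) K0 r) = algebraMap R' K' (iR r))
    (hres : ∀ r, D'.res (iR r) = D.res r) (hϖ : D.ϖ = (q : R0 K0 A)) (ζR : R'ˣ)
    (hprim : IsPrimitiveRoot (ζR : R') q)
    (c0 : R') (hc : (ζR : R') - 1 = D'.ϖ * c0) (hc0 : D'.res c0 ≠ 0)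
    (H : Three T i (GNorm.uK ζR)) (hH : H.F = F0 K0 (M0 * q * q))
    (htr : Transcendental Kb (iotaH H hH (H.x X)))
    (hfd : FiniteDimensional Kb⟮iotaH H hH (H.x X)⟯ (FF (M0 * q * q)))
    {m : ℕ} (hm : IsUnit (m : R0 K0 A))
    (hxq : qExpand (kA A) q (D.red X.xW) = D.red X.xW ^ q)
    (hxy : XYData T X) (hrel : CuspRel X) : HCusp H D' X := by
  have hq : q.Prime := Fact.out
  haveI hchar : CharP (kA A) q := ResField.charP hq hA
  obtain ⟨hVx, ⟨θ, hθ⟩, -⟩ := hxy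
  obtain ⟨θ', hθ'⟩ := exists_theta' hq hA D T hT (Wb M0 q hqM) (Wb_alpha M0 q hqM)
    (Wb_beta M0 q hqM) X y hy xF hX htr1 hW.pos
  obtain ⟨a, ha, P, hP0, hrel⟩ := hrel
  have hcq : (q : R0 K0 A) = D.ϖ * 1 := by rw [mul_one, hϖ]
  have hcq0 : D.res 1 ≠ 0 := by rw [map_one]; exact one_ne_zero
  have L := H.lvl1 D' iR hi hres hprim c0 hc hc0 1 hcq hcq0
  have h1 := H.isChartS_of D' iR hi hres ζR rfl hprim c0 hc hc0 1 hcq hcq0 X hm
  have hAm : ∀ b ∈ H.chart X, b ∈ H.OA := fun b hb => (h1.le b hb).1.1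
  have hC : ∀ b ∈ H.chart X, b ∈ H.OC D' := fun b hb => (h1.le b hb).1.2
  have hB : ∀ b ∈ H.chart X, b ∈ H.OB := fun b hb => (h1.le b hb).2
  have hbe : ∀ a ∈ X.chart, T.be a ∈ T.chart X := NRed.be_mem_chart X T hVx
  exact MidCuspL.t2_cusp H X L hq hϖ hxq θ θ' hθ hθ' hbe (fun b hb => H.be_mem_chart X hVx hb)
    (fun f hf => H.root_chart X q hq.pos f hf) h1 (TRedA.mem_pA H X hAm)
    (TRedA.mem_pC H X D' hC) (TRedA.mem_pB H X hB) a ha P hP0 hrel (M0 * q * q) (iotaH H hH)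
    (fun _ => rfl) htr (hC0_iotaH H hH hT)

set_option maxHeartbeats 2000000 in
/-- **`HCuspAll`.** -/
theorem hcuspAll (q : ℕ) [Fact q.Prime] (A : ValuationSubring Kb) (hA : A.LiesOverPrime q) :
    HCuspAll q A := by
  have hq : q.Prime := Fact.out
  haveI hchar : CharP (kA A) q := ResField.charP hq hA
  intro m M0 _ hqM hqm Z hU hW hZ n1 n2 n3 K0 hK0 hu0 hst _ D T X y hxy K0' hle _ ζR D' H
    h1 h2 h3 h4 Φ hΦ hΦx hΦy
  obtain ⟨hF, hres, hϖ, hT, hTW, hXW, hy, hX, hded1, hded2, hxq, hyq, hxy1, hxy2, -⟩ := h1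
  obtain ⟨-, hprim, -, hres', -, ⟨c0, hc, hc0⟩, hbc⟩ := h2
  obtain ⟨hH, -⟩ := h3
  have hm : IsUnit (m : R0 K0 A) := natCast_isUnit_R0 K0 A hq hA hqm
  obtain ⟨r1, r2⟩ := cuspRel_of_zCuspRel Z hZ X y hxy hXW hy
  -- level `M0 q`
  have hmem1 : zS Kb Z.xZ ∈ modularFunctionFieldBar (M0 * q) := by
    have h := (heckeAlphaBar Kb M0 q Z.xF).2
    rwa [coe_heckeAlphaBar] at h
  obtain ⟨Z1, hZ1⟩ : ∃ Z1 : ZCoord (M0 * q) q, Z1.xF = heckeAlphaBar Kb M0 q Z.xF :=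
    ⟨{ Z with mem := hmem1 }, Subtype.ext (coe_heckeAlphaBar M0 q Z.xF).symm⟩
  have hαx : heckeAlphaBar Kb M0 q Z.xF = Z1.xF := hZ1.symm
  have hαx' : heckeAlphaBar Kb M0 q Z.xF⁻¹ = Z1.xF⁻¹ := by rw [map_inv₀, hαx]
  have hX' : bc K0 ((X.inv y hxy).x : LaurentSeries K0)
      = ((Z.xF⁻¹ : FF M0) : LaurentSeries Kb) := by
    rw [X.inv_x y hxy]
    have : ((X.x⁻¹ : D.F0) : LaurentSeries K0) = (X.x : LaurentSeries K0)⁻¹ := rfl
    rw [this, map_inv₀, hX]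
    rfl
  -- level `M0 q q`
  have hmemN : zS Kb Z.xZ ∈ modularFunctionFieldBar (M0 * q * q) := by
    have h := (heckeAlphaBar Kb (M0 * q) q (heckeAlphaBar Kb M0 q Z.xF)).2
    rwa [coe_heckeAlphaBar, coe_heckeAlphaBar] at h
  obtain ⟨ZN, hZN⟩ : ∃ ZN : ZCoord (M0 * q * q) q, (ZN.xF : LaurentSeries Kb) = Z.xF :=
    ⟨{ Z with mem := hmemN }, rfl⟩
  have hιx : iotaH H hH (H.x X) = ZN.xF := by
    apply Subtype.ext
    rw [coe_iotaH, hZN, ← hX]
    rfl
  have hιx' : iotaH H hH (H.x (X.inv y hxy)) = ZN.xF⁻¹ := by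
    rw [← hιx, ← map_inv₀, H.x_inv X y hxy]
  have hyx : (X.inv y hxy).xW * X.xW = 1 := by
    have : (X.inv y hxy).xW = y := rfl
    rw [this, mul_comm]; exact hxy
  refine ⟨hcusp_one M0 hqM hA T hT X y hxy Z.xF hX
      (by rw [hαx]; exact transcendental_xF Z1) (by rw [hαx]; exact finiteDimensional_xF Z1) hW
      hbc.comm hbc.res hϖ ζR hprim c0 hc hc0 H hH (by rw [hιx]; exact transcendental_xF ZN)
      (by rw [hιx]; exact finiteDimensional_xF ZN) hm hxq hxy1 r1, ?_⟩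
  exact hcusp_one M0 hqM hA T hT (X.inv y hxy) X.xW hyx Z.xF⁻¹ hX'
      (by rw [hαx']; exact FF.transcendental_inv (transcendental_xF Z1))
      (by rw [hαx']; exact finiteDimensional_xF_inv Z1) hW.inv
      hbc.comm hbc.res hϖ ζR hprim c0 hc hc0 H hH
      (by rw [hιx']; exact FF.transcendental_inv (transcendental_xF ZN))
      (by rw [hιx']; exact finiteDimensional_xF_inv ZN) hm hyq hxy2 r2

/-- **`ClaimAll`.** -/
theorem claimAll : ClaimAll := claimAll_of_cusp fun q _ A hA => hcuspAll q A hA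

end Fermat.Agent.S36.HC9
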