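import Fermat.Agent.S36.T2Fin
import Fermat.Agent.S36.GenOrdFin

/-!
# S36, G-REG : the provider of `HOrd` (hypothesis `hord` of `ht_fin`), and `ht_fin` with it plugged
-/

set_option autoImplicit false
set_option linter.unusedVariables false
set_option linter.unusedSectionVars false
set_option linter.style.haveILetI false
set_option synthInstance.maxHeartbeats 400000

noncomputable section

namespace Fermat.Agent.S36

open ModularCurve AlgebraicCurve Polynomial IntermediateField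
open Fermat.Agent.S24 Fermat.Agent.S28 Fermat.Agent.ES Fermat.Agent.ES.QE Fermat.Agent.ES.IDvr
  Fermat.Agent.ES.Inst Fermat.Agent.ES.Model Fermat.Agent.S34 Fermat.Agent.S35 Fermat.Agent.S37
open Fermat.Agent.S36.ValTh

variable {K0 : IntermediateField ℚ Kb} {A : ValuationSubring Kb}
  [IsDiscreteValuationRing (R0 K0 A)] {D : QData (R0 K0 A) K0 (kA A)} {q : ℕ} [Fact q.Prime]
  {R' K' : Type*} [CommRing R'] [IsDomain R'] [IsNoetherianRing R'] [IsIntegrallyClosed R']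
  [Field K'] [Algebra R' K'] [IsFractionRing R' K']
  {D' : QData R' K' (kA A)} {iR : R0 K0 A →+* R'} {i : K0 →+* K'}

/-- **the provider of `HOrd`.** -/
theorem hOrd_of (hA : A.LiesOverPrime q) (hDres : D.res = res0 K0 A) (T : Two D q) (X : D.Coord)
    [CharP (kA A) q]
    (hded : IsDedekindDomain (X.chart ⧸ Ideal.span {Inst.ϖB X}))
    (hxq : qExpand (kA A) q (D.red X.xW) = D.red X.xW ^ q)
    (Φ : TAut T) (hΦ : ∀ c, Φ.sk c = c ^ q)
    (hΦx : coeffMap (Φ.sR : R0 K0 A →+* R0 K0 A) X.xW = X.xW)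
    (hVx : X.phi.IsIntegralElem (qExpand K0 q (D.inc X.xW))) :
    ∀ hbe1 hle1, HOrd T X hbe1 hle1 := fun hbe1 hle1 =>
  GenT.hord_fin T X Fact.out hded hxq Φ hΦ hΦx hVx
    (fun r => by rw [hDres]; exact Perf.hres_R0 Fact.out hA K0 r) hbe1 hle1

set_option maxHeartbeats 2000000 in
/-- **`(T1)` and `(T2)`** for the coordinate `X`; the only G-REG hypothesis left is `HCusp`. -/
theorem ht_fin2 (hA : A.LiesOverPrime q) (hDres : D.res = res0 K0 A)
    (M0 : ℕ) [NeZero M0] (hqM : ¬ q ∣ M0) (T : Two D q) (X : D.Coord)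
    (ι0 : D.F0 →+* FF M0)
    (hι0 : ∀ f : D.F0, ((ι0 f : FF M0) : LaurentSeries Kb) = bc K0 (f : LaurentSeries K0))
    (ι1 : T.F →+* FF (M0 * q))
    (hι1 : ∀ f : T.F, ((ι1 f : FF (M0 * q)) : LaurentSeries Kb) = bc K0 (f : LaurentSeries K0))
    (hF : F0 K0 (M0 * q) ≤ T.F)
    (htr : Transcendental Kb (ι1 (T.x X))) [FiniteDimensional Kb⟮ι1 (T.x X)⟯ (FF (M0 * q))]
    (hM : NoElliptic M0) (hW : WGood M0 q (ι0 X.x))
    (hi : ∀ r, i (algebraMap (R0 K0 A) K0 r) = algebraMap R' K' (iR r))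
    (hres : ∀ r, D'.res (iR r) = D.res r) (hϖ : D.ϖ = (q : R0 K0 A)) (ζR : R'ˣ)
    (hprim : IsPrimitiveRoot (ζR : R') q)
    (c0 : R') (hc : (ζR : R') - 1 = D'.ϖ * c0) (hc0 : D'.res c0 ≠ 0)
    (H : Three T i (GNorm.uK ζR))
    {m : ℕ} (hm : IsUnit (m : R0 K0 A)) [CharP (kA A) q]
    (hded : IsDedekindDomain (X.chart ⧸ Ideal.span {Inst.ϖB X}))
    (hxq : qExpand (kA A) q (D.red X.xW) = D.red X.xW ^ q)
    (Φ : TAut T) (hΦ : ∀ c, Φ.sk c = c ^ q)
    (hΦx : coeffMap (Φ.sR : R0 K0 A →+* R0 K0 A) X.xW = X.xW)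
    (hxy : XYData T X) (hcusp : HCusp H D' X) :
    HT1 T X ∧ HT2 H D' X :=
  ht_fin M0 hqM T X ι0 hι0 ι1 hι1 hF htr hM hW hi hres hϖ ζR hprim c0 hc hc0 H hm hded hxq
    Φ hΦ hΦx hxy (hOrd_of hA hDres T X hded hxq Φ hΦ hΦx hxy.1) hcusp

end Fermat.Agent.S36
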