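import Fermat.Agent.S36.T1Fin
import Fermat.Agent.S36.NodeNC
import Fermat.Agent.S36.TFixGen2
import Fermat.Agent.S35.GU

/-!
# S36, block G : `(T1)` on the two charts, in the context of `exists_full_layer`
-/

set_option autoImplicit false
set_option linter.unusedVariables false

noncomputable section

namespace Fermat.Agent.S36

open ModularCurve AlgebraicCurve Polynomial IntermediateField
open Fermat.Agent.S24 Fermat.Agent.S28 Fermat.Agent.ES Fermat.Agent.ES.QE Fermat.Agent.ES.Model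
  Fermat.Agent.ES.IDvr Fermat.Agent.ES.Inst Fermat.Agent.S37.Rat Fermat.Agent.S34
  Fermat.Agent.S35
open Fermat.Agent.ES.Inst.InstFinal Fermat.Agent.ES.Inst.InstCoord
open Fermat.Agent.S34.UAux

variable {K0 : IntermediateField ℚ Kb} {A : ValuationSubring Kb}
  [IsDiscreteValuationRing (R0 K0 A)] {D : QData (R0 K0 A) K0 (kA A)} {q : ℕ} [Fact q.Prime]
  {R' K' : Type*} [CommRing R'] [IsDomain R'] [IsNoetherianRing R'] [IsIntegrallyClosed R']
  [Field K'] [Algebra R' K'] [IsFractionRing R' K']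
  {D' : QData R' K' (kA A)} {iR : R0 K0 A →+* R'} {i : K0 →+* K'}

set_option maxHeartbeats 2000000 in
/-- `(T1)` on one chart : `xF` is the coordinate in `FF M0`. -/
theorem ht1_one (M0 : ℕ) [NeZero M0] (hqM : ¬ q ∣ M0) (hA : A.LiesOverPrime q)
    (hF : D.F0 = F0 K0 M0) (T : Two D q) (hT : T.F = F0 K0 (M0 * q)) (X : D.Coord)
    (xF : FF M0) (hX : bc K0 (X.x : LaurentSeries K0) = (xF : LaurentSeries Kb))
    (htr : Transcendental Kb (heckeAlphaBar Kb M0 q xF))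
    (hfd : FiniteDimensional Kb⟮heckeAlphaBar Kb M0 q xF⟯ (FF (M0 * q)))
    (hM : NoElliptic M0) (hW : WGood M0 q xF)
    (B : BCData D D' iR i) (hϖ : D.ϖ = ((q : ℕ) : R0 K0 A)) (ζ : R'ˣ)
    (hprim : IsPrimitiveRoot (ζ : R') q) (hζ : D'.res ζ = 1)
    (hded : IsDedekindDomain (X.chart ⧸ Ideal.span {Inst.ϖB X}))
    (hxq : qExpand (kA A) q (D.red X.xW) = D.red X.xW ^ q)
    (Φ : TAut T) (hΦ : ∀ c, Φ.sk c = c ^ q)
    (hΦx : coeffMap (Φ.sR : R0 K0 A →+* R0 K0 A) X.xW = X.xW)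
    (hxy : XYData T X) : HT1 T X := by
  have hq : q.Prime := Fact.out
  have hchar : CharP (kA A) q := ResField.charP hq hA
  obtain ⟨hVx, ⟨θ, hθ⟩, Xu, Yu, c, e, hXY, hXa, hXb⟩ := hxy
  obtain ⟨-, pr2, -, -, -, hN⟩ := UChart.chartData T X hq hded hxq Φ hΦ hΦx hVx θ hθ
    Xu Yu c e hXY hXa hXb
  have hc : Chart2 T.O1 T.O2 T.ϖF 1 (T.chart X) (T.p1 X) (T.p2 X) :=
    chart2 T X hq (by rw [Nat.cast_one]; exact isUnit_one) hxq hVx hN
  let ι0 : D.F0 →+* FF M0 :=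
    ((bc K0).comp (algebraMap D.F0 (LaurentSeries K0))).codRestrict (modularFunctionFieldBar M0)
      (fun f => bc_mem K0 M0 (hF ▸ f.2))
  have hι0 : ∀ f : D.F0, ((ι0 f : FF M0) : LaurentSeries Kb) = bc K0 (f : LaurentSeries K0) :=
    fun _ => rfl
  have hι0x : ι0 X.x = xF := Subtype.ext hX
  have hιx : iotaT T hT (T.x X) = heckeAlphaBar Kb M0 q xF := by
    apply Subtype.ext
    rw [coe_heckeAlphaBar, ← hX]
    rfl
  have hfd' : FiniteDimensional Kb⟮iotaT T hT (T.x X)⟯ (FF (M0 * q)) := by rw [hιx]; exact hfd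
  exact t1_fin M0 hqM T X ι0 hι0 (iotaT T hT) (fun _ => rfl) hT.symm.le (by rw [hιx]; exact htr)
    hM (by rw [hι0x]; exact hW) B hϖ ζ hprim hζ hc hded hxq Φ hΦ hΦx
    (NRed.be_mem_chart X T hVx)
    (fun n hn h1 h2 => NodeNC.x_notMem_node T X hq hxq θ hθ n hn.ne_top h1 h2)

set_option maxHeartbeats 2000000 in
/-- `(T1)` on the two charts. -/
theorem ht1_both (M0 : ℕ) [NeZero M0] (hqM : ¬ q ∣ M0) (hA : A.LiesOverPrime q)
    (Z : ZCoord M0 q) (hW : WGood M0 q Z.xF) (hM : NoElliptic M0)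
    (hF : D.F0 = F0 K0 M0) (T : Two D q) (hT : T.F = F0 K0 (M0 * q)) (X : D.Coord)
    (y : LaurentSeries (R0 K0 A)) (hxy : X.xW * y = 1)
    (hX : bc K0 (X.x : LaurentSeries K0) = (Z.xF : LaurentSeries Kb))
    (B : BCData D D' iR i) (hϖ : D.ϖ = ((q : ℕ) : R0 K0 A)) (ζ : R'ˣ)
    (hprim : IsPrimitiveRoot (ζ : R') q) (hζ : D'.res ζ = 1)
    (hded1 : IsDedekindDomain (X.chart ⧸ Ideal.span {Inst.ϖB X}))
    (hded2 : IsDedekindDomain ((X.inv y hxy).chart ⧸ Ideal.span {Inst.ϖB (X.inv y hxy)}))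
    (hxq : qExpand (kA A) q (D.red X.xW) = D.red X.xW ^ q)
    (hyq : qExpand (kA A) q (D.red y) = D.red y ^ q)
    (Φ : TAut T) (hΦ : ∀ c, Φ.sk c = c ^ q)
    (hΦx : coeffMap (Φ.sR : R0 K0 A →+* R0 K0 A) X.xW = X.xW)
    (hΦy : coeffMap (Φ.sR : R0 K0 A →+* R0 K0 A) y = y)
    (hxy1 : XYData T X) (hxy2 : XYData T (X.inv y hxy)) :
    HT1 T X ∧ HT1 T (X.inv y hxy) := by
  have hmemN : zS Kb Z.xZ ∈ modularFunctionFieldBar (M0 * q) := by
    have h := (heckeAlphaBar Kb M0 q Z.xF).2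
    rwa [coe_heckeAlphaBar] at h
  obtain ⟨ZN, hZN⟩ : ∃ ZN : ZCoord (M0 * q) q, ZN.xF = heckeAlphaBar Kb M0 q Z.xF :=
    ⟨{ Z with mem := hmemN }, Subtype.ext (coe_heckeAlphaBar M0 q Z.xF).symm⟩
  have hxt := transcendental_xF ZN
  have hxt' : Transcendental Kb ZN.xF⁻¹ := FF.transcendental_inv hxt
  have hfd := finiteDimensional_xF ZN
  have hfd' := finiteDimensional_xF_inv ZN
  have hαx : heckeAlphaBar Kb M0 q Z.xF = ZN.xF := hZN.symm
  have hαx' : heckeAlphaBar Kb M0 q Z.xF⁻¹ = ZN.xF⁻¹ := by rw [map_inv₀, hαx]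
  have hX' : bc K0 ((X.inv y hxy).x : LaurentSeries K0) = ((Z.xF⁻¹ : FF M0) : LaurentSeries Kb) := by
    rw [X.inv_x y hxy]
    have : ((X.x⁻¹ : D.F0) : LaurentSeries K0) = (X.x : LaurentSeries K0)⁻¹ := rfl
    rw [this, map_inv₀, hX]
    rfl
  refine ⟨ht1_one M0 hqM hA hF T hT X Z.xF hX (by rw [hαx]; exact hxt) (by rw [hαx]; exact hfd)
    hM hW B hϖ ζ hprim hζ hded1 hxq Φ hΦ hΦx hxy1, ?_⟩
  exact ht1_one M0 hqM hA hF T hT (X.inv y hxy) Z.xF⁻¹ hX' (by rw [hαx']; exact hxt')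
    (by rw [hαx']; exact hfd') hM hW.inv B hϖ ζ hprim hζ hded2 hyq Φ hΦ hΦy hxy2

end Fermat.Agent.S36
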