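import Fermat.Agent.S36.T1Fin
import Fermat.Agent.S36.NodeCusp
import Fermat.Agent.S34.UChart
import Fermat.Agent.S34.UDefs
import Fermat.Agent.S34.UIota
import Fermat.Agent.S35.GChartT
import Fermat.Agent.ES.InstXF

/-!
# S36, G-REG : (T1) on the data of the instance layer, for both charts
-/

set_option autoImplicit false
set_option linter.unusedSectionVars false
set_option linter.unusedVariables false
set_option synthInstance.maxHeartbeats 400000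

noncomputable section

namespace Fermat.Agent.S36

open ModularCurve AlgebraicCurve Polynomial IntermediateField
open Fermat.Agent.S24 Fermat.Agent.S28 Fermat.Agent.ES Fermat.Agent.ES.QE Fermat.Agent.ES.IDvr
  Fermat.Agent.ES.Inst Fermat.Agent.S34 Fermat.Agent.S35 Fermat.Agent.S37

variable {K0 : IntermediateField ℚ Kb} {A : ValuationSubring Kb}
  [IsDiscreteValuationRing (R0 K0 A)] {D : QData (R0 K0 A) K0 (kA A)} {q : ℕ} [Fact q.Prime]
  {R' K' : Type*} [CommRing R'] [IsDomain R'] [IsNoetherianRing R'] [IsIntegrallyClosed R']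
  [Field K'] [Algebra R' K'] [IsFractionRing R' K']
  {D' : QData R' K' (kA A)} {iR : R0 K0 A →+* R'} {i : K0 →+* K'}

set_option maxHeartbeats 2000000 in
/-- **(T1)** for one coordinate. -/
theorem t1_coord (M0 : ℕ) [NeZero M0] (hqM : ¬ q ∣ M0) (T : Two D q) (X : D.Coord)
    (hF : D.F0 = F0 K0 M0) (hT : T.F = F0 K0 (M0 * q)) (xF : FF M0)
    (hX : bc K0 (X.x : LaurentSeries K0) = (xF : LaurentSeries Kb))
    (htr : Transcendental Kb (heckeAlphaBar Kb M0 q xF))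
    (hfd : FiniteDimensional Kb⟮heckeAlphaBar Kb M0 q xF⟯ (FF (M0 * q)))
    (hM : NoElliptic M0) (hW : WGood M0 q xF)
    (B : BCData D D' iR i) (hϖ : D.ϖ = ((q : ℕ) : R0 K0 A)) (ζ : R'ˣ)
    (hprim : IsPrimitiveRoot (ζ : R') q) (hζ : D'.res ζ = 1)
    [CharP (kA A) q]
    (hded : IsDedekindDomain (X.chart ⧸ Ideal.span {Inst.ϖB X}))
    (hxq : qExpand (kA A) q (D.red X.xW) = D.red X.xW ^ q)
    (Φ : TAut T) (hΦ : ∀ c, Φ.sk c = c ^ q)
    (hΦx : coeffMap (Φ.sR : R0 K0 A →+* R0 K0 A) X.xW = X.xW)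
    (hXY : XYData T X) :
    ∀ n : Ideal (T.chart X), n.IsMaximal → T.p1 X ≤ n → T.p2 X ≤ n →
      ∃ a b s : T.chart X, a ∈ T.p1 X ∧ b ∈ T.p2 X ∧ s ∉ n ∧ s * T.ϖB X = a * b := by
  have hq : q.Prime := Fact.out
  obtain ⟨hVx, ⟨θ, hθx⟩, Xu, Yu, c, e, hXYe, hX1, hX2⟩ := hXY
  obtain ⟨pr1, pr2, -, -, -, hnd⟩ :=
    UChart.chartData T X hq hded hxq Φ hΦ hΦx hVx θ hθx Xu Yu c e hXYe hX1 hX2
  have hc : Chart2 T.O1 T.O2 T.ϖF 1 (T.chart X) (T.p1 X) (T.p2 X) :=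
    chart2 T X hq (by rw [Nat.cast_one]; exact isUnit_one) hxq hVx hnd
  have hbe := NRed.be_mem_chart X T hVx
  have hιx0 : iotaF D hF X.x = xF := Subtype.ext (by rw [coe_iotaF, hX])
  have hιx : iotaT T hT (T.x X) = heckeAlphaBar Kb M0 q xF := by
    rw [← hιx0]
    exact iotaT_al T hT hF X.x
  have : FiniteDimensional Kb⟮iotaT T hT (T.x X)⟯ (FF (M0 * q)) := by
    rw [hιx]
    exact hfd
  exact t1_fin M0 hqM T X (iotaF D hF) (fun _ => rfl) (iotaT T hT) (fun _ => rfl) hT.ge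
    (by rw [hιx]; exact htr) hM (by rw [hιx0]; exact hW) B hϖ ζ hprim hζ hc hded hxq Φ hΦ hΦx
    hbe (fun n hn h1 h2 => x_notMem_node T X hq hxq θ hθx n hn.ne_top h1 h2)

set_option maxHeartbeats 2000000 in
/-- **(T1)** for both charts, on the data of `exists_unr_layer`. -/
theorem t1_layer (M0 : ℕ) [NeZero M0] (hqM : ¬ q ∣ M0) (Z : ZCoord M0 q)
    (hW : WGood M0 q Z.xF) (hM : NoElliptic M0) (T : Two D q) (X : D.Coord)
    (y : LaurentSeries (R0 K0 A)) (hxy : X.xW * y = 1)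
    (hF : D.F0 = F0 K0 M0) (hT : T.F = F0 K0 (M0 * q))
    (hX : bc K0 (X.x : LaurentSeries K0) = (Z.xF : LaurentSeries Kb))
    (B : BCData D D' iR i) (hϖ : D.ϖ = ((q : ℕ) : R0 K0 A)) (ζ : R'ˣ)
    (hprim : IsPrimitiveRoot (ζ : R') q) (hζ : D'.res ζ = 1)
    [CharP (kA A) q]
    (hded1 : IsDedekindDomain (X.chart ⧸ Ideal.span {Inst.ϖB X}))
    (hded2 : IsDedekindDomain ((X.inv y hxy).chart ⧸ Ideal.span {Inst.ϖB (X.inv y hxy)}))
    (hxq : qExpand (kA A) q (D.red X.xW) = D.red X.xW ^ q)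
    (hyq : qExpand (kA A) q (D.red y) = D.red y ^ q)
    (Φ : TAut T) (hΦ : ∀ c, Φ.sk c = c ^ q)
    (hΦx : coeffMap (Φ.sR : R0 K0 A →+* R0 K0 A) X.xW = X.xW)
    (hΦy : coeffMap (Φ.sR : R0 K0 A →+* R0 K0 A) y = y)
    (hXY1 : XYData T X) (hXY2 : XYData T (X.inv y hxy)) :
    (∀ n : Ideal (T.chart X), n.IsMaximal → T.p1 X ≤ n → T.p2 X ≤ n →
      ∃ a b s : T.chart X, a ∈ T.p1 X ∧ b ∈ T.p2 X ∧ s ∉ n ∧ s * T.ϖB X = a * b) ∧
    (∀ n : Ideal (T.chart (X.inv y hxy)), n.IsMaximal → T.p1 (X.inv y hxy) ≤ n →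
      T.p2 (X.inv y hxy) ≤ n →
      ∃ a b s : T.chart (X.inv y hxy), a ∈ T.p1 (X.inv y hxy) ∧ b ∈ T.p2 (X.inv y hxy) ∧ s ∉ n ∧
        s * T.ϖB (X.inv y hxy) = a * b) := by
  have hmemN : zS Kb Z.xZ ∈ modularFunctionFieldBar (M0 * q) := by
    have h := (heckeAlphaBar Kb M0 q Z.xF).2
    rwa [coe_heckeAlphaBar] at h
  obtain ⟨ZN, hZN⟩ : ∃ ZN : ZCoord (M0 * q) q, ZN.xF = heckeAlphaBar Kb M0 q Z.xF :=
    ⟨{ Z with mem := hmemN }, Subtype.ext (coe_heckeAlphaBar M0 q Z.xF).symm⟩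
  have hxt := transcendental_xF ZN
  have hxt' : Transcendental Kb ZN.xF⁻¹ := FF.transcendental_inv hxt
  have hfd := finiteDimensional_xF ZN
  have hfd' := finiteDimensional_xF_inv ZN
  have hιx0 : iotaF D hF X.x = Z.xF := Subtype.ext (by rw [coe_iotaF, hX])
  have hX' : bc K0 ((X.inv y hxy).x : LaurentSeries K0) = ((Z.xF⁻¹ : FF M0) : LaurentSeries Kb) := by
    rw [← coe_iotaF D hF, X.inv_x y hxy, map_inv₀, hιx0]
  refine ⟨t1_coord M0 hqM T X hF hT Z.xF hX (hZN ▸ hxt) (hZN ▸ hfd) hM hW B hϖ ζ hprim hζ hded1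
    hxq Φ hΦ hΦx hXY1, t1_coord M0 hqM T (X.inv y hxy) hF hT Z.xF⁻¹ hX' ?_ ?_ hM hW.inv B hϖ ζ
    hprim hζ hded2 hyq Φ hΦ hΦy hXY2⟩
  · rw [map_inv₀, ← hZN]
    exact hxt'
  · rw [map_inv₀, ← hZN]
    exact hfd'

end Fermat.Agent.S36
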