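import Fermat.Agent.S36.T1Inst
import Fermat.Agent.S36.GenMin
import Fermat.Agent.S36.GenTheta
import Fermat.Agent.S36.DTube3

/-!
# S36, G-REG : (T1) thickness one at the nodes of level `M₀ q`, final form

All the inputs of `t1_inst` are discharged: `GenTheta.exists_theta2`, `GenT.exists_mono_node`,
`tube_delta_al`.
-/

set_option autoImplicit false
set_option linter.unusedSectionVars false
set_option linter.unusedVariables false
set_option synthInstance.maxHeartbeats 400000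

noncomputable section

namespace Fermat.Agent.S36

open ModularCurve AlgebraicCurve Polynomial IntermediateField
open Fermat.Agent.S24 Fermat.Agent.S28 Fermat.Agent.ES Fermat.Agent.ES.QE Fermat.Agent.ES.IDvr
  Fermat.Agent.ES.Inst Fermat.Agent.S34 Fermat.Agent.S35 Fermat.Agent.S37
open Fermat.Agent.S36.ValTh

variable {K0 : IntermediateField ℚ Kb} {A : ValuationSubring Kb}
  [IsDiscreteValuationRing (R0 K0 A)] {D : QData (R0 K0 A) K0 (kA A)} {q : ℕ} [Fact q.Prime]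
  {R' K' : Type*} [CommRing R'] [IsDomain R'] [IsNoetherianRing R'] [IsIntegrallyClosed R']
  [Field K'] [Algebra R' K'] [IsFractionRing R' K']
  {D' : QData R' K' (kA A)} {iR : R0 K0 A →+* R'} {i : K0 →+* K'}

set_option maxHeartbeats 2000000 in
/-- **(T1)**, final form. -/
theorem t1_fin (M0 : ℕ) [NeZero M0] (hqM : ¬ q ∣ M0) (T : Two D q) (X : D.Coord)
    (ι0 : D.F0 →+* FF M0)
    (hι0 : ∀ f : D.F0, ((ι0 f : FF M0) : LaurentSeries Kb) = bc K0 (f : LaurentSeries K0))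
    (ι1 : T.F →+* FF (M0 * q))
    (hι1 : ∀ f : T.F, ((ι1 f : FF (M0 * q)) : LaurentSeries Kb) = bc K0 (f : LaurentSeries K0))
    (hF : F0 K0 (M0 * q) ≤ T.F)
    (htr : Transcendental Kb (ι1 (T.x X))) [FiniteDimensional Kb⟮ι1 (T.x X)⟯ (FF (M0 * q))]
    (hM : NoElliptic M0) (hW : WGood M0 q (ι0 X.x))
    (B : BCData D D' iR i) (hϖ : D.ϖ = (q : R0 K0 A)) (ζ : R'ˣ)
    (hprim : IsPrimitiveRoot (ζ : R') q) (hζ : D'.res ζ = 1)
    {m : ℕ} (hc : Chart2 T.O1 T.O2 T.ϖF m (T.chart X) (T.p1 X) (T.p2 X))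
    [CharP (kA A) q]
    (hded : IsDedekindDomain (X.chart ⧸ Ideal.span {Inst.ϖB X}))
    (hxq : qExpand (kA A) q (D.red X.xW) = D.red X.xW ^ q)
    (Φ : TAut T) (hΦ : ∀ c, Φ.sk c = c ^ q)
    (hΦx : coeffMap (Φ.sR : R0 K0 A →+* R0 K0 A) X.xW = X.xW)
    (hbe : ∀ a ∈ X.chart, T.be a ∈ T.chart X) [(T.p2 X).IsPrime]
    (hxn : ∀ n : Ideal (T.chart X), n.IsMaximal → T.p1 X ≤ n → T.p2 X ≤ n →
      (⟨T.x X, X.x_mem_chart⟩ : T.chart X) ∉ n) :
    ∀ n : Ideal (T.chart X), n.IsMaximal → T.p1 X ≤ n → T.p2 X ≤ n →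
      ∃ a b s : T.chart X, a ∈ T.p1 X ∧ b ∈ T.p2 X ∧ s ∉ n ∧ s * T.ϖB X = a * b := by
  have hq : q.Prime := Fact.out
  have hle : ∀ b ∈ T.chart X, b ∈ T.O := hc.chart.le
  intro n hn h1 h2
  have hnp := hn.isPrime
  obtain ⟨y00, hy00, hy001⟩ := hc.adm2 n hn h1 h2
  have hne : T.p2 X ≠ n := by
    obtain ⟨θ, hθ1, hθ2⟩ := hc.th2
    intro h
    exact hθ2 (h ▸ h1 hθ1)
  obtain ⟨y, hy, hy1, hy2, hθ⟩ := GenTheta.exists_theta2 T X hle hbe n h2 hne y00 hy00 hy001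
  obtain ⟨s, hs, hmono, g, hgm, hgc, hgd, hgr, -⟩ :=
    GenT.exists_mono_node T X hq hded hxq Φ hΦ hΦx n hn h1 h2 y hy hy1
  have ht := tube_delta_al M0 hqM T X ι0 hι0 ι1 hι1 hF htr hM hW n (hxn n hn h1 h2) y
    (s : D.F0) s.2 hs hmono g hgm hgc hgd hgr
  have hO1 : (y : T.F) ∈ T.O1 := (hle _ y.2).1
  have hO2 : (y : T.F) ∈ T.O2 := (hle _ y.2).2
  have hr1 : T.rho1 ⟨(y : T.F), hO1⟩ = 0 := (QNode.mem_p1_iff T X y).1 hy1
  have hθ' : tht (T.rho2 ⟨(y : T.F), hO2⟩) ≠ 0 := hθ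
  have hne' : T.rho2 ⟨(y : T.F), hO2⟩ ≠ qExpand (kA A) q (T.rho1 ⟨(y : T.F), hO1⟩) := by
    rw [hr1, map_zero]
    intro h0
    apply hθ'
    rw [h0, tht_zero']
  obtain ⟨hU1, hU2, -⟩ := Val2.val_al T B hq ζ hprim hζ hO1 hO2 g hgm hgd hgr hne' hθ'
  have hδ : eval₂ T.al (y : T.F) (derivative g) ∈ T.chart X :=
    eval₂_mem_subring T.al X.chart (T.chart X) (fun c hc' => T.al_mem_chart X hc') y.2 _
      (coeff_derivative_mem X.chart g hgc)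
  rw [← Val2.ϖF_eq (T := T) hϖ] at hU2
  exact thick_of_delta hc (NRed.ϖF_ne_zero T) n ⟨_, hδ⟩ hU1 hU2 ht

end Fermat.Agent.S36
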