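import Fermat.Agent.S36.T2Inst
import Fermat.Agent.S36.BrReg

/-!
# S36, G-REG : (T2) at every point of the middle component of `H.chart X`

`by_cases x ∈ n` : the cusps are a hypothesis (`hcusp`, block [D7]); at the other points
`T2Inst.t2_core` is applied to the data of block [GEN-O] (`hord`) and of block [DIFF] (`htube`).
-/

set_option autoImplicit false
set_option linter.unusedSectionVars false
set_option linter.unusedVariables false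
set_option synthInstance.maxHeartbeats 400000

noncomputable section

namespace Fermat.Agent.S36.T2Inst

open ModularCurve Polynomial
open Fermat.Agent.S34 Fermat.Agent.S35 Fermat.Agent.ES.QE Fermat.Agent.ES.Model
open Fermat.Agent.S36.ValTh Fermat.Agent.S36.Val1 Fermat.Agent.S36.Val2 Fermat.Agent.S36.Val3

variable {R K k : Type*} [CommRing R] [IsDomain R] [IsNoetherianRing R] [IsIntegrallyClosed R]
  [Field K] [Algebra R K] [IsFractionRing R K] [Field k]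
  {R' K' : Type*} [CommRing R'] [IsDomain R'] [IsNoetherianRing R'] [IsIntegrallyClosed R']
  [Field K'] [Algebra R' K'] [IsFractionRing R' K']

variable {D : QData R K k} {D' : QData R' K' k} {iR : R →+* R'} {i : K →+* K'}
  {q : ℕ} [NeZero q] {T : Two D q} {ζ : K'ˣ} (H : Three T i ζ)

/-- **(T2)** at every maximal ideal lying only on the middle component. -/
theorem t2_all (X : D.Coord) (B : BCData D D' iR i) [Fact q.Prime] [CharP k q] (ζR : R'ˣ)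
    (hζ : ζ = GNorm.uK ζR) (hprim : IsPrimitiveRoot (ζR : R') q)
    (dvC : IsDV (H.OC D') H.tC) (hϖ : D.ϖ = (q : R)) {m : ℕ}
    (hB : IsChartS (H.OA ⊓ H.OC D' ⊓ H.OB) H.ϖF m (H.chart X))
    (memF : ∀ b : H.chart X, b ∈ H.pA X ↔ DivS H.OA H.ϖF 1 (b : H.F))
    (memM : ∀ b : H.chart X, b ∈ H.pC X D' ↔ DivS (H.OC D') H.tC 1 (b : H.F))
    (memV : ∀ b : H.chart X, b ∈ H.pB X ↔ DivS H.OB H.ϖF 1 (b : H.F))
    (hram : IsU (H.OC D') (H.ϖF / H.tC ^ (q - 1)))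
    (hB' : IsChartS (T.O1 ⊓ T.O2) T.ϖF m (T.chart X))
    (halM : ∀ x ∈ T.O1, H.al x ∈ H.OC D')
    (hbe1 : ∀ c ∈ X.chart, T.be c ∈ T.chart X) (hbe2 : ∀ b ∈ T.chart X, H.be b ∈ H.chart X)
    (surjC : ∀ b ∈ H.chart X, ∃ a ∈ T.chart X, DivS (H.OC D') H.tC 1 (b - H.al a))
    (hred1 : ∀ b ∈ T.chart X, ∃ c : X.chart, DivS T.O1 T.ϖF 1 (b - T.al c))
    (hT1 : ∀ n' : Ideal (T.chart X), n'.IsMaximal → T.p1 X ≤ n' → T.p2 X ≤ n' →
      ∃ a b s : T.chart X, a ∈ T.p1 X ∧ b ∈ T.p2 X ∧ s ∉ n' ∧ s * T.ϖB X = a * b)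
    (hord : ∀ n1 : Ideal (T.chart X), n1.IsMaximal → T.p1 X ≤ n1 → ¬ T.p2 X ≤ n1 →
      (⟨T.x X, X.x_mem_chart⟩ : T.chart X) ∉ n1 →
      ∃ (y0 : T.chart X) (f2 : X.chart) (s : D.F0) (hsC : s ∈ X.chart) (g : D.F0[X]),
        y0 ∈ n1 ∧ (⟨T.be f2, hbe1 f2 f2.2⟩ : T.chart X) ∉ n1 ∧
        y0 - ⟨T.be f2, hbe1 f2 f2.2⟩ ∈ T.p2 X ∧
        tht (T.rho1 ⟨(y0 : T.F), (hB'.le _ y0.2).1⟩) ≠ 0 ∧
        (⟨T.be s, hbe1 s hsC⟩ : T.chart X) ∉ n1 ∧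
        (∀ a : T.chart X, ∃ P : D.F0[X], (∀ i, P.coeff i ∈ X.chart) ∧
          T.be s * (a : T.F) = eval₂ T.be (y0 : T.F) P) ∧
        g.Monic ∧ (∀ i, g.coeff i ∈ X.chart) ∧ g.natDegree = q + 1 ∧
        eval₂ T.be (y0 : T.F) g = 0)
    (htube : ∀ (n1 : Ideal (T.chart X)) [n1.IsPrime],
      (⟨T.x X, X.x_mem_chart⟩ : T.chart X) ∉ n1 →
      ∀ (y0 : T.chart X) (s : D.F0) (hsC : s ∈ X.chart),
        (⟨T.be s, hbe1 s hsC⟩ : T.chart X) ∉ n1 →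
        (∀ a : T.chart X, ∃ P : D.F0[X], (∀ i, P.coeff i ∈ X.chart) ∧
          T.be s * (a : T.F) = eval₂ T.be (y0 : T.F) P) →
        ∀ g : D.F0[X], g.Monic → (∀ i, g.coeff i ∈ X.chart) → g.natDegree = q + 1 →
          eval₂ T.be (y0 : T.F) g = 0 →
          InTube (T.ϖB X) n1 (eval₂ T.be (y0 : T.F) g.derivative)⁻¹)
    (hcusp : ∀ n : Ideal (H.chart X), n.IsMaximal → H.pC X D' ≤ n → ¬ H.pA X ≤ n →
      ¬ H.pB X ≤ n → (⟨H.x X, X.x_mem_chart⟩ : H.chart X) ∈ n →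
      ∃ x ∈ H.pC X D', ∃ s, s ∉ n ∧ ∃ c,
        s * (⟨H.ϖF, hB.unif_mem⟩ : H.chart X) = c * x ^ (q - 1)) :
    ∀ n : Ideal (H.chart X), n.IsMaximal → H.pC X D' ≤ n → ¬ H.pA X ≤ n → ¬ H.pB X ≤ n →
      ∃ x ∈ H.pC X D', ∃ s, s ∉ n ∧ ∃ c,
        s * (⟨H.ϖF, hB.unif_mem⟩ : H.chart X) = c * x ^ (q - 1) := by
  intro n hn hM hF hV
  by_cases hx : (⟨H.x X, X.x_mem_chart⟩ : H.chart X) ∈ n
  · exact hcusp n hn hM hF hV hx
  have hq : q.Prime := Fact.out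
  have hϖ0 : H.ϖF ≠ 0 := fun h0 => hram.ne_zero (by rw [h0, zero_div])
  have mem1 : ∀ b : T.chart X, b ∈ T.p1 X ↔ DivS T.O1 T.ϖF 1 (b : T.F) := QNode.mem_p1 T X
  have mem2 : ∀ b : T.chart X, b ∈ T.p2 X ↔ DivS T.O2 T.ϖF 1 (b : T.F) := QNode.mem_p2 T X
  have hn1 : (n.comap (H.alB X)).IsMaximal := by
    apply BrReg.comap_isMaximal
    intro b
    obtain ⟨a, ha, h⟩ := surjC b b.2
    exact ⟨⟨a, ha⟩, hM ((memM _).2 h)⟩
  have hϖt : DivS (H.OC D') H.tC 1 H.ϖF := by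
    refine ⟨H.tC ^ (q - 2) * (H.ϖF / H.tC ^ (q - 1)),
      (H.OC D').mul_mem ((H.OC D').pow_mem dvC.mem _) hram.mem, ?_⟩
    have ht0 : H.tC ≠ 0 := dvC.ne_zero
    have hq2 : q - 1 = (q - 2) + 1 := by have := hq.two_le; omega
    rw [hq2, pow_one]
    field_simp
    ring
  have hp1 : T.p1 X ≤ n.comap (H.alB X) := by
    intro b hb
    obtain ⟨z, hz, hbz⟩ := (mem1 b).1 hb
    apply hM
    rw [memM]
    show DivS (H.OC D') H.tC 1 (H.al (b : T.F))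
    rw [hbz, pow_one, map_mul]
    exact hϖt.mul_right (halM z hz)
  have hT1' : T.p2 X ≤ n.comap (H.alB X) → ∃ a b s : T.chart X, a ∈ T.p1 X ∧ b ∈ T.p2 X ∧
      s ∉ n.comap (H.alB X) ∧ s * T.ϖB X = a * b := fun h2 => hT1 _ hn1 hp1 h2
  have hp2 : ¬ T.p2 X ≤ n.comap (H.alB X) :=
    TAsm.ord_of_t1 hϖ0 hB memF memV mem1 (fun x hx => H.al_mem_chart X hx) rfl halM n
      hn.isPrime hF hV (n.comap (H.alB X)) (fun x => Iff.rfl) hB'.unif_mem hT1'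
  have hx1 : (⟨T.x X, X.x_mem_chart⟩ : T.chart X) ∉ n.comap (H.alB X) := fun h => hx h
  obtain ⟨y0, f2, s, hsC, g, hy0, hf2n, hf2, hθ, hsn, hmono, hg, hgC, hdeg, hroot⟩ :=
    hord _ hn1 hp1 hp2 hx1
  obtain ⟨f, hf⟩ := hred1 y0 y0.2
  have : (n.comap (H.alB X)).IsPrime := hn1.isPrime
  exact t2_core H X B ζR hζ hprim dvC hϖ hB memF memM memV hram hB' halM hbe1 hbe2 n hn.isPrime
    hM hF hV hT1' y0 hy0 g hg hdeg hroot f f2 hf ((mem2 _).1 hf2) hf2n hθ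
    (htube _ hx1 y0 s hsC hsn hmono g hg hgC hdeg hroot)

end Fermat.Agent.S36.T2Inst
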