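import Fermat.Agent.S36.TFixGen2
import Fermat.Agent.S36.T1Fin
import Fermat.Agent.S36.T2Inst2
import Fermat.Agent.S36.NodeCusp

/-!
# S36, G-REG : `(T1)` and `(T2)` for one coordinate, over `K0` (final assembly)
-/

set_option autoImplicit false
set_option linter.unusedVariables false
set_option linter.unusedSectionVars false
set_option linter.style.haveILetI false
set_option synthInstance.maxHeartbeats 400000

noncomputable section

namespace Fermat.Agent.S36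

open ModularCurve AlgebraicCurve Polynomial IntermediateField
open Fermat.Agent.S24 Fermat.Agent.S28 Fermat.Agent.ES Fermat.Agent.ES.QE Fermat.Agent.ES.IDvr
  Fermat.Agent.ES.Inst Fermat.Agent.ES.Model Fermat.Agent.S34 Fermat.Agent.S35 Fermat.Agent.S37
open Fermat.Agent.S36.ValTh

variable {K0 : IntermediateField ℚ Kb} {A : ValuationSubring Kb}
  [IsDiscreteValuationRing (R0 K0 A)] {D : QData (R0 K0 A) K0 (kA A)} {q : ℕ} [Fact q.Prime]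
  {R' K' : Type*} [CommRing R'] [IsDomain R'] [IsNoetherianRing R'] [IsIntegrallyClosed R']
  [Field K'] [Algebra R' K'] [IsFractionRing R' K']
  {D' : QData R' K' (kA A)} {iR : R0 K0 A →+* R'} {i : K0 →+* K'}

/-- the output of [GEN-O] (ordinary fibre of `β`). -/
def HOrd (T : Two D q) (X : D.Coord) (hbe1 : ∀ c ∈ X.chart, T.be c ∈ T.chart X)
    (hle1 : ∀ b : T.chart X, (b : T.F) ∈ T.O1) : Prop :=
  ∀ n1 : Ideal (T.chart X), n1.IsMaximal → T.p1 X ≤ n1 → ¬ T.p2 X ≤ n1 →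
    (⟨T.x X, X.x_mem_chart⟩ : T.chart X) ∉ n1 →
    ∃ (y0 : T.chart X) (f2 : X.chart) (s : D.F0) (hsC : s ∈ X.chart) (g : D.F0[X]),
      y0 ∈ n1 ∧ (⟨T.be f2, hbe1 f2 f2.2⟩ : T.chart X) ∉ n1 ∧
      y0 - ⟨T.be f2, hbe1 f2 f2.2⟩ ∈ T.p2 X ∧
      tht (T.rho1 ⟨(y0 : T.F), hle1 y0⟩) ≠ 0 ∧
      (⟨T.be s, hbe1 s hsC⟩ : T.chart X) ∉ n1 ∧
      (∀ a : T.chart X, ∃ P : D.F0[X], (∀ i, P.coeff i ∈ X.chart) ∧
        T.be s * (a : T.F) = eval₂ T.be (y0 : T.F) P) ∧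
      g.Monic ∧ (∀ i, g.coeff i ∈ X.chart) ∧ g.natDegree = q + 1 ∧
      eval₂ T.be (y0 : T.F) g = 0

/-- `(T2)` at the cusps of the middle component. -/
def HCusp {ζR : R'ˣ} {T : Two D q} (H : Three T i (GNorm.uK ζR)) (D' : QData R' K' (kA A))
    (X : D.Coord) : Prop :=
  ∀ n : Ideal (H.chart X), n.IsMaximal → H.pC X D' ≤ n → ¬ H.pA X ≤ n →
    ¬ H.pB X ≤ n → (⟨H.x X, X.x_mem_chart⟩ : H.chart X) ∈ n →
    ∃ x ∈ H.pC X D', ∃ s, s ∉ n ∧ ∃ c, s * H.ϖB X = c * x ^ (q - 1)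

set_option maxHeartbeats 2000000 in
/-- **`(T1)` and `(T2)`** for the coordinate `X`. -/
theorem ht_fin (M0 : ℕ) [NeZero M0] (hqM : ¬ q ∣ M0) (T : Two D q) (X : D.Coord)
    (ι0 : D.F0 →+* FF M0)
    (hι0 : ∀ f : D.F0, ((ι0 f : FF M0) : LaurentSeries Kb) = bc K0 (f : LaurentSeries K0))
    (ι1 : T.F →+* FF (M0 * q))
    (hι1 : ∀ f : T.F, ((ι1 f : FF (M0 * q)) : LaurentSeries Kb) = bc K0 (f : LaurentSeries K0))
    (hF : F0 K0 (M0 * q) ≤ T.F)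
    (htr : Transcendental Kb (ι1 (T.x X))) [FiniteDimensional Kb⟮ι1 (T.x X)⟯ (FF (M0 * q))]
    (hM : NoElliptic M0) (hW : WGood M0 q (ι0 X.x))
    (hi : ∀ r, i (algebraMap (R0 K0 A) K0 r) = algebraMap R' K' (iR r))
    (hres : ∀ r, D'.res (iR r) = D.res r) (hϖ : D.ϖ = (q : R0 K0 A)) (ζR : R'ˣ)
    (hprim : IsPrimitiveRoot (ζR : R') q)
    (c0 : R') (hc : (ζR : R') - 1 = D'.ϖ * c0) (hc0 : D'.res c0 ≠ 0)
    (H : Three T i (GNorm.uK ζR))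
    {m : ℕ} (hm : IsUnit (m : R0 K0 A)) [CharP (kA A) q]
    (hded : IsDedekindDomain (X.chart ⧸ Ideal.span {Inst.ϖB X}))
    (hxq : qExpand (kA A) q (D.red X.xW) = D.red X.xW ^ q)
    (Φ : TAut T) (hΦ : ∀ c, Φ.sk c = c ^ q)
    (hΦx : coeffMap (Φ.sR : R0 K0 A →+* R0 K0 A) X.xW = X.xW)
    (hxy : XYData T X)
    (hord : ∀ hbe1 hle1, HOrd T X hbe1 hle1) (hcusp : HCusp H D' X) :
    HT1 T X ∧ HT2 H D' X := by
  have hq : q.Prime := Fact.out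
  have hq2 : 2 ≤ q := hq.two_le
  have hω : D'.res (ζR : R') = 1 := GNorm.res_eq_one q ζR (by
    ext
    rw [Units.val_pow_eq_pow_val, Units.val_one]
    exact hprim.pow_eq_one)
  have B : BCData D D' iR i := ⟨hi, hres⟩
  obtain ⟨hVx, ⟨θ, hθ⟩, Xu, Yu, c1, e1, hXY, hXa, hXb⟩ := hxy
  obtain ⟨pr1, pr2, hp, d1, d2, hN⟩ := UChart.chartData T X hq hded hxq Φ hΦ hΦx hVx θ hθ
    Xu Yu c1 e1 hXY hXa hXb
  have hc2 := chart2 T X hq hm hxq hVx hN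
  have hbe : ∀ a ∈ X.chart, T.be a ∈ T.chart X := NRed.be_mem_chart X T hVx
  have t1 : HT1 T X := t1_fin M0 hqM T X ι0 hι0 ι1 hι1 hF htr hM hW B hϖ ζR hprim hω hc2 hded hxq
    Φ hΦ hΦx hbe (fun n hn h1 h2 => x_notMem_node T X hq hxq θ hθ n hn.ne_top h1 h2)
  refine ⟨t1, ?_⟩
  have hcq : (q : R0 K0 A) = D.ϖ * 1 := by rw [mul_one, hϖ]
  have hcq0 : D.res 1 ≠ 0 := by rw [map_one]; exact one_ne_zero
  have L := H.lvl1 D' iR hi hres hprim c0 hc hc0 1 hcq hcq0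
  have h1 := H.isChartS_of D' iR hi hres ζR rfl hprim c0 hc hc0 1 hcq hcq0 X hm
  have hA : ∀ b ∈ H.chart X, b ∈ H.OA := fun b hb => (h1.le b hb).1.1
  have hC : ∀ b ∈ H.chart X, b ∈ H.OC D' := fun b hb => (h1.le b hb).1.2
  have hB : ∀ b ∈ H.chart X, b ∈ H.OB := fun b hb => (h1.le b hb).2
  haveI : IsDedekindDomain (X.chart ⧸ Ideal.span {X.ϖC}) := hded
  have hO : NRed.HOrth T := fun f hf => T.exists_rep_of_mem_O hf
  have hjq := NOrth.qExpand_jq_char q (kA A)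
  have hram : IsU (H.OC D') (H.ϖF / H.tC ^ (q - 1)) := by
    have := L.ram.inv
    rwa [inv_div] at this
  exact T2Inst.t2_all (H := H) X B ζR rfl hprim L.dvM hϖ h1 (TRedA.mem_pA H X hA)
    (TRedA.mem_pC H X D' hC) (TRedA.mem_pB H X hB) hram hc2.chart
    (fun x hx => (L.al_M x).2 hx) hbe (fun b hb => H.be_mem_chart X hVx hb)
    (H.surjC X D' L hq2 hc2 hC) (fun b hb => NRed.red1 X T hO hjq hc2.chart.le b hb) t1
    (hord hbe _)
    (fun n1 _ hx y0 s hsC hsn hmono g hg hgC hdeg hroot =>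
      tube_delta_be M0 hqM T X ι0 hι0 ι1 hι1 hF htr hM hW hbe n1 hx y0 s hsC hsn hmono g hg hgC
        hdeg hroot)
    hcusp

end Fermat.Agent.S36
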