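import Fermat.Agent.S36.CoreFin
import Fermat.Agent.S36.T2Fin
import Fermat.Agent.S36.T1Fin2
import Fermat.Agent.S36.GenOrdFin

/-!
# S36, block G : `HTAll` from the cusps of the middle component (backup assembly)
-/

set_option autoImplicit false
set_option linter.unusedSectionVars false
set_option linter.unusedVariables false
set_option synthInstance.maxHeartbeats 400000

noncomputable section

namespace Fermat.Agent.S36

open ModularCurve AlgebraicCurve Polynomial IntermediateField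
open Fermat.Agent.S24 Fermat.Agent.S28 Fermat.Agent.ES Fermat.Agent.ES.QE Fermat.Agent.ES.Model
  Fermat.Agent.ES.IDvr Fermat.Agent.ES.Inst Fermat.Agent.S34 Fermat.Agent.S35 Fermat.Agent.S37
open Fermat.Agent.S34.WK

/-- `(T2)` at the cusps of the middle component on the two charts, for all the objects. -/
def HCuspAll29 (q : ℕ) [Fact q.Prime] (A : ValuationSubring Kb) : Prop :=
  ∀ (m M0 : ℕ) [NeZero M0] (hqM : ¬ q ∣ M0), ¬ q ∣ m → ∀ (Z : ZCoord M0 q), Z.Unram →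
    WGood M0 q Z.xF → ZCuspRel Z → NoElliptic M0 → NoElliptic (M0 * q) →
    NoElliptic (M0 * q * q) →
    ∀ (K0 : IntermediateField ℚ Kb), FiniteDimensional ℚ K0 → Unr A K0 → Stab A K0 →
    ∀ [IsDiscreteValuationRing (R0 K0 A)]
      (D : QData (R0 K0 A) K0 (kA A)) (T : Two D q) (X : D.Coord)
      (y : LaurentSeries (R0 K0 A)) (hxy : X.xW * y = 1)
      (K0' : IntermediateField ℚ Kb) (hle : K0 ≤ K0')
      [IsDiscreteValuationRing (R0 K0' A)] (ζR : (R0 K0' A)ˣ)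
      (D' : QData (R0 K0' A) K0' (kA A))
      (H : Three T (IntermediateField.inclusion hle).toRingHom (S35.GNorm.uK ζR)),
      (D.F0 = F0 K0 M0 ∧ D.res = res0 K0 A ∧ D.ϖ = ((q : ℕ) : R0 K0 A) ∧
      T.F = F0 K0 (M0 * q) ∧
      (∀ (f : T.F) (hf : bc K0 (f : LaurentSeries K0) ∈ modularFunctionFieldBar (M0 * q)),
        bc K0 (T.e2 f) = ((Wb M0 q hqM ⟨_, hf⟩ : FF (M0 * q)) : LaurentSeries Kb)) ∧
      X.xW = zS (R0 K0 A) Z.xZ ∧ y = zS (R0 K0 A) Z.yZ ∧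
      bc K0 (X.x : LaurentSeries K0) = (Z.xF : LaurentSeries Kb) ∧
      IsDedekindDomain (X.chart ⧸ Ideal.span {Inst.ϖB X}) ∧
      IsDedekindDomain ((X.inv y hxy).chart ⧸ Ideal.span {Inst.ϖB (X.inv y hxy)}) ∧
      qExpand (kA A) q (D.red X.xW) = D.red X.xW ^ q ∧
      qExpand (kA A) q (D.red y) = D.red y ^ q ∧
      XYData T X ∧ XYData T (X.inv y hxy) ∧ Nonempty D.Theta) →
      (FiniteDimensional ℚ K0' ∧ IsPrimitiveRoot (ζR : R0 K0' A) q ∧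
      D'.F0 = F0 K0' M0 ∧ D'.res = res0 K0' A ∧ D'.res ζR = 1 ∧
      (∃ c0, (ζR : R0 K0' A) - 1 = D'.ϖ * c0 ∧ D'.res c0 ≠ 0) ∧
      BCData D D' (UnrCyc.iR A hle) (IntermediateField.inclusion hle).toRingHom) →
      (H.F = F0 K0 (M0 * q * q) ∧
      (∀ (f : H.F) (hf : bc K0 (f : LaurentSeries K0) ∈ modularFunctionFieldBar (M0 * q * q)),
        bc K0 (H.eB f) = ((Wb2 M0 q hqM ⟨_, hf⟩ : FF (M0 * q * q)) : LaurentSeries Kb))) →
      (∃ ζm : (R0 K0 A)ˣ, IsPrimitiveRoot ζm m) →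
      ∀ (Φ : TAut T), (∀ c, Φ.sk c = c ^ q) →
        coeffMap (Φ.sR : R0 K0 A →+* R0 K0 A) X.xW = X.xW →
        coeffMap (Φ.sR : R0 K0 A →+* R0 K0 A) y = y →
      HCusp H D' X ∧ HCusp H D' (X.inv y hxy)

set_option maxHeartbeats 4000000 in
/-- `HTAll` from the cusps. -/
theorem htAll_of_cusp29 (q : ℕ) [Fact q.Prime] (A : ValuationSubring Kb)
    (hA : A.LiesOverPrime q) (h : HCuspAll29 q A) : HTAll q A := by
  have hq : q.Prime := Fact.out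
  intro m M0 _ hqM hqm Z hU hW hZ n1 n2 n3 K0 hK0 hu0 hst _ D T X y hxy K0' hle _ ζR D' H
    h1 h2 h3 h4 Φ hΦ hΦx hΦy
  obtain ⟨c1, c2⟩ := h m M0 hqM hqm Z hU hW hZ n1 n2 n3 K0 hK0 hu0 hst D T X y hxy
    K0' hle ζR D' H h1 h2 h3 h4 Φ hΦ hΦx hΦy
  obtain ⟨hF, hres, hϖ, hT, hTW, hXW, hy, hX, hded1, hded2, hxq, hyq, hxy1, hxy2, -⟩ := h1
  obtain ⟨-, hprim, -, hres', -, ⟨c0, hc, hc0⟩, hbc⟩ := h2
  have hchar : CharP (kA A) q := ResField.charP hq hA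
  have hmemN : zS Kb Z.xZ ∈ modularFunctionFieldBar (M0 * q) := by
    have h := (heckeAlphaBar Kb M0 q Z.xF).2
    rwa [coe_heckeAlphaBar] at h
  obtain ⟨ZN, hZN⟩ : ∃ ZN : ZCoord (M0 * q) q, ZN.xF = heckeAlphaBar Kb M0 q Z.xF :=
    ⟨{ Z with mem := hmemN }, Subtype.ext (coe_heckeAlphaBar M0 q Z.xF).symm⟩
  have hxt := transcendental_xF ZN
  have hxt' : Transcendental Kb ZN.xF⁻¹ := FF.transcendental_inv hxt
  have hfd := finiteDimensional_xF ZN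
  have hfd' := finiteDimensional_xF_inv ZN
  have hιx0 : iotaF D hF X.x = Z.xF := Subtype.ext (by rw [coe_iotaF, hX])
  have hιx0' : iotaF D hF (X.inv y hxy).x = Z.xF⁻¹ := by
    rw [X.inv_x y hxy, map_inv₀, hιx0]
  have hιx : iotaT T hT (T.x X) = ZN.xF := by
    rw [hZN, ← hιx0]
    exact iotaT_al T hT hF X.x
  have hιx' : iotaT T hT (T.x (X.inv y hxy)) = ZN.xF⁻¹ := by
    rw [hZN, ← map_inv₀, ← hιx0']
    exact iotaT_al T hT hF (X.inv y hxy).x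
  have f1 : FiniteDimensional Kb⟮iotaT T hT (T.x X)⟯ (FF (M0 * q)) := by
    rw [hιx]
    exact hfd
  have f2 : FiniteDimensional Kb⟮iotaT T hT (T.x (X.inv y hxy))⟯ (FF (M0 * q)) := by
    rw [hιx']
    exact hfd'
  have hmU : IsUnit (m : R0 K0 A) := natCast_isUnit_R0 K0 A hq hA hqm
  have hperf : ∀ r : R0 K0 A, D.res r = 0 ∨ ∃ n : ℕ, n ≠ 0 ∧ D.res r ^ n = 1 := fun r => by
    rw [hres]; exact Perf.hres_R0 hq hA K0 r
  have r1 := ht_fin M0 hqM T X (iotaF D hF) (fun _ => rfl) (iotaT T hT) (fun _ => rfl) hT.ge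
    (by rw [hιx]; exact hxt) n1 (by rw [hιx0]; exact hW) hbc.comm hbc.res hϖ ζR hprim c0 hc hc0 H
    hmU hded1 hxq Φ hΦ hΦx hxy1
    (fun hbe1 hle1 => GenT.hord_fin T X hq hded1 hxq Φ hΦ hΦx hxy1.1 hperf hbe1 hle1) c1
  have r2 := ht_fin M0 hqM T (X.inv y hxy) (iotaF D hF) (fun _ => rfl) (iotaT T hT)
    (fun _ => rfl) hT.ge
    (by rw [hιx']; exact hxt') n1 (by rw [hιx0']; exact hW.inv) hbc.comm hbc.res hϖ ζR hprim c0
    hc hc0 H hmU hded2 hyq Φ hΦ hΦy hxy2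
    (fun hbe1 hle1 => GenT.hord_fin T (X.inv y hxy) hq hded2 hyq Φ hΦ hΦy hxy2.1 hperf hbe1 hle1)
    c2
  exact ⟨r1.1, r2.1, r1.2, r2.2⟩

end Fermat.Agent.S36
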