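import Fermat.Agent.S36.CoreFin
import Fermat.Agent.S36.T2Fin
import Fermat.Agent.S36.GenOrdFin
import Fermat.Agent.S35.GU

/-!
# S36, block G : the whole chain above `(T2)` at the cusps of the middle component
-/

set_option autoImplicit false
set_option linter.unusedVariables false
set_option synthInstance.maxHeartbeats 400000

noncomputable section

namespace Fermat.Agent.S36

open ModularCurve AlgebraicCurve Polynomial IntermediateField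
open Fermat.Agent.S24 Fermat.Agent.S28 Fermat.Agent.ES Fermat.Agent.ES.QE Fermat.Agent.ES.Model
  Fermat.Agent.ES.IDvr Fermat.Agent.ES.Inst Fermat.Agent.S37.Rat Fermat.Agent.S34
  Fermat.Agent.S35
open Fermat.Agent.ES.Inst.InstFinal Fermat.Agent.ES.Inst.InstCoord
open Fermat.Agent.S34.UAux Fermat.Agent.S34.WK

section One

variable {K0 : IntermediateField ℚ Kb} {A : ValuationSubring Kb}
  [IsDiscreteValuationRing (R0 K0 A)] {D : QData (R0 K0 A) K0 (kA A)} {q : ℕ} [Fact q.Prime]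
  {R' K' : Type*} [CommRing R'] [IsDomain R'] [IsNoetherianRing R'] [IsIntegrallyClosed R']
  [Field K'] [Algebra R' K'] [IsFractionRing R' K']
  {D' : QData R' K' (kA A)} {iR : R0 K0 A →+* R'} {i : K0 →+* K'}

set_option maxHeartbeats 2000000 in
/-- `(T1)`, `(T2)` on one chart : `xF` is the coordinate in `FF M0`. -/
theorem ht_one12 (M0 : ℕ) [NeZero M0] (hqM : ¬ q ∣ M0) (hA : A.LiesOverPrime q)
    (hF : D.F0 = F0 K0 M0) (hDres : D.res = res0 K0 A)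
    (T : Two D q) (hT : T.F = F0 K0 (M0 * q)) (X : D.Coord)
    (xF : FF M0) (hX : bc K0 (X.x : LaurentSeries K0) = (xF : LaurentSeries Kb))
    (htr : Transcendental Kb (heckeAlphaBar Kb M0 q xF))
    (hfd : FiniteDimensional Kb⟮heckeAlphaBar Kb M0 q xF⟯ (FF (M0 * q)))
    (hM : NoElliptic M0) (hW : WGood M0 q xF)
    (B : BCData D D' iR i) (hϖ : D.ϖ = ((q : ℕ) : R0 K0 A)) (ζR : R'ˣ)
    (hprim : IsPrimitiveRoot (ζR : R') q)
    (c0 : R') (hc : (ζR : R') - 1 = D'.ϖ * c0) (hc0 : D'.res c0 ≠ 0)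
    (H : Three T i (GNorm.uK ζR))
    (hded : IsDedekindDomain (X.chart ⧸ Ideal.span {Inst.ϖB X}))
    (hxq : qExpand (kA A) q (D.red X.xW) = D.red X.xW ^ q)
    (Φ : TAut T) (hΦ : ∀ c, Φ.sk c = c ^ q)
    (hΦx : coeffMap (Φ.sR : R0 K0 A →+* R0 K0 A) X.xW = X.xW)
    (hxy : XYData T X) (hcusp : HCusp H D' X) : HT1 T X ∧ HT2 H D' X := by
  have hq : q.Prime := Fact.out
  have hchar : CharP (kA A) q := ResField.charP hq hA
  let ι0 : D.F0 →+* FF M0 :=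
    ((bc K0).comp (algebraMap D.F0 (LaurentSeries K0))).codRestrict (modularFunctionFieldBar M0)
      (fun f => bc_mem K0 M0 (hF ▸ f.2))
  have hι0 : ∀ f : D.F0, ((ι0 f : FF M0) : LaurentSeries Kb) = bc K0 (f : LaurentSeries K0) :=
    fun _ => rfl
  have hι0x : ι0 X.x = xF := Subtype.ext hX
  have hιx : iotaT T hT (T.x X) = heckeAlphaBar Kb M0 q xF := by
    apply Subtype.ext
    rw [coe_heckeAlphaBar, ← hX]
    rfl
  have hfd' : FiniteDimensional Kb⟮iotaT T hT (T.x X)⟯ (FF (M0 * q)) := by rw [hιx]; exact hfd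
  exact ht_fin M0 hqM T X ι0 hι0 (iotaT T hT) (fun _ => rfl) hT.symm.le (by rw [hιx]; exact htr)
    hM (by rw [hι0x]; exact hW) B.comm B.res hϖ ζR hprim c0 hc hc0 H
    (m := 1) (by rw [Nat.cast_one]; exact isUnit_one) hded hxq Φ hΦ hΦx hxy
    (fun hbe1 hle1 => GenT.hord_fin T X hq hded hxq Φ hΦ hΦx hxy.1
      (fun r => by rw [hDres]; exact Perf.hres_R0 hq hA K0 r) hbe1 hle1) hcusp

set_option maxHeartbeats 2000000 in
/-- `(T1)`, `(T2)` on the two charts. -/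
theorem ht_both12 (M0 : ℕ) [NeZero M0] (hqM : ¬ q ∣ M0) (hA : A.LiesOverPrime q)
    (Z : ZCoord M0 q) (hW : WGood M0 q Z.xF) (hM : NoElliptic M0)
    (hF : D.F0 = F0 K0 M0) (hDres : D.res = res0 K0 A)
    (T : Two D q) (hT : T.F = F0 K0 (M0 * q)) (X : D.Coord)
    (y : LaurentSeries (R0 K0 A)) (hxy : X.xW * y = 1)
    (hX : bc K0 (X.x : LaurentSeries K0) = (Z.xF : LaurentSeries Kb))
    (B : BCData D D' iR i) (hϖ : D.ϖ = ((q : ℕ) : R0 K0 A)) (ζR : R'ˣ)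
    (hprim : IsPrimitiveRoot (ζR : R') q)
    (c0 : R') (hc : (ζR : R') - 1 = D'.ϖ * c0) (hc0 : D'.res c0 ≠ 0)
    (H : Three T i (GNorm.uK ζR))
    (hded1 : IsDedekindDomain (X.chart ⧸ Ideal.span {Inst.ϖB X}))
    (hded2 : IsDedekindDomain ((X.inv y hxy).chart ⧸ Ideal.span {Inst.ϖB (X.inv y hxy)}))
    (hxq : qExpand (kA A) q (D.red X.xW) = D.red X.xW ^ q)
    (hyq : qExpand (kA A) q (D.red y) = D.red y ^ q)
    (Φ : TAut T) (hΦ : ∀ c, Φ.sk c = c ^ q)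
    (hΦx : coeffMap (Φ.sR : R0 K0 A →+* R0 K0 A) X.xW = X.xW)
    (hΦy : coeffMap (Φ.sR : R0 K0 A →+* R0 K0 A) y = y)
    (hxy1 : XYData T X) (hxy2 : XYData T (X.inv y hxy))
    (hcusp1 : HCusp H D' X) (hcusp2 : HCusp H D' (X.inv y hxy)) :
    HT1 T X ∧ HT1 T (X.inv y hxy) ∧ HT2 H D' X ∧ HT2 H D' (X.inv y hxy) := by
  have hmemN : zS Kb Z.xZ ∈ modularFunctionFieldBar (M0 * q) := by
    have h := (heckeAlphaBar Kb M0 q Z.xF).2
    rwa [coe_heckeAlphaBar] at h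
  obtain ⟨ZN, hZN⟩ : ∃ ZN : ZCoord (M0 * q) q, ZN.xF = heckeAlphaBar Kb M0 q Z.xF :=
    ⟨{ Z with mem := hmemN }, Subtype.ext (coe_heckeAlphaBar M0 q Z.xF).symm⟩
  have hxt := transcendental_xF ZN
  have hxt' : Transcendental Kb ZN.xF⁻¹ := FF.transcendental_inv hxt
  have hfd := finiteDimensional_xF ZN
  have hfd' := finiteDimensional_xF_inv ZN
  have hαx : heckeAlphaBar Kb M0 q Z.xF = ZN.xF := hZN.symm
  have hαx' : heckeAlphaBar Kb M0 q Z.xF⁻¹ = ZN.xF⁻¹ := by rw [map_inv₀, hαx]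
  have hX' : bc K0 ((X.inv y hxy).x : LaurentSeries K0) = ((Z.xF⁻¹ : FF M0) : LaurentSeries Kb) := by
    rw [X.inv_x y hxy]
    have : ((X.x⁻¹ : D.F0) : LaurentSeries K0) = (X.x : LaurentSeries K0)⁻¹ := rfl
    rw [this, map_inv₀, hX]
    rfl
  obtain ⟨a1, a2⟩ := ht_one12 M0 hqM hA hF hDres T hT X Z.xF hX (by rw [hαx]; exact hxt)
    (by rw [hαx]; exact hfd) hM hW B hϖ ζR hprim c0 hc hc0 H hded1 hxq Φ hΦ hΦx hxy1 hcusp1
  obtain ⟨b1, b2⟩ := ht_one12 M0 hqM hA hF hDres T hT (X.inv y hxy) Z.xF⁻¹ hX'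
    (by rw [hαx']; exact hxt') (by rw [hαx']; exact hfd') hM hW.inv B hϖ ζR hprim c0 hc hc0 H
    hded2 hyq Φ hΦ hΦy hxy2 hcusp2
  exact ⟨a1, b1, a2, b2⟩

end One

/-- `(T2)` at the cusps of the middle component, on the two charts, for all the objects. -/
def HCuspAll12 (q : ℕ) [Fact q.Prime] (A : ValuationSubring Kb) : Prop :=
  ∀ (m M0 : ℕ) [NeZero M0] (hqM : ¬ q ∣ M0), ¬ q ∣ m → ∀ (Z : ZCoord M0 q), Z.Unram →
    WGood M0 q Z.xF → ZCuspRel Z → NoElliptic M0 → NoElliptic (M0 * q) →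
    NoElliptic (M0 * q * q) →
    ∀ (K0 : IntermediateField ℚ Kb), FiniteDimensional ℚ K0 → Unr A K0 → Stab A K0 →
    ∀ [IsDiscreteValuationRing (R0 K0 A)]
      (D : QData (R0 K0 A) K0 (kA A)) (T : Two D q) (X : D.Coord)
      (y : LaurentSeries (R0 K0 A)) (hxy : X.xW * y = 1)
      (K0' : IntermediateField ℚ Kb) (hle : K0 ≤ K0')
      [IsDiscreteValuationRing (R0 K0' A)] (ζR : (R0 K0' A)ˣ)
      (D' : QData (R0 K0' A) K0' (kA A))
      (H : Three T (IntermediateField.inclusion hle).toRingHom (S35.GNorm.uK ζR)),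
      (D.F0 = F0 K0 M0 ∧ D.res = res0 K0 A ∧ D.ϖ = ((q : ℕ) : R0 K0 A) ∧
      T.F = F0 K0 (M0 * q) ∧
      (∀ (f : T.F) (hf : bc K0 (f : LaurentSeries K0) ∈ modularFunctionFieldBar (M0 * q)),
        bc K0 (T.e2 f) = ((Wb M0 q hqM ⟨_, hf⟩ : FF (M0 * q)) : LaurentSeries Kb)) ∧
      X.xW = zS (R0 K0 A) Z.xZ ∧ y = zS (R0 K0 A) Z.yZ ∧
      bc K0 (X.x : LaurentSeries K0) = (Z.xF : LaurentSeries Kb) ∧
      IsDedekindDomain (X.chart ⧸ Ideal.span {Inst.ϖB X}) ∧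
      IsDedekindDomain ((X.inv y hxy).chart ⧸ Ideal.span {Inst.ϖB (X.inv y hxy)}) ∧
      qExpand (kA A) q (D.red X.xW) = D.red X.xW ^ q ∧
      qExpand (kA A) q (D.red y) = D.red y ^ q ∧
      XYData T X ∧ XYData T (X.inv y hxy) ∧ Nonempty D.Theta) →
      (FiniteDimensional ℚ K0' ∧ IsPrimitiveRoot (ζR : R0 K0' A) q ∧
      D'.F0 = F0 K0' M0 ∧ D'.res = res0 K0' A ∧ D'.res ζR = 1 ∧
      (∃ c0, (ζR : R0 K0' A) - 1 = D'.ϖ * c0 ∧ D'.res c0 ≠ 0) ∧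
      BCData D D' (UnrCyc.iR A hle) (IntermediateField.inclusion hle).toRingHom) →
      (H.F = F0 K0 (M0 * q * q) ∧
      (∀ (f : H.F) (hf : bc K0 (f : LaurentSeries K0) ∈ modularFunctionFieldBar (M0 * q * q)),
        bc K0 (H.eB f) = ((Wb2 M0 q hqM ⟨_, hf⟩ : FF (M0 * q * q)) : LaurentSeries Kb))) →
      (∃ ζm : (R0 K0 A)ˣ, IsPrimitiveRoot ζm m) →
      ∀ (Φ : TAut T), (∀ c, Φ.sk c = c ^ q) →
        coeffMap (Φ.sR : R0 K0 A →+* R0 K0 A) X.xW = X.xW →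
        coeffMap (Φ.sR : R0 K0 A →+* R0 K0 A) y = y →
      HCusp H D' X ∧ HCusp H D' (X.inv y hxy)

set_option maxHeartbeats 1000000 in
theorem htAll_of_cusp12 (q : ℕ) [Fact q.Prime] (A : ValuationSubring Kb) (hA : A.LiesOverPrime q)
    (h : HCuspAll12 q A) : HTAll q A := by
  intro m M0 _ hqM hqm Z hU hW hZ n1 n2 n3 K0 hK0 hu0 hst _ D T X y hxy K0' hle _ ζR D' H
    h1 h2 h3 h4 Φ hΦ hΦx hΦy
  obtain ⟨k1, k2⟩ := h m M0 hqM hqm Z hU hW hZ n1 n2 n3 K0 hK0 hu0 hst D T X y hxy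
    K0' hle ζR D' H h1 h2 h3 h4 Φ hΦ hΦx hΦy
  obtain ⟨hF, hres, hϖ, hT, hTW, hXW, hy, hX, hded1, hded2, hxq, hyq, hxy1, hxy2, -⟩ := h1
  obtain ⟨-, hprim, -, hres', -, ⟨c0, hc, hc0⟩, hbc⟩ := h2
  exact ht_both12 M0 hqM hA Z hW n1 hF hres T hT X y hxy hX hbc hϖ ζR hprim c0 hc hc0 H
    hded1 hded2 hxq hyq Φ hΦ hΦx hΦy hxy1 hxy2 k1 k2

/-- **The whole chain above `(T2)` at the cusps.** -/
theorem claimA_all_of_cusp12 (p q : ℕ) [Fact q.Prime] (hp : p.Prime) (hqp : q ≠ p)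
    (A : ValuationSubring Kb) (hA : A.LiesOverPrime q) (h : HCuspAll12 q A)
    (M0 : ℕ) [NeZero M0] (hqM : ¬ q ∣ M0) : ClaimA p M0 q A :=
  claimA_all_of_ht p q hp hqp A hA (htAll_of_cusp12 q A hA h) M0 hqM

end Fermat.Agent.S36
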