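import Fermat.Agent.S36.HdivK0

/-!
# S36, block G-REG : [IntSpan]

Every `z : FF N` integral over `ℚ̄[xF]` is a finite `ℚ̄`-linear combination of elements of
`F0 K0 N` which are integral over `K0[x0]` (`K0` any intermediate field, `bc K0 x0 = xF`).
-/

set_option autoImplicit false

noncomputable section

namespace Fermat.Agent.S36

open ModularCurve AlgebraicCurve Polynomial IntermediateField
open Fermat.Agent.S24 Fermat.Agent.S28 Fermat.Agent.ES Fermat.Agent.ES.QE Fermat.Agent.ES.Inst
open Fermat.Agent.S34 Fermat.Agent.S34.SpanDesc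

open HdivK0

/-- **[IntSpan]** -/
theorem exists_intSpan (N : ℕ) [NeZero N] (K0 : IntermediateField ℚ Kb) (xF z : FF N)
    (x0 : LaurentSeries K0) (hx : bc K0 x0 = (xF : LaurentSeries Kb))
    (hz : IsIntegral (Algebra.adjoin Kb {xF}) z) :
    ∃ (r : ℕ) (c : Fin r → Kb) (z0 : Fin r → LaurentSeries K0), (∀ l, z0 l ∈ F0 K0 N) ∧
      (∀ l, (evS x0).IsIntegralElem (z0 l)) ∧
      (z : LaurentSeries Kb) = ∑ l, HahnSeries.C (c l) * bc K0 (z0 l) := by
  classical
  have halg : Algebra.IsAlgebraic ℚ Kb := AlgebraicClosure.isAlgebraic ℚ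
  have : Algebra.IsAlgebraic K0 Kb := Algebra.IsAlgebraic.tower_top (K := ℚ) K0
  set b := Module.Basis.ofVectorSpace K0 Kb with hb
  have hzb : (z : LaurentSeries Kb) ∈ bigField (L := Kb) (F0 K0 N) := FF_mem_bigField K0 N z
  obtain ⟨s, hs⟩ := exists_expansion (F0 K0 N) b hzb
  have hint := isIntegralElem_fL_of_adjoin N K0 xF z x0 hx hz
  set e := s.equivFin with he
  refine ⟨s.card, fun l => b (e.symm l), fun l => lam (b.coord (e.symm l)) (z : LaurentSeries Kb),
    fun l => lam_mem _ (F0 K0 N) hzb, fun l => ?_, ?_⟩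
  · have := key (F0 K0 N) x0 1 one_pos 1 (b.coord (e.symm l)) hzb
      (by rwa [pow_one, map_one, mul_one])
    rwa [pow_one, mul_one] at this
  · conv_lhs => rw [hs s (Finset.Subset.refl s)]
    rw [← Finset.sum_coe_sort s, ← Equiv.sum_comp e.symm]
    exact Finset.sum_congr rfl fun l _ => mul_comm _ _

end Fermat.Agent.S36
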