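import Mathlib

/-!
# S36, W1 : a group of endomorphisms with `(g - 1) ^ 2 = 0` has a common fixed vector
(Mathlib only).
-/

set_option autoImplicit false

namespace Fermat.Agent.S36.Kolchin

section Ring

variable {E : Type*} [Ring E]

theorem bab_eq_zero (h2 : ∀ x : E, x + x = 0 → x = 0) (a b : E) (ha : a * a = 0) (hb : b * b = 0)
    (h1 : (a + b + a * b) * (a + b + a * b) = 0) (h3 : (a - b - a * b) * (a - b - a * b) = 0) :
    b * a * b = 0 := by
  have e1 : (a + b + a * b) * (a + b + a * b)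
      = a * b + b * a + b * a * b + a * b * a + a * b * a * b
        + (a * a + a * a * b + b * b + a * (b * b)) := by noncomm_ring
  have e3 : (a - b - a * b) * (a - b - a * b)
      = -(a * b) - b * a + b * a * b - a * b * a + a * b * a * b
        + (a * a - a * a * b + b * b + a * (b * b)) := by noncomm_ring
  rw [e1, ha, hb] at h1
  rw [e3, ha, hb] at h3
  have h4 : (1 + a) * (b * a * b) + (1 + a) * (b * a * b) = 0 := by
    have : (1 + a) * (b * a * b) + (1 + a) * (b * a * b)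
        = (a * b + b * a + b * a * b + a * b * a + a * b * a * b + (0 + 0 * b + 0 + a * 0))
          + (-(a * b) - b * a + b * a * b - a * b * a + a * b * a * b
            + (0 - 0 * b + 0 + a * 0)) := by noncomm_ring
    rw [this, h1, h3, add_zero]
  have h5 := h2 _ h4
  have h6 : b * a * b = (1 - a) * ((1 + a) * (b * a * b)) + a * a * (b * a * b) := by noncomm_ring
  rw [h6, h5, ha]
  simp

theorem anticomm (a b : E) (ha : a * a = 0) (hb : b * b = 0)
    (h1 : (a + b + a * b) * (a + b + a * b) = 0) (hbab : b * a * b = 0) (haba : a * b * a = 0) :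
    a * b + b * a = 0 := by
  have e1 : (a + b + a * b) * (a + b + a * b)
      = a * b + b * a + b * a * b + a * b * a + a * (b * a * b)
        + (a * a + a * a * b + b * b + a * (b * b)) := by noncomm_ring
  rw [e1, ha, hb, hbab, haba] at h1
  simpa using h1

theorem abc_eq_zero (h2 : ∀ x : E, x + x = 0 → x = 0) (a b c : E) (hac : a * c + c * a = 0)
    (hbc : b * c + c * b = 0) (h : (a + b + a * b) * c + c * (a + b + a * b) = 0) :
    a * b * c = 0 := by
  apply h2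
  have e : a * b * c + a * b * c
      = ((a + b + a * b) * c + c * (a + b + a * b)) - (a * c + c * a) - (b * c + c * b)
        - (a * c + c * a) * b + a * (b * c + c * b) := by noncomm_ring
  rw [e, h, hac, hbc]
  simp

end Ring

variable {R M G : Type*} [CommRing R] [AddCommGroup M] [Module R M] [Group G]

/-- **Kolchin** for a group of endomorphisms with `(g - 1) ^ 2 = 0`. -/
theorem triple (ρ : G →* Module.End R M) (H : Subgroup G) (h2 : ∀ x : M, x + x = 0 → x = 0)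
    (hu : ∀ g ∈ H, (ρ g - 1) * (ρ g - 1) = 0) (g h k : G) (hg : g ∈ H) (hh : h ∈ H) (hk : k ∈ H) :
    (ρ g - 1) * (ρ h - 1) * (ρ k - 1) = 0 := by
  have h2E : ∀ x : Module.End R M, x + x = 0 → x = 0 := fun x hx =>
    LinearMap.ext fun m => h2 _ (by
      have := LinearMap.congr_fun hx m
      simpa using this)
  have hmul : ∀ g h : G, ρ (g * h) - 1 = (ρ g - 1) + (ρ h - 1) + (ρ g - 1) * (ρ h - 1) := by
    intro g h
    rw [map_mul]
    noncomm_ring
  have hinv : ∀ g ∈ H, ρ g⁻¹ - 1 = -(ρ g - 1) := by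
    intro g hg
    have e1 : ρ g⁻¹ * ρ g = 1 := by rw [← map_mul, inv_mul_cancel, map_one]
    have e2 : ρ g⁻¹ = ρ g⁻¹ * ρ g * (1 - (ρ g - 1)) + ρ g⁻¹ * ((ρ g - 1) * (ρ g - 1)) := by
      noncomm_ring
    rw [e1, hu g hg] at e2
    rw [e2]
    noncomm_ring
  have hsq : ∀ g ∈ H, ∀ h ∈ H, ((ρ g - 1) + (ρ h - 1) + (ρ g - 1) * (ρ h - 1))
      * ((ρ g - 1) + (ρ h - 1) + (ρ g - 1) * (ρ h - 1)) = 0 := by
    intro g hg h hh
    rw [← hmul]
    exact hu _ (H.mul_mem hg hh)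
  have hsq' : ∀ g ∈ H, ∀ h ∈ H, ((ρ g - 1) - (ρ h - 1) - (ρ g - 1) * (ρ h - 1))
      * ((ρ g - 1) - (ρ h - 1) - (ρ g - 1) * (ρ h - 1)) = 0 := by
    intro g hg h hh
    have := hsq g hg h⁻¹ (H.inv_mem hh)
    rw [hinv h hh] at this
    have e : (ρ g - 1) - (ρ h - 1) - (ρ g - 1) * (ρ h - 1)
        = (ρ g - 1) + -(ρ h - 1) + (ρ g - 1) * -(ρ h - 1) := by noncomm_ring
    rw [e]
    exact this
  have hbab : ∀ g ∈ H, ∀ h ∈ H, (ρ h - 1) * (ρ g - 1) * (ρ h - 1) = 0 := fun g hg h hh =>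
    bab_eq_zero h2E _ _ (hu g hg) (hu h hh) (hsq g hg h hh) (hsq' g hg h hh)
  have hanti : ∀ g ∈ H, ∀ h ∈ H, (ρ g - 1) * (ρ h - 1) + (ρ h - 1) * (ρ g - 1) = 0 :=
    fun g hg h hh => anticomm _ _ (hu g hg) (hu h hh) (hsq g hg h hh) (hbab g hg h hh)
      (hbab h hh g hg)
  refine abc_eq_zero h2E _ _ _ (hanti g hg k hk) (hanti h hh k hk) ?_
  rw [← hmul]
  exact hanti _ (H.mul_mem hg hh) k hk

/-- a nonzero vector of a stable submodule `P` produces a nonzero fixed vector in `P`. -/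
theorem exists_fixed (ρ : G →* Module.End R M) (H : Subgroup G) (h2 : ∀ x : M, x + x = 0 → x = 0)
    (hu : ∀ g ∈ H, (ρ g - 1) * (ρ g - 1) = 0) (P : Submodule R M)
    (hP : ∀ g ∈ H, ∀ x ∈ P, ρ g x ∈ P) (w : M) (hwP : w ∈ P) (hw : w ≠ 0) :
    ∃ w' ∈ P, w' ≠ 0 ∧ ∀ g ∈ H, ρ g w' = w' := by
  have hP' : ∀ g ∈ H, ∀ x ∈ P, (ρ g - 1) x ∈ P := fun g hg x hx => by
    rw [LinearMap.sub_apply, Module.End.one_apply]
    exact P.sub_mem (hP g hg x hx) hx
  have hfix : ∀ (g : G) (x : M), (ρ g - 1) x = 0 → ρ g x = x := fun g x h => by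
    rw [LinearMap.sub_apply, Module.End.one_apply, sub_eq_zero] at h
    exact h
  by_cases h1 : ∀ g ∈ H, (ρ g - 1) w = 0
  · exact ⟨w, hwP, hw, fun g hg => hfix g w (h1 g hg)⟩
  push_neg at h1
  obtain ⟨g, hg, hgw⟩ := h1
  by_cases h3 : ∀ h ∈ H, (ρ h - 1) ((ρ g - 1) w) = 0
  · exact ⟨_, hP' g hg w hwP, hgw, fun h hh => hfix h _ (h3 h hh)⟩
  push_neg at h3
  obtain ⟨h, hh, hhw⟩ := h3
  refine ⟨_, hP' h hh _ (hP' g hg w hwP), hhw, fun k hk => hfix k _ ?_⟩
  have := LinearMap.congr_fun (triple ρ H h2 hu k h g hk hh hg) w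
  simpa [Module.End.mul_apply] using this

end Fermat.Agent.S36.Kolchin
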