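import Fermat.Agent.S36.WDefs
import Fermat.Agent.S36.Kolchin

/-!
# S36 : the algebra part (variant of `S35/Main35.lean`)
-/

set_option autoImplicit false
set_option linter.overlappingInstances false

namespace Fermat.Agent.S36

open Fermat.Agent.ES Fermat.Agent.S24 Fermat.Agent.S30 Fermat.Agent.S35 CuspForm Polynomial
  IsLocalRing

namespace Main36

/-- an additive map to `ℤ / n` kills the multiples of `n`. -/
theorem addHom_mul {𝒪 : Type*} [CommRing 𝒪] (n : ℕ) (φ : 𝒪 →+ ZMod n) (x : 𝒪)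
    (hx : x ∈ Ideal.span {((n : ℕ) : 𝒪)}) : φ x = 0 := by
  obtain ⟨e, rfl⟩ := Ideal.mem_span_singleton'.1 hx
  have : e * ((n : ℕ) : 𝒪) = n • e := by rw [nsmul_eq_mul, mul_comm]
  rw [this, map_nsmul, nsmul_eq_mul, ZMod.natCast_self, zero_mul]

theorem addHom_intCast_mul {𝒪 : Type*} [CommRing 𝒪] (n : ℕ) (φ : 𝒪 →+ ZMod n) (z : ℤ) (x : 𝒪) :
    φ ((z : 𝒪) * x) = (z : ZMod n) * φ x := by
  rw [← zsmul_eq_mul, map_zsmul, zsmul_eq_mul]

/-- an integer matrix commutes with an additive functional. -/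
theorem addHom_toO {𝒪 : Type*} [CommRing 𝒪] (n : ℕ) (φ : 𝒪 →+ ZMod n) {d : ℕ}
    (θ : Matrix (Fin d) (Fin d) ℤ) (w : Fin d → 𝒪) :
    (fun i => φ ((toO 𝒪 θ).mulVec w i)) = (toO (ZMod n) θ).mulVec (fun i => φ (w i)) := by
  funext i
  simp only [Matrix.mulVec, dotProduct, map_sum, Matrix.map_apply, eq_intCast,
    addHom_intCast_mul]

end Main36

open Main36

open Fermat.Agent.S30.Tate Fermat.Agent.S30.Lim in
theorem exists_tate36 {p N : ℕ} [NeZero N] {S : Set ℕ} (D : FinData p N S)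
    (𝒪 : Type) [CommRing 𝒪] [IsLocalRing 𝒪] [IsAdicComplete (maximalIdeal 𝒪) 𝒪]
    (hp : (p : 𝒪) ∈ maximalIdeal 𝒪)
    (hpow : ∀ r : ℕ, ∃ n : ℕ, maximalIdeal 𝒪 ^ n ≤ Ideal.span {((p ^ r : ℕ) : 𝒪)}) :
    ∃ R : GQ →* Matrix (Fin D.d) (Fin D.d) 𝒪,
      (∀ (g : GQ) (t : heckeAlgebra N 2 S), R g * toO 𝒪 (D.τ t) = toO 𝒪 (D.τ t) * R g) ∧
      (∀ n : ℕ, ∃ L : IntermediateField ℚ Kb, FiniteDimensional ℚ L ∧
        ∀ σ : GQ, (∀ x ∈ L, σ x = x) → ∀ i j, (R σ - 1) i j ∈ maximalIdeal 𝒪 ^ n) ∧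
      (∀ (ℓ : ℕ) (hℓ : ℓ.Prime) (hℓN : ¬ ℓ ∣ N) (hℓS : ℓ ∉ S), ℓ ≠ p →
        ∀ A : ValuationSubring Kb, A.LiesOverPrime ℓ → ∀ σ : GQ, A.IsFrobeniusAt σ ℓ →
          R σ * R σ - toO 𝒪 (D.τ (heckeAlgebra.T hℓ hℓN hℓS)) * R σ
            + (ℓ : Matrix (Fin D.d) (Fin D.d) 𝒪) = 0) ∧
      (∀ θ : Matrix (Fin D.d) (Fin D.d) ℤ,
        (∀ (r : ℕ) (g : GQ), toO (ZMod (p ^ r)) θ * D.α r g = D.α r g * toO (ZMod (p ^ r)) θ) →
        ∀ g : GQ, toO 𝒪 θ * R g = R g * toO 𝒪 θ) ∧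
      (∀ (r : ℕ) (g : GQ) (φ : 𝒪 →+ ZMod (p ^ r)) (w : Fin D.d → 𝒪),
        (fun i => φ ((R g).mulVec w i)) = (D.α r g).mulVec (fun i => φ (w i))) := by
  obtain ⟨R, hR⟩ := exists_limit (maximalIdeal 𝒪) p hp D.α D.compat
  have hR' : ∀ (r : ℕ) (g : GQ), (Ideal.Quotient.mk (maximalIdeal 𝒪 ^ r)).mapMatrix (R g)
      = (zq (maximalIdeal 𝒪) p hp r).mapMatrix (D.α r g) := hR
  have hext : ∀ X Y : Matrix (Fin D.d) (Fin D.d) 𝒪,
      (∀ r : ℕ, (Ideal.Quotient.mk (maximalIdeal 𝒪 ^ r)).mapMatrix X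
        = (Ideal.Quotient.mk (maximalIdeal 𝒪 ^ r)).mapMatrix Y) → X = Y :=
    fun X Y h => eq_of_forall_map_mk (maximalIdeal 𝒪) X Y h
  refine ⟨R, ?_, ?_, ?_, ?_, ?_⟩
  · intro g t
    refine hext _ _ fun r => ?_
    rw [map_mul, map_mul, hR', mapMatrix_toO _ p hp, ← map_mul, ← map_mul, D.comm]
  · intro n
    obtain ⟨L, hL, h⟩ := D.smooth n
    refine ⟨L, hL, fun σ hσ i j => ?_⟩
    have h1 := hR' n σ
    rw [h σ hσ, map_one, ← map_one (Ideal.Quotient.mk (maximalIdeal 𝒪 ^ n)).mapMatrix] at h1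
    have h2 := congrFun (congrFun h1 i) j
    rw [RingHom.mapMatrix_apply, RingHom.mapMatrix_apply, Matrix.map_apply, Matrix.map_apply,
      Ideal.Quotient.eq] at h2
    exact h2
  · intro ℓ hℓ hℓN hℓS hℓp A hA σ hσ
    refine hext _ _ fun r => ?_
    have h := congrArg (zq (maximalIdeal 𝒪) p hp r).mapMatrix (D.es r ℓ hℓ hℓN hℓS hℓp A hA σ hσ)
    rw [map_add, map_sub, map_mul, map_mul, map_natCast, map_zero] at h
    rw [map_add, map_sub, map_mul, map_mul, hR', mapMatrix_toO _ p hp, map_natCast, map_zero]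
    exact h
  · intro θ hθ g
    refine hext _ _ fun r => ?_
    rw [map_mul, map_mul, hR', mapMatrix_toO _ p hp, ← map_mul, ← map_mul, hθ]
  · intro r g φ w
    -- integer lifts of the entries
    have key : ∀ i j, ∃ z : ℤ, (z : ZMod (p ^ r)) = D.α r g i j ∧
        R g i j - (z : 𝒪) ∈ Ideal.span {((p ^ r : ℕ) : 𝒪)} := by
      intro i j
      choose z hz using fun n => ZMod.intCast_surjective (D.α n g i j)
      have hJ : (p : 𝒪) ∈ Ideal.span {(p : 𝒪)} := Ideal.mem_span_singleton_self _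
      have hJr : Ideal.span {(p : 𝒪)} ^ r = Ideal.span {((p ^ r : ℕ) : 𝒪)} := by
        rw [Ideal.span_singleton_pow, Nat.cast_pow]
      have hstep : ∀ n : ℕ, ((z n : ℤ) : 𝒪) - ((z (n + 1) : ℤ) : 𝒪) ∈ Ideal.span {(p : 𝒪)} ^ n := by
        intro n
        apply intCast_sub_mem _ p hJ n
        have := congrFun (congrFun (D.compat n g) i) j
        rw [Matrix.map_apply] at this
        rw [hz n, ← this, ← hz (n + 1), map_intCast]
      have hmn : ∀ k : ℕ, ((z r : ℤ) : 𝒪) - ((z (r + k) : ℤ) : 𝒪) ∈ Ideal.span {(p : 𝒪)} ^ r := by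
        intro k
        induction k with
        | zero => simp
        | succ k ih =>
          have h1 := Ideal.pow_le_pow_right (I := Ideal.span {(p : 𝒪)}) (Nat.le_add_right r k)
            (hstep (r + k))
          have := add_mem ih h1
          rwa [sub_add_sub_cancel] at this
      obtain ⟨n, hn⟩ := hpow r
      refine ⟨z r, hz r, ?_⟩
      have h1 : R g i j - ((z (r + n) : ℤ) : 𝒪) ∈ maximalIdeal 𝒪 ^ (r + n) := by
        have h2 := congrFun (congrFun (hR' (r + n) g) i) j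
        rw [RingHom.mapMatrix_apply, RingHom.mapMatrix_apply, Matrix.map_apply, Matrix.map_apply,
          ← hz (r + n), map_intCast, ← map_intCast (Ideal.Quotient.mk (maximalIdeal 𝒪 ^ (r + n))),
          Ideal.Quotient.eq] at h2
        exact h2
      have h3 := hn (Ideal.pow_le_pow_right (Nat.le_add_left n r) h1)
      have h4 := hmn n
      rw [hJr] at h4
      have := sub_mem h3 h4
      have e : R g i j - ((z (r + n) : ℤ) : 𝒪) - (((z r : ℤ) : 𝒪) - ((z (r + n) : ℤ) : 𝒪))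
          = R g i j - ((z r : ℤ) : 𝒪) := by ring
      rwa [e] at this
    choose z hz hzR using key
    funext i
    simp only [Matrix.mulVec, dotProduct, map_sum]
    refine Finset.sum_congr rfl fun j _ => ?_
    have e : R g i j * w j = (z i j : 𝒪) * w j + (R g i j - (z i j : 𝒪)) * w j := by ring
    rw [e, map_add, addHom_intCast_mul, hz,
      addHom_mul _ φ _ (Ideal.mul_mem_right _ _ (hzR i j)), add_zero]

open Fermat.Agent.S30.Main in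
/-- **S36 from the finite level data.** -/
theorem main36_of (p : ℕ) [Fact p.Prime] (N : ℕ) [NeZero N] (S : Finset ℕ)
    (hpS : p ∈ S) (hNS : ∀ q : ℕ, q.Prime → q ∣ N → q ∈ S) (D : FinData p N (↑S : Set ℕ))
    (𝒪' : Type) [CommRing 𝒪'] [IsDomain 𝒪'] [IsDiscreteValuationRing 𝒪']
    [IsAdicComplete (IsLocalRing.maximalIdeal 𝒪') 𝒪'] [Finite (IsLocalRing.ResidueField 𝒪')]
    [CharZero 𝒪'] (hp : (p : 𝒪') ∈ IsLocalRing.maximalIdeal 𝒪')
    (χ : CuspForm.heckeAlgebra N 2 (↑S : Set ℕ) →+* 𝒪')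
    (hsep : ∀ (n : ℕ) [NeZero n] (a : 𝒪'), (∀ φ : 𝒪' →+ ZMod n, φ a = 0) → ∃ b : 𝒪', a = n • b)
    (hG : ∀ q : ℕ, q.Prime → q ≠ p → N.factorization q = 2 → Good2 D 𝒪' χ q) :
    ∃ (O'' : Type) (_ : CommRing O'') (_ : IsDomain O'') (_ : IsDiscreteValuationRing O'')
      (_ : IsAdicComplete (IsLocalRing.maximalIdeal O'') O'') (_ : Finite (IsLocalRing.ResidueField O''))
      (_ : CharZero O'') (_ : Algebra 𝒪' O'') (_ : Module.Finite 𝒪' O'') (_ : IsLocalHom (algebraMap 𝒪' O'')),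
      Function.Injective (algebraMap 𝒪' O'') ∧
      ∃ ρ : GaloisRepAdic O'',
        (∀ (ℓ : ℕ) (hℓ : ℓ.Prime) (hℓM : ¬ ℓ ∣ N) (hℓS : ℓ ∉ (↑S : Set ℕ)),
          ∀ A : ValuationSubring (AlgebraicClosure ℚ), A.LiesOverPrime ℓ →
            ∀ σ : AlgebraicClosure ℚ ≃ₐ[ℚ] AlgebraicClosure ℚ, A.IsFrobeniusAt σ ℓ →
              LinearMap.charpoly (ρ.ρ σ) =
                X ^ 2 - C (algebraMap 𝒪' O'' (χ (CuspForm.heckeAlgebra.T hℓ hℓM hℓS))) * X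
                  + C ((ℓ : O''))) ∧
        (∀ q : ℕ, q.Prime → q ≠ p → N.factorization q = 2 → ¬ ρ.IsUnipotentOnInertiaAt q) := by
  have hp0 : (p : 𝒪') ≠ 0 := by exact_mod_cast (Fact.out : p.Prime).ne_zero
  have hpow : ∀ r : ℕ, ∃ n : ℕ, maximalIdeal 𝒪' ^ n ≤ Ideal.span {((p ^ r : ℕ) : 𝒪')} := by
    intro r
    obtain ⟨n, hn⟩ := exists_maximalIdeal_pow_eq_of_principal 𝒪'
      (IsPrincipalIdealRing.principal _) (Ideal.span {((p ^ r : ℕ) : 𝒪')}) (by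
        rw [Ne, Ideal.span_singleton_eq_bot, Nat.cast_pow]
        exact pow_ne_zero _ hp0)
    exact ⟨n, hn.ge⟩
  obtain ⟨R, hcomm, hcont, hes, hθlim, hlim⟩ := exists_tate36 D 𝒪' hp hpow
  obtain ⟨δ, -, hδcont', hδ, cc, hcc, hδc⟩ := exists_adicCyc p 𝒪' hp
  have hδcont : ∀ n : ℕ, ∃ L : IntermediateField ℚ Kb, FiniteDimensional ℚ L ∧
      ∀ σ : GQ, (∀ x ∈ L, σ x = x) → ((δ σ : 𝒪'ˣ) : 𝒪') - 1 ∈ maximalIdeal 𝒪' ^ n := by
    intro n
    obtain ⟨L, hL, h⟩ := hδcont' n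
    refine ⟨L, hL, fun σ hσ => ?_⟩
    have hle : Ideal.span {((p ^ n : ℕ) : 𝒪')} ≤ maximalIdeal 𝒪' ^ n := by
      rw [Ideal.span_singleton_le_iff_mem]
      push_cast
      exact Ideal.pow_mem_pow hp n
    exact hle (h σ hσ)
  obtain ⟨v₀, hv₀, hv₀e⟩ := exists_eigen D.τ D.τ_inj χ
  -- the eigenlattice
  let W : Submodule 𝒪' (Fin D.d → 𝒪') :=
    { carrier := {v | ∀ t, (toO 𝒪' (D.τ t)).mulVec v = χ t • v}
      zero_mem' := fun t => by simp
      add_mem' := fun {a b} ha hb t => by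
        rw [Matrix.mulVec_add, ha t, hb t, smul_add]
      smul_mem' := fun a v hv t => by
        rw [Matrix.mulVec_smul, hv t, smul_comm] }
  have hW0 : W ≠ ⊥ := fun h => hv₀ ((Submodule.eq_bot_iff W).mp h v₀ hv₀e)
  have hsat : ∀ (a : 𝒪') (v : Fin D.d → 𝒪'), a ≠ 0 → a • v ∈ W → v ∈ W := by
    intro a v ha hv t
    have := hv t
    rw [Matrix.mulVec_smul, smul_comm] at this
    exact smul_right_injective _ ha this
  have hWR : ∀ g : GQ, ∀ v ∈ W, (R g).mulVec v ∈ W := by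
    intro g v hv t
    rw [Matrix.mulVec_mulVec, ← hcomm g t, ← Matrix.mulVec_mulVec, hv t, Matrix.mulVec_smul]
  classical
  let c : ℕ → 𝒪' := fun ℓ =>
    if h : ℓ.Prime ∧ ¬ ℓ ∣ N ∧ ℓ ∉ (↑S : Set ℕ) then χ (heckeAlgebra.T h.1 h.2.1 h.2.2) else 0
  have hne : ∀ ℓ : ℕ, ℓ ∉ S → ℓ ≠ p := fun ℓ hℓ h => hℓ (h ▸ hpS)
  have hF : ∀ ℓ : ℕ, ℓ.Prime → ℓ ∉ S → ∀ A : ValuationSubring Kb, A.LiesOverPrime ℓ →
      ∀ σ : GQ, A.IsFrobeniusAt σ ℓ → ((δ σ : 𝒪'ˣ) : 𝒪') = (ℓ : 𝒪') ∧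
        ∀ v ∈ W, (R σ).mulVec ((R σ).mulVec v) - c ℓ • (R σ).mulVec v + (ℓ : 𝒪') • v = 0 := by
    intro ℓ hℓ hℓS A hA σ hσ
    have hℓN : ¬ ℓ ∣ N := fun h => hℓS (hNS ℓ hℓ h)
    have hℓS' : ℓ ∉ (↑S : Set ℕ) := hℓS
    refine ⟨((hδ ℓ hℓ (hne ℓ hℓS) A hA).2 σ hσ), fun v hv => ?_⟩
    have h1 := hes ℓ hℓ hℓN hℓS' (hne ℓ hℓS) A hA σ hσ
    have h2 := congrArg (fun M => M.mulVec v) h1
    simp only [Matrix.add_mulVec, Matrix.sub_mulVec, Matrix.zero_mulVec] at h2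
    have hc : c ℓ = χ (heckeAlgebra.T hℓ hℓN hℓS') := dif_pos ⟨hℓ, hℓN, hℓS'⟩
    rw [← Matrix.mulVec_mulVec, ← Matrix.mulVec_mulVec, hWR σ v hv _] at h2
    rw [hc]
    have h3 : (ℓ : Matrix (Fin D.d) (Fin D.d) 𝒪').mulVec v = (ℓ : 𝒪') • v := by
      rw [← Matrix.diagonal_natCast]
      ext i
      simp [Matrix.mulVec_diagonal]
    rw [h3] at h2
    exact h2
  obtain ⟨tr, htr, htrF⟩ := exists_trace 𝒪' R hcont δ hδcont W hW0 hsat hWR S c hF
  have hnt : Nontrivial W := (Submodule.nontrivial_iff_ne_bot).mpr hW0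
  obtain ⟨V, i1, i2, i3, i4, ρ, hrk, hchar, hcong⟩ := CC.exists_rep (𝒪 := 𝒪')
    (by exact_mod_cast (two_ne_zero : ((2 : ℕ) : 𝒪') ≠ 0)) (resW R W hWR) δ tr
    (fun g => LinearMap.ext fun v => Subtype.ext (htr g v.1 v.2)) hcc (Units.ext hδc)
  refine ⟨𝒪', inferInstance, inferInstance, inferInstance, inferInstance, inferInstance,
    inferInstance, Algebra.id 𝒪', inferInstance, ⟨fun a ha => ha⟩, fun a b h => h, ?_⟩
  refine ⟨{ V := V, finrank_eq := hrk, ρ := ρ, isAdicContinuous := ?_ }, ?_, ?_⟩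
  · intro n
    obtain ⟨L₁, hL₁, h₁⟩ := hcont n
    obtain ⟨L₂, hL₂, h₂⟩ := hδcont n
    refine ⟨L₁ ⊔ L₂, IntermediateField.finiteDimensional_sup L₁ L₂, fun σ hσ v => ?_⟩
    exact hcong σ _ (resW_cong R W hWR hsat n σ
      (h₁ σ fun x hx => hσ x ((le_sup_left : L₁ ≤ L₁ ⊔ L₂) hx)))
      (h₂ σ fun x hx => hσ x ((le_sup_right : L₂ ≤ L₁ ⊔ L₂) hx)) v
  · intro ℓ hℓ hℓN hℓS A hA σ hσ
    have hℓS' : ℓ ∉ S := hℓS
    show (ρ σ).charpoly = _
    rw [hchar σ, htrF ℓ hℓ hℓS' A hA σ hσ, (hδ ℓ hℓ (hne ℓ hℓS') A hA).2 σ hσ]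
    have hc : c ℓ = χ (heckeAlgebra.T hℓ hℓN hℓS) := dif_pos ⟨hℓ, hℓN, hℓS⟩
    rw [hc]
    rfl
  · intro q hq hqp hfac hun
    obtain ⟨θ, hθc, hθα, ⟨v, hvW, hθv⟩, A, hA, c0, hc0, hfix⟩ := hG q hq hqp hfac
    have hθR := hθlim θ hθα
    have hw0W : (toO 𝒪' θ).mulVec v ∈ W := fun t => by
      have hc : toO 𝒪' (D.τ t) * toO 𝒪' θ = toO 𝒪' θ * toO 𝒪' (D.τ t) := by
        have := congrArg (toO 𝒪') (hθc t)
        rw [toO, toO, Matrix.map_mul, Matrix.map_mul] at this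
        exact this.symm
      rw [Matrix.mulVec_mulVec, hc, ← Matrix.mulVec_mulVec, hvW t, Matrix.mulVec_smul]
    -- trace and determinant on inertia
    have hI : ∀ σ ∈ A.inertiaSubgroupIn ℚ, tr σ = 2 ∧ ((δ σ : 𝒪'ˣ) : 𝒪') = 1 := by
      intro σ hσ
      have h1 : (ρ σ).charpoly = (X - 1) ^ 2 := hun A hA σ hσ
      rw [hchar σ] at h1
      have e : ((X - 1) ^ 2 : 𝒪'[X]) = X ^ 2 - C 2 * X + C 1 := by
        simp only [map_ofNat, map_one]
        ring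
      rw [e] at h1
      have c1 := congrArg (fun P : 𝒪'[X] => P.coeff 1) h1
      have c2 := congrArg (fun P : 𝒪'[X] => P.coeff 0) h1
      simp only [coeff_add, coeff_sub, coeff_X_pow, coeff_C_mul, coeff_X, coeff_C] at c1 c2
      norm_num at c1 c2
      exact ⟨c1, by rw [c2]; rfl⟩
    have hu : ∀ σ ∈ A.inertiaSubgroupIn ℚ,
        (resW R W hWR σ - 1) * (resW R W hWR σ - 1) = 0 := by
      intro σ hσ
      obtain ⟨h1, h2⟩ := hI σ hσ
      refine LinearMap.ext fun w => Subtype.ext ?_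
      have h3 := htr σ w.1 w.2
      rw [h1, h2] at h3
      simp only [Module.End.mul_apply, LinearMap.sub_apply, Module.End.one_apply, map_sub,
        LinearMap.zero_apply, Submodule.coe_sub, coe_resW, Submodule.coe_zero]
      rw [← h3]
      module
    have h2W : ∀ x : W, x + x = 0 → x = 0 := by
      intro x hx
      have : (2 : 𝒪') • x = 0 := by rw [two_smul]; exact hx
      exact (smul_eq_zero.1 this).resolve_left two_ne_zero
    let P : Submodule 𝒪' W :=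
      Submodule.comap W.subtype (LinearMap.range (Matrix.mulVecLin (toO 𝒪' θ)))
    have hP : ∀ σ ∈ A.inertiaSubgroupIn ℚ, ∀ x ∈ P, resW R W hWR σ x ∈ P := by
      rintro σ - x ⟨v', hv'⟩
      refine ⟨(R σ).mulVec v', ?_⟩
      have hv'' : (toO 𝒪' θ).mulVec v' = x.1 := hv'
      show (toO 𝒪' θ).mulVec ((R σ).mulVec v') = (R σ).mulVec x.1
      rw [Matrix.mulVec_mulVec, hθR, ← Matrix.mulVec_mulVec, hv'']
    obtain ⟨w', ⟨v', hv'⟩, hw'0, hw'fix⟩ := Kolchin.exists_fixed (resW R W hWR)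
      (A.inertiaSubgroupIn ℚ) h2W hu P hP ⟨_, hw0W⟩ ⟨v, rfl⟩
      (fun h => hθv (congrArg Subtype.val h))
    have hv'' : (toO 𝒪' θ).mulVec v' = w'.1 := hv'
    apply hw'0
    apply Subtype.ext
    funext i
    show w'.1 i = 0
    have hc0' : (c0 : 𝒪') ≠ 0 := by exact_mod_cast hc0.ne'
    have key : ∀ r : ℕ, (c0 : 𝒪') * w'.1 i ∈ maximalIdeal 𝒪' ^ r := by
      intro r
      have : NeZero (p ^ r) := ⟨pow_ne_zero _ (Fact.out : p.Prime).ne_zero⟩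
      obtain ⟨b, hb⟩ := hsep (p ^ r) ((c0 : 𝒪') * w'.1 i) (by
        intro φ
        have h1 := addHom_toO (p ^ r) φ θ v'
        rw [hv''] at h1
        have h2 := hfix r (fun i => φ (v' i)) (by
          intro σ hσ
          rw [← h1, ← hlim r σ φ w'.1]
          have h3 : (R σ).mulVec w'.1 = w'.1 := congrArg Subtype.val (hw'fix σ hσ)
          rw [h3])
        rw [← h1] at h2
        have h4 := congrFun h2 i
        rw [← nsmul_eq_mul, map_nsmul]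
        exact h4)
      rw [hb, nsmul_eq_mul, Nat.cast_pow]
      exact Ideal.mul_mem_right _ _ (Ideal.pow_mem_pow hp r)
    have h0 : (c0 : 𝒪') * w'.1 i = 0 :=
      Fermat.Agent.S30.Lim.eq_of_forall_sub_mem (maximalIdeal 𝒪') (fun n => by
        rw [sub_zero]; exact key n)
    exact (mul_eq_zero.1 h0).resolve_left hc0'

end Fermat.Agent.S36
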