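import Fermat.Agent.S36.TDefs
import Fermat.Agent.S34.NRed
import Fermat.Agent.S35.L0

/-!
# S36, chart layer, piece [CH-3A] : reduction of the chart of level `M₀ q²` on the components
`(2,0)` and `(0,2)`

* `mem_pA`, `mem_pB`, `mem_pC` : the membership criteria;
* `surjA`, `surjB` : residue surjectivity on the charts;
* `icA`, `icB` : the reductions of the chart are integrally closed in the residue fields.
-/

set_option autoImplicit false
set_option linter.unusedSectionVars false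

noncomputable section

namespace Fermat.Agent.S36

open ModularCurve Polynomial
open Fermat.Agent.ES.QE Fermat.Agent.ES.Model Fermat.Agent.S34 Fermat.Agent.S35

variable {R K k : Type*} [CommRing R] [IsDomain R] [IsNoetherianRing R] [IsIntegrallyClosed R]
  [Field K] [Algebra R K] [IsFractionRing R K] [Field k]
  {D : QData R K k} {q : ℕ} [NeZero q] {T : Two D q}
  {K' : Type*} [Field K'] {i : K →+* K'} {ζ : K'ˣ} (H : Three T i ζ) (X : D.Coord)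

namespace TRedA

/-! ### membership in the components -/

lemma mem_span_divS {O : Subring H.F} {t : H.F} (hle : ∀ b ∈ H.chart X, b ∈ O) (b : H.chart X) :
    b ∈ Ideal.span {b : H.chart X | DivS O t 1 (b : H.F)} ↔ DivS O t 1 (b : H.F) := by
  constructor
  · intro h
    induction h using Submodule.span_induction with
    | mem x hx => exact hx
    | zero => exact ⟨0, O.zero_mem, by simp⟩
    | add x y _ _ hx hy => exact hx.add hy
    | smul c x _ hx => exact hx.mul_left (hle _ c.2)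
  · intro h
    exact Ideal.subset_span h

lemma mem_pA (hle : ∀ b ∈ H.chart X, b ∈ H.OA) (b : H.chart X) :
    b ∈ H.pA X ↔ DivS H.OA H.ϖF 1 (b : H.F) := mem_span_divS H X hle b

lemma mem_pB (hle : ∀ b ∈ H.chart X, b ∈ H.OB) (b : H.chart X) :
    b ∈ H.pB X ↔ DivS H.OB H.ϖF 1 (b : H.F) := mem_span_divS H X hle b

lemma mem_pC {R' : Type*} [CommRing R'] [IsDomain R'] [IsNoetherianRing R']
    [IsIntegrallyClosed R'] [Algebra R' K'] [IsFractionRing R' K'] (D' : QData R' K' k)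
    (hle : ∀ b ∈ H.chart X, b ∈ H.OC D') (b : H.chart X) :
    b ∈ H.pC X D' ↔ DivS (H.OC D') H.tC 1 (b : H.F) := mem_span_divS H X hle b

/-! ### the uniformiser -/

lemma eA_ϖF : H.eA H.ϖF = D.ϖE := algebraMap_eq_C _

lemma eB_ϖF : H.eB H.ϖF = D.ϖE := by
  rw [H.ϖF_eq_al, H.eB_al, NRed.e2_ϖF, QData.ϖE, qExpand_C]

lemma ϖF_ne_zero : H.ϖF ≠ 0 := by
  intro h
  apply D.ϖE_ne_zero
  rw [← eA_ϖF H, h, map_zero]

lemma be_ϖF : H.be T.ϖF = H.ϖF := by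
  apply H.eA.injective
  rw [H.eA_be, NRed.e1_ϖF, eA_ϖF, QData.ϖE, qExpand_C]

lemma divS_comap_iff (e : H.F →+* LaurentSeries K) (he : e H.ϖF = D.ϖE) (y : H.F) :
    DivS (D.LamRing.comap e) H.ϖF 1 y ↔ ∃ g ∈ D.LamRing, e y = D.ϖE * g := by
  constructor
  · rintro ⟨z, hz, rfl⟩
    exact ⟨e z, hz, by rw [pow_one, map_mul, he]⟩
  · rintro ⟨g, hg, h⟩
    refine ⟨(H.ϖF)⁻¹ * y, ?_, by rw [pow_one, mul_inv_cancel_left₀ (ϖF_ne_zero H)]⟩
    rw [Subring.mem_comap, map_mul, map_inv₀, he, h, inv_mul_cancel_left₀ D.ϖE_ne_zero]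
    exact hg

/-! ### the general branch lemma -/

/-- an element of the Gauss ring of a branch whose reduction is integral over the reduction of the
chart of level `M₀` is congruent to an element of that chart. -/
theorem lift_core [IsDedekindDomain (X.chart ⧸ Ideal.span {X.ϖC})]
    (e : H.F →+* LaurentSeries K) (he : e H.ϖF = D.ϖE) (γ : D.F0 →+* H.F)
    (hγ : ∀ a, e (γ a) = (a : LaurentSeries K))
    (hs : ∀ u ∈ D.LamRing.comap e, ∃ a ∈ D.gaussO, DivS (D.LamRing.comap e) H.ϖF 1 (u - γ a))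
    (f : H.F) (hf : e f ∈ D.LamRing) (hint : X.rhoB.IsIntegralElem (D.rho ⟨e f, hf⟩)) :
    ∃ c : X.chart, DivS (D.LamRing.comap e) H.ϖF 1 (f - γ c) := by
  obtain ⟨a, ha, h⟩ := hs f hf
  have hρ : D.rho ⟨e f, hf⟩ = D.rhoO ⟨a, ha⟩ := by
    refine NRed.rho_eq_of_exists (h := ⟨(a : LaurentSeries K), ha⟩) ?_
    obtain ⟨z, hz, e'⟩ := (divS_comap_iff H e he _).mp h
    exact ⟨z, hz, by rw [← e', map_sub, hγ]⟩
  rw [hρ] at hint
  obtain ⟨c, hc⟩ := NRed.exists_chart_of_integral X ⟨a, ha⟩ hint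
  refine ⟨c, ?_⟩
  have e1 : f - γ c = (f - γ a) + γ (a - c) := by rw [map_sub]; ring
  rw [e1]
  refine h.add ?_
  rw [divS_comap_iff H e he, hγ]
  obtain ⟨z, hz, e2⟩ := NRed.exists_of_rho_eq (g := ⟨(a : LaurentSeries K), ha⟩)
    (h := ⟨((c : D.F0) : LaurentSeries K), X.chart_le_gaussO c.2⟩) hc.symm
  exact ⟨z, hz, e2⟩

/-- `ic` for a branch. -/
theorem ic_core [IsDedekindDomain (X.chart ⧸ Ideal.span {X.ϖC})]
    (e : H.F →+* LaurentSeries K) (he : e H.ϖF = D.ϖE) (γ : D.F0 →+* H.F)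
    (hγ : ∀ a, e (γ a) = (a : LaurentSeries K))
    (hs : ∀ u ∈ D.LamRing.comap e, ∃ a ∈ D.gaussO, DivS (D.LamRing.comap e) H.ϖF 1 (u - γ a))
    (hint : ∀ (b : H.F) (_ : b ∈ H.chart X) (hb : e b ∈ D.LamRing),
      X.rhoB.IsIntegralElem (D.rho ⟨e b, hb⟩))
    (hle : ∀ b ∈ H.chart X, e b ∈ D.LamRing)
    {m : ℕ} (hm : 0 < m) (f : H.F) (hf : e f ∈ D.LamRing) (b : H.F) (hb : b ∈ H.chart X)
    (h : DivS (D.LamRing.comap e) H.ϖF 1 (f ^ m - b)) :
    ∃ c : X.chart, DivS (D.LamRing.comap e) H.ϖF 1 (f - γ c) := by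
  refine lift_core H X e he γ hγ hs f hf ?_
  have hρ : D.rho ⟨e f, hf⟩ ^ m = D.rho ⟨e b, hle b hb⟩ := by
    rw [← map_pow]
    refine NRed.rho_eq_of_exists ?_
    obtain ⟨z, hz, e'⟩ := (divS_comap_iff H e he _).mp h
    exact ⟨z, hz, by rw [← e', map_sub, map_pow]; rfl⟩
  have h1 := hint b hb (hle b hb)
  rw [← hρ] at h1
  let _ := X.rhoB.toAlgebra
  exact IsIntegral.of_pow hm h1

/-! ### integrality of the reductions -/

lemma intA (b : H.F) (hb : b ∈ H.chart X) (hb' : H.eA b ∈ D.LamRing) :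
    X.rhoB.IsIntegralElem (D.rho ⟨H.eA b, hb'⟩) := by
  have := NRed.rho_isIntegralElem (evS X.xW) ⟨H.eA b, hb'⟩ hb
  rw [← NRed.rhoB_comp_phiC] at this
  exact RingHom.IsIntegralElem.of_comp this

lemma eB_isIntegralElem {b : H.F} (hb : b ∈ H.chart X) :
    (D.inc.comp (evS (qExpand R q (qExpand R q X.xW)))).IsIntegralElem (H.eB b) := by
  obtain ⟨P, hP, hroot⟩ := hb
  refine ⟨P, hP, ?_⟩
  let φF : R[X] →+* H.F := H.al.comp (T.al.comp X.phiF)
  have h0 : H.eA.comp φF = X.phi := RingHom.ext fun _ => rfl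
  have h1 : eval₂ φF b P = 0 := by
    apply H.eA.injective
    rw [map_zero, hom_eval₂, h0]
    exact hroot
  have h2 : H.eB.comp φF = D.inc.comp (evS (qExpand R q (qExpand R q X.xW))) := by
    refine RingHom.ext fun σ => ?_
    change H.eB (H.al (T.al (X.phiF σ))) = D.inc (evS (qExpand R q (qExpand R q X.xW)) σ)
    rw [H.eB_al, T.e2_al, X.coe_phiF, X.phi_apply, ← NRed.V_evS, ← NRed.V_evS]
    have e1 : D.inc (qExpand R q (qExpand R q (evS X.xW σ)))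
        = qExpand K q (D.inc (qExpand R q (evS X.xW σ))) := coeffMap_qExpand _ _ _
    have e2 : D.inc (qExpand R q (evS X.xW σ)) = qExpand K q (D.inc (evS X.xW σ)) :=
      coeffMap_qExpand _ _ _
    rw [e1, e2]
  have h3 := hom_eval₂ P φF H.eB b
  rw [h1, map_zero, h2] at h3
  exact h3.symm

lemma red_comp_evS_VV (hxq : qExpand k q (D.red X.xW) = D.red X.xW ^ q) :
    D.red.comp (evS (qExpand R q (qExpand R q X.xW)))
      = X.rhoB.comp ((NRed.phiC X).comp (compRingHom (Polynomial.X ^ (q * q)))) := by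
  refine RingHom.ext fun σ => ?_
  change D.red (evS (qExpand R q (qExpand R q X.xW)) σ)
    = X.rhoB (NRed.phiC X (σ.comp (Polynomial.X ^ (q * q))))
  have e1 : D.red (qExpand R q (qExpand R q X.xW)) = qExpand k q (D.red (qExpand R q X.xW)) :=
    coeffMap_qExpand _ _ _
  have e2 : D.red (qExpand R q X.xW) = qExpand k q (D.red X.xW) := coeffMap_qExpand _ _ _
  rw [NRed.rhoB_phiC, ← NRed.evS_pow, D.red_evS, D.red_evS, map_pow, e1, e2, hxq, map_pow, hxq,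
    ← pow_mul]

lemma intB (hxq : qExpand k q (D.red X.xW) = D.red X.xW ^ q) (b : H.F) (hb : b ∈ H.chart X)
    (hb' : H.eB b ∈ D.LamRing) : X.rhoB.IsIntegralElem (D.rho ⟨H.eB b, hb'⟩) := by
  have := NRed.rho_isIntegralElem (evS (qExpand R q (qExpand R q X.xW))) ⟨H.eB b, hb'⟩
    (eB_isIntegralElem H X hb)
  rw [red_comp_evS_VV X hxq] at this
  exact RingHom.IsIntegralElem.of_comp this

/-! ### residue surjectivity down to level `M₀` -/

section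

variable [Fact q.Prime] [CharP k q]

theorem hsA (hsF : ∀ u ∈ H.OA, ∃ a ∈ T.O1, DivS H.OA H.ϖF 1 (u - H.al a)) :
    ∀ u ∈ D.LamRing.comap H.eA, ∃ a ∈ D.gaussO,
      DivS (D.LamRing.comap H.eA) H.ϖF 1 (u - (H.al.comp T.al) a) := by
  intro u hu
  obtain ⟨a, ha, h⟩ := hsF u hu
  obtain ⟨a0, ha0, h0⟩ := L0.surj1 T a ha
  refine ⟨a0, ha0, ?_⟩
  have e1 : u - (H.al.comp T.al) a0 = (u - H.al a) + H.al (a - T.al a0) := by
    rw [map_sub, RingHom.comp_apply]; ring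
  rw [e1]
  refine S34.DivS.add h ?_
  obtain ⟨z, hz, ez⟩ := h0
  exact ⟨H.al z, hz, by rw [ez, map_mul, map_pow]; rfl⟩

theorem hsB (hsV : ∀ u ∈ H.OB, ∃ a ∈ T.O2, DivS H.OB H.ϖF 1 (u - H.be a)) :
    ∀ u ∈ D.LamRing.comap H.eB, ∃ a ∈ D.gaussO,
      DivS (D.LamRing.comap H.eB) H.ϖF 1 (u - (H.be.comp T.be) a) := by
  intro u hu
  obtain ⟨a, ha, h⟩ := hsV u hu
  obtain ⟨a0, ha0, h0⟩ := L0.surj2 T a ha
  refine ⟨a0, ha0, ?_⟩
  have e1 : u - (H.be.comp T.be) a0 = (u - H.be a) + H.be (a - T.be a0) := by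
    rw [map_sub, RingHom.comp_apply]; ring
  rw [e1]
  refine S34.DivS.add h ?_
  obtain ⟨z, hz, ez⟩ := h0
  refine ⟨H.be z, ?_, by rw [ez, map_mul, map_pow, be_ϖF]⟩
  show H.eB (H.be z) ∈ D.LamRing
  rw [H.eB_be]
  exact hz

end

end TRedA

section

variable [Fact q.Prime] [CharP k q] [IsDedekindDomain (X.chart ⧸ Ideal.span {X.ϖC})]

/-- **surjA** (the representative even comes from the chart of level `M₀`). -/
theorem Three.surjA0 (hle : ∀ b ∈ H.chart X, b ∈ H.OA)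
    (hsF : ∀ u ∈ H.OA, ∃ a ∈ T.O1, DivS H.OA H.ϖF 1 (u - H.al a)) (b : H.F)
    (hb : b ∈ H.chart X) : ∃ c : X.chart, DivS H.OA H.ϖF 1 (b - H.al (T.al c)) :=
  TRedA.lift_core H X H.eA (TRedA.eA_ϖF H) (H.al.comp T.al) (fun _ => rfl) (TRedA.hsA H hsF) b
    (hle b hb) (TRedA.intA H X b hb (hle b hb))

theorem Three.surjA (hle : ∀ b ∈ H.chart X, b ∈ H.OA)
    (hsF : ∀ u ∈ H.OA, ∃ a ∈ T.O1, DivS H.OA H.ϖF 1 (u - H.al a)) :
    ∀ b ∈ H.chart X, ∃ b' ∈ T.chart X, DivS H.OA H.ϖF 1 (b - H.al b') := fun b hb => by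
  obtain ⟨c, hc⟩ := H.surjA0 X hle hsF b hb
  exact ⟨T.al c, T.al_mem_chart X c.2, hc⟩

/-- **surjB** (the representative even comes from the chart of level `M₀`). -/
theorem Three.surjB0 (hxq : qExpand k q (D.red X.xW) = D.red X.xW ^ q)
    (hle : ∀ b ∈ H.chart X, b ∈ H.OB)
    (hsV : ∀ u ∈ H.OB, ∃ a ∈ T.O2, DivS H.OB H.ϖF 1 (u - H.be a)) (b : H.F)
    (hb : b ∈ H.chart X) : ∃ c : X.chart, DivS H.OB H.ϖF 1 (b - H.be (T.be c)) :=
  TRedA.lift_core H X H.eB (TRedA.eB_ϖF H) (H.be.comp T.be)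
    (fun a => by rw [RingHom.comp_apply, H.eB_be, T.e2_be]) (TRedA.hsB H hsV) b
    (hle b hb) (TRedA.intB H X hxq b hb (hle b hb))

theorem Three.surjB (hxq : qExpand k q (D.red X.xW) = D.red X.xW ^ q)
    (hle : ∀ b ∈ H.chart X, b ∈ H.OB)
    (hsV : ∀ u ∈ H.OB, ∃ a ∈ T.O2, DivS H.OB H.ϖF 1 (u - H.be a))
    (hbe : ∀ a ∈ X.chart, T.be a ∈ T.chart X) :
    ∀ b ∈ H.chart X, ∃ b' ∈ T.chart X, DivS H.OB H.ϖF 1 (b - H.be b') := fun b hb => by
  obtain ⟨c, hc⟩ := H.surjB0 X hxq hle hsV b hb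
  exact ⟨T.be c, hbe c c.2, hc⟩

/-- **icA** -/
theorem Three.icA (hle : ∀ b ∈ H.chart X, b ∈ H.OA)
    (hsF : ∀ u ∈ H.OA, ∃ a ∈ T.O1, DivS H.OA H.ϖF 1 (u - H.al a)) {m : ℕ} (hm : 0 < m) :
    ∀ f ∈ H.OA, ∀ e ∈ H.chart X, DivS H.OA H.ϖF 1 (f ^ m - e) →
      ∃ a ∈ H.chart X, DivS H.OA H.ϖF 1 (f - a) := fun f hf e he h => by
  obtain ⟨c, hc⟩ := TRedA.ic_core H X H.eA (TRedA.eA_ϖF H) (H.al.comp T.al) (fun _ => rfl)
    (TRedA.hsA H hsF) (TRedA.intA H X) hle hm f hf e he h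
  exact ⟨H.al (T.al c), H.al_mem_chart X (T.al_mem_chart X c.2), hc⟩

/-- **icB** -/
theorem Three.icB (hxq : qExpand k q (D.red X.xW) = D.red X.xW ^ q)
    (hle : ∀ b ∈ H.chart X, b ∈ H.OB)
    (hsV : ∀ u ∈ H.OB, ∃ a ∈ T.O2, DivS H.OB H.ϖF 1 (u - H.be a))
    (hbe : ∀ a ∈ X.chart, H.be (T.be a) ∈ H.chart X) {m : ℕ} (hm : 0 < m) :
    ∀ f ∈ H.OB, ∀ e ∈ H.chart X, DivS H.OB H.ϖF 1 (f ^ m - e) →
      ∃ a ∈ H.chart X, DivS H.OB H.ϖF 1 (f - a) := fun f hf e he h => by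
  obtain ⟨c, hc⟩ := TRedA.ic_core H X H.eB (TRedA.eB_ϖF H) (H.be.comp T.be)
    (fun a => by rw [RingHom.comp_apply, H.eB_be, T.e2_be])
    (TRedA.hsB H hsV) (TRedA.intB H X hxq) hle hm f hf e he h
  exact ⟨H.be (T.be c), hbe c c.2, hc⟩

end

end Fermat.Agent.S36
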