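import Fermat.Agent.S36.T2Cusp
import Fermat.Agent.S36.CuspP
import Fermat.Agent.S36.CuspUnitC
import Fermat.Agent.S36.CuspRel
import Fermat.Agent.S36.TGen
import Fermat.Agent.S36.TRedA
import Fermat.Agent.S36.TChart2
import Fermat.Agent.ES.InstDesc

/-!
# S36 [D7]/[C4] : (T2) at the cusps of the middle component (assembly)

`t2_cusp` : glue of `TAsm.t2_cusp_abs` [C1], `CuspP.exists_P` [C3], `cusp_unit` [C2], the
congruence `b ≡ s` on the middle component (`h2`), with the places (`hplace`) and [C0] (`hC0`) as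
hypotheses in the shape of `CuspP.exists_P`.
-/

set_option autoImplicit false
set_option linter.unusedVariables false
set_option linter.unusedSectionVars false
set_option linter.style.haveILetI false

noncomputable section

namespace Fermat.Agent.S36

open ModularCurve Polynomial IsDedekindDomain AlgebraicCurve
open Fermat.Agent.ES Fermat.Agent.ES.QE Fermat.Agent.ES.Model Fermat.Agent.S34 Fermat.Agent.S35

/-- a non-zero residue is a unit (base DVR). -/
theorem isUnit_of_res_ne_zero {R K k : Type*} [CommRing R] [IsDomain R]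
    [IsDiscreteValuationRing R] [Field K] [Algebra R K] [IsFractionRing R K] [Field k]
    (D : QData R K k) {r : R} (h : D.res r ≠ 0) : IsUnit r := by
  by_contra hu
  have h1 : r ∈ IsLocalRing.maximalIdeal R := (IsLocalRing.mem_maximalIdeal r).2 hu
  have hp : (RingHom.ker D.res).IsPrime := RingHom.ker_isPrime _
  have hne : RingHom.ker D.res ≠ ⊥ := by
    rw [D.ker_res]
    intro h0
    exact D.ϖ_ne (Ideal.span_singleton_eq_bot.1 h0)
  have hm : (RingHom.ker D.res).IsMaximal := hp.isMaximal hne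
  rw [← IsLocalRing.eq_maximalIdeal hm] at h1
  exact h h1

set_option synthInstance.maxHeartbeats 400000 in
set_option maxHeartbeats 2000000 in
/-- **[C4]** (T2) at a cusp of the middle component. -/
theorem t2_cusp {R K k : Type*} [CommRing R] [IsDomain R] [IsDiscreteValuationRing R]
    [Field K] [Algebra R K] [IsFractionRing R K] [Field k] [CharZero K]
    {q : ℕ} [NeZero q] (hq : q.Prime) [CharP k q]
    {D : QData R K k} {T : Two D q} {K' : Type*} [Field K'] {i : K →+* K'} {ζ : K'ˣ}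
    (H : Three T i ζ)
    {R' : Type*} [CommRing R'] [IsDomain R'] [IsNoetherianRing R'] [IsIntegrallyClosed R']
    [Algebra R' K'] [IsFractionRing R' K'] (D' : QData R' K' k)
    (X : D.Coord) (y : LaurentSeries R) (hy : X.xW * y = 1) {m : ℕ}
    {nA nB : H.F →* T.F}
    (L : Lvl1 q T.O1 T.O2 T.ϖF H.OA (H.OC D') H.OB H.ϖF H.tC H.al H.be nA nB)
    (hB : IsChartS (H.O D') H.ϖF m (H.chart X))
    (hC' : ∀ f ∈ H.chart (X.inv y hy), f ∈ H.OC D')
    (hϖq : H.ϖF = (q : H.F))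
    (hxq : qExpand k q (D.red X.xW) = D.red X.xW ^ q)
    (θ θ' : T.chart X) (hθ : (θ : T.F) * T.x X = T.be X.x ^ q)
    (hθ' : (θ' : T.F) * T.be X.x = T.x X ^ q)
    (hbe1 : ∀ c ∈ X.chart, T.be c ∈ T.chart X) (hbe2 : ∀ b ∈ T.chart X, H.be b ∈ H.chart X)
    (hrel : CuspRel X)
    {Kb E : Type*} [Field Kb] [Field E] [Algebra Kb E] (ι : H.F →+* E)
    (hplace : ∀ Q : Ideal (H.away X), Q.IsPrime → Q ≠ ⊥ → ∃ W : Place Kb E,
      (∀ d : H.away X, d ∈ Q → d ≠ 0 → 0 < W.ord (ι (d : H.F))) ∧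
      (∀ d : H.away X, d ∉ Q → W.ord (ι (d : H.F)) = 0))
    (hC0 : ∀ W : Place Kb E, W.ord (ι H.jx) < 0 → W.ord (ι H.jz) = W.ord (ι H.jx) →
      0 < W.ord (∑ i ∈ Finset.range q, (ι H.jz / ι H.jx) ^ i))
    (n : Ideal (H.chart X)) (hn : n.IsPrime) (hM : H.pC X D' ≤ n) (hF : ¬ H.pA X ≤ n)
    (hV : ¬ H.pB X ≤ n) (hxn : (⟨H.x X, X.x_mem_chart⟩ : H.chart X) ∈ n) :
    ∃ x ∈ H.pC X D', ∃ s, s ∉ n ∧ ∃ c, s * H.ϖB X = c * x ^ (q - 1) := by
  have hA' : HDivDesc.IsAway D := Inst.InstDesc.isAway_of_dvr D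
  letI := H.algRB X
  letI := H.algBD X
  haveI := H.isDedekindDomain_away X hA'
  haveI := H.isFractionRing_away X hA'
  haveI := H.tower_away X
  haveI l1 : IsLocalization.Away (⟨H.ϖF, hB.unif_mem⟩ : H.chart X) (H.away X) :=
    H.isLocalization_away X
  have hleA : ∀ b ∈ H.chart X, b ∈ H.OA := fun b hb => (hB.le b hb).1.1
  have hleC : ∀ b ∈ H.chart X, b ∈ H.OC D' := fun b hb => (hB.le b hb).1.2
  have hleB : ∀ b ∈ H.chart X, b ∈ H.OB := fun b hb => (hB.le b hb).2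
  have memF := TRedA.mem_pA H X hleA
  have memM := TRedA.mem_pC H X D' hleC
  have memV := TRedA.mem_pB H X hleB
  obtain ⟨a, ha, P, hP0, hPrel⟩ := hrel
  obtain ⟨r', hr⟩ := (isUnit_of_res_ne_zero D hP0).exists_right_inv
  rw [← coeff_zero_eq_eval_zero] at hr
  have hn1 : (1 : H.chart X) ∉ n := fun h => hn.ne_top ((Ideal.eq_top_iff_one n).2 h)
  -- [C2]
  obtain ⟨s, b, hs, hb, hsb⟩ := cusp_unit H X L hq hxq θ θ' hθ hθ' hbe1 hbe2
    (fun f hf => H.root_chart X q hq.pos f hf) memM n hM hxn a P r' hr hPrel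
  -- the relation `j_x x ^ a = P(x)`
  have hrel0 : D.jF * X.x ^ a = X.phiF P := by
    apply Subtype.ext
    have h1 := congrArg D.inc hPrel
    rw [map_mul, map_pow] at h1
    have h2 : D.inc (jqModC R) = jqModC K := coeffMap_jqModC _
    rw [h2] at h1
    exact h1
  have hPd : X.phiF P = X.phiF (C (P.coeff 0)) + X.x * X.phiF (divX P) := by
    conv_lhs => rw [← divX_mul_X_add P]
    rw [map_add, map_mul, X.phiF_X]
    ring
  set φA : D.F0 →+* H.F := H.al.comp T.al with hφA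
  have hmemA : ∀ c ∈ X.chart, φA c ∈ H.chart X := fun c hc => hc
  let xB' : H.chart X := ⟨H.x X, X.x_mem_chart⟩
  let p0 : H.chart X := ⟨φA (X.phiF (C (P.coeff 0))), hmemA _ (X.phiF_mem_chart _)⟩
  let p0' : H.chart X := ⟨φA (X.phiF (C r')), hmemA _ (X.phiF_mem_chart _)⟩
  let ux : H.chart X := ⟨φA (X.phiF (divX P)), hmemA _ (X.phiF_mem_chart _)⟩
  have hp0 : p0 ∉ n := by
    intro h
    apply hn1
    have h1 : p0 * p0' = 1 := by
      apply Subtype.ext
      show φA (X.phiF (C (P.coeff 0))) * φA (X.phiF (C r')) = 1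
      rw [← map_mul, ← map_mul, ← C_mul, hr, C_1, map_one, map_one]
    rw [← h1]
    exact n.mul_mem_right _ h
  have hPx : H.jx * ((xB' : H.chart X) : H.F) ^ a = ((p0 + xB' * ux : H.chart X) : H.F) := by
    show φA D.jF * (φA X.x) ^ a = φA (X.phiF (C (P.coeff 0))) + φA X.x * φA (X.phiF (divX P))
    rw [← map_pow, ← map_mul, hrel0, hPd, map_add, map_mul]
  have hPxn : p0 + xB' * ux ∉ n := fun h =>
    hp0 ((Ideal.add_mem_iff_left n (n.mul_mem_right _ hxn)).1 h)
  have hx0 : (xB' : H.F) ≠ 0 := H.x_ne_zero X y hy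
  have hjx0 : H.jx ≠ 0 := by
    intro h
    rw [h, zero_mul] at hPx
    exact hPxn (by rw [show p0 + xB' * ux = 0 from Subtype.ext hPx.symm]; exact n.zero_mem)
  have hxM : ((xB' : H.chart X) : H.F)⁻¹ ∈ H.OC D' := hC' _ (H.x_inv_mem_inv_chart X y hy)
  -- `j_x⁻¹` is integral on the middle component
  have hPU : IsU (H.OC D') ((p0 + xB' * ux : H.chart X) : H.F) := by
    rcases L.dvM.isU_or (hleC _ (p0 + xB' * ux).2) with h | h
    · exact h
    · exact absurd (hM ((memM _).2 h)) hPxn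
  have hjxi : H.jx⁻¹ ∈ H.OC D' := by
    have e : H.jx⁻¹ = ((xB' : H.chart X) : H.F) ^ a * ((p0 + xB' * ux : H.chart X) : H.F)⁻¹ := by
      rw [← hPx, mul_inv]
      field_simp
    rw [e]
    exact (H.OC D').mul_mem ((H.OC D').pow_mem (hleC _ xB'.2) a) hPU.2.2
  -- `h2`
  have h2 : DivS (H.OC D') H.tC 1 ((b : H.F) - s) := by
    refine ⟨(s : H.F) * H.jx⁻¹, (H.OC D').mul_mem (hleC _ s.2) hjxi, ?_⟩
    rw [← hsb, pow_one, Three.tC]
    field_simp
  have hρ : H.jz * (s : H.F) = H.jx * b := by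
    rw [← hsb]
    field_simp
  have hram : IsU (H.OC D') (H.ϖF / H.tC ^ (q - 1)) := by
    have h := L.ram
    refine ⟨?_, ?_, ?_⟩
    · rw [← inv_div]; exact inv_ne_zero h.1
    · rw [← inv_div]; exact h.2.2
    · rw [inv_div]; exact h.2.1
  -- [C3]
  obtain ⟨Pp, hPp, hPn, hϖP, h3⟩ := CuspP.exists_P (D := H.away X) (Kb := Kb) (E := E)
    H.ϖF_ne_zero hB memF memV n (hn := hn) hF hV xB' hxn hx0 hxM ι
    (fun Q => hplace Q.asIdeal Q.isPrime Q.ne_bot) a (by omega) (p0 + xB' * ux) hPxn H.jx H.jz hPx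
    s b hs hb hρ q hC0
  -- [C1]
  haveI := hPp
  exact TAsm.t2_cusp_abs H.ϖF_ne_zero hB memF memM memV hram hq hϖq n hn hM hF hV s b hs hb h2
    Pp hPn hϖP h3

end Fermat.Agent.S36
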