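import Fermat.Agent.S36.NCDefs

/-!
# S36, abstract block, [C1] : the two norm conditions kill the vertical part
-/

set_option autoImplicit false

namespace Fermat.Agent.S36

open Fermat.Agent.S34 Fermat.Agent.S35

section General

variable {F1 F2 : Type*} [Field F1] [Field F2]

theorem monoidHom_ne_zero (f : F2 →* F1) {x : F2} (hx : x ≠ 0) : f x ≠ 0 := by
  intro h
  have : f x * f x⁻¹ = 1 := by rw [← map_mul, mul_inv_cancel₀ hx, map_one]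
  rw [h, zero_mul] at this
  exact zero_ne_one this

theorem monoidHom_inv (f : F2 →* F1) {x : F2} (hx : x ≠ 0) : f x⁻¹ = (f x)⁻¹ := by
  have : f x * f x⁻¹ = 1 := by rw [← map_mul, mul_inv_cancel₀ hx, map_one]
  exact eq_inv_of_mul_eq_one_right this

theorem monoidHom_zpow (f : F2 →* F1) {x : F2} (hx : x ≠ 0) (n : ℤ) : f (x ^ n) = f x ^ n := by
  obtain ⟨k, rfl | rfl⟩ := n.eq_nat_or_neg
  · rw [zpow_natCast, zpow_natCast, map_pow]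
  · rw [zpow_neg, zpow_neg, zpow_natCast, zpow_natCast, monoidHom_inv f (pow_ne_zero k hx), map_pow]

theorem monoidHom_div (f : F2 →* F1) (x : F2) {y : F2} (hy : y ≠ 0) : f (x / y) = f x / f y := by
  rw [div_eq_mul_inv, map_mul, monoidHom_inv f hy, div_eq_mul_inv]

theorem isU_map {φ : F1 →+* F2} {O : Subring F1} {O' : Subring F2} (h : ∀ a, φ a ∈ O' ↔ a ∈ O)
    (a : F1) : IsU O' (φ a) ↔ IsU O a := by
  unfold IsU
  rw [← map_inv₀, h, h, map_ne_zero]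

theorem divS_map {φ : F1 →+* F2} {O : Subring F1} {O' : Subring F2} (h : ∀ a, φ a ∈ O' ↔ a ∈ O)
    {ϖ1 : F1} {ϖ : F2} (hϖ : φ ϖ1 = ϖ) (h0 : ϖ1 ≠ 0) (a : F1) :
    DivS O' ϖ 1 (φ a) ↔ DivS O ϖ1 1 a := by
  constructor
  · rintro ⟨y, hy, hay⟩
    refine ⟨a / ϖ1, ?_, by rw [pow_one, mul_div_cancel₀ _ h0]⟩
    rw [← h, map_div₀, hϖ, hay, pow_one, mul_div_cancel_left₀]
    · exact hy
    · rw [← hϖ]; exact (map_ne_zero φ).2 h0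
  · rintro ⟨y, hy, rfl⟩
    exact ⟨φ y, (h y).2 hy, by rw [map_mul, map_pow, hϖ]⟩

variable {F : Type*} [Field F] {O : Subring F} {ϖ : F}

theorem pi_aux (h : IsDV O ϖ) {s e : F} (hs : s ∈ O) (he : DivS O ϖ 1 e) :
    OneU O ϖ (s * e + (1 - e) ^ 2) := by
  have e1 : s * e + (1 - e) ^ 2 - 1 = e * (s + e - 2) := by ring
  rw [OneU, e1]
  refine S34.DivS.mul_right he ?_
  exact O.sub_mem (O.add_mem hs (S34.DivS.mem h.mem he)) (O.add_mem O.one_mem O.one_mem |> fun h2 => by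
    have : (2 : F) = 1 + 1 := by norm_num
    rw [this]; exact h2)

theorem pi_aux' (h : IsDV O ϖ) {e : F} (he : DivS O ϖ 1 (e - 1)) :
    OneU O ϖ ((ϖ * e + (1 - e) ^ 2) / ϖ) := by
  obtain ⟨y, hy, hey⟩ := he
  have h0 := h.ne_zero
  refine ⟨y + y ^ 2, O.add_mem hy (O.pow_mem hy 2), ?_⟩
  have e1 : e = 1 + ϖ * y := by rw [pow_one] at hey; linear_combination hey
  rw [e1]
  field_simp
  ring

theorem vl_of_isU_div (h : IsDV O ϖ) {x : F} (hx : IsU O (x / ϖ)) : vl h x = 1 := by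
  have hx0 : x ≠ 0 := fun h0 => hx.ne_zero (by rw [h0, zero_div])
  have := vl_eq_zero h hx
  rw [vl_div h hx0 h.ne_zero, vl_unif h] at this
  omega

end General

namespace Lvl1

variable {F1 F2 : Type*} [Field F1] [Field F2] {q : ℕ} {O1 O2 : Subring F1} {ϖ1 : F1}
  {OF OM OV : Subring F2} {ϖ t : F2} {al be : F1 →+* F2} {nA nB : F2 →* F1}

section

variable (L : Lvl1 q O1 O2 ϖ1 OF OM OV ϖ t al be nA nB)
include L

theorem vlM_unif : vl L.dvM ϖ = ((q - 1 : ℕ) : ℤ) := by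
  have h := vl_eq_zero L.dvM L.ram
  rw [vl_div L.dvM (pow_ne_zero _ L.dvM.ne_zero) L.dvF.ne_zero, vl_pow L.dvM L.dvM.ne_zero,
    vl_unif L.dvM] at h
  omega

theorem unif_memM : ϖ ∈ OM := by
  apply mem_of_vl L.dvM L.dvF.ne_zero
  rw [L.vlM_unif]
  omega

/-- `ϖ ∈ t OM`. -/
theorem unif_divM (hq : 2 ≤ q) : DivS OM t 1 ϖ := by
  apply divS_of_vl L.dvM L.dvF.ne_zero
  rw [L.vlM_unif]
  omega

theorem nA_isU1 {u : F2} (huF : IsU OF u) (huM : IsU OM u) (huV : u ∈ OV) : IsU O1 (nA u) := by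
  obtain ⟨a, ha, hua⟩ := L.surjF u huF.mem
  obtain ⟨c, hc, huc⟩ := L.surjM u huM.mem
  have ha' : IsU O1 a := (isU_map L.al_F a).1 (L.dvF.isU_of_sub huF (S35.DivS.symm hua))
  have hc' : IsU O1 c := (isU_map L.al_M c).1 (L.dvM.isU_of_sub huM (S35.DivS.symm huc))
  exact L.dv1.isU_of_sub (ha'.mul (hc'.pow _)) (L.nA1 u huF.mem huM.mem huV a ha c hc hua huc)

theorem nA_isU2 {u : F2} (huF : u ∈ OF) (huM : u ∈ OM) (huV : IsU OV u) : IsU O2 (nA u) :=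
  (isU_map L.al_V _).1 (L.dvV.isU_of_sub (huV.pow q) (L.nA2 u huF huM huV.mem))

theorem exists_piF : ∃ π, IsU OF (π / ϖ) ∧ IsU OM π ∧ IsU OV π := by
  obtain ⟨e, -, -, -, h4, h5, h6⟩ := L.idemF
  exact ⟨ϖ * e + (1 - e) ^ 2, (pi_aux' L.dvF h4).isU L.dvF,
    (pi_aux L.dvM L.unif_memM h5).isU L.dvM, (pi_aux L.dvV L.dvV.mem h6).isU L.dvV⟩

theorem exists_piM : ∃ π, IsU OF π ∧ IsU OM (π / t) ∧ IsU OV π := by
  obtain ⟨e, -, -, -, h4, h5, h6⟩ := L.idemM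
  exact ⟨t * e + (1 - e) ^ 2, (pi_aux L.dvF L.tF h4).isU L.dvF,
    (pi_aux' L.dvM h5).isU L.dvM, (pi_aux L.dvV L.tV h6).isU L.dvV⟩

end

theorem exists_piV (L : Lvl1 q O1 O2 ϖ1 OF OM OV ϖ t al be nA nB) :
    ∃ π, IsU OF π ∧ IsU OM π ∧ IsU OV (π / ϖ) := by
  obtain ⟨π, h1, h2, h3⟩ := L.swap.exists_piF
  exact ⟨π, h3, h2, h1⟩


/-- the valuations of the norms of the three uniformisers. -/
theorem vl_nA_pi (L : Lvl1 q O1 O2 ϖ1 OF OM OV ϖ t al be nA nB) (hq : 2 ≤ q) {πF πM πV : F2}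
    (hF : IsU OF (πF / ϖ) ∧ IsU OM πF ∧ IsU OV πF) (hM : IsU OF πM ∧ IsU OM (πM / t) ∧ IsU OV πM)
    (hV : IsU OF πV ∧ IsU OM πV ∧ IsU OV (πV / ϖ)) :
    vl L.dv1 (nA πF) = 1 ∧ vl L.dv1 (nA πM) = 1 ∧ vl L.dv1 (nA πV) = 0 ∧
      vl L.dv2 (nA πF) = 0 ∧ vl L.dv2 (nA πM) = 0 ∧ vl L.dv2 (nA πV) = q := by
  have hF0 : πF ≠ 0 := hF.2.1.ne_zero
  have hM0 : πM ≠ 0 := hM.1.ne_zero
  have hV0 : πV ≠ 0 := hV.1.ne_zero
  have hϖ0 : ϖ ≠ 0 := L.dvF.ne_zero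
  have vFF : vl L.dvF πF = 1 := vl_of_isU_div L.dvF hF.1
  have vMM : vl L.dvM πM = 1 := vl_of_isU_div L.dvM hM.2.1
  have vVV : vl L.dvV πV = 1 := vl_of_isU_div L.dvV hV.2.2
  have mFF : πF ∈ OF := mem_of_vl L.dvF hF0 (by omega)
  have mMM : πM ∈ OM := mem_of_vl L.dvM hM0 (by omega)
  have mVV : πV ∈ OV := mem_of_vl L.dvV hV0 (by omega)
  -- easy ones
  have w1 : vl L.dv1 (nA πV) = 0 := vl_eq_zero _ (L.nA_isU1 hV.1 hV.2.1 mVV)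
  have x2 : vl L.dv2 (nA πF) = 0 := vl_eq_zero _ (L.nA_isU2 mFF hF.2.1.mem hF.2.2)
  have y2 : vl L.dv2 (nA πM) = 0 := vl_eq_zero _ (L.nA_isU2 hM.1.mem mMM hM.2.2)
  -- lower bounds
  have x1 : 1 ≤ vl L.dv1 (nA πF) := by
    obtain ⟨c, hc, huc⟩ := L.surjM πF hF.2.1.mem
    have h := L.nA1 πF mFF hF.2.1.mem hF.2.2.mem 0 O1.zero_mem c hc
      (by rw [map_zero, sub_zero]; exact divS_of_vl L.dvF hF0 (by omega)) huc
    rw [zero_mul, sub_zero] at h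
    exact vl_pos L.dv1 (monoidHom_ne_zero nA hF0) h
  have y1 : 1 ≤ vl L.dv1 (nA πM) := by
    obtain ⟨a, ha, hua⟩ := L.surjF πM hM.1.mem
    have h := L.nA1 πM hM.1.mem mMM hM.2.2.mem a ha 0 O1.zero_mem hua
      (by rw [map_zero, sub_zero]; exact divS_of_vl L.dvM hM0 (by omega))
    rw [zero_pow (by omega), mul_zero, sub_zero] at h
    exact vl_pos L.dv1 (monoidHom_ne_zero nA hM0) h
  -- the relation coming from `ϖ`
  set ε : F2 := ϖ / (πF * πM ^ (q - 1) * πV) with hε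
  have hden : πF * πM ^ (q - 1) * πV ≠ 0 := mul_ne_zero (mul_ne_zero hF0 (pow_ne_zero _ hM0)) hV0
  have hε0 : ε ≠ 0 := div_ne_zero hϖ0 hden
  have eF : IsU OF ε := by
    apply isU_of_vl L.dvF hε0
    rw [hε, vl_div L.dvF hϖ0 hden, vl_mul L.dvF (mul_ne_zero hF0 (pow_ne_zero _ hM0)) hV0,
      vl_mul L.dvF hF0 (pow_ne_zero _ hM0), vl_pow L.dvF hM0, vl_unif L.dvF, vFF,
      vl_eq_zero L.dvF hM.1, vl_eq_zero L.dvF hV.1]
    ring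
  have eM : IsU OM ε := by
    apply isU_of_vl L.dvM hε0
    rw [hε, vl_div L.dvM hϖ0 hden, vl_mul L.dvM (mul_ne_zero hF0 (pow_ne_zero _ hM0)) hV0,
      vl_mul L.dvM hF0 (pow_ne_zero _ hM0), vl_pow L.dvM hM0, L.vlM_unif, vMM,
      vl_eq_zero L.dvM hF.2.1, vl_eq_zero L.dvM hV.2.1]
    ring
  have eV : IsU OV ε := by
    apply isU_of_vl L.dvV hε0
    rw [hε, vl_div L.dvV hϖ0 hden, vl_mul L.dvV (mul_ne_zero hF0 (pow_ne_zero _ hM0)) hV0,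
      vl_mul L.dvV hF0 (pow_ne_zero _ hM0), vl_pow L.dvV hM0, vl_unif L.dvV, vVV,
      vl_eq_zero L.dvV hF.2.2, vl_eq_zero L.dvV hM.2.2]
    ring
  have hrel : ϖ1 ^ q = nA ε * (nA πF * nA πM ^ (q - 1) * nA πV) := by
    rw [← L.nA_al, L.al_unif, ← map_pow, ← map_mul, ← map_mul, ← map_mul, hε,
      div_mul_cancel₀ _ hden]
  have nF0 := monoidHom_ne_zero nA hF0
  have nM0 := monoidHom_ne_zero nA hM0
  have nV0 := monoidHom_ne_zero nA hV0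
  have nε0 := monoidHom_ne_zero nA hε0
  have r1 := congrArg (vl L.dv1) hrel
  rw [vl_pow L.dv1 L.dv1.ne_zero, vl_unif L.dv1,
    vl_mul L.dv1 nε0 (mul_ne_zero (mul_ne_zero nF0 (pow_ne_zero _ nM0)) nV0),
    vl_mul L.dv1 (mul_ne_zero nF0 (pow_ne_zero _ nM0)) nV0, vl_mul L.dv1 nF0 (pow_ne_zero _ nM0),
    vl_pow L.dv1 nM0, vl_eq_zero L.dv1 (L.nA_isU1 eF eM eV.mem), w1] at r1
  have r2 := congrArg (vl L.dv2) hrel
  rw [vl_pow L.dv2 L.dv2.ne_zero, vl_unif L.dv2,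
    vl_mul L.dv2 nε0 (mul_ne_zero (mul_ne_zero nF0 (pow_ne_zero _ nM0)) nV0),
    vl_mul L.dv2 (mul_ne_zero nF0 (pow_ne_zero _ nM0)) nV0, vl_mul L.dv2 nF0 (pow_ne_zero _ nM0),
    vl_pow L.dv2 nM0, vl_eq_zero L.dv2 (L.nA_isU2 eF.mem eM.mem eV), x2, y2] at r2
  have hQ : ((q - 1 : ℕ) : ℤ) = (q : ℤ) - 1 := by omega
  rw [hQ] at r1 r2
  have hq' : (1 : ℤ) ≤ (q : ℤ) - 1 := by omega
  have hy : vl L.dv1 (nA πM) = 1 := by nlinarith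
  have hx : vl L.dv1 (nA πF) = 1 := by
    rw [hy] at r1
    linarith
  refine ⟨hx, hy, w1, x2, y2, ?_⟩
  linarith

/-- **the valuations of a norm.** -/
theorem vl_nA (L : Lvl1 q O1 O2 ϖ1 OF OM OV ϖ t al be nA nB) (hq : 2 ≤ q) {u : F2} (hu : u ≠ 0) :
    vl L.dv1 (nA u) = vl L.dvF u + vl L.dvM u ∧ vl L.dv2 (nA u) = q * vl L.dvV u := by
  obtain ⟨πF, hF⟩ := L.exists_piF
  obtain ⟨πM, hM⟩ := L.exists_piM
  obtain ⟨πV, hV⟩ := L.exists_piV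
  obtain ⟨x1, y1, w1, x2, y2, w2⟩ := L.vl_nA_pi hq hF hM hV
  have hF0 : πF ≠ 0 := hF.2.1.ne_zero
  have hM0 : πM ≠ 0 := hM.1.ne_zero
  have hV0 : πV ≠ 0 := hV.1.ne_zero
  have vFF : vl L.dvF πF = 1 := vl_of_isU_div L.dvF hF.1
  have vMM : vl L.dvM πM = 1 := vl_of_isU_div L.dvM hM.2.1
  have vVV : vl L.dvV πV = 1 := vl_of_isU_div L.dvV hV.2.2
  set a := vl L.dvF u with ha
  set c := vl L.dvM u with hc
  set b := vl L.dvV u with hb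
  set d : F2 := πF ^ a * πM ^ c * πV ^ b with hd
  have zF := zpow_ne_zero a hF0
  have zM := zpow_ne_zero c hM0
  have zV := zpow_ne_zero b hV0
  have hd0 : d ≠ 0 := mul_ne_zero (mul_ne_zero zF zM) zV
  have hε0 : u / d ≠ 0 := div_ne_zero hu hd0
  have eF : IsU OF (u / d) := by
    apply isU_of_vl L.dvF hε0
    rw [vl_div L.dvF hu hd0, hd, vl_mul L.dvF (mul_ne_zero zF zM) zV, vl_mul L.dvF zF zM,
      vl_zpow L.dvF hF0, vl_zpow L.dvF hM0, vl_zpow L.dvF hV0, vFF, vl_eq_zero L.dvF hM.1,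
      vl_eq_zero L.dvF hV.1]
    ring
  have eM : IsU OM (u / d) := by
    apply isU_of_vl L.dvM hε0
    rw [vl_div L.dvM hu hd0, hd, vl_mul L.dvM (mul_ne_zero zF zM) zV, vl_mul L.dvM zF zM,
      vl_zpow L.dvM hF0, vl_zpow L.dvM hM0, vl_zpow L.dvM hV0, vMM, vl_eq_zero L.dvM hF.2.1,
      vl_eq_zero L.dvM hV.2.1]
    ring
  have eV : IsU OV (u / d) := by
    apply isU_of_vl L.dvV hε0
    rw [vl_div L.dvV hu hd0, hd, vl_mul L.dvV (mul_ne_zero zF zM) zV, vl_mul L.dvV zF zM,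
      vl_zpow L.dvV hF0, vl_zpow L.dvV hM0, vl_zpow L.dvV hV0, vVV, vl_eq_zero L.dvV hF.2.2,
      vl_eq_zero L.dvV hM.2.2]
    ring
  have hrel : nA u = nA (u / d) * (nA πF ^ a * nA πM ^ c * nA πV ^ b) := by
    rw [← monoidHom_zpow nA hF0, ← monoidHom_zpow nA hM0, ← monoidHom_zpow nA hV0, ← map_mul,
      ← map_mul, ← map_mul, div_mul_cancel₀ _ hd0]
  have nF0 := monoidHom_ne_zero nA hF0
  have nM0 := monoidHom_ne_zero nA hM0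
  have nV0 := monoidHom_ne_zero nA hV0
  have nε0 := monoidHom_ne_zero nA hε0
  have yF := zpow_ne_zero a nF0
  have yM := zpow_ne_zero c nM0
  have yV := zpow_ne_zero b nV0
  constructor
  · rw [hrel, vl_mul L.dv1 nε0 (mul_ne_zero (mul_ne_zero yF yM) yV),
      vl_mul L.dv1 (mul_ne_zero yF yM) yV, vl_mul L.dv1 yF yM, vl_zpow L.dv1 nF0,
      vl_zpow L.dv1 nM0, vl_zpow L.dv1 nV0, x1, y1, w1,
      vl_eq_zero L.dv1 (L.nA_isU1 eF eM eV.mem)]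
    ring
  · rw [hrel, vl_mul L.dv2 nε0 (mul_ne_zero (mul_ne_zero yF yM) yV),
      vl_mul L.dv2 (mul_ne_zero yF yM) yV, vl_mul L.dv2 yF yM, vl_zpow L.dv2 nF0,
      vl_zpow L.dv2 nM0, vl_zpow L.dv2 nV0, x2, y2, w2,
      vl_eq_zero L.dv2 (L.nA_isU2 eF.mem eM.mem eV)]
    ring

theorem vl_nB (L : Lvl1 q O1 O2 ϖ1 OF OM OV ϖ t al be nA nB) (hq : 2 ≤ q) {u : F2} (hu : u ≠ 0) :
    vl L.dv2 (nB u) = vl L.dvV u + vl L.dvM u ∧ vl L.dv1 (nB u) = q * vl L.dvF u :=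
  L.swap.vl_nA hq hu

/-- weak approximation for the three valuations. -/
theorem exists_vl (L : Lvl1 q O1 O2 ϖ1 OF OM OV ϖ t al be nA nB) (i j k : ℤ) :
    ∃ g : F2, g ≠ 0 ∧ vl L.dvF g = i ∧ vl L.dvM g = j ∧ vl L.dvV g = k := by
  obtain ⟨πF, hF⟩ := L.exists_piF
  obtain ⟨πM, hM⟩ := L.exists_piM
  obtain ⟨πV, hV⟩ := L.exists_piV
  have hF0 : πF ≠ 0 := hF.2.1.ne_zero
  have hM0 : πM ≠ 0 := hM.1.ne_zero
  have hV0 : πV ≠ 0 := hV.1.ne_zero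
  have vFF : vl L.dvF πF = 1 := vl_of_isU_div L.dvF hF.1
  have vMM : vl L.dvM πM = 1 := vl_of_isU_div L.dvM hM.2.1
  have vVV : vl L.dvV πV = 1 := vl_of_isU_div L.dvV hV.2.2
  have zF := zpow_ne_zero i hF0
  have zM := zpow_ne_zero j hM0
  have zV := zpow_ne_zero k hV0
  refine ⟨πF ^ i * πM ^ j * πV ^ k, mul_ne_zero (mul_ne_zero zF zM) zV, ?_, ?_, ?_⟩
  · rw [vl_mul L.dvF (mul_ne_zero zF zM) zV, vl_mul L.dvF zF zM,
      vl_zpow L.dvF hF0, vl_zpow L.dvF hM0, vl_zpow L.dvF hV0, vFF, vl_eq_zero L.dvF hM.1,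
      vl_eq_zero L.dvF hV.1]
    ring
  · rw [vl_mul L.dvM (mul_ne_zero zF zM) zV, vl_mul L.dvM zF zM,
      vl_zpow L.dvM hF0, vl_zpow L.dvM hM0, vl_zpow L.dvM hV0, vMM, vl_eq_zero L.dvM hF.2.1,
      vl_eq_zero L.dvM hV.2.1]
    ring
  · rw [vl_mul L.dvV (mul_ne_zero zF zM) zV, vl_mul L.dvV zF zM,
      vl_zpow L.dvV hF0, vl_zpow L.dvV hM0, vl_zpow L.dvV hV0, vVV, vl_eq_zero L.dvV hF.2.2,
      vl_eq_zero L.dvV hM.2.2]
    ring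

/-- **[C1]** : the two norm conditions kill the vertical part of `u ^ (q + 1)`. -/
theorem exists_unit_rep (L : Lvl1 q O1 O2 ϖ1 OF OM OV ϖ t al be nA nB) (hq : 2 ≤ q) {m : ℕ}
    {u : F2} (hu : u ≠ 0) (hA : ∃ (k : ℤ) (z : F1), nA u = ϖ1 ^ k * z ^ m)
    (hB : ∃ (k : ℤ) (z : F1), nB u = ϖ1 ^ k * z ^ m) :
    ∃ (j : ℤ) (g : F2), g ≠ 0 ∧ IsU OF (u ^ (q + 1) * ϖ ^ j / g ^ m) ∧
      IsU OM (u ^ (q + 1) * ϖ ^ j / g ^ m) ∧ IsU OV (u ^ (q + 1) * ϖ ^ j / g ^ m) := by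
  obtain ⟨k1, z1, h1⟩ := hA
  obtain ⟨k2, z2, h2⟩ := hB
  have hϖ0 : ϖ ≠ 0 := L.dvF.ne_zero
  have hp0 : ϖ1 ≠ 0 := L.dv1.ne_zero
  have n1 := monoidHom_ne_zero nA hu
  have n2 := monoidHom_ne_zero nB hu
  have hz1 : z1 ^ m ≠ 0 := fun h0 => n1 (by rw [h1, h0, mul_zero])
  have hz2 : z2 ^ m ≠ 0 := fun h0 => n2 (by rw [h2, h0, mul_zero])
  obtain ⟨a1, a2⟩ := L.vl_nA hq hu
  obtain ⟨b2, b1⟩ := L.vl_nB hq hu
  -- valuations of `z ^ m` : `m * s`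
  have key : ∀ (h : IsDV O1 ϖ1) (z : F1), z ^ m ≠ 0 → ∃ s : ℤ, vl h (z ^ m) = m * s := by
    intro h z hz
    by_cases hz0 : z = 0
    · refine ⟨0, ?_⟩
      by_cases hm : m = 0
      · rw [hm, pow_zero, vl_eq_zero h isU_one]; simp
      · exact absurd (by rw [hz0, zero_pow hm]) hz
    · exact ⟨vl h z, vl_pow h hz0 m⟩
  have key' : ∀ (h : IsDV O2 ϖ1) (z : F1), z ^ m ≠ 0 → ∃ s : ℤ, vl h (z ^ m) = m * s := by
    intro h z hz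
    by_cases hz0 : z = 0
    · refine ⟨0, ?_⟩
      by_cases hm : m = 0
      · rw [hm, pow_zero, vl_eq_zero h isU_one]; simp
      · exact absurd (by rw [hz0, zero_pow hm]) hz
    · exact ⟨vl h z, vl_pow h hz0 m⟩
  obtain ⟨s11, e11⟩ := key L.dv1 z1 hz1
  obtain ⟨s12, e12⟩ := key' L.dv2 z1 hz1
  obtain ⟨s21, e21⟩ := key L.dv1 z2 hz2
  obtain ⟨s22, e22⟩ := key' L.dv2 z2 hz2
  rw [h1, vl_mul L.dv1 (zpow_ne_zero _ hp0) hz1, vl_zpow L.dv1 hp0, vl_unif L.dv1, e11] at a1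
  rw [h1, vl_mul L.dv2 (zpow_ne_zero _ hp0) hz1, vl_zpow L.dv2 hp0, vl_unif L.dv2, e12] at a2
  rw [h2, vl_mul L.dv1 (zpow_ne_zero _ hp0) hz2, vl_zpow L.dv1 hp0, vl_unif L.dv1, e21] at b1
  rw [h2, vl_mul L.dv2 (zpow_ne_zero _ hp0) hz2, vl_zpow L.dv2 hp0, vl_unif L.dv2, e22] at b2
  set a := vl L.dvF u with ha
  set c := vl L.dvM u with hc
  set b := vl L.dvV u with hb
  obtain ⟨g, hg0, gF, gM, gV⟩ := L.exists_vl ((s11 - s12) + (s21 - s22))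
    (((q : ℤ) + 1) * (s11 - s12) - ((s11 - s12) + (s21 - s22))) 0
  refine ⟨-(((q : ℤ) + 1) * b), g, hg0, ?_, ?_, ?_⟩
  all_goals
    have hnum : u ^ (q + 1) * ϖ ^ (-(((q : ℤ) + 1) * b)) ≠ 0 :=
      mul_ne_zero (pow_ne_zero _ hu) (zpow_ne_zero _ hϖ0)
  · apply isU_of_vl L.dvF (div_ne_zero hnum (pow_ne_zero _ hg0))
    rw [vl_div L.dvF hnum (pow_ne_zero _ hg0), vl_mul L.dvF (pow_ne_zero _ hu) (zpow_ne_zero _ hϖ0),
      vl_pow L.dvF hu, vl_zpow L.dvF hϖ0, vl_unif L.dvF, vl_pow L.dvF hg0, gF, ← ha]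
    push_cast
    linear_combination a2 - a1 + b2 - b1
  · apply isU_of_vl L.dvM (div_ne_zero hnum (pow_ne_zero _ hg0))
    have hQ : ((q - 1 : ℕ) : ℤ) = (q : ℤ) - 1 := by omega
    rw [vl_div L.dvM hnum (pow_ne_zero _ hg0), vl_mul L.dvM (pow_ne_zero _ hu) (zpow_ne_zero _ hϖ0),
      vl_pow L.dvM hu, vl_zpow L.dvM hϖ0, L.vlM_unif, vl_pow L.dvM hg0, gM, ← hc, hQ]
    push_cast
    linear_combination ((q : ℤ) + 1) * (a2 - a1) - (a2 - a1 + b2 - b1)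
  · apply isU_of_vl L.dvV (div_ne_zero hnum (pow_ne_zero _ hg0))
    rw [vl_div L.dvV hnum (pow_ne_zero _ hg0), vl_mul L.dvV (pow_ne_zero _ hu) (zpow_ne_zero _ hϖ0),
      vl_pow L.dvV hu, vl_zpow L.dvV hϖ0, vl_unif L.dvV, vl_pow L.dvV hg0, gV, ← hb]
    push_cast
    ring

end Lvl1

end Fermat.Agent.S36
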