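import Fermat.Agent.S36.NVal

/-!
# S36, abstract block : weak approximation for three discrete valuation rings
-/

set_option autoImplicit false

namespace Fermat.Agent.S36.N27

open Fermat.Agent.S34 Fermat.Agent.S35

variable {F : Type*} [Field F]

/-- one "local" computation : `x` unit, `y` in the maximal ideal. -/
theorem idem_one {O : Subring F} {π : F} (h : IsDV O π) {x y : F} (hx : IsU O x)
    (hy : DivS O π 1 y) : IsU O (x + y) ∧ DivS O π 1 (x / (x + y) - 1) := by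
  have hs : IsU O (x + y) := h.isU_of_sub hx (by rwa [add_sub_cancel_left])
  refine ⟨hs, ?_⟩
  have e : x / (x + y) - 1 = -(y * (x + y)⁻¹) := by
    have := hs.ne_zero
    field_simp
    ring
  rw [e]
  exact (hy.mul_right hs.inv_mem).neg

theorem idem_zero {O : Subring F} {π : F} (h : IsDV O π) {x y : F} (hx : DivS O π 1 x)
    (hy : IsU O y) : IsU O (x + y) ∧ DivS O π 1 (x / (x + y)) := by
  have hs : IsU O (x + y) := h.isU_of_sub hy (by rwa [add_sub_cancel_right])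
  refine ⟨hs, ?_⟩
  rw [div_eq_mul_inv]
  exact hx.mul_right hs.inv_mem

/-- powers of an element of the maximal ideal kill denominators, for all large exponents. -/
theorem exists_forall_pow_mul {O : Subring F} {π : F} (h : IsDV O π) {θ : F} (hθ : DivS O π 1 θ)
    (x : F) : ∃ N0 : ℕ, ∀ N, N0 ≤ N → DivS O π 1 (θ ^ N * x) := by
  obtain ⟨j, -, hj⟩ := h.exists_pow_mul hθ x
  refine ⟨j, fun N hN => ?_⟩
  obtain ⟨k, rfl⟩ := Nat.exists_eq_add_of_le hN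
  have : θ ^ (j + k) * x = θ ^ j * x * θ ^ k := by ring
  rw [this]
  exact hj.mul_right (O.pow_mem (hθ.mem h.mem) k)

theorem pow_mul_sub {O : Subring F} {π : F} (h : IsDV O π) {e y : F} (he : DivS O π 1 (e - 1))
    (hy : y ∈ O) (N : ℕ) : DivS O π 1 (e ^ N * y - y) := by
  have he' : e ∈ O := by
    have := O.add_mem (he.mem h.mem) O.one_mem
    rwa [sub_add_cancel] at this
  have h1 := cong_pow he' O.one_mem he N
  rw [one_pow] at h1
  have : e ^ N * y - y = (e ^ N - 1) * y := by ring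
  rw [this]
  exact h1.mul_right hy

/-- **Weak approximation**, from three "idempotents". -/
theorem crt3_of_idem {O1 O2 O3 : Subring F} {π1 π2 π3 : F} (h1 : IsDV O1 π1) (h2 : IsDV O2 π2)
    (h3 : IsDV O3 π3) {e1 e2 e3 : F}
    (h11 : DivS O1 π1 1 (e1 - 1)) (h12 : DivS O2 π2 1 e1) (h13 : DivS O3 π3 1 e1)
    (h21 : DivS O1 π1 1 e2) (h22 : DivS O2 π2 1 (e2 - 1)) (h23 : DivS O3 π3 1 e2)
    (h31 : DivS O1 π1 1 e3) (h32 : DivS O2 π2 1 e3) (h33 : DivS O3 π3 1 (e3 - 1))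
    {y1 y2 y3 : F} (hy1 : y1 ∈ O1) (hy2 : y2 ∈ O2) (hy3 : y3 ∈ O3) :
    ∃ y : F, DivS O1 π1 1 (y - y1) ∧ DivS O2 π2 1 (y - y2) ∧ DivS O3 π3 1 (y - y3) := by
  obtain ⟨a12, ha12⟩ := exists_forall_pow_mul h2 h12 y1
  obtain ⟨a13, ha13⟩ := exists_forall_pow_mul h3 h13 y1
  obtain ⟨a21, ha21⟩ := exists_forall_pow_mul h1 h21 y2
  obtain ⟨a23, ha23⟩ := exists_forall_pow_mul h3 h23 y2
  obtain ⟨a31, ha31⟩ := exists_forall_pow_mul h1 h31 y3
  obtain ⟨a32, ha32⟩ := exists_forall_pow_mul h2 h32 y3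
  let N := a12 + a13 + a21 + a23 + a31 + a32
  refine ⟨e1 ^ N * y1 + e2 ^ N * y2 + e3 ^ N * y3, ?_, ?_, ?_⟩
  · have : e1 ^ N * y1 + e2 ^ N * y2 + e3 ^ N * y3 - y1
        = (e1 ^ N * y1 - y1) + e2 ^ N * y2 + e3 ^ N * y3 := by ring
    rw [this]
    exact ((pow_mul_sub h1 h11 hy1 N).add (ha21 N (by omega))).add (ha31 N (by omega))
  · have : e1 ^ N * y1 + e2 ^ N * y2 + e3 ^ N * y3 - y2
        = e1 ^ N * y1 + (e2 ^ N * y2 - y2) + e3 ^ N * y3 := by ring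
    rw [this]
    exact ((ha12 N (by omega)).add (pow_mul_sub h2 h22 hy2 N)).add (ha32 N (by omega))
  · have : e1 ^ N * y1 + e2 ^ N * y2 + e3 ^ N * y3 - y3
        = e1 ^ N * y1 + e2 ^ N * y2 + (e3 ^ N * y3 - y3) := by ring
    rw [this]
    exact ((ha13 N (by omega)).add (ha23 N (by omega))).add (pow_mul_sub h3 h33 hy3 N)

/-- three discrete valuation rings with "coordinate" elements `g1 g2 g3`
(valuations `(1,0,0)`, `(0,1,0)`, `(0,0,1)`). -/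
structure Sep3 (O1 O2 O3 : Subring F) (π1 π2 π3 g1 g2 g3 : F) : Prop where
  dv1 : IsDV O1 π1
  dv2 : IsDV O2 π2
  dv3 : IsDV O3 π3
  g11 : HasV O1 π1 g1 1
  g12 : IsU O2 g1
  g13 : IsU O3 g1
  g21 : IsU O1 g2
  g22 : HasV O2 π2 g2 1
  g23 : IsU O3 g2
  g31 : IsU O1 g3
  g32 : IsU O2 g3
  g33 : HasV O3 π3 g3 1

namespace Sep3

variable {O1 O2 O3 : Subring F} {π1 π2 π3 g1 g2 g3 : F}

theorem d11 (S : Sep3 O1 O2 O3 π1 π2 π3 g1 g2 g3) : DivS O1 π1 1 g1 := S.g11.divS S.dv1 le_rfl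
theorem d22 (S : Sep3 O1 O2 O3 π1 π2 π3 g1 g2 g3) : DivS O2 π2 1 g2 := S.g22.divS S.dv2 le_rfl
theorem d33 (S : Sep3 O1 O2 O3 π1 π2 π3 g1 g2 g3) : DivS O3 π3 1 g3 := S.g33.divS S.dv3 le_rfl

/-- **Weak approximation.** -/
theorem crt (S : Sep3 O1 O2 O3 π1 π2 π3 g1 g2 g3) {y1 y2 y3 : F} (hy1 : y1 ∈ O1) (hy2 : y2 ∈ O2)
    (hy3 : y3 ∈ O3) :
    ∃ y : F, DivS O1 π1 1 (y - y1) ∧ DivS O2 π2 1 (y - y2) ∧ DivS O3 π3 1 (y - y3) := by
  -- `e1 = g2 g3 / (g2 g3 + g1)` etc.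
  have a1 := idem_one S.dv1 (S.g21.mul S.g31) S.d11
  have a2 := idem_zero S.dv2 (S.d22.mul_right S.g32.mem) S.g12
  have a3 := idem_zero S.dv3 (S.d33.mul_left S.g23.mem) S.g13
  have b1 := idem_zero S.dv1 (S.d11.mul_right S.g31.mem) S.g21
  have b2 := idem_one S.dv2 (S.g12.mul S.g32) S.d22
  have b3 := idem_zero S.dv3 (S.d33.mul_left S.g13.mem) S.g23
  have c1 := idem_zero S.dv1 (S.d11.mul_right S.g21.mem) S.g31
  have c2 := idem_zero S.dv2 (S.d22.mul_left S.g12.mem) S.g32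
  have c3 := idem_one S.dv3 (S.g13.mul S.g23) S.d33
  exact crt3_of_idem S.dv1 S.dv2 S.dv3 a1.2 a2.2 a3.2 b1.2 b2.2 b3.2 c1.2 c2.2 c3.2 hy1 hy2 hy3

/-- normalisation : every `x ≠ 0` is a unit times a monomial in `g1 g2 g3`. -/
theorem exists_monomial (S : Sep3 O1 O2 O3 π1 π2 π3 g1 g2 g3) {x : F} {a b c : ℤ}
    (h1 : HasV O1 π1 x a) (h2 : HasV O2 π2 x b) (h3 : HasV O3 π3 x c) :
    IsU O1 (x / (g1 ^ a * g2 ^ b * g3 ^ c)) ∧ IsU O2 (x / (g1 ^ a * g2 ^ b * g3 ^ c)) ∧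
      IsU O3 (x / (g1 ^ a * g2 ^ b * g3 ^ c)) := by
  refine ⟨?_, ?_, ?_⟩
  · have h := h1.div S.dv1.ne_zero (((S.g11.zpow S.dv1.ne_zero a).mul S.dv1.ne_zero
      (hasV_zero_iff.2 (S.g21.zpow b))).mul S.dv1.ne_zero (hasV_zero_iff.2 (S.g31.zpow c)))
    have e : a - (a * 1 + 0 + 0) = 0 := by ring
    rw [e] at h
    exact hasV_zero_iff.1 h
  · have h := h2.div S.dv2.ne_zero (((hasV_zero_iff.2 (S.g12.zpow a)).mul S.dv2.ne_zero
      (S.g22.zpow S.dv2.ne_zero b)).mul S.dv2.ne_zero (hasV_zero_iff.2 (S.g32.zpow c)))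
    have e : b - (0 + b * 1 + 0) = 0 := by ring
    rw [e] at h
    exact hasV_zero_iff.1 h
  · have h := h3.div S.dv3.ne_zero (((hasV_zero_iff.2 (S.g13.zpow a)).mul S.dv3.ne_zero
      (hasV_zero_iff.2 (S.g23.zpow b))).mul S.dv3.ne_zero (S.g33.zpow S.dv3.ne_zero c))
    have e : c - (0 + 0 + c * 1) = 0 := by ring
    rw [e] at h
    exact hasV_zero_iff.1 h

end Sep3

end Fermat.Agent.S36.N27
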