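import Fermat.Agent.S35.GDV

/-!
# S36, abstract block : valuations of a `IsDV`, congruences of units, weak approximation for three
discrete valuation rings (Mathlib + `S35/GDV` only)
-/

set_option autoImplicit false

namespace Fermat.Agent.S36.N27

open Fermat.Agent.S34 Fermat.Agent.S35

variable {F : Type*} [Field F] {O : Subring F} {ϖ : F}

/-- `v(x) = a`. -/
def HasV (O : Subring F) (ϖ : F) (x : F) (a : ℤ) : Prop := IsU O (x * ϖ ^ (-a))

theorem exists_hasV (h : IsDV O ϖ) {x : F} (hx : x ≠ 0) : ∃ a : ℤ, HasV O ϖ x a := by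
  obtain ⟨a, ha⟩ := h.exists_zpow hx
  exact ⟨-a, by rw [HasV, neg_neg]; exact ha⟩

theorem HasV.ne_zero {x : F} {a : ℤ} (h : HasV O ϖ x a) : x ≠ 0 := fun h0 =>
  IsU.ne_zero h (by rw [h0, zero_mul])

theorem isU_zpow_iff (h : IsDV O ϖ) {n : ℤ} : IsU O (ϖ ^ n) ↔ n = 0 := by
  constructor
  · intro hu
    by_contra hn
    rcases lt_or_gt_of_ne hn with h1 | h1
    · exact h.zpow_notMem h1 hu.mem
    · apply h.zpow_notMem (n := -n) (by omega)
      rw [zpow_neg]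
      exact hu.inv_mem
  · rintro rfl
    rw [zpow_zero]
    exact isU_one

theorem HasV.unique (h : IsDV O ϖ) {x : F} {a b : ℤ} (ha : HasV O ϖ x a) (hb : HasV O ϖ x b) :
    a = b := by
  have h0 := h.ne_zero
  have hx := ha.ne_zero
  have h1 : IsU O (ϖ ^ (a - b)) := by
    have := IsU.div hb ha
    have e : x * ϖ ^ (-b) / (x * ϖ ^ (-a)) = ϖ ^ (a - b) := by
      rw [mul_div_mul_left _ _ hx, ← zpow_sub₀ h0]
      congr 1
      ring
    rwa [e] at this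
  have := (isU_zpow_iff h).1 h1
  omega

theorem hasV_zero_iff {x : F} : HasV O ϖ x 0 ↔ IsU O x := by
  rw [HasV, neg_zero, zpow_zero, mul_one]

theorem HasV.mul (h0 : ϖ ≠ 0) {x y : F} {a b : ℤ} (hx : HasV O ϖ x a) (hy : HasV O ϖ y b) :
    HasV O ϖ (x * y) (a + b) := by
  have := IsU.mul hx hy
  have e : x * ϖ ^ (-a) * (y * ϖ ^ (-b)) = x * y * ϖ ^ (-(a + b)) := by
    rw [neg_add, zpow_add₀ h0]
    ring
  rwa [e] at this

theorem HasV.inv {x : F} {a : ℤ} (hx : HasV O ϖ x a) : HasV O ϖ x⁻¹ (-a) := by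
  have := IsU.inv hx
  rw [mul_inv, ← zpow_neg] at this
  exact this

theorem HasV.div (h0 : ϖ ≠ 0) {x y : F} {a b : ℤ} (hx : HasV O ϖ x a) (hy : HasV O ϖ y b) :
    HasV O ϖ (x / y) (a - b) := by
  rw [div_eq_mul_inv, sub_eq_add_neg]
  exact hx.mul h0 hy.inv

theorem HasV.pow (h0 : ϖ ≠ 0) {x : F} {a : ℤ} (hx : HasV O ϖ x a) (n : ℕ) :
    HasV O ϖ (x ^ n) (n * a) := by
  induction n with
  | zero => rw [pow_zero, Nat.cast_zero, zero_mul, hasV_zero_iff]; exact isU_one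
  | succ n ih =>
    rw [pow_succ]
    have := ih.mul h0 hx
    have e : (n : ℤ) * a + a = ((n + 1 : ℕ) : ℤ) * a := by push_cast; ring
    rwa [e] at this

theorem HasV.zpow (h0 : ϖ ≠ 0) {x : F} {a : ℤ} (hx : HasV O ϖ x a) (n : ℤ) :
    HasV O ϖ (x ^ n) (n * a) := by
  obtain ⟨k, rfl | rfl⟩ := n.eq_nat_or_neg
  · rw [zpow_natCast]
    exact hx.pow h0 k
  · rw [zpow_neg, zpow_natCast, neg_mul]
    exact (hx.pow h0 k).inv

theorem hasV_self (h0 : ϖ ≠ 0) : HasV O ϖ ϖ 1 := by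
  rw [HasV, zpow_neg_one, mul_inv_cancel₀ h0]
  exact isU_one

theorem HasV.of_isU_mul (h0 : ϖ ≠ 0) {x e : F} {a : ℤ} (he : IsU O e) (hx : HasV O ϖ x a) :
    HasV O ϖ (e * x) a := by
  have := (hasV_zero_iff.2 he).mul h0 hx
  rwa [zero_add] at this

/-- an element of the maximal ideal has positive valuation. -/
theorem HasV.pos_of_divS (h : IsDV O ϖ) {x : F} {a : ℤ} (hx : HasV O ϖ x a)
    (hd : DivS O ϖ 1 x) : 1 ≤ a := by
  by_contra hlt
  apply h.not_divS hx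
  obtain ⟨y, hy, rfl⟩ := hd
  exact ⟨y * ϖ ^ (-a), O.mul_mem hy (h.zpow_mem (by omega)), by ring⟩

theorem HasV.divS (h : IsDV O ϖ) {x : F} {a : ℤ} (hx : HasV O ϖ x a) (ha : 1 ≤ a) :
    DivS O ϖ 1 x := by
  refine ⟨x * ϖ ^ (-a) * ϖ ^ (a - 1), O.mul_mem (IsU.mem hx) (h.zpow_mem (by omega)), ?_⟩
  rw [pow_one, mul_assoc, ← zpow_add₀ h.ne_zero, mul_left_comm, ← zpow_one_add₀ h.ne_zero]
  have : (1 + (-a + (a - 1)) : ℤ) = 0 := by ring
  rw [this, zpow_zero, mul_one]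

/-! ### congruences between units -/

theorem cong_inv {x y : F} (hx : IsU O x) (hy : IsU O y) (h : DivS O ϖ 1 (x - y)) :
    DivS O ϖ 1 (x⁻¹ - y⁻¹) := by
  have e : x⁻¹ - y⁻¹ = -((x - y) * (x⁻¹ * y⁻¹)) := by
    have := hx.ne_zero
    have := hy.ne_zero
    field_simp
    ring
  rw [e]
  exact (h.mul_right (O.mul_mem hx.inv_mem hy.inv_mem)).neg

theorem cong_zpow {x y : F} (hx : IsU O x) (hy : IsU O y) (h : DivS O ϖ 1 (x - y)) (n : ℤ) :
    DivS O ϖ 1 (x ^ n - y ^ n) := by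
  obtain ⟨k, rfl | rfl⟩ := n.eq_nat_or_neg
  · rw [zpow_natCast, zpow_natCast]
    exact cong_pow hx.mem hy.mem h k
  · rw [zpow_neg, zpow_neg, zpow_natCast, zpow_natCast]
    exact cong_inv (hx.pow k) (hy.pow k) (cong_pow hx.mem hy.mem h k)

end Fermat.Agent.S36.N27
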