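import Fermat.Agent.S36.NormLvl

/-!
# S36, geometry : the norm fields of `Lvl1` from the dictionary of the expansions

`Dict` : the dictionary of the three expansions `eF eM eV` of the level `q²` along the two
degeneracy maps `al be`, together with the conjugates `eC a` (`T ↦ ζ ^ (a + 1) T`) of the middle
one.  Output : `Dict.nA1 nA2 nB2 nB1`, `normAlong_map` in the shape of the fields of `Lvl1`.
-/

set_option autoImplicit false
set_option linter.unusedSectionVars false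
set_option linter.style.haveILetI false

noncomputable section

namespace Fermat.Agent.S36

open ModularCurve Polynomial Finset
open Fermat.Agent.ES Fermat.Agent.ES.QE Fermat.Agent.ES.Model Fermat.Agent.S34 Fermat.Agent.S35
  Fermat.Agent.S35.GNorm

variable {R K k : Type*} [CommRing R] [IsDomain R] [IsNoetherianRing R] [IsIntegrallyClosed R]
  [Field K] [Algebra R K] [IsFractionRing R K] [Field k]
  {R' K' : Type*} [CommRing R'] [IsDomain R'] [IsNoetherianRing R']
  [IsIntegrallyClosed R'] [Field K'] [Algebra R' K'] [IsFractionRing R' K']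

/-- the norm along a homomorphism of fields. -/
def normAlong {F1 F2 : Type*} [Field F1] [Field F2] (ι : F1 →+* F2) : F2 →* F1 :=
  letI := ι.toAlgebra
  Algebra.norm F1

theorem normAlong_map {F1 F2 : Type*} [Field F1] [Field F2] (ι : F1 →+* F2) (q : ℕ)
    (hfr : letI := ι.toAlgebra; Module.finrank F1 F2 = q) (x : F1) :
    normAlong ι (ι x) = x ^ q := by
  letI := ι.toAlgebra
  have h := Algebra.norm_algebraMap (R := F1) (S := F2) x
  rw [hfr] at h
  exact h

namespace NormLvl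

theorem twist_twist {A : Type*} [CommRing A] (u v : Aˣ) (f : LaurentSeries A) :
    S28.twist u (S28.twist v f) = S28.twist (u * v) f := by
  ext n
  rw [S28.twist_coeff, S28.twist_coeff, S28.twist_coeff, mul_zpow, Units.val_mul, mul_assoc]

theorem twist_one' {A : Type*} [CommRing A] (f : LaurentSeries A) : S28.twist (1 : Aˣ) f = f := by
  ext n
  rw [S28.twist_coeff, one_zpow, Units.val_one, one_mul]

theorem uK_mul (u v : R'ˣ) : (uK (u * v) : K'ˣ) = uK u * uK v := map_mul _ u v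

theorem uK_one : (uK (1 : R'ˣ) : K'ˣ) = 1 := map_one _

/-- twisting does not change the Gauss ring. -/
theorem comap_twist {D' : QData R' K' k} {F : Type*} [Field F] (e : F →+* LaurentSeries K')
    (ω : R'ˣ) (hω : D'.res ω = 1) :
    D'.LamRing.comap ((S28.twist (uK ω)).comp e) = D'.LamRing.comap e := by
  have hω' : D'.res ((ω⁻¹ : R'ˣ) : R') = 1 := by
    have h := res_zpow (D := D') ω hω (-1)
    rwa [zpow_neg_one] at h
  ext x
  constructor
  · intro h
    have h1 : S28.twist (uK ω) (e x) ∈ D'.LamRing := h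
    have h2 := twist_mem_LamRing (D := D') ω⁻¹ hω' h1
    rw [twist_twist, ← uK_mul, inv_mul_cancel, uK_one, twist_one'] at h2
    exact h2
  · intro h
    exact twist_mem_LamRing (D := D') ω hω h

end NormLvl

open NormLvl

/-- **The dictionary of the expansions at the level `q²`.** -/
structure Dict (j : K →+* K') (ζ : R'ˣ) (q : ℕ) [NeZero q]
    {F1 F2 : Type*} [Field F1] [Field F2] (al be : F1 →+* F2)
    (e1 e2 : F1 →+* LaurentSeries K) (eF eV : F2 →+* LaurentSeries K)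
    (eM : F2 →+* LaurentSeries K') (eC : ℕ → (F2 →+* LaurentSeries K')) : Prop where
  F_al : ∀ c, eF (al c) = e1 c
  F_be : ∀ c, eF (be c) = qExpand K q (e1 c)
  V_al : ∀ c, eV (al c) = qExpand K q (e2 c)
  V_be : ∀ c, eV (be c) = e2 c
  M_al : ∀ c, eM (al c) = coeffMap j (e1 c)
  M_be : ∀ c, eM (be c) = S28.twist (uK ζ) (coeffMap j (e2 c))
  C_al : ∀ a, a + 1 < q → ∀ c, eC a (al c) = coeffMap j (e1 c)
  C_be : ∀ a, a + 1 < q → ∀ c, eC a (be c) = S28.twist (uK (ζ ^ (a + 1))) (coeffMap j (e2 c))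

namespace Dict

variable {j : K →+* K'} {ζ : R'ˣ} {q : ℕ} [NeZero q]
  {F1 F2 : Type*} [Field F1] [Field F2] {al be : F1 →+* F2}
  {e1 e2 : F1 →+* LaurentSeries K} {eF eV : F2 →+* LaurentSeries K}
  {eM : F2 →+* LaurentSeries K'} {eC : ℕ → (F2 →+* LaurentSeries K')}

/-- the symmetry `∞ ↔ 0`. -/
theorem swap (H : Dict j ζ q al be e1 e2 eF eV eM eC) :
    Dict j ζ⁻¹ q be al e2 e1 eV eF ((S28.twist (uK ζ⁻¹)).comp eM)
      (fun a => (S28.twist (uK (ζ⁻¹ ^ (a + 1)))).comp (eC a)) where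
  F_al := H.V_be
  F_be := H.V_al
  V_al := H.F_be
  V_be := H.F_al
  M_al := fun c => by
    show S28.twist (uK ζ⁻¹) (eM (be c)) = _
    rw [H.M_be, twist_twist, ← uK_mul, inv_mul_cancel, uK_one, twist_one']
  M_be := fun c => by
    show S28.twist (uK ζ⁻¹) (eM (al c)) = _
    rw [H.M_al]
  C_al := fun a ha c => by
    show S28.twist (uK (ζ⁻¹ ^ (a + 1))) (eC a (be c)) = _
    rw [H.C_be a ha, twist_twist, ← uK_mul, inv_pow, inv_mul_cancel, uK_one, twist_one']
  C_be := fun a ha c => by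
    show S28.twist (uK (ζ⁻¹ ^ (a + 1))) (eC a (al c)) = _
    rw [H.C_al a ha]

variable {D : QData R K k} {D' : QData R' K' k} (i : R →+* R')
  (hij : ∀ r, j (algebraMap R K r) = algebraMap R' K' (i r)) (hres : ∀ r, D'.res (i r) = D.res r)

include hij hres

/-- **[nA1]**. -/
theorem nA1 [Fact q.Prime] [CharP k q] [CharZero F1] (H : Dict j ζ q al be e1 e2 eF eV eM eC)
    (hζ : IsPrimitiveRoot ζ q) (hfr : letI := al.toAlgebra; Module.finrank F1 F2 = q)
    {ϖ1 : F1} {ϖ t : F2} (dv1 : IsDV (D.LamRing.comap e1) ϖ1) (dvF : IsDV (D.LamRing.comap eF) ϖ)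
    (dvM : IsDV (D'.LamRing.comap eM) t)
    (z1 : F1) (hz1 : e2 z1 ∈ D.LamRing) (hz1c : (e2 z1).coeff (-1) ≠ 0)
    (u : F2) (huF : u ∈ D.LamRing.comap eF) (huM : u ∈ D'.LamRing.comap eM)
    (hrep : ∃ P : F1[X], (∀ n, P.coeff n ∈ D.LamRing.comap e1) ∧ u = eval₂ al (be z1) P)
    (a : F1) (ha : a ∈ D.LamRing.comap e1) (c : F1) (hc : c ∈ D.LamRing.comap e1)
    (h1 : DivS (D.LamRing.comap eF) ϖ 1 (u - al a))
    (h2 : DivS (D'.LamRing.comap eM) t 1 (u - al c)) :
    DivS (D.LamRing.comap e1) ϖ1 1 (normAlong al u - a * c ^ (q - 1)) := by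
  classical
  letI := al.toAlgebra
  have hq : q.Prime := Fact.out
  have hζq : ∀ b : ℕ, (ζ ^ b) ^ q = 1 := fun b => by
    rw [← pow_mul, mul_comm, pow_mul, hζ.pow_eq_one, one_pow]
  have hr : ∀ b : ℕ, D'.res ((ζ ^ b : R'ˣ) : R') = 1 := fun b => res_eq_one q _ (hζq b)
  have hr1 : D'.res (ζ : R') = 1 := by have := hr 1; rwa [pow_one] at this
  have hlt : ∀ a : Fin (q - 1), (a : ℕ) + 1 < q := fun a => by have := a.2; omega
  let φ : F1 →+* LaurentSeries K' := (coeffMap j).comp e1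
  have hφ : IsLift D D' e1 φ := isLift_bc i j hij hres e1
  have hL2 : IsLift D D' e2 ((coeffMap j).comp e2) := isLift_bc i j hij hres e2
  let σ : Option (Fin (q - 1)) → (F2 →+* LaurentSeries K') := fun x =>
    match x with
    | none => (coeffMap j).comp eF
    | some a => eC a
  have hσ : ∀ x (c : F1), σ x (algebraMap F1 F2 c) = φ c := by
    rintro (_ | a) c
    · show coeffMap j (eF (al c)) = _
      rw [H.F_al]
      rfl
    · exact H.C_al a (hlt a) c
  have hinj : Function.Injective σ := by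
    refine inj_of_coeff σ (be z1) (j ((e2 z1).coeff (-1)))
      (fun h => hz1c (j.injective (by rw [h, map_zero])))
      (fun a : Fin (q - 1) => algebraMap R' K' (((ζ ^ ((a : ℕ) + 1)) ^ (-1 : ℤ) : R'ˣ) : R'))
      ?_ ?_ ?_ ?_
    · intro a b hab
      have h4 : ((ζ ^ ((a : ℕ) + 1)) ^ (-1 : ℤ) : R'ˣ) = (ζ ^ ((b : ℕ) + 1)) ^ (-1 : ℤ) :=
        Units.ext (IsFractionRing.injective R' K' hab)
      rw [zpow_neg_one, zpow_neg_one, inv_inj] at h4
      have ha := a.2
      have hb := b.2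
      have := hζ.pow_inj (by omega) (by omega) h4
      exact Fin.ext (by omega)
    · intro a h
      have h' : (((ζ ^ ((a : ℕ) + 1)) ^ (-1 : ℤ) : R'ˣ) : R') = 0 :=
        IsFractionRing.injective R' K' (by rw [h, map_zero])
      exact (Units.ne_zero _) h'
    · show (coeffMap j (eF (be z1))).coeff (-1) = 0
      rw [H.F_be, coeffMap_coeff, qExpand_coeff_of_not_dvd, map_zero]
      intro h
      have h2 : (q : ℤ) ∣ 1 := (Int.dvd_neg).1 h
      have h3 : q ∣ 1 := by exact_mod_cast h2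
      exact hq.one_lt.ne' (Nat.dvd_one.1 h3)
    · intro a
      show (eC a (be z1)).coeff (-1) = _
      rw [H.C_be a (hlt a), S28.twist_coeff, coe_uK_zpow, coeffMap_coeff]
  have hbz : coeffMap j (e2 z1) ∈ D'.LamRing := (hL2 z1 hz1).1
  have hzM : eM (be z1) ∈ D'.LamRing := by
    rw [H.M_be]
    exact twist_mem_LamRing _ hr1 hbz
  obtain ⟨P, hP, rfl⟩ := hrep
  have hsame : ∀ a : Fin (q - 1), ∃ h : σ (some a) (eval₂ al (be z1) P) ∈ D'.LamRing,
      D'.rho ⟨σ (some a) (eval₂ al (be z1) P), h⟩ = D'.rho ⟨eM (eval₂ al (be z1) P), huM⟩ := by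
    intro a
    refine same_of_rep al e1 φ hφ eM (eC a) H.M_al (H.C_al a (hlt a)) (be z1) hzM ?_ P hP huM
    have e1' : eC a (be z1) = S28.twist (uK (ζ ^ ((a : ℕ) + 1))) (coeffMap j (e2 z1)) :=
      H.C_be a (hlt a) z1
    have m1 : eC a (be z1) ∈ D'.LamRing := by
      rw [e1']
      exact twist_mem_LamRing _ (hr _) hbz
    refine ⟨m1, ?_⟩
    have t1 : D'.rho ⟨eC a (be z1), m1⟩ = D'.rho ⟨coeffMap j (e2 z1), hbz⟩ := by
      rw [← rho_twist (D := D') _ (hr ((a : ℕ) + 1)) hbz]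
      congr 1
      exact Subtype.ext e1'
    have t2 : D'.rho ⟨eM (be z1), hzM⟩ = D'.rho ⟨coeffMap j (e2 z1), hbz⟩ := by
      rw [← rho_twist (D := D') _ hr1 hbz]
      congr 1
      exact Subtype.ext (H.M_be z1)
    rw [t1, t2]
  exact n1_gen q hfr e1 eF eM dv1 dvF dvM H.F_al φ hφ H.M_al σ hσ hinj
    (isLift_bc i j hij hres eF) _ huF huM hsame a c ha hc h1 h2

/-- **[nA2]**. -/
theorem nA2 [Fact q.Prime] [CharP k q] [CharZero F1] (H : Dict j ζ q al be e1 e2 eF eV eM eC)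
    (hζ : IsPrimitiveRoot ζ q) (hfr : letI := al.toAlgebra; Module.finrank F1 F2 = q)
    {ϖ : F2} (dvV : IsDV (D.LamRing.comap eV) ϖ)
    (z1 : F1) (hz1c : (e2 z1).coeff (-1) ≠ 0) (u : F2) (hu : u ∈ D.LamRing.comap eV) :
    DivS (D.LamRing.comap eV) ϖ 1 (al (normAlong al u) - u ^ q) := by
  letI := al.toAlgebra
  exact n2_gen i j hij hres q hfr e2 eV H.V_al dvV (be z1) (by rw [H.V_be]; exact hz1c) ζ hζ u hu

/-- **[nB2]**. -/
theorem nB2 [Fact q.Prime] [CharP k q] [CharZero F1] (H : Dict j ζ q al be e1 e2 eF eV eM eC)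
    (hζ : IsPrimitiveRoot ζ q) (hfr : letI := be.toAlgebra; Module.finrank F1 F2 = q)
    {ϖ1 : F1} {ϖ t : F2} (dv2 : IsDV (D.LamRing.comap e2) ϖ1) (dvV : IsDV (D.LamRing.comap eV) ϖ)
    (dvM : IsDV (D'.LamRing.comap eM) t)
    (x1 : F1) (hx1 : e1 x1 ∈ D.LamRing) (hx1c : (e1 x1).coeff (-1) ≠ 0)
    (u : F2) (huV : u ∈ D.LamRing.comap eV) (huM : u ∈ D'.LamRing.comap eM)
    (hrep : ∃ P : F1[X], (∀ n, P.coeff n ∈ D.LamRing.comap e2) ∧ u = eval₂ be (al x1) P)
    (b : F1) (hb : b ∈ D.LamRing.comap e2) (c : F1) (hc : c ∈ D.LamRing.comap e2)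
    (h1 : DivS (D.LamRing.comap eV) ϖ 1 (u - be b))
    (h2 : DivS (D'.LamRing.comap eM) t 1 (u - be c)) :
    DivS (D.LamRing.comap e2) ϖ1 1 (normAlong be u - b * c ^ (q - 1)) := by
  have hr1 : D'.res ((ζ⁻¹ : R'ˣ) : R') = 1 :=
    res_eq_one q _ (by rw [inv_pow, hζ.pow_eq_one, inv_one])
  have hO := comap_twist (D' := D') eM ζ⁻¹ hr1
  exact H.swap.nA1 i hij hres hζ.inv hfr dv2 dvV (by rw [hO]; exact dvM) x1 hx1 hx1c u huV
    (by rw [hO]; exact huM) hrep b hb c hc h1 (by rw [hO]; exact h2)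

/-- **[nB1]**. -/
theorem nB1 [Fact q.Prime] [CharP k q] [CharZero F1] (H : Dict j ζ q al be e1 e2 eF eV eM eC)
    (hζ : IsPrimitiveRoot ζ q) (hfr : letI := be.toAlgebra; Module.finrank F1 F2 = q)
    {ϖ : F2} (dvF : IsDV (D.LamRing.comap eF) ϖ)
    (x1 : F1) (hx1c : (e1 x1).coeff (-1) ≠ 0) (u : F2) (hu : u ∈ D.LamRing.comap eF) :
    DivS (D.LamRing.comap eF) ϖ 1 (be (normAlong be u) - u ^ q) :=
  H.swap.nA2 i hij hres hζ.inv hfr dvF x1 hx1c u hu

end Dict

end Fermat.Agent.S36
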