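import Fermat.Agent.S36.NormCore
import Fermat.Agent.S34.SDefs

/-!
# S36, geometry : the norm formulas in the `DivS` shape

`D : QData R K k` : the data over the unramified base `R`;
`D' : QData R' K' k` : the data over `R' = R[ζ_q]`;  `bc = coeffMap j : K((T)) → K'((T))`.

* `n1` : `u ≡ α a (mod p O_F)`, `u ≡ α c (mod t O_M)`  ⟹  `N u ≡ a c ^ (q - 1) (mod p₁ O₁)`;
* `n2` : `α (N u) ≡ u ^ q (mod p O_V)`.
-/

set_option autoImplicit false
set_option linter.unusedSectionVars false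
set_option linter.style.haveILetI false

noncomputable section

namespace Fermat.Agent.S36

open ModularCurve Polynomial Finset
open Fermat.Agent.ES Fermat.Agent.ES.QE Fermat.Agent.ES.Model Fermat.Agent.S34 Fermat.Agent.S35
  Fermat.Agent.S35.GNorm

variable {R K k : Type*} [CommRing R] [IsDomain R] [IsNoetherianRing R] [IsIntegrallyClosed R]
  [Field K] [Algebra R K] [IsFractionRing R K] [Field k]

namespace NormDiv

section One

variable {D : QData R K k} {F : Type*} [Field F] (e : F →+* LaurentSeries K)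

/-- the kernel of the reduction, in the `DivS` shape; `π` any uniformiser. -/
theorem rho_eq_zero_iff (π : F) (w : LaurentSeries K) (hπ : e π = D.ϖE * w) (hw0 : w ≠ 0)
    (hw : w ∈ D.LamRing) (hw' : w⁻¹ ∈ D.LamRing) (x : F) (hx : e x ∈ D.LamRing) :
    D.rho ⟨e x, hx⟩ = 0 ↔ DivS (D.LamRing.comap e) π 1 x := by
  have hπ0 : π ≠ 0 := by
    rintro rfl
    rw [map_zero] at hπ
    exact mul_ne_zero D.ϖE_ne_zero hw0 hπ.symm
  rw [QData.rho_eq_zero_iff_exists]
  constructor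
  · rintro ⟨g, hg, h⟩
    refine ⟨π⁻¹ * x, ?_, by rw [pow_one, mul_inv_cancel_left₀ hπ0]⟩
    rw [Subring.mem_comap, map_mul, map_inv₀, hπ]
    have h' : e x = D.ϖE * g := h
    have : (D.ϖE * w)⁻¹ * e x = w⁻¹ * g := by
      rw [h', mul_inv]
      have := D.ϖE_ne_zero
      field_simp
    rw [this]
    exact mul_mem hw' hg
  · rintro ⟨y, hy, h⟩
    refine ⟨w * e y, mul_mem hw hy, ?_⟩
    show e x = _
    rw [h, pow_one, map_mul, hπ, mul_assoc]

/-- congruences, in the `DivS` shape. -/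
theorem rho_eq_iff (π : F) (w : LaurentSeries K) (hπ : e π = D.ϖE * w) (hw0 : w ≠ 0)
    (hw : w ∈ D.LamRing) (hw' : w⁻¹ ∈ D.LamRing) (x y : F) (hx : e x ∈ D.LamRing)
    (hy : e y ∈ D.LamRing) :
    D.rho ⟨e x, hx⟩ = D.rho ⟨e y, hy⟩ ↔ DivS (D.LamRing.comap e) π 1 (x - y) := by
  have hxy : e (x - y) ∈ D.LamRing := by rw [map_sub]; exact sub_mem hx hy
  rw [← rho_eq_zero_iff e π w hπ hw0 hw hw' (x - y) hxy, ← sub_eq_zero, ← map_sub]
  have : (⟨e x, hx⟩ - ⟨e y, hy⟩ : D.LamRing) = ⟨e (x - y), hxy⟩ :=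
    Subtype.ext (map_sub e x y).symm
  rw [this]

end One

/-! ### base change of the data -/

section BC

variable {R' K' : Type*} [CommRing R'] [IsDomain R'] [IsNoetherianRing R']
  [IsIntegrallyClosed R'] [Field K'] [Algebra R' K'] [IsFractionRing R' K']
  {D : QData R K k} {D' : QData R' K' k} (i : R →+* R') (j : K →+* K')
  (hij : ∀ r, j (algebraMap R K r) = algebraMap R' K' (i r)) (hres : ∀ r, D'.res (i r) = D.res r)

include hij hres

lemma isFrac_bc {f : LaurentSeries K} {t w : LaurentSeries R} (h : D.IsFrac f t w) :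
    D'.IsFrac (coeffMap j f) (coeffMap i t) (coeffMap i w) := by
  have hred : ∀ x : LaurentSeries R, D'.red (coeffMap i x) = D.red x := by
    intro x
    ext n
    rw [QData.red, QData.red, coeffMap_coeff, coeffMap_coeff, coeffMap_coeff, hres]
  have hinc : ∀ x : LaurentSeries R, D'.inc (coeffMap i x) = coeffMap j (D.inc x) := by
    intro x
    ext n
    rw [QData.inc, QData.inc, coeffMap_coeff, coeffMap_coeff, coeffMap_coeff, coeffMap_coeff, hij]
  refine ⟨by rw [hred]; exact h.1, ?_⟩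
  rw [hinc, hinc, ← map_mul, h.2]

theorem bc_mem {f : LaurentSeries K} (hf : f ∈ D.LamRing) : coeffMap j f ∈ D'.LamRing := by
  obtain ⟨t, w, h⟩ := hf
  exact ⟨_, _, isFrac_bc i j hij hres h⟩

theorem rho_bc {f : LaurentSeries K} (hf : f ∈ D.LamRing) :
    D'.rho ⟨coeffMap j f, bc_mem i j hij hres hf⟩ = D.rho ⟨f, hf⟩ := by
  obtain ⟨t, w, h⟩ := hf
  have hred : ∀ x : LaurentSeries R, D'.red (coeffMap i x) = D.red x := by
    intro x
    ext n
    rw [QData.red, QData.red, coeffMap_coeff, coeffMap_coeff, coeffMap_coeff, hres]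
  rw [QData.rho_eq (f := ⟨coeffMap j f, _⟩) (isFrac_bc i j hij hres h),
    QData.rho_eq (f := ⟨f, _⟩) h, hred, hred]

/-- descent of integrality along the base change, for a "valuation ring". -/
theorem mem_of_bc_mem {f : LaurentSeries K} (hval : f ∈ D.LamRing ∨ f⁻¹ ∈ D.LamRing)
    (h : coeffMap j f ∈ D'.LamRing) : f ∈ D.LamRing := by
  rcases hval with hf | hf'
  · exact hf
  by_cases hf0 : f = 0
  · rw [hf0]; exact zero_mem _
  by_cases h1 : D.rho ⟨f⁻¹, hf'⟩ = 0
  · exfalso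
    have h2 := rho_bc i j hij hres hf'
    rw [h1] at h2
    have h3 : (⟨coeffMap j f⁻¹, bc_mem i j hij hres hf'⟩ : D'.LamRing) * ⟨coeffMap j f, h⟩ = 1 := by
      apply Subtype.ext
      rw [Subring.coe_mul, Subring.coe_one, ← map_mul, inv_mul_cancel₀ hf0, map_one]
    have h4 := congrArg D'.rho h3
    rw [map_mul, h2, zero_mul, map_one] at h4
    exact zero_ne_one h4
  · have := NormCore.inv_mem_LamRing hf' h1
    rwa [inv_inv] at this

end BC

end NormDiv

open NormDiv NormCore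

/-- the general product formula. -/
theorem norm_red_fam {D : QData R K k}
    {F1 F2 : Type*} [Field F1] [Field F2] [Algebra F1 F2] [CharZero F1] [FiniteDimensional F1 F2]
    {X : Type*} [Fintype X] (φ : F1 →+* LaurentSeries K) (σ : X → (F2 →+* LaurentSeries K))
    (hinj : Function.Injective σ) (hσφ : ∀ i (c : F1), σ i (algebraMap F1 F2 c) = φ c)
    (hcard : Fintype.card X = Module.finrank F1 F2) (u : F2) (hu : ∀ i, σ i u ∈ D.LamRing) :
    ∃ hN : φ (Algebra.norm F1 u) ∈ D.LamRing,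
      D.rho ⟨φ (Algebra.norm F1 u), hN⟩ = ∏ i, D.rho ⟨σ i u, hu i⟩ := by
  classical
  have hprod := KEmb.norm_eq_prod φ σ hinj hσφ hcard u
  have hP : φ (Algebra.norm F1 u)
      = ((∏ i, (⟨σ i u, hu i⟩ : D.LamRing) : D.LamRing) : LaurentSeries K) := by
    rw [hprod, SubmonoidClass.coe_finsetProd]
  have hN : φ (Algebra.norm F1 u) ∈ D.LamRing := by
    rw [hP]
    exact Subtype.property _
  refine ⟨hN, ?_⟩
  have e : (⟨φ (Algebra.norm F1 u), hN⟩ : D.LamRing) = ∏ i, (⟨σ i u, hu i⟩ : D.LamRing) :=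
    Subtype.ext hP
  rw [e, map_prod]

/-- **[N-II']** the `q` twists of one embedding, without descent along `V`. -/
theorem norm_red_tw' {D : QData R K k} (q : ℕ) [Fact q.Prime] [CharP k q]
    {F1 F2 : Type*} [Field F1] [Field F2] [Algebra F1 F2] [CharZero F1]
    (hfr : Module.finrank F1 F2 = q)
    (e : F1 →+* LaurentSeries K) (s : F2 →+* LaurentSeries K)
    (h : ∀ c : F1, s (algebraMap F1 F2 c) = qExpand K q (e c))
    (θ : F2) (hθ : (s θ).coeff (-1) ≠ 0) (ζ : Rˣ) (hζ : IsPrimitiveRoot ζ q)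
    (u : F2) (hu : s u ∈ D.LamRing) :
    ∃ hN : s (algebraMap F1 F2 (Algebra.norm F1 u)) ∈ D.LamRing,
      D.rho ⟨s (algebraMap F1 F2 (Algebra.norm F1 u)), hN⟩ = D.rho ⟨s u, hu⟩ ^ q := by
  classical
  have hq : q.Prime := Fact.out
  have hfd : FiniteDimensional F1 F2 :=
    Module.finite_of_finrank_pos (by rw [hfr]; exact hq.pos)
  have hζq : ∀ b : ℕ, (ζ ^ b) ^ q = 1 := fun b => by
    rw [← pow_mul, mul_comm, pow_mul, hζ.pow_eq_one, one_pow]
  have hres : ∀ b : ℕ, D.res ((ζ ^ b : Rˣ) : R) = 1 := fun b => res_eq_one q _ (hζq b)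
  have hKq : ∀ b : ℕ, (uK (K := K) (ζ ^ b)) ^ q = 1 := fun b => by
    rw [uK, ← map_pow, hζq, map_one]
  let φ : F1 →+* LaurentSeries K := (qExpand K q).comp e
  let σ : Fin q → (F2 →+* LaurentSeries K) := fun b => (S28.twist (uK (ζ ^ (b : ℕ)))).comp s
  have hσφ : ∀ i (c : F1), σ i (algebraMap F1 F2 c) = φ c := by
    intro b c
    show S28.twist (uK (ζ ^ (b : ℕ))) (s (algebraMap F1 F2 c)) = _
    rw [h, twist_qExpand q _ (hKq b)]
    rfl
  have hcoeff : ∀ b : Fin q, (σ b θ).coeff (-1)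
      = algebraMap R K (((ζ ^ (b : ℕ)) ^ (-1 : ℤ) : Rˣ) : R) * (s θ).coeff (-1) := by
    intro b
    show (S28.twist (uK (ζ ^ (b : ℕ))) (s θ)).coeff (-1) = _
    rw [S28.twist_coeff, coe_uK_zpow]
  have hinj : Function.Injective σ := by
    intro b b' hbb
    have h3 := congrArg (fun g : F2 →+* LaurentSeries K => (g θ).coeff (-1)) hbb
    simp only [hcoeff] at h3
    have h3' := mul_right_cancel₀ hθ h3
    have h4 : ((ζ ^ (b : ℕ)) ^ (-1 : ℤ) : Rˣ) = (ζ ^ (b' : ℕ)) ^ (-1 : ℤ) :=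
      Units.ext (IsFractionRing.injective R K h3')
    rw [zpow_neg_one, zpow_neg_one, inv_inj] at h4
    exact Fin.ext (hζ.pow_inj b.2 b'.2 h4)
  have hcard : Fintype.card (Fin q) = Module.finrank F1 F2 := by
    rw [Fintype.card_fin, hfr]
  obtain ⟨hN, hr⟩ := norm_red_fam (D := D) φ σ hinj hσφ hcard u
    (fun b => twist_mem_LamRing _ (hres b) hu)
  have e0 : s (algebraMap F1 F2 (Algebra.norm F1 u)) = φ (Algebra.norm F1 u) := h _
  have hN' : s (algebraMap F1 F2 (Algebra.norm F1 u)) ∈ D.LamRing := by rw [e0]; exact hN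
  refine ⟨hN', ?_⟩
  have e1 : (⟨s (algebraMap F1 F2 (Algebra.norm F1 u)), hN'⟩ : D.LamRing)
      = ⟨φ (Algebra.norm F1 u), hN⟩ := Subtype.ext e0
  rw [e1, hr]
  have e2 : ∀ b : Fin q, D.rho ⟨σ b u, twist_mem_LamRing _ (hres b) hu⟩ = D.rho ⟨s u, hu⟩ :=
    fun b => rho_twist _ (hres b) hu
  simp only [e2]
  rw [Finset.prod_const, Finset.card_univ, Fintype.card_fin]

section Main

variable {R' K' : Type*} [CommRing R'] [IsDomain R'] [IsNoetherianRing R']
  [IsIntegrallyClosed R'] [Field K'] [Algebra R' K'] [IsFractionRing R' K']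
  {D : QData R K k} {D' : QData R' K' k} (i : R →+* R') (j : K →+* K')
  (hij : ∀ r, j (algebraMap R K r) = algebraMap R' K' (i r)) (hres : ∀ r, D'.res (i r) = D.res r)

include hij hres

/-- **[N1]** (and **[N3]**). -/
theorem n1 (q : ℕ) [Fact q.Prime]
    {F1 F2 : Type*} [Field F1] [Field F2] [Algebra F1 F2] [CharZero F1]
    (hfr : Module.finrank F1 F2 = q)
    (e1 : F1 →+* LaurentSeries K) (hval : ∀ x : F1, e1 x ∈ D.LamRing ∨ (e1 x)⁻¹ ∈ D.LamRing)
    (eF : F2 →+* LaurentSeries K) (hF : ∀ c, eF (algebraMap F1 F2 c) = e1 c)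
    (eM : F2 →+* LaurentSeries K') (hM : ∀ c, eM (algebraMap F1 F2 c) = coeffMap j (e1 c))
    (eMa : Fin (q - 1) → (F2 →+* LaurentSeries K'))
    (hMa : ∀ a c, eMa a (algebraMap F1 F2 c) = coeffMap j (e1 c))
    (hinj : Function.Injective (fun x : Option (Fin (q - 1)) =>
      (match x with
        | none => (coeffMap j).comp eF
        | some a => eMa a : F2 →+* LaurentSeries K')))
    (p1 : F1) (hp1 : e1 p1 = D.ϖE) (p : F2) (hp : eF p = D.ϖE)
    (t : F2) (w : LaurentSeries K') (ht : eM t = D'.ϖE * w) (hw0 : w ≠ 0) (hw : w ∈ D'.LamRing)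
    (hw' : w⁻¹ ∈ D'.LamRing)
    (u : F2) (huF : eF u ∈ D.LamRing) (huM : eM u ∈ D'.LamRing)
    (hsame : ∀ a, ∃ h : eMa a u ∈ D'.LamRing, D'.rho ⟨eMa a u, h⟩ = D'.rho ⟨eM u, huM⟩)
    (a c : F1) (ha : e1 a ∈ D.LamRing) (hc : e1 c ∈ D.LamRing)
    (h1 : DivS (D.LamRing.comap eF) p 1 (u - algebraMap F1 F2 a))
    (h2 : DivS (D'.LamRing.comap eM) t 1 (u - algebraMap F1 F2 c)) :
    DivS (D.LamRing.comap e1) p1 1 (Algebra.norm F1 u - a * c ^ (q - 1)) := by
  classical
  have hq : q.Prime := Fact.out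
  have hfd : FiniteDimensional F1 F2 :=
    Module.finite_of_finrank_pos (by rw [hfr]; exact hq.pos)
  have one_mem : (1 : LaurentSeries K) ∈ D.LamRing := one_mem _
  have one_inv : (1 : LaurentSeries K)⁻¹ ∈ D.LamRing := by rw [inv_one]; exact one_mem
  -- the two congruences as equalities of reductions
  have haF : eF (algebraMap F1 F2 a) ∈ D.LamRing := by rw [hF]; exact ha
  have hcM : eM (algebraMap F1 F2 c) ∈ D'.LamRing := by
    rw [hM]; exact bc_mem i j hij hres hc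
  have r1 : D.rho ⟨eF u, huF⟩ = D.rho ⟨e1 a, ha⟩ := by
    have := (rho_eq_iff eF p 1 (by rw [hp, mul_one]) one_ne_zero one_mem one_inv u
      (algebraMap F1 F2 a) huF haF).2 h1
    rw [this]
    congr 1
    exact Subtype.ext (hF a)
  have r2 : D'.rho ⟨eM u, huM⟩ = D.rho ⟨e1 c, hc⟩ := by
    have := (rho_eq_iff eM t w ht hw0 hw hw' u (algebraMap F1 F2 c) huM hcM).2 h2
    rw [this, ← rho_bc i j hij hres hc]
    congr 1
    exact Subtype.ext (hM c)
  -- the product formula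
  let φ : F1 →+* LaurentSeries K' := (coeffMap j).comp e1
  let σ : Option (Fin (q - 1)) → (F2 →+* LaurentSeries K') := fun x =>
    match x with
    | none => (coeffMap j).comp eF
    | some a => eMa a
  have hσφ : ∀ x (c : F1), σ x (algebraMap F1 F2 c) = φ c := by
    rintro (_ | a) c
    · show coeffMap j (eF (algebraMap F1 F2 c)) = _
      rw [hF]
      rfl
    · exact hMa a c
  have hcard : Fintype.card (Option (Fin (q - 1))) = Module.finrank F1 F2 := by
    rw [Fintype.card_option, Fintype.card_fin, hfr]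
    have := hq.pos
    omega
  have hu : ∀ x, σ x u ∈ D'.LamRing := by
    rintro (_ | a)
    · exact bc_mem i j hij hres huF
    · exact (hsame a).1
  obtain ⟨hN, hr⟩ := norm_red_fam (D := D') φ σ hinj hσφ hcard u hu
  rw [Fintype.prod_option] at hr
  have e0 : D'.rho ⟨σ none u, hu none⟩ = D.rho ⟨eF u, huF⟩ := rho_bc i j hij hres huF
  have e2 : ∀ a, D'.rho ⟨σ (some a) u, hu (some a)⟩ = D'.rho ⟨eM u, huM⟩ := fun a => (hsame a).2
  rw [e0] at hr
  simp only [e2] at hr
  rw [Finset.prod_const, Finset.card_univ, Fintype.card_fin, r1, r2] at hr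
  -- descent
  have hN1 : e1 (Algebra.norm F1 u) ∈ D.LamRing := mem_of_bc_mem i j hij hres (hval _) hN
  have hac : e1 (a * c ^ (q - 1)) ∈ D.LamRing := by
    rw [map_mul, map_pow]; exact mul_mem ha (pow_mem hc _)
  refine (rho_eq_iff e1 p1 1 (by rw [hp1, mul_one]) one_ne_zero one_mem one_inv _ _ hN1 hac).1 ?_
  rw [← rho_bc i j hij hres hN1]
  have e3 : (⟨coeffMap j (e1 (Algebra.norm F1 u)), bc_mem i j hij hres hN1⟩ : D'.LamRing)
      = ⟨φ (Algebra.norm F1 u), hN⟩ := rfl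
  rw [e3, hr, ← map_pow, ← map_mul]
  congr 1
  exact Subtype.ext (by
    show e1 a * e1 c ^ (q - 1) = e1 (a * c ^ (q - 1))
    rw [map_mul, map_pow])

/-- **[N2]** (and **[N4]**). -/
theorem n2 (q : ℕ) [Fact q.Prime] [CharP k q]
    {F1 F2 : Type*} [Field F1] [Field F2] [Algebra F1 F2] [CharZero F1]
    (hfr : Module.finrank F1 F2 = q)
    (e2 : F1 →+* LaurentSeries K) (eV : F2 →+* LaurentSeries K)
    (hV : ∀ c, eV (algebraMap F1 F2 c) = qExpand K q (e2 c))
    (hval : ∀ x : F2, eV x ∈ D.LamRing ∨ (eV x)⁻¹ ∈ D.LamRing)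
    (θ : F2) (hθ : (eV θ).coeff (-1) ≠ 0) (ζ : R'ˣ) (hζ : IsPrimitiveRoot ζ q)
    (p : F2) (hp : eV p = D.ϖE) (u : F2) (hu : eV u ∈ D.LamRing) :
    DivS (D.LamRing.comap eV) p 1 (algebraMap F1 F2 (Algebra.norm F1 u) - u ^ q) := by
  classical
  have one_mem : (1 : LaurentSeries K) ∈ D.LamRing := one_mem _
  have one_inv : (1 : LaurentSeries K)⁻¹ ∈ D.LamRing := by rw [inv_one]; exact one_mem
  have hθ' : (((coeffMap j).comp eV) θ).coeff (-1) ≠ 0 := by
    show (coeffMap j (eV θ)).coeff (-1) ≠ 0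
    rw [coeffMap_coeff]
    exact fun h => hθ (j.injective (by rw [h, map_zero]))
  obtain ⟨hN, hr⟩ := norm_red_tw' (D := D') q hfr ((coeffMap j).comp e2) ((coeffMap j).comp eV)
    (fun c => by
      show coeffMap j (eV (algebraMap F1 F2 c)) = qExpand K' q (coeffMap j (e2 c))
      rw [hV, coeffMap_qExpand]) θ hθ' ζ hζ u (bc_mem i j hij hres hu)
  have hN1 : eV (algebraMap F1 F2 (Algebra.norm F1 u)) ∈ D.LamRing :=
    mem_of_bc_mem i j hij hres (hval _) hN
  have huq : eV (u ^ q) ∈ D.LamRing := by rw [map_pow]; exact pow_mem hu _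
  refine (rho_eq_iff eV p 1 (by rw [hp, mul_one]) one_ne_zero one_mem one_inv _ _ hN1 huq).1 ?_
  rw [← rho_bc i j hij hres hN1]
  have e3 : (⟨coeffMap j (eV (algebraMap F1 F2 (Algebra.norm F1 u))),
      bc_mem i j hij hres hN1⟩ : D'.LamRing)
      = ⟨((coeffMap j).comp eV) (algebraMap F1 F2 (Algebra.norm F1 u)), hN⟩ := rfl
  rw [e3, hr]
  have e4 : D'.rho ⟨((coeffMap j).comp eV) u, bc_mem i j hij hres hu⟩ = D.rho ⟨eV u, hu⟩ :=
    rho_bc i j hij hres hu
  rw [e4, ← map_pow]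
  congr 1
  exact Subtype.ext (by
    show eV u ^ q = eV (u ^ q)
    rw [map_pow])

end Main

end Fermat.Agent.S36
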