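import Fermat.Agent.S36.NormDiv
import Fermat.Agent.S35.GDV

/-!
# S36, geometry : the four norm congruences of the structure `Lvl1`, abstract form

`D : QData R K k` (unramified base), `D' : QData R' K' k` (the base with `ζ_q`).
All the rings are `Λ.comap e`; the uniformisers enter only through `IsDV`.
-/

set_option autoImplicit false
set_option linter.unusedSectionVars false
set_option linter.style.haveILetI false

noncomputable section

namespace Fermat.Agent.S36

open ModularCurve Polynomial Finset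
open Fermat.Agent.ES Fermat.Agent.ES.QE Fermat.Agent.ES.Model Fermat.Agent.S34 Fermat.Agent.S35
  Fermat.Agent.S35.GNorm

variable {R K k : Type*} [CommRing R] [IsDomain R] [IsNoetherianRing R] [IsIntegrallyClosed R]
  [Field K] [Algebra R K] [IsFractionRing R K] [Field k]

namespace NormLvl

section One

variable {D : QData R K k} {F : Type*} [Field F] (e : F →+* LaurentSeries K)

theorem rho_unif {π : F} (h : IsDV (D.LamRing.comap e) π) : D.rho ⟨e π, h.mem⟩ = 0 := by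
  by_contra h0
  exact h.inv_notMem (by
    show e π⁻¹ ∈ D.LamRing
    rw [map_inv₀]
    exact NormCore.inv_mem_LamRing h.mem h0)

/-- the kernel of the reduction is generated by any uniformiser. -/
theorem rho_eq_zero_iff {π : F} (h : IsDV (D.LamRing.comap e) π) (x : F) (hx : e x ∈ D.LamRing) :
    D.rho ⟨e x, hx⟩ = 0 ↔ DivS (D.LamRing.comap e) π 1 x := by
  constructor
  · intro h0
    rcases h.isU_or (x := x) hx with hu | hd
    · exfalso
      have h1 : (⟨e x, hx⟩ : D.LamRing) * ⟨e x⁻¹, hu.inv_mem⟩ = 1 := Subtype.ext (by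
        show e x * e x⁻¹ = 1
        rw [← map_mul, mul_inv_cancel₀ hu.ne_zero, map_one])
      have h2 := congrArg D.rho h1
      rw [map_mul, h0, zero_mul, map_one] at h2
      exact zero_ne_one h2
    · exact hd
  · rintro ⟨y, hy, rfl⟩
    have h1 : (⟨e (π ^ 1 * y), hx⟩ : D.LamRing) = ⟨e π, h.mem⟩ * ⟨e y, hy⟩ := Subtype.ext (by
      show e (π ^ 1 * y) = e π * e y
      rw [pow_one, map_mul])
    rw [h1, map_mul, rho_unif e h, zero_mul]

theorem rho_eq_iff {π : F} (h : IsDV (D.LamRing.comap e) π) (x y : F) (hx : e x ∈ D.LamRing)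
    (hy : e y ∈ D.LamRing) :
    D.rho ⟨e x, hx⟩ = D.rho ⟨e y, hy⟩ ↔ DivS (D.LamRing.comap e) π 1 (x - y) := by
  have hxy : e (x - y) ∈ D.LamRing := by rw [map_sub]; exact sub_mem hx hy
  rw [← rho_eq_zero_iff e h (x - y) hxy, ← sub_eq_zero, ← map_sub]
  have : (⟨e x, hx⟩ - ⟨e y, hy⟩ : D.LamRing) = ⟨e (x - y), hxy⟩ :=
    Subtype.ext (map_sub e x y).symm
  rw [this]

end One

variable {R' K' : Type*} [CommRing R'] [IsDomain R'] [IsNoetherianRing R']
  [IsIntegrallyClosed R'] [Field K'] [Algebra R' K'] [IsFractionRing R' K']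

/-- `e'` lifts `e`: integrality and the reductions are preserved. -/
def IsLift (D : QData R K k) (D' : QData R' K' k) {F : Type*} [Field F]
    (e : F →+* LaurentSeries K) (e' : F →+* LaurentSeries K') : Prop :=
  ∀ c (hc : e c ∈ D.LamRing), ∃ h : e' c ∈ D'.LamRing, D'.rho ⟨e' c, h⟩ = D.rho ⟨e c, hc⟩

section Lift

variable {D : QData R K k} {D' : QData R' K' k} {F : Type*} [Field F]
  {e : F →+* LaurentSeries K} {e' : F →+* LaurentSeries K'}

theorem isLift_bc (i : R →+* R') (j : K →+* K')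
    (hij : ∀ r, j (algebraMap R K r) = algebraMap R' K' (i r))
    (hres : ∀ r, D'.res (i r) = D.res r) (e : F →+* LaurentSeries K) :
    IsLift D D' e ((coeffMap j).comp e) :=
  fun _ hc => ⟨NormDiv.bc_mem i j hij hres hc, NormDiv.rho_bc i j hij hres hc⟩

theorem IsLift.twist (h : IsLift D D' e e') (ζ : R'ˣ) (hζ : D'.res ζ = 1) :
    IsLift D D' e ((S28.twist (uK ζ)).comp e') := fun c hc => by
  obtain ⟨h1, h2⟩ := h c hc
  exact ⟨twist_mem_LamRing _ hζ h1, (rho_twist _ hζ h1).trans h2⟩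

/-- descent of integrality along a lift. -/
theorem IsLift.mem (h : IsLift D D' e e') {π : F} (dv : IsDV (D.LamRing.comap e) π) {x : F}
    (hx : e' x ∈ D'.LamRing) : e x ∈ D.LamRing := by
  rcases dv.mem_or_inv_mem x with h1 | h1
  · exact h1
  by_cases hx0 : x = 0
  · rw [hx0, map_zero]; exact zero_mem _
  rcases dv.isU_or h1 with hu | hd
  · have := hu.inv_mem
    rwa [inv_inv] at this
  · exfalso
    have h0 := (rho_eq_zero_iff e dv x⁻¹ h1).2 hd
    obtain ⟨h2, h3⟩ := h x⁻¹ h1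
    rw [h0] at h3
    have h4 : (⟨e' x⁻¹, h2⟩ : D'.LamRing) * ⟨e' x, hx⟩ = 1 := Subtype.ext (by
      show e' x⁻¹ * e' x = 1
      rw [← map_mul, inv_mul_cancel₀ hx0, map_one])
    have h5 := congrArg D'.rho h4
    rw [map_mul, h3, zero_mul, map_one] at h5
    exact zero_ne_one h5

end Lift

section Eval

variable {D : QData R K k} {D' : QData R' K' k} {F1 F2 : Type*} [Field F1] [Field F2]

/-- the reduction of a polynomial expression with integral coefficients. -/
theorem rho_eval (ι : F1 →+* F2) (e1 : F1 →+* LaurentSeries K) (φ : F1 →+* LaurentSeries K')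
    (hφ : IsLift D D' e1 φ) (s : F2 →+* LaurentSeries K') (hs : ∀ c, s (ι c) = φ c)
    (z : F2) (hz : s z ∈ D'.LamRing) (P : F1[X]) (hP : ∀ n, e1 (P.coeff n) ∈ D.LamRing) :
    ∃ h : s (eval₂ ι z P) ∈ D'.LamRing, D'.rho ⟨s (eval₂ ι z P), h⟩
      = ∑ n ∈ range (P.natDegree + 1), D.rho ⟨e1 (P.coeff n), hP n⟩ * D'.rho ⟨s z, hz⟩ ^ n := by
  have key : s (eval₂ ι z P) = ((∑ n ∈ range (P.natDegree + 1),
      (⟨φ (P.coeff n), (hφ _ (hP n)).1⟩ : D'.LamRing) * ⟨s z, hz⟩ ^ n : D'.LamRing) :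
        LaurentSeries K') := by
    rw [eval₂_eq_sum_range, map_sum, AddSubmonoidClass.coe_finsetSum]
    refine Finset.sum_congr rfl fun n _ => ?_
    rw [map_mul, map_pow, hs]
    rfl
  have hm : s (eval₂ ι z P) ∈ D'.LamRing := by
    rw [key]
    exact Subtype.property _
  refine ⟨hm, ?_⟩
  have e : (⟨s (eval₂ ι z P), hm⟩ : D'.LamRing) = ∑ n ∈ range (P.natDegree + 1),
      (⟨φ (P.coeff n), (hφ _ (hP n)).1⟩ : D'.LamRing) * ⟨s z, hz⟩ ^ n := Subtype.ext key
  rw [e, map_sum]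
  refine Finset.sum_congr rfl fun n _ => ?_
  rw [map_mul, map_pow, (hφ _ (hP n)).2]

/-- two embeddings over `φ` with the same reduction of `z` have the same reduction on `O₁[z]`. -/
theorem same_of_rep (ι : F1 →+* F2) (e1 : F1 →+* LaurentSeries K) (φ : F1 →+* LaurentSeries K')
    (hφ : IsLift D D' e1 φ) (s s' : F2 →+* LaurentSeries K') (hs : ∀ c, s (ι c) = φ c)
    (hs' : ∀ c, s' (ι c) = φ c) (z : F2) (hz : s z ∈ D'.LamRing)
    (hz' : ∃ h : s' z ∈ D'.LamRing, D'.rho ⟨s' z, h⟩ = D'.rho ⟨s z, hz⟩)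
    (P : F1[X]) (hP : ∀ n, e1 (P.coeff n) ∈ D.LamRing) (hu : s (eval₂ ι z P) ∈ D'.LamRing) :
    ∃ h : s' (eval₂ ι z P) ∈ D'.LamRing,
      D'.rho ⟨s' (eval₂ ι z P), h⟩ = D'.rho ⟨s (eval₂ ι z P), hu⟩ := by
  obtain ⟨h1, h2⟩ := hz'
  obtain ⟨h3, h4⟩ := rho_eval ι e1 φ hφ s hs z hz P hP
  obtain ⟨h5, h6⟩ := rho_eval ι e1 φ hφ s' hs' z h1 P hP
  exact ⟨h5, by rw [h6, h4, h2]⟩

/-- distinctness of the embeddings from the coefficient of `T⁻¹`. -/
theorem inj_of_coeff {X : Type*} (σ : Option X → (F2 →+* LaurentSeries K')) (θ : F2) (c : K')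
    (hc : c ≠ 0) (w : X → K') (hw : Function.Injective w) (hw0 : ∀ a, w a ≠ 0)
    (h0 : (σ none θ).coeff (-1) = 0) (h1 : ∀ a, (σ (some a) θ).coeff (-1) = w a * c) :
    Function.Injective σ := by
  refine NormCore.injective_emb σ θ (-1) ?_
  rintro (_ | a) (_ | b) hab
  · rfl
  · exfalso
    simp only [h0, h1] at hab
    exact mul_ne_zero (hw0 b) hc hab.symm
  · exfalso
    simp only [h0, h1] at hab
    exact mul_ne_zero (hw0 a) hc hab
  · simp only [h1] at hab
    rw [hw (mul_right_cancel₀ hc hab)]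

end Eval

variable {D : QData R K k} {D' : QData R' K' k}

/-- **[N1]/[N3]**, general form. -/
theorem n1_gen (q : ℕ) [Fact q.Prime]
    {F1 F2 : Type*} [Field F1] [Field F2] [Algebra F1 F2] [CharZero F1]
    (hfr : Module.finrank F1 F2 = q)
    (e1 : F1 →+* LaurentSeries K) (eF : F2 →+* LaurentSeries K) (eM : F2 →+* LaurentSeries K')
    {p1 : F1} {p t : F2} (dv1 : IsDV (D.LamRing.comap e1) p1) (dvF : IsDV (D.LamRing.comap eF) p)
    (dvM : IsDV (D'.LamRing.comap eM) t)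
    (hF : ∀ c, eF (algebraMap F1 F2 c) = e1 c)
    (φ : F1 →+* LaurentSeries K') (hφ : IsLift D D' e1 φ)
    (hM : ∀ c, eM (algebraMap F1 F2 c) = φ c)
    (σ : Option (Fin (q - 1)) → (F2 →+* LaurentSeries K'))
    (hσ : ∀ x c, σ x (algebraMap F1 F2 c) = φ c) (hinj : Function.Injective σ)
    (h0 : IsLift D D' eF (σ none))
    (u : F2) (huF : eF u ∈ D.LamRing) (huM : eM u ∈ D'.LamRing)
    (hsame : ∀ a, ∃ h : σ (some a) u ∈ D'.LamRing,
      D'.rho ⟨σ (some a) u, h⟩ = D'.rho ⟨eM u, huM⟩)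
    (a c : F1) (ha : e1 a ∈ D.LamRing) (hc : e1 c ∈ D.LamRing)
    (h1 : DivS (D.LamRing.comap eF) p 1 (u - algebraMap F1 F2 a))
    (h2 : DivS (D'.LamRing.comap eM) t 1 (u - algebraMap F1 F2 c)) :
    DivS (D.LamRing.comap e1) p1 1 (Algebra.norm F1 u - a * c ^ (q - 1)) := by
  classical
  have hq : q.Prime := Fact.out
  have hfd : FiniteDimensional F1 F2 :=
    Module.finite_of_finrank_pos (by rw [hfr]; exact hq.pos)
  have haF : eF (algebraMap F1 F2 a) ∈ D.LamRing := by rw [hF]; exact ha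
  have hcM : eM (algebraMap F1 F2 c) ∈ D'.LamRing := by rw [hM]; exact (hφ c hc).1
  have r1 : D.rho ⟨eF u, huF⟩ = D.rho ⟨e1 a, ha⟩ := by
    rw [(rho_eq_iff eF dvF u (algebraMap F1 F2 a) huF haF).2 h1]
    congr 1
    exact Subtype.ext (hF a)
  have r2 : D'.rho ⟨eM u, huM⟩ = D.rho ⟨e1 c, hc⟩ := by
    rw [(rho_eq_iff eM dvM u (algebraMap F1 F2 c) huM hcM).2 h2, ← (hφ c hc).2]
    congr 1
    exact Subtype.ext (hM c)
  have hcard : Fintype.card (Option (Fin (q - 1))) = Module.finrank F1 F2 := by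
    rw [Fintype.card_option, Fintype.card_fin, hfr]
    have := hq.pos
    omega
  have hu : ∀ x, σ x u ∈ D'.LamRing := by
    rintro (_ | a)
    · exact (h0 u huF).1
    · exact (hsame a).1
  obtain ⟨hN, hr⟩ := norm_red_fam (D := D') φ σ hinj hσ hcard u hu
  rw [Fintype.prod_option] at hr
  have e0 : D'.rho ⟨σ none u, hu none⟩ = D.rho ⟨eF u, huF⟩ := (h0 u huF).2
  have e2 : ∀ a, D'.rho ⟨σ (some a) u, hu (some a)⟩ = D'.rho ⟨eM u, huM⟩ := fun a => (hsame a).2
  rw [e0] at hr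
  simp only [e2] at hr
  rw [Finset.prod_const, Finset.card_univ, Fintype.card_fin, r1, r2] at hr
  have hN1 : e1 (Algebra.norm F1 u) ∈ D.LamRing := hφ.mem dv1 hN
  have hac : e1 (a * c ^ (q - 1)) ∈ D.LamRing := by
    rw [map_mul, map_pow]; exact mul_mem ha (pow_mem hc _)
  refine (rho_eq_iff e1 dv1 _ _ hN1 hac).1 ?_
  rw [← (hφ _ hN1).2, hr, ← map_pow, ← map_mul]
  congr 1
  exact Subtype.ext (by
    show e1 a * e1 c ^ (q - 1) = e1 (a * c ^ (q - 1))
    rw [map_mul, map_pow])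

/-- **[N2]/[N4]**, general form. -/
theorem n2_gen (i : R →+* R') (j : K →+* K')
    (hij : ∀ r, j (algebraMap R K r) = algebraMap R' K' (i r))
    (hres : ∀ r, D'.res (i r) = D.res r) (q : ℕ) [Fact q.Prime] [CharP k q]
    {F1 F2 : Type*} [Field F1] [Field F2] [Algebra F1 F2] [CharZero F1]
    (hfr : Module.finrank F1 F2 = q)
    (e2 : F1 →+* LaurentSeries K) (eV : F2 →+* LaurentSeries K)
    (hV : ∀ c, eV (algebraMap F1 F2 c) = qExpand K q (e2 c))
    {p : F2} (dvV : IsDV (D.LamRing.comap eV) p)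
    (θ : F2) (hθ : (eV θ).coeff (-1) ≠ 0) (ζ : R'ˣ) (hζ : IsPrimitiveRoot ζ q)
    (u : F2) (hu : eV u ∈ D.LamRing) :
    DivS (D.LamRing.comap eV) p 1 (algebraMap F1 F2 (Algebra.norm F1 u) - u ^ q) := by
  classical
  have hL := isLift_bc (D := D) (D' := D') i j hij hres eV
  have hθ' : (((coeffMap j).comp eV) θ).coeff (-1) ≠ 0 := by
    show (coeffMap j (eV θ)).coeff (-1) ≠ 0
    rw [coeffMap_coeff]
    exact fun h => hθ (j.injective (by rw [h, map_zero]))
  obtain ⟨hN, hr⟩ := norm_red_tw' (D := D') q hfr ((coeffMap j).comp e2) ((coeffMap j).comp eV)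
    (fun c => by
      show coeffMap j (eV (algebraMap F1 F2 c)) = qExpand K' q (coeffMap j (e2 c))
      rw [hV, coeffMap_qExpand]) θ hθ' ζ hζ u (hL u hu).1
  have hN1 : eV (algebraMap F1 F2 (Algebra.norm F1 u)) ∈ D.LamRing := hL.mem dvV hN
  have huq : eV (u ^ q) ∈ D.LamRing := by rw [map_pow]; exact pow_mem hu _
  refine (rho_eq_iff eV dvV _ _ hN1 huq).1 ?_
  rw [← (hL _ hN1).2, hr, (hL u hu).2, ← map_pow]
  congr 1
  exact Subtype.ext (by
    show eV u ^ q = eV (u ^ q)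
    rw [map_pow])

end NormLvl

end Fermat.Agent.S36
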