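import Fermat.Agent.S35.GDV

/-!
# S36, geometry, abstract block : ORTH for three valuations

`F1 ⊆ F2` (via `ι`), `O1 O2` the two Gauss rings of `F1` (uniformiser `ϖ1`), `OF OM OV` the three
Gauss rings of `F2`: `OF`, `OM` above `O1` (`e = 1`, resp. `e = q - 1` with uniformiser
`t = z - ι x`), `OV` above `O2` (residue extension purely inseparable of degree `q`).
Then `OF ⊓ OM ⊓ OV = (O1 ⊓ O2)[z]`, with basis `1, z, ..., z ^ (q - 1)`.
-/

set_option autoImplicit false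

namespace Fermat.Agent.S36

open Fermat.Agent.S34 Fermat.Agent.S35 Polynomial

section General

variable {F : Type*} [Field F] {O : Subring F} {ϖ : F}

theorem divS_sum {ι' : Type*} (s : Finset ι') (f : ι' → F) (n : ℕ)
    (h : ∀ i ∈ s, DivS O ϖ n (f i)) : DivS O ϖ n (∑ i ∈ s, f i) := by
  classical
  induction s using Finset.induction_on with
  | empty => rw [Finset.sum_empty]; exact divS_zero n
  | insert a s ha ih =>
    rw [Finset.sum_insert ha]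
    exact (h a (Finset.mem_insert_self a s)).add
      (ih fun i hi => h i (Finset.mem_insert_of_mem hi))

theorem divS_mono (hϖ : ϖ ∈ O) {m n : ℕ} (hmn : m ≤ n) {x : F} (h : DivS O ϖ n x) :
    DivS O ϖ m x := by
  obtain ⟨y, hy, rfl⟩ := h
  obtain ⟨e, rfl⟩ := Nat.exists_eq_add_of_le hmn
  exact ⟨ϖ ^ e * y, O.mul_mem (O.pow_mem hϖ e) hy, by rw [pow_add, mul_assoc]⟩

theorem divS_pow_mul (n : ℕ) {y : F} (hy : y ∈ O) : DivS O ϖ n (ϖ ^ n * y) := ⟨y, hy, rfl⟩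

theorem divS_cancel (hϖ : ϖ ≠ 0) {m n : ℕ} {x : F} (h : DivS O ϖ (m + n) (ϖ ^ m * x)) :
    DivS O ϖ n x := by
  obtain ⟨y, hy, hxy⟩ := h
  refine ⟨y, hy, ?_⟩
  rw [pow_add, mul_assoc] at hxy
  exact mul_left_cancel₀ (pow_ne_zero m hϖ) hxy

/-- a power of `ϖ` clears the denominator. -/
theorem isDV_exists_pow_mul_mem (h : IsDV O ϖ) (c : F) : ∃ N : ℕ, ∀ n, N ≤ n → ϖ ^ n * c ∈ O := by
  by_cases hc : c = 0
  · exact ⟨0, fun n _ => by rw [hc, mul_zero]; exact O.zero_mem⟩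
  obtain ⟨a, ha⟩ := h.exists_zpow hc
  refine ⟨a.toNat, fun n hn => ?_⟩
  have h1 : ϖ ^ n * c = c * ϖ ^ a * ϖ ^ ((n : ℤ) - a) := by
    rw [mul_assoc, ← zpow_add₀ h.ne_zero, add_sub_cancel, zpow_natCast, mul_comm]
  rw [h1]
  exact O.mul_mem ha.mem (h.zpow_mem (by omega))

/-- **scaling** : to prove that the coefficients of `P` are integral it is enough to prove that
an integral multiple `ϖ ^ (k + 1) P` is divisible by `ϖ`. -/
theorem isDV_coeff_mem_of_step (h : IsDV O ϖ) (P : F[X])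
    (step : ∀ k : ℕ, (∀ n, ϖ ^ (k + 1) * P.coeff n ∈ O) →
      ∀ n, DivS O ϖ 1 (ϖ ^ (k + 1) * P.coeff n)) : ∀ n, P.coeff n ∈ O := by
  have key : ∀ k : ℕ, (∀ n, ϖ ^ k * P.coeff n ∈ O) → ∀ n, P.coeff n ∈ O := by
    intro k
    induction k with
    | zero => intro h0 n; simpa using h0 n
    | succ k ih =>
      intro h1
      refine ih fun n => ?_
      obtain ⟨y, hy, hxy⟩ := step k h1 n
      rw [pow_one, pow_succ', mul_assoc] at hxy
      rw [mul_left_cancel₀ h.ne_zero hxy]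
      exact hy
  choose N hN using fun c => isDV_exists_pow_mul_mem h c
  refine key (P.support.sup fun i => N (P.coeff i)) fun n => ?_
  by_cases hn : n ∈ P.support
  · exact hN _ _ (Finset.le_sup (f := fun i => N (P.coeff i)) hn)
  · rw [notMem_support_iff.1 hn, mul_zero]
    exact O.zero_mem

theorem coeff_taylor_mem (S : Subring F) {x : F} (hx : x ∈ S) {P : F[X]}
    (hP : ∀ n, P.coeff n ∈ S) (n : ℕ) : (taylor x P).coeff n ∈ S := by
  rw [taylor_coeff, eval_eq_sum_range]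
  refine S.sum_mem fun i _ => S.mul_mem ?_ (S.pow_mem hx i)
  rw [hasseDeriv_coeff]
  exact S.mul_mem (natCast_mem S _) (hP _)

theorem coeff_mem_of_taylor (S : Subring F) {x : F} (hx : x ∈ S) {P : F[X]}
    (hP : ∀ n, (taylor x P).coeff n ∈ S) (n : ℕ) : P.coeff n ∈ S := by
  have h := coeff_taylor_mem S (S.neg_mem hx) hP n
  rwa [taylor_taylor, neg_add_cancel, taylor_zero] at h

end General

variable {F1 F2 : Type*} [Field F1] [Field F2]

/-- **The abstract situation of ORTH at the level `q²`.** -/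
structure Orth3 (ι : F1 →+* F2) (O1 O2 : Subring F1) (ϖ1 : F1) (OF OM OV : Subring F2)
    (q : ℕ) (x : F1) (z : F2) : Prop where
  dv1 : IsDV O1 ϖ1
  dv2 : IsDV O2 ϖ1
  dvM : IsDV OM (z - ι x)
  hq : 1 ≤ q
  x_mem : x ∈ O1 ⊓ O2
  ram : ∃ w, IsU OM w ∧ (z - ι x) ^ (q - 1) = ι ϖ1 * w
  unitF : IsU OF (z - ι x)
  memF : ∀ a, ι a ∈ OF ↔ a ∈ O1
  memM : ∀ a, ι a ∈ OM ↔ a ∈ O1
  memV : ∀ a, ι a ∈ OV ↔ a ∈ O2
  zV : z ∈ OV
  indepV : ∀ P : F1[X], P.natDegree < q → (∀ n, P.coeff n ∈ O2) →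
    DivS OV (ι ϖ1) 1 (eval₂ ι z P) → ∀ n, DivS O2 ϖ1 1 (P.coeff n)

namespace Orth3

variable {ι : F1 →+* F2} {O1 O2 : Subring F1} {ϖ1 : F1} {OF OM OV : Subring F2}
  {q : ℕ} {x : F1} {z : F2} (H : Orth3 ι O1 O2 ϖ1 OF OM OV q x z)

include H

theorem ϖ_ne : ι ϖ1 ≠ 0 := (map_ne_zero ι).2 H.dv1.ne_zero

theorem divS_M_of {y : F2} (h : DivS OM (ι ϖ1) 1 y) : DivS OM (z - ι x) (q - 1) y := by
  obtain ⟨w, hw, hram⟩ := H.ram
  obtain ⟨y', hy', rfl⟩ := h
  refine ⟨w⁻¹ * y', OM.mul_mem hw.inv_mem hy', ?_⟩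
  rw [hram, pow_one, mul_assoc, ← mul_assoc w, mul_inv_cancel₀ hw.ne_zero, one_mul]

theorem divS_ι_M {a : F1} (h : DivS O1 ϖ1 1 a) : DivS OM (ι ϖ1) 1 (ι a) := by
  obtain ⟨b, hb, rfl⟩ := h
  exact ⟨ι b, (H.memM b).2 hb, by rw [map_mul, map_pow]⟩

theorem divS_ι_F {a : F1} (h : DivS O1 ϖ1 1 a) : DivS OF (ι ϖ1) 1 (ι a) := by
  obtain ⟨b, hb, rfl⟩ := h
  exact ⟨ι b, (H.memF b).2 hb, by rw [map_mul, map_pow]⟩

theorem divS_of_ι_F {a : F1} (h : DivS OF (ι ϖ1) 1 (ι a)) : DivS O1 ϖ1 1 a := by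
  obtain ⟨y, hy, hay⟩ := h
  refine ⟨a / ϖ1, (H.memF _).1 ?_, ?_⟩
  · have : ι (a / ϖ1) = y := by
      rw [map_div₀, hay, pow_one, mul_div_cancel_left₀ _ H.ϖ_ne]
    rw [this]; exact hy
  · rw [pow_one, mul_div_cancel₀ _ H.dv1.ne_zero]

/-- the step on the components above `O1`, in the `t`-basis. -/
theorem step1 (P : F1[X]) (hP : P.natDegree < q) (hc : ∀ n, P.coeff n ∈ O1)
    (hF : DivS OF (ι ϖ1) 1 (eval₂ ι (z - ι x) P)) (hM : DivS OM (ι ϖ1) 1 (eval₂ ι (z - ι x) P)) :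
    ∀ n, DivS O1 ϖ1 1 (P.coeff n) := by
  set t := z - ι x with ht
  have ht0 : t ≠ 0 := H.dvM.ne_zero
  rw [eval₂_eq_sum_range' ι hP] at hF hM
  -- the coefficients of index `< q - 1`
  have low : ∀ i, i < q - 1 → DivS O1 ϖ1 1 (P.coeff i) := by
    intro i
    induction i using Nat.strong_induction_on with
    | _ i ih =>
      intro hi
      have hiq : i ∈ Finset.range q := Finset.mem_range.2 (by omega)
      have h1 : DivS OM t (i + 1) (∑ j ∈ (Finset.range q).erase i, ι (P.coeff j) * t ^ j) := by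
        refine divS_sum _ _ _ fun j hj => ?_
        have hji : j ≠ i := Finset.ne_of_mem_erase hj
        rcases lt_or_gt_of_ne hji with hlt | hgt
        · exact (divS_mono H.dvM.mem (by omega : i + 1 ≤ q - 1)
            (H.divS_M_of (H.divS_ι_M (ih j hlt (by omega))))).mul_right (OM.pow_mem H.dvM.mem j)
        · obtain ⟨e, rfl⟩ := Nat.exists_eq_add_of_le (Nat.succ_le_of_lt hgt)
          refine ⟨t ^ e * ι (P.coeff (i.succ + e)),
            OM.mul_mem (OM.pow_mem H.dvM.mem e) ((H.memM _).2 (hc _)), ?_⟩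
          rw [Nat.succ_eq_add_one, pow_add]
          ring
      have h2 : DivS OM t (i + 1) (ι (P.coeff i) * t ^ i) := by
        have h3 := (divS_mono H.dvM.mem (by omega : i + 1 ≤ q - 1) (H.divS_M_of hM)).sub h1
        rwa [← Finset.add_sum_erase _ _ hiq, add_sub_cancel_right] at h3
      have h4 : DivS OM t 1 (ι (P.coeff i)) := by
        rw [mul_comm] at h2
        exact divS_cancel ht0 h2
      rcases H.dv1.isU_or (hc i) with hu | hd
      · exfalso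
        refine H.dvM.not_divS (x := ι (P.coeff i)) ⟨(map_ne_zero ι).2 hu.ne_zero,
          (H.memM _).2 hu.mem, ?_⟩ h4
        rw [← map_inv₀]
        exact (H.memM _).2 hu.inv_mem
      · exact hd
  intro n
  rcases lt_trichotomy n (q - 1) with hlt | heq | hgt
  · exact low n hlt
  · subst heq
    have hq1 : q - 1 ∈ Finset.range q := Finset.mem_range.2 (by have := H.hq; omega)
    have h1 : DivS OF (ι ϖ1) 1 (∑ j ∈ (Finset.range q).erase (q - 1), ι (P.coeff j) * t ^ j) := by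
      refine divS_sum _ _ _ fun j hj => ?_
      have hji : j ≠ q - 1 := Finset.ne_of_mem_erase hj
      have hjq : j < q := Finset.mem_range.1 (Finset.mem_of_mem_erase hj)
      exact (H.divS_ι_F (low j (by omega))).mul_right (OF.pow_mem H.unitF.mem j)
    have h2 : DivS OF (ι ϖ1) 1 (ι (P.coeff (q - 1)) * t ^ (q - 1)) := by
      have h3 := hF.sub h1
      rwa [← Finset.add_sum_erase _ _ hq1, add_sub_cancel_right] at h3
    have h3 := h2.mul_right ((H.unitF.pow (q - 1)).inv_mem)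
    rw [mul_assoc, mul_inv_cancel₀ (pow_ne_zero _ ht0), mul_one] at h3
    exact H.divS_of_ι_F h3
  · rw [coeff_eq_zero_of_natDegree_lt (by omega)]
    exact divS_zero 1

theorem ϖ_mem_M : ι ϖ1 ∈ OM := (H.memM _).2 H.dv1.mem
theorem ϖ_mem_F : ι ϖ1 ∈ OF := (H.memF _).2 H.dv1.mem
theorem ϖ_mem_V : ι ϖ1 ∈ OV := (H.memV _).2 H.dv2.mem

omit H in
theorem natDegree_C_mul_lt {P : F1[X]} (hP : P.natDegree < q) (c : F1) :
    (C c * P).natDegree < q := lt_of_le_of_lt (natDegree_C_mul_le c P) hP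

/-- integrality of the coefficients at `O1`, in the `t`-basis. -/
theorem coeff_mem_O1_t (P : F1[X]) (hP : P.natDegree < q)
    (hF : eval₂ ι (z - ι x) P ∈ OF) (hM : eval₂ ι (z - ι x) P ∈ OM) : ∀ n, P.coeff n ∈ O1 := by
  refine isDV_coeff_mem_of_step H.dv1 P fun k hk n => ?_
  have h := H.step1 (C (ϖ1 ^ (k + 1)) * P) (natDegree_C_mul_lt hP _)
    (fun n => by rw [coeff_C_mul]; exact hk n) ?_ ?_ n
  · rwa [coeff_C_mul] at h
  · rw [eval₂_mul, eval₂_C, map_pow, pow_succ', mul_assoc]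
    exact ⟨_, OF.mul_mem (OF.pow_mem H.ϖ_mem_F k) hF, by rw [pow_one]⟩
  · rw [eval₂_mul, eval₂_C, map_pow, pow_succ', mul_assoc]
    exact ⟨_, OM.mul_mem (OM.pow_mem H.ϖ_mem_M k) hM, by rw [pow_one]⟩

omit H in
theorem eval₂_taylor (P : F1[X]) : eval₂ ι (z - ι x) (taylor x P) = eval₂ ι z P := by
  rw [taylor_apply, eval₂_comp, eval₂_add, eval₂_X, eval₂_C, sub_add_cancel]

/-- integrality of the coefficients at `O1`. -/
theorem coeff_mem_O1 (P : F1[X]) (hP : P.natDegree < q)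
    (hF : eval₂ ι z P ∈ OF) (hM : eval₂ ι z P ∈ OM) : ∀ n, P.coeff n ∈ O1 := by
  refine coeff_mem_of_taylor O1 H.x_mem.1 (H.coeff_mem_O1_t (taylor x P) ?_ ?_ ?_)
  · rwa [natDegree_taylor]
  · rwa [eval₂_taylor]
  · rwa [eval₂_taylor]

/-- integrality of the coefficients at `O2`. -/
theorem coeff_mem_O2 (P : F1[X]) (hP : P.natDegree < q) (hV : eval₂ ι z P ∈ OV) :
    ∀ n, P.coeff n ∈ O2 := by
  refine isDV_coeff_mem_of_step H.dv2 P fun k hk n => ?_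
  have h := H.indepV (C (ϖ1 ^ (k + 1)) * P) (natDegree_C_mul_lt hP _)
    (fun n => by rw [coeff_C_mul]; exact hk n) ?_ n
  · rwa [coeff_C_mul] at h
  · rw [eval₂_mul, eval₂_C, map_pow, pow_succ', mul_assoc]
    exact ⟨_, OV.mul_mem (OV.pow_mem H.ϖ_mem_V k) hV, by rw [pow_one]⟩

theorem z_mem : z ∈ OF ⊓ OM ⊓ OV := by
  have h : z = (z - ι x) + ι x := by ring
  refine ⟨⟨?_, ?_⟩, H.zV⟩
  · rw [h]; exact OF.add_mem H.unitF.mem ((H.memF _).2 H.x_mem.1)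
  · rw [h]; exact OM.add_mem H.dvM.mem ((H.memM _).2 H.x_mem.1)

/-- **ORTH** : `OF ⊓ OM ⊓ OV = ⊕_{i < q} (O1 ⊓ O2) z ^ i`. -/
theorem mem_iff (P : F1[X]) (hP : P.natDegree < q) :
    eval₂ ι z P ∈ OF ⊓ OM ⊓ OV ↔ ∀ n, P.coeff n ∈ O1 ⊓ O2 := by
  constructor
  · rintro ⟨⟨hF, hM⟩, hV⟩ n
    exact ⟨H.coeff_mem_O1 P hP hF hM n, H.coeff_mem_O2 P hP hV n⟩
  · intro h
    rw [eval₂_eq_sum_range]
    refine Subring.sum_mem _ fun i _ => Subring.mul_mem _ ?_ (Subring.pow_mem _ H.z_mem i)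
    exact ⟨⟨(H.memF _).2 (h i).1, (H.memM _).2 (h i).1⟩, (H.memV _).2 (h i).2⟩

/-- **ORTH**, divisibility by `ϖ ^ n`. -/
theorem divS_iff (n : ℕ) (P : F1[X]) (hP : P.natDegree < q) :
    DivS (OF ⊓ OM ⊓ OV) (ι ϖ1) n (eval₂ ι z P) ↔ ∀ i, DivS (O1 ⊓ O2) ϖ1 n (P.coeff i) := by
  have h0 : ϖ1 ^ n ≠ 0 := pow_ne_zero n H.dv1.ne_zero
  have key := H.mem_iff (C (ϖ1 ^ n)⁻¹ * P) (natDegree_C_mul_lt hP _)
  rw [eval₂_mul, eval₂_C, map_inv₀, map_pow] at key
  constructor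
  · rintro ⟨y, hy, hxy⟩ i
    have h1 := key.1 (by
      rw [hxy, ← mul_assoc, inv_mul_cancel₀ (pow_ne_zero n H.ϖ_ne), one_mul]; exact hy) i
    rw [coeff_C_mul] at h1
    exact ⟨_, h1, by rw [← mul_assoc, mul_inv_cancel₀ h0, one_mul]⟩
  · intro h
    refine ⟨_, key.2 fun i => ?_, by
      rw [← mul_assoc, mul_inv_cancel₀ (pow_ne_zero n H.ϖ_ne), one_mul]⟩
    obtain ⟨y, hy, hxy⟩ := h i
    rw [coeff_C_mul, hxy, ← mul_assoc, inv_mul_cancel₀ h0, one_mul]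
    exact hy

end Orth3

end Fermat.Agent.S36
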