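import Mathlib

/-!
# S36, block G-REG : the residue fields of the closed points of the special fibre are perfect
-/

set_option autoImplicit false
set_option linter.style.haveILetI false

namespace Fermat.Agent.S36.Perf

open Polynomial

section Field

variable {F κ R : Type*} [Field F] [Field κ] [Algebra F κ] [CommRing R]

theorem hom_eq_eval₂ (g : R[X] →+* κ) (P : R[X]) : g P = eval₂ (g.comp C) (g X) P := by
  have h := hom_eval₂ P (C : R →+* R[X]) g X
  rwa [eval₂_C_X] at h

/-- a field which is integral over `R[X]`, the image of `R` being algebraic over `F`, is algebraic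
over `F`. -/
theorem isAlgebraic_of_integral (g : R[X] →+* κ) (hg : g.IsIntegral)
    (hC : ∀ r, IsIntegral F (g (C r))) : Algebra.IsAlgebraic F κ := by
  set L := algebraicClosure F κ with hL
  have hCL : ∀ r, (g.comp C) r ∈ L := fun r => hC r
  let φL : R →+* L := (g.comp C).codRestrict L hCL
  have hφL : (algebraMap L κ).comp φL = g.comp C := by
    ext r
    rfl
  have hmemL : ∀ a : κ, IsAlgebraic L a → a ∈ L := by
    intro a ha
    exact mem_algebraicClosure_iff.2 (ha.restrictScalars F)
  -- `x̄` is algebraic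
  have hx : g X ∈ L := by
    by_cases h0 : g X = 0
    · rw [h0]; exact zero_mem _
    let W : Subring κ := g.range
    have hint : Algebra.IsIntegral W κ := by
      refine ⟨fun a => ?_⟩
      obtain ⟨p, hp, hpa⟩ := hg a
      refine ⟨p.map g.rangeRestrict, hp.map _, ?_⟩
      rw [eval₂_map]
      exact hpa
    have hW : IsField W :=
      isField_of_isIntegral_of_isField (S := κ) Subtype.val_injective (Field.toIsField κ)
    have hxW : (⟨g X, X, rfl⟩ : W) ≠ 0 := fun h => h0 (congrArg Subtype.val h)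
    obtain ⟨⟨w, P0, rfl⟩, hw⟩ := hW.mul_inv_cancel hxW
    have hw' : g X * g P0 = 1 := congrArg Subtype.val hw
    have hG : g (X * P0 - 1) = 0 := by rw [map_sub, map_mul, map_one, hw', sub_self]
    apply hmemL
    refine ⟨(X * P0 - 1).map φL, ?_, ?_⟩
    · intro h
      have h1 := congrArg (fun p => coeff p 0) h
      simp only [coeff_map, coeff_sub, coeff_X_mul_zero, coeff_one_zero, zero_sub, coeff_zero,
        map_neg, map_one] at h1
      exact one_ne_zero (neg_eq_zero.1 h1)
    · rw [aeval_def, eval₂_map, hφL, ← hom_eq_eval₂, hG]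
  have hgL : ∀ P, g P ∈ L := by
    intro P
    rw [hom_eq_eval₂, eval₂_eq_sum_range]
    exact sum_mem fun i _ => mul_mem (hCL _) (pow_mem hx _)
  let gL : R[X] →+* L := g.codRestrict L hgL
  refine ⟨fun a => ?_⟩
  obtain ⟨p, hp, hpa⟩ := hg a
  have h1 : IsIntegral L a := by
    refine ⟨p.map gL, hp.map _, ?_⟩
    rw [eval₂_map]
    exact hpa
  exact h1.isAlgebraic.restrictScalars F

end Field

/-- **[PERF]** : the residue field of a closed point of the special fibre is perfect. -/
theorem perfect_quot {R A0 k : Type*} [CommRing R] [CommRing A0] [Field k] (q : ℕ)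
    [hq : Fact q.Prime] [CharP k q] (res : R →+* k)
    (hres : ∀ r, res r = 0 ∨ ∃ n : ℕ, n ≠ 0 ∧ res r ^ n = 1)
    (ψ : R[X] →+* A0) (hint : ψ.IsIntegral) (n : Ideal A0) [hn : n.IsMaximal]
    (hker : ∀ r, res r = 0 → ψ (C r) ∈ n) : ∀ a : A0, ∃ b : A0, b ^ q - a ∈ n := by
  letI : Field (A0 ⧸ n) := Ideal.Quotient.field n
  have hq0 : ((q : ℕ) : A0 ⧸ n) = 0 := by
    have h1 : res (q : R) = 0 := by rw [map_natCast]; exact CharP.cast_eq_zero k q
    have h2 := hker _ h1
    rw [map_natCast, map_natCast] at h2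
    have h3 := Ideal.Quotient.eq_zero_iff_mem.2 h2
    rwa [map_natCast] at h3
  haveI : CharP (A0 ⧸ n) q := (CharP.charP_iff_prime_eq_zero hq.out).2 hq0
  letI : Algebra (ZMod q) (A0 ⧸ n) := ZMod.algebra _ q
  let g : R[X] →+* A0 ⧸ n := (Ideal.Quotient.mk n).comp ψ
  have hg : g.IsIntegral :=
    hint.trans _ _ (RingHom.isIntegral_of_surjective _ Ideal.Quotient.mk_surjective)
  have hC : ∀ r, IsIntegral (ZMod q) (g (C r)) := by
    intro r
    rcases hres r with h | ⟨m, hm, h⟩
    · have : g (C r) = 0 := Ideal.Quotient.eq_zero_iff_mem.2 (hker r h)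
      rw [this]
      exact isIntegral_zero
    · have h1 : res (r ^ m - 1) = 0 := by rw [map_sub, map_pow, h, map_one, sub_self]
      have h2 : g (C (r ^ m - 1)) = 0 := Ideal.Quotient.eq_zero_iff_mem.2 (hker _ h1)
      rw [map_sub, map_sub, map_pow, map_pow, map_one, map_one, sub_eq_zero] at h2
      refine IsIntegral.of_pow (Nat.pos_of_ne_zero hm) ?_
      rw [h2]
      exact isIntegral_one
  haveI := isAlgebraic_of_integral (F := ZMod q) g hg hC
  haveI : PerfectField (A0 ⧸ n) := Algebra.IsAlgebraic.perfectField (ZMod q)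
  intro a
  obtain ⟨b, hb⟩ := surjective_frobenius (A0 ⧸ n) q (Ideal.Quotient.mk n a)
  obtain ⟨b, rfl⟩ := Ideal.Quotient.mk_surjective b
  refine ⟨b, ?_⟩
  rw [← Ideal.Quotient.eq_zero_iff_mem, map_sub, map_pow, sub_eq_zero]
  exact hb

end Fermat.Agent.S36.Perf
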