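import Fermat.Agent.S36.GDefs
import Fermat.Agent.S35.GDV

/-!
# S36, block G-REG, abstract part

* `Thick1` : thickness one at a node of level `M₀ q` : `a b = ϖ s`, `a ∈ p1`, `b ∈ p2`, `s ∉ n`;
* `locPrinc_of_thick` : `regN` of `Chart3` from thickness one (applied to `β a`, `β b`, `β s`);
* `locPrinc_mid` : `regC` of `Chart3`;
* `thick1_of_gamma` : thickness one from a function `γ` with divisor `2 C₂` near the node whose
  reduction on `C₁` has no simple zero;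
* `no_simple_zero` : the reduction of `γ = q / D y` has no simple zero.
-/

set_option autoImplicit false

namespace Fermat.Agent.S36

open Fermat.Agent.S34 Fermat.Agent.S35

variable {F : Type*} [Field F]

/-- thickness one at `n`. -/
def Thick1 (ϖ : F) (B : Subring F) (p1 p2 n : Ideal B) : Prop :=
  ∃ a b s : B, a ∈ p1 ∧ b ∈ p2 ∧ s ∉ n ∧ (a : F) * b = ϖ * s

/-- **[RA1]** `regN`. -/
theorem locPrinc_of_thick {OA OC OB : Subring F} {ϖ : F} {m : ℕ} {B : Subring F} {pA : Ideal B}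
    (hch : IsChartS (OA ⊓ OC ⊓ OB) ϖ m B) (hϖ : ϖ ≠ 0)
    (memA : ∀ b : B, b ∈ pA ↔ DivS OA ϖ 1 (b : F))
    (n : Ideal B) (a b s : B) (haA : DivS OA ϖ 1 (a : F)) (hbC : DivS OC ϖ 1 (b : F))
    (hbB : DivS OB ϖ 1 (b : F)) (hs : s ∉ n) (hab : (a : F) * b = ϖ * s) :
    LocPrinc n pA a := by
  refine ⟨(memA a).2 haA, fun x hx => ⟨s, hs, ?_⟩⟩
  obtain ⟨y, hy, hxy⟩ := (memA x).1 hx
  obtain ⟨bC, hbC, hbC'⟩ := hbC
  obtain ⟨bB, hbB, hbB'⟩ := hbB
  rw [pow_one] at hxy hbC' hbB'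
  have hxO := hch.le x x.2
  have hbO := hch.le b b.2
  have hd : DivS (OA ⊓ OC ⊓ OB) ϖ 1 ((x * b : B) : F) := by
    refine ⟨y * b, ⟨⟨OA.mul_mem hy hbO.1.1, ?_⟩, ?_⟩, ?_⟩
    · have : y * (b : F) = x * bC := by
        apply mul_left_cancel₀ hϖ
        rw [← mul_assoc, ← hxy, hbC']; ring
      rw [this]; exact OC.mul_mem hxO.1.2 hbC
    · have : y * (b : F) = x * bB := by
        apply mul_left_cancel₀ hϖ
        rw [← mul_assoc, ← hxy, hbB']; ring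
      rw [this]; exact OB.mul_mem hxO.2 hbB
    · rw [pow_one, Subring.coe_mul, hxy]; ring
  obtain ⟨c, hc, hxc⟩ := hch.sat _ (x * b : B).2 hd
  refine ⟨⟨c, hc⟩, Subtype.ext ?_⟩
  rw [Subring.coe_mul, Subring.coe_mul]
  rw [Subring.coe_mul] at hxc
  apply mul_left_cancel₀ hϖ
  calc ϖ * ((s : F) * x) = (ϖ * s) * x := by ring
    _ = (a : F) * b * x := by rw [hab]
    _ = (x * b) * a := by ring
    _ = ϖ * c * a := by rw [hxc]
    _ = ϖ * (c * a) := by ring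

/-- **[RA4]** `regC`. -/
theorem locPrinc_mid {OA OC OB : Subring F} {ϖ tC : F} {m : ℕ} {B : Subring F} {pC : Ideal B}
    (hch : IsChartS (OA ⊓ OC ⊓ OB) ϖ m B) (hϖ : ϖ ≠ 0)
    (memC : ∀ b : B, b ∈ pC ↔ DivS OC tC 1 (b : F)) (k : ℕ)
    (hram : (tC ^ (k + 1) / ϖ) ∈ OC)
    (n : Ideal B) (t e c1 : B) (ht : t ∈ pC) (heA : DivS OA ϖ 1 (e : F)) (heB : DivS OB ϖ 1 (e : F))
    (hc1 : c1 ∉ n) (het : (e : F) * t ^ (k + 1) = ϖ * c1) :
    LocPrinc n pC t := by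
  refine ⟨ht, fun x hx => ⟨c1, hc1, ?_⟩⟩
  obtain ⟨y, hy, hxy⟩ := (memC x).1 hx
  obtain ⟨t', ht', htt⟩ := (memC t).1 ht
  obtain ⟨eA, heA, heA'⟩ := heA
  obtain ⟨eB, heB, heB'⟩ := heB
  rw [pow_one] at hxy htt heA' heB'
  have hxO := hch.le x x.2
  have htO := hch.le t t.2
  have heO := hch.le e e.2
  have hd : DivS (OA ⊓ OC ⊓ OB) ϖ 1 ((e * x * t ^ k : B) : F) := by
    refine ⟨(e : F) * x * t ^ k / ϖ, ⟨⟨?_, ?_⟩, ?_⟩, ?_⟩
    · have : (e : F) * x * t ^ k / ϖ = eA * x * t ^ k := by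
        rw [heA']; field_simp
      rw [this]; exact OA.mul_mem (OA.mul_mem heA hxO.1.1) (OA.pow_mem htO.1.1 k)
    · have : (e : F) * x * t ^ k / ϖ = e * y * t' ^ k * (tC ^ (k + 1) / ϖ) := by
        rw [hxy, htt]; field_simp; ring
      rw [this]
      exact OC.mul_mem (OC.mul_mem (OC.mul_mem heO.1.2 hy) (OC.pow_mem ht' k)) hram
    · have : (e : F) * x * t ^ k / ϖ = eB * x * t ^ k := by
        rw [heB']; field_simp
      rw [this]; exact OB.mul_mem (OB.mul_mem heB hxO.2) (OB.pow_mem htO.2 k)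
    · rw [pow_one, Subring.coe_mul, Subring.coe_mul, Subring.coe_pow]; field_simp
  obtain ⟨c, hc, hxc⟩ := hch.sat _ (e * x * t ^ k : B).2 hd
  refine ⟨⟨c, hc⟩, Subtype.ext ?_⟩
  rw [Subring.coe_mul, Subring.coe_mul]
  rw [Subring.coe_mul, Subring.coe_mul, Subring.coe_pow] at hxc
  apply mul_left_cancel₀ hϖ
  calc ϖ * ((c1 : F) * x) = (ϖ * c1) * x := by ring
    _ = (e : F) * t ^ (k + 1) * x := by rw [het]
    _ = (e * x * t ^ k) * t := by ring
    _ = ϖ * c * t := by rw [hxc]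
    _ = ϖ * (c * t) := by ring


/-! ### saturation and tubes -/

theorem sat_pow {O : Subring F} {ϖ : F} {m : ℕ} {B : Subring F} (hch : IsChartS O ϖ m B)
    (hϖ : ϖ ≠ 0) (k : ℕ) : ∀ x ∈ B, DivS O ϖ k x → ∃ y ∈ B, x = ϖ ^ k * y := by
  induction k with
  | zero => intro x hx _; exact ⟨x, hx, by rw [pow_zero, one_mul]⟩
  | succ k ih =>
    rintro x hx ⟨z, hz, rfl⟩
    obtain ⟨y, hy, hxy⟩ := hch.sat _ hx
      ⟨ϖ ^ k * z, O.mul_mem (O.pow_mem (hch.le _ hch.unif_mem) k) hz, by rw [pow_one]; ring⟩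
    have hyz : y = ϖ ^ k * z := by
      apply mul_left_cancel₀ hϖ
      rw [← hxy]; ring
    obtain ⟨y', hy', hyy⟩ := ih y hy ⟨z, hz, hyz⟩
    exact ⟨y', hy', by rw [hxy, hyy]; ring⟩

theorem mem_of_tube {O : Subring F} {ϖ : F} {m : ℕ} {B : Subring F} (hch : IsChartS O ϖ m B)
    (hϖ : ϖ ≠ 0) (n : Ideal B) (x : B) (f : F) (hf : (x : F) * f ∈ O)
    (hT : InTube (⟨ϖ, hch.unif_mem⟩ : B) n f) :
    ∃ s c : B, s ∉ n ∧ (s : F) * ((x : F) * f) = c := by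
  obtain ⟨s, hs, k, b, h⟩ := hT
  have h' : ((s * (⟨ϖ, hch.unif_mem⟩ : B) ^ k : B) : F) * f = (b : F) := h
  rw [Subring.coe_mul, Subring.coe_pow] at h'
  have h'' : (s : F) * ϖ ^ k * f = b := h'
  obtain ⟨y, hy, hxy⟩ := sat_pow hch hϖ k ((x * b : B) : F) (x * b : B).2
    ⟨(s : F) * ((x : F) * f), O.mul_mem (hch.le _ s.2) hf, by
      rw [Subring.coe_mul, ← h'']; ring⟩
  refine ⟨s, ⟨y, hy⟩, hs, ?_⟩
  apply mul_left_cancel₀ (pow_ne_zero k hϖ)
  rw [← hxy, Subring.coe_mul, ← h'']; ring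

/-- **[RA2]** thickness one from a function `γ` with divisor `2 C₂` near the node. -/
theorem thick1_of_gamma {O1 O2 : Subring F} {ϖ : F} {m : ℕ} {B : Subring F} {p1 p2 : Ideal B}
    (h : Chart2 O1 O2 ϖ m B p1 p2) (hϖ : ϖ ≠ 0) [hp1 : p1.IsPrime]
    (n : Ideal B) [hn : n.IsPrime] (hp2n : p2 ≤ n)
    (b : B) (hb2 : b ∈ p2) (hb1 : b ∉ p1) (hb : LocGen n p1 b)
    (γ : F) (hγ1 : IsU O1 γ) (hγ2 : IsU O2 (γ / ϖ ^ 2))
    (hT : InTube (⟨ϖ, h.chart.unif_mem⟩ : B) n γ)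
    (hT' : InTube (⟨ϖ, h.chart.unif_mem⟩ : B) n γ⁻¹)
    (hns : ¬ ∃ s γ' : B, s ∉ n ∧ (γ' : F) = s * γ ∧ LocGen n p1 γ') :
    Thick1 ϖ B p1 p2 n := by
  have hγ0 : γ ≠ 0 := hγ1.1
  obtain ⟨yb, hyb, hbyb⟩ := (h.mem2 b).1 hb2
  rw [pow_one] at hbyb
  have hbO := h.chart.le b b.2
  have hϖO := h.chart.le ϖ h.chart.unif_mem
  -- step 1
  obtain ⟨s1, c, hs1, hc⟩ := mem_of_tube h.chart hϖ n (b * b) γ⁻¹ (by
    refine ⟨?_, ?_⟩
    · rw [Subring.coe_mul]; exact O1.mul_mem (O1.mul_mem hbO.1 hbO.1) hγ1.inv_mem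
    · have : ((b * b : B) : F) * γ⁻¹ = yb * yb * (γ / ϖ ^ 2)⁻¹ := by
        rw [Subring.coe_mul, hbyb]; field_simp
      rw [this]; exact O2.mul_mem (O2.mul_mem hyb hyb) hγ2.inv_mem) hT'
  -- step 2
  have hγO2 : γ = ϖ * (ϖ * (γ / ϖ ^ 2)) := by field_simp
  obtain ⟨s2, γ', hs2, hγ'⟩ := mem_of_tube h.chart hϖ n 1 γ (by
    rw [Subring.coe_one, one_mul]
    refine ⟨hγ1.mem, ?_⟩
    rw [hγO2]; exact O2.mul_mem hϖO.2 (O2.mul_mem hϖO.2 hγ2.mem)) hT
  rw [Subring.coe_one, one_mul] at hγ'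
  rw [Subring.coe_mul] at hc
  have hrel : c * γ' = s1 * s2 * b * b := by
    apply Subtype.ext
    simp only [Subring.coe_mul]
    rw [← hc, ← hγ']; field_simp
  by_cases hcn : c ∈ n
  · exfalso
    apply hns
    refine ⟨s2, γ', hs2, hγ'.symm, ?_, ?_⟩
    · apply hp2n
      rw [h.mem2]
      refine ⟨(s2 : F) * (ϖ * (γ / ϖ ^ 2)), O2.mul_mem (h.chart.le _ s2.2).2
        (O2.mul_mem hϖO.2 hγ2.mem), ?_⟩
      rw [pow_one, ← hγ']
      conv_lhs => rw [hγO2]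
      ring
    · obtain ⟨s4, hs4, c4, h4⟩ := hb.2 c hcn
      have key : c4 * γ' - s4 * s1 * s2 * b ∈ p1 := by
        have : b * (c4 * γ' - s4 * s1 * s2 * b) ∈ p1 := by
          have e : b * (c4 * γ' - s4 * s1 * s2 * b) = -((s4 * c - c4 * b) * γ') := by
            have : s4 * c * γ' = s4 * (s1 * s2 * b * b) := by rw [mul_assoc, hrel]
            linear_combination this
          rw [e]
          exact p1.neg_mem (p1.mul_mem_right _ h4)
        exact (hp1.mem_or_mem this).resolve_left hb1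
      intro b' hb'
      obtain ⟨s, hs, c', h'⟩ := hb.2 b' hb'
      refine ⟨s4 * s1 * s2 * s, ?_, c' * c4, ?_⟩
      · intro hmem
        rcases hn.mem_or_mem hmem with h5 | h5
        · rcases hn.mem_or_mem h5 with h6 | h6
          · rcases hn.mem_or_mem h6 with h7 | h7
            · exact hs4 h7
            · exact hs1 h7
          · exact hs2 h6
        · exact hs h5
      · have e : s4 * s1 * s2 * s * b' - c' * c4 * γ'
            = s4 * s1 * s2 * (s * b' - c' * b) - c' * (c4 * γ' - s4 * s1 * s2 * b) := by ring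
        rw [e]
        exact p1.sub_mem (p1.mul_mem_left _ h') (p1.mul_mem_left _ key)
  · obtain ⟨s3, a, hs3, ha⟩ := mem_of_tube h.chart hϖ n (⟨ϖ, h.chart.unif_mem⟩ * b) γ⁻¹ (by
      rw [Subring.coe_mul]
      refine ⟨O1.mul_mem (O1.mul_mem hϖO.1 hbO.1) hγ1.inv_mem, ?_⟩
      have : ϖ * (b : F) * γ⁻¹ = yb * (γ / ϖ ^ 2)⁻¹ := by
        rw [hbyb]; field_simp
      show ϖ * (b : F) * γ⁻¹ ∈ O2
      rw [this]; exact O2.mul_mem hyb hγ2.inv_mem) hT'
    rw [Subring.coe_mul] at ha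
    have ha' : (s3 : F) * (ϖ * (b : F) * γ⁻¹) = a := ha
    refine ⟨s1 * a, b, s3 * c, p1.mul_mem_left _ ?_, hb2, ?_, ?_⟩
    · rw [h.mem1]
      refine ⟨(s3 : F) * (b * γ⁻¹), O1.mul_mem (h.chart.le _ s3.2).1
        (O1.mul_mem hbO.1 hγ1.inv_mem), ?_⟩
      rw [pow_one, ← ha']; ring
    · intro hmem
      rcases hn.mem_or_mem hmem with h5 | h5
      · exact hs3 h5
      · exact hcn h5
    · rw [Subring.coe_mul, Subring.coe_mul, ← ha', ← hc]; ring


/-! ### functions on `C₁` which are regular at `n` -/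

/-- the reduction of `u` on the first component is regular at `n`. -/
def RegAt (O1 : Subring F) (ϖ : F) (B : Subring F) (n : Ideal B) (u : F) : Prop :=
  ∃ s c : B, s ∉ n ∧ DivS O1 ϖ 1 ((s : F) * u - c)

section RegAt

variable {O1 : Subring F} {ϖ : F} {B : Subring F} {n : Ideal B}

theorem regAt_coe [hn : n.IsPrime] (c : B) : RegAt O1 ϖ B n (c : F) :=
  ⟨1, c, fun h => hn.ne_top ((Ideal.eq_top_iff_one n).2 h), by
    rw [Subring.coe_one, one_mul, sub_self]; exact divS_zero 1⟩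

theorem RegAt.add [hn : n.IsPrime] (hle : ∀ x ∈ B, x ∈ O1) {u v : F}
    (hu : RegAt O1 ϖ B n u) (hv : RegAt O1 ϖ B n v) : RegAt O1 ϖ B n (u + v) := by
  obtain ⟨s, c, hs, h⟩ := hu
  obtain ⟨s', c', hs', h'⟩ := hv
  refine ⟨s * s', s' * c + s * c', fun hm => (hn.mem_or_mem hm).elim hs hs', ?_⟩
  have := (h.mul_left (hle _ s'.2)).add (h'.mul_left (hle _ s.2))
  convert this using 1
  simp only [Subring.coe_mul, Subring.coe_add]; ring

theorem RegAt.neg {u : F} (hu : RegAt O1 ϖ B n u) : RegAt O1 ϖ B n (-u) := by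
  obtain ⟨s, c, hs, h⟩ := hu
  refine ⟨s, -c, hs, ?_⟩
  convert h.neg using 1
  simp only [Subring.coe_neg]; ring

theorem RegAt.sub [hn : n.IsPrime] (hle : ∀ x ∈ B, x ∈ O1) {u v : F}
    (hu : RegAt O1 ϖ B n u) (hv : RegAt O1 ϖ B n v) : RegAt O1 ϖ B n (u - v) := by
  rw [sub_eq_add_neg]; exact hu.add hle hv.neg

theorem RegAt.mul [hn : n.IsPrime] (hle : ∀ x ∈ B, x ∈ O1) {u v : F} (hvO : v ∈ O1)
    (hu : RegAt O1 ϖ B n u) (hv : RegAt O1 ϖ B n v) : RegAt O1 ϖ B n (u * v) := by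
  obtain ⟨s, c, hs, h⟩ := hu
  obtain ⟨s', c', hs', h'⟩ := hv
  refine ⟨s * s', c * c', fun hm => (hn.mem_or_mem hm).elim hs hs', ?_⟩
  have := (h.mul_right (O1.mul_mem (hle _ s'.2) hvO)).add (h'.mul_left (hle _ c.2))
  convert this using 1
  simp only [Subring.coe_mul]; ring

theorem RegAt.of_smul [hn : n.IsPrime] {u : F} (s0 : B) (hs0 : s0 ∉ n)
    (hu : RegAt O1 ϖ B n ((s0 : F) * u)) : RegAt O1 ϖ B n u := by
  obtain ⟨s, c, hs, h⟩ := hu
  refine ⟨s * s0, c, fun hm => (hn.mem_or_mem hm).elim hs hs0, ?_⟩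
  convert h using 1
  simp only [Subring.coe_mul]; ring

theorem RegAt.congr (hle : ∀ x ∈ B, x ∈ O1) {u v : F} (huv : DivS O1 ϖ 1 (u - v))
    (hu : RegAt O1 ϖ B n u) : RegAt O1 ϖ B n v := by
  obtain ⟨s, c, hs, h⟩ := hu
  refine ⟨s, c, hs, ?_⟩
  convert h.sub (huv.mul_left (hle _ s.2)) using 1
  ring

end RegAt

theorem divS_derivation {O1 : Subring F} {ϖ : F} (D : Derivation ℤ F F)
    (hD1 : ∀ u ∈ O1, D u ∈ O1) (hDϖ : D ϖ = 0) {u : F} (hu : DivS O1 ϖ 1 u) :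
    DivS O1 ϖ 1 (D u) := by
  obtain ⟨z, hz, rfl⟩ := hu
  refine ⟨D z, hD1 z hz, ?_⟩
  rw [pow_one, D.leibniz, hDϖ, smul_zero, add_zero, smul_eq_mul]

/-- **[RA3]** the reduction of `γ = q / D y` on `C₁` has no simple zero at `n`. -/
theorem no_simple_zero {O1 : Subring F} {ϖ : F} {B : Subring F} {p1 p2 : Ideal B}
    (h1 : IsDV O1 ϖ) (n : Ideal B) [hn : n.IsPrime] (hp1n : p1 ≤ n)
    (hle : ∀ x ∈ B, x ∈ O1)
    (mem1 : ∀ b : B, b ∈ p1 ↔ DivS O1 ϖ 1 (b : F))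
    (hsat : ∀ a b : B, a ∈ p1 → b ∈ p2 → ∃ c : B, (a : F) * b = ϖ * c)
    (D : Derivation ℤ F F) (hD1 : ∀ u ∈ O1, D u ∈ O1) (hDϖ : D ϖ = 0)
    (hReg : ∀ c : B, RegAt O1 ϖ B n (D (c : F)))
    (q : ℕ) (hq : (q : F) = ϖ)
    (x1 y c0 : B) (hx1 : D (x1 : F) = 1) (hc0 : D (c0 : F) = 0) (hgen : LocGen n p1 (x1 - c0))
    (hy : y - x1 ^ q ∈ p1)
    (b : B) (hb2 : b ∈ p2) (hb : LocGen n p1 b)
    (γ : F) (hγ : γ * D (y : F) = ϖ) :
    ¬ ∃ s γ' : B, s ∉ n ∧ (γ' : F) = s * γ ∧ LocGen n p1 γ' := by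
  rintro ⟨s, γ', hs, hγ', hloc⟩
  have hϖ : ϖ ≠ 0 := h1.ne_zero
  have hp1 : ∀ {u v : B}, u * v ∈ p1 → u ∉ n → v ∈ n := fun {u v} huv hu =>
    (hn.mem_or_mem (hp1n huv)).resolve_left hu
  -- `H`
  obtain ⟨H, hH, haH⟩ := (mem1 _).1 hy
  rw [pow_one, AddSubgroupClass.coe_sub, Subring.coe_pow] at haH
  obtain ⟨c, hc⟩ := hsat _ b hy hb2
  rw [AddSubgroupClass.coe_sub, Subring.coe_pow, haH] at hc
  have hbH : (b : F) * H = c := by
    apply mul_left_cancel₀ hϖ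
    rw [← hc]; ring
  -- `G`
  set G : F := D H + (x1 : F) ^ (q - 1) with hG
  have hGO : G ∈ O1 := O1.add_mem (hD1 H hH) (O1.pow_mem (hle _ x1.2) _)
  have hDy : D (y : F) = ϖ * G := by
    have : (y : F) = ϖ * H + (x1 : F) ^ q := by rw [← haH]; ring
    rw [this, map_add, D.leibniz, hDϖ, smul_zero, add_zero, smul_eq_mul, D.leibniz_pow, hx1,
      smul_eq_mul, mul_one, nsmul_eq_mul, hq, hG]
    ring
  have hγG : γ * G = 1 := by
    apply mul_left_cancel₀ hϖ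
    rw [mul_one]
    calc ϖ * (γ * G) = γ * (ϖ * G) := by ring
      _ = ϖ := by rw [← hDy, hγ]
  have hγ'G : (γ' : F) * G = s := by rw [hγ', mul_assoc, hγG, mul_one]
  -- `b G` is regular
  have hbG : RegAt O1 ϖ B n ((b : F) * G) := by
    obtain ⟨s', hs', c', h'⟩ := hloc.2 b hb.1
    refine ⟨s', c' * s, hs', ?_⟩
    have := ((mem1 _).1 h').mul_right hGO
    convert this using 1
    simp only [Subring.coe_mul, AddSubgroupClass.coe_sub]
    rw [← hγ'G]; ring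
  have hbDH : RegAt O1 ϖ B n ((b : F) * D H) := by
    have : (b : F) * D H = (b : F) * G - ((b * x1 ^ (q - 1) : B) : F) := by
      rw [hG, Subring.coe_mul, Subring.coe_pow]; ring
    rw [this]
    exact hbG.sub hle (regAt_coe _)
  -- `H D b` is regular
  have hHDb : RegAt O1 ϖ B n (H * D (b : F)) := by
    have : H * D (b : F) = D (c : F) - (b : F) * D H := by
      rw [← hbH, D.leibniz, smul_eq_mul, smul_eq_mul]; ring
    rw [this]
    exact (hReg c).sub hle hbDH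
  -- `D b` is a unit at `n`
  have hx1' : x1 - c0 ∉ p1 := by
    intro hmem
    have := divS_derivation D hD1 hDϖ ((mem1 _).1 hmem)
    rw [AddSubgroupClass.coe_sub, map_sub, hx1, hc0, sub_zero] at this
    obtain ⟨z, hz, h1z⟩ := this
    apply h1.inv_notMem
    have : ϖ⁻¹ = z := by
      rw [pow_one] at h1z
      field_simp
      exact h1z
    rw [this]; exact hz
  obtain ⟨s10, c10, hs10, hc10, hDb⟩ : ∃ s10 c10 : B, s10 ∉ n ∧ c10 ∉ n ∧
      DivS O1 ϖ 1 ((s10 : F) * D (b : F) - c10) := by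
    obtain ⟨t, ht, e, h2⟩ := hgen.2 b hb.1
    obtain ⟨t', ht', e', h2'⟩ := hb.2 _ hgen.1
    have hen : e ∉ n := by
      intro hen
      have h3 : (t * t' - e' * e) * (x1 - c0) ∈ p1 := by
        have : (t * t' - e' * e) * (x1 - c0)
            = t * (t' * (x1 - c0) - e' * b) + e' * (t * b - e * (x1 - c0)) := by ring
        rw [this]
        exact p1.add_mem (p1.mul_mem_left _ h2') (p1.mul_mem_left _ h2)
      have h4 : DivS O1 ϖ 1 (((t * t' - e' * e : B) : F) * ((x1 - c0 : B) : F)) := by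
        rw [← Subring.coe_mul]; exact (mem1 _).1 h3
      -- `x1 - c0` is a unit of `O1`
      have hU : IsU O1 ((x1 - c0 : B) : F) := by
        have hne : ((x1 - c0 : B) : F) ≠ 0 := by
          intro h0
          apply hx1'
          have : (x1 - c0 : B) = 0 := Subtype.ext h0
          rw [this]; exact p1.zero_mem
        refine (h1.isU_or (hle _ (x1 - c0 : B).2)).resolve_right ?_
        intro hd
        exact hx1' ((mem1 _).2 hd)
      have h5 : t * t' - e' * e ∈ p1 := by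
        rw [mem1]
        have := h4.mul_right hU.inv_mem
        rwa [mul_assoc, mul_inv_cancel₀ hU.1, mul_one] at this
      have h6 : t * t' ∈ n := by
        have : t * t' = (t * t' - e' * e) + e' * e := by ring
        rw [this]
        exact n.add_mem (hp1n h5) (n.mul_mem_left _ hen)
      exact (hn.mem_or_mem h6).elim ht ht'
    obtain ⟨s8, c8, hs8, h8⟩ := hReg e
    obtain ⟨s9, c9, hs9, h9⟩ := hReg t
    have h7 := divS_derivation D hD1 hDϖ ((mem1 _).1 h2)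
    rw [AddSubgroupClass.coe_sub, Subring.coe_mul, Subring.coe_mul, AddSubgroupClass.coe_sub, map_sub, D.leibniz,
      D.leibniz, map_sub, hx1, hc0, sub_zero, smul_eq_mul, smul_eq_mul, smul_eq_mul, smul_eq_mul,
      mul_one] at h7
    refine ⟨s8 * s9 * t, s8 * s9 * e + s9 * c8 * (x1 - c0) - s8 * c9 * b, ?_, ?_, ?_⟩
    · intro hm
      rcases hn.mem_or_mem hm with h5 | h5
      · exact (hn.mem_or_mem h5).elim hs8 hs9
      · exact ht h5
    · intro hm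
      have : s8 * s9 * e = (s8 * s9 * e + s9 * c8 * (x1 - c0) - s8 * c9 * b)
          - s9 * c8 * (x1 - c0) + s8 * c9 * b := by ring
      have h5 : s8 * s9 * e ∈ n := by
        rw [this]
        exact n.add_mem (n.sub_mem hm (n.mul_mem_left _ hgen.1)) (n.mul_mem_left _ hb.1)
      rcases hn.mem_or_mem h5 with h6 | h6
      · exact (hn.mem_or_mem h6).elim hs8 hs9
      · exact hen h6
    · have hA := h7.mul_left (hle _ (s8 * s9 : B).2)
      have hB := h8.mul_left (hle _ (s9 * (x1 - c0) : B).2)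
      have hC := h9.mul_left (hle _ (s8 * b : B).2)
      convert (hA.add hB).sub hC using 1
      simp only [Subring.coe_mul, AddSubgroupClass.coe_sub, Subring.coe_add]
      ring
  -- `H` is regular
  have hHreg : RegAt O1 ϖ B n H := by
    obtain ⟨s11, c11, hs11, h11⟩ := hHDb
    refine ⟨s11 * c10, s10 * c11, fun hm => (hn.mem_or_mem hm).elim hs11 hc10, ?_⟩
    have hA := h11.mul_left (hle _ s10.2)
    have hB := hDb.mul_left (O1.mul_mem (hle _ s11.2) hH)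
    convert hA.sub hB using 1
    simp only [Subring.coe_mul]
    ring
  -- `D H` is regular
  have hDHreg : RegAt O1 ϖ B n (D H) := by
    obtain ⟨s6, c6, hs6, h6⟩ := hHreg
    have h7 := divS_derivation D hD1 hDϖ h6
    rw [map_sub, D.leibniz, smul_eq_mul, smul_eq_mul] at h7
    apply RegAt.of_smul s6 hs6
    have h8 : RegAt O1 ϖ B n (D (c6 : F) - H * D (s6 : F)) :=
      (hReg c6).sub hle ((show RegAt O1 ϖ B n H from ⟨s6, c6, hs6, h6⟩).mul hle
        (hD1 _ (hle _ s6.2)) (hReg s6))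
    refine h8.congr hle ?_
    convert h7.neg using 1
    ring
  -- conclusion
  have hGreg : RegAt O1 ϖ B n G := by
    rw [hG]
    have : (x1 : F) ^ (q - 1) = ((x1 ^ (q - 1) : B) : F) := by rw [Subring.coe_pow]
    rw [this]
    exact hDHreg.add hle (regAt_coe _)
  obtain ⟨s7, c7, hs7, h7⟩ := hGreg
  have h8 := h7.mul_left (hle _ γ'.2)
  have h9 : s7 * s - c7 * γ' ∈ p1 := by
    rw [mem1]
    convert h8 using 1
    simp only [Subring.coe_mul, AddSubgroupClass.coe_sub]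
    rw [← hγ'G]; ring
  have h10 : s7 * s ∈ n := by
    have : s7 * s = (s7 * s - c7 * γ') + c7 * γ' := by ring
    rw [this]
    exact n.add_mem (hp1n h9) (n.mul_mem_left _ hloc.1)
  exact (hn.mem_or_mem h10).elim hs7 hs


/-- `p1 ∩ p2 = ϖ B`, on products. -/
theorem Chart2_sat12 {O1 O2 : Subring F} {ϖ : F} {m : ℕ} {B : Subring F} {p1 p2 : Ideal B}
    (h : Chart2 O1 O2 ϖ m B p1 p2) (hϖ : ϖ ≠ 0) (a b : B) (ha : a ∈ p1) (hb : b ∈ p2) :
    ∃ c : B, (a : F) * b = ϖ * c := by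
  obtain ⟨a', ha', haa⟩ := (h.mem1 a).1 ha
  obtain ⟨b', hb', hbb⟩ := (h.mem2 b).1 hb
  rw [pow_one] at haa hbb
  obtain ⟨c, hc, hac⟩ := h.chart.sat ((a * b : B) : F) (a * b : B).2
    ⟨a' * b, ⟨O1.mul_mem ha' (h.chart.le _ b.2).1, by
      have : a' * (b : F) = a * b' := by
        apply mul_left_cancel₀ hϖ
        rw [← mul_assoc, ← haa, hbb]; ring
      rw [this]; exact O2.mul_mem (h.chart.le _ a.2).2 hb'⟩, by
      rw [pow_one, Subring.coe_mul, haa]; ring⟩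
  exact ⟨⟨c, hc⟩, by rw [← hac, Subring.coe_mul]⟩

/-- **[RA2] + [RA3]** : thickness one at a node from the derivation `D = d / d x₁`. -/
theorem thick1_of_derivation {O1 O2 : Subring F} {ϖ : F} {m : ℕ} {B : Subring F}
    {p1 p2 : Ideal B} (h : Chart2 O1 O2 ϖ m B p1 p2) (h1 : IsDV O1 ϖ) [hp1 : p1.IsPrime]
    (n : Ideal B) (hn : n.IsMaximal) (hp1n : p1 ≤ n) (hp2n : p2 ≤ n)
    (D : Derivation ℤ F F) (hD1 : ∀ u ∈ O1, D u ∈ O1) (hDϖ : D ϖ = 0)
    (hReg : ∀ c : B, RegAt O1 ϖ B n (D (c : F)))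
    (q : ℕ) (hq : (q : F) = ϖ)
    (x1 y c0 : B) (hx1 : D (x1 : F) = 1) (hc0 : D (c0 : F) = 0) (hgen : LocGen n p1 (x1 - c0))
    (hy : y - x1 ^ q ∈ p1)
    (γ : F) (hγ : γ * D (y : F) = ϖ) (hγ1 : IsU O1 γ) (hγ2 : IsU O2 (γ / ϖ ^ 2))
    (hT : InTube (⟨ϖ, h.chart.unif_mem⟩ : B) n γ)
    (hT' : InTube (⟨ϖ, h.chart.unif_mem⟩ : B) n γ⁻¹) :
    Thick1 ϖ B p1 p2 n := by
  haveI := hn.isPrime
  obtain ⟨b, hb, hb2⟩ := h.adm1 n hn hp1n hp2n
  have hb1 : b ∉ p1 := by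
    intro hb1
    obtain ⟨θ, hθ2, hθ1⟩ := h.th1
    apply hθ1
    obtain ⟨s, hs, c, hsc⟩ := hb.2 θ (hp2n hθ2)
    have : s * θ ∈ p1 := by
      have e : s * θ = (s * θ - c * b) + c * b := by ring
      rw [e]; exact p1.add_mem hsc (p1.mul_mem_left _ hb1)
    exact (hp1.mem_or_mem this).resolve_left (fun hs' => hs (hp1n hs'))
  exact thick1_of_gamma h h1.ne_zero n hp2n b hb2 hb1 hb γ hγ1 hγ2 hT hT'
    (no_simple_zero h1 n hp1n (fun x hx => (h.chart.le x hx).1) h.mem1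
      (Chart2_sat12 h h1.ne_zero) D hD1 hDϖ hReg q hq x1 y c0 hx1 hc0 hgen hy b hb2 hb γ hγ)

end Fermat.Agent.S36
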