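import Fermat.Agent.S36.Asm36
import Fermat.Agent.S36.Main36
import Fermat.Agent.S36.Char

/-!
# S36 : the assembly (wrapper part W5b) : `FixH` ⟹ the frozen statement S36
-/

set_option autoImplicit false
set_option linter.overlappingInstances false

namespace Fermat.Agent.S36

theorem eq_mul_of_factorization {M q : ℕ} (hM : M ≠ 0) (hq : q.Prime)
    (h : M.factorization q = 2) : ∃ M0, M = M0 * q * q ∧ ¬ q ∣ M0 := by
  have h1 : q ^ 2 ∣ M := (hq.pow_dvd_iff_le_factorization hM).mpr h.ge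
  obtain ⟨M0, hM0⟩ := h1
  refine ⟨M0, by rw [hM0]; ring, fun ⟨k, hk⟩ => ?_⟩
  have h2 : q ^ 3 ∣ M := ⟨k, by rw [hM0, hk]; ring⟩
  have := (hq.pow_dvd_iff_le_factorization hM).mp h2
  omega

open Polynomial

theorem result_of
    (hH : ∀ (p : ℕ) [Fact p.Prime] (M0 q : ℕ) [NeZero (M0 * q)] [NeZero (M0 * q * q)], q.Prime →
      ¬ q ∣ M0 → q ≠ p → FixH p M0 q)
    {M : ℕ} [NeZero M] {g : CuspForm (CongruenceSubgroup.Gamma0 M) 2} (hg : g.IsNewform)
    (lam : ℕ) [Fact lam.Prime]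
    (S : Finset ℕ)
    (O' : Type) [CommRing O'] [IsDomain O'] [IsDiscreteValuationRing O']
    [IsAdicComplete (IsLocalRing.maximalIdeal O') O'] [Finite (IsLocalRing.ResidueField O')]
    [CharZero O'] (hlamO' : (lam : O') ∈ IsLocalRing.maximalIdeal O')
    (chig : CuspForm.heckeAlgebra M 2 (↑S : Set ℕ) →+* ℂ)
    (hchig : ∀ (ℓ : ℕ) (hℓ : ℓ.Prime) (hℓM : ¬ ℓ ∣ M) (hℓS : ℓ ∉ (↑S : Set ℕ)),
      chig (CuspForm.heckeAlgebra.T hℓ hℓM hℓS) = ModularFormClass.qCoeff g ℓ)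
    (iota : chig.range →+* O')
    (hlamS : lam ∈ S) (hMS : ∀ q : ℕ, q.Prime → q ∣ M → q ∈ S)
    :
    ∃ (O'' : Type) (_ : CommRing O'') (_ : IsDomain O'') (_ : IsDiscreteValuationRing O'')
      (_ : IsAdicComplete (IsLocalRing.maximalIdeal O'') O'') (_ : Finite (IsLocalRing.ResidueField O''))
      (_ : CharZero O'') (_ : Algebra O' O'') (_ : Module.Finite O' O'') (_ : IsLocalHom (algebraMap O' O'')),
      Function.Injective (algebraMap O' O'') ∧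
      ∃ ρ : GaloisRepAdic O'',
        (∀ (ℓ : ℕ) (hℓ : ℓ.Prime) (hℓM : ¬ ℓ ∣ M) (hℓS : ℓ ∉ (↑S : Set ℕ)),
          ∀ A : ValuationSubring (AlgebraicClosure ℚ), A.LiesOverPrime ℓ →
            ∀ σ : AlgebraicClosure ℚ ≃ₐ[ℚ] AlgebraicClosure ℚ, A.IsFrobeniusAt σ ℓ →
              LinearMap.charpoly (ρ.ρ σ) =
                X ^ 2 - C (algebraMap O' O'' ((iota.comp chig.rangeRestrict) (CuspForm.heckeAlgebra.T hℓ hℓM hℓS))) * X
                  + C ((ℓ : O''))) ∧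
        (∀ q : ℕ, q.Prime → q ≠ lam → M.factorization q = 2 → ¬ ρ.IsUnipotentOnInertiaAt q) := by
  have hpp : lam.Prime := Fact.out
  have hINJ : ∀ (r ℓ : ℕ), ℓ.Prime → ¬ ℓ ∣ M → ℓ ≠ lam → ∀ A : ValuationSubring Fermat.Agent.S24.Kb,
      A.LiesOverPrime ℓ → Fermat.Agent.ES.INJ (lam ^ r) M A := fun r ℓ hℓ hℓN hℓp A hA =>
    Fermat.Agent.ES.inj_all (lam ^ r) M ℓ hℓ (fun h => by
      rcases (Nat.Prime.dvd_mul hℓ).mp h with h | h
      · exact hℓN h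
      · exact hℓp ((Nat.prime_dvd_prime_iff_eq hℓ hpp).mp (hℓ.dvd_of_dvd_pow h))) A hA
  refine main36_of lam M S hlamS hMS (Fermat.Agent.S35.finD lam M (↑S : Set ℕ) hMS hINJ) O' hlamO'
    (iota.comp chig.rangeRestrict) (fun n _ a h => exists_addHom_ne n a h)
    (fun q hq hqp hq2 => ?_)
  obtain ⟨M0, hM0, hqM0⟩ := eq_mul_of_factorization (NeZero.ne M) hq hq2
  subst hM0
  have : NeZero (M0 * q) := ⟨fun h => NeZero.ne (M0 * q * q) (by rw [h, zero_mul])⟩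
  exact good2_of lam M0 q S (hH lam M0 q hq hqM0 hqp) hMS hINJ hq hg O' chig hchig iota

end Fermat.Agent.S36
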