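import Fermat.Agent.S35.GDefs

/-!
# S36, G-REG : thickness one from an element `δ` with valuations `(0, 1)` which is a tube unit [D5]
-/

set_option autoImplicit false

namespace Fermat.Agent.S36

open Fermat.Agent.S34 Fermat.Agent.S35

variable {F : Type*} [Field F]

/-- iterated saturation of a chart. -/
theorem mem_of_pow_mul_mem {O : Subring F} {ϖ : F} {m : ℕ} {B : Subring F}
    (h : IsChartS O ϖ m B) (hϖ0 : ϖ ≠ 0) (hϖO : ϖ ∈ O) (k : ℕ) {f : F} (hf : f ∈ O)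
    (hk : ϖ ^ k * f ∈ B) : f ∈ B := by
  induction k with
  | zero => simpa using hk
  | succ k ih =>
    apply ih
    obtain ⟨y, hy, hyx⟩ := h.sat _ hk ⟨ϖ ^ k * f, O.mul_mem (O.pow_mem hϖO k) hf, by
      rw [pow_one, pow_succ]; ring⟩
    have : ϖ ^ k * f = y := by
      apply mul_left_cancel₀ hϖ0
      rw [← hyx, pow_succ]; ring
    rw [this]
    exact hy

/-- **[D5]** thickness one at `n`. -/
theorem thick_of_delta {O1 O2 : Subring F} {ϖ : F} {m : ℕ} {B : Subring F} {p1 p2 : Ideal B}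
    (h : Chart2 O1 O2 ϖ m B p1 p2) (hϖ0 : ϖ ≠ 0) (n : Ideal B) (δ : B)
    (h1 : IsU O1 (δ : F)) (h2 : IsU O2 ((δ : F) / ϖ))
    (ht : InTube (⟨ϖ, h.chart.unif_mem⟩ : B) n ((δ : F)⁻¹)) :
    ∃ a b s : B, a ∈ p1 ∧ b ∈ p2 ∧ s ∉ n ∧ s * (⟨ϖ, h.chart.unif_mem⟩ : B) = a * b := by
  obtain ⟨s, hs, k, b0, hb0⟩ := ht
  have hδ0 : (δ : F) ≠ 0 := h1.1
  have hϖO : ϖ ∈ O1 ⊓ O2 := h.chart.le _ h.chart.unif_mem
  have hsO : (s : F) ∈ O1 ⊓ O2 := h.chart.le _ s.2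
  have hb0' : (s : F) * ϖ ^ k * (δ : F)⁻¹ = b0 := hb0
  have hfO : (s : F) * ϖ / δ ∈ O1 ⊓ O2 := by
    constructor
    · have : (s : F) * ϖ / δ = s * ϖ * (δ : F)⁻¹ := by rw [div_eq_mul_inv]
      rw [this]
      exact O1.mul_mem (O1.mul_mem hsO.1 hϖO.1) h1.2.2
    · have : (s : F) * ϖ / δ = s * ((δ : F) / ϖ)⁻¹ := by
        field_simp
      rw [this]
      exact O2.mul_mem hsO.2 h2.2.2
  have hfB : (s : F) * ϖ / δ ∈ B := by
    refine mem_of_pow_mul_mem h.chart hϖ0 hϖO k hfO ?_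
    have : ϖ ^ k * ((s : F) * ϖ / δ) = ϖ * b0 := by
      rw [← hb0']; field_simp
    rw [this]
    exact B.mul_mem h.chart.unif_mem b0.2
  refine ⟨⟨_, hfB⟩, δ, s, ?_, ?_, hs, ?_⟩
  · rw [h.mem1]
    refine ⟨(s : F) * (δ : F)⁻¹, O1.mul_mem hsO.1 h1.2.2, ?_⟩
    show (s : F) * ϖ / δ = ϖ ^ 1 * ((s : F) * (δ : F)⁻¹)
    rw [pow_one]; field_simp
  · rw [h.mem2]
    refine ⟨(δ : F) / ϖ, h2.2.1, ?_⟩
    rw [pow_one]; field_simp
  · apply Subtype.ext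
    show (s : F) * ϖ = (s : F) * ϖ / δ * δ
    field_simp

end Fermat.Agent.S36
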