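import Fermat.Agent.S36.Val2
import Fermat.Agent.S36.T1Abs
import Fermat.Agent.S34.QNode
import Fermat.Agent.S34.NRed

/-!
# S36, G-REG : (T1) thickness one at the nodes of level `M₀ q` : the instance chain

Inputs (hypotheses, in the shapes of their providers):
* `hgen`  : [GEN-N] + [GenTheta] : the monogenic generator `y0 ∈ p1`, `θ (ρ₂ y0) ≠ 0`;
* `hg`    : the monic polynomial of degree `q + 1` with coefficients in `X.chart`;
* `htube` : [DIFF] `tube_delta` for `φ = T.al`.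
-/

set_option autoImplicit false
set_option linter.unusedSectionVars false
set_option linter.unusedVariables false

noncomputable section

namespace Fermat.Agent.S36

open ModularCurve Polynomial
open Fermat.Agent.S34 Fermat.Agent.S35 Fermat.Agent.ES.QE Fermat.Agent.ES.Model
open Fermat.Agent.S36.ValTh

variable {R K k : Type*} [CommRing R] [IsDomain R] [IsNoetherianRing R] [IsIntegrallyClosed R]
  [Field K] [Algebra R K] [IsFractionRing R K] [Field k]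
  {R' K' : Type*} [CommRing R'] [IsDomain R'] [IsNoetherianRing R'] [IsIntegrallyClosed R']
  [Field K'] [Algebra R' K'] [IsFractionRing R' K']

variable {D : QData R K k} {D' : QData R' K' k} {iR : R →+* R'} {i : K →+* K'}
  {q : ℕ} [NeZero q]

/-- `eval₂ φ y P ∈ A` if the coefficients of `P` are mapped to `A` and `y ∈ A`. -/
theorem eval₂_mem_subring {F0 F1 : Type*} [Field F0] [Field F1] (φ : F0 →+* F1) (C : Subring F0)
    (A : Subring F1) (hφ : ∀ c ∈ C, φ c ∈ A) {y : F1} (hy : y ∈ A) (P : F0[X])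
    (hP : ∀ j, P.coeff j ∈ C) : eval₂ φ y P ∈ A := by
  rw [eval₂_eq_sum_range]
  exact A.sum_mem fun j _ => A.mul_mem (hφ _ (hP j)) (A.pow_mem hy j)

theorem coeff_derivative_mem {F0 : Type*} [Field F0] (C : Subring F0) (P : F0[X])
    (hP : ∀ j, P.coeff j ∈ C) (j : ℕ) : (derivative P).coeff j ∈ C := by
  rw [coeff_derivative]
  refine C.mul_mem (hP _) ?_
  have : ((j : F0) + 1) = ((j + 1 : ℕ) : F0) := by push_cast; ring
  rw [this]
  exact natCast_mem C _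

theorem tht_zero' {A : Type*} [CommRing A] : tht (0 : LaurentSeries A) = 0 := by
  ext n
  simp

/-- **(T1)** : thickness one at every node of the chart of level `M₀ q`. -/
theorem t1_inst (T : Two D q) (X : D.Coord) (B : BCData D D' iR i) (hq : q.Prime)
    (hϖ : D.ϖ = (q : R)) (ζ : R'ˣ) (hprim : IsPrimitiveRoot (ζ : R') q) (hζ : D'.res ζ = 1)
    {m : ℕ} (hc : Chart2 T.O1 T.O2 T.ϖF m (T.chart X) (T.p1 X) (T.p2 X))
    (hgen : ∀ n : Ideal (T.chart X), n.IsMaximal → T.p1 X ≤ n → T.p2 X ≤ n →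
      ∃ (y0 : T.chart X) (s : X.chart), y0 ∈ T.p1 X ∧ tht (QNode.r2 T X y0) ≠ 0 ∧
        NRed.alC X T s ∉ n ∧ ∀ a : T.chart X, ∃ P : D.F0[X], (∀ j, P.coeff j ∈ X.chart) ∧
          T.al s * a = eval₂ T.al (y0 : T.F) P)
    (hg : ∀ y0 : T.chart X, ∃ g : D.F0[X], g.Monic ∧ (∀ j, g.coeff j ∈ X.chart) ∧
      g.natDegree = q + 1 ∧ eval₂ T.al (y0 : T.F) g = 0)
    (htube : ∀ n : Ideal (T.chart X), n.IsMaximal → T.p1 X ≤ n → T.p2 X ≤ n →
      ∀ (y0 : T.chart X) (s : X.chart), NRed.alC X T s ∉ n →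
        (∀ a : T.chart X, ∃ P : D.F0[X], (∀ j, P.coeff j ∈ X.chart) ∧
          T.al s * a = eval₂ T.al (y0 : T.F) P) →
        ∀ g : D.F0[X], g.Monic → (∀ j, g.coeff j ∈ X.chart) → g.natDegree = q + 1 →
          eval₂ T.al (y0 : T.F) g = 0 →
          InTube (T.ϖB X) n (eval₂ T.al (y0 : T.F) (derivative g))⁻¹) :
    ∀ n : Ideal (T.chart X), n.IsMaximal → T.p1 X ≤ n → T.p2 X ≤ n →
      ∃ a b s : T.chart X, a ∈ T.p1 X ∧ b ∈ T.p2 X ∧ s ∉ n ∧ s * T.ϖB X = a * b := by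
  intro n hn h1 h2
  obtain ⟨y0, s, hy1, hθ, hs, hmono⟩ := hgen n hn h1 h2
  obtain ⟨g, hgm, hgc, hgd, hgr⟩ := hg y0
  have ht := htube n hn h1 h2 y0 s hs hmono g hgm hgc hgd hgr
  have hO1 : (y0 : T.F) ∈ T.O1 := (hc.chart.le _ y0.2).1
  have hO2 : (y0 : T.F) ∈ T.O2 := (hc.chart.le _ y0.2).2
  have hr1 : T.rho1 ⟨(y0 : T.F), hO1⟩ = 0 := (QNode.mem_p1_iff T X y0).1 hy1
  have hθ' : tht (T.rho2 ⟨(y0 : T.F), hO2⟩) ≠ 0 := hθ
  have hne : T.rho2 ⟨(y0 : T.F), hO2⟩ ≠ qExpand k q (T.rho1 ⟨(y0 : T.F), hO1⟩) := by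
    rw [hr1, map_zero]
    intro h0
    apply hθ'
    rw [h0, tht_zero']
  obtain ⟨hU1, hU2, -⟩ := Val2.val_al T B hq ζ hprim hζ hO1 hO2 g hgm hgd hgr hne hθ'
  have hδ : eval₂ T.al (y0 : T.F) (derivative g) ∈ T.chart X :=
    eval₂_mem_subring T.al X.chart (T.chart X) (fun c hc' => T.al_mem_chart X hc') y0.2 _
      (coeff_derivative_mem X.chart g hgc)
  rw [← Val2.ϖF_eq (T := T) hϖ] at hU2
  exact thick_of_delta hc (NRed.ϖF_ne_zero T) n ⟨_, hδ⟩ hU1 hU2 ht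

end Fermat.Agent.S36
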