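import Fermat.Agent.S36.TFixGen2
import Fermat.Agent.S36.T2Inst2

/-!
# S36, G-REG : `HT2 H D' X` from the blocks [GEN-O] (`hord`), [DIFF] (`htube`), [D7] (`hcusp`)
-/

set_option autoImplicit false
set_option linter.unusedVariables false
set_option linter.unusedSectionVars false
set_option linter.style.haveILetI false
set_option synthInstance.maxHeartbeats 400000

noncomputable section

namespace Fermat.Agent.S36.T2All

open ModularCurve Polynomial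
open Fermat.Agent.ES Fermat.Agent.ES.QE Fermat.Agent.ES.Model Fermat.Agent.S34 Fermat.Agent.S35
open Fermat.Agent.S36.ValTh

variable {R K k : Type*} [CommRing R] [IsDomain R] [IsDiscreteValuationRing R]
  [Field K] [Algebra R K] [IsFractionRing R K] [Field k] [CharZero K]
  {R' K' : Type*} [CommRing R'] [IsDomain R'] [IsNoetherianRing R'] [IsIntegrallyClosed R']
  [Field K'] [Algebra R' K'] [IsFractionRing R' K']
  {q : ℕ} [NeZero q] [Fact q.Prime] [CharP k q]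
  {D : QData R K k} {T : Two D q} {i : K →+* K'} {ζR : R'ˣ}

/-- block [GEN-O] : the data at an ordinary non-cuspidal point of the first component. -/
def HOrd (T : Two D q) (X : D.Coord) (hbe1 : ∀ c ∈ X.chart, T.be c ∈ T.chart X)
    (hle1 : ∀ b ∈ T.chart X, b ∈ T.O1) : Prop :=
  ∀ n1 : Ideal (T.chart X), n1.IsMaximal → T.p1 X ≤ n1 → ¬ T.p2 X ≤ n1 →
    (⟨T.x X, X.x_mem_chart⟩ : T.chart X) ∉ n1 →
    ∃ (y0 : T.chart X) (f2 : X.chart) (s : D.F0) (hsC : s ∈ X.chart) (g : D.F0[X]),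
      y0 ∈ n1 ∧ (⟨T.be f2, hbe1 f2 f2.2⟩ : T.chart X) ∉ n1 ∧
      y0 - ⟨T.be f2, hbe1 f2 f2.2⟩ ∈ T.p2 X ∧
      tht (T.rho1 ⟨(y0 : T.F), hle1 _ y0.2⟩) ≠ 0 ∧
      (⟨T.be s, hbe1 s hsC⟩ : T.chart X) ∉ n1 ∧
      (∀ a : T.chart X, ∃ P : D.F0[X], (∀ i, P.coeff i ∈ X.chart) ∧
        T.be s * (a : T.F) = eval₂ T.be (y0 : T.F) P) ∧
      g.Monic ∧ (∀ i, g.coeff i ∈ X.chart) ∧ g.natDegree = q + 1 ∧
      eval₂ T.be (y0 : T.F) g = 0

/-- block [DIFF] : the different is a unit on the tube. -/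
def HTube (T : Two D q) (X : D.Coord) (hbe1 : ∀ c ∈ X.chart, T.be c ∈ T.chart X) : Prop :=
  ∀ (n1 : Ideal (T.chart X)) [n1.IsPrime],
    (⟨T.x X, X.x_mem_chart⟩ : T.chart X) ∉ n1 →
    ∀ (y0 : T.chart X) (s : D.F0) (hsC : s ∈ X.chart),
      (⟨T.be s, hbe1 s hsC⟩ : T.chart X) ∉ n1 →
      (∀ a : T.chart X, ∃ P : D.F0[X], (∀ i, P.coeff i ∈ X.chart) ∧
        T.be s * (a : T.F) = eval₂ T.be (y0 : T.F) P) →
      ∀ g : D.F0[X], g.Monic → (∀ i, g.coeff i ∈ X.chart) → g.natDegree = q + 1 →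
        eval₂ T.be (y0 : T.F) g = 0 →
        InTube (T.ϖB X) n1 (eval₂ T.be (y0 : T.F) g.derivative)⁻¹

/-- block [D7] : `(T2)` at the cusps of the middle component. -/
def HCusp (H : Three T i (GNorm.uK ζR)) (D' : QData R' K' k) (X : D.Coord) : Prop :=
  ∀ n : Ideal (H.chart X), n.IsMaximal → H.pC X D' ≤ n → ¬ H.pA X ≤ n →
    ¬ H.pB X ≤ n → (⟨H.x X, X.x_mem_chart⟩ : H.chart X) ∈ n →
    ∃ x ∈ H.pC X D', ∃ s, s ∉ n ∧ ∃ c, s * H.ϖB X = c * x ^ (q - 1)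

set_option maxHeartbeats 2000000 in
/-- **`(T2)` on one chart.** -/
theorem ht2_of (H : Three T i (GNorm.uK ζR)) (D' : QData R' K' k) (iR : R →+* R')
    (hi : ∀ r, i (algebraMap R K r) = algebraMap R' K' (iR r))
    (hres : ∀ r, D'.res (iR r) = D.res r) (hprim : IsPrimitiveRoot (ζR : R') q)
    (c0 : R') (hc : (ζR : R') - 1 = D'.ϖ * c0) (hc0 : D'.res c0 ≠ 0)
    (c : R) (hcq : (q : R) = D.ϖ * c) (hcq0 : D.res c ≠ 0) (hϖ : D.ϖ = (q : R))
    (X : D.Coord) (m : ℕ) (hm : IsUnit (m : R))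
    (hded : IsDedekindDomain (X.chart ⧸ Ideal.span {Inst.ϖB X}))
    (hxq : qExpand k q (D.red X.xW) = D.red X.xW ^ q)
    (Φ : TAut T) (hΦ : ∀ c, Φ.sk c = c ^ q)
    (hΦx : coeffMap (Φ.sR : R →+* R) X.xW = X.xW)
    (hxy : XYData T X) (t1 : HT1 T X)
    (hbe1 : ∀ c ∈ X.chart, T.be c ∈ T.chart X) (hle1 : ∀ b ∈ T.chart X, b ∈ T.O1)
    (hord : HOrd T X hbe1 hle1) (htube : HTube T X hbe1) (hcusp : HCusp H D' X) :
    HT2 H D' X := by
  have hq : q.Prime := Fact.out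
  have hq2 : 2 ≤ q := hq.two_le
  have hm0 : 0 < m := by
    rcases Nat.eq_zero_or_pos m with rfl | h
    · rw [Nat.cast_zero] at hm
      exact absurd hm not_isUnit_zero
    · exact h
  obtain ⟨hVx1, ⟨θ1, hθ1⟩, Xu1, Yu1, c1, e1, hXY1, hXa1, hXb1⟩ := hxy
  obtain ⟨pr11, pr12, hp1, d11, d12, hN1⟩ := UChart.chartData T X hq hded hxq Φ hΦ hΦx hVx1 θ1 hθ1
    Xu1 Yu1 c1 e1 hXY1 hXa1 hXb1
  have hc1 := chart2 T X hq hm hxq hVx1 hN1
  have L := H.lvl1 D' iR hi hres hprim c0 hc hc0 c hcq hcq0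
  have h1 := H.isChartS_of D' iR hi hres ζR rfl hprim c0 hc hc0 c hcq hcq0 X hm
  haveI : IsDedekindDomain (X.chart ⧸ Ideal.span {X.ϖC}) := hded
  have hA : ∀ b ∈ H.chart X, b ∈ H.OA := fun b hb => (h1.le b hb).1.1
  have hC : ∀ b ∈ H.chart X, b ∈ H.OC D' := fun b hb => (h1.le b hb).1.2
  have hB : ∀ b ∈ H.chart X, b ∈ H.OB := fun b hb => (h1.le b hb).2
  have hram : IsU (H.OC D') (H.ϖF / H.tC ^ (q - 1)) := by
    have := L.ram.inv
    rwa [inv_div] at this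
  exact T2Inst.t2_all H X (⟨hi, hres⟩ : BCData D D' iR i) ζR rfl hprim L.dvM hϖ h1
    (TRedA.mem_pA H X hA) (TRedA.mem_pC H X D' hC) (TRedA.mem_pB H X hB) hram hc1.chart
    (fun x hx => (L.al_M x).2 hx) hbe1 (fun b hb => H.be_mem_chart X hVx1 hb)
    (H.surjC X D' L hq2 hc1 hC)
    (NRed.red1 X T (fun f hf => T.exists_rep_of_mem_O hf) (NOrth.qExpand_jq_char q k)
      (chart_le_O T X)) t1 hord htube hcusp

end Fermat.Agent.S36.T2All
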