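import Fermat.Agent.S36.T2Fin
import Fermat.Agent.S36.T1Fin2
import Fermat.Agent.S36.GenOrdFin
import Fermat.Agent.S36.PerfT
import Fermat.Agent.S36.CoreFin

/-!
# S36, block G : `(T1)`, `(T2)` on the two charts in the context of `exists_full_layer`,
from `HCusp` on the two charts
-/

set_option autoImplicit false
set_option linter.unusedSectionVars false
set_option linter.unusedVariables false
set_option linter.style.haveILetI false
set_option synthInstance.maxHeartbeats 400000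

noncomputable section

namespace Fermat.Agent.S36

open ModularCurve AlgebraicCurve Polynomial IntermediateField
open Fermat.Agent.S24 Fermat.Agent.S28 Fermat.Agent.ES Fermat.Agent.ES.QE Fermat.Agent.ES.IDvr
  Fermat.Agent.ES.Inst Fermat.Agent.ES.Model Fermat.Agent.S34 Fermat.Agent.S35 Fermat.Agent.S37
open Fermat.Agent.S34.WK

section coord

variable {K0 : IntermediateField ℚ Kb} {A : ValuationSubring Kb}
  [IsDiscreteValuationRing (R0 K0 A)] {D : QData (R0 K0 A) K0 (kA A)} {q : ℕ} [Fact q.Prime]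
  {R' K' : Type*} [CommRing R'] [IsDomain R'] [IsNoetherianRing R'] [IsIntegrallyClosed R']
  [Field K'] [Algebra R' K'] [IsFractionRing R' K']
  {D' : QData R' K' (kA A)} {iR : R0 K0 A →+* R'} {i : K0 →+* K'}

set_option maxHeartbeats 2000000 in
/-- `(T1)`, `(T2)` for one coordinate, from `HCusp`. -/
theorem ht_coord (M0 : ℕ) [NeZero M0] (hqM : ¬ q ∣ M0) (hA : A.LiesOverPrime q)
    (T : Two D q) (X : D.Coord)
    (hF : D.F0 = F0 K0 M0) (hDres : D.res = res0 K0 A) (hT : T.F = F0 K0 (M0 * q)) (xF : FF M0)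
    (hX : bc K0 (X.x : LaurentSeries K0) = (xF : LaurentSeries Kb))
    (htr : Transcendental Kb (heckeAlphaBar Kb M0 q xF))
    (hfd : FiniteDimensional Kb⟮heckeAlphaBar Kb M0 q xF⟯ (FF (M0 * q)))
    (hM : NoElliptic M0) (hW : WGood M0 q xF)
    (hi : ∀ r, i (algebraMap (R0 K0 A) K0 r) = algebraMap R' K' (iR r))
    (hres : ∀ r, D'.res (iR r) = D.res r) (hϖ : D.ϖ = (q : R0 K0 A)) (ζR : R'ˣ)
    (hprim : IsPrimitiveRoot (ζR : R') q)
    (c0 : R') (hc : (ζR : R') - 1 = D'.ϖ * c0) (hc0 : D'.res c0 ≠ 0)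
    (H : Three T i (GNorm.uK ζR))
    {m : ℕ} (hm : IsUnit (m : R0 K0 A)) [CharP (kA A) q]
    (hded : IsDedekindDomain (X.chart ⧸ Ideal.span {Inst.ϖB X}))
    (hxq : qExpand (kA A) q (D.red X.xW) = D.red X.xW ^ q)
    (Φ : TAut T) (hΦ : ∀ c, Φ.sk c = c ^ q)
    (hΦx : coeffMap (Φ.sR : R0 K0 A →+* R0 K0 A) X.xW = X.xW)
    (hXY : XYData T X) (hcusp : HCusp H D' X) :
    HT1 T X ∧ HT2 H D' X := by
  have hq : q.Prime := Fact.out
  have hιx0 : iotaF D hF X.x = xF := Subtype.ext (by rw [coe_iotaF, hX])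
  have hιx : iotaT T hT (T.x X) = heckeAlphaBar Kb M0 q xF := by
    rw [← hιx0]
    exact iotaT_al T hT hF X.x
  have : FiniteDimensional Kb⟮iotaT T hT (T.x X)⟯ (FF (M0 * q)) := by
    rw [hιx]
    exact hfd
  have hresP : ∀ r : R0 K0 A, D.res r = 0 ∨ ∃ n : ℕ, n ≠ 0 ∧ D.res r ^ n = 1 := by
    intro r
    rw [hDres]
    exact Perf.hres_R0 hq hA K0 r
  have hord : ∀ hbe1 hle1, HOrd T X hbe1 hle1 := fun hbe1 hle1 =>
    GenT.hord_fin T X hq hded hxq Φ hΦ hΦx hXY.1 hresP hbe1 hle1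
  exact ht_fin M0 hqM T X (iotaF D hF) (fun _ => rfl) (iotaT T hT) (fun _ => rfl) hT.ge
    (by rw [hιx]; exact htr) hM (by rw [hιx0]; exact hW) hi hres hϖ ζR hprim c0 hc hc0 H hm hded
    hxq Φ hΦ hΦx hXY hord hcusp

set_option maxHeartbeats 2000000 in
/-- `(T1)`, `(T2)` for both charts, from `HCusp` on both charts. -/
theorem ht_layer (M0 : ℕ) [NeZero M0] (hqM : ¬ q ∣ M0) (hA : A.LiesOverPrime q)
    (Z : ZCoord M0 q)
    (hW : WGood M0 q Z.xF) (hM : NoElliptic M0) (T : Two D q) (X : D.Coord)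
    (y : LaurentSeries (R0 K0 A)) (hxy : X.xW * y = 1)
    (hF : D.F0 = F0 K0 M0) (hDres : D.res = res0 K0 A) (hT : T.F = F0 K0 (M0 * q))
    (hX : bc K0 (X.x : LaurentSeries K0) = (Z.xF : LaurentSeries Kb))
    (hi : ∀ r, i (algebraMap (R0 K0 A) K0 r) = algebraMap R' K' (iR r))
    (hres : ∀ r, D'.res (iR r) = D.res r) (hϖ : D.ϖ = (q : R0 K0 A)) (ζR : R'ˣ)
    (hprim : IsPrimitiveRoot (ζR : R') q)
    (c0 : R') (hc : (ζR : R') - 1 = D'.ϖ * c0) (hc0 : D'.res c0 ≠ 0)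
    (H : Three T i (GNorm.uK ζR))
    {m : ℕ} (hm : IsUnit (m : R0 K0 A)) [CharP (kA A) q]
    (hded1 : IsDedekindDomain (X.chart ⧸ Ideal.span {Inst.ϖB X}))
    (hded2 : IsDedekindDomain ((X.inv y hxy).chart ⧸ Ideal.span {Inst.ϖB (X.inv y hxy)}))
    (hxq : qExpand (kA A) q (D.red X.xW) = D.red X.xW ^ q)
    (hyq : qExpand (kA A) q (D.red y) = D.red y ^ q)
    (Φ : TAut T) (hΦ : ∀ c, Φ.sk c = c ^ q)
    (hΦx : coeffMap (Φ.sR : R0 K0 A →+* R0 K0 A) X.xW = X.xW)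
    (hΦy : coeffMap (Φ.sR : R0 K0 A →+* R0 K0 A) y = y)
    (hXY1 : XYData T X) (hXY2 : XYData T (X.inv y hxy))
    (hcusp1 : HCusp H D' X) (hcusp2 : HCusp H D' (X.inv y hxy)) :
    HT1 T X ∧ HT1 T (X.inv y hxy) ∧ HT2 H D' X ∧ HT2 H D' (X.inv y hxy) := by
  have hmemN : zS Kb Z.xZ ∈ modularFunctionFieldBar (M0 * q) := by
    have h := (heckeAlphaBar Kb M0 q Z.xF).2
    rwa [coe_heckeAlphaBar] at h
  obtain ⟨ZN, hZN⟩ : ∃ ZN : ZCoord (M0 * q) q, ZN.xF = heckeAlphaBar Kb M0 q Z.xF :=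
    ⟨{ Z with mem := hmemN }, Subtype.ext (coe_heckeAlphaBar M0 q Z.xF).symm⟩
  have hxt := transcendental_xF ZN
  have hxt' : Transcendental Kb ZN.xF⁻¹ := FF.transcendental_inv hxt
  have hfd := finiteDimensional_xF ZN
  have hfd' := finiteDimensional_xF_inv ZN
  have hιx0 : iotaF D hF X.x = Z.xF := Subtype.ext (by rw [coe_iotaF, hX])
  have hX' : bc K0 ((X.inv y hxy).x : LaurentSeries K0) = ((Z.xF⁻¹ : FF M0) : LaurentSeries Kb) := by
    rw [← coe_iotaF D hF, X.inv_x y hxy, map_inv₀, hιx0]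
  have a1 := ht_coord M0 hqM hA T X hF hDres hT Z.xF hX (hZN ▸ hxt) (hZN ▸ hfd) hM hW hi hres hϖ
    ζR hprim c0 hc hc0 H hm hded1 hxq Φ hΦ hΦx hXY1 hcusp1
  have a2 := ht_coord M0 hqM hA T (X.inv y hxy) hF hDres hT Z.xF⁻¹ hX'
    (by rw [map_inv₀, ← hZN]; exact hxt') (by rw [map_inv₀, ← hZN]; exact hfd') hM hW.inv hi hres
    hϖ ζR hprim c0 hc hc0 H hm hded2 hyq Φ hΦ hΦy hXY2 hcusp2
  exact ⟨a1.1, a2.1, a1.2, a2.2⟩

end coord

/-- `HCusp` on the two charts, for all the objects of `exists_full_layer`. -/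
def HCuspAll3 (q : ℕ) [Fact q.Prime] (A : ValuationSubring Kb) : Prop :=
  ∀ (m M0 : ℕ) [NeZero M0] (hqM : ¬ q ∣ M0), ¬ q ∣ m → ∀ (Z : ZCoord M0 q), Z.Unram →
    WGood M0 q Z.xF → ZCuspRel Z → NoElliptic M0 → NoElliptic (M0 * q) →
    NoElliptic (M0 * q * q) →
    ∀ (K0 : IntermediateField ℚ Kb), FiniteDimensional ℚ K0 → Unr A K0 → Stab A K0 →
    ∀ [IsDiscreteValuationRing (R0 K0 A)]
      (D : QData (R0 K0 A) K0 (kA A)) (T : Two D q) (X : D.Coord)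
      (y : LaurentSeries (R0 K0 A)) (hxy : X.xW * y = 1)
      (K0' : IntermediateField ℚ Kb) (hle : K0 ≤ K0')
      [IsDiscreteValuationRing (R0 K0' A)] (ζR : (R0 K0' A)ˣ)
      (D' : QData (R0 K0' A) K0' (kA A))
      (H : Three T (IntermediateField.inclusion hle).toRingHom (S35.GNorm.uK ζR)),
      (D.F0 = F0 K0 M0 ∧ D.res = res0 K0 A ∧ D.ϖ = ((q : ℕ) : R0 K0 A) ∧
      T.F = F0 K0 (M0 * q) ∧
      (∀ (f : T.F) (hf : bc K0 (f : LaurentSeries K0) ∈ modularFunctionFieldBar (M0 * q)),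
        bc K0 (T.e2 f) = ((Wb M0 q hqM ⟨_, hf⟩ : FF (M0 * q)) : LaurentSeries Kb)) ∧
      X.xW = zS (R0 K0 A) Z.xZ ∧ y = zS (R0 K0 A) Z.yZ ∧
      bc K0 (X.x : LaurentSeries K0) = (Z.xF : LaurentSeries Kb) ∧
      IsDedekindDomain (X.chart ⧸ Ideal.span {Inst.ϖB X}) ∧
      IsDedekindDomain ((X.inv y hxy).chart ⧸ Ideal.span {Inst.ϖB (X.inv y hxy)}) ∧
      qExpand (kA A) q (D.red X.xW) = D.red X.xW ^ q ∧
      qExpand (kA A) q (D.red y) = D.red y ^ q ∧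
      XYData T X ∧ XYData T (X.inv y hxy) ∧ Nonempty D.Theta) →
      (FiniteDimensional ℚ K0' ∧ IsPrimitiveRoot (ζR : R0 K0' A) q ∧
      D'.F0 = F0 K0' M0 ∧ D'.res = res0 K0' A ∧ D'.res ζR = 1 ∧
      (∃ c0, (ζR : R0 K0' A) - 1 = D'.ϖ * c0 ∧ D'.res c0 ≠ 0) ∧
      BCData D D' (UnrCyc.iR A hle) (IntermediateField.inclusion hle).toRingHom) →
      (H.F = F0 K0 (M0 * q * q) ∧
      (∀ (f : H.F) (hf : bc K0 (f : LaurentSeries K0) ∈ modularFunctionFieldBar (M0 * q * q)),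
        bc K0 (H.eB f) = ((Wb2 M0 q hqM ⟨_, hf⟩ : FF (M0 * q * q)) : LaurentSeries Kb))) →
      (∃ ζm : (R0 K0 A)ˣ, IsPrimitiveRoot ζm m) →
      ∀ (Φ : TAut T), (∀ c, Φ.sk c = c ^ q) →
        coeffMap (Φ.sR : R0 K0 A →+* R0 K0 A) X.xW = X.xW →
        coeffMap (Φ.sR : R0 K0 A →+* R0 K0 A) y = y →
      CuspRel X → CuspRel (X.inv y hxy) →
      HCusp H D' X ∧ HCusp H D' (X.inv y hxy)

set_option maxHeartbeats 2000000 in
/-- `HTAll` from `HCusp` on the two charts. -/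
theorem htAll_of_cusp3 (q : ℕ) [Fact q.Prime] (A : ValuationSubring Kb) (hA : A.LiesOverPrime q)
    (h : HCuspAll3 q A) : HTAll q A := by
  have hq : q.Prime := Fact.out
  intro m M0 _ hqM hqm Z hU hW hZ n1 n2 n3 K0 hK0 hu0 hst _ D T X y hxy K0' hle _ ζR D' H
    h1 h2 h3 h4 Φ hΦ hΦx hΦy
  have hchar : CharP (kA A) q := ResField.charP hq hA
  have hrel := cuspRel_of_zCuspRel Z hZ X y hxy h1.2.2.2.2.2.1 h1.2.2.2.2.2.2.1
  obtain ⟨k1, k2⟩ := h m M0 hqM hqm Z hU hW hZ n1 n2 n3 K0 hK0 hu0 hst D T X y hxy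
    K0' hle ζR D' H h1 h2 h3 h4 Φ hΦ hΦx hΦy hrel.1 hrel.2
  obtain ⟨hF, hres, hϖ, hT, hTW, hXW, hy, hX, hded1, hded2, hxq, hyq, hxy1, hxy2, -⟩ := h1
  obtain ⟨-, hprim, -, hres', -, ⟨c0, hc, hc0⟩, hbc⟩ := h2
  exact ht_layer M0 hqM hA Z hW n1 T X y hxy hF hres hT hX hbc.comm hbc.res hϖ ζR hprim c0 hc hc0
    H (natCast_isUnit_R0 K0 A hq hA hqm) hded1 hded2 hxq hyq Φ hΦ hΦx hΦy hxy1 hxy2 k1 k2

end Fermat.Agent.S36
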