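import Fermat.Agent.S36.ValTh

/-!
# S36, G-REG, [WILSON] : `(ζ - 1) ^ (q - 1) = q * κ` with `κ ≡ -1`

and the consequence `(Y(ζ T) - Y(T)) ^ (q - 1) = q * G`, `ρ G = - (θ (ρ Y)) ^ (q - 1)`.
-/

set_option autoImplicit false
set_option linter.unusedSectionVars false

noncomputable section

namespace Fermat.Agent.S36.ValTh

open ModularCurve Polynomial
open Fermat.Agent.S34 Fermat.Agent.S35 Fermat.Agent.ES.QE Fermat.Agent.ES.Model

theorem fact_cast_eq_neg_one (k : Type*) [Field k] (q : ℕ) [Fact q.Prime] [CharP k q] :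
    (((q - 1).factorial : ℕ) : k) = -1 := by
  have h1 : (((q - 1).factorial + 1 : ℕ) : ZMod q) = 0 := by
    push_cast
    rw [ZMod.wilsons_lemma]
    ring
  have h2 : q ∣ (q - 1).factorial + 1 := (ZMod.natCast_eq_zero_iff _ _).1 h1
  have h3 : (((q - 1).factorial + 1 : ℕ) : k) = 0 := (CharP.cast_eq_zero_iff k q _).2 h2
  push_cast at h3
  exact eq_neg_of_add_eq_zero_left h3

theorem neg_one_pow_eq_one (k : Type*) [Field k] (q : ℕ) [Fact q.Prime] [CharP k q] :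
    ((-1 : k)) ^ (q - 1) = 1 := by
  rcases (Fact.out : q.Prime).eq_two_or_odd' with rfl | hodd
  · have : (2 : k) = 0 := by
      have := CharP.cast_eq_zero k 2
      exact_mod_cast this
    simp only [Nat.add_one_sub_one, pow_one]
    linear_combination (-1 : k) * this
  · obtain ⟨m, rfl⟩ := hodd
    rw [Nat.add_sub_cancel, pow_mul]
    simp

variable {R K k : Type*} [CommRing R] [IsDomain R] [IsNoetherianRing R] [IsIntegrallyClosed R]
  [Field K] [Algebra R K] [IsFractionRing R K] [Field k]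

variable {D : QData R K k}

/-- **[WILSON]** -/
theorem wilson (q : ℕ) [Fact q.Prime] [CharP k q] (ζ : Rˣ) (hζ : D.res ζ = 1)
    (hprim : IsPrimitiveRoot (ζ : R) q) :
    ∃ κ : R, ((ζ : R) - 1) ^ (q - 1) = (q : R) * κ ∧ D.res κ = -1 := by
  have hq : q.Prime := Fact.out
  obtain ⟨ε, hε⟩ := Mid.associated_pow hq hprim
  have hζ1 : (ζ : R) - 1 ≠ 0 := sub_ne_zero.2 (hprim.ne_one hq.one_lt)
  obtain ⟨n, hn⟩ : ∃ n, q = n + 1 := ⟨q - 1, by have := hq.pos; omega⟩
  have hqn : q - 1 = n := by omega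
  have hprim' : IsPrimitiveRoot (ζ : R) (n + 1) := hn ▸ hprim
  have h1 := hprim'.prod_one_sub_pow_eq_order
  have h2 : ∏ b ∈ Finset.range n, (1 - (ζ : R) ^ (b + 1))
      = (-1) ^ n * ((ζ : R) - 1) ^ n * ∏ b ∈ Finset.range n, ∑ i ∈ Finset.range (b + 1), (ζ : R) ^ i := by
    have : ∀ b ∈ Finset.range n, (1 - (ζ : R) ^ (b + 1))
        = (-1 * ((ζ : R) - 1)) * ∑ i ∈ Finset.range (b + 1), (ζ : R) ^ i := by
      intro b _
      have := mul_geom_sum (ζ : R) (b + 1)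
      linear_combination this
    rw [Finset.prod_congr rfl this, Finset.prod_mul_distrib, Finset.prod_const, Finset.card_range,
      mul_pow]
  have h3 : (ε : R) = (-1) ^ n * ∏ b ∈ Finset.range n, ∑ i ∈ Finset.range (b + 1), (ζ : R) ^ i := by
    apply mul_left_cancel₀ (pow_ne_zero n hζ1)
    have h4 : ((ζ : R) - 1) ^ n * (ε : R) = (n : R) + 1 := by
      rw [← hqn, hε, hn]; push_cast; rfl
    rw [h4, ← h1, h2]
    ring
  have h5 : D.res (ε : R) = -1 := by
    rw [h3, map_mul, map_pow, map_neg, map_one, ← hqn, neg_one_pow_eq_one k q, one_mul, map_prod]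
    have : ∀ b ∈ Finset.range (q - 1), D.res (∑ i ∈ Finset.range (b + 1), (ζ : R) ^ i)
        = ((b + 1 : ℕ) : k) := by
      intro b _
      rw [map_sum]
      simp [hζ]
    rw [Finset.prod_congr rfl this, ← Nat.cast_prod, Finset.prod_range_add_one_eq_factorial,
      fact_cast_eq_neg_one k q]
  refine ⟨((ε⁻¹ : Rˣ) : R), ?_, ?_⟩
  · rw [← hε, mul_assoc, ← Units.val_mul, mul_inv_cancel, Units.val_one, mul_one]
  · have h6 : D.res ((ε⁻¹ : Rˣ) : R) * D.res (ε : R) = 1 := by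
      rw [← map_mul, ← Units.val_mul, inv_mul_cancel, Units.val_one, map_one]
    rw [h5] at h6
    linear_combination (-1 : k) * h6

/-- **`(Y(ζ T) - Y(T)) ^ (q - 1) = q * G`, `ρ G = - (θ (ρ Y)) ^ (q - 1)`.** -/
theorem exists_pow (q : ℕ) [Fact q.Prime] [CharP k q] (ζ : Rˣ) (hζ : D.res ζ = 1)
    (hprim : IsPrimitiveRoot (ζ : R) q) {Y : LaurentSeries K} (hY : Y ∈ D.LamRing) :
    ∃ (G : LaurentSeries K) (hG : G ∈ D.LamRing),
      (S28.twist (GNorm.uK ζ) Y - Y) ^ (q - 1) = (q : LaurentSeries K) * G ∧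
      D.rho ⟨G, hG⟩ = - tht (D.rho ⟨Y, hY⟩) ^ (q - 1) := by
  obtain ⟨κ, h1, h2⟩ := wilson (D := D) q ζ hζ hprim
  obtain ⟨Th, hTh, h3, h4⟩ := exists_th ζ hζ hY
  have hκ : D.inc (HahnSeries.C κ) ∈ D.LamRing := QData.inc_mem_LamRing _
  refine ⟨D.inc (HahnSeries.C κ) * Th ^ (q - 1),
    D.LamRing.mul_mem hκ (D.LamRing.pow_mem hTh _), ?_, ?_⟩
  · have hC : D.inc (HahnSeries.C κ) = HahnSeries.C (algebraMap R K κ) := by
      rw [QData.inc, coeffMap_C]
    rw [h3, mul_pow, ← map_pow HahnSeries.C, ← map_pow, h1, map_mul, map_mul, hC, map_natCast,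
      map_natCast, mul_assoc]
  · have : (⟨D.inc (HahnSeries.C κ) * Th ^ (q - 1),
        D.LamRing.mul_mem hκ (D.LamRing.pow_mem hTh _)⟩ : D.LamRing)
        = ⟨D.inc (HahnSeries.C κ), hκ⟩ * ⟨Th, hTh⟩ ^ (q - 1) := rfl
    rw [this, map_mul, map_pow, h4, QData.rho_inc, QData.red, coeffMap_C, h2, map_neg, map_one,
      neg_one_mul]

end Fermat.Agent.S36.ValTh
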