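import Fermat.Agent.S36.Val2
import Fermat.Agent.S36.ValW
import Fermat.Agent.S36.TDefs
import Fermat.Agent.S36.Gauss3

/-!
# S36, G-REG, (T2) : the congruence on the middle branch

`H : Three T i ζ`.  For `f ∈ D.F0` Gauss-integral, `x := β β f - α α f` has
`eC x = Y(ζ T) - Y(T)`, `Y = bc f`; so `x ∈ t O_C` and `x ^ (q - 1) / q ≡ - (θ fbar) ^ (q - 1)`.
Together with [VAL] for `φ = T.be` this gives the hypothesis `hK` of `TAsm.t2_of_delta`.
-/

set_option autoImplicit false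
set_option linter.unusedSectionVars false
set_option linter.unusedVariables false

noncomputable section

namespace Fermat.Agent.S36.Val3

open ModularCurve Polynomial
open Fermat.Agent.S34 Fermat.Agent.S35 Fermat.Agent.ES.QE Fermat.Agent.ES.Model
open Fermat.Agent.S36.ValTh Fermat.Agent.S36.Val1 Fermat.Agent.S36.Val2

variable {R K k : Type*} [CommRing R] [IsDomain R] [IsNoetherianRing R] [IsIntegrallyClosed R]
  [Field K] [Algebra R K] [IsFractionRing R K] [Field k]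
  {R' K' : Type*} [CommRing R'] [IsDomain R'] [IsNoetherianRing R'] [IsIntegrallyClosed R']
  [Field K'] [Algebra R' K'] [IsFractionRing R' K']

variable {D : QData R K k} {D' : QData R' K' k} {iR : R →+* R'} {i : K →+* K'}
  {q : ℕ} [NeZero q] {T : Two D q} {ζ : K'ˣ} (H : Three T i ζ)

/-- `x_f = β β f - α α f`. -/
def xf (f : D.F0) : H.F := H.be (T.be f) - H.al (T.al f)

theorem eC_xf (f : D.F0) :
    H.eC (xf H f) = S28.twist ζ (coeffMap i (f : LaurentSeries K)) - coeffMap i (f : LaurentSeries K) := by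
  rw [xf, map_sub, H.eC_be, H.eC_al, T.e2_be]
  rfl

theorem res_one [Fact q.Prime] [CharP k q] (ζR : R'ˣ) (hprim : IsPrimitiveRoot (ζR : R') q) :
    D'.res ζR = 1 :=
  GNorm.res_eq_one q ζR (Units.ext (by
    rw [Units.val_pow_eq_pow_val, hprim.pow_eq_one, Units.val_one]))

/-- `x_f ∈ t O_C`. -/
theorem xf_divS (B : BCData D D' iR i) [Fact q.Prime] [CharP k q] (ζR : R'ˣ)
    (hζ : ζ = GNorm.uK ζR) (hprim : IsPrimitiveRoot (ζR : R') q)
    (dvC : IsDV (H.OC D') H.tC) (f : D.F0) (hf : (f : LaurentSeries K) ∈ D.LamRing) :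
    DivS (H.OC D') H.tC 1 (xf H f) := by
  subst hζ
  have hres := res_one (D' := D') ζR hprim
  have hY : coeffMap i (f : LaurentSeries K) ∈ D'.LamRing := B.bc_mem hf
  have hm : H.eC (xf H f) ∈ D'.LamRing := by
    rw [eC_xf]
    exact D'.LamRing.sub_mem (GNorm.twist_mem_LamRing ζR hres hY) hY
  refine G3.divS_of_rho H.eC dvC hm ?_
  have : (⟨H.eC (xf H f), hm⟩ : D'.LamRing)
      = ⟨S28.twist (GNorm.uK ζR) (coeffMap i (f : LaurentSeries K)),
          GNorm.twist_mem_LamRing ζR hres hY⟩ - ⟨coeffMap i (f : LaurentSeries K), hY⟩ :=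
    Subtype.ext (eC_xf H f)
  rw [this, map_sub, GNorm.rho_twist ζR hres hY, sub_self]

/-- **the congruence on the middle branch.** -/
theorem cong_mid (B : BCData D D' iR i) [Fact q.Prime] [CharP k q] (ζR : R'ˣ)
    (hζ : ζ = GNorm.uK ζR) (hprim : IsPrimitiveRoot (ζR : R') q)
    (dvC : IsDV (H.OC D') H.tC) {u c : T.F} (hu : u ∈ T.O1) (hc : c ∈ T.O1)
    (f : D.F0) (hf : (f : LaurentSeries K) ∈ D.LamRing)
    (hρ : T.rho1 ⟨u, hu⟩ = T.rho1 ⟨c, hc⟩ * tht (D.rho ⟨f, hf⟩) ^ (q - 1)) :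
    DivS (H.OC D') H.tC 1 (H.al u - (- H.al c) * (xf H f ^ (q - 1) / (q : H.F))) := by
  subst hζ
  have hq : q.Prime := Fact.out
  have hres := res_one (D' := D') ζR hprim
  have hY : coeffMap i (f : LaurentSeries K) ∈ D'.LamRing := B.bc_mem hf
  obtain ⟨G, hG, h1, h2⟩ := exists_pow q ζR hres hprim hY
  have hqL := natCast_ne_zero (K' := K') hq ζR hprim
  have hGe : H.eC (xf H f ^ (q - 1) / (q : H.F)) = G := by
    rw [map_div₀, map_pow, eC_xf, h1, map_natCast, mul_div_cancel_left₀ _ hqL]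
  have hu' : coeffMap i (T.e1 u) ∈ D'.LamRing := B.bc_mem hu
  have hc' : coeffMap i (T.e1 c) ∈ D'.LamRing := B.bc_mem hc
  have hE : H.eC (H.al u - (- H.al c) * (xf H f ^ (q - 1) / (q : H.F)))
      = coeffMap i (T.e1 u) + coeffMap i (T.e1 c) * G := by
    rw [map_sub, map_mul, map_neg, hGe, H.eC_al, H.eC_al]
    ring
  have hm : H.eC (H.al u - (- H.al c) * (xf H f ^ (q - 1) / (q : H.F))) ∈ D'.LamRing := by
    rw [hE]
    exact D'.LamRing.add_mem hu' (D'.LamRing.mul_mem hc' hG)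
  refine G3.divS_of_rho H.eC dvC hm ?_
  have : (⟨H.eC (H.al u - (- H.al c) * (xf H f ^ (q - 1) / (q : H.F))), hm⟩ : D'.LamRing)
      = ⟨coeffMap i (T.e1 u), hu'⟩ + ⟨coeffMap i (T.e1 c), hc'⟩ * ⟨G, hG⟩ := Subtype.ext hE
  have ru : D'.rho ⟨coeffMap i (T.e1 u), hu'⟩ = T.rho1 ⟨u, hu⟩ := B.rho_bc hu
  have rc : D'.rho ⟨coeffMap i (T.e1 c), hc'⟩ = T.rho1 ⟨c, hc⟩ := B.rho_bc hc
  rw [this, map_add, map_mul, ru, rc, h2, B.rho_bc hf, hρ]
  ring

/-- **`hK` of `TAsm.t2_of_delta`** : `δ = g'(y0)` for `φ = T.be`, `y0 ≡ α f` on component 1,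
`y0 ≡ β f2` on component 2, `w = - α (y0 - β f2)`, `x = x_f`. -/
theorem hK_of (B : BCData D D' iR i) [Fact q.Prime] [CharP k q] (ζR : R'ˣ)
    (hζ : ζ = GNorm.uK ζR) (hprim : IsPrimitiveRoot (ζR : R') q)
    (dvC : IsDV (H.OC D') H.tC) (hϖ : D.ϖ = (q : R))
    {y0 : T.F} (h1 : y0 ∈ T.O1) (h2 : y0 ∈ T.O2)
    (g : D.F0[X]) (hg : g.Monic) (hdeg : g.natDegree = q + 1) (hroot : eval₂ T.be y0 g = 0)
    (f f2 : D.F0) (hf : (f : LaurentSeries K) ∈ D.LamRing)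
    (hf2 : (f2 : LaurentSeries K) ∈ D.LamRing)
    (e1 : T.rho1 ⟨y0, h1⟩ = D.rho ⟨f, hf⟩) (e2 : T.rho2 ⟨y0, h2⟩ = D.rho ⟨f2, hf2⟩)
    (hne : D.rho ⟨f, hf⟩ ≠ qExpand k q (D.rho ⟨f2, hf2⟩))
    (hθ : tht (D.rho ⟨f, hf⟩) ≠ 0) :
    DivS (H.OC D') H.tC 1 (H.al (eval₂ T.be y0 (derivative g) / T.ϖF)
      - (- H.al (y0 - T.be f2)) * (xf H f ^ (q - 1) / H.ϖF)) := by
  have hq : q.Prime := Fact.out
  have hres := res_one (D' := D') ζR hprim
  obtain ⟨-, hU, hm, hr⟩ := val_be T B hq ζR hprim hres h1 h2 g hg hdeg hroot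
    (by rw [e1, e2]; exact hne) (by rw [e1]; exact hθ)
  have hbe : T.be f2 ∈ T.O1 := NOrth.qExpand_mem_LamRing q hf2
  have hc : y0 - T.be f2 ∈ T.O1 := T.O1.sub_mem h1 hbe
  have hϖH : H.ϖF = (q : H.F) := by
    rw [Three.ϖF, hϖ, map_natCast, map_natCast]
  rw [ϖF_eq T hϖ, hϖH]
  refine cong_mid H B ζR hζ hprim dvC hm hc f hf ?_
  rw [hr, e1, e2]
  congr 1
  have : (⟨y0 - T.be f2, hc⟩ : T.O1) = ⟨y0, h1⟩ - ⟨T.be f2, hbe⟩ := rfl
  rw [this, map_sub, e1]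
  congr 1
  exact (NOrth.rho_qExpand q hf2).symm

end Fermat.Agent.S36.Val3
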