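import Fermat.Agent.S36.TAsm
import Fermat.Agent.S36.Val3
import Fermat.Agent.S34.QNode
import Fermat.Agent.S34.QVal

/-!
# S36, G-REG : (T2) at the non-cuspidal ordinary points of the middle component, on `H : Three`

Assembly of `TAsm.t2_of_delta`, `Val2.val_be`, `Val3.hK_of`.  The data `y0, g, f, f2` at
`n1 = α⁻¹ n` (block [GEN-O]), the tube statement (block [DIFF]) and (T1) are hypotheses.
-/

set_option autoImplicit false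
set_option linter.unusedSectionVars false
set_option linter.unusedVariables false
set_option synthInstance.maxHeartbeats 400000

noncomputable section

namespace Fermat.Agent.S36.T2Inst

open ModularCurve Polynomial
open Fermat.Agent.S34 Fermat.Agent.S35 Fermat.Agent.ES.QE Fermat.Agent.ES.Model
open Fermat.Agent.S36.ValTh Fermat.Agent.S36.Val1 Fermat.Agent.S36.Val2 Fermat.Agent.S36.Val3

variable {R K k : Type*} [CommRing R] [IsDomain R] [IsNoetherianRing R] [IsIntegrallyClosed R]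
  [Field K] [Algebra R K] [IsFractionRing R K] [Field k]
  {R' K' : Type*} [CommRing R'] [IsDomain R'] [IsNoetherianRing R'] [IsIntegrallyClosed R']
  [Field K'] [Algebra R' K'] [IsFractionRing R' K']

variable {D : QData R K k} {D' : QData R' K' k} {iR : R →+* R'} {i : K →+* K'}
  {q : ℕ} [NeZero q] {T : Two D q} {ζ : K'ˣ} (H : Three T i ζ)

theorem rho1_eq_of_divS {a b : T.F} (ha : a ∈ T.O1) (hb : b ∈ T.O1)
    (h : DivS T.O1 T.ϖF 1 (a - b)) : T.rho1 ⟨a, ha⟩ = T.rho1 ⟨b, hb⟩ := by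
  have h1 := (QNode.divS_O1_iff T ⟨a - b, T.O1.sub_mem ha hb⟩).1 h
  have h2 : (⟨a - b, T.O1.sub_mem ha hb⟩ : T.O1) = ⟨a, ha⟩ - ⟨b, hb⟩ := rfl
  rw [h2, map_sub] at h1
  exact sub_eq_zero.1 h1

theorem rho2_eq_of_divS {a b : T.F} (ha : a ∈ T.O2) (hb : b ∈ T.O2)
    (h : DivS T.O2 T.ϖF 1 (a - b)) : T.rho2 ⟨a, ha⟩ = T.rho2 ⟨b, hb⟩ := by
  have h1 := (QNode.divS_O2_iff T ⟨a - b, T.O2.sub_mem ha hb⟩).1 h
  have h2 : (⟨a - b, T.O2.sub_mem ha hb⟩ : T.O2) = ⟨a, ha⟩ - ⟨b, hb⟩ := rfl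
  rw [h2, map_sub] at h1
  exact sub_eq_zero.1 h1

/-- **(T2)** at a non-cuspidal ordinary point of the middle component. -/
theorem t2_core (X : D.Coord) (B : BCData D D' iR i) [Fact q.Prime] [CharP k q] (ζR : R'ˣ)
    (hζ : ζ = GNorm.uK ζR) (hprim : IsPrimitiveRoot (ζR : R') q)
    (dvC : IsDV (H.OC D') H.tC) (hϖ : D.ϖ = (q : R)) {m : ℕ}
    (hB : IsChartS (H.OA ⊓ H.OC D' ⊓ H.OB) H.ϖF m (H.chart X))
    (memF : ∀ b : H.chart X, b ∈ H.pA X ↔ DivS H.OA H.ϖF 1 (b : H.F))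
    (memM : ∀ b : H.chart X, b ∈ H.pC X D' ↔ DivS (H.OC D') H.tC 1 (b : H.F))
    (memV : ∀ b : H.chart X, b ∈ H.pB X ↔ DivS H.OB H.ϖF 1 (b : H.F))
    (hram : IsU (H.OC D') (H.ϖF / H.tC ^ (q - 1)))
    (hB' : IsChartS (T.O1 ⊓ T.O2) T.ϖF m (T.chart X))
    (halM : ∀ x ∈ T.O1, H.al x ∈ H.OC D')
    (hbe1 : ∀ c ∈ X.chart, T.be c ∈ T.chart X) (hbe2 : ∀ b ∈ T.chart X, H.be b ∈ H.chart X)
    (n : Ideal (H.chart X)) (hn : n.IsPrime) (hM : H.pC X D' ≤ n) (hF : ¬ H.pA X ≤ n)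
    (hV : ¬ H.pB X ≤ n)
    (hT1 : T.p2 X ≤ n.comap (H.alB X) → ∃ a b s : T.chart X, a ∈ T.p1 X ∧ b ∈ T.p2 X ∧
      s ∉ n.comap (H.alB X) ∧ s * T.ϖB X = a * b)
    (y0 : T.chart X) (hy0 : y0 ∈ n.comap (H.alB X))
    (g : D.F0[X]) (hg : g.Monic) (hdeg : g.natDegree = q + 1)
    (hroot : eval₂ T.be (y0 : T.F) g = 0)
    (f f2 : X.chart) (hf : DivS T.O1 T.ϖF 1 ((y0 : T.F) - T.al f))
    (hf2 : DivS T.O2 T.ϖF 1 ((y0 : T.F) - T.be f2))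
    (hf2n : (⟨T.be f2, hbe1 f2 f2.2⟩ : T.chart X) ∉ n.comap (H.alB X))
    (hθ : tht (T.rho1 ⟨(y0 : T.F), (hB'.le _ y0.2).1⟩) ≠ 0)
    (htube : InTube (T.ϖB X) (n.comap (H.alB X)) (eval₂ T.be (y0 : T.F) (derivative g))⁻¹) :
    ∃ x ∈ H.pC X D', ∃ s, s ∉ n ∧ ∃ c, s * (⟨H.ϖF, hB.unif_mem⟩ : H.chart X) = c * x ^ (q - 1) := by
  have hq : q.Prime := Fact.out
  have hres := res_one (D' := D') ζR hprim
  have h1 : (y0 : T.F) ∈ T.O1 := (hB'.le _ y0.2).1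
  have h2 : (y0 : T.F) ∈ T.O2 := (hB'.le _ y0.2).2
  have hfL : ((f : D.F0) : LaurentSeries K) ∈ D.LamRing := X.chart_le_gaussO f.2
  have hf2L : ((f2 : D.F0) : LaurentSeries K) ∈ D.LamRing := X.chart_le_gaussO f2.2
  have mem1 : ∀ b : T.chart X, b ∈ T.p1 X ↔ DivS T.O1 T.ϖF 1 (b : T.F) := QNode.mem_p1 T X
  have mem2 : ∀ b : T.chart X, b ∈ T.p2 X ↔ DivS T.O2 T.ϖF 1 (b : T.F) := QNode.mem_p2 T X
  -- the reductions
  have e1 : T.rho1 ⟨(y0 : T.F), h1⟩ = D.rho ⟨((f : D.F0) : LaurentSeries K), hfL⟩ :=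
    rho1_eq_of_divS h1 (show T.al f ∈ T.O1 from hfL) hf
  have hbeO2 : T.be f2 ∈ T.O2 := by
    show T.e2 (T.be f2) ∈ D.LamRing
    rw [T.e2_be]; exact hf2L
  have e2 : T.rho2 ⟨(y0 : T.F), h2⟩ = D.rho ⟨((f2 : D.F0) : LaurentSeries K), hf2L⟩ := by
    rw [rho2_eq_of_divS h2 hbeO2 hf2]
    exact rho2_be T ⟨f2, hf2L⟩
  have hϖ0 : H.ϖF ≠ 0 := fun h0 => hram.ne_zero (by rw [h0, zero_div])
  -- `α p₁ ⊆ p_M`
  have hϖt : DivS (H.OC D') H.tC 1 H.ϖF := by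
    refine ⟨H.tC ^ (q - 2) * (H.ϖF / H.tC ^ (q - 1)),
      (H.OC D').mul_mem ((H.OC D').pow_mem dvC.mem _) hram.mem, ?_⟩
    have ht0 : H.tC ≠ 0 := dvC.ne_zero
    have hq2 : q - 1 = (q - 2) + 1 := by have := hq.two_le; omega
    rw [hq2, pow_one]
    field_simp
    ring
  have hp1 : T.p1 X ≤ n.comap (H.alB X) := by
    intro b hb
    obtain ⟨z, hz, hbz⟩ := (mem1 b).1 hb
    apply hM
    rw [memM]
    show DivS (H.OC D') H.tC 1 (H.al (b : T.F))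
    rw [hbz, pow_one, map_mul]
    exact hϖt.mul_right (halM z hz)
  have hbeO1 : T.be f2 ∈ T.O1 := NOrth.qExpand_mem_LamRing q hf2L
  have hne : D.rho ⟨((f : D.F0) : LaurentSeries K), hfL⟩
      ≠ qExpand k q (D.rho ⟨((f2 : D.F0) : LaurentSeries K), hf2L⟩) := by
    intro he
    apply hf2n
    have h3 : T.rho1 ⟨(y0 : T.F) - T.be f2, T.O1.sub_mem h1 hbeO1⟩ = 0 := by
      have h4 : (⟨(y0 : T.F) - T.be f2, T.O1.sub_mem h1 hbeO1⟩ : T.O1)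
          = ⟨(y0 : T.F), h1⟩ - ⟨T.be f2, hbeO1⟩ := rfl
      rw [h4, map_sub, e1, he, sub_eq_zero]
      exact (rho1_be T ⟨f2, hf2L⟩).symm
    have h5 : y0 - (⟨T.be f2, hbe1 f2 f2.2⟩ : T.chart X) ∈ T.p1 X :=
      (mem1 _).2 ((QNode.divS_O1_iff T ⟨(y0 : T.F) - T.be f2, T.O1.sub_mem h1 hbeO1⟩).2 h3)
    have h6 := (n.comap (H.alB X)).sub_mem hy0 (hp1 h5)
    rwa [sub_sub_cancel] at h6
  have hθ' : tht (D.rho ⟨((f : D.F0) : LaurentSeries K), hfL⟩) ≠ 0 := by rw [← e1]; exact hθ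
  obtain ⟨hU2, hU1, -⟩ := val_be T B hq ζR hprim hres h1 h2 g hg hdeg hroot
    (by rw [e1, e2]; exact hne) hθ
  have hK := hK_of H B ζR hζ hprim dvC hϖ h1 h2 g hg hdeg hroot f f2 hfL hf2L e1 e2 hne hθ'
  have hxm : xf H f ∈ H.chart X :=
    (H.chart X).sub_mem (hbe2 _ (hbe1 f f.2)) (H.al_mem_chart X (T.al_mem_chart X f.2))
  have hwm : - H.al ((y0 : T.F) - T.be f2) ∈ H.chart X :=
    (H.chart X).neg_mem (H.al_mem_chart X ((T.chart X).sub_mem y0.2 (hbe1 f2 f2.2)))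
  have hx : (⟨xf H f, hxm⟩ : H.chart X) ∈ H.pC X D' :=
    (memM _).2 (xf_divS H B ζR hζ hprim dvC f hfL)
  refine ⟨⟨xf H f, hxm⟩, hx, ?_⟩
  refine TAsm.t2_of_delta hϖ0 hB memF memM memV hram hB' mem1 mem2
    (fun x hx => H.al_mem_chart X hx) rfl halM n hn hM hF hV (n.comap (H.alB X))
    (fun x => Iff.rfl) hT1 (eval₂ T.be (y0 : T.F) (derivative g)) hU2.ne_zero ?_ htube
    ⟨xf H f, hxm⟩ hx ⟨- H.al ((y0 : T.F) - T.be f2), hwm⟩ hK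
  have h7 := hU1.inv_mem
  rwa [inv_div, ← ϖF_eq T hϖ] at h7

end Fermat.Agent.S36.T2Inst
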