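import Fermat.Agent.S36.GDefs
import Fermat.Agent.S35.GLP

/-!
# S36, block G-REG : abstract assembly of (T1) and (T2)

* `TAsm.t1_abs` : thickness one at a node of level `q` from an element `δ` of the chart which is a
  unit on the tube, a unit of `O1`, and `ϖ` times a unit of `O2`.
* `TAsm.unit_at2` : a tube unit which is a unit on every branch through `n` is a unit at `n`
  (two components).
* `TAsm.ord_of_t1` : a point of the middle component which is on no other component lies over an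
  ordinary point of level `q`.
* `TAsm.t2_abs` : (T2) at such a point.
-/

set_option autoImplicit false

namespace Fermat.Agent.S36

open Fermat.Agent.S34 Fermat.Agent.S35

namespace TAsm

variable {F : Type*} [Field F]

/-- `B[1/ϖ] ∩ O = B`. -/
theorem sat_pow' {O : Subring F} {ϖ : F} {m : ℕ} {B : Subring F} (hB : IsChartS O ϖ m B)
    (hϖ : ϖ ≠ 0) : ∀ (k : ℕ) (y : F), y ∈ O → ϖ ^ k * y ∈ B → y ∈ B := by
  intro k
  induction k with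
  | zero => intro y _ hy; rwa [pow_zero, one_mul] at hy
  | succ k ih =>
    intro y hyO hy
    apply ih y hyO
    obtain ⟨y', hy', e⟩ := hB.sat _ hy
      ⟨ϖ ^ k * y, O.mul_mem (O.pow_mem (hB.le _ hB.unif_mem) k) hyO, by
        rw [pow_one, pow_succ]; ring⟩
    have : ϖ ^ k * y = y' := by
      apply mul_left_cancel₀ hϖ
      rw [← e, pow_succ]
      ring
    rw [this]
    exact hy'

/-- **(T1), abstract.** -/
theorem t1_abs {O1 O2 : Subring F} {ϖ : F} {m : ℕ} {B : Subring F} {p1 p2 : Ideal B}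
    (hϖ0 : ϖ ≠ 0) (hB : IsChartS (O1 ⊓ O2) ϖ m B)
    (mem1 : ∀ b : B, b ∈ p1 ↔ DivS O1 ϖ 1 (b : F))
    (mem2 : ∀ b : B, b ∈ p2 ↔ DivS O2 ϖ 1 (b : F))
    (n : Ideal B) (δ : B) (hδ1 : IsU O1 (δ : F)) (hδ2 : IsU O2 ((δ : F) / ϖ))
    (htube : InTube (⟨ϖ, hB.unif_mem⟩ : B) n (δ : F)⁻¹) :
    ∃ a b s : B, a ∈ p1 ∧ b ∈ p2 ∧ s ∉ n ∧ s * (⟨ϖ, hB.unif_mem⟩ : B) = a * b := by
  obtain ⟨s, hs, k, b0, hb0⟩ := GLP.inTube_iff.1 htube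
  have hδ0 : (δ : F) ≠ 0 := hδ1.1
  have hs1 : (s : F) ∈ O1 := (hB.le _ s.2).1
  have hs2 : (s : F) ∈ O2 := (hB.le _ s.2).2
  have hϖ1 : ϖ ∈ O1 := (hB.le _ hB.unif_mem).1
  have hyO : (s : F) * ϖ * (δ : F)⁻¹ ∈ O1 ⊓ O2 := by
    refine ⟨O1.mul_mem (O1.mul_mem hs1 hϖ1) hδ1.2.2, ?_⟩
    have : (s : F) * ϖ * (δ : F)⁻¹ = s * ((δ : F) / ϖ)⁻¹ := by
      field_simp
    rw [SetLike.mem_coe, this]
    exact O2.mul_mem hs2 hδ2.2.2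
  have hyB : (s : F) * ϖ * (δ : F)⁻¹ ∈ B := by
    apply sat_pow' hB hϖ0 k _ hyO
    have : ϖ ^ k * ((s : F) * ϖ * (δ : F)⁻¹) = ϖ * b0 := by
      rw [← hb0]; ring
    rw [this]
    exact B.mul_mem hB.unif_mem b0.2
  refine ⟨⟨_, hyB⟩, δ, s, ?_, ?_, hs, ?_⟩
  · rw [mem1]
    exact ⟨s * (δ : F)⁻¹, O1.mul_mem hs1 hδ1.2.2, by rw [pow_one]; ring⟩
  · rw [mem2]
    exact ⟨(δ : F) / ϖ, hδ2.2.1, by rw [pow_one]; field_simp⟩
  · apply Subtype.ext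
    simp only [Subring.coe_mul]
    field_simp

/-- multiplier attached to one component. -/
theorem exists_mult' {OX : Subring F} {ϖ : F} {B : Subring F}
    (hle : ∀ x ∈ B, x ∈ OX) (p : Ideal B) (hmem : ∀ b : B, b ∈ p ↔ DivS OX ϖ 1 (b : F))
    (n : Ideal B) (hn : n.IsPrime) (x : F) (hx : p ≤ n → x ∈ OX) :
    ∃ θ : B, θ ∉ n ∧ ∀ (b c : B), (b : F) = c * ϖ * x → DivS OX ϖ 1 ((θ : F) * b) := by
  by_cases hp : p ≤ n
  · refine ⟨1, fun h => hn.ne_top ((Ideal.eq_top_iff_one n).2 h), fun b c hb => ?_⟩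
    refine ⟨c * x, OX.mul_mem (hle _ c.2) (hx hp), ?_⟩
    rw [Subring.coe_one, one_mul, hb, pow_one]
    ring
  · obtain ⟨θ, hθp, hθn⟩ := SetLike.not_le_iff_exists.1 hp
    refine ⟨θ, hθn, fun b c _ => ?_⟩
    obtain ⟨y, hy, hθy⟩ := (hmem θ).1 hθp
    refine ⟨y * b, OX.mul_mem hy (hle _ b.2), ?_⟩
    rw [hθy]
    ring

/-- regular on the tube + regular on every branch through `n` ⟹ regular at `n`
(two components). -/
theorem mem_at2 {O1 O2 : Subring F} {ϖ : F} {m : ℕ} {B : Subring F} {p1 p2 : Ideal B}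
    (hϖ0 : ϖ ≠ 0) (hB : IsChartS (O1 ⊓ O2) ϖ m B)
    (mem1 : ∀ b : B, b ∈ p1 ↔ DivS O1 ϖ 1 (b : F))
    (mem2 : ∀ b : B, b ∈ p2 ↔ DivS O2 ϖ 1 (b : F))
    (n : Ideal B) (hn : n.IsPrime) (x : F)
    (hx : InTube (⟨ϖ, hB.unif_mem⟩ : B) n x)
    (hx1 : p1 ≤ n → x ∈ O1) (hx2 : p2 ≤ n → x ∈ O2) :
    ∃ s b : B, s ∉ n ∧ (s : F) * x = b := by
  obtain ⟨s, hs, k, b, hb⟩ := GLP.inTube_iff.1 hx
  have hle1 : ∀ x ∈ B, x ∈ O1 := fun x hx => (hB.le x hx).1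
  have hle2 : ∀ x ∈ B, x ∈ O2 := fun x hx => (hB.le x hx).2
  obtain ⟨θ1, hθ1, h1⟩ := exists_mult' hle1 p1 mem1 n hn x hx1
  obtain ⟨θ2, hθ2, h2⟩ := exists_mult' hle2 p2 mem2 n hn x hx2
  induction k generalizing s b with
  | zero => exact ⟨s, b, hs, by rw [← hb, pow_zero, mul_one]⟩
  | succ k ih =>
    have hb' : (b : F) = ((s * (⟨ϖ, hB.unif_mem⟩ : B) ^ k : B) : F) * ϖ * x := by
      rw [← hb, Subring.coe_mul, Subring.coe_pow, pow_succ]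
      ring
    obtain ⟨y1, hy1, e1⟩ := h1 b _ hb'
    obtain ⟨y2, hy2, e2⟩ := h2 b _ hb'
    rw [pow_one] at e1 e2
    have hdiv : DivS (O1 ⊓ O2) ϖ 1 ((θ1 * θ2 * b : B) : F) := by
      refine ⟨(θ1 : F) * θ2 * b * ϖ⁻¹, ⟨?_, ?_⟩, ?_⟩
      · have : (θ1 : F) * θ2 * b * ϖ⁻¹ = θ2 * y1 := by
          have : (θ1 : F) * θ2 * b = θ2 * (θ1 * b) := by ring
          rw [this, e1]
          field_simp
        rw [SetLike.mem_coe, this]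
        exact O1.mul_mem (hle1 _ θ2.2) hy1
      · have : (θ1 : F) * θ2 * b * ϖ⁻¹ = θ1 * y2 := by
          have : (θ1 : F) * θ2 * b = θ1 * (θ2 * b) := by ring
          rw [this, e2]
          field_simp
        rw [SetLike.mem_coe, this]
        exact O2.mul_mem (hle2 _ θ1.2) hy2
      · simp only [Subring.coe_mul, pow_one]
        field_simp
    obtain ⟨y, hy, ey⟩ := hB.sat _ (θ1 * θ2 * b : B).2 hdiv
    refine ih (θ1 * θ2 * s) ?_ ⟨y, hy⟩ ?_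
    · intro h0
      rcases hn.mem_or_mem h0 with h1 | h1
      · rcases hn.mem_or_mem h1 with h2 | h2
        · exact hθ1 h2
        · exact hθ2 h2
      · exact hs h1
    · apply mul_left_cancel₀ hϖ0
      show ϖ * (((θ1 * θ2 * s : B) : F) * ϖ ^ k * x) = ϖ * y
      rw [← ey]
      simp only [Subring.coe_mul]
      rw [← hb, pow_succ]
      ring

/-- unit on the tube + unit on every branch through `n` ⟹ unit at `n` (two components). -/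
theorem unit_at2 {O1 O2 : Subring F} {ϖ : F} {m : ℕ} {B : Subring F} {p1 p2 : Ideal B}
    (hϖ0 : ϖ ≠ 0) (hB : IsChartS (O1 ⊓ O2) ϖ m B)
    (mem1 : ∀ b : B, b ∈ p1 ↔ DivS O1 ϖ 1 (b : F))
    (mem2 : ∀ b : B, b ∈ p2 ↔ DivS O2 ϖ 1 (b : F))
    (n : Ideal B) (hn : n.IsPrime) (x : F) (hx0 : x ≠ 0)
    (hx : InTube (⟨ϖ, hB.unif_mem⟩ : B) n x)
    (hx' : InTube (⟨ϖ, hB.unif_mem⟩ : B) n x⁻¹)
    (hx1 : p1 ≤ n → IsU O1 x) (hx2 : p2 ≤ n → IsU O2 x) :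
    ∃ s b : B, s ∉ n ∧ b ∉ n ∧ (s : F) * x = b := by
  obtain ⟨s, b, hs, hb⟩ := mem_at2 hϖ0 hB mem1 mem2 n hn x hx (fun h => (hx1 h).2.1)
    (fun h => (hx2 h).2.1)
  obtain ⟨s', b', hs', hb'⟩ := mem_at2 hϖ0 hB mem1 mem2 n hn x⁻¹ hx' (fun h => (hx1 h).2.2)
    (fun h => (hx2 h).2.2)
  refine ⟨s, b, hs, fun hbn => ?_, hb⟩
  have e1 : b * b' = s * s' := by
    apply Subtype.ext
    rw [Subring.coe_mul, Subring.coe_mul, ← hb, ← hb']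
    field_simp
  have : s * s' ∈ n := e1 ▸ n.mul_mem_right b' hbn
  exact (hn.mem_or_mem this).elim hs hs'

section lvl2

variable {F1 : Type*} [Field F1] {O1 O2 : Subring F1} {ϖ1 : F1} {B' : Subring F1}
  {p1' p2' : Ideal B'} {OF OM OV : Subring F} {ϖ t : F} {m q : ℕ} {B : Subring F}
  {pF pM pV : Ideal B} {al : F1 →+* F}

/-- the multiplier `θ = θF θV`. -/
theorem exists_theta (hB : IsChartS (OF ⊓ OM ⊓ OV) ϖ m B)
    (memF : ∀ b : B, b ∈ pF ↔ DivS OF ϖ 1 (b : F))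
    (memV : ∀ b : B, b ∈ pV ↔ DivS OV ϖ 1 (b : F))
    (n : Ideal B) (hn : n.IsPrime) (hF : ¬ pF ≤ n) (hV : ¬ pV ≤ n) :
    ∃ θ : B, θ ∉ n ∧ ∀ y : B, DivS OM ϖ 1 (y : F) → ∃ c : B, θ * y = ⟨ϖ, hB.unif_mem⟩ * c := by
  obtain ⟨θF, hθF, hθFn⟩ := SetLike.not_le_iff_exists.1 hF
  obtain ⟨θV, hθV, hθVn⟩ := SetLike.not_le_iff_exists.1 hV
  refine ⟨θF * θV, fun h => (hn.mem_or_mem h).elim hθFn hθVn, fun y hy => ?_⟩
  obtain ⟨yF, hyF, eF⟩ := (memF θF).1 hθF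
  obtain ⟨yV, hyV, eV⟩ := (memV θV).1 hθV
  obtain ⟨yM, hyM, eM⟩ := hy
  rw [pow_one] at eF eV eM
  have hleF : ∀ x ∈ B, x ∈ OF := fun x hx => (hB.le x hx).1.1
  have hleM : ∀ x ∈ B, x ∈ OM := fun x hx => (hB.le x hx).1.2
  have hleV : ∀ x ∈ B, x ∈ OV := fun x hx => (hB.le x hx).2
  by_cases hϖ0 : ϖ = 0
  · refine ⟨0, ?_⟩
    apply Subtype.ext
    simp only [Subring.coe_mul, Subring.coe_zero, mul_zero]
    rw [eM, hϖ0]; ring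
  have hdiv : DivS (OF ⊓ OM ⊓ OV) ϖ 1 ((θF * θV * y : B) : F) := by
    refine ⟨(θF : F) * θV * y * ϖ⁻¹, ⟨⟨?_, ?_⟩, ?_⟩, ?_⟩
    · have : (θF : F) * θV * y * ϖ⁻¹ = yF * θV * y := by
        rw [eF]; field_simp
      rw [SetLike.mem_coe, this]
      exact OF.mul_mem (OF.mul_mem hyF (hleF _ θV.2)) (hleF _ y.2)
    · have : (θF : F) * θV * y * ϖ⁻¹ = θF * θV * yM := by
        rw [eM]; field_simp
      rw [SetLike.mem_coe, this]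
      exact OM.mul_mem (OM.mul_mem (hleM _ θF.2) (hleM _ θV.2)) hyM
    · have : (θF : F) * θV * y * ϖ⁻¹ = θF * yV * y := by
        rw [eV]; field_simp
      rw [SetLike.mem_coe, this]
      exact OV.mul_mem (OV.mul_mem (hleV _ θF.2) hyV) (hleV _ y.2)
    · simp only [Subring.coe_mul, pow_one]
      field_simp
  obtain ⟨c, hc, ec⟩ := hB.sat _ (θF * θV * y : B).2 hdiv
  exact ⟨⟨c, hc⟩, Subtype.ext ec⟩

/-- a point which lies only on the middle component lies over an **ordinary** point of level `q`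
(given (T1) at level `q`). -/
theorem ord_of_t1 (hϖ0 : ϖ ≠ 0) (hB : IsChartS (OF ⊓ OM ⊓ OV) ϖ m B)
    (memF : ∀ b : B, b ∈ pF ↔ DivS OF ϖ 1 (b : F))
    (memV : ∀ b : B, b ∈ pV ↔ DivS OV ϖ 1 (b : F))
    (mem1 : ∀ b : B', b ∈ p1' ↔ DivS O1 ϖ1 1 (b : F1))
    (hal : ∀ x ∈ B', al x ∈ B) (halϖ : al ϖ1 = ϖ) (halM : ∀ x ∈ O1, al x ∈ OM)
    (n : Ideal B) (hn : n.IsPrime) (hF : ¬ pF ≤ n) (hV : ¬ pV ≤ n)
    (n1 : Ideal B') (hn1 : ∀ x : B', x ∈ n1 ↔ (⟨al x, hal x x.2⟩ : B) ∈ n)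
    (hϖ1 : ϖ1 ∈ B')
    (hT1 : p2' ≤ n1 → ∃ a b s : B', a ∈ p1' ∧ b ∈ p2' ∧ s ∉ n1 ∧ s * ⟨ϖ1, hϖ1⟩ = a * b) :
    ¬ p2' ≤ n1 := by
  intro h2
  obtain ⟨a, b, s, ha, hb, hs, e⟩ := hT1 h2
  obtain ⟨θ, hθ, hθ'⟩ := exists_theta hB memF memV n hn hF hV
  obtain ⟨ya, hya, ea⟩ := (mem1 a).1 ha
  obtain ⟨c, hc⟩ := hθ' ⟨al a, hal a a.2⟩ ⟨al ya, halM _ hya, by
    show al a = _
    rw [ea, map_mul, pow_one, pow_one, halϖ]⟩
  have hbn : (⟨al b, hal b b.2⟩ : B) ∈ n := (hn1 b).1 (h2 hb)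
  have hsn : (⟨al s, hal s s.2⟩ : B) ∉ n := fun h => hs ((hn1 s).2 h)
  have e' : (s : F1) * ϖ1 = a * b := congrArg Subtype.val e
  have key : θ * (⟨al s, hal s s.2⟩ : B) = c * ⟨al b, hal b b.2⟩ := by
    apply Subtype.ext
    apply mul_left_cancel₀ hϖ0
    have hc' : (θ : F) * al a = ϖ * c := congrArg Subtype.val hc
    show ϖ * ((θ : F) * al s) = ϖ * ((c : F) * al b)
    calc ϖ * ((θ : F) * al s) = θ * al ((s : F1) * ϖ1) := by rw [map_mul, halϖ]; ring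
      _ = (θ * al a) * al b := by rw [e', map_mul]; ring
      _ = ϖ * ((c : F) * al b) := by rw [hc']; ring
  have : θ * (⟨al s, hal s s.2⟩ : B) ∈ n := key ▸ n.mul_mem_left c hbn
  exact (hn.mem_or_mem this).elim hθ hsn

/-- **(T2), abstract.**  `u` (`= δ / ϖ1`) a unit at `n1 = al⁻¹ n`, `x ∈ pM`, and the congruence
`al u ≡ w x ^ (q-1) / ϖ` modulo `t OM`, `w ∈ B`. -/
theorem t2_abs (hϖ0 : ϖ ≠ 0) (hB : IsChartS (OF ⊓ OM ⊓ OV) ϖ m B)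
    (memF : ∀ b : B, b ∈ pF ↔ DivS OF ϖ 1 (b : F))
    (memM : ∀ b : B, b ∈ pM ↔ DivS OM t 1 (b : F))
    (memV : ∀ b : B, b ∈ pV ↔ DivS OV ϖ 1 (b : F))
    (hram : IsU OM (ϖ / t ^ (q - 1)))
    (hal : ∀ x ∈ B', al x ∈ B)
    (n : Ideal B) (hn : n.IsPrime) (hM : pM ≤ n) (hF : ¬ pF ≤ n) (hV : ¬ pV ≤ n)
    (x : B) (hx : x ∈ pM) (u : F1) (w : B)
    (s1 b1 : B') (hb1 : (⟨al b1, hal b1 b1.2⟩ : B) ∉ n)
    (hu : (s1 : F1) * u = b1)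
    (hK : DivS OM t 1 (al u - w * ((x : F) ^ (q - 1) / ϖ))) :
    ∃ s, s ∉ n ∧ ∃ c, s * (⟨ϖ, hB.unif_mem⟩ : B) = c * x ^ (q - 1) := by
  obtain ⟨θ, hθ, hθ'⟩ := exists_theta hB memF memV n hn hF hV
  obtain ⟨yx, hyx, ex⟩ := (memM x).1 hx
  obtain ⟨h0, -, h2⟩ := hram
  have ht : t ^ (q - 1) ≠ 0 := fun h => h0 (by rw [h, div_zero])
  obtain ⟨b, hb⟩ := hθ' (x ^ (q - 1)) ⟨(ϖ / t ^ (q - 1))⁻¹ * yx ^ (q - 1),
    OM.mul_mem h2 (OM.pow_mem hyx _), by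
      rw [Subring.coe_pow, ex, pow_one, pow_one, mul_pow]
      field_simp⟩
  have hb' : (θ : F) * (x : F) ^ (q - 1) = ϖ * b := by
    have := congrArg Subtype.val hb
    simpa using this
  refine ⟨b, fun hbn => ?_, θ, ?_⟩
  · -- `θ al(b1) - al(s1) w b ∈ pM`
    have hleM : ∀ x ∈ B, x ∈ OM := fun x hx => (hB.le x hx).1.2
    have hmem : θ * (⟨al b1, hal b1 b1.2⟩ : B) - ⟨al s1, hal s1 s1.2⟩ * w * b ∈ pM := by
      rw [memM]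
      obtain ⟨y, hy, ey⟩ := hK
      refine ⟨θ * al s1 * y, OM.mul_mem (OM.mul_mem (hleM _ θ.2) (hleM _ (hal s1 s1.2))) hy, ?_⟩
      have e1 : (θ : F) * al b1 - al s1 * w * b
          = θ * al s1 * (al u - w * ((x : F) ^ (q - 1) / ϖ)) := by
        have e2 : (b : F) = θ * (x : F) ^ (q - 1) / ϖ := by
          rw [hb']; field_simp
        rw [← hu, map_mul, e2]
        ring
      show (θ : F) * al b1 - al s1 * w * b = _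
      rw [e1, ey]
      ring
    have h1 : θ * (⟨al b1, hal b1 b1.2⟩ : B) ∈ n := by
      have := n.add_mem (hM hmem) (n.mul_mem_left (⟨al s1, hal s1 s1.2⟩ * w) hbn)
      simpa using this
    exact (hn.mem_or_mem h1).elim hθ hb1
  · rw [mul_comm b, ← hb]

/-- the contraction of a prime is prime. -/
theorem isPrime_n1 (hal : ∀ x ∈ B', al x ∈ B) (n : Ideal B) (hn : n.IsPrime)
    (n1 : Ideal B') (hn1 : ∀ x : B', x ∈ n1 ↔ (⟨al x, hal x x.2⟩ : B) ∈ n) : n1.IsPrime := by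
  refine ⟨fun h => hn.ne_top ((Ideal.eq_top_iff_one n).2 ?_), fun {a b} hab => ?_⟩
  · have := (hn1 1).1 (h ▸ Submodule.mem_top)
    have e : (⟨al (1 : B'), hal _ (1 : B').2⟩ : B) = 1 := Subtype.ext (by simp)
    rwa [e] at this
  · have := (hn1 (a * b)).1 hab
    have e : (⟨al (a * b : B'), hal _ (a * b : B').2⟩ : B)
        = ⟨al a, hal a a.2⟩ * ⟨al b, hal b b.2⟩ := Subtype.ext (by simp)
    rw [e] at this
    exact (hn.mem_or_mem this).imp (hn1 a).2 (hn1 b).2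

/-- **(T2), abstract, from the data of level `q`** : `δ⁻¹` regular on the tube of `n1 = al⁻¹ n`,
`ϖ1 / δ ∈ O1`, (T1) at `n1` if it were a node, `x ∈ pM` and the congruence
`al (δ / ϖ1) ≡ w x ^ (q-1) / ϖ` modulo `t OM`, `w ∈ B`. -/
theorem t2_of_delta (hϖ0 : ϖ ≠ 0) (hB : IsChartS (OF ⊓ OM ⊓ OV) ϖ m B)
    (memF : ∀ b : B, b ∈ pF ↔ DivS OF ϖ 1 (b : F))
    (memM : ∀ b : B, b ∈ pM ↔ DivS OM t 1 (b : F))
    (memV : ∀ b : B, b ∈ pV ↔ DivS OV ϖ 1 (b : F))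
    (hram : IsU OM (ϖ / t ^ (q - 1)))
    (hB' : IsChartS (O1 ⊓ O2) ϖ1 m B')
    (mem1 : ∀ b : B', b ∈ p1' ↔ DivS O1 ϖ1 1 (b : F1))
    (mem2 : ∀ b : B', b ∈ p2' ↔ DivS O2 ϖ1 1 (b : F1))
    (hal : ∀ x ∈ B', al x ∈ B) (halϖ : al ϖ1 = ϖ) (halM : ∀ x ∈ O1, al x ∈ OM)
    (n : Ideal B) (hn : n.IsPrime) (hM : pM ≤ n) (hF : ¬ pF ≤ n) (hV : ¬ pV ≤ n)
    (n1 : Ideal B') (hn1 : ∀ x : B', x ∈ n1 ↔ (⟨al x, hal x x.2⟩ : B) ∈ n)
    (hT1 : p2' ≤ n1 → ∃ a b s : B', a ∈ p1' ∧ b ∈ p2' ∧ s ∉ n1 ∧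
      s * ⟨ϖ1, hB'.unif_mem⟩ = a * b)
    (δ : F1) (hδ0 : δ ≠ 0) (hδ1 : ϖ1 / δ ∈ O1)
    (htube : InTube (⟨ϖ1, hB'.unif_mem⟩ : B') n1 δ⁻¹)
    (x : B) (hx : x ∈ pM) (w : B)
    (hK : DivS OM t 1 (al (δ / ϖ1) - w * ((x : F) ^ (q - 1) / ϖ))) :
    ∃ s, s ∉ n ∧ ∃ c, s * (⟨ϖ, hB.unif_mem⟩ : B) = c * x ^ (q - 1) := by
  have hϖ1 : ϖ1 ≠ 0 := fun h => hϖ0 (by rw [← halϖ, h, map_zero])
  have hn1p : n1.IsPrime := isPrime_n1 hal n hn n1 hn1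
  have hord : ¬ p2' ≤ n1 :=
    ord_of_t1 hϖ0 hB memF memV mem1 hal halϖ halM n hn hF hV n1 hn1 hB'.unif_mem hT1
  have htube' : InTube (⟨ϖ1, hB'.unif_mem⟩ : B') n1 (ϖ1 / δ) := by
    obtain ⟨s, hs, k, b, hb⟩ := GLP.inTube_iff.1 htube
    refine GLP.inTube_iff.2 ⟨s, hs, k, ⟨ϖ1, hB'.unif_mem⟩ * b, ?_⟩
    rw [Subring.coe_mul, ← hb]
    show (s : F1) * ϖ1 ^ k * (ϖ1 / δ) = ϖ1 * ((s : F1) * ϖ1 ^ k * δ⁻¹)
    ring
  obtain ⟨s, b, hs, hb⟩ := mem_at2 hϖ1 hB' mem1 mem2 n1 hn1p (ϖ1 / δ) htube'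
    (fun _ => hδ1) (fun h => absurd h hord)
  refine t2_abs hϖ0 hB memF memM memV hram hal n hn hM hF hV x hx (δ / ϖ1) w b s
    (fun h => hs ((hn1 s).2 h)) ?_ hK
  rw [← hb]
  field_simp

end lvl2

end TAsm

end Fermat.Agent.S36
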