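import Fermat.Agent.S36.TDefs
import Fermat.Agent.S36.EmbAbs
import Fermat.Agent.S35.GW
import Fermat.Agent.S35.GNorm

/-!
# S36, block G-THREE : the family of the middle embeddings of `H : Three T i ζ` (abstract)

For every `ω ≠ 1`, `ω ^ q = 1` in `K'` there is an embedding `e : H.F → K'((T))` with
`e (α u) = e1 u`, `e (β u) = (e2 u)(ω T)`.  Mirrored: `e' (β u) = e2 u`, `e' (α u) = (e1 u)(ω T)`.
-/

set_option autoImplicit false
set_option linter.unusedSectionVars false
set_option linter.style.haveILetI false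

noncomputable section

namespace Fermat.Agent.S36

open ModularCurve Polynomial
open Fermat.Agent.ES.QE Fermat.Agent.ES.Model Fermat.Agent.S34

variable {R K k : Type*} [CommRing R] [IsDomain R] [IsNoetherianRing R] [IsIntegrallyClosed R]
  [Field K] [Algebra R K] [IsFractionRing R K] [Field k]
  {D : QData R K k} {q : ℕ} [NeZero q] {T : Two D q}
  {K' : Type*} [Field K'] {i : K →+* K'} {ζ : K'ˣ} (H : Three T i ζ)

namespace Three

theorem exists_eM (hq1 : 1 < q)
    (hfr : letI := H.al.toAlgebra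
      Module.finrank T.F H.F = q)
    (ω : K'ˣ) (hω1 : ω ≠ 1) (hωq : ω ^ q = 1) :
    ∃ e : H.F →+* LaurentSeries K', (∀ u : T.F, e (H.al u) = coeffMap i (T.e1 u)) ∧
      (∀ u : T.F, e (H.be u) = S28.twist ω (coeffMap i (T.e2 u))) := by
  letI := H.al.toAlgebra
  have hnd : ¬ (q : ℤ) ∣ (-1 : ℤ) := by
    intro hd
    have := Int.natAbs_dvd_natAbs.2 hd
    simp at this
    exact hq1.ne' this
  refine exists_emb_abs q (NeZero.pos q) T.al T.be H.be D.jF (fun u => rfl)
    (S35.Wt T : T.F →+* T.F) (S35.Wt_al T) (S35.Wt_be T) (fun f => T.exists_rep f) ?_ hfr ?_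
    ((coeffMap i).comp T.e1) ((S28.twist ω).comp ((coeffMap i).comp T.e2)) ?_ ?_
  · intro S hα hβ x
    obtain ⟨a, ha, hx⟩ := H.span x x.2
    have e1 : x = ∑ j, H.al ⟨a j, ha j⟩ * H.be (T.be D.jF) ^ (j : ℕ) := by
      apply Subtype.ext
      rw [IntermediateField.coe_sum]
      exact hx
    rw [e1]
    exact Subfield.sum_mem _ fun j _ => mul_mem (hα _) (pow_mem (hβ _) _)
  · intro h
    have h2 : qExpand K q (qExpand K q (jqModC K)) = jqModC K := congrArg Subtype.val h
    have h5 := congrArg (fun f => f.coeff (-1 : ℤ)) h2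
    rw [coeff_jqModC_neg_one, qExpand_coeff_of_not_dvd q _ hnd] at h5
    exact zero_ne_one h5
  · intro u
    show coeffMap i (qExpand K q (u : LaurentSeries K)) = S28.twist ω (coeffMap i (T.e2 (T.al u)))
    rw [T.e2_al, coeffMap_qExpand, S35.GNorm.twist_qExpand q ω hωq]
  · intro h
    have h' : S28.twist ω (coeffMap i (T.e2 (T.be D.jF))) = coeffMap i (jqModC K) := h
    rw [T.e2_be] at h'
    have h'' : S28.twist ω (coeffMap i (jqModC K)) = coeffMap i (jqModC K) := h'
    rw [coeffMap_jqModC] at h''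
    have h5 := congrArg (fun f => f.coeff (-1 : ℤ)) h''
    simp only [S28.twist_coeff, coeff_jqModC_neg_one, mul_one] at h5
    apply hω1
    have h6 : ω ^ (-1 : ℤ) = 1 := Units.ext h5
    rwa [zpow_neg_one, inv_eq_one] at h6

/-- the mirrored family (over `β`). -/
theorem exists_eM' (hq1 : 1 < q)
    (hfr : letI := H.al.toAlgebra
      Module.finrank T.F H.F = q)
    (ω : K'ˣ) (hω1 : ω ≠ 1) (hωq : ω ^ q = 1) :
    ∃ e : H.F →+* LaurentSeries K', (∀ u : T.F, e (H.be u) = coeffMap i (T.e2 u)) ∧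
      (∀ u : T.F, e (H.al u) = S28.twist ω (coeffMap i (T.e1 u))) := by
  obtain ⟨e, h1, h2⟩ := H.exists_eM hq1 hfr ω⁻¹ (by simpa using hω1) (by rw [inv_pow, hωq, inv_one])
  refine ⟨(S28.twist ω).comp e, fun u => ?_, fun u => ?_⟩
  · rw [RingHom.comp_apply, h2]
    ext n
    rw [S28.twist_coeff, S28.twist_coeff, ← mul_assoc, ← Units.val_mul, inv_zpow, mul_inv_cancel,
      Units.val_one, one_mul]
  · rw [RingHom.comp_apply, h1]

end Three

end Fermat.Agent.S36
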