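import Fermat.Agent.S36.Gauss3
import Fermat.Agent.S36.TChart
import Fermat.Agent.S36.BC
import Fermat.Prelude.Thm_ModularCurve_coeff_jqModC_neg_one

/-!
# S36, geometry, modular block : the glue `Three → Emb3`

`H : Three T i ζ`, `D'` the data over the ring with `ζ`, `B : BCData D D' iR i`:
`H.emb3 : Emb3 T D' H.F`, `dvC`, `ram`, and ORTH in the shape used by the chart layer.
-/

set_option autoImplicit false
set_option linter.unusedSectionVars false
set_option linter.unusedVariables false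

noncomputable section

namespace Fermat.Agent.S36

open ModularCurve Polynomial
open Fermat.Agent.ES.QE Fermat.Agent.ES.Model Fermat.Agent.S34 Fermat.Agent.S35

/-- a family `a : Fin q → F1` as a polynomial of degree `< q`. -/
theorem exists_poly {F1 : Type*} [Field F1] {q : ℕ} (hq : 0 < q) (a : Fin q → F1) :
    ∃ P : F1[X], P.natDegree < q ∧ (∀ j : Fin q, P.coeff j = a j) ∧
      ∀ {F2 : Type*} [Field F2] (φ : F1 →+* F2) (z : F2),
        eval₂ φ z P = ∑ j, φ (a j) * z ^ (j : ℕ) := by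
  refine ⟨∑ j : Fin q, monomial (j : ℕ) (a j), ?_, ?_, ?_⟩
  · have h : (∑ j : Fin q, monomial (j : ℕ) (a j)).natDegree ≤ q - 1 :=
      natDegree_sum_le_of_forall_le _ _ fun j _ =>
        (natDegree_monomial_le (a j)).trans (by have := j.2; omega)
    omega
  · intro j
    rw [finsetSum_coeff, Finset.sum_eq_single j]
    · rw [coeff_monomial, if_pos rfl]
    · intro b _ hb
      rw [coeff_monomial, if_neg (fun h => hb (Fin.ext h))]
    · intro h; exact absurd (Finset.mem_univ j) h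
  · intro F2 _ φ z
    rw [eval₂_finsetSum]
    exact Finset.sum_congr rfl fun j _ => eval₂_monomial φ z

variable {R K k : Type*} [CommRing R] [IsDomain R] [IsNoetherianRing R] [IsIntegrallyClosed R]
  [Field K] [Algebra R K] [IsFractionRing R K] [Field k]
  {R' K' : Type*} [CommRing R'] [IsDomain R'] [IsNoetherianRing R'] [IsIntegrallyClosed R']
  [Field K'] [Algebra R' K'] [IsFractionRing R' K']

namespace Three

variable {D : QData R K k} {q : ℕ} [NeZero q] {T : Two D q} {i : K →+* K'} {ζ : K'ˣ}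
  (H : Three T i ζ) (D' : QData R' K' k) {iR : R →+* R'} (B : BCData D D' iR i)
  (ζR : R'ˣ) (hζ : ζ = GNorm.uK ζR) (hres : D'.res ζR = 1)
  (hspan' : ∀ f : H.F, ∃ a : Fin q → T.F, f = ∑ j, H.be (a j) * H.jx ^ (j : ℕ))

/-- **`Three → Emb3`.** -/
def emb3 : Emb3 T D' H.F where
  al := H.al
  be := H.be
  eA := H.eA
  eB := H.eB
  eC := H.eC
  bc := coeffMap i
  tw := S28.twist ζ
  eA_al := H.eA_al
  eA_be := H.eA_be
  eC_al := H.eC_al
  eC_be := H.eC_be
  eB_al := H.eB_al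
  eB_be := H.eB_be
  span := fun f => by
    obtain ⟨a, rfl⟩ := H.exists_rep f
    obtain ⟨P, hP, -, hev⟩ := exists_poly (Nat.pos_of_ne_zero (NeZero.ne q)) a
    exact ⟨P, hP, (hev _ _).symm⟩
  span' := fun f => by
    obtain ⟨a, rfl⟩ := hspan' f
    obtain ⟨P, hP, -, hev⟩ := exists_poly (Nat.pos_of_ne_zero (NeZero.ne q)) a
    exact ⟨P, hP, (hev _ _).symm⟩
  bc_bdd := fun f hf => B.isBdd_bc hf
  bc_mem := fun f hf => B.bc_mem hf
  bc_mem' := fun f hb h => (B.bc_mem_iff hb).1 h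
  tw_bdd := fun f hf => by rw [hζ]; exact Mid.isBdd_twist ζR hres hf
  tw_mem := fun f => by rw [hζ]; exact Mid.twist_mem_iff ζR hres

lemma emb3_OA : (H.emb3 D' B ζR hζ hres hspan').OA = H.OA := rfl
lemma emb3_OB : (H.emb3 D' B ζR hζ hres hspan').OB = H.OB := rfl
lemma emb3_OC : (H.emb3 D' B ζR hζ hres hspan').OC = H.OC D' := rfl
lemma emb3_t : (H.emb3 D' B ζR hζ hres hspan').t = H.tC := rfl
lemma emb3_z : (H.emb3 D' B ζR hζ hres hspan').z = H.jz := rfl
lemma emb3_x : (H.emb3 D' B ζR hζ hres hspan').x = H.jx := rfl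
lemma emb3_ϖ : (H.emb3 D' B ζR hζ hres hspan').ϖ = H.ϖF := rfl

include B hζ hres hspan' in
theorem isBdd_eC (f : H.F) : NVal.IsBdd D' (H.eC f) :=
  (H.emb3 D' B ζR hζ hres hspan').bddC f

lemma eC_jx3 : H.eC H.jx = D'.inc (jqModC R') := by
  show H.eC (H.al (T.al D.jF)) = _
  rw [H.eC_al, D'.inc_j]
  exact coeffMap_jqModC i

lemma eC_jz3 : H.eC H.jz = S28.twist ζ (H.eC H.jx) := by
  show H.eC (H.be (T.be D.jF)) = S28.twist ζ (H.eC (H.al (T.al D.jF)))
  rw [H.eC_be, H.eC_al, T.e2_be]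
  rfl

lemma theta_j : ∃ n : ℤ, (n : k) * (D'.red (jqModC R')).coeff n ≠ 0 := by
  refine ⟨-1, ?_⟩
  rw [D'.red_j, coeff_jqModC_neg_one]
  simp

include B hζ hres hspan' in
/-- the middle Gauss ring is a discrete valuation ring with uniformiser `t_C = j_z - j_x`. -/
theorem dvC3 (c0 : R') (hc : (ζR : R') - 1 = D'.ϖ * c0) (hc0 : D'.res c0 ≠ 0) :
    IsDV (H.OC D') H.tC :=
  Mid.isDV_mid H.eC (H.isBdd_eC D' B ζR hζ hres hspan') ζR hres c0 hc hc0 (jqModC R')
    (theta_j D') H.jx H.jz (H.eC_jx3 D')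
    (by rw [H.eC_jz3]; exact congrArg (fun ω => S28.twist ω (H.eC H.jx)) hζ)

lemma ϖF_eq_natCast (hϖ : D.ϖ = (q : R)) : H.ϖF = (q : H.F) := by
  rw [Three.ϖF, hϖ, map_natCast, map_natCast]

include hζ hres in
/-- ramification of the middle Gauss ring. -/
theorem ramC3 (hq : q.Prime) (hprim : IsPrimitiveRoot (ζR : R') q) (hϖ : D.ϖ = (q : R)) :
    IsU (H.OC D') (H.tC ^ (q - 1) / H.ϖF) := by
  subst hζ
  obtain ⟨w, hw, h⟩ := Mid.exists_ram H.eC hq ζR hres hprim (jqModC R') (theta_j D') H.jx H.jz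
    (H.eC_jx3 D') H.eC_jz3
  have h0 : (q : H.F) ≠ 0 := by
    intro h0
    rw [h0, zero_mul] at h
    have h1 : H.jz - H.jx = 0 := pow_eq_zero_iff (n := q - 1) (by have := hq.two_le; omega) |>.1 h
    have h2 := H.eC_jz3
    rw [sub_eq_zero.1 h1] at h2
    -- `j(ζ T) = j(T)` is impossible
    have h3 := congrArg (fun s => HahnSeries.coeff s (-1)) h2
    simp only [S28.twist_coeff] at h3
    rw [H.eC_jx3 D', D'.inc_j, coeff_jqModC_neg_one, mul_one] at h3
    have h4 : ((GNorm.uK ζR : K'ˣ) ^ (-1 : ℤ)) = 1 := Units.ext h3.symm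
    rw [zpow_neg_one, inv_eq_one] at h4
    have h5 : algebraMap R' K' (ζR : R') = algebraMap R' K' 1 := by
      rw [map_one]
      exact congrArg Units.val h4
    exact hprim.ne_one hq.one_lt (IsFractionRing.injective R' K' h5)
  have h1 : H.tC ^ (q - 1) / H.ϖF = w := by
    rw [H.ϖF_eq_natCast hϖ, Three.tC, h, mul_div_cancel_left₀ _ h0]
  rw [h1]
  exact hw

include B hζ hres hspan' in
/-- **ORTH** at the level `q²`, in the shape of the chart layer. -/
theorem horth [Fact q.Prime] (dvC : IsDV (H.OC D') H.tC)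
    (ram : IsU (H.OC D') (H.tC ^ (q - 1) / H.ϖF)) (a : Fin q → T.F)
    (h : (∑ j, H.al (a j) * H.jz ^ (j : ℕ)) ∈ H.O D') : ∀ j, a j ∈ T.O := by
  obtain ⟨P, hP, hco, hev⟩ := exists_poly (Nat.pos_of_ne_zero (NeZero.ne q)) a
  have HO := (H.emb3 D' B ζR hζ hres hspan').orth3 dvC ram
  intro j
  rw [← hco j]
  refine (HO.mem_iff P hP).1 ?_ j
  rw [hev]
  exact h

include B hζ hres hspan' in
/-- **ORTH**, the converse representation: every element of `H.O D'` is `∑ al (a j) z ^ j` with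
`a j ∈ T.O`. -/
theorem exists_rep_O [Fact q.Prime] (dvC : IsDV (H.OC D') H.tC)
    (ram : IsU (H.OC D') (H.tC ^ (q - 1) / H.ϖF)) (g : H.F) (hg : g ∈ H.O D') :
    ∃ a : Fin q → T.F, (∀ j, a j ∈ T.O) ∧ g = ∑ j, H.al (a j) * H.jz ^ (j : ℕ) := by
  obtain ⟨a, rfl⟩ := H.exists_rep g
  exact ⟨a, H.horth D' B ζR hζ hres hspan' dvC ram a hg, rfl⟩

end Three

end Fermat.Agent.S36
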