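import Fermat.Agent.S36.AFix
import Fermat.Agent.S36.Br3
import Fermat.Agent.S36.NC1b
import Fermat.Agent.S36.NRes
import Fermat.Agent.S36.AVert
import Fermat.Agent.S35.GLP

/-!
# S36, geometry : the adapter between the norm block (`Lvl1`) and the abstract endgame (`fix_abs`)
-/

set_option autoImplicit false
set_option linter.unusedVariables false

namespace Fermat.Agent.S36

open Fermat.Agent.S34 Fermat.Agent.S35 Fermat.Agent.ES.Model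

section

variable {F : Type*} [Field F]

/-- `ϖ ^ j` satisfies (LP). -/
theorem LP_unif_zpow {ϖ : F} (hϖ0 : ϖ ≠ 0) {m : ℕ} {B : Subring F} {hϖ : ϖ ∈ B} {n : Ideal B}
    (hn : n.IsPrime) (j : ℤ) : LP ϖ m B hϖ n (ϖ ^ j) := by
  have h1 : InTube (⟨ϖ, hϖ⟩ : B) n ϖ :=
    GLP.inTube_iff.2 ⟨1, (Ideal.ne_top_iff_one n).1 hn.ne_top, 0, ⟨ϖ, hϖ⟩, by simp⟩
  have h2 : InTube (⟨ϖ, hϖ⟩ : B) n ϖ⁻¹ :=
    GLP.inTube_iff.2 ⟨1, (Ideal.ne_top_iff_one n).1 hn.ne_top, 1, 1, by simp [hϖ0]⟩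
  refine ⟨1, ϖ ^ j, one_ne_zero, by simp, AVert.inTube_zpow hn h1 h2 j, ?_⟩
  rw [← zpow_neg]
  exact AVert.inTube_zpow hn h1 h2 (-j)

end

variable {F1 F2 : Type*} [Field F1] [Field F2] {q : ℕ} {O1 O2 : Subring F1} {ϖ1 : F1}
  {OF OM OV : Subring F2} {ϖ t : F2} {al be : F1 →+* F2} {nA nB : F2 →* F1}

/-- `x ≡ y` mod `π`, `y` a unit ⟹ `x / y ≡ 1` mod `π`. -/
theorem divS_div_sub_one {O : Subring F2} {π x y : F2} (hy : IsU O y)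
    (h : DivS O π 1 (x - y)) : DivS O π 1 (x / y - 1) := by
  obtain ⟨c, hc, hc'⟩ := h
  refine ⟨c * y⁻¹, mul_mem hc hy.2.2, ?_⟩
  have hy0 := hy.1
  field_simp
  rw [hc']
  ring

theorem isU_pow' {O : Subring F2} {x : F2} (h : IsU O x) (k : ℕ) : IsU O (x ^ k) :=
  ⟨pow_ne_zero _ h.1, pow_mem h.2.1 _, by rw [← inv_pow]; exact pow_mem h.2.2 _⟩

/-- **[BR-FIN]** -/
theorem fix_abs2 (hq : q.Prime) (L : Lvl1 q O1 O2 ϖ1 OF OM OV ϖ t al be nA nB)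
    (m : ℕ) (hm : 0 < m) (hmq : Nat.Coprime q m)
    (R B1 B2 B12 : Subring F2) [IsNoetherianRing R] (hR1 : R ≤ B1) (hR2 : R ≤ B2) (hϖR : ϖ ∈ R)
    (h1 : IsChartS (OO ![OF, OM, OV]) ϖ m B1) (h2 : IsChartS (OO ![OF, OM, OV]) ϖ m B2)
    (h12 : IsChartS (OO ![OF, OM, OV]) ϖ m B12) (h1le : B1 ≤ B12) (h2le : B2 ≤ B12)
    (x : F2) (hx : x ≠ 0) (hx1 : x ∈ B1) (hx2 : x⁻¹ ∈ B2)
    (h12a : ∀ f ∈ B12, ∃ n : ℕ, x ^ n * f ∈ B1) (h12b : ∀ f ∈ B12, ∃ n : ℕ, x⁻¹ ^ n * f ∈ B2)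
    (hfin : ∃ S : Finset F2, ∀ f ∈ B1,
      f ∈ Submodule.span (Subring.closure ((R : Set F2) ∪ {x})) (S : Set F2))
    (hfrac : ∀ f : F2, ∃ s ∈ B1, s ≠ 0 ∧ s * f ∈ B1)
    (hpt1 : ∀ n : Ideal B1, n.IsMaximal → (⟨ϖ, h1.unif_mem⟩ : B1) ∈ n →
      Pt ![OF, OM, OV] ![ϖ, t, ϖ] ϖ m B1 h1.unif_mem n)
    (hpt2 : ∀ n : Ideal B2, n.IsMaximal → (⟨ϖ, h2.unif_mem⟩ : B2) ∈ n →
      Pt ![OF, OM, OV] ![ϖ, t, ϖ] ϖ m B2 h2.unif_mem n)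
    (hrel : ∀ v : F2, (∀ i, DivS ((![OF, OM, OV] : Fin 3 → Subring F2) i)
        ((![ϖ, t, ϖ] : Fin 3 → F2) i) 1 (v - 1)) →
      (∃ z, nA v = z ^ m) → (∃ z, nB v = z ^ m) →
      ∃ l1 l2 m1 m2 : F2, l1 ∈ R ∧ l2 ∈ R ∧ m1 ∈ R ∧ m2 ∈ R ∧ l1 ^ m = 1 ∧ l2 ^ m = 1 ∧
        m1 ^ m = 1 ∧ m2 ^ m = 1 ∧ Rel3 ![OF, OM, OV] ![ϖ, t, ϖ] m q B1 v l1 l2 m1 m2 ∧
        Rel3 ![OF, OM, OV] ![ϖ, t, ϖ] m q B2 v l1 l2 m1 m2)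
    (u : F2) (hu : u ≠ 0) (hlp1 : LPall ϖ m B1 h1.unif_mem u) (hlp2 : LPall ϖ m B2 h2.unif_mem u)
    (hA : ∃ (k : ℤ) (z : F1), nA u = ϖ1 ^ k * z ^ m)
    (hB : ∃ (k : ℤ) (z : F1), nB u = ϖ1 ^ k * z ^ m) :
    ∃ (z : F2) (j : ℤ), z ≠ 0 ∧
      z ^ m * (u ^ ((q + 1) * (q - 1) * ((q ^ 2 - 1) * q)) * ϖ ^ j) ∈ B1 ∧
      z ^ m * (u ^ ((q + 1) * (q - 1) * ((q ^ 2 - 1) * q)) * ϖ ^ j) ∈ B2 := by
  have hq2 : 2 ≤ q := hq.two_le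
  have hϖ0 : ϖ ≠ 0 := L.dvF.ne_zero
  obtain ⟨j, g, hg, hwF, hwM, hwV, hwA, hwB⟩ := L.exists_unit_rep' hq2 hm hu hA hB
  set w : F2 := u ^ (q + 1) * ϖ ^ j / g ^ m with hw
  obtain ⟨h, hhF, hhM, hhV, hdF, hdM, hdV⟩ := N27.exists_root_res L hq2 hm hmq hwF hwM hwV hwA hwB
  set v : F2 := w ^ (q - 1) / h ^ m with hv
  have hh0 : h ≠ 0 := hhF.1
  have hv1 : ∀ i, DivS ((![OF, OM, OV] : Fin 3 → Subring F2) i)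
      ((![ϖ, t, ϖ] : Fin 3 → F2) i) 1 (v - 1) := by
    intro i
    fin_cases i
    · exact divS_div_sub_one (isU_pow' hhF m) hdF
    · exact divS_div_sub_one (isU_pow' hhM m) hdM
    · exact divS_div_sub_one (isU_pow' hhV m) hdV
  have hvA : ∃ z, nA v = z ^ m := by
    obtain ⟨z, hz⟩ := hwA
    refine ⟨z ^ (q - 1) / nA h, ?_⟩
    rw [hv, monoidHom_div nA _ (pow_ne_zero _ hh0), map_pow, map_pow, hz, div_pow]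
    ring
  have hvB : ∃ z, nB v = z ^ m := by
    obtain ⟨z, hz⟩ := hwB
    refine ⟨z ^ (q - 1) / nB h, ?_⟩
    rw [hv, monoidHom_div nB _ (pow_ne_zero _ hh0), map_pow, map_pow, hz, div_pow]
    ring
  obtain ⟨l1, l2, m1, m2, hl1, hl2, hm1, hm2, hl1m, hl2m, hm1m, hm2m, hr1, hr2⟩ :=
    hrel v hv1 hvA hvB
  have hlpv : ∀ (B : Subring F2) (hϖ : ϖ ∈ B), LPall ϖ m B hϖ u → LPall ϖ m B hϖ v := by
    intro B hϖ hlp n hn hϖn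
    have hnp := hn.isPrime
    exact LP.div_mpow (LP.pow hnp (LP.div_mpow (LP.mul hnp (LP.pow hnp (hlp n hn hϖn) _)
      (LP_unif_zpow hϖ0 hnp j)) hg) _) hh0
  obtain ⟨z, hz, hz1, hz2⟩ := fix_abs hq (L.is3 hq2) m hm R B1 B2 B12 hR1 hR2 hϖR h1 h2 h12
    h1le h2le x hx hx1 hx2 h12a h12b hfin hfrac hpt1 hpt2 v (hlpv _ _ hlp1) (hlpv _ _ hlp2) hv1
    l1 l2 m1 m2 hl1 hl2 hm1 hm2 hl1m hl2m hm1m hm2m hr1 hr2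
  have key : ∀ N : ℕ, v ^ N = ((g ^ (q - 1) * h) ^ N)⁻¹ ^ m *
      (u ^ ((q + 1) * (q - 1) * N) * ϖ ^ (j * ((q - 1 : ℕ) : ℤ) * (N : ℤ))) := by
    intro N
    rw [hv, hw, zpow_mul, zpow_mul, zpow_natCast, zpow_natCast]
    have : ϖ ^ j ≠ 0 := zpow_ne_zero _ hϖ0
    field_simp
    ring
  refine ⟨z * ((g ^ (q - 1) * h) ^ ((q ^ 2 - 1) * q))⁻¹,
    j * ((q - 1 : ℕ) : ℤ) * (((q ^ 2 - 1) * q : ℕ) : ℤ),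
    mul_ne_zero hz (inv_ne_zero (pow_ne_zero _ (mul_ne_zero (pow_ne_zero _ hg) hh0))), ?_, ?_⟩
  · rw [mul_pow, mul_assoc, ← key]
    exact hz1
  · rw [mul_pow, mul_assoc, ← key]
    exact hz2

end Fermat.Agent.S36
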