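import Fermat.Agent.S36.TFix
import Fermat.Agent.S36.ARel3
import Fermat.Agent.S36.BrPt2
import Fermat.Agent.S36.BrLP
import Fermat.Agent.S36.BrDich
import Fermat.Agent.S36.BrDed

/-!
# S36, geometry : the adapter, second part : everything from `Lvl1`, `ChartL`, `RegAt`, `hdiv`
-/

set_option autoImplicit false
set_option linter.unusedVariables false

namespace Fermat.Agent.S36

open Fermat.Agent.S34 Fermat.Agent.S35 Fermat.Agent.ES.Model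

variable {F1 F2 : Type*} [Field F1] [Field F2] {q : ℕ} {O1 O2 : Subring F1} {ϖ1 : F1}
  {OF OM OV : Subring F2} {ϖ t : F2} {al be : F1 →+* F2} {nA nB : F2 →* F1}

/-- one chart : `Pt` at every point of the special fibre and `LPall`. -/
theorem chart_pack (hq : 2 ≤ q) (L : Lvl1 q O1 O2 ϖ1 OF OM OV ϖ t al be nA nB) {m : ℕ}
    (hm : 0 < m) {B : Subring F2} {B' : Subring F1} (hB : IsChartS (OF ⊓ OM ⊓ OV) ϖ m B)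
    (hfrac : ∀ f : F2, ∃ a ∈ B, ∃ b ∈ B, b ≠ 0 ∧ f * b = a)
    (pF pM pV : Ideal B)
    (memF : ∀ b : B, b ∈ pF ↔ DivS OF ϖ 1 (b : F2))
    (memM : ∀ b : B, b ∈ pM ↔ DivS OM t 1 (b : F2))
    (memV : ∀ b : B, b ∈ pV ↔ DivS OV ϖ 1 (b : F2))
    (hL : ChartL OF OM OV ϖ t m B B' al be nA nB) (p1 p2 : Ideal B')
    (mem1 : ∀ b : B', b ∈ p1 ↔ DivS O1 ϖ1 1 (b : F1))
    (mem2 : ∀ b : B', b ∈ p2 ↔ DivS O2 ϖ1 1 (b : F1))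
    [IsDedekindDomain (B' ⧸ p1)] [IsDedekindDomain (B' ⧸ p2)]
    (hreg : ∀ n : Ideal B, n.IsMaximal → (⟨ϖ, hB.unif_mem⟩ : B) ∈ n →
      RegAt q (⟨ϖ, hB.unif_mem⟩ : B) pF pM pV n)
    [IsNoetherianRing B] {D : Type*} [CommRing D] [Algebra B D] [IsDedekindDomain D] [Algebra D F2]
    [IsScalarTower B D F2] [IsFractionRing D F2] [IsLocalization.Away (⟨ϖ, hB.unif_mem⟩ : B) D]
    (u : F2) (hu : u ≠ 0)
    (hdiv : ∃ (ι : Type) (_ : Fintype ι) (g g' : ι → F2),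
      (∀ i, ∃ d : D, algebraMap D F2 d = g i ^ m * u) ∧
      (∀ i, ∃ d : D, algebraMap D F2 d = g' i ^ m * u⁻¹) ∧ ∑ i, g i * g' i = 1) :
    ∃ hB' : IsChartS (OO ![OF, OM, OV]) ϖ m B,
      (∀ n : Ideal B, n.IsMaximal → (⟨ϖ, hB'.unif_mem⟩ : B) ∈ n →
        Pt ![OF, OM, OV] ![ϖ, t, ϖ] ϖ m B hB'.unif_mem n) ∧ LPall ϖ m B hB'.unif_mem u := by
  have hϖ0 : ϖ ≠ 0 := L.dvF.ne_zero
  have hO : ∀ x, x ∈ OF → x ∈ OM → x ∈ OV → x ∈ OF ⊓ OM ⊓ OV := fun x h1 h2 h3 => ⟨⟨h1, h2⟩, h3⟩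
  have hOle : ∀ x ∈ OF ⊓ OM ⊓ OV, x ∈ OF ∧ x ∈ OM ∧ x ∈ OV := fun x h => ⟨h.1.1, h.1.2, h.2⟩
  obtain ⟨⟨dF, prF⟩, ⟨dM, prM⟩, ⟨dV, prV⟩⟩ := br_ded L hq memF memM memV hL p1 p2 mem1 mem2
  have hC : Chart3 OF OM OV ϖ t m B pF pM pV :=
    { chart := hB
      frac := hfrac
      memA := memF
      memC := memM
      memB := memV
      regC := fun n hn hM _ _ =>
        (locPrinc_of_regAt hq hO hOle hϖ0 L.ram hB pF pM pV memF memM memV n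
          (hreg n hn (hM ((memM _).2 (L.unif_divM hq))))).2.1
      regN := fun n hn hF _ _ =>
        (locPrinc_of_regAt hq hO hOle hϖ0 L.ram hB pF pM pV memF memM memV n
          (hreg n hn (hF ((memF _).2 divS_self)))).1 }
  refine ⟨hC.chartOO, fun n hn hϖn => ?_, ?_⟩
  · obtain ⟨h1, h2, h3⟩ := br_dich L hq hC hL n hn.isPrime
    exact hC.pt_of_regAt L hq hm n (hreg n hn hϖn) (br_some L hC n hn.isPrime hϖn) h1 h2 h3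
  · exact lpall_of_regAt (D := D) hq hm hO hOle hϖ0 L.ram L.dvM.mem hB pF pM pV memF memM memV
      (fun n hn hϖn => br_some L hC n hn.isPrime hϖn) hreg u hu hdiv

/-- **[BR-FIN]**, final abstract form. -/
theorem fix_abs3 (hq : q.Prime) (L : Lvl1 q O1 O2 ϖ1 OF OM OV ϖ t al be nA nB)
    (m : ℕ) (hm : 0 < m) (hmq : Nat.Coprime q m)
    (R B1 B2 B12 : Subring F2) [IsNoetherianRing R] (hR1 : R ≤ B1) (hR2 : R ≤ B2) (hϖR : ϖ ∈ R)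
    (h1 : IsChartS (OO ![OF, OM, OV]) ϖ m B1) (h2 : IsChartS (OO ![OF, OM, OV]) ϖ m B2)
    (h12 : IsChartS (OO ![OF, OM, OV]) ϖ m B12) (h1le : B1 ≤ B12) (h2le : B2 ≤ B12)
    (x : F2) (hx : x ≠ 0) (hx1 : x ∈ B1) (hx2 : x⁻¹ ∈ B2)
    (h12a : ∀ f ∈ B12, ∃ n : ℕ, x ^ n * f ∈ B1) (h12b : ∀ f ∈ B12, ∃ n : ℕ, x⁻¹ ^ n * f ∈ B2)
    (hfin : ∃ S : Finset F2, ∀ f ∈ B1,
      f ∈ Submodule.span (Subring.closure ((R : Set F2) ∪ {x})) (S : Set F2))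
    (hfrac : ∀ f : F2, ∃ s ∈ B1, s ≠ 0 ∧ s * f ∈ B1)
    (hpt1 : ∀ n : Ideal B1, n.IsMaximal → (⟨ϖ, h1.unif_mem⟩ : B1) ∈ n →
      Pt ![OF, OM, OV] ![ϖ, t, ϖ] ϖ m B1 h1.unif_mem n)
    (hpt2 : ∀ n : Ideal B2, n.IsMaximal → (⟨ϖ, h2.unif_mem⟩ : B2) ∈ n →
      Pt ![OF, OM, OV] ![ϖ, t, ϖ] ϖ m B2 h2.unif_mem n)
    (B1' B2' : Subring F1) (hL1 : ChartL OF OM OV ϖ t m B1 B1' al be nA nB)
    (hL2 : ChartL OF OM OV ϖ t m B2 B2' al be nA nB)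
    (hB1' : ∀ b ∈ B1', b ∈ O1 ∧ b ∈ O2) (hB2' : ∀ b ∈ B2', b ∈ O1 ∧ b ∈ O2)
    (ζ : F1) (hζ : IsPrimitiveRoot ζ m) (hζ1 : ζ ∈ B1') (hζ2 : ζ ∈ B2')
    (hζa : al ζ ∈ R) (hζb : be ζ ∈ R)
    (u : F2) (hu : u ≠ 0) (hlp1 : LPall ϖ m B1 h1.unif_mem u) (hlp2 : LPall ϖ m B2 h2.unif_mem u)
    (hA : ∃ (k : ℤ) (z : F1), nA u = ϖ1 ^ k * z ^ m)
    (hB : ∃ (k : ℤ) (z : F1), nB u = ϖ1 ^ k * z ^ m) :
    ∃ (z : F2) (j : ℤ), z ≠ 0 ∧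
      z ^ m * (u ^ ((q + 1) * (q - 1) * ((q ^ 2 - 1) * q)) * ϖ ^ j) ∈ B1 ∧
      z ^ m * (u ^ ((q + 1) * (q - 1) * ((q ^ 2 - 1) * q)) * ϖ ^ j) ∈ B2 := by
  refine fix_abs2 hq L m hm hmq R B1 B2 B12 hR1 hR2 hϖR h1 h2 h12 h1le h2le x hx hx1 hx2 h12a h12b
    hfin hfrac hpt1 hpt2 ?_ u hu hlp1 hlp2 hA hB
  intro v hv hvA hvB
  obtain ⟨i1, i2, j1, j2, H⟩ := exists_rel3 hm L ζ hζ (hB1' ζ hζ1).1 (hB1' ζ hζ1).2 v (hv 0) (hv 1)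
    (hv 2) hvA hvB
  have hle : ∀ (B : Subring F2), IsChartS (OO ![OF, OM, OV]) ϖ m B →
      (∀ b ∈ B, b ∈ OF) ∧ (∀ b ∈ B, b ∈ OM) ∧ (∀ b ∈ B, b ∈ OV) := fun B hB =>
    ⟨fun b hb => mem_OO.1 (hB.le b hb) 0, fun b hb => mem_OO.1 (hB.le b hb) 1,
      fun b hb => mem_OO.1 (hB.le b hb) 2⟩
  have hpow : ∀ (φ : F1 →+* F2) (k : ℕ), φ (ζ ^ k) ^ m = 1 := by
    intro φ k
    rw [← map_pow, ← pow_mul, mul_comm, pow_mul, hζ.pow_eq_one, one_pow, map_one]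
  refine ⟨al (ζ ^ i1), al (ζ ^ i2), be (ζ ^ j1), be (ζ ^ j2), ?_, ?_, ?_, ?_, hpow _ _, hpow _ _,
    hpow _ _, hpow _ _, ?_, ?_⟩
  · rw [map_pow]; exact pow_mem hζa _
  · rw [map_pow]; exact pow_mem hζa _
  · rw [map_pow]; exact pow_mem hζb _
  · rw [map_pow]; exact pow_mem hζb _
  · exact H B1 B1' hL1 (hle B1 h1).1 (hle B1 h1).2.1 (hle B1 h1).2.2 (fun b hb => (hB1' b hb).1)
      (fun b hb => (hB1' b hb).2) hζ1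
  · exact H B2 B2' hL2 (hle B2 h2).1 (hle B2 h2).2.1 (hle B2 h2).2.2 (fun b hb => (hB2' b hb).1)
      (fun b hb => (hB2' b hb).2) hζ2

end Fermat.Agent.S36
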