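import Fermat.Agent.S36.TFix2
import Fermat.Agent.S36.TChart2
import Fermat.Agent.S36.TGen
import Fermat.Agent.S36.TRedA
import Fermat.Agent.ES.InstDesc

/-!
# S36, geometry, modular block : `fix_abs3` applied to the two charts of level `M₀ q²`
(general base DVR; analogue of `S35.new_gen`)
-/

set_option autoImplicit false
set_option linter.unusedVariables false
set_option linter.unusedSectionVars false
set_option linter.style.haveILetI false

noncomputable section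

namespace Fermat.Agent.S36

open ModularCurve Polynomial
open Fermat.Agent.ES Fermat.Agent.ES.QE Fermat.Agent.ES.Model Fermat.Agent.S34 Fermat.Agent.S35

set_option synthInstance.maxHeartbeats 400000 in
set_option maxHeartbeats 2000000 in
/-- **G-GEN at level `M₀ q²`.** -/
theorem fix_gen {R K k : Type*} [CommRing R] [IsDomain R] [IsDiscreteValuationRing R]
    [Field K] [Algebra R K] [IsFractionRing R K] [Field k] [CharZero K]
    {q : ℕ} [NeZero q] (hq : q.Prime) [CharP k q]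
    (D : QData R K k) (T : Two D q) {K' : Type*} [Field K'] {i : K →+* K'} {ζ : K'ˣ}
    (H : Three T i ζ)
    {R' : Type*} [CommRing R'] [IsDomain R'] [IsNoetherianRing R'] [IsIntegrallyClosed R']
    [Algebra R' K'] [IsFractionRing R' K'] (D' : QData R' K' k)
    (X : D.Coord) (y : LaurentSeries R) (hy : X.xW * y = 1) (m : ℕ) (hm : 0 < m)
    (hmq : Nat.Coprime q m)
    (nA nB : H.F →* T.F)
    (L : Lvl1 q T.O1 T.O2 T.ϖF H.OA (H.OC D') H.OB H.ϖF H.tC H.al H.be nA nB)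
    -- the charts of level `M₀ q²`
    (h1 : IsChartS (H.O D') H.ϖF m (H.chart X))
    (h2 : IsChartS (H.O D') H.ϖF m (H.chart (X.inv y hy)))
    (h12 : IsChartS (H.O D') H.ϖF m (H.chart12 X))
    (hL1 : ChartL H.OA (H.OC D') H.OB H.ϖF H.tC m (H.chart X) (T.chart X) H.al H.be nA nB)
    (hL2 : ChartL H.OA (H.OC D') H.OB H.ϖF H.tC m (H.chart (X.inv y hy)) (T.chart (X.inv y hy))
      H.al H.be nA nB)
    -- the charts of level `M₀ q`
    (hc1 : Chart2 T.O1 T.O2 T.ϖF m (T.chart X) (T.p1 X) (T.p2 X))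
    (hc2 : Chart2 T.O1 T.O2 T.ϖF m (T.chart (X.inv y hy)) (T.p1 (X.inv y hy)) (T.p2 (X.inv y hy)))
    (d11 : IsDedekindDomain (T.chart X ⧸ T.p1 X)) (d12 : IsDedekindDomain (T.chart X ⧸ T.p2 X))
    (d21 : IsDedekindDomain (T.chart (X.inv y hy) ⧸ T.p1 (X.inv y hy)))
    (d22 : IsDedekindDomain (T.chart (X.inv y hy) ⧸ T.p2 (X.inv y hy)))
    -- regularity
    (hreg1 : ∀ n : Ideal (H.chart X), n.IsMaximal → H.ϖB X ∈ n →
      RegAt q (H.ϖB X) (H.pA X) (H.pC X D') (H.pB X) n)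
    (hreg2 : ∀ n : Ideal (H.chart (X.inv y hy)), n.IsMaximal → H.ϖB (X.inv y hy) ∈ n →
      RegAt q (H.ϖB (X.inv y hy)) (H.pA (X.inv y hy)) (H.pC (X.inv y hy) D') (H.pB (X.inv y hy)) n)
    -- the `m`-th roots of unity
    (r : R) (hr : IsPrimitiveRoot r m)
    -- the constants
    (hconst : ∀ f : H.F, f ∈ H.chart X → f ∈ H.chart (X.inv y hy) →
      ∃ c : K, f = algebraMap K H.F c)
    (u : H.F) (hu : u ≠ 0)
    (hdiv1 : ∃ (n : ℕ) (g g' : Fin n → H.F), (∀ i, g i ^ m * u ∈ H.away X) ∧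
      (∀ i, g' i ^ m * u⁻¹ ∈ H.away X) ∧ ∑ i, g i * g' i = 1)
    (hdiv2 : ∃ (n : ℕ) (g g' : Fin n → H.F), (∀ i, g i ^ m * u ∈ H.away (X.inv y hy)) ∧
      (∀ i, g' i ^ m * u⁻¹ ∈ H.away (X.inv y hy)) ∧ ∑ i, g i * g' i = 1)
    (hA : ∃ (j : ℤ) (z : T.F), nA u = T.ϖF ^ j * z ^ m)
    (hB : ∃ (j : ℤ) (z : T.F), nB u = T.ϖF ^ j * z ^ m) :
    ∃ (z : H.F) (j : ℤ) (c : K), z ≠ 0 ∧
      z ^ m * (u ^ ((q + 1) * (q - 1) * ((q ^ 2 - 1) * q)) * H.ϖF ^ j) = algebraMap K H.F c := by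
  have hA' : HDivDesc.IsAway D := Inst.InstDesc.isAway_of_dvr D
  haveI := H.isNoetherianRing_RF
  haveI := H.isNoetherianRing_chart X
  haveI := H.isNoetherianRing_chart (X.inv y hy)
  letI := H.algRB X
  letI := H.algRB (X.inv y hy)
  letI := H.algBD X
  letI := H.algBD (X.inv y hy)
  haveI := H.isDedekindDomain_away X hA'
  haveI := H.isDedekindDomain_away (X.inv y hy) hA'
  haveI := H.isFractionRing_away X hA'
  haveI := H.isFractionRing_away (X.inv y hy) hA'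
  haveI := H.tower_away X
  haveI := H.tower_away (X.inv y hy)
  haveI l1 : IsLocalization.Away (⟨H.ϖF, h1.unif_mem⟩ : H.chart X) (H.away X) :=
    H.isLocalization_away X
  haveI l2 : IsLocalization.Away (⟨H.ϖF, h2.unif_mem⟩ : H.chart (X.inv y hy))
      (H.away (X.inv y hy)) := H.isLocalization_away (X.inv y hy)
  have conv : ∀ (B : Subring H.F), (∃ (n : ℕ) (g g' : Fin n → H.F), (∀ i, g i ^ m * u ∈ B) ∧
      (∀ i, g' i ^ m * u⁻¹ ∈ B) ∧ ∑ i, g i * g' i = 1) →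
      ∃ (ι : Type) (_ : Fintype ι) (g g' : ι → H.F),
      (∀ i, ∃ d : B, algebraMap B H.F d = g i ^ m * u) ∧
      (∀ i, ∃ d : B, algebraMap B H.F d = g' i ^ m * u⁻¹) ∧ ∑ i, g i * g' i = 1 := by
    rintro B ⟨n, g, g', h1, h2, h3⟩
    exact ⟨Fin n, inferInstance, g, g', fun i => ⟨⟨_, h1 i⟩, rfl⟩, fun i => ⟨⟨_, h2 i⟩, rfl⟩, h3⟩
  have hle : ∀ (Y : D.Coord), IsChartS (H.O D') H.ϖF m (H.chart Y) →
      (∀ b ∈ H.chart Y, b ∈ H.OA) ∧ (∀ b ∈ H.chart Y, b ∈ H.OC D') ∧ (∀ b ∈ H.chart Y, b ∈ H.OB) :=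
    fun Y hY => ⟨fun b hb => (hY.le b hb).1.1, fun b hb => (hY.le b hb).1.2,
      fun b hb => (hY.le b hb).2⟩
  obtain ⟨k1, hpt1, hlp1⟩ := chart_pack (D := H.away X) hq.two_le L hm (B := H.chart X)
    (B' := T.chart X) h1 (H.frac_chart X) (H.pA X) (H.pC X D') (H.pB X)
    (TRedA.mem_pA H X (hle X h1).1) (TRedA.mem_pC H X D' (hle X h1).2.1)
    (TRedA.mem_pB H X (hle X h1).2.2) hL1 (T.p1 X) (T.p2 X) hc1.mem1 hc1.mem2 hreg1 u hu
    (conv _ hdiv1)
  obtain ⟨k2, hpt2, hlp2⟩ := chart_pack (D := H.away (X.inv y hy)) hq.two_le L hm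
    (B := H.chart (X.inv y hy)) (B' := T.chart (X.inv y hy)) h2 (H.frac_chart (X.inv y hy))
    (H.pA (X.inv y hy)) (H.pC (X.inv y hy) D') (H.pB (X.inv y hy))
    (TRedA.mem_pA H (X.inv y hy) (hle _ h2).1) (TRedA.mem_pC H (X.inv y hy) D' (hle _ h2).2.1)
    (TRedA.mem_pB H (X.inv y hy) (hle _ h2).2.2) hL2 (T.p1 (X.inv y hy)) (T.p2 (X.inv y hy))
    hc2.mem1 hc2.mem2 hreg2 u hu (conv _ hdiv2)
  have k12 : IsChartS (OO ![H.OA, H.OC D', H.OB]) H.ϖF m (H.chart12 X) := by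
    rw [OO_vec]
    exact h12
  -- the root of unity
  set ζm : T.F := algebraMap K T.F (algebraMap R K r) with hζm
  have hinj : Function.Injective ((algebraMap K T.F).comp (algebraMap R K)) :=
    (algebraMap K T.F).injective.comp (IsFractionRing.injective R K)
  have hζp : IsPrimitiveRoot ζm m := hr.map_of_injective (f := (algebraMap K T.F).comp
    (algebraMap R K)) hinj
  have hζa : H.al ζm ∈ H.RF := ⟨r, rfl⟩
  have hζb : H.be ζm ∈ H.RF := by
    refine ⟨r, ?_⟩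
    apply H.eA.injective
    rw [H.eA_be]
    show algebraMap K (LaurentSeries K) (algebraMap R K r)
      = qExpand K q (algebraMap K (LaurentSeries K) (algebraMap R K r))
    rw [algebraMap_eq_C, qExpand_C]
  obtain ⟨z, j, hz, hz1, hz2⟩ := fix_abs3 hq L m hm hmq H.RF (H.chart X) (H.chart (X.inv y hy))
    (H.chart12 X) (H.RF_le_chart X) (H.RF_le_chart (X.inv y hy)) H.ϖF_mem_RF k1 k2 k12
    (H.chart_le_chart12 X) (H.inv_chart_le_chart12 X y hy) (H.x X) (H.x_ne_zero X y hy)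
    (H.x_mem_chart X) (H.x_inv_mem_inv_chart X y hy) (fun f hf => H.h12a X hf)
    (fun f hf => H.h12b X y hy hf) (H.hfin_chart X)
    (fun f => by
      obtain ⟨a, ha, b, hb, hb0, e⟩ := H.frac_chart X f
      exact ⟨b, hb, hb0, by rw [mul_comm, e]; exact ha⟩)
    hpt1 hpt2 (T.chart X) (T.chart (X.inv y hy)) hL1 hL2
    (fun b hb => ⟨(hc1.chart.le b hb).1, (hc1.chart.le b hb).2⟩)
    (fun b hb => ⟨(hc2.chart.le b hb).1, (hc2.chart.le b hb).2⟩)
    ζm hζp (T.RF_le_chart X ⟨r, rfl⟩) (T.RF_le_chart (X.inv y hy) ⟨r, rfl⟩) hζa hζb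
    u hu hlp1 hlp2 hA hB
  obtain ⟨c, hc⟩ := hconst _ hz1 hz2
  exact ⟨z, j, c, hz, hc⟩

end Fermat.Agent.S36
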