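import Fermat.Agent.S36.TDefs
import Fermat.Agent.S36.EVV
import Fermat.Agent.S36.Emb
import Fermat.Agent.S36.Desc2

/-!
# S36, block G-THREE, package T-INST : the structure `Three` at level `M₀ q²`

From `T : Two D q` with `T.F = F0 K0 (M₀ q)` and `bc (T.e2 f) = W₁ (bc f)` we get
`H : Three T i ζ` (`i : K0 ⊆ K0' ∋ ζ`) with `H.F = F0 K0 (M₀ q²)`, `bc (H.eB f) = W₂ (bc f)`,
and the mirrored span `f = ∑ β(a_j) x^j`.
-/

set_option autoImplicit false
set_option linter.unusedSectionVars false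

noncomputable section

namespace Fermat.Agent.S36

open ModularCurve AlgebraicCurve Polynomial
open Fermat.Agent.S24 Fermat.Agent.S28 Fermat.Agent.ES Fermat.Agent.ES.QE Fermat.Agent.ES.Inst
  Fermat.Agent.ES.IDvr
open Fermat.Agent.S34 Fermat.Agent.S34.WK

variable (M0 q : ℕ) [NeZero M0] [Fact q.Prime]

theorem exists_three (h : ¬ q ∣ M0) {A : ValuationSubring Kb}
    (K0 K0' : IntermediateField ℚ Kb) (hle : K0 ≤ K0')
    (ζ : K0'ˣ) (hζ1 : ζ ≠ 1) (hζq : ζ ^ q = 1)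
    [IsDiscreteValuationRing (R0 K0 A)] (D : QData (R0 K0 A) K0 (kA A)) (T : Two D q)
    (hT : T.F = F0 K0 (M0 * q))
    (hTW : ∀ (f : T.F) (hf : bc K0 (f : LaurentSeries K0) ∈ modularFunctionFieldBar (M0 * q)),
      bc K0 (T.e2 f) = ((Wb M0 q h ⟨_, hf⟩ : FF (M0 * q)) : LaurentSeries Kb)) :
    ∃ H : Three T (IntermediateField.inclusion hle).toRingHom ζ, H.F = F0 K0 (M0 * q * q) ∧
      (∀ (f : H.F) (hf : bc K0 (f : LaurentSeries K0) ∈ modularFunctionFieldBar (M0 * q * q)),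
        bc K0 (H.eB f) = ((Wb2 M0 q h ⟨_, hf⟩ : FF (M0 * q * q)) : LaurentSeries Kb)) := by
  have hqK : (q : K0) ≠ 0 := Nat.cast_ne_zero.2 (NeZero.ne q)
  let e2 : F0 K0 (M0 * q) →+* LaurentSeries K0 :=
    T.e2.comp (IntermediateField.inclusion hT.symm.le).toRingHom
  have he2 : ∀ (f : F0 K0 (M0 * q))
      (hf : bc K0 (f : LaurentSeries K0) ∈ modularFunctionFieldBar (M0 * q)),
      bc K0 (e2 f) = ((Wb M0 q h ⟨_, hf⟩ : FF (M0 * q)) : LaurentSeries Kb) :=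
    fun f hf => hTW (IntermediateField.inclusion hT.symm.le f) hf
  obtain ⟨eB, heB, heBα, heBβ⟩ := exists_eVV M0 q h K0 e2 he2
  obtain ⟨eC, heCα, heCβ⟩ := exists_eC M0 q h K0 K0' hle ζ hζ1 hζq e2 he2
  have hj0 : jqModC K0 ∈ F0 K0 M0 := by
    have := gX_mem_F0 K0 (N := M0) (d := 1) (NeZero.ne M0) (one_dvd _)
    rwa [gX, Ord.qExp_one] at this
  have hjmem : bc K0 (jqModC K0) ∈ modularFunctionFieldBar M0 := bc_mem K0 M0 hj0
  have hjord : (bc K0 (jqModC K0)).order = -1 := by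
    rw [S34.bc_jq]
    exact Ord.order_jqModC Kb
  refine ⟨{ F := F0 K0 (M0 * q * q)
            le := hT ▸ F0_le (M0 * q) q K0
            V_mem := fun u hu => V_mem_F0 (M0 * q) q K0 hqK (hT ▸ hu)
            eB := eB
            eB_alpha := fun u hu => heBα ⟨u, hT ▸ hu⟩ _
            eB_beta := fun u hu => heBβ ⟨u, hT ▸ hu⟩ _
            eC := eC
            eC_alpha := fun u hu => heCα ⟨u, hT ▸ hu⟩ _
            eC_beta := fun u hu => heCβ ⟨u, hT ▸ hu⟩ _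
            span := fun f hf => by
              obtain ⟨a, ha, hfa⟩ := span2_K0 M0 q h K0 (jqModC K0) hjmem hjord hf
              exact ⟨a, fun i => hT ▸ ha i, hfa⟩ }, rfl, fun f hf => heB f hf⟩

/-- `W₁` preserves the field of definition. -/
theorem e2_mem_of (h : ¬ q ∣ M0) {A : ValuationSubring Kb} (K0 : IntermediateField ℚ Kb)
    [IsDiscreteValuationRing (R0 K0 A)] (D : QData (R0 K0 A) K0 (kA A)) (T : Two D q)
    (hT : T.F = F0 K0 (M0 * q))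
    (hTW : ∀ (f : T.F) (hf : bc K0 (f : LaurentSeries K0) ∈ modularFunctionFieldBar (M0 * q)),
      bc K0 (T.e2 f) = ((Wb M0 q h ⟨_, hf⟩ : FF (M0 * q)) : LaurentSeries Kb)) (u : T.F) :
    T.e2 u ∈ T.F := by
  have hu : bc K0 (u : LaurentSeries K0) ∈ modularFunctionFieldBar (M0 * q) :=
    bc_mem K0 _ (hT ▸ u.2)
  have hg := hTW u hu
  obtain ⟨g0, hg0, hg0'⟩ := isDef_of_coeff_mem (N := M0 * q) K0 (Wb M0 q h ⟨_, hu⟩) (fun n => by
    rw [← hg, bc, coeffMap_coeff]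
    exact ((T.e2 u).coeff n).2)
  have : g0 = T.e2 u := S34.bc_injective K0 (hg0'.trans hg.symm)
  rw [← this, hT]
  exact hg0

/-- the mirrored span: `f = ∑ β(a_j) x^j`. -/
theorem three_span' (h : ¬ q ∣ M0) {A : ValuationSubring Kb}
    (K0 K0' : IntermediateField ℚ Kb) (hle : K0 ≤ K0') (ζ : K0'ˣ)
    [IsDiscreteValuationRing (R0 K0 A)] (D : QData (R0 K0 A) K0 (kA A)) (T : Two D q)
    (hT : T.F = F0 K0 (M0 * q))
    (hTW : ∀ (f : T.F) (hf : bc K0 (f : LaurentSeries K0) ∈ modularFunctionFieldBar (M0 * q)),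
      bc K0 (T.e2 f) = ((Wb M0 q h ⟨_, hf⟩ : FF (M0 * q)) : LaurentSeries Kb))
    (H : Three T (IntermediateField.inclusion hle).toRingHom ζ) (hH : H.F = F0 K0 (M0 * q * q))
    (hHW : ∀ (f : H.F) (hf : bc K0 (f : LaurentSeries K0) ∈ modularFunctionFieldBar (M0 * q * q)),
        bc K0 (H.eB f) = ((Wb2 M0 q h ⟨_, hf⟩ : FF (M0 * q * q)) : LaurentSeries Kb))
    (f : H.F) : ∃ a : Fin q → T.F, f = ∑ j, H.be (a j) * H.jx ^ (j : ℕ) := by
  have hfmem : bc K0 (f : LaurentSeries K0) ∈ modularFunctionFieldBar (M0 * q * q) :=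
    bc_mem K0 _ (hH ▸ f.2)
  have hg := hHW f hfmem
  obtain ⟨g0, hg0, hg0'⟩ := isDef_of_coeff_mem (N := M0 * q * q) K0 (Wb2 M0 q h ⟨_, hfmem⟩)
    (fun n => by
      rw [← hg, bc, coeffMap_coeff]
      exact ((H.eB f).coeff n).2)
  have hg0e : g0 = H.eB f := S34.bc_injective K0 (hg0'.trans hg.symm)
  have hgF : H.eB f ∈ H.F := by rw [← hg0e, hH]; exact hg0
  have hinv : H.eB ⟨H.eB f, hgF⟩ = (f : LaurentSeries K0) := by
    apply S34.bc_injective K0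
    have hm : bc K0 (H.eB f) ∈ modularFunctionFieldBar (M0 * q * q) := bc_mem K0 _ (hH ▸ hgF)
    rw [hHW ⟨H.eB f, hgF⟩ hm]
    have : (⟨bc K0 (H.eB f), hm⟩ : FF (M0 * q * q)) = Wb2 M0 q h ⟨_, hfmem⟩ := Subtype.ext hg
    rw [this, Wb2_Wb2]
  obtain ⟨a, ha, hga⟩ := H.span (H.eB f) hgF
  have e1 : (⟨H.eB f, hgF⟩ : H.F) = ∑ j, H.al ⟨a j, ha j⟩ * H.jz ^ (j : ℕ) := by
    apply Subtype.ext
    rw [IntermediateField.coe_sum]
    exact hga
  refine ⟨fun j => ⟨T.e2 ⟨a j, ha j⟩, e2_mem_of M0 q h K0 D T hT hTW _⟩, ?_⟩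
  apply Subtype.ext
  rw [← hinv, e1, map_sum, IntermediateField.coe_sum]
  refine Finset.sum_congr rfl fun j _ => ?_
  rw [map_mul, map_pow, H.eB_al, Three.jz, H.eB_be, T.e2_be]
  rfl

end Fermat.Agent.S36
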