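import Fermat.Agent.S36.THdiv
import Fermat.Agent.S36.BrLP

/-!
# S36, modular block : `LPall` on the chart of level `M₀ q²` from `RegAt` and `hdiv`
(instance of `lpall_of_regAt` with `B = H.chart X`, `D = H.away X`).
-/

set_option autoImplicit false
set_option linter.unusedSectionVars false
set_option linter.style.haveILetI false
set_option synthInstance.maxHeartbeats 400000

noncomputable section

namespace Fermat.Agent.S36

open ModularCurve Polynomial
open Fermat.Agent.ES Fermat.Agent.ES.QE Fermat.Agent.ES.Model Fermat.Agent.S34 Fermat.Agent.S35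

namespace Three

set_option maxHeartbeats 2000000 in
/-- **LPall** on `H.chart X`. -/
theorem lpall_of {R K k : Type*} [CommRing R] [IsDomain R] [IsDiscreteValuationRing R]
    [Field K] [Algebra R K] [IsFractionRing R K] [Field k] [CharZero K]
    {D : QData R K k} {q : ℕ} [NeZero q] {T : Two D q}
    {K' : Type*} [Field K'] {i : K →+* K'} {ζ : K'ˣ} (H : Three T i ζ)
    {R' : Type*} [CommRing R'] [IsDomain R'] [IsNoetherianRing R'] [IsIntegrallyClosed R']
    [Algebra R' K'] [IsFractionRing R' K'] (D' : QData R' K' k) (X : D.Coord)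
    (hq : 2 ≤ q) {m : ℕ} (hm : 0 < m)
    (ram : IsU (H.OC D') (H.tC ^ (q - 1) / H.ϖF)) (htM : H.tC ∈ H.OC D')
    (hB : IsChartS (H.O D') H.ϖF m (H.chart X))
    (memF : ∀ b : H.chart X, b ∈ H.pA X ↔ DivS H.OA H.ϖF 1 (b : H.F))
    (memM : ∀ b : H.chart X, b ∈ H.pC X D' ↔ DivS (H.OC D') H.tC 1 (b : H.F))
    (memV : ∀ b : H.chart X, b ∈ H.pB X ↔ DivS H.OB H.ϖF 1 (b : H.F))
    [(H.pA X).IsPrime] [(H.pC X D').IsPrime] [(H.pB X).IsPrime]
    [IsDedekindDomain (H.chart X ⧸ H.pA X)] [IsDedekindDomain (H.chart X ⧸ H.pC X D')]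
    [IsDedekindDomain (H.chart X ⧸ H.pB X)]
    (hsome : ∀ n : Ideal (H.chart X), n.IsMaximal → (⟨H.ϖF, hB.unif_mem⟩ : H.chart X) ∈ n →
      H.pA X ≤ n ∨ H.pC X D' ≤ n ∨ H.pB X ≤ n)
    (hreg : ∀ n : Ideal (H.chart X), n.IsMaximal → (⟨H.ϖF, hB.unif_mem⟩ : H.chart X) ∈ n →
      RegAt q (⟨H.ϖF, hB.unif_mem⟩ : H.chart X) (H.pA X) (H.pC X D') (H.pB X) n)
    (u : H.F) (hu : u ≠ 0) (hdiv : HdivIn (H.away X) m u) :
    LPall H.ϖF m (H.chart X) hB.unif_mem u := by
  have hA' : HDivDesc.IsAway D := Inst.InstDesc.isAway_of_dvr D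
  haveI := H.isNoetherianRing_chart X
  letI := H.algRB X
  letI := H.algBD X
  haveI := H.isDedekindDomain_away X hA'
  haveI := H.isFractionRing_away X hA'
  haveI := H.tower_away X
  haveI : IsLocalization.Away (⟨H.ϖF, hB.unif_mem⟩ : H.chart X) (H.away X) :=
    H.isLocalization_away X
  exact lpall_of_regAt (OF := H.OA) (OM := H.OC D') (OV := H.OB) (O := H.O D') (D := H.away X)
    hq hm (fun x h1 h2 h3 => ⟨⟨h1, h2⟩, h3⟩) (fun x h => ⟨h.1.1, h.1.2, h.2⟩) H.ϖF_ne_zero ram htM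
    hB (H.pA X) (H.pC X D') (H.pB X) memF memM memV hsome hreg u hu hdiv

end Three

end Fermat.Agent.S36
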