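import Fermat.Agent.S36.TNorm
import Fermat.Agent.S36.Span2
import Fermat.Agent.S35.NRKb

/-!
# S36, modular block, package CH-4 (part 3) : the norms at the level `K0` and at the level `Kb`

`ι₁ (H.nA u) = normA (M₀ q) q (ι₂ u)`, `ι₁ (H.nB u) = normB (M₀ q) q (ι₂ u)`.
-/

set_option autoImplicit false
set_option linter.unusedSectionVars false
set_option linter.unusedVariables false

noncomputable section

namespace Fermat.Agent.S36

open ModularCurve AlgebraicCurve Polynomial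
open Fermat.Agent.S24 Fermat.Agent.ES Fermat.Agent.ES.QE Fermat.Agent.ES.Model Fermat.Agent.S34
  Fermat.Agent.S35 Fermat.Agent.S34.WK

section Kb

variable (M0 q : ℕ) [NeZero M0] [Fact q.Prime]

/-- `[FF (M₀ q q) : β' FF (M₀ q)] = q`. -/
theorem finrank_heckeBeta_sq (h : ¬ q ∣ M0) :
    finrankAlong Kb (heckeBetaBar Kb (M0 * q) q) = q := by
  have := @Algebra.finrank_eq_of_equiv_equiv (FF (M0 * q)) (FF (M0 * q * q)) _ _
    (algebraAlong (heckeAlphaBar Kb (M0 * q) q)) (FF (M0 * q)) (FF (M0 * q * q)) _ _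
    (algebraAlong (heckeBetaBar Kb (M0 * q) q))
    (Wb M0 q h : FF (M0 * q) ≃+* FF (M0 * q)) (Wb2 M0 q h : FF (M0 * q * q) ≃+* FF (M0 * q * q)) (by
      apply RingHom.ext
      intro y
      exact (Wb2_alpha M0 q h y).symm)
  rw [finrankAlong, ← this]
  exact finrank_heckeAlpha_of_dvd (M0 * q) q (Dvd.intro_left M0 rfl)

/-- the mirror of `span2_Kb`. -/
theorem span2_Kb' (h : ¬ q ∣ M0) (w : FF M0) (hw : (w : LaurentSeries Kb).order = -1)
    (f : FF (M0 * q * q)) :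
    ∃ a : Fin q → FF (M0 * q),
      f = ∑ i, heckeBetaBar Kb (M0 * q) q (a i)
        * heckeAlphaBar Kb (M0 * q) q (heckeAlphaBar Kb M0 q w) ^ (i : ℕ) := by
  obtain ⟨a, ha⟩ := span2_Kb M0 q h w hw (Wb2 M0 q h f)
  refine ⟨fun i => Wb M0 q h (a i), ?_⟩
  rw [← Wb2_Wb2 M0 q h f, ha, map_sum]
  refine Finset.sum_congr rfl fun i _ => ?_
  rw [map_mul, map_pow, Wb2_alpha, Wb2_zz]

theorem order_jF : ((jF M0 : FF M0) : LaurentSeries Kb).order = -1 := by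
  rw [coe_jF']
  exact Fermat.Agent.S28.Ord.order_jqModC Kb

end Kb

variable {R K k : Type*} [CommRing R] [IsDomain R] [IsNoetherianRing R] [IsIntegrallyClosed R]
  [Field K] [Algebra R K] [IsFractionRing R K] [Field k]
  {D : QData R K k} {q : ℕ} [Fact q.Prime] {T : Two D q}
  {K' : Type*} [Field K'] {i : K →+* K'} {ζ : K'ˣ} (H : Three T i ζ)
  {M0 : ℕ} [NeZero M0]

namespace Three

/-- **(B1)** the norm along `α'`. -/
theorem iota_nA (hqM : ¬ q ∣ M0) (ι1 : T.F →+* FF (M0 * q)) (ι2 : H.F →+* FF (M0 * q * q))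
    (hα : ∀ c, ι2 (H.al c) = heckeAlphaBar Kb (M0 * q) q (ι1 c))
    (hβ : ∀ c, ι2 (H.be c) = heckeBetaBar Kb (M0 * q) q (ι1 c))
    (hj : ι1 (T.be D.jF) = heckeBetaBar Kb M0 q (jF M0)) (u : H.F) :
    ι1 (H.nA u) = normA (M0 * q) q (ι2 u) := by
  let _ := H.al.toAlgebra
  let _ := algebraAlong (heckeAlphaBar Kb (M0 * q) q)
  refine NRKb.norm_map ι1 ι2 hα (fun i : Fin q => H.jz ^ (i : ℕ)) ?_
    H.finrank_al ?_ (finrank_heckeAlpha_of_dvd (M0 * q) q (Dvd.intro_left M0 rfl)) u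
  · intro f _
    obtain ⟨c, rfl⟩ := H.exists_rep f
    refine Submodule.sum_mem _ fun i _ => ?_
    have : H.al (c i) * H.jz ^ (i : ℕ) = c i • H.jz ^ (i : ℕ) :=
      (Algebra.smul_def _ _).symm
    rw [this]
    exact Submodule.smul_mem _ _ (Submodule.subset_span ⟨i, rfl⟩)
  · intro f _
    obtain ⟨c, rfl⟩ := span2_Kb M0 q hqM (jF M0) (order_jF M0) f
    refine Submodule.sum_mem _ fun i _ => ?_
    have : heckeAlphaBar Kb (M0 * q) q (c i) * zz M0 q (jF M0) ^ (i : ℕ)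
        = c i • zz M0 q (jF M0) ^ (i : ℕ) := (Algebra.smul_def _ _).symm
    rw [this]
    refine Submodule.smul_mem _ _ (Submodule.subset_span ⟨i, ?_⟩)
    simp only
    rw [map_pow, jz, hβ, hj, zz]

/-- **(B2)** the norm along `β'`. -/
theorem iota_nB (hqM : ¬ q ∣ M0) (ι1 : T.F →+* FF (M0 * q)) (ι2 : H.F →+* FF (M0 * q * q))
    (hα : ∀ c, ι2 (H.al c) = heckeAlphaBar Kb (M0 * q) q (ι1 c))
    (hβ : ∀ c, ι2 (H.be c) = heckeBetaBar Kb (M0 * q) q (ι1 c))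
    (hj : ι1 (T.al D.jF) = heckeAlphaBar Kb M0 q (jF M0)) (u : H.F) :
    ι1 (H.nB u) = normB (M0 * q) q (ι2 u) := by
  let _ := H.be.toAlgebra
  let _ := algebraAlong (heckeBetaBar Kb (M0 * q) q)
  refine NRKb.norm_map ι1 ι2 hβ (fun i : Fin q => H.jx ^ (i : ℕ)) ?_
    H.finrank_be ?_ (finrank_heckeBeta_sq M0 q hqM) u
  · intro f _
    obtain ⟨c, rfl⟩ := H.exists_rep' f
    refine Submodule.sum_mem _ fun i _ => ?_
    have : H.be (c i) * H.jx ^ (i : ℕ) = c i • H.jx ^ (i : ℕ) :=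
      (Algebra.smul_def _ _).symm
    rw [this]
    exact Submodule.smul_mem _ _ (Submodule.subset_span ⟨i, rfl⟩)
  · intro f _
    obtain ⟨c, rfl⟩ := span2_Kb' M0 q hqM (jF M0) (order_jF M0) f
    refine Submodule.sum_mem _ fun i _ => ?_
    have : heckeBetaBar Kb (M0 * q) q (c i)
          * heckeAlphaBar Kb (M0 * q) q (heckeAlphaBar Kb M0 q (jF M0)) ^ (i : ℕ)
        = c i • heckeAlphaBar Kb (M0 * q) q (heckeAlphaBar Kb M0 q (jF M0)) ^ (i : ℕ) :=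
      (Algebra.smul_def _ _).symm
    rw [this]
    refine Submodule.smul_mem _ _ (Submodule.subset_span ⟨i, ?_⟩)
    simp only
    rw [map_pow, jx, hα, hj]

/-- the two dictionaries from the three base changes `ι₀, ι₁, ι₂`. -/
theorem iota_nA_nB (hqM : ¬ q ∣ M0) (ι0 : D.F0 →+* FF M0) (ι1 : T.F →+* FF (M0 * q))
    (ι2 : H.F →+* FF (M0 * q * q))
    (hα1 : ∀ c, ι1 (T.al c) = heckeAlphaBar Kb M0 q (ι0 c))
    (hβ1 : ∀ c, ι1 (T.be c) = heckeBetaBar Kb M0 q (ι0 c))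
    (hα : ∀ c, ι2 (H.al c) = heckeAlphaBar Kb (M0 * q) q (ι1 c))
    (hβ : ∀ c, ι2 (H.be c) = heckeBetaBar Kb (M0 * q) q (ι1 c)) (hj : ι0 D.jF = jF M0) (u : H.F) :
    ι1 (H.nA u) = normA (M0 * q) q (ι2 u) ∧ ι1 (H.nB u) = normB (M0 * q) q (ι2 u) :=
  ⟨H.iota_nA hqM ι1 ι2 hα hβ (by rw [hβ1, hj]) u, H.iota_nB hqM ι1 ι2 hα hβ (by rw [hα1, hj]) u⟩

end Three

end Fermat.Agent.S36
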