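import Fermat.Agent.S36.NCDefs
import Fermat.Agent.S36.GDefs
import Fermat.Agent.S35.GIC
import Fermat.Agent.S34.RedAbs
import Fermat.Agent.S34.SMod

/-!
# S36, chart layer, abstract part of [CH-3] / [CH-4]

* `icP` : an element of a discrete valuation ring `O` which is integral modulo `ϖ O` over a chart
  `B` (with `B / p` Dedekind, `p = B ∩ ϖ O`) is congruent to an element of `B`;
* `surj_branch` : residue surjectivity on the charts along one branch;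
* `ded_branch` : `B / pX` is a Dedekind domain and `pX` is prime;
* `Lvl1.chartL_surj`, `Lvl1.dedekind3` : the four surjectivities of `ChartL` and the three Dedekind
  quotients from `Lvl1` + `Chart2` at the level `M₀ q`.
-/

set_option autoImplicit false

namespace Fermat.Agent.S36

open Fermat.Agent.S34 Fermat.Agent.S35 Polynomial

namespace TRedAbs

variable {F : Type*} [Field F]

/-- evaluation in a subring. -/
lemma eval₂_mem {A : Type*} [CommRing A] {O : Subring F} (φ : A →+* F) (hφ : ∀ a, φ a ∈ O)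
    {x : F} (hx : x ∈ O) (P : A[X]) : P.eval₂ φ x ∈ O := by
  rw [eval₂_eq_sum_range]
  exact sum_mem fun i _ => mul_mem (hφ _) (pow_mem hx _)

/-- polynomial congruence in the variable. -/
lemma divS_eval₂_sub {A : Type*} [CommRing A] {O : Subring F} {ϖ : F} (φ : A →+* F)
    (hφ : ∀ a, φ a ∈ O) {x y : F} (hx : x ∈ O) (hy : y ∈ O) (h : DivS O ϖ 1 (x - y)) (P : A[X]) :
    DivS O ϖ 1 (P.eval₂ φ x - P.eval₂ φ y) := by
  rw [eval₂_eq_sum_range, eval₂_eq_sum_range, ← Finset.sum_sub_distrib]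
  refine Finset.sum_induction _ (DivS O ϖ 1) (fun _ _ ha hb => ha.add hb)
    ⟨0, O.zero_mem, by simp⟩ fun i _ => ?_
  rw [← mul_sub]
  refine S34.DivS.mul_left ?_ (hφ _)
  have hd : ((⟨x, hx⟩ : O) - ⟨y, hy⟩) ∣ (⟨x, hx⟩ : O) ^ i - ⟨y, hy⟩ ^ i := sub_dvd_pow_sub_pow _ _ i
  obtain ⟨c, hc⟩ := hd
  have hc' : x ^ i - y ^ i = (x - y) * (c : F) := by
    have := congrArg (Subtype.val) hc
    simpa using this
  rw [hc']
  exact h.mul_right c.2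

/-- polynomial congruence in the coefficients. -/
lemma divS_eval₂_coeff {A : Type*} [CommRing A] {O : Subring F} {ϖ : F} (φ ψ : A →+* F)
    (h : ∀ a, DivS O ϖ 1 (φ a - ψ a)) {x : F} (hx : x ∈ O) (P : A[X]) :
    DivS O ϖ 1 (P.eval₂ φ x - P.eval₂ ψ x) := by
  rw [eval₂_eq_sum_range, eval₂_eq_sum_range, ← Finset.sum_sub_distrib]
  refine Finset.sum_induction _ (DivS O ϖ 1) (fun _ _ ha hb => ha.add hb)
    ⟨0, O.zero_mem, by simp⟩ fun i _ => ?_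
  rw [← sub_mul]
  exact (h _).mul_right (pow_mem hx _)

/-- `f ∈ O`, `P(f) ≡ 0` mod `ϖ O` with `P` monic over `B` ⟹ `f ≡ c ∈ B` mod `ϖ O`. -/
theorem icP {O : Subring F} {ϖ : F} (hO : IsDV O ϖ) {B : Subring F} (hBO : ∀ x ∈ B, x ∈ O)
    (hfrac : ∀ f : F, ∃ a ∈ B, ∃ b ∈ B, b ≠ 0 ∧ f * b = a)
    (p : Ideal B) [p.IsPrime] [IsDedekindDomain (B ⧸ p)]
    (hp : ∀ b : B, b ∈ p ↔ DivS O ϖ 1 (b : F))
    (θ : B) (hθ : θ ∉ p) (hθ' : ∀ b ∈ p, ∃ b' : B, (θ : F) * (b : F) = ϖ * (b' : F))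
    (f : F) (hf : f ∈ O) (P : B[X]) (hP : P.Monic) (he : DivS O ϖ 1 (P.eval₂ B.subtype f)) :
    ∃ c : B, DivS O ϖ 1 (f - (c : F)) := by
  have hϖ := hO.ne_zero
  obtain ⟨hθ0, hθi⟩ := GIC.inv_mem_of_not_divS hO (hBO _ θ.2) (fun h => hθ ((hp θ).2 h))
  -- a denominator outside `p`
  have key : ∀ (n : ℕ) (a b : B) (w : F), w ∈ O → w⁻¹ ∈ O → w ≠ 0 → (b : F) = w * ϖ ^ n →
      f * (b : F) = (a : F) → ∃ a' b' : B, b' ∉ p ∧ f * (b' : F) = (a' : F) := by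
    intro n
    induction n with
    | zero =>
      intro a b w _ hw' hw0 hb hab
      refine ⟨a, b, fun hbp => ?_, hab⟩
      rw [pow_zero, mul_one] at hb
      exact GIC.not_divS_of_unit hO hw0 hw' (hb ▸ (hp b).1 hbp)
    | succ n ih =>
      intro a b w hw hw' hw0 hb hab
      have hbp : b ∈ p := (hp b).2 ⟨w * ϖ ^ n, mul_mem hw (pow_mem hO.mem _), by rw [hb]; ring⟩
      have hap : a ∈ p := (hp a).2 ⟨f * (w * ϖ ^ n), mul_mem hf (mul_mem hw (pow_mem hO.mem _)),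
        by rw [← hab, hb]; ring⟩
      obtain ⟨b', hb'⟩ := hθ' b hbp
      obtain ⟨a', ha'⟩ := hθ' a hap
      refine ih a' b' ((θ : F) * w) (mul_mem (hBO _ θ.2) hw) ?_ (mul_ne_zero hθ0 hw0) ?_ ?_
      · rw [mul_inv]
        exact mul_mem hθi hw'
      · apply mul_left_cancel₀ hϖ
        rw [← hb', hb]
        ring
      · apply mul_left_cancel₀ hϖ
        rw [← ha', ← hab]
        calc ϖ * (f * (b' : F)) = f * (ϖ * (b' : F)) := by ring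
          _ = f * ((θ : F) * (b : F)) := by rw [hb']
          _ = (θ : F) * (f * (b : F)) := by ring
  obtain ⟨a0, ha0, b0, hb0, hb00, hab0⟩ := hfrac f
  obtain ⟨n, w, hw, hw', hbw⟩ := GIC.exists_pow hO (hBO _ hb0) hb00
  have hw0 : w ≠ 0 := by
    rintro rfl
    rw [zero_mul] at hbw
    exact hb00 hbw
  obtain ⟨a, b, hbp, hab⟩ := key n ⟨a0, ha0⟩ ⟨b0, hb0⟩ w hw hw' hw0 hbw hab0
  obtain ⟨hb0', hbi⟩ := GIC.inv_mem_of_not_divS hO (hBO _ b.2) (fun h => hbp ((hp b).2 h))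
  -- the relation in `B ⧸ p`
  have hrel : (P.scaleRoots b).eval a ∈ p := by
    rw [hp]
    have e1 : (((P.scaleRoots b).eval a : B) : F)
        = (b : F) ^ P.natDegree * P.eval₂ B.subtype f := by
      have h1 := scaleRoots_eval₂_mul (p := P) B.subtype f b
      have h2 : B.subtype b * f = B.subtype a := by
        rw [mul_comm]; exact hab
      rw [h2, eval₂_at_apply] at h1
      exact h1
    rw [e1]
    exact he.mul_left (pow_mem (hBO _ b.2) _)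
  let ρ : (B ⧸ p) →+* FractionRing (B ⧸ p) := algebraMap (B ⧸ p) (FractionRing (B ⧸ p))
  have hinj : Function.Injective ρ := IsFractionRing.injective (B ⧸ p) (FractionRing (B ⧸ p))
  have hb' : Ideal.Quotient.mk p b ≠ 0 := by rwa [Ne, Ideal.Quotient.eq_zero_iff_mem]
  have hρb : ρ (Ideal.Quotient.mk p b) ≠ 0 := by
    rwa [Ne, map_eq_zero_iff _ hinj]
  have hz : ρ (Ideal.Quotient.mk p b) * (ρ (Ideal.Quotient.mk p a) / ρ (Ideal.Quotient.mk p b))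
      = ρ (Ideal.Quotient.mk p a) := by field_simp
  have hint : ρ.IsIntegralElem (ρ (Ideal.Quotient.mk p a) / ρ (Ideal.Quotient.mk p b)) := by
    refine ⟨P.map (Ideal.Quotient.mk p), hP.map _, ?_⟩
    have h1 := scaleRoots_eval₂_mul (p := P.map (Ideal.Quotient.mk p)) ρ
      (ρ (Ideal.Quotient.mk p a) / ρ (Ideal.Quotient.mk p b)) (Ideal.Quotient.mk p b)
    rw [hz, eval₂_at_apply, ← map_scaleRoots P b (Ideal.Quotient.mk p)
      (by rw [hP.leadingCoeff, map_one]; exact one_ne_zero), eval_map, eval₂_at_apply,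
      Ideal.Quotient.eq_zero_iff_mem.2 hrel, map_zero] at h1
    exact (mul_eq_zero.mp h1.symm).resolve_left (pow_ne_zero _ hρb)
  obtain ⟨c', hc'⟩ := RedAbs.mem_range_of_isIntegralElem ρ hinj _ (Ideal.Quotient.mk p b)
    (Ideal.Quotient.mk p a) hb' hz hint
  obtain ⟨c, rfl⟩ := Ideal.Quotient.mk_surjective c'
  have hc'' : Ideal.Quotient.mk p a = Ideal.Quotient.mk p (b * c) := by
    apply hinj
    rw [map_mul, map_mul, hc', hz]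
  have h1 : a - b * c ∈ p := Ideal.Quotient.eq.1 hc''
  obtain ⟨y, hy, hy'⟩ := (hp _).1 h1
  refine ⟨c, y * (b : F)⁻¹, mul_mem hy hbi, ?_⟩
  have h2 : ((a - b * c : B) : F) = (b : F) * (f - (c : F)) := by
    push_cast
    rw [← hab]
    ring
  rw [h2] at hy'
  field_simp
  linear_combination hy'

/-- `icP` on a `Chart2`, first component. -/
theorem icP1 {O1 O2 : Subring F} {ϖ : F} (h1 : IsDV O1 ϖ) {m : ℕ}
    {B : Subring F} {p1 p2 : Ideal B} [p1.IsPrime] [IsDedekindDomain (B ⧸ p1)]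
    (hB : Chart2 O1 O2 ϖ m B p1 p2) (f : F) (hf : f ∈ O1) (P : B[X]) (hP : P.Monic)
    (he : DivS O1 ϖ 1 (P.eval₂ B.subtype f)) : ∃ c : B, DivS O1 ϖ 1 (f - (c : F)) := by
  obtain ⟨θ, hθ2, hθ1⟩ := hB.th1
  refine icP h1 (fun x hx => (hB.chart.le x hx).1) hB.frac p1 hB.mem1 θ hθ1 ?_ f hf P hP he
  intro b hb
  obtain ⟨y1, hy1, e1⟩ := (hB.mem1 (θ * b)).1 (p1.mul_mem_left θ hb)
  obtain ⟨y2, hy2, e2⟩ := (hB.mem2 (θ * b)).1 (p2.mul_mem_right b hθ2)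
  have hy : y1 = y2 := mul_left_cancel₀ (pow_ne_zero 1 h1.ne_zero) (e1.symm.trans e2)
  obtain ⟨y, hyB, hy'⟩ := hB.chart.sat _ (θ * b).2 ⟨y1, ⟨hy1, hy ▸ hy2⟩, e1⟩
  exact ⟨⟨y, hyB⟩, hy'⟩

/-- `icP` on a `Chart2`, second component. -/
theorem icP2 {O1 O2 : Subring F} {ϖ : F} (h2 : IsDV O2 ϖ) {m : ℕ}
    {B : Subring F} {p1 p2 : Ideal B} [p2.IsPrime] [IsDedekindDomain (B ⧸ p2)]
    (hB : Chart2 O1 O2 ϖ m B p1 p2) (f : F) (hf : f ∈ O2) (P : B[X]) (hP : P.Monic)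
    (he : DivS O2 ϖ 1 (P.eval₂ B.subtype f)) : ∃ c : B, DivS O2 ϖ 1 (f - (c : F)) := by
  obtain ⟨θ, hθ1, hθ2⟩ := hB.th2
  refine icP h2 (fun x hx => (hB.chart.le x hx).2) hB.frac p2 hB.mem2 θ hθ2 ?_ f hf P hP he
  intro b hb
  obtain ⟨y1, hy1, e1⟩ := (hB.mem1 (θ * b)).1 (p1.mul_mem_right b hθ1)
  obtain ⟨y2, hy2, e2⟩ := (hB.mem2 (θ * b)).1 (p2.mul_mem_left θ hb)
  have hy : y1 = y2 := mul_left_cancel₀ (pow_ne_zero 1 h2.ne_zero) (e1.symm.trans e2)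
  obtain ⟨y, hyB, hy'⟩ := hB.chart.sat _ (θ * b).2 ⟨y1, ⟨hy1, hy ▸ hy2⟩, e1⟩
  exact ⟨⟨y, hyB⟩, hy'⟩

/-! ### one branch -/

section branch

variable {F1 : Type*} [Field F1] {O' : Subring F1} {ϖ1 : F1} {OX : Subring F} {tX : F}
  {φ : F1 →+* F}

/-- `φ w ∈ tX OX ⟹ w ∈ ϖ1 O'`. -/
lemma divS_of_map (hO' : IsDV O' ϖ1) (hOX : IsDV OX tX) (hφ : ∀ a, φ a ∈ OX ↔ a ∈ O') {w : F1}
    (hw : w ∈ O') (h : DivS OX tX 1 (φ w)) : DivS O' ϖ1 1 w := by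
  by_contra hc
  obtain ⟨hw0, hwi⟩ := GIC.inv_mem_of_not_divS hO' hw hc
  refine GIC.not_divS_of_unit hOX ((map_ne_zero φ).2 hw0) ?_ h
  rw [← map_inv₀]
  exact (hφ _).2 hwi

/-- `w ∈ ϖ1 O' ⟹ φ w ∈ tX OX`. -/
lemma divS_map (hφ : ∀ a, φ a ∈ OX ↔ a ∈ O') (hϖ : DivS OX tX 1 (φ ϖ1)) {w : F1}
    (h : DivS O' ϖ1 1 w) : DivS OX tX 1 (φ w) := by
  obtain ⟨y, hy, rfl⟩ := h
  rw [pow_one, map_mul]
  exact hϖ.mul_right ((hφ y).2 hy)

/-- residue surjectivity on the charts along one branch. -/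
theorem surj_branch (hO' : IsDV O' ϖ1) (hOX : IsDV OX tX) (hφ : ∀ a, φ a ∈ OX ↔ a ∈ O')
    (hϖ : DivS OX tX 1 (φ ϖ1)) (hsurj : ∀ u ∈ OX, ∃ a ∈ O', DivS OX tX 1 (u - φ a))
    {B' : Subring F1} (hB'O : ∀ x ∈ B', x ∈ O')
    (lift : ∀ f ∈ O', ∀ P : B'[X], P.Monic → DivS O' ϖ1 1 (P.eval₂ B'.subtype f) →
      ∃ c : B', DivS O' ϖ1 1 (f - (c : F1)))
    (b : F) (hb : b ∈ OX) (P : B'[X]) (hP : P.Monic)
    (hPb : DivS OX tX 1 (P.eval₂ (φ.comp B'.subtype) b)) :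
    ∃ a ∈ B', DivS OX tX 1 (b - φ a) := by
  obtain ⟨a0, ha0, h0⟩ := hsurj b hb
  have hco : ∀ c : B', (φ.comp B'.subtype) c ∈ OX := fun c => (hφ _).2 (hB'O _ c.2)
  have h1 := divS_eval₂_sub (φ.comp B'.subtype) hco hb ((hφ a0).2 ha0) h0 P
  have h2 : DivS OX tX 1 (P.eval₂ (φ.comp B'.subtype) (φ a0)) := by
    have := hPb.sub h1
    rwa [sub_sub_cancel] at this
  rw [← hom_eval₂] at h2
  have hw : P.eval₂ B'.subtype a0 ∈ O' := eval₂_mem B'.subtype (fun c => hB'O _ c.2) ha0 P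
  obtain ⟨c, hc⟩ := lift a0 ha0 P hP (divS_of_map hO' hOX hφ hw h2)
  refine ⟨c, c.2, ?_⟩
  have e : b - φ c = (b - φ a0) + φ (a0 - c) := by rw [map_sub]; ring
  rw [e]
  exact h0.add (divS_map hφ hϖ hc)

/-- the same, for an element integral over a ring `A0` whose structure map is congruent to
`φ ∘ ψ'`. -/
theorem surj_branch' (hO' : IsDV O' ϖ1) (hOX : IsDV OX tX) (hφ : ∀ a, φ a ∈ OX ↔ a ∈ O')
    (hϖ : DivS OX tX 1 (φ ϖ1)) (hsurj : ∀ u ∈ OX, ∃ a ∈ O', DivS OX tX 1 (u - φ a))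
    {B' : Subring F1} (hB'O : ∀ x ∈ B', x ∈ O')
    (lift : ∀ f ∈ O', ∀ P : B'[X], P.Monic → DivS O' ϖ1 1 (P.eval₂ B'.subtype f) →
      ∃ c : B', DivS O' ϖ1 1 (f - (c : F1)))
    {A0 : Type*} [CommRing A0] (ψ : A0 →+* F) (ψ' : A0 →+* B')
    (hψ : ∀ σ, DivS OX tX 1 (ψ σ - φ (ψ' σ)))
    (b : F) (hb : b ∈ OX) (hint : ψ.IsIntegralElem b) :
    ∃ a ∈ B', DivS OX tX 1 (b - φ a) := by
  obtain ⟨P0, hP0, hroot⟩ := hint
  refine surj_branch hO' hOX hφ hϖ hsurj hB'O lift b hb (P0.map ψ') (hP0.map _) ?_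
  rw [eval₂_map]
  have := divS_eval₂_coeff ψ ((φ.comp B'.subtype).comp ψ') hψ hb P0
  rw [hroot, zero_sub] at this
  simpa using this.neg

/-- the quotient of the chart by one branch. -/
theorem ded_branch (hO' : IsDV O' ϖ1) (hOX : IsDV OX tX) (hφ : ∀ a, φ a ∈ OX ↔ a ∈ O')
    (hϖ : DivS OX tX 1 (φ ϖ1)) {B' : Subring F1} (hB'O : ∀ x ∈ B', x ∈ O')
    (p' : Ideal B') (hp' : ∀ b : B', b ∈ p' ↔ DivS O' ϖ1 1 (b : F1))
    [IsDedekindDomain (B' ⧸ p')] {B : Subring F} (pX : Ideal B)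
    (hpX : ∀ b : B, b ∈ pX ↔ DivS OX tX 1 (b : F)) (hφB : ∀ x ∈ B', φ x ∈ B)
    (hs : ∀ b ∈ B, ∃ a ∈ B', DivS OX tX 1 (b - φ a)) :
    IsDedekindDomain (B ⧸ pX) ∧ pX.IsPrime := by
  refine RedAbs.dedekind_of_quot ((φ.comp B'.subtype).codRestrict B (fun a => hφB a a.2)) p' pX
    ?_ ?_
  · intro b
    obtain ⟨a, ha, h⟩ := hs b b.2
    exact ⟨⟨a, ha⟩, (hpX _).2 h⟩
  · intro a
    rw [hpX, hp']
    exact ⟨fun h => divS_of_map hO' hOX hφ (hB'O _ a.2) h, fun h => divS_map hφ hϖ h⟩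

end branch

end TRedAbs

open TRedAbs

namespace Lvl1

variable {F1 F2 : Type*} [Field F1] [Field F2] {q : ℕ} {O1 O2 : Subring F1} {ϖ1 : F1}
  {OF OM OV : Subring F2} {ϖ t : F2} {al be : F1 →+* F2} {nA nB : F2 →* F1}

/-- `ϖ ∈ t O_M`. -/
theorem unif_divS_M (L : Lvl1 q O1 O2 ϖ1 OF OM OV ϖ t al be nA nB) (hq : 2 ≤ q) :
    DivS OM t 1 ϖ := by
  obtain ⟨h0, _, h2⟩ := L.ram
  have ht := L.dvM.ne_zero
  have hϖ : ϖ ≠ 0 := L.dvF.ne_zero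
  refine ⟨t ^ (q - 2) * (t ^ (q - 1) / ϖ)⁻¹, mul_mem (pow_mem L.dvM.mem _) h2, ?_⟩
  have e : t ^ (q - 1) = t * t ^ (q - 2) := by
    rw [← pow_succ']
    congr 1
    omega
  rw [pow_one, inv_div, e]
  field_simp

theorem unif_divS_F (L : Lvl1 q O1 O2 ϖ1 OF OM OV ϖ t al be nA nB) : DivS OF ϖ 1 ϖ :=
  ⟨1, OF.one_mem, by rw [pow_one, mul_one]⟩

theorem unif_divS_V (L : Lvl1 q O1 O2 ϖ1 OF OM OV ϖ t al be nA nB) : DivS OV ϖ 1 ϖ :=
  ⟨1, OV.one_mem, by rw [pow_one, mul_one]⟩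

variable {m : ℕ} {B' : Subring F1} {p1 p2 : Ideal B'}

/-- **the four residue surjectivities of `ChartL`** for an element `b` of `O_F ∩ O_M ∩ O_V` which
is integral over a ring `A0` (`= R[x]`). -/
theorem chart_surj (L : Lvl1 q O1 O2 ϖ1 OF OM OV ϖ t al be nA nB) (hq : 2 ≤ q)
    [p1.IsPrime] [IsDedekindDomain (B' ⧸ p1)] [p2.IsPrime] [IsDedekindDomain (B' ⧸ p2)]
    (hB' : Chart2 O1 O2 ϖ1 m B' p1 p2)
    {A0 : Type*} [CommRing A0] (ψ : A0 →+* F2) (ψF ψM ψV ψM' : A0 →+* B')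
    (hψF : ∀ σ, DivS OF ϖ 1 (ψ σ - al (ψF σ))) (hψM : ∀ σ, DivS OM t 1 (ψ σ - al (ψM σ)))
    (hψV : ∀ σ, DivS OV ϖ 1 (ψ σ - be (ψV σ))) (hψM' : ∀ σ, DivS OM t 1 (ψ σ - be (ψM' σ)))
    (b : F2) (hF : b ∈ OF) (hM : b ∈ OM) (hV : b ∈ OV) (hint : ψ.IsIntegralElem b) :
    (∃ a ∈ B', DivS OF ϖ 1 (b - al a)) ∧ (∃ a ∈ B', DivS OM t 1 (b - al a)) ∧
      (∃ a ∈ B', DivS OV ϖ 1 (b - be a)) ∧ (∃ a ∈ B', DivS OM t 1 (b - be a)) := by
  have l1 : ∀ x ∈ B', x ∈ O1 := fun x hx => (hB'.chart.le x hx).1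
  have l2 : ∀ x ∈ B', x ∈ O2 := fun x hx => (hB'.chart.le x hx).2
  have i1 := fun f hf P hP he => icP1 L.dv1 hB' f hf P hP he
  have i2 := fun f hf P hP he => icP2 L.dv2 hB' f hf P hP he
  refine ⟨?_, ?_, ?_, ?_⟩
  · exact surj_branch' L.dv1 L.dvF L.al_F (by rw [L.al_unif]; exact L.unif_divS_F) L.surjF l1 i1
      ψ ψF hψF b hF hint
  · exact surj_branch' L.dv1 L.dvM L.al_M (by rw [L.al_unif]; exact L.unif_divS_M hq) L.surjM l1 i1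
      ψ ψM hψM b hM hint
  · exact surj_branch' L.dv2 L.dvV L.be_V (by rw [L.be_unif]; exact L.unif_divS_V) L.surjV l2 i2
      ψ ψV hψV b hV hint
  · exact surj_branch' L.dv2 L.dvM L.be_M (by rw [L.be_unif]; exact L.unif_divS_M hq) L.surjM' l2 i2
      ψ ψM' hψM' b hM hint

/-- **the three components of the special fibre of level `M₀ q²`** : `B / pX` is a Dedekind domain
and `pX` is prime. -/
theorem dedekind3 (L : Lvl1 q O1 O2 ϖ1 OF OM OV ϖ t al be nA nB) (hq : 2 ≤ q)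
    [IsDedekindDomain (B' ⧸ p1)] [IsDedekindDomain (B' ⧸ p2)]
    (hB' : Chart2 O1 O2 ϖ1 m B' p1 p2) {B : Subring F2} (pF pM pV : Ideal B)
    (hpF : ∀ b : B, b ∈ pF ↔ DivS OF ϖ 1 (b : F2)) (hpM : ∀ b : B, b ∈ pM ↔ DivS OM t 1 (b : F2))
    (hpV : ∀ b : B, b ∈ pV ↔ DivS OV ϖ 1 (b : F2))
    (hal : ∀ x ∈ B', al x ∈ B) (hbe : ∀ x ∈ B', be x ∈ B)
    (sF : ∀ b ∈ B, ∃ a ∈ B', DivS OF ϖ 1 (b - al a))
    (sM : ∀ b ∈ B, ∃ a ∈ B', DivS OM t 1 (b - al a))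
    (sV : ∀ b ∈ B, ∃ a ∈ B', DivS OV ϖ 1 (b - be a)) :
    (IsDedekindDomain (B ⧸ pF) ∧ pF.IsPrime) ∧ (IsDedekindDomain (B ⧸ pM) ∧ pM.IsPrime) ∧
      (IsDedekindDomain (B ⧸ pV) ∧ pV.IsPrime) := by
  have l1 : ∀ x ∈ B', x ∈ O1 := fun x hx => (hB'.chart.le x hx).1
  have l2 : ∀ x ∈ B', x ∈ O2 := fun x hx => (hB'.chart.le x hx).2
  refine ⟨?_, ?_, ?_⟩
  · exact ded_branch L.dv1 L.dvF L.al_F (by rw [L.al_unif]; exact L.unif_divS_F) l1 p1 hB'.mem1 pF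
      hpF hal sF
  · exact ded_branch L.dv1 L.dvM L.al_M (by rw [L.al_unif]; exact L.unif_divS_M hq) l1 p1 hB'.mem1
      pM hpM hal sM
  · exact ded_branch L.dv2 L.dvV L.be_V (by rw [L.be_unif]; exact L.unif_divS_V) l2 p2 hB'.mem2 pV
      hpV hbe sV

end Lvl1

end Fermat.Agent.S36
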