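import Fermat.Agent.S36.NoEll
import Fermat.Agent.S36.W2
import Fermat.Agent.S37.StabH
import Fermat.Agent.ES.KDeg

/-!
# S36 [R2] : the degeneracy maps are unramified at the non-cuspidal places

If the level `M` has no elliptic points, then `α, β : FF M → FF (M q)` are unramified at every
place `w` of `FF (M q)` with `0 ≤ ord_w j`.
-/

set_option autoImplicit false

namespace Fermat.Agent.S36

open AlgebraicCurve ModularCurve Fermat.Agent.S24 Fermat.Agent.ES Fermat.Agent.S37

noncomputable section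

namespace Unr2

/-- a non-cuspidal place has a `j`-value. -/
theorem exists_val (N : ℕ) [NeZero N] (w : Place Kb (FF N)) (h : 0 ≤ w.ord (jF N)) :
    ∃ a : Kb, 0 < w.ord (jF N - algebraMap Kb (FF N) a) := by
  have hmem := StabH.mem_of_ord_nonneg w h
  rcases Rat.val_spec w hmem with h1 | h1
  · exact absurd h1 (StabH.jF_ne_algebraMap N _)
  · exact ⟨_, h1⟩

theorem eq_one_of_mul_dvd (e : ℕ) (k : ℕ) (hk : 0 < k) (h : (e : ℤ) * (k : ℤ) ∣ (k : ℤ)) :
    e = 1 := by
  have h1 : (e : ℤ) * (k : ℤ) ∣ 1 * (k : ℤ) := by rwa [one_mul]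
  have h2 : (e : ℤ) ∣ 1 := (mul_dvd_mul_iff_right (by exact_mod_cast hk.ne')).1 h1
  have h3 : e ∣ 1 := by exact_mod_cast h2
  exact Nat.dvd_one.1 h3

/-- a map of modular function fields compatible with `j` is unramified outside the cusps if the
source has no elliptic points. -/
theorem ram_eq_one_of_j (M N : ℕ) [NeZero M] [NeZero N] (hM : NoElliptic M)
    (φ : FF M →ₐ[Kb] FF N) (hφ : φ (jF M) = jF N) (w : Place Kb (FF N))
    (hw : 0 ≤ w.ord (jF N)) : Place.ramificationIndexAlong φ w = 1 := by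
  obtain ⟨a, ha⟩ := exists_val N w hw
  have h1 := Place.ord_restrictAlong φ (HI.integralAlong φ) w (jF M - algebraMap Kb (FF M) a)
  rw [map_sub, AlgHom.commutes, hφ] at h1
  have hpos : 0 < (w.restrictAlong φ (HI.integralAlong φ)).ord
      (jF M - algebraMap Kb (FF M) a) := by
    rw [← StabH.ord_pos_iff, map_sub, AlgHom.commutes, hφ]
    exact ha
  by_cases h0 : a = 0
  · subst h0
    have h2 := hM.1 _ hpos
    have h3 := Haupt.ord_j_dvd_three N w ha
    rw [h1, h2] at h3
    exact eq_one_of_mul_dvd _ 3 (by norm_num) (by exact_mod_cast h3)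
  · by_cases h1728 : a = 1728
    · subst h1728
      have h2 := hM.2 _ hpos
      have h3 := Haupt.ord_j_dvd_two N w ha
      rw [h1, h2] at h3
      exact eq_one_of_mul_dvd _ 2 (by norm_num) (by exact_mod_cast h3)
    · have h2 := Loc.ord_jF_sub_eq_one M (finrank_FF M) a h0 h1728 _ hpos
      have h3 := Loc.ord_jF_sub_eq_one N (finrank_FF N) a h0 h1728 w ha
      rw [h1, h2, mul_one] at h3
      exact_mod_cast h3

/-- conjugation by automorphisms does not change the ramification index. -/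
theorem ram_eq_of_W {M N : ℕ} [NeZero M] [NeZero N] (φ ψ : FF M →ₐ[Kb] FF N)
    (W : FF N ≃ₐ[Kb] FF N) (W' : FF M ≃ₐ[Kb] FF M) (h : ∀ y, W (φ y) = ψ (W' y))
    (w : Place Kb (FF N)) :
    Place.ramificationIndexAlong ψ (W • w) = Place.ramificationIndexAlong φ w := by
  have key : ∀ f : FF M, (Place.ramificationIndexAlong ψ (W • w) : ℤ)
      * ((W • w).restrictAlong ψ (HI.integralAlong ψ)).ord (W' f)
      = (Place.ramificationIndexAlong φ w : ℤ) * (w.restrictAlong φ (HI.integralAlong φ)).ord f := by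
    intro f
    rw [← Place.ord_restrictAlong, ← Place.ord_restrictAlong, ← h, Place.ord_smul]
  apply Nat.dvd_antisymm
  · obtain ⟨π, hπ⟩ := S24.Place.exists_ord_eq_one (w.restrictAlong φ (HI.integralAlong φ))
    have := key π
    rw [hπ, mul_one] at this
    exact Int.natCast_dvd_natCast.1 ⟨_, this.symm⟩
  · obtain ⟨π, hπ⟩ := S24.Place.exists_ord_eq_one ((W • w).restrictAlong ψ (HI.integralAlong ψ))
    have := key (W'.symm π)
    rw [AlgEquiv.apply_symm_apply, hπ, mul_one] at this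
    exact Int.natCast_dvd_natCast.1 ⟨_, this⟩

variable (M q : ℕ) [NeZero M] [NeZero q]

/-- **`α` is unramified outside the cusps.** -/
theorem ram_alpha (hM : NoElliptic M) (w : Place Kb (FF (M * q)))
    (hw : 0 ≤ w.ord (jF (M * q))) :
    Place.ramificationIndexAlong (heckeAlphaBar Kb M q) w = 1 :=
  ram_eq_one_of_j M (M * q) hM _ (KDeg.heckeAlpha_jF M q) w hw

/-- `β j` is regular outside the cusps. -/
theorem ord_beta_jF_nonneg (w : Place Kb (FF (M * q))) (hw : 0 ≤ w.ord (jF (M * q))) :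
    0 ≤ w.ord (heckeBetaBar Kb M q (jF M)) := by
  rw [← KDeg.heckeAlpha_jF M q] at hw
  exact S24.Place.ord_nonneg_of_mem w
    (StabH.mem_of_int ⊤ w (StabH.mem_of_ord_nonneg w hw) (StabH.int_beta M q ⊤))

/-- the restriction along `α` of a non-cuspidal place is non-cuspidal. -/
theorem nc_restrict_alpha (w : Place Kb (FF (M * q))) (hw : 0 ≤ w.ord (jF (M * q))) :
    0 ≤ (w.restrictAlong (heckeAlphaBar Kb M q) (HI.integralAlong _)).ord (jF M) := by
  rw [← StabH.ord_nonneg_iff, KDeg.heckeAlpha_jF]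
  exact hw

/-- the restriction along `β` of a non-cuspidal place is non-cuspidal. -/
theorem nc_restrict_beta (w : Place Kb (FF (M * q))) (hw : 0 ≤ w.ord (jF (M * q))) :
    0 ≤ (w.restrictAlong (heckeBetaBar Kb M q) (HI.integralAlong _)).ord (jF M) := by
  rw [← StabH.ord_nonneg_iff]
  exact ord_beta_jF_nonneg M q w hw

/-- abstract form for `β`. -/
theorem ram_beta_of_W (hM : NoElliptic M) (W : FF (M * q) ≃ₐ[Kb] FF (M * q))
    (W' : FF M ≃ₐ[Kb] FF M)
    (h : ∀ y, W (heckeAlphaBar Kb M q y) = heckeBetaBar Kb M q (W' y))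
    (hnc : ∀ v : Place Kb (FF M), 0 ≤ v.ord (jF M) → 0 ≤ v.ord (W' (jF M)))
    (w : Place Kb (FF (M * q))) (hw : 0 ≤ w.ord (jF (M * q))) :
    Place.ramificationIndexAlong (heckeBetaBar Kb M q) w = 1 := by
  have h1 := ram_eq_of_W (heckeAlphaBar Kb M q) (heckeBetaBar Kb M q) W W' h (W⁻¹ • w)
  rw [smul_inv_smul] at h1
  rw [h1]
  apply ram_alpha M q hM
  have h2 := Place.ord_smul W (W⁻¹ • w) (jF (M * q))
  rw [smul_inv_smul] at h2
  rw [← h2, ← KDeg.heckeAlpha_jF M q, h, StabH.ord_nonneg_iff _ (HI.integralAlong _)]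
  exact hnc _ (nc_restrict_beta M q w hw)

end Unr2

/-- **`α : FF M → FF (M q)` is unramified outside the cusps** (any `M`, `q`). -/
theorem ram_alpha_eq_one (M q : ℕ) [NeZero M] [NeZero q] (hM : NoElliptic M)
    (w : Place Kb (FF (M * q))) (hw : 0 ≤ w.ord (jF (M * q))) :
    Place.ramificationIndexAlong (heckeAlphaBar Kb M q) w = 1 :=
  Unr2.ram_alpha M q hM w hw

/-- **`β : FF M → FF (M q)` is unramified outside the cusps** (`q ∤ M`). -/
theorem ram_beta_eq_one (M q : ℕ) [NeZero M] [Fact q.Prime] (h : ¬ q ∣ M) (hM : NoElliptic M)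
    (w : Place Kb (FF (M * q))) (hw : 0 ≤ w.ord (jF (M * q))) :
    Place.ramificationIndexAlong (heckeBetaBar Kb M q) w = 1 :=
  Unr2.ram_beta_of_W M q hM (S34.WK.Wb M q h) AlgEquiv.refl
    (fun y => S34.WK.Wb_alpha M q h y) (fun _ hv => hv) w hw

/-- **`β : FF (M₀ q) → FF (M₀ q²)` is unramified outside the cusps** (`q ∤ M₀`). -/
theorem ram_beta2_eq_one (M0 q : ℕ) [NeZero M0] [Fact q.Prime] (h : ¬ q ∣ M0)
    (hM : NoElliptic (M0 * q))
    (w : Place Kb (FF (M0 * q * q))) (hw : 0 ≤ w.ord (jF (M0 * q * q))) :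
    Place.ramificationIndexAlong (heckeBetaBar Kb (M0 * q) q) w = 1 := by
  refine Unr2.ram_beta_of_W (M0 * q) q hM (Wb2 M0 q h) (S34.WK.Wb M0 q h)
    (fun y => Wb2_alpha M0 q h y) (fun v hv => ?_) w hw
  rw [← KDeg.heckeAlpha_jF M0 q, S34.WK.Wb_alpha]
  exact Unr2.ord_beta_jF_nonneg M0 q v hv

/-- consequence: orders are preserved by `α`. -/
theorem ord_alpha_eq (M q : ℕ) [NeZero M] [NeZero q] (hM : NoElliptic M)
    (w : Place Kb (FF (M * q))) (hw : 0 ≤ w.ord (jF (M * q))) (f : FF M) :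
    w.ord (heckeAlphaBar Kb M q f)
      = (w.restrictAlong (heckeAlphaBar Kb M q) (HI.integralAlong _)).ord f := by
  rw [Place.ord_restrictAlong _ (HI.integralAlong _), ram_alpha_eq_one M q hM w hw, Nat.cast_one,
    one_mul]

theorem ord_alpha_sub_eq (M q : ℕ) [NeZero M] [NeZero q] (hM : NoElliptic M)
    (w : Place Kb (FF (M * q))) (hw : 0 ≤ w.ord (jF (M * q))) (f : FF M) (c : Kb) :
    w.ord (heckeAlphaBar Kb M q f - algebraMap Kb (FF (M * q)) c)
      = (w.restrictAlong (heckeAlphaBar Kb M q) (HI.integralAlong _)).ord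
          (f - algebraMap Kb (FF M) c) := by
  rw [← ord_alpha_eq M q hM w hw, map_sub, AlgHom.commutes]

/-- consequence: orders are preserved by `β` (`q ∤ M`). -/
theorem ord_beta_eq (M q : ℕ) [NeZero M] [Fact q.Prime] (h : ¬ q ∣ M) (hM : NoElliptic M)
    (w : Place Kb (FF (M * q))) (hw : 0 ≤ w.ord (jF (M * q))) (f : FF M) :
    w.ord (heckeBetaBar Kb M q f)
      = (w.restrictAlong (heckeBetaBar Kb M q) (HI.integralAlong _)).ord f := by
  rw [Place.ord_restrictAlong _ (HI.integralAlong _), ram_beta_eq_one M q h hM w hw, Nat.cast_one,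
    one_mul]

theorem ord_beta_sub_eq (M q : ℕ) [NeZero M] [Fact q.Prime] (h : ¬ q ∣ M) (hM : NoElliptic M)
    (w : Place Kb (FF (M * q))) (hw : 0 ≤ w.ord (jF (M * q))) (f : FF M) (c : Kb) :
    w.ord (heckeBetaBar Kb M q f - algebraMap Kb (FF (M * q)) c)
      = (w.restrictAlong (heckeBetaBar Kb M q) (HI.integralAlong _)).ord
          (f - algebraMap Kb (FF M) c) := by
  rw [← ord_beta_eq M q h hM w hw, map_sub, AlgHom.commutes]

/-- consequence: orders are preserved by `β` at level `M₀ q → M₀ q²`. -/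
theorem ord_beta2_eq (M0 q : ℕ) [NeZero M0] [Fact q.Prime] (h : ¬ q ∣ M0)
    (hM : NoElliptic (M0 * q))
    (w : Place Kb (FF (M0 * q * q))) (hw : 0 ≤ w.ord (jF (M0 * q * q))) (f : FF (M0 * q)) :
    w.ord (heckeBetaBar Kb (M0 * q) q f)
      = (w.restrictAlong (heckeBetaBar Kb (M0 * q) q) (HI.integralAlong _)).ord f := by
  rw [Place.ord_restrictAlong _ (HI.integralAlong _), ram_beta2_eq_one M0 q h hM w hw,
    Nat.cast_one, one_mul]

theorem ord_beta2_sub_eq (M0 q : ℕ) [NeZero M0] [Fact q.Prime] (h : ¬ q ∣ M0)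
    (hM : NoElliptic (M0 * q))
    (w : Place Kb (FF (M0 * q * q))) (hw : 0 ≤ w.ord (jF (M0 * q * q))) (f : FF (M0 * q))
    (c : Kb) :
    w.ord (heckeBetaBar Kb (M0 * q) q f - algebraMap Kb (FF (M0 * q * q)) c)
      = (w.restrictAlong (heckeBetaBar Kb (M0 * q) q) (HI.integralAlong _)).ord
          (f - algebraMap Kb (FF (M0 * q)) c) := by
  rw [← ord_beta2_eq M0 q h hM w hw, map_sub, AlgHom.commutes]

end

end Fermat.Agent.S36
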