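import Fermat.Agent.S36.Desc
import Fermat.Agent.ES.InstFinal
import Fermat.Agent.S31.CycM

/-!
# S36, block G-UNR, package U3 : the instance layer over number fields UNRAMIFIED at `A`

The lemmas `exists_QData`, `exists_K1_theta`, `hDed` of `ES/Inst*` in the shape
`∃ K1, FiniteDimensional ℚ K1 ∧ Unr A K1 ∧ ∀ K0 ≥ K1, ...` (same conclusions as the originals).
-/

set_option autoImplicit false
set_option linter.style.haveILetI false
set_option linter.unusedSectionVars false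

noncomputable section

namespace Fermat.Agent.S36

open ModularCurve AlgebraicCurve Polynomial IntermediateField
open Fermat.Agent.S24 Fermat.Agent.S28 Fermat.Agent.ES Fermat.Agent.ES.QE Fermat.Agent.ES.Model
  Fermat.Agent.ES.IDvr Fermat.Agent.ES.Inst

namespace UnrInst

variable {A : ValuationSubring Kb}

/-- a field generated by elements fixed by the inertia group is unramified. -/
theorem unr_adjoin (S : Set Kb) (h : ∀ σ ∈ A.inertiaSubgroupIn ℚ, ∀ x ∈ S, σ x = x) :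
    Unr A (IntermediateField.adjoin ℚ S) := by
  intro σ hσ x hx
  have hle : IntermediateField.adjoin ℚ S ≤ IntermediateField.fixedField (A.inertiaSubgroupIn ℚ) := by
    rw [IntermediateField.adjoin_le_iff]
    intro y hy
    change y ∈ IntermediateField.fixedField (A.inertiaSubgroupIn ℚ)
    rw [IntermediateField.mem_fixedField_iff]
    exact fun τ hτ => h τ hτ y hy
  exact (IntermediateField.mem_fixedField_iff _ _).1 (hle hx) σ hσ

/-- roots of unity of order prime to the residue characteristic are fixed by inertia. -/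
theorem inertia_root {ℓ : ℕ} (hℓ : ℓ.Prime) (hA : A.LiesOverPrime ℓ) {z : Kb} {n : ℕ}
    (hn : ¬ ℓ ∣ n) (hz : z ^ n = 1) (τ : GQ) (hτ : τ ∈ A.inertiaSubgroupIn ℚ) : τ z = z := by
  have hn0 : 0 < n := Nat.pos_of_ne_zero (by rintro rfl; exact hn (dvd_zero _))
  have hd : orderOf z ∣ n := orderOf_dvd_of_pow_eq_one hz
  have hd0 : orderOf z ≠ 0 := fun h => by
    rw [h, zero_dvd_iff] at hd
    exact hn0.ne' hd
  haveI : NeZero (orderOf z) := ⟨hd0⟩
  exact Fermat.Agent.S31.CycM.inertia_zeta (IsPrimitiveRoot.orderOf z) hℓ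
    (fun h => hn (h.trans hd)) hA τ hτ

/-- finite generation : a field generated by finitely many algebraic numbers is a number field. -/
theorem finiteDimensional_adjoin (S : Finset Kb) :
    FiniteDimensional ℚ (IntermediateField.adjoin ℚ (S : Set Kb)) := by
  have halg : Algebra.IsAlgebraic ℚ Kb := AlgebraicClosure.isAlgebraic ℚ
  exact IntermediateField.finiteDimensional_adjoin (fun x _ => (halg.isAlgebraic x).isIntegral)

/-- the residue field of `A` is algebraic over the prime field : every nonzero element is a root of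
unity of order prime to `ℓ`. -/
theorem exists_pow_eq_one {ℓ : ℕ} (hℓ : ℓ.Prime) (hA : A.LiesOverPrime ℓ) (x : kA A) (hx : x ≠ 0) :
    ∃ n : ℕ, ¬ ℓ ∣ n ∧ x ^ n = 1 := by
  haveI : Fact ℓ.Prime := ⟨hℓ⟩
  haveI hchar : CharP (kA A) ℓ := ResField.charP hℓ hA
  letI : Algebra (ZMod ℓ) (kA A) := ZMod.algebra (kA A) ℓ
  obtain ⟨a, rfl⟩ := IsLocalRing.residue_surjective x
  have halg : Algebra.IsAlgebraic ℚ Kb := AlgebraicClosure.isAlgebraic ℚ
  have h1 : IsAlgebraic ℤ (a : Kb) := (IsFractionRing.isAlgebraic_iff ℤ ℚ Kb).2 (halg.isAlgebraic _)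
  obtain ⟨p, hp0, hp⟩ := h1
  have hP : aeval (a : Kb) p.primPart = 0 := aeval_primPart_eq_zero hp0 hp
  have hPA : eval₂ (Int.castRingHom A) a p.primPart = 0 := by
    apply Subtype.val_injective
    have := hom_eval₂ p.primPart (Int.castRingHom A) A.subtype a
    change A.subtype _ = _
    rw [this, ZeroMemClass.coe_zero, ← hP, aeval_def]
    congr 1
  have hPk : eval₂ (algebraMap (ZMod ℓ) (kA A)) (IsLocalRing.residue A a)
      (p.primPart.map (Int.castRingHom (ZMod ℓ))) = 0 := by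
    rw [eval₂_map]
    have := hom_eval₂ p.primPart (Int.castRingHom A) (IsLocalRing.residue A) a
    rw [hPA, map_zero] at this
    rw [this]
    congr 1
    exact RingHom.ext_int _ _
  have hne : p.primPart.map (Int.castRingHom (ZMod ℓ)) ≠ 0 := by
    intro h0
    have hdvd : C (ℓ : ℤ) ∣ p.primPart := by
      rw [C_dvd_iff_dvd_coeff]
      intro i
      have := congrArg (fun f => coeff f i) h0
      simp only [coeff_map, coeff_zero, eq_intCast] at this
      exact (ZMod.intCast_zmod_eq_zero_iff_dvd _ _).1 this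
    have := p.isPrimitive_primPart _ hdvd
    rw [Int.isUnit_iff] at this
    have h2 := hℓ.two_le
    omega
  have hint : IsIntegral (ZMod ℓ) (IsLocalRing.residue A a) :=
    IsAlgebraic.isIntegral ⟨_, hne, by rw [aeval_def]; exact hPk⟩
  haveI : FiniteDimensional (ZMod ℓ) (ZMod ℓ)⟮IsLocalRing.residue A a⟯ :=
    IntermediateField.adjoin.finiteDimensional hint
  haveI : Finite (ZMod ℓ)⟮IsLocalRing.residue A a⟯ := Module.finite_of_finite (ZMod ℓ)
  letI : Fintype (ZMod ℓ)⟮IsLocalRing.residue A a⟯ := Fintype.ofFinite _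
  set xE : (ZMod ℓ)⟮IsLocalRing.residue A a⟯ :=
    ⟨IsLocalRing.residue A a, IntermediateField.mem_adjoin_simple_self _ _⟩ with hxE
  have hxE0 : xE ≠ 0 := fun h => hx (congrArg Subtype.val h)
  have hpow := FiniteField.pow_card_sub_one_eq_one xE hxE0
  haveI : CharP (ZMod ℓ)⟮IsLocalRing.residue A a⟯ ℓ :=
    charP_of_injective_algebraMap (algebraMap (ZMod ℓ) _).injective ℓ
  obtain ⟨d, -, hd⟩ := FiniteField.card (ZMod ℓ)⟮IsLocalRing.residue A a⟯ ℓ
  refine ⟨Fintype.card (ZMod ℓ)⟮IsLocalRing.residue A a⟯ - 1, ?_, ?_⟩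
  · rw [hd]
    intro h
    have h1 : ℓ ∣ ℓ ^ (d : ℕ) := dvd_pow_self ℓ d.ne_zero
    have h2 : 0 < ℓ ^ (d : ℕ) := pow_pos hℓ.pos _
    have h3 : ℓ ∣ 1 := by
      have := (Nat.dvd_sub h1 h)
      rwa [Nat.sub_sub_self h2] at this
    exact hℓ.one_lt.ne' (Nat.dvd_one.1 h3)
  · have := congrArg Subtype.val hpow
    simpa using this

/-- **Teichmüller lifts.** -/
theorem exists_teich {ℓ : ℕ} (hℓ : ℓ.Prime) (hA : A.LiesOverPrime ℓ) (x : kA A) :
    ∃ z : A, IsLocalRing.residue A z = x ∧ ((z : Kb) = 0 ∨ ∃ n : ℕ, ¬ ℓ ∣ n ∧ (z : Kb) ^ n = 1) := by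
  rcases eq_or_ne x 0 with rfl | hx
  · exact ⟨0, map_zero _, Or.inl rfl⟩
  obtain ⟨n, hn, hxn⟩ := exists_pow_eq_one hℓ hA x hx
  have hn0 : n ≠ 0 := by rintro rfl; exact hn (dvd_zero _)
  haveI : NeZero n := ⟨hn0⟩
  obtain ⟨ζA, hprim, -, -⟩ := ResField.exists_zetaA A n
  have hchar := ResField.charP (A := A) hℓ hA
  have hnk : (n : kA A) ≠ 0 := by
    rw [Ne, CharP.cast_eq_zero_iff _ ℓ]
    exact hn
  have hprimk : IsPrimitiveRoot (IsLocalRing.residue A (ζA : A)) n :=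
    ResField.isPrimitiveRoot_map (IsLocalRing.residue A) (IsPrimitiveRoot.coe_units_iff.mpr hprim) hnk
  obtain ⟨i, -, hi⟩ := hprimk.eq_pow_of_pow_eq_one hxn
  refine ⟨(ζA : A) ^ i, by rw [map_pow, hi], Or.inr ⟨n, hn, ?_⟩⟩
  have h1 : ((ζA : A) ^ i) ^ n = 1 := by
    rw [← pow_mul, mul_comm, pow_mul, (IsPrimitiveRoot.coe_units_iff.mpr hprim).pow_eq_one, one_pow]
  have := congrArg (Subtype.val : A → Kb) h1
  simpa using this

end UnrInst

open UnrInst

/-- **I-QD over an unramified field** (`ES.Inst.exists_QData` with `K1` unramified at `A`). -/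
theorem UnrInst.exists_QData_unr (N ℓ : ℕ) [NeZero N] (hℓ : ℓ.Prime) (hℓN : ¬ ℓ ∣ N)
    (A : ValuationSubring Kb) (hA : A.LiesOverPrime ℓ) :
    ∃ K1 : IntermediateField ℚ Kb, FiniteDimensional ℚ K1 ∧ Unr A K1 ∧
      ∀ K0 : IntermediateField ℚ Kb, FiniteDimensional ℚ K0 → K1 ≤ K0 →
        ∃ D : QData (R0 K0 A) K0 (kA A), D.F0 = F0 K0 N ∧ D.res = res0 K0 A := by
  have hN : N ≠ 0 := NeZero.ne N
  obtain ⟨ζ₁, hζ₁⟩ := ResField.exists_zetaQ N
  have hpow : ζ₁ ^ N = 1 := by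
    apply ResField.iot.injective
    rw [map_pow, hζ₁, map_one]
    exact (IsPrimitiveRoot.coe_units_iff.mpr (Degree.isPrimitiveRoot_zetaC N)).pow_eq_one
  have hζ₁0 : ζ₁ ≠ 0 := by
    rintro rfl
    rw [zero_pow hN] at hpow
    exact zero_ne_one hpow
  refine ⟨IntermediateField.adjoin ℚ (({ζ₁} : Finset Kb) : Set Kb), UnrInst.finiteDimensional_adjoin _,
    unr_adjoin _ ?_, fun K0 hK0 hle => ?_⟩
  · intro σ hσ x hx
    rw [Finset.coe_singleton, Set.mem_singleton_iff] at hx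
    rw [hx]
    exact inertia_root hℓ hA hℓN hpow σ hσ
  have hζK0 : ζ₁ ∈ K0 := hle (IntermediateField.subset_adjoin _ _ (by simp))
  have hdvr : IsDiscreteValuationRing (R0 K0 A) := isDVR K0 A hℓ hA
  obtain ⟨ϖ, -, hϖ0, hker⟩ := exists_unif K0 A hℓ hA
  obtain ⟨ζK, hζK⟩ : ∃ ζK : K0ˣ, ((ζK : K0) : Kb) = ζ₁ :=
    ⟨Units.mk0 ⟨ζ₁, hζK0⟩ (fun h => hζ₁0 (congrArg Subtype.val h)), rfl⟩
  have hζKpow : ζK ^ N = 1 := by
    ext
    rw [Units.val_pow_eq_pow_val, Units.val_one]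
    change ((ζK : K0) : Kb) ^ N = 1
    rw [hζK, hpow]
  have hmem : ζ₁ ∈ A := ResField.mem_of_pow_eq_one (A := A) hN hpow
  have hmem' : ζ₁⁻¹ ∈ A := ResField.mem_of_pow_eq_one (A := A) hN (by rw [inv_pow, hpow, inv_one])
  obtain ⟨ζR, hζR⟩ : ∃ ζR : (R0 K0 A)ˣ, (((ζR : R0 K0 A) : K0) : Kb) = ζ₁ := by
    refine ⟨⟨⟨⟨ζ₁, hζK0⟩, hmem⟩, ⟨⟨ζ₁⁻¹, K0.inv_mem hζK0⟩, hmem'⟩, ?_, ?_⟩, rfl⟩
    · apply Subtype.val_injective
      apply Subtype.val_injective
      exact mul_inv_cancel₀ hζ₁0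
    · apply Subtype.val_injective
      apply Subtype.val_injective
      exact inv_mul_cancel₀ hζ₁0
  have hζRpow : ζR ^ N = 1 := by
    ext
    rw [Units.val_pow_eq_pow_val, Units.val_one]
    change (((ζR : R0 K0 A) : K0) : Kb) ^ N = 1
    rw [hζR, hpow]
  have hK := ResField.transfer (ResField.iot.comp (algebraMap K0 Kb))
    (ResField.iot.injective.comp (algebraMap K0 Kb).injective) N ζK (by
      ext
      change ResField.iot ((ζK : K0) : Kb) = _
      rw [hζK, hζ₁])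
  have hR := ResField.transfer
    ((ResField.iot.comp (algebraMap K0 Kb)).comp (R0 K0 A).subtype)
    ((ResField.iot.injective.comp (algebraMap K0 Kb).injective).comp Subtype.val_injective) N ζR (by
      ext
      change ResField.iot (((ζR : R0 K0 A) : K0) : Kb) = _
      rw [hζR, hζ₁])
  obtain ⟨ζk, hprim, h1k, h2k⟩ := ResField.exists_zeta (A := A) N ℓ hℓ hℓN hA
  have hchar := ResField.charP (A := A) hℓ hA
  have hNk : (N : kA A) ≠ 0 := by
    rw [Ne, CharP.cast_eq_zero_iff _ ℓ]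
    exact hℓN
  have hinf : Infinite (kA A) := IsAlgClosed.instInfinite
  obtain ⟨m, hm⟩ := degL ζk hprim hNk h1k h2k
  refine ⟨modData N (res0 K0 A) ϖ hϖ0 (by rw [InstQD.ker_res0, hker]) ζR hζRpow hR.1 ζK hζKpow hK.1 m
    (fun c hc => hm c (by simp only [aeval_eq_evS]; exact hc)), rfl, rfl⟩

/-- **(ET) over an unramified field** (`ES.Inst.exists_K1_theta` with `K1` unramified at `A`):
the coefficients of the primitive element are Teichmüller lifts. -/
theorem exists_K1_theta_unr (N ℓ : ℕ) [NeZero N] (hℓ : ℓ.Prime) (hℓN : ¬ ℓ ∣ N)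
    (A : ValuationSubring Kb) (hA : A.LiesOverPrime ℓ) :
    ∃ K1 : IntermediateField ℚ Kb, FiniteDimensional ℚ K1 ∧ Unr A K1 ∧
      ∀ K0 : IntermediateField ℚ Kb, FiniteDimensional ℚ K0 → K1 ≤ K0 →
        ∀ [IsDiscreteValuationRing (R0 K0 A)] (D : QData (R0 K0 A) K0 (kA A)),
          D.F0 = F0 K0 N → D.res = res0 K0 A → Nonempty D.Theta := by
  classical
  have hN : N ≠ 0 := NeZero.ne N
  obtain ⟨ζ₁, hζ₁⟩ := ResField.exists_zetaQ N
  have hprim₁ : IsPrimitiveRoot ζ₁ N := by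
    have : IsPrimitiveRoot (ResField.iot ζ₁) N := by
      rw [hζ₁]
      exact IsPrimitiveRoot.coe_units_iff.mpr (Degree.isPrimitiveRoot_zetaC N)
    exact IsPrimitiveRoot.of_map_of_injective this ResField.iot.injective
  have hpow : ζ₁ ^ N = 1 := hprim₁.pow_eq_one
  have hζ₁0 : ζ₁ ≠ 0 := hprim₁.ne_zero hN
  have hmem : ζ₁ ∈ A := ResField.mem_of_pow_eq_one (A := A) hN hpow
  have hmem' : ζ₁⁻¹ ∈ A := ResField.mem_of_pow_eq_one (A := A) hN (by rw [inv_pow, hpow, inv_one])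
  obtain ⟨ζA, hζA⟩ : ∃ ζA : Aˣ, ((ζA : A) : Kb) = ζ₁ :=
    ⟨⟨⟨ζ₁, hmem⟩, ⟨ζ₁⁻¹, hmem'⟩, Subtype.ext (mul_inv_cancel₀ hζ₁0),
      Subtype.ext (inv_mul_cancel₀ hζ₁0)⟩, rfl⟩
  have hprimA : IsPrimitiveRoot (ζA : A) N := by
    apply IsPrimitiveRoot.of_map_of_injective (f := A.subtype) _ Subtype.val_injective
    change IsPrimitiveRoot ((ζA : A) : Kb) N
    rw [hζA]
    exact hprim₁
  have hchar := ResField.charP (A := A) hℓ hA
  have hNk : (N : kA A) ≠ 0 := by
    rw [Ne, CharP.cast_eq_zero_iff _ ℓ]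
    exact hℓN
  have hinf : Infinite (kA A) := IsAlgClosed.instInfinite
  have hprimk : IsPrimitiveRoot (Units.map (IsLocalRing.residue A : A →* kA A) ζA) N := by
    rw [← IsPrimitiveRoot.coe_units_iff]
    exact ResField.isPrimitiveRoot_map (IsLocalRing.residue A) hprimA hNk
  obtain ⟨Ubar, hUbar⟩ := FkEmb.exists_theta _ hprimk
  choose t ht1 ht2 using fun x : kA A => exists_teich hℓ hA x
  refine ⟨IntermediateField.adjoin ℚ
    ((insert ζ₁ (Ubar.support.image fun m => ((t (Ubar.coeff m) : A) : Kb)) : Finset Kb) : Set Kb),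
    UnrInst.finiteDimensional_adjoin _, unr_adjoin _ ?_, fun K0 hK0 hle hdvr D hF hres => ?_⟩
  · intro σ hσ x hx
    rw [Finset.mem_coe, Finset.mem_insert, Finset.mem_image] at hx
    rcases hx with rfl | ⟨m, -, rfl⟩
    · exact inertia_root hℓ hA hℓN hpow σ hσ
    · rcases ht2 (Ubar.coeff m) with h0 | ⟨n, hn, hz⟩
      · rw [h0, map_zero]
      · exact inertia_root hℓ hA hn hz σ hσ
  have hζK0 : ζ₁ ∈ K0 := hle (IntermediateField.subset_adjoin _ _ (by simp))
  have htK0 : ∀ m ∈ Ubar.support, ((t (Ubar.coeff m) : A) : Kb) ∈ K0 := fun m hm =>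
    hle (IntermediateField.subset_adjoin _ _ (by
      rw [Finset.mem_coe, Finset.mem_insert, Finset.mem_image]
      exact Or.inr ⟨m, hm, rfl⟩))
  obtain ⟨ζR, hζR⟩ : ∃ ζR : (R0 K0 A)ˣ, (((ζR : R0 K0 A) : K0) : Kb) = ζ₁ := by
    refine ⟨⟨⟨⟨ζ₁, hζK0⟩, hmem⟩, ⟨⟨ζ₁⁻¹, K0.inv_mem hζK0⟩, hmem'⟩, ?_, ?_⟩, rfl⟩
    · apply Subtype.val_injective
      apply Subtype.val_injective
      exact mul_inv_cancel₀ hζ₁0
    · apply Subtype.val_injective
      apply Subtype.val_injective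
      exact inv_mul_cancel₀ hζ₁0
  have hinclζ : Units.map (incl K0 A : R0 K0 A →* A) ζR = ζA := by
    ext
    change (((ζR : R0 K0 A) : K0) : Kb) = ((ζA : A) : Kb)
    rw [hζR, hζA]
  have hprimR : IsPrimitiveRoot ζR N := by
    rw [← IsPrimitiveRoot.coe_units_iff]
    apply IsPrimitiveRoot.of_map_of_injective (f := incl K0 A) _ (incl_injective K0 A)
    have : incl K0 A (ζR : R0 K0 A) = (ζA : A) := congrArg Units.val hinclζ
    rw [this]
    exact hprimA
  have hK := ResField.transfer (ResField.iot.comp (algebraMap K0 Kb))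
    (ResField.iot.injective.comp (algebraMap K0 Kb).injective) N
    (Units.map (algebraMap (R0 K0 A) K0 : R0 K0 A →* K0) ζR) (by
      ext
      change ResField.iot (((ζR : R0 K0 A) : K0) : Kb) = _
      rw [hζR, hζ₁])
  have hR := ResField.transfer
    ((ResField.iot.comp (algebraMap K0 Kb)).comp (R0 K0 A).subtype)
    ((ResField.iot.injective.comp (algebraMap K0 Kb).injective).comp Subtype.val_injective) N ζR (by
      ext
      change ResField.iot (((ζR : R0 K0 A) : K0) : Kb) = _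
      rw [hζR, hζ₁])
  obtain ⟨U0, hU0⟩ : ∃ U0 : MvPolynomial (Gen N) (R0 K0 A),
      MvPolynomial.map (res0 K0 A) U0 = Ubar := by
    refine ⟨∑ m ∈ Ubar.support.attach, MvPolynomial.monomial m.1
      (⟨⟨((t (Ubar.coeff m.1) : A) : Kb), htK0 m.1 m.2⟩, (t (Ubar.coeff m.1)).2⟩ : R0 K0 A), ?_⟩
    rw [map_sum]
    conv_rhs => rw [← Ubar.support_sum_monomial_coeff, ← Finset.sum_attach]
    refine Finset.sum_congr rfl fun m _ => ?_
    rw [MvPolynomial.map_monomial]
    congr 1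
    exact ht1 (Ubar.coeff m.1)
  refine ETInst.nonempty_theta N D hF ζR hprimR hR.1 hK.1 hK.2 U0 ?_
  have e1 : Units.map (D.res : R0 K0 A →* kA A) ζR
      = Units.map (IsLocalRing.residue A : A →* kA A) ζA := by
    rw [hres, ← hinclζ]
    rfl
  have e2 : MvPolynomial.map D.res U0 = Ubar := by
    rw [hres, hU0]
  rw [e1, e2]
  exact hUbar

/-- the normality statement `ES.Inst.HDed`, with `K1` unramified at `A`. -/
def HDedUnr (N : ℕ) (A : ValuationSubring Kb) : Prop :=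
  ∃ K1 : IntermediateField ℚ Kb, FiniteDimensional ℚ K1 ∧ Unr A K1 ∧
    ∀ K0 : IntermediateField ℚ Kb, FiniteDimensional ℚ K0 → K1 ≤ K0 →
      ∀ [IsDiscreteValuationRing (R0 K0 A)] (D : QData (R0 K0 A) K0 (kA A)),
        D.F0 = F0 K0 N → D.res = res0 K0 A →
      ∀ (X : D.Coord) (ι : D.F0 →+* FF N),
        (∀ f : D.F0, ((ι f : FF N) : LaurentSeries Kb) = bc K0 (f : LaurentSeries K0)) →
        Transcendental Kb (ι X.x) → FiniteDimensional Kb⟮ι X.x⟯ (FF N) →
      ∀ g : (R0 K0 A)[X], (g.map D.res).Separable →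
        (∀ a : Kb, (g.map ((algebraMap K0 Kb).comp (algebraMap (R0 K0 A) K0))).eval a ≠ 0 →
          ∀ v : Place Kb (FF N), 0 < v.ord (ι X.x - algebraMap Kb (FF N) a) →
            v.ord (ι X.x - algebraMap Kb (FF N) a) = 1) →
        IsDedekindDomain (X.chart ⧸ Ideal.span {ϖB X})

/-- **The normality statement over an unramified field.** -/
theorem hDed_unr (N ℓ : ℕ) [NeZero N] (hℓ : ℓ.Prime) (hℓN : ¬ ℓ ∣ N)
    (A : ValuationSubring Kb) (hA : A.LiesOverPrime ℓ) : HDedUnr N A := by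
  obtain ⟨K1, hK1, hu, h⟩ := exists_K1_theta_unr N ℓ hℓ hℓN A hA
  refine ⟨K1, hK1, hu, fun K0 hK0 hle hdvr D hF hres X ι hι hy hfd g hg hU => ?_⟩
  obtain ⟨T⟩ := h K0 hK0 hle D hF hres
  exact hded N D X T ι hι hy g hg hU

end Fermat.Agent.S36
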