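import Fermat.Agent.ES.InstQD
import Fermat.Agent.S36.UnrZeta

/-!
# S36, block G-UNR : the `q`-expansion data of level `N` over an unramified `A ∩ K0`, `ϖ = q`
-/

set_option autoImplicit false
set_option linter.style.haveILetI false

noncomputable section

namespace Fermat.Agent.S36

open ModularCurve AlgebraicCurve Polynomial
open Fermat.Agent.S24 Fermat.Agent.S28 Fermat.Agent.ES Fermat.Agent.ES.QE Fermat.Agent.ES.Inst
  Fermat.Agent.ES.IDvr Fermat.Agent.ES.Inst.InstQD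

/-- **I-QD over an unramified field**, with uniformiser `q`. -/
theorem exists_QData_unr (N q : ℕ) [NeZero N] (hq : q.Prime) (hqN : ¬ q ∣ N)
    (A : ValuationSubring Kb) (hA : A.LiesOverPrime q) :
    ∃ K1 : IntermediateField ℚ Kb, FiniteDimensional ℚ K1 ∧ Unr A K1 ∧
      ∀ K0 : IntermediateField ℚ Kb, FiniteDimensional ℚ K0 → K1 ≤ K0 →
        Irreducible ((q : ℕ) : R0 K0 A) →
        ∃ D : QData (R0 K0 A) K0 (kA A), D.F0 = F0 K0 N ∧ D.res = res0 K0 A ∧
          D.ϖ = ((q : ℕ) : R0 K0 A) := by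
  have hN : N ≠ 0 := NeZero.ne N
  obtain ⟨ζ₁, hζ₁⟩ := ResField.exists_zetaQ N
  have hpow : ζ₁ ^ N = 1 := by
    apply ResField.iot.injective
    rw [map_pow, hζ₁, map_one]
    exact (IsPrimitiveRoot.coe_units_iff.mpr (Degree.isPrimitiveRoot_zetaC N)).pow_eq_one
  have hζ₁0 : ζ₁ ≠ 0 := by
    rintro rfl
    rw [zero_pow hN] at hpow
    exact zero_ne_one hpow
  obtain ⟨K1, hK1, hunr, hζK1⟩ := exists_unr_zeta hq hA N hqN
  refine ⟨K1, hK1, hunr, fun K0 hK0 hle hirr => ?_⟩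
  have hζK0 : ζ₁ ∈ K0 := hle (hζK1 ζ₁ hpow)
  have hdvr : IsDiscreteValuationRing (R0 K0 A) := isDVR K0 A hq hA
  have hker : RingHom.ker (IsLocalRing.residue (R0 K0 A))
      = Ideal.span {((q : ℕ) : R0 K0 A)} := by
    rw [IsLocalRing.ker_residue, hirr.maximalIdeal_eq]
  -- the root of unity in `K0`
  obtain ⟨ζK, hζK⟩ : ∃ ζK : K0ˣ, ((ζK : K0) : Kb) = ζ₁ :=
    ⟨Units.mk0 ⟨ζ₁, hζK0⟩ (fun h => hζ₁0 (congrArg Subtype.val h)), rfl⟩
  have hζKpow : ζK ^ N = 1 := by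
    ext
    rw [Units.val_pow_eq_pow_val, Units.val_one]
    change ((ζK : K0) : Kb) ^ N = 1
    rw [hζK, hpow]
  have hmem : ζ₁ ∈ A := ResField.mem_of_pow_eq_one (A := A) hN hpow
  have hmem' : ζ₁⁻¹ ∈ A := ResField.mem_of_pow_eq_one (A := A) hN (by rw [inv_pow, hpow, inv_one])
  obtain ⟨ζR, hζR⟩ : ∃ ζR : (R0 K0 A)ˣ, (((ζR : R0 K0 A) : K0) : Kb) = ζ₁ := by
    refine ⟨⟨⟨⟨ζ₁, hζK0⟩, hmem⟩, ⟨⟨ζ₁⁻¹, K0.inv_mem hζK0⟩, hmem'⟩, ?_, ?_⟩, rfl⟩
    · apply Subtype.val_injective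
      apply Subtype.val_injective
      exact mul_inv_cancel₀ hζ₁0
    · apply Subtype.val_injective
      apply Subtype.val_injective
      exact inv_mul_cancel₀ hζ₁0
  have hζRpow : ζR ^ N = 1 := by
    ext
    rw [Units.val_pow_eq_pow_val, Units.val_one]
    change (((ζR : R0 K0 A) : K0) : Kb) ^ N = 1
    rw [hζR, hpow]
  have hK := ResField.transfer (ResField.iot.comp (algebraMap K0 Kb))
    (ResField.iot.injective.comp (algebraMap K0 Kb).injective) N ζK (by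
      ext
      change ResField.iot ((ζK : K0) : Kb) = _
      rw [hζK, hζ₁])
  have hR := ResField.transfer
    ((ResField.iot.comp (algebraMap K0 Kb)).comp (R0 K0 A).subtype)
    ((ResField.iot.injective.comp (algebraMap K0 Kb).injective).comp Subtype.val_injective) N ζR (by
      ext
      change ResField.iot (((ζR : R0 K0 A) : K0) : Kb) = _
      rw [hζR, hζ₁])
  obtain ⟨ζk, hprim, h1k, h2k⟩ := ResField.exists_zeta (A := A) N q hq hqN hA
  have hchar := ResField.charP (A := A) hq hA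
  have hNk : (N : kA A) ≠ 0 := by
    rw [Ne, CharP.cast_eq_zero_iff _ q]
    exact hqN
  have hinf : Infinite (kA A) := IsAlgClosed.instInfinite
  obtain ⟨m, hm⟩ := degL ζk hprim hNk h1k h2k
  refine ⟨modData N (res0 K0 A) ((q : ℕ) : R0 K0 A) hirr.ne_zero (by rw [ker_res0, hker]) ζR hζRpow
    hR.1 ζK hζKpow hK.1 m (fun c hc => hm c (by simp only [aeval_eq_evS]; exact hc)), rfl, rfl, rfl⟩

end Fermat.Agent.S36
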