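import Fermat.Agent.S36.Desc
import Fermat.Agent.S34.NTwo

/-!
# S36, block G-UNR : `j(T^q)` is integral over `R[j]` and the structure `Two`, over EVERY field

`S34.exists_K1_jq` puts a primitive `q`-th root of unity in the field, which ramifies at `q`.
Here the integrality is proved over every intermediate field `K0` (transitivity of integrality
through the integral closure of `R0 K0 A` in `ℚ̄`), hence also the structure `Two`.
-/

set_option autoImplicit false

noncomputable section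

namespace Fermat.Agent.S36

open ModularCurve AlgebraicCurve Polynomial
open Fermat.Agent.S24 Fermat.Agent.S28 Fermat.Agent.ES Fermat.Agent.ES.QE Fermat.Agent.ES.Inst
  Fermat.Agent.ES.IDvr Fermat.Agent.S34

namespace UnrTwo

theorem isIntegralElem_trans {R S T : Type*} [CommRing R] [CommRing S] [CommRing T]
    (f : R →+* S) (g : S →+* T) (hf : f.IsIntegral) {x : T} (hx : g.IsIntegralElem x) :
    (g.comp f).IsIntegralElem x := by
  let _ := f.toAlgebra
  let _ := g.toAlgebra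
  let _ := (g.comp f).toAlgebra
  have : IsScalarTower R S T := IsScalarTower.of_algebraMap_eq fun _ ↦ rfl
  have : Algebra.IsIntegral R S := ⟨hf⟩
  exact isIntegral_trans x hx

theorem mapRingHom_isIntegral {R S : Type*} [CommRing R] [CommRing S] [Algebra R S]
    [Algebra.IsIntegral R S] : (mapRingHom (algebraMap R S)).IsIntegral := fun _ =>
  Polynomial.isIntegral_iff_isIntegral_coeff.2 fun _ => Algebra.IsIntegral.isIntegral _

end UnrTwo

/-- **`j(T^q)` is integral over `R[j]`, over every field `K0`.** -/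
theorem jq_int_all (q : ℕ) [NeZero q] (A : ValuationSubring Kb) (K0 : IntermediateField ℚ Kb) :
    ((coeffMap (algebraMap (R0 K0 A) K0)).comp (evS (jqModC (R0 K0 A)))).IsIntegralElem
      (qExpand K0 q (jqModC K0)) := by
  have hN : q ≠ 0 := NeZero.ne q
  obtain ⟨ζ₁, hζ₁⟩ := ResField.exists_zetaQ q
  have hpow : ζ₁ ^ q = 1 := by
    apply ResField.iot.injective
    rw [map_pow, hζ₁, map_one]
    exact (IsPrimitiveRoot.coe_units_iff.mpr (Degree.isPrimitiveRoot_zetaC q)).pow_eq_one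
  have hζ₁0 : ζ₁ ≠ 0 := by
    rintro rfl
    rw [zero_pow hN] at hpow
    exact zero_ne_one hpow
  let φ : R0 K0 A →+* Kb := (algebraMap K0 Kb).comp (R0 K0 A).subtype
  let _ : Algebra (R0 K0 A) Kb := φ.toAlgebra
  let S : Subalgebra (R0 K0 A) Kb := integralClosure (R0 K0 A) Kb
  have hint : ∀ z : Kb, z ^ q = 1 → z ∈ S := fun z hz =>
    ⟨X ^ q - 1, monic_X_pow_sub_C 1 hN, by simp [hz]⟩
  obtain ⟨ζS, hζS⟩ : ∃ ζS : Sˣ, ((ζS : S) : Kb) = ζ₁ :=
    ⟨⟨⟨ζ₁, hint _ hpow⟩, ⟨ζ₁⁻¹, hint _ (by rw [inv_pow, hpow, inv_one])⟩,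
      Subtype.ext (mul_inv_cancel₀ hζ₁0), Subtype.ext (inv_mul_cancel₀ hζ₁0)⟩, rfl⟩
  have hζSpow : ζS ^ q = 1 := by
    ext
    rw [Units.val_pow_eq_pow_val, Units.val_one]
    change ((ζS : S) : Kb) ^ q = 1
    rw [hζS, hpow]
  have hS := ResField.transfer (ResField.iot.comp S.val.toRingHom)
    (ResField.iot.injective.comp Subtype.val_injective) q ζS (by
      ext
      change ResField.iot ((ζS : S) : Kb) = _
      rw [hζS, hζ₁])
  obtain ⟨P, hmon, -, hP⟩ := exists_monic_root q ζS hζSpow hS.1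
    (MvPolynomial.X (false, ⟨q, Nat.mem_divisors_self q hN⟩))
  let g : S[X] →+* LaurentSeries Kb := (coeffMap S.val.toRingHom).comp (evS (jqModC S))
  have e : coeffMap S.val.toRingHom
      (ev0 S q (MvPolynomial.X (false, ⟨q, Nat.mem_divisors_self q hN⟩)))
      = bc K0 (qExpand K0 q (jqModC K0)) := by
    rw [ev0, MvPolynomial.aeval_X]
    show coeffMap S.val.toRingHom (qExp S q (jqModC S)) = _
    rw [qExp_eq, coeffMap_qExpand, coeffMap_jqModC, bc_qExpand, bc_jq]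
  have hg : RingHom.IsIntegralElem (R := S[X]) (A := LaurentSeries Kb) g
      (bc K0 (qExpand K0 q (jqModC K0))) := by
    refine ⟨P, hmon, ?_⟩
    rw [← e, ← hom_eval₂, hP, map_zero]
  have h1 := UnrTwo.isIntegralElem_trans (R := (R0 K0 A)[X]) (S := S[X]) (T := LaurentSeries Kb)
    (mapRingHom (algebraMap (R0 K0 A) S)) g UnrTwo.mapRingHom_isIntegral hg
  have e2 : g.comp (mapRingHom (algebraMap (R0 K0 A) S))
      = (bc K0).comp ((coeffMap (algebraMap (R0 K0 A) K0)).comp (evS (jqModC (R0 K0 A)))) := by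
    apply Polynomial.ringHom_ext
    · intro a
      show coeffMap S.val.toRingHom (evS (jqModC S) ((C a).map (algebraMap (R0 K0 A) S)))
        = bc K0 (coeffMap (algebraMap (R0 K0 A) K0) (evS (jqModC (R0 K0 A)) (C a)))
      rw [map_C, evS_C, evS_C, coeffMap_C, coeffMap_C, bc, coeffMap_C]
      rfl
    · show coeffMap S.val.toRingHom (evS (jqModC S) ((X : (R0 K0 A)[X]).map (algebraMap (R0 K0 A) S)))
        = bc K0 (coeffMap (algebraMap (R0 K0 A) K0) (evS (jqModC (R0 K0 A)) X))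
      rw [map_X, evS_X, evS_X, coeffMap_jqModC, coeffMap_jqModC, bc_jq]
  rw [e2] at h1
  obtain ⟨Q, hQmon, hQ⟩ := h1
  refine ⟨Q, hQmon, bc_injective K0 ?_⟩
  rw [map_zero, hom_eval₂]
  exact hQ

/-- **The structure `Two` at level `M₀ q` over EVERY field `K0`** (`S34.exists_two` without `K1`). -/
theorem two_all (M0 q : ℕ) [NeZero M0] [NeZero q] (hq : q.Prime) (hqM : ¬ q ∣ M0)
    (A : ValuationSubring Kb)
    (W : FF (M0 * q) ≃ₐ[Kb] FF (M0 * q))
    (hWα : ∀ y : FF M0, W (heckeAlphaBar Kb M0 q y) = heckeBetaBar Kb M0 q y)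
    (hWβ : ∀ y : FF M0, W (heckeBetaBar Kb M0 q y) = heckeAlphaBar Kb M0 q y)
    (K0 : IntermediateField ℚ Kb)
    [IsDiscreteValuationRing (R0 K0 A)] (D : QData (R0 K0 A) K0 (kA A)) (hF : D.F0 = F0 K0 M0) :
    ∃ T : Two D q, T.F = F0 K0 (M0 * q) ∧
      ∀ (f : T.F) (hf : bc K0 (f : LaurentSeries K0) ∈ modularFunctionFieldBar (M0 * q)),
        bc K0 (T.e2 f) = ((W ⟨_, hf⟩ : FF (M0 * q)) : LaurentSeries Kb) := by
  have hqK : (q : K0) ≠ 0 := Nat.cast_ne_zero.2 (NeZero.ne q)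
  -- the embedding into `FF (M0 * q)`
  let ι : F0 K0 (M0 * q) →+* FF (M0 * q) :=
    ((bc K0).comp (algebraMap (F0 K0 (M0 * q)) (LaurentSeries K0))).codRestrict
      (modularFunctionFieldBar (M0 * q)) (fun f => bc_mem K0 (M0 * q) f.2)
  let ψ : F0 K0 (M0 * q) →+* LaurentSeries Kb :=
    (modularFunctionFieldBar (M0 * q)).val.toRingHom.comp ((W : FF (M0 * q) →+* FF (M0 * q)).comp ι)
  have hια : ∀ (u : LaurentSeries K0) (hu : u ∈ F0 K0 M0),
      ι ⟨u, F0_le M0 q K0 hu⟩ = heckeAlphaBar Kb M0 q ⟨bc K0 u, bc_mem K0 M0 hu⟩ :=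
    fun u hu => Subtype.ext (bc_alpha M0 q K0 hu).symm
  have hιβ : ∀ (u : LaurentSeries K0) (hu : u ∈ F0 K0 M0),
      ι ⟨qExpand K0 q u, V_mem_F0 M0 q K0 hqK hu⟩
        = heckeBetaBar Kb M0 q ⟨bc K0 u, bc_mem K0 M0 hu⟩ :=
    fun u hu => Subtype.ext (bc_beta M0 q K0 hu).symm
  have hψα : ∀ (u : LaurentSeries K0) (hu : u ∈ F0 K0 M0),
      ψ ⟨u, F0_le M0 q K0 hu⟩ = bc K0 (qExpand K0 q u) := by
    intro u hu
    show ((W (ι ⟨u, F0_le M0 q K0 hu⟩) : FF (M0 * q)) : LaurentSeries Kb) = _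
    rw [hια u hu, hWα, bc_beta M0 q K0 hu]
  have hψβ : ∀ (u : LaurentSeries K0) (hu : u ∈ F0 K0 M0),
      ψ ⟨qExpand K0 q u, V_mem_F0 M0 q K0 hqK hu⟩ = bc K0 u := by
    intro u hu
    show ((W (ι ⟨qExpand K0 q u, V_mem_F0 M0 q K0 hqK hu⟩) : FF (M0 * q)) : LaurentSeries Kb) = _
    rw [hιβ u hu, hWβ, bc_alpha M0 q K0 hu]
  have hj : jqModC K0 ∈ F0 K0 M0 := hF ▸ D.j_mem
  have hmem : ∀ f : F0 K0 (M0 * q), ψ f ∈ (bc K0).fieldRange := by
    intro f
    obtain ⟨a, ha, hf⟩ := span_K0 M0 q hq hqM K0 f.2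
    have e : f = ∑ i, (⟨a i, F0_le M0 q K0 (ha i)⟩ : F0 K0 (M0 * q))
        * (⟨qExpand K0 q (jqModC K0), V_mem_F0 M0 q K0 hqK hj⟩ : F0 K0 (M0 * q)) ^ (i : ℕ) := by
      apply Subtype.ext
      rw [IntermediateField.coe_sum, hf]
      rfl
    rw [e, map_sum]
    refine sum_mem fun i _ => ?_
    rw [map_mul, map_pow, hψα _ (ha i), hψβ _ hj]
    have hr : ∀ z : LaurentSeries K0, bc K0 z ∈ (bc K0).fieldRange := fun z => ⟨z, rfl⟩
    exact mul_mem (hr _) (pow_mem (hr _) _)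
  let e2 : F0 K0 (M0 * q) →+* LaurentSeries K0 :=
    ((bc K0).rangeRestrictFieldEquiv.symm : (bc K0).fieldRange →+* LaurentSeries K0).comp
      (ψ.codRestrict (bc K0).fieldRange hmem)
  have he2 : ∀ f, bc K0 (e2 f) = ψ f := fun f =>
    (bc K0).rangeRestrictFieldEquiv_apply_symm_apply _
  refine ⟨{ F := F0 K0 (M0 * q)
            le := hF ▸ F0_le M0 q K0
            V_mem := fun u hu => V_mem_F0 M0 q K0 hqK (hF ▸ hu)
            e2 := e2
            e2_alpha := fun u hu => bc_injective K0 (by rw [he2]; exact hψα u (hF ▸ hu))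
            e2_beta := fun u hu => bc_injective K0 (by rw [he2]; exact hψβ u (hF ▸ hu))
            span := fun f hf => by
              obtain ⟨a, ha, h⟩ := span_K0 M0 q hq hqM K0 hf
              exact ⟨a, fun i => hF ▸ ha i, h⟩
            jq_int := jq_int_all q A K0 }, rfl, fun f hf => he2 f⟩

end Fermat.Agent.S36
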