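import Fermat.Agent.S35.GU
import Fermat.Agent.S36.UnrInst
import Fermat.Agent.S36.UnrTwo
import Fermat.Agent.S36.UnrQD
import Fermat.Agent.S36.UnrUnif
import Fermat.Agent.S36.Desc2

/-!
# S36, block G-UNR : the whole instance layer of levels `M₀`, `M₀ q` over an unramified field

One theorem collecting everything which `S35.GU.new_of_coord` extracts from its number field,
over every finite `K0 ⊇ K1` unramified at `A` (`K1` finite and unramified): the data `D`
(uniformiser `q`), `T : Two D q` (with `W = Wb`), the coordinate `X`, `y`, normality of the two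
charts modulo `q`, the Frobenius congruences, `XYData`, `Theta`.
-/

set_option autoImplicit false

noncomputable section

namespace Fermat.Agent.S36

open ModularCurve AlgebraicCurve Polynomial IntermediateField
open Fermat.Agent.S24 Fermat.Agent.S28 Fermat.Agent.ES Fermat.Agent.ES.QE Fermat.Agent.ES.Model
  Fermat.Agent.ES.IDvr Fermat.Agent.ES.Inst Fermat.Agent.S37.Rat Fermat.Agent.S34
open Fermat.Agent.ES.Inst.InstFinal Fermat.Agent.ES.Inst.InstCoord
open Fermat.Agent.S34.UAux Fermat.Agent.S34.WK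

/-- the coordinate with integral expansion is defined over every field. -/
theorem UnrAll.zS_mem (M0 q : ℕ) [NeZero M0] (Z : ZCoord M0 q) (K0 : IntermediateField ℚ Kb) :
    zS K0 Z.xZ ∈ F0 K0 M0 := by
  obtain ⟨x0, hx0, h0⟩ := isDef_of_coeff_mem (N := M0) K0 Z.xF (fun n => by
    have : ((Z.xF : FF M0) : LaurentSeries Kb) = bc K0 (zS K0 Z.xZ) :=
      (coeffMap_zS (algebraMap K0 Kb) Z.xZ).symm
    rw [this, bc, coeffMap_coeff]
    exact ((zS K0 Z.xZ).coeff n).2)
  have h1 : bc K0 x0 = bc K0 (zS K0 Z.xZ) := by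
    rw [h0]
    exact (coeffMap_zS (algebraMap K0 Kb) Z.xZ).symm
  have h2 : x0 = zS K0 Z.xZ := QE.coeffMap_injective (algebraMap K0 Kb).injective h1
  rw [← h2]
  exact hx0

set_option maxHeartbeats 4000000 in
/-- **The instance layer of levels `M₀`, `M₀ q` over an unramified field.** -/
theorem exists_unr_layer (M0 q : ℕ) [NeZero M0] [Fact q.Prime] (hqM : ¬ q ∣ M0)
    (A : ValuationSubring Kb) (hA : A.LiesOverPrime q) (Z : ZCoord M0 q)
    (hU : Z.Unram) (hW : WGood M0 q Z.xF) :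
    ∃ K1 : IntermediateField ℚ Kb, FiniteDimensional ℚ K1 ∧ Unr A K1 ∧
      ∀ K0 : IntermediateField ℚ Kb, FiniteDimensional ℚ K0 → K1 ≤ K0 → Unr A K0 →
        ∀ [IsDiscreteValuationRing (R0 K0 A)],
        ∃ (D : QData (R0 K0 A) K0 (kA A)) (T : Two D q) (X : D.Coord)
          (y : LaurentSeries (R0 K0 A)) (hxy : X.xW * y = 1),
          D.F0 = F0 K0 M0 ∧ D.res = res0 K0 A ∧ D.ϖ = ((q : ℕ) : R0 K0 A) ∧
          T.F = F0 K0 (M0 * q) ∧
          (∀ (f : T.F) (hf : bc K0 (f : LaurentSeries K0) ∈ modularFunctionFieldBar (M0 * q)),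
            bc K0 (T.e2 f) = ((Wb M0 q hqM ⟨_, hf⟩ : FF (M0 * q)) : LaurentSeries Kb)) ∧
          X.xW = zS (R0 K0 A) Z.xZ ∧ y = zS (R0 K0 A) Z.yZ ∧
          bc K0 (X.x : LaurentSeries K0) = (Z.xF : LaurentSeries Kb) ∧
          IsDedekindDomain (X.chart ⧸ Ideal.span {Inst.ϖB X}) ∧
          IsDedekindDomain ((X.inv y hxy).chart ⧸ Ideal.span {Inst.ϖB (X.inv y hxy)}) ∧
          qExpand (kA A) q (D.red X.xW) = D.red X.xW ^ q ∧
          qExpand (kA A) q (D.red y) = D.red y ^ q ∧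
          XYData T X ∧ XYData T (X.inv y hxy) ∧ Nonempty D.Theta := by
  classical
  have hq : q.Prime := Fact.out
  have hWα := Wb_alpha M0 q hqM
  have hWβ := Wb_beta M0 q hqM
  -- the coordinate at level `N`
  have hmemN : zS Kb Z.xZ ∈ modularFunctionFieldBar (M0 * q) := by
    have h := (heckeAlphaBar Kb M0 q Z.xF).2
    rwa [coe_heckeAlphaBar] at h
  obtain ⟨ZN, hZN⟩ : ∃ ZN : ZCoord (M0 * q) q, ZN.xF = heckeAlphaBar Kb M0 q Z.xF :=
    ⟨{ Z with mem := hmemN }, Subtype.ext (coe_heckeAlphaBar M0 q Z.xF).symm⟩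
  have hxt0 := transcendental_xF Z
  have hxt0' : Transcendental Kb Z.xF⁻¹ := FF.transcendental_inv hxt0
  have hfd0 := finiteDimensional_xF Z
  have hfd0' := finiteDimensional_xF_inv Z
  have hxt := transcendental_xF ZN
  have hxt' : Transcendental Kb ZN.xF⁻¹ := FF.transcendental_inv hxt
  have hfd := finiteDimensional_xF ZN
  have hfd' := finiteDimensional_xF_inv ZN
  -- the number field
  obtain ⟨K1, hK1, hu1, hQD⟩ := exists_QData_unr M0 q hq hqM A hA
  obtain ⟨K2, hK2, hu2, hTh⟩ := exists_K1_theta_unr M0 q hq hqM A hA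
  refine ⟨K1 ⊔ K2, inferInstance, hu1.sup hu2, fun K0 hK0 hle hu0 hdvr => ?_⟩
  have hle1 : K1 ≤ K0 := le_sup_left.trans hle
  have hle2 : K2 ≤ K0 := le_sup_right.trans hle
  have hchar : CharP (kA A) q := ResField.charP hq hA
  obtain ⟨D, hF, hres, hϖ⟩ := hQD K0 hK0 hle1 (UnrUnif.irreducible_natCast A hq hA K0 hu0)
  obtain ⟨T, hT, hTW⟩ := two_all M0 q hq hqM A (Wb M0 q hqM) hWα hWβ K0 D hF
  obtain ⟨Th⟩ := hTh K0 hK0 hle2 D hF hres
  -- the embeddings into `FF M0`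
  let ι0 : D.F0 →+* FF M0 :=
    ((bc K0).comp (algebraMap D.F0 (LaurentSeries K0))).codRestrict (modularFunctionFieldBar M0)
      (fun f => bc_mem K0 M0 (hF ▸ f.2))
  have hι0 : ∀ f : D.F0, ((ι0 f : FF M0) : LaurentSeries Kb) = bc K0 (f : LaurentSeries K0) :=
    fun _ => rfl
  -- the coordinate
  have hx : zS K0 Z.xZ ∈ D.F0 := by
    rw [hF]
    exact UnrAll.zS_mem M0 q Z K0
  set X := toCoord Z D hx with hX
  set y := zS (R0 K0 A) Z.yZ with hy
  have hxy : X.xW * y = 1 := toCoord_mul Z D hx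
  have hι0x : ι0 X.x = Z.xF := by
    apply Subtype.ext
    rw [hι0, coe_toCoord_x]
    exact coeffMap_zS (algebraMap K0 Kb) Z.xZ
  have hι0x' : ι0 (X.inv y hxy).x = Z.xF⁻¹ := by rw [X.inv_x y hxy, map_inv₀, hι0x]
  have ha0 : (Z.a : kA A) ≠ 0 := intCast_ne_zero (kA A) Z.a_prim
  -- normality at level `M0`
  have hded1 : IsDedekindDomain (X.chart ⧸ Ideal.span {Inst.ϖB X}) := by
    have hfdx : FiniteDimensional Kb⟮ι0 X.x⟯ (FF M0) := by rw [hι0x]; exact hfd0
    refine hded M0 D X Th ι0 hι0 (by rw [hι0x]; exact hxt0)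
      (gFin _ Z.a) (by rw [gFin_map]; exact separable_gFin _ _ ha0) ?_
    intro a ha v hv
    rw [gFin_map] at ha
    rw [hι0x] at hv ⊢
    exact unram_fin Z hU a ha v hv
  have hded2 : IsDedekindDomain ((X.inv y hxy).chart ⧸ Ideal.span {Inst.ϖB (X.inv y hxy)}) := by
    have hfdx : FiniteDimensional Kb⟮ι0 (X.inv y hxy).x⟯ (FF M0) := by rw [hι0x']; exact hfd0'
    refine hded M0 D (X.inv y hxy) Th ι0 hι0
      (by rw [hι0x']; exact hxt0') (gInf _ Z.a)
      (by rw [gInf_map]; exact separable_gInf _ _) ?_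
    intro a ha v hv
    rw [gInf_map] at ha
    rw [hι0x'] at hv ⊢
    exact unram_inf Z hU a ha v hv
  -- Frobenius congruences for the coordinate
  have hXW : X.xW = zS (R0 K0 A) Z.xZ := rfl
  have hxq : qExpand (kA A) q (D.red X.xW) = D.red X.xW ^ q := by
    rw [hXW, QData.red, coeffMap_zS]
    exact qExpand_zS (kA A) q hq Z.xZ
  have hyq : qExpand (kA A) q (D.red y) = D.red y ^ q := by
    rw [hy, QData.red, coeffMap_zS]
    exact qExpand_zS (kA A) q hq Z.yZ
  have hαx : heckeAlphaBar Kb M0 q Z.xF = ZN.xF := hZN.symm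
  have hαx' : heckeAlphaBar Kb M0 q Z.xF⁻¹ = ZN.xF⁻¹ := by rw [map_inv₀, hαx]
  have hfdα : FiniteDimensional Kb⟮heckeAlphaBar Kb M0 q Z.xF⟯ (FF (M0 * q)) := by
    rw [hαx]; exact hfd
  have hfdα' : FiniteDimensional Kb⟮heckeAlphaBar Kb M0 q Z.xF⁻¹⟯ (FF (M0 * q)) := by
    rw [hαx']; exact hfd'
  have hxy1 : XYData T X :=
    exists_xy hq hqM hA D hF hres T hT (Wb M0 q hqM) hWα hWβ hTW X y hxy Z.xF
      (by rw [← hι0x, hι0]) (by rw [hαx]; exact hxt) hW.pos hW.cusp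
  have hxy2 : XYData T (X.inv y hxy) :=
    exists_xy hq hqM hA D hF hres T hT (Wb M0 q hqM) hWα hWβ hTW (X.inv y hxy) X.xW
      (by rw [mul_comm]; exact hxy) Z.xF⁻¹
      (by rw [← hι0x', hι0]) (by rw [hαx']; exact hxt') hW.inv.pos hW.inv.cusp
  exact ⟨D, T, X, y, hxy, hF, hres, hϖ, hT, hTW, hXW, rfl, by rw [← hι0x, hι0], hded1, hded2,
    hxq, hyq, hxy1, hxy2, ⟨Th⟩⟩

end Fermat.Agent.S36
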