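import Fermat.Agent.S36.UnrUnif
import Fermat.Agent.ES.InstDefs
import Fermat.Agent.ES.ResField
import Fermat.Agent.S36.BC

/-!
# S36, block G-UNR, package U5 : `ζ_q - 1` is a uniformiser of `A ∩ K0(ζ_q)`, `K0` unramified
-/

set_option autoImplicit false
set_option linter.unusedSectionVars false

noncomputable section

namespace Fermat.Agent.S36.UnrCyc

open Polynomial IsLocalRing Fermat.Agent.ES Fermat.Agent.ES.IDvr Fermat.Agent.ES.Inst
open scoped Pointwise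

local notation "Kb" => AlgebraicClosure ℚ

variable (A : ValuationSubring Kb)

theorem map_mem {σ : Kb ≃ₐ[ℚ] Kb} (hσ : σ ∈ A.inertiaSubgroupIn ℚ) {x : Kb} (hx : x ∈ A) :
    σ x ∈ A := by
  obtain ⟨τ, -, rfl⟩ := hσ
  have h1 : (τ : Kb ≃ₐ[ℚ] Kb) • A = A := τ.2
  have h2 := ValuationSubring.smul_mem_pointwise_smul (τ : Kb ≃ₐ[ℚ] Kb) x A hx
  rw [h1] at h2
  exact h2

theorem map_mem_iff {σ : Kb ≃ₐ[ℚ] Kb} (hσ : σ ∈ A.inertiaSubgroupIn ℚ) {x : Kb} :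
    σ x ∈ A ↔ x ∈ A := by
  refine ⟨fun h => ?_, map_mem A hσ⟩
  have := map_mem A ((A.inertiaSubgroupIn ℚ).inv_mem hσ) h
  simpa using this

theorem map_mem_nonunits {σ : Kb ≃ₐ[ℚ] Kb} (hσ : σ ∈ A.inertiaSubgroupIn ℚ) {x : Kb}
    (hx : x ∈ A.nonunits) : σ x ∈ A.nonunits := by
  rw [ValuationSubring.mem_nonunits_iff_or] at hx ⊢
  rcases hx with h | h
  · left
    rw [h, map_zero]
  · right
    rw [← map_inv₀, map_mem_iff A hσ]
    exact h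

theorem mul_mem_nonunits {y z : Kb} (hy : y ∈ A.nonunits) (hz : z ∈ A) :
    y * z ∈ A.nonunits := by
  obtain ⟨hy1, hy2⟩ := ValuationSubring.mem_nonunits_iff_exists_mem_maximalIdeal.1 hy
  have h := Ideal.mul_mem_right (⟨z, hz⟩ : A) _ hy2
  exact ValuationSubring.coe_mem_nonunits_iff.2 h

theorem root_mem {n : ℕ} (hn : n ≠ 0) {w : Kb} (hw : w ^ n = 1) : w ∈ A := by
  rcases A.mem_or_inv_mem w with h | h
  · exact h
  · have h1 : w = w⁻¹ ^ (n - 1) := by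
      have hw0 : w ≠ 0 := by
        rintro rfl
        rw [zero_pow hn] at hw
        exact zero_ne_one hw
      obtain ⟨m, rfl⟩ : ∃ m, n = m + 1 := ⟨n - 1, by omega⟩
      rw [Nat.add_sub_cancel, inv_pow]
      rw [pow_succ] at hw
      field_simp
      rw [mul_comm]
      exact hw
    rw [h1]
    exact A.pow_mem h _

/-- the orbit of `ζ` under the inertia group. -/
def orb (q : ℕ) (ζ : Kb) : Finset Kb := by
  classical
  exact (primitiveRoots q Kb).filter (fun w => ∃ τ ∈ A.inertiaSubgroupIn ℚ, τ ζ = w)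

theorem mem_orb {q : ℕ} {ζ w : Kb} :
    w ∈ orb A q ζ ↔ w ∈ primitiveRoots q Kb ∧ ∃ τ ∈ A.inertiaSubgroupIn ℚ, τ ζ = w := by
  classical
  rw [orb, Finset.mem_filter]

theorem self_mem_orb {q : ℕ} (hq : 0 < q) {ζ : Kb} (hζ : IsPrimitiveRoot ζ q) :
    ζ ∈ orb A q ζ :=
  (mem_orb A).2 ⟨(mem_primitiveRoots hq).2 hζ, 1, (A.inertiaSubgroupIn ℚ).one_mem, rfl⟩

theorem image_orb {q : ℕ} (hq : 0 < q) {ζ : Kb} {σ : Kb ≃ₐ[ℚ] Kb}
    (hσ : σ ∈ A.inertiaSubgroupIn ℚ) : by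
      classical
      exact (orb A q ζ).image σ = orb A q ζ := by
  classical
  apply Finset.eq_of_subset_of_card_le
  · intro w hw
    obtain ⟨w', hw', rfl⟩ := Finset.mem_image.1 hw
    obtain ⟨h1, τ, hτ, rfl⟩ := (mem_orb A).1 hw'
    refine (mem_orb A).2 ⟨?_, σ * τ, (A.inertiaSubgroupIn ℚ).mul_mem hσ hτ, rfl⟩
    rw [mem_primitiveRoots hq] at h1 ⊢
    exact h1.map_of_injective σ.injective
  · rw [Finset.card_image_of_injective _ σ.injective]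

variable (K0 : IntermediateField ℚ Kb)

theorem map_aeval {σ : Kb ≃ₐ[ℚ] Kb} (hσ : ∀ x ∈ K0, σ x = x) (P : K0[X]) (w : Kb) :
    σ (aeval w P) = aeval (σ w) P := by
  rw [aeval_def, aeval_def]
  have h := hom_eval₂ P (algebraMap K0 Kb) (σ : Kb →+* Kb) w
  have e : (σ : Kb →+* Kb).comp (algebraMap K0 Kb) = algebraMap K0 Kb := by
    ext x
    exact hσ x x.2
  rw [e] at h
  exact h

/-- the partial norm. -/
def nrm (q : ℕ) (ζ : Kb) (P : K0[X]) : Kb := ∏ w ∈ orb A q ζ, aeval w P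

variable {A K0}

theorem nrm_fixed {q : ℕ} (hq : 0 < q) (h : ∀ σ ∈ A.inertiaSubgroupIn ℚ, ∀ x ∈ K0, σ x = x)
    {ζ : Kb} (P : K0[X]) {σ : Kb ≃ₐ[ℚ] Kb} (hσ : σ ∈ A.inertiaSubgroupIn ℚ) :
    σ (nrm A K0 q ζ P) = nrm A K0 q ζ P := by
  classical
  rw [nrm, map_prod]
  conv_rhs => rw [← image_orb A hq (ζ := ζ) hσ]
  rw [Finset.prod_image (fun a _ b _ hab => σ.injective hab)]
  exact Finset.prod_congr rfl fun w _ => map_aeval K0 (h σ hσ) P w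

theorem aeval_orb (h : ∀ σ ∈ A.inertiaSubgroupIn ℚ, ∀ x ∈ K0, σ x = x) {q : ℕ}
    {ζ w : Kb} (hw : w ∈ orb A q ζ) : ∃ τ ∈ A.inertiaSubgroupIn ℚ, τ ζ = w ∧
      ∀ P : K0[X], aeval w P = τ (aeval ζ P) := by
  obtain ⟨-, τ, hτ, rfl⟩ := (mem_orb A).1 hw
  exact ⟨τ, hτ, rfl, fun P => (map_aeval K0 (h τ hτ) P ζ).symm⟩

theorem nrm_nonunit {q : ℕ} (hq : 0 < q) (h : ∀ σ ∈ A.inertiaSubgroupIn ℚ, ∀ x ∈ K0, σ x = x)
    {ζ : Kb} (hζ : IsPrimitiveRoot ζ q) (P : K0[X]) (hP : aeval ζ P ∈ A.nonunits) :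
    nrm A K0 q ζ P ∈ A.nonunits := by
  classical
  rw [nrm, ← Finset.mul_prod_erase _ _ (self_mem_orb A hq hζ)]
  refine mul_mem_nonunits A hP (Subring.prod_mem A.toSubring fun w hw => ?_)
  obtain ⟨τ, hτ, -, hw'⟩ := aeval_orb h (Finset.mem_of_mem_erase hw)
  rw [hw']
  exact A.nonunits_subset (map_mem_nonunits A hτ hP)

theorem prod_one_sub {q : ℕ} (hq : q.Prime) {ζ : Kb} (hζ : IsPrimitiveRoot ζ q) :
    ∏ w ∈ primitiveRoots q Kb, (1 - w) = (q : Kb) := by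
  have : Fact q.Prime := ⟨hq⟩
  have h1 := cyclotomic_eq_prod_X_sub_primitiveRoots hζ
  have h2 : eval 1 (cyclotomic q Kb) = (q : Kb) := eval_one_cyclotomic_prime
  rw [h1, eval_prod] at h2
  simpa using h2

/-- **[U5], field-free form.** -/
theorem div_mem_of_aeval {q : ℕ} (hq : q.Prime) (hA : A.LiesOverPrime q)
    (h : ∀ σ ∈ A.inertiaSubgroupIn ℚ, ∀ x ∈ K0, σ x = x)
    {ζ : Kb} (hζ : IsPrimitiveRoot ζ q) (P P' : K0[X]) (hP : aeval ζ P ∈ A.nonunits)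
    (hP' : aeval ζ P' ∈ A.nonunits) (hPP : aeval ζ P * aeval ζ P' = 1 - ζ) : False := by
  classical
  have hq0 : (q : Kb) ≠ 0 := by exact_mod_cast hq.ne_zero
  have h1 := UnrUnif.div_mem_of_inertia_fixed A hq hA
    (fun σ hσ => nrm_fixed hq.pos h (ζ := ζ) P hσ) (nrm_nonunit hq.pos h hζ P hP)
  have h2 := UnrUnif.div_mem_of_inertia_fixed A hq hA
    (fun σ hσ => nrm_fixed hq.pos h (ζ := ζ) P' hσ) (nrm_nonunit hq.pos h hζ P' hP')
  have h3 : nrm A K0 q ζ P * nrm A K0 q ζ P' = ∏ w ∈ orb A q ζ, (1 - w) := by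
    rw [nrm, nrm, ← Finset.prod_mul_distrib]
    refine Finset.prod_congr rfl fun w hw => ?_
    obtain ⟨τ, hτ, hτw, hw'⟩ := aeval_orb h hw
    rw [hw', hw', ← map_mul, hPP, map_sub, map_one, hτw]
  have hsub : orb A q ζ ⊆ primitiveRoots q Kb := fun w hw => ((mem_orb A).1 hw).1
  have h4 : (∏ w ∈ primitiveRoots q Kb \ orb A q ζ, (1 - w)) * ∏ w ∈ orb A q ζ, (1 - w)
      = (q : Kb) := by
    rw [Finset.prod_sdiff hsub, prod_one_sub hq hζ]
  have h5 : (∏ w ∈ primitiveRoots q Kb \ orb A q ζ, (1 - w)) ∈ A := by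
    refine Subring.prod_mem A.toSubring fun w hw => ?_
    have hw1 := (mem_primitiveRoots hq.pos).1 (Finset.mem_sdiff.1 hw).1
    exact A.sub_mem A.one_mem (root_mem A hq.ne_zero hw1.pow_eq_one)
  have h6 : (q : Kb)⁻¹ ∈ A := by
    have e : (q : Kb)⁻¹ = (nrm A K0 q ζ P / q) * (nrm A K0 q ζ P' / q)
        * ∏ w ∈ primitiveRoots q Kb \ orb A q ζ, (1 - w) := by
      have : (nrm A K0 q ζ P / q) * (nrm A K0 q ζ P' / q)
        * ∏ w ∈ primitiveRoots q Kb \ orb A q ζ, (1 - w)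
        = ((∏ w ∈ primitiveRoots q Kb \ orb A q ζ, (1 - w))
          * (nrm A K0 q ζ P * nrm A K0 q ζ P')) / (q * q) := by
        field_simp
      rw [this, h3, h4]
      field_simp
    rw [e]
    exact mul_mem (mul_mem h1 h2) h5
  have h7 : (q : Kb) ∈ A.nonunits := hA
  rw [ValuationSubring.mem_nonunits_iff_or] at h7
  rcases h7 with h7 | h7
  · exact hq0 h7
  · exact h7 h6

variable (K0) in
/-- the field `K0(ζ)`. -/
def Kz (ζ : Kb) : IntermediateField ℚ Kb := K0 ⊔ IntermediateField.adjoin ℚ {ζ}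

theorem le_Kz (ζ : Kb) : K0 ≤ Kz K0 ζ := le_sup_left

theorem zeta_mem_Kz (ζ : Kb) : ζ ∈ Kz K0 ζ :=
  (le_sup_right : IntermediateField.adjoin ℚ {ζ} ≤ Kz K0 ζ)
    (IntermediateField.mem_adjoin_simple_self ℚ ζ)

theorem finiteDimensional_Kz [FiniteDimensional ℚ K0] (ζ : Kb) :
    FiniteDimensional ℚ (Kz K0 ζ) := by
  have : Algebra.IsAlgebraic ℚ Kb := AlgebraicClosure.isAlgebraic ℚ
  have : FiniteDimensional ℚ (IntermediateField.adjoin ℚ {ζ}) :=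
    IntermediateField.adjoin.finiteDimensional (Algebra.IsAlgebraic.isAlgebraic ζ).isIntegral
  exact IntermediateField.finiteDimensional_sup _ _

theorem exists_aeval {ζ x : Kb} (hx : x ∈ Kz K0 ζ) : ∃ P : K0[X], x = aeval ζ P := by
  have : Algebra.IsAlgebraic ℚ Kb := AlgebraicClosure.isAlgebraic ℚ
  have hζ : IsAlgebraic K0 ζ := (Algebra.IsAlgebraic.isAlgebraic (R := ℚ) ζ).tower_top K0
  have hle : Kz K0 ζ ≤ (IntermediateField.adjoin K0 {ζ}).restrictScalars ℚ := by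
    refine sup_le (fun y hy => ?_) ?_
    · exact (IntermediateField.adjoin K0 {ζ}).algebraMap_mem ⟨y, hy⟩
    · rw [IntermediateField.adjoin_le_iff, Set.singleton_subset_iff]
      exact IntermediateField.mem_adjoin_simple_self K0 ζ
  have h1 : x ∈ (IntermediateField.adjoin K0 {ζ}).toSubalgebra := hle hx
  rw [IntermediateField.adjoin_simple_toSubalgebra_of_isAlgebraic hζ,
    Algebra.adjoin_singleton_eq_range_aeval] at h1
  obtain ⟨P, hP⟩ := h1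
  exact ⟨P, hP.symm⟩

/-- **[U5]** : every non-unit of `A ∩ K0(ζ)` is divisible by `1 - ζ`. -/
theorem div_mem {q : ℕ} (hq : q.Prime) (hA : A.LiesOverPrime q)
    (h : ∀ σ ∈ A.inertiaSubgroupIn ℚ, ∀ x ∈ K0, σ x = x)
    {ζ : Kb} (hζ : IsPrimitiveRoot ζ q) {x : Kb} (hx : x ∈ Kz K0 ζ) (hxn : x ∈ A.nonunits) :
    x / (1 - ζ) ∈ A := by
  by_contra hcon
  have hζ1 : 1 - ζ ≠ 0 := sub_ne_zero.2 (hζ.ne_one hq.one_lt).symm
  have hx0 : x ≠ 0 := by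
    rintro rfl
    apply hcon
    rw [zero_div]
    exact A.zero_mem
  have h1 : (x / (1 - ζ))⁻¹ ∈ A.nonunits := (ValuationSubring.inv_mem_nonunits_iff A).2 (Or.inr hcon)
  have h2 : (x / (1 - ζ))⁻¹ ∈ Kz K0 ζ :=
    inv_mem (_root_.div_mem hx (sub_mem (one_mem _) (zeta_mem_Kz ζ)))
  obtain ⟨P, hP⟩ := exists_aeval hx
  obtain ⟨P', hP'⟩ := exists_aeval h2
  refine div_mem_of_aeval hq hA h hζ P P' (hP ▸ hxn) (hP' ▸ h1) ?_
  rw [← hP, ← hP']
  field_simp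

/-! ### the package at the level of the rings `A ∩ K0 ⊆ A ∩ K0'` -/

section Ring

variable {K0' : IntermediateField ℚ Kb} (hle : K0 ≤ K0')

variable (A) in
/-- the inclusion `A ∩ K0 → A ∩ K0'`. -/
def iR : R0 K0 A →+* R0 K0' A where
  toFun x := ⟨IntermediateField.inclusion hle (x : K0), x.2⟩
  map_one' := rfl
  map_mul' _ _ := rfl
  map_zero' := rfl
  map_add' _ _ := rfl

theorem iR_comm (r : R0 K0 A) :
    (IntermediateField.inclusion hle).toRingHom (algebraMap (R0 K0 A) K0 r)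
      = algebraMap (R0 K0' A) K0' (iR A hle r) := rfl

theorem res0_iR (r : R0 K0 A) : res0 K0' A (iR A hle r) = res0 K0 A r := rfl

theorem bcData (D : QE.QData (R0 K0 A) K0 (kA A)) (D' : QE.QData (R0 K0' A) K0' (kA A))
    (hD : D.res = res0 K0 A) (hD' : D'.res = res0 K0' A) :
    BCData D D' (iR A hle) (IntermediateField.inclusion hle).toRingHom where
  comm := iR_comm hle
  res r := by rw [hD, hD']; exact res0_iR hle r

end Ring

variable (A K0) in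
/-- `ζ` as a unit of `A ∩ K0(ζ)`. -/
def zetaR {q : ℕ} (hq : q ≠ 0) {ζ : Kb} (hζ : ζ ^ q = 1) : (R0 (Kz K0 ζ) A)ˣ where
  val := ⟨⟨ζ, zeta_mem_Kz ζ⟩, root_mem A hq hζ⟩
  inv := ⟨⟨ζ⁻¹, inv_mem (zeta_mem_Kz ζ)⟩, root_mem A hq (show ζ⁻¹ ^ q = 1 by rw [inv_pow, hζ, inv_one])⟩
  val_inv := by
    have h0 : ζ ≠ 0 := by
      rintro rfl
      rw [zero_pow hq] at hζ
      exact zero_ne_one hζ
    apply Subtype.ext
    apply Subtype.ext
    exact mul_inv_cancel₀ h0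
  inv_val := by
    have h0 : ζ ≠ 0 := by
      rintro rfl
      rw [zero_pow hq] at hζ
      exact zero_ne_one hζ
    apply Subtype.ext
    apply Subtype.ext
    exact inv_mul_cancel₀ h0

theorem coe_zetaR {q : ℕ} (hq : q ≠ 0) {ζ : Kb} (hζ : ζ ^ q = 1) :
    (((zetaR A K0 hq hζ : R0 (Kz K0 ζ) A) : Kz K0 ζ) : Kb) = ζ := rfl

theorem coe_injective (K1 : IntermediateField ℚ Kb) :
    Function.Injective (fun x : R0 K1 A => ((x : K1) : Kb)) :=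
  fun _ _ h => Subtype.ext (Subtype.ext h)

theorem isPrimitiveRoot_zetaR {q : ℕ} (hq : q ≠ 0) {ζ : Kb} (hζ : IsPrimitiveRoot ζ q) :
    IsPrimitiveRoot (zetaR A K0 hq hζ.pow_eq_one : R0 (Kz K0 ζ) A) q := by
  let φ : R0 (Kz K0 ζ) A →+* Kb := (algebraMap (Kz K0 ζ) Kb).comp (R0 (Kz K0 ζ) A).subtype
  have hφ : Function.Injective φ := coe_injective (A := A) (Kz K0 ζ)
  exact IsPrimitiveRoot.of_map_of_injective (f := φ) hζ hφ

theorem res0_eq_zero_iff (K1 : IntermediateField ℚ Kb) (x : R0 K1 A) :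
    res0 K1 A x = 0 ↔ ((x : K1) : Kb) ∈ A.nonunits := by
  rw [res0, RingHom.comp_apply, IsLocalRing.residue_eq_zero_iff,
    ← ValuationSubring.coe_mem_nonunits_iff]
  rfl

theorem res_zetaR {q : ℕ} (hq : q.Prime) (hA : A.LiesOverPrime q) {ζ : Kb} (hζ : ζ ^ q = 1) :
    res0 (Kz K0 ζ) A (zetaR A K0 hq.ne_zero hζ : R0 (Kz K0 ζ) A) = 1 := by
  have : Fact q.Prime := ⟨hq⟩
  have hchar : CharP (kA A) q := ResField.charP hq hA
  set z := res0 (Kz K0 ζ) A (zetaR A K0 hq.ne_zero hζ : R0 (Kz K0 ζ) A) with hz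
  have h1 : z ^ q = 1 := by
    rw [hz, ← map_pow]
    have : (zetaR A K0 hq.ne_zero hζ : R0 (Kz K0 ζ) A) ^ q = 1 :=
      coe_injective (A := A) (Kz K0 ζ) hζ
    rw [this, map_one]
  have h2 : (z - 1) ^ q = 0 := by
    rw [sub_pow_char, h1, one_pow, sub_self]
  exact sub_eq_zero.1 (pow_eq_zero_iff hq.ne_zero |>.1 h2)

/-- every element of the maximal ideal of `A ∩ K0(ζ)` is divisible by `ζ - 1`. -/
theorem exists_eq_mul {q : ℕ} (hq : q.Prime) (hA : A.LiesOverPrime q)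
    (h : ∀ σ ∈ A.inertiaSubgroupIn ℚ, ∀ x ∈ K0, σ x = x)
    {ζ : Kb} (hζ : IsPrimitiveRoot ζ q) (x : R0 (Kz K0 ζ) A) (hx : res0 (Kz K0 ζ) A x = 0) :
    ∃ d, x = ((zetaR A K0 hq.ne_zero hζ.pow_eq_one : R0 (Kz K0 ζ) A) - 1) * d := by
  rw [res0_eq_zero_iff] at hx
  have h1 := div_mem hq hA h hζ (x : Kz K0 ζ).2 hx
  have hζ1 : 1 - ζ ≠ 0 := sub_ne_zero.2 (hζ.ne_one hq.one_lt).symm
  refine ⟨⟨⟨-(((x : Kz K0 ζ) : Kb) / (1 - ζ)),
    neg_mem (_root_.div_mem (x : Kz K0 ζ).2 (sub_mem (one_mem _) (zeta_mem_Kz ζ)))⟩,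
    neg_mem h1⟩, ?_⟩
  apply coe_injective (A := A) (Kz K0 ζ)
  show ((x : Kz K0 ζ) : Kb) = (ζ - 1) * -(((x : Kz K0 ζ) : Kb) / (1 - ζ))
  field_simp
  ring

/-- **[U5]** in the shape of `Mid` / `TEmb3`. -/
theorem exists_c0 {q : ℕ} (hq : q.Prime) (hA : A.LiesOverPrime q)
    (h : ∀ σ ∈ A.inertiaSubgroupIn ℚ, ∀ x ∈ K0, σ x = x)
    {ζ : Kb} (hζ : IsPrimitiveRoot ζ q)
    (D' : QE.QData (R0 (Kz K0 ζ) A) (Kz K0 ζ) (kA A)) (hD' : D'.res = res0 (Kz K0 ζ) A) :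
    ∃ c0, (zetaR A K0 hq.ne_zero hζ.pow_eq_one : R0 (Kz K0 ζ) A) - 1 = D'.ϖ * c0 ∧
      D'.res c0 ≠ 0 := by
  set π := (zetaR A K0 hq.ne_zero hζ.pow_eq_one : R0 (Kz K0 ζ) A) - 1 with hπ
  have hπ0 : π ≠ 0 := by
    rw [hπ, sub_ne_zero]
    exact (isPrimitiveRoot_zetaR hq.ne_zero hζ).ne_one hq.one_lt
  have h1 : π ∈ RingHom.ker D'.res := by
    rw [RingHom.mem_ker, hD', hπ, map_sub, map_one, res_zetaR hq hA, sub_self]
  rw [D'.ker_res, Ideal.mem_span_singleton'] at h1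
  obtain ⟨c0, hc0⟩ := h1
  have h2 : D'.ϖ ∈ RingHom.ker D'.res := by
    rw [D'.ker_res]
    exact Ideal.mem_span_singleton_self _
  rw [RingHom.mem_ker, hD'] at h2
  obtain ⟨d, hd⟩ := exists_eq_mul hq hA h hζ D'.ϖ h2
  refine ⟨c0, by rw [← hc0, mul_comm], fun h0 => ?_⟩
  have h3 : π * (d * c0) = π * 1 := by
    rw [mul_one, ← mul_assoc, ← hd, mul_comm, hc0]
  have h4 := mul_left_cancel₀ hπ0 h3
  have h5 := congrArg D'.res h4
  rw [map_mul, h0, mul_zero, map_one] at h5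
  exact zero_ne_one h5

/-- **[U5], summary** : the ramified companion `K0' = K0(ζ_q)` of an unramified field `K0`. -/
theorem exists_cyc {q : ℕ} (hq : q.Prime) (hA : A.LiesOverPrime q) [FiniteDimensional ℚ K0]
    (h : ∀ σ ∈ A.inertiaSubgroupIn ℚ, ∀ x ∈ K0, σ x = x) :
    ∃ (K0' : IntermediateField ℚ Kb) (hle : K0 ≤ K0') (ζR : (R0 K0' A)ˣ),
      FiniteDimensional ℚ K0' ∧ IsPrimitiveRoot (ζR : R0 K0' A) q ∧ res0 K0' A ζR = 1 ∧
      (S35.GNorm.uK ζR : K0'ˣ) ≠ 1 ∧ (S35.GNorm.uK ζR : K0'ˣ) ^ q = 1 ∧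
      (∀ D' : QE.QData (R0 K0' A) K0' (kA A), D'.res = res0 K0' A →
        ∃ c0, (ζR : R0 K0' A) - 1 = D'.ϖ * c0 ∧ D'.res c0 ≠ 0) ∧
      (∀ (D : QE.QData (R0 K0 A) K0 (kA A)) (D' : QE.QData (R0 K0' A) K0' (kA A)),
        D.res = res0 K0 A → D'.res = res0 K0' A →
        BCData D D' (iR A hle) (IntermediateField.inclusion hle).toRingHom) := by
  have : NeZero q := ⟨hq.ne_zero⟩
  obtain ⟨ζ, hζ⟩ := HasEnoughRootsOfUnity.exists_primitiveRoot Kb q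
  have hprim := isPrimitiveRoot_zetaR (A := A) (K0 := K0) hq.ne_zero hζ
  refine ⟨Kz K0 ζ, le_Kz ζ, zetaR A K0 hq.ne_zero hζ.pow_eq_one, finiteDimensional_Kz ζ,
    hprim, res_zetaR hq hA _, ?_, ?_,
    fun D' hD' => exists_c0 hq hA h hζ D' hD', fun D D' hD hD' => bcData _ D D' hD hD'⟩
  · intro h1
    have h2 := congrArg (fun u : (Kz K0 ζ)ˣ => ((u : Kz K0 ζ) : Kb)) h1
    exact hζ.ne_one hq.one_lt h2
  · apply Units.ext
    apply Subtype.ext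
    exact hζ.pow_eq_one

end Fermat.Agent.S36.UnrCyc
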