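import Mathlib
import Fermat.Prelude.Def_FLTPrelim_Ramification

/-!
# S36, block G-UNR : number fields fixed by the inertia group
-/

set_option autoImplicit false

namespace Fermat.Agent.S36

/-- `K0` is fixed pointwise by the inertia group of `A`. -/
def IsUnr (K0 : IntermediateField ℚ (AlgebraicClosure ℚ))
    (A : ValuationSubring (AlgebraicClosure ℚ)) : Prop :=
  ∀ σ ∈ A.inertiaSubgroupIn ℚ, ∀ x ∈ K0, σ x = x

theorem IsUnr.mono {K0 K1 : IntermediateField ℚ (AlgebraicClosure ℚ)}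
    {A : ValuationSubring (AlgebraicClosure ℚ)} (h : IsUnr K1 A) (hle : K0 ≤ K1) : IsUnr K0 A :=
  fun σ hσ x hx => h σ hσ x (hle hx)

theorem isUnr_iff_le_fixedField (K0 : IntermediateField ℚ (AlgebraicClosure ℚ))
    (A : ValuationSubring (AlgebraicClosure ℚ)) :
    IsUnr K0 A ↔ K0 ≤ IntermediateField.fixedField (A.inertiaSubgroupIn ℚ) := by
  constructor
  · intro h x hx
    rw [IntermediateField.mem_fixedField_iff]
    exact fun σ hσ => h σ hσ x hx
  · intro h σ hσ x hx
    exact (IntermediateField.mem_fixedField_iff _ _).1 (h hx) σ hσ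

theorem IsUnr.sup {K0 K1 : IntermediateField ℚ (AlgebraicClosure ℚ)}
    {A : ValuationSubring (AlgebraicClosure ℚ)} (h0 : IsUnr K0 A) (h1 : IsUnr K1 A) :
    IsUnr (K0 ⊔ K1) A := by
  rw [isUnr_iff_le_fixedField] at *
  exact sup_le h0 h1

theorem isUnr_bot (A : ValuationSubring (AlgebraicClosure ℚ)) : IsUnr ⊥ A := by
  rw [isUnr_iff_le_fixedField]
  exact bot_le

theorem isUnr_adjoin {S : Set (AlgebraicClosure ℚ)} {A : ValuationSubring (AlgebraicClosure ℚ)}
    (h : ∀ σ ∈ A.inertiaSubgroupIn ℚ, ∀ x ∈ S, σ x = x) :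
    IsUnr (IntermediateField.adjoin ℚ S) A := by
  rw [isUnr_iff_le_fixedField, IntermediateField.adjoin_le_iff]
  intro x hx
  exact (IntermediateField.mem_fixedField_iff _ _).2 fun σ hσ => h σ hσ x hx

end Fermat.Agent.S36
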