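import Fermat.Agent.S36.UnrFull
import Fermat.Agent.S36.FixU
import Fermat.Agent.S34.NGal
import Fermat.Agent.Lib.Frobenius

/-!
# S36, block G-UNR : the Frobenius over an unramified field

`S34.exists_tAut` needs a normal field; an unramified field is not normal in general (and its
normal closure need not be unramified at `A`).  We use instead the fields stable under the
decomposition group of `A` : `clo A K0` is the subfield of the normal closure of `K0` fixed by the
inertia group.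
-/

set_option autoImplicit false
set_option linter.unusedVariables false

noncomputable section

namespace Fermat.Agent.S36

open ModularCurve AlgebraicCurve Polynomial IntermediateField
open Fermat.Agent.S24 Fermat.Agent.S28 Fermat.Agent.ES Fermat.Agent.ES.QE Fermat.Agent.ES.Model
  Fermat.Agent.ES.IDvr Fermat.Agent.ES.Inst Fermat.Agent.S34
open Fermat.Agent.S34.WK

/-- stability under the decomposition group of `A`. -/
def Stab (A : ValuationSubring Kb) (K0 : IntermediateField ℚ Kb) : Prop :=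
  ∀ φ ∈ A.decompositionSubgroup ℚ, ∀ x ∈ K0, φ x ∈ K0

/-- the part of the normal closure of `K0` fixed by the inertia group of `A`. -/
def clo (A : ValuationSubring Kb) (K0 : IntermediateField ℚ Kb) : IntermediateField ℚ Kb :=
  IntermediateField.normalClosure ℚ K0 Kb ⊓ IntermediateField.fixedField (A.inertiaSubgroupIn ℚ)

namespace UnrFrob

variable {A : ValuationSubring Kb} {K0 : IntermediateField ℚ Kb}

theorem mem_clo {x : Kb} : x ∈ clo A K0 ↔
    x ∈ IntermediateField.normalClosure ℚ K0 Kb ∧ ∀ σ ∈ A.inertiaSubgroupIn ℚ, σ x = x := by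
  rw [clo, IntermediateField.mem_inf, IntermediateField.mem_fixedField_iff]

theorem le_clo (h : Unr A K0) : K0 ≤ clo A K0 := fun x hx =>
  mem_clo.2 ⟨K0.le_normalClosure hx, fun σ hσ => h σ hσ x hx⟩

theorem unr_clo : Unr A (clo A K0) := fun σ hσ x hx => (mem_clo.1 hx).2 σ hσ

theorem finiteDimensional_clo [FiniteDimensional ℚ K0] : FiniteDimensional ℚ (clo A K0) := by
  have h : FiniteDimensional ℚ (IntermediateField.normalClosure ℚ K0 Kb) := inferInstance
  have hle : clo A K0 ≤ IntermediateField.normalClosure ℚ K0 Kb := inf_le_left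
  exact FiniteDimensional.of_injective (IntermediateField.inclusion hle).toLinearMap
    (IntermediateField.inclusion hle).injective

/-- the inertia group is normalised by the decomposition group. -/
theorem conj_mem {φ σ : GQ} (hφ : φ ∈ A.decompositionSubgroup ℚ)
    (hσ : σ ∈ A.inertiaSubgroupIn ℚ) : φ⁻¹ * σ * φ ∈ A.inertiaSubgroupIn ℚ := by
  obtain ⟨t, ht, rfl⟩ := hσ
  have hn : (A.inertiaSubgroup ℚ).Normal := by
    unfold ValuationSubring.inertiaSubgroup
    infer_instance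
  refine ⟨(⟨φ, hφ⟩ : A.decompositionSubgroup ℚ)⁻¹ * t * ⟨φ, hφ⟩, ?_, rfl⟩
  have := hn.conj_mem t ht (⟨φ, hφ⟩ : A.decompositionSubgroup ℚ)⁻¹
  rwa [inv_inv] at this

theorem stab_clo : Stab A (clo A K0) := by
  intro φ hφ x hx
  obtain ⟨h1, h2⟩ := mem_clo.1 hx
  have h1' : Algebra.IsAlgebraic ℚ Kb := AlgebraicClosure.isAlgebraic ℚ
  have h2' : IsAlgClosure ℚ Kb := ⟨inferInstance, inferInstance⟩
  have h3' : Normal ℚ Kb := IsAlgClosure.normal ℚ Kb
  have h4' : Normal ℚ (IntermediateField.normalClosure ℚ K0 Kb) := by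
    convert normalClosure.normal ℚ K0 Kb
    exact Subsingleton.elim _ _
  refine mem_clo.2 ⟨?_, fun σ hσ => ?_⟩
  · have := AlgEquiv.restrictNormal_commutes φ (IntermediateField.normalClosure ℚ K0 Kb) ⟨x, h1⟩
    have e : φ x = ((AlgEquiv.restrictNormal φ (IntermediateField.normalClosure ℚ K0 Kb) ⟨x, h1⟩ :
        IntermediateField.normalClosure ℚ K0 Kb) : Kb) := this.symm
    rw [e]
    exact Subtype.mem _
  · have h := h2 _ (conj_mem hφ hσ)
    have e : (φ⁻¹ * σ * φ) x = φ⁻¹ (σ (φ x)) := rfl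
    rw [e] at h
    have := congrArg φ h
    rwa [show φ (φ⁻¹ (σ (φ x))) = σ (φ x) from φ.apply_symm_apply _] at this

/-- `φ` restricted to a stable field. -/
def sK (K0 : IntermediateField ℚ Kb) (φ : GQ) (h1 : ∀ x ∈ K0, φ x ∈ K0)
    (h2 : ∀ x ∈ K0, φ⁻¹ x ∈ K0) : K0 ≃+* K0 where
  toFun x := ⟨φ x, h1 x x.2⟩
  invFun x := ⟨φ⁻¹ x, h2 x x.2⟩
  left_inv x := Subtype.ext (φ.symm_apply_apply _)
  right_inv x := Subtype.ext (φ.apply_symm_apply _)
  map_mul' a b := Subtype.ext (map_mul φ _ _)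
  map_add' a b := Subtype.ext (map_add φ _ _)

/-- `φ` restricted to `R0 K0 A`. -/
def sR (K0 : IntermediateField ℚ Kb) (A : ValuationSubring Kb) (φ : GQ)
    (hφ : φ ∈ A.decompositionSubgroup ℚ) (h1 : ∀ x ∈ K0, φ x ∈ K0)
    (h2 : ∀ x ∈ K0, φ⁻¹ x ∈ K0) : R0 K0 A ≃+* R0 K0 A where
  toFun r := ⟨sK K0 φ h1 h2 r, by
    rw [mem_R0]
    exact NGal.map_mem hφ r.2⟩
  invFun r := ⟨(sK K0 φ h1 h2).symm r, by
    rw [mem_R0]
    exact NGal.map_mem (inv_mem hφ) r.2⟩
  left_inv r := Subtype.ext ((sK K0 φ h1 h2).symm_apply_apply _)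
  right_inv r := Subtype.ext ((sK K0 φ h1 h2).apply_symm_apply _)
  map_mul' a b := Subtype.ext (map_mul (sK K0 φ h1 h2) _ _)
  map_add' a b := Subtype.ext (map_add (sK K0 φ h1 h2) _ _)

end UnrFrob

open UnrFrob

/-- `S34.exists_tAut` over a field stable under the decomposition group. -/
theorem exists_tAut_of_stab {M0 q : ℕ} [NeZero M0] [NeZero q] {K0 : IntermediateField ℚ Kb}
    {A : ValuationSubring Kb} (hst : Stab A K0) [IsDiscreteValuationRing (R0 K0 A)]
    (σ : GQ) (hσ : σ ∈ A.decompositionSubgroup ℚ)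
    (D : QData (R0 K0 A) K0 (kA A)) (hF : D.F0 = F0 K0 M0) (hres : D.res = res0 K0 A)
    (T : Two D q) (hT : T.F = F0 K0 (M0 * q)) :
    ∃ S : TAut T, (∀ x : K0, ((S.sK x : K0) : Kb) = σ (x : Kb)) ∧
      (∀ (a : A) (ha : σ (a : Kb) ∈ A),
        S.sk (IsLocalRing.residue A a) = IsLocalRing.residue A ⟨σ (a : Kb), ha⟩) := by
  have h1 := hst σ hσ
  have h2 := hst σ⁻¹ (inv_mem hσ)
  refine ⟨{ sK := sK K0 σ h1 h2
            sR := sR K0 A σ hσ h1 h2
            sk := NGal.sk A σ hσ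
            hK := fun r => rfl
            hk := fun r => ?_
            map_F0 := fun f => ?_
            map_F := fun f => ?_ }, fun _ => rfl, NGal.sk_residue A σ hσ⟩
  · rw [hres]
    have h := NGal.sk_residue A σ hσ (incl K0 A r) (NGal.map_mem hσ (incl K0 A r).2)
    refine h.trans ?_
    exact congrArg (IsLocalRing.residue A) (Subtype.ext rfl)
  · rw [hF]
    exact NGal.coeffMap_mem_F0_iff _ _ f
  · rw [hT]
    exact NGal.coeffMap_mem_F0_iff _ _ f

/-- `FixK0` is antitone in the field. -/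
theorem FixK0.anti {m c0 M0 q : ℕ} [NeZero (M0 * q)] [NeZero q] {K0 K0' : IntermediateField ℚ Kb}
    (hle : K0 ≤ K0') (h : FixK0 m c0 M0 q K0') : FixK0 m c0 M0 q K0 := by
  intro u hu hd ⟨k1, z1, hz1, hd1, e1⟩ ⟨k2, z2, hz2, hd2, e2⟩
  exact h u hu (InstUp.IsDef.mono hle hd) ⟨k1, z1, hz1, InstUp.IsDef.mono hle hd1, e1⟩
    ⟨k2, z2, hz2, InstUp.IsDef.mono hle hd2, e2⟩

/-- **descent** for `ClaimA`, only the fields stable under the decomposition group. -/
theorem claimA_of_fixK0_stab (p M0 q : ℕ) [NeZero (M0 * q)] [NeZero q] (hp : p.Prime)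
    (hq : q.Prime) (hqp : q ≠ p) (A : ValuationSubring Kb) (hA : A.LiesOverPrime q) (c0 : ℕ)
    (hc0 : 0 < c0)
    (h : ∀ m : ℕ, ¬ q ∣ m → ∃ K1 : IntermediateField ℚ Kb, FiniteDimensional ℚ K1 ∧ Unr A K1 ∧
      ∀ K0 : IntermediateField ℚ Kb, K1 ≤ K0 → FiniteDimensional ℚ K0 → Unr A K0 → Stab A K0 →
        FixK0 m c0 M0 q K0) : ClaimA p M0 q A := by
  refine claimA_of_fixK0 p M0 q hp hq hqp A hA c0 hc0 fun m hm => ?_
  obtain ⟨K1, hK1, hu1, H⟩ := h m hm
  refine ⟨K1, hK1, hu1, fun K0 hle hK0 hu0 => ?_⟩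
  exact (H (clo A K0) (hle.trans (le_clo hu0)) finiteDimensional_clo unr_clo stab_clo).anti
    (le_clo hu0)

/-- **The Frobenius** over a stable field. -/
theorem exists_frob_of_stab {M0 q : ℕ} [NeZero M0] [NeZero q] (hq : q.Prime)
    {K0 : IntermediateField ℚ Kb} {A : ValuationSubring Kb} (hA : A.LiesOverPrime q)
    (hst : Stab A K0) [IsDiscreteValuationRing (R0 K0 A)]
    (D : QData (R0 K0 A) K0 (kA A)) (hF : D.F0 = F0 K0 M0) (hres : D.res = res0 K0 A)
    (T : Two D q) (hT : T.F = F0 K0 (M0 * q)) :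
    ∃ Φ : TAut T, (∀ c, Φ.sk c = c ^ q) ∧
      ∀ x : LaurentSeries ℤ,
        coeffMap (Φ.sR : R0 K0 A →+* R0 K0 A) (zS (R0 K0 A) x) = zS (R0 K0 A) x := by
  obtain ⟨φ, hφ⟩ := Lib.Frobenius.exists_isFrobeniusAt A hq hA
  obtain ⟨Φ, -, hΦk⟩ := exists_tAut_of_stab hst φ hφ.mem_decompositionSubgroup D hF hres T hT
  exact ⟨Φ, sk_of_frobenius φ hφ Φ hΦk, fun x => sR_zS Φ x⟩

end Fermat.Agent.S36
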