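import Fermat.Agent.S36.UnrAll
import Fermat.Agent.S36.UnrCyc
import Fermat.Agent.S36.UnrZeta
import Fermat.Agent.S36.TInst

/-!
# S36, block G-UNR : the whole instance layer of levels `M₀`, `M₀ q`, `M₀ q²`

`exists_full_layer` : over every finite `K0 ⊇ K1` unramified at `A` : the objects of
`exists_unr_layer` (`D`, `T`, `X`, `y`), the ramified companion `K0' = K0(ζ_q)` with `ζR`, `D'`,
the structure `H : Three T i (uK ζR)` and a primitive `m`-th root of unity in `A ∩ K0`.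
-/

set_option autoImplicit false

noncomputable section

namespace Fermat.Agent.S36

open ModularCurve AlgebraicCurve Polynomial IntermediateField
open Fermat.Agent.S24 Fermat.Agent.S28 Fermat.Agent.ES Fermat.Agent.ES.QE Fermat.Agent.ES.Model
  Fermat.Agent.ES.IDvr Fermat.Agent.ES.Inst Fermat.Agent.S34
open Fermat.Agent.S34.WK

/-- a primitive `m`-th root of unity in `A ∩ K0` (`K0` contains the `m`-th roots of unity). -/
theorem UnrFull.exists_zeta (m : ℕ) (hm : m ≠ 0) (A : ValuationSubring Kb)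
    (K0 : IntermediateField ℚ Kb) (h : ∀ z : Kb, z ^ m = 1 → z ∈ K0) :
    ∃ ζ : (R0 K0 A)ˣ, IsPrimitiveRoot ζ m := by
  have : NeZero m := ⟨hm⟩
  obtain ⟨ζ₁, hprim⟩ := HasEnoughRootsOfUnity.exists_primitiveRoot Kb m
  have hpow : ζ₁ ^ m = 1 := hprim.pow_eq_one
  have hζ₁0 : ζ₁ ≠ 0 := hprim.ne_zero hm
  have hζK0 : ζ₁ ∈ K0 := h ζ₁ hpow
  have hmem : ζ₁ ∈ A := ResField.mem_of_pow_eq_one (A := A) hm hpow
  have hmem' : ζ₁⁻¹ ∈ A := ResField.mem_of_pow_eq_one (A := A) hm (by rw [inv_pow, hpow, inv_one])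
  obtain ⟨ζR, hζR⟩ : ∃ ζR : (R0 K0 A)ˣ, (((ζR : R0 K0 A) : K0) : Kb) = ζ₁ := by
    refine ⟨⟨⟨⟨ζ₁, hζK0⟩, hmem⟩, ⟨⟨ζ₁⁻¹, K0.inv_mem hζK0⟩, hmem'⟩, ?_, ?_⟩, rfl⟩
    · apply Subtype.val_injective
      apply Subtype.val_injective
      exact mul_inv_cancel₀ hζ₁0
    · apply Subtype.val_injective
      apply Subtype.val_injective
      exact inv_mul_cancel₀ hζ₁0
  refine ⟨ζR, ?_⟩
  rw [← IsPrimitiveRoot.coe_units_iff]
  have hinj : Function.Injective ((algebraMap K0 Kb).comp (R0 K0 A).subtype) :=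
    (algebraMap K0 Kb).injective.comp Subtype.val_injective
  refine IsPrimitiveRoot.of_map_of_injective (f := (algebraMap K0 Kb).comp (R0 K0 A).subtype) ?_ hinj
  change IsPrimitiveRoot (((ζR : R0 K0 A) : K0) : Kb) m
  rw [hζR]
  exact hprim

set_option maxHeartbeats 4000000 in
/-- **The instance layer of levels `M₀`, `M₀ q`, `M₀ q²` over an unramified field.** -/
theorem exists_full_layer (m M0 q : ℕ) [NeZero M0] [Fact q.Prime] (hqM : ¬ q ∣ M0)
    (hqm : ¬ q ∣ m) (A : ValuationSubring Kb) (hA : A.LiesOverPrime q) (Z : ZCoord M0 q)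
    (hU : Z.Unram) (hW : WGood M0 q Z.xF) :
    ∃ K1 : IntermediateField ℚ Kb, FiniteDimensional ℚ K1 ∧ Unr A K1 ∧
      ∀ K0 : IntermediateField ℚ Kb, K1 ≤ K0 → FiniteDimensional ℚ K0 → Unr A K0 →
        ∃ (_ : IsDiscreteValuationRing (R0 K0 A))
          (D : QData (R0 K0 A) K0 (kA A)) (T : Two D q) (X : D.Coord)
          (y : LaurentSeries (R0 K0 A)) (hxy : X.xW * y = 1)
          (K0' : IntermediateField ℚ Kb) (hle : K0 ≤ K0')
          (_ : IsDiscreteValuationRing (R0 K0' A)) (ζR : (R0 K0' A)ˣ)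
          (D' : QData (R0 K0' A) K0' (kA A))
          (H : Three T (IntermediateField.inclusion hle).toRingHom (S35.GNorm.uK ζR)),
          -- levels `M₀`, `M₀ q`
          (D.F0 = F0 K0 M0 ∧ D.res = res0 K0 A ∧ D.ϖ = ((q : ℕ) : R0 K0 A) ∧
          T.F = F0 K0 (M0 * q) ∧
          (∀ (f : T.F) (hf : bc K0 (f : LaurentSeries K0) ∈ modularFunctionFieldBar (M0 * q)),
            bc K0 (T.e2 f) = ((Wb M0 q hqM ⟨_, hf⟩ : FF (M0 * q)) : LaurentSeries Kb)) ∧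
          X.xW = zS (R0 K0 A) Z.xZ ∧ y = zS (R0 K0 A) Z.yZ ∧
          bc K0 (X.x : LaurentSeries K0) = (Z.xF : LaurentSeries Kb) ∧
          IsDedekindDomain (X.chart ⧸ Ideal.span {Inst.ϖB X}) ∧
          IsDedekindDomain ((X.inv y hxy).chart ⧸ Ideal.span {Inst.ϖB (X.inv y hxy)}) ∧
          qExpand (kA A) q (D.red X.xW) = D.red X.xW ^ q ∧
          qExpand (kA A) q (D.red y) = D.red y ^ q ∧
          XYData T X ∧ XYData T (X.inv y hxy) ∧ Nonempty D.Theta) ∧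
          -- the ramified companion
          (FiniteDimensional ℚ K0' ∧ IsPrimitiveRoot (ζR : R0 K0' A) q ∧
          D'.F0 = F0 K0' M0 ∧ D'.res = res0 K0' A ∧ D'.res ζR = 1 ∧
          (∃ c0, (ζR : R0 K0' A) - 1 = D'.ϖ * c0 ∧ D'.res c0 ≠ 0) ∧
          BCData D D' (UnrCyc.iR A hle) (IntermediateField.inclusion hle).toRingHom) ∧
          -- level `M₀ q²`
          (H.F = F0 K0 (M0 * q * q) ∧
          (∀ (f : H.F) (hf : bc K0 (f : LaurentSeries K0) ∈ modularFunctionFieldBar (M0 * q * q)),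
            bc K0 (H.eB f) = ((Wb2 M0 q hqM ⟨_, hf⟩ : FF (M0 * q * q)) : LaurentSeries Kb))) ∧
          -- roots of unity of order `m`
          ∃ ζm : (R0 K0 A)ˣ, IsPrimitiveRoot ζm m := by
  have hq : q.Prime := Fact.out
  have hm0 : m ≠ 0 := by
    rintro rfl
    exact hqm (dvd_zero q)
  obtain ⟨K1, hK1, hu1, hL⟩ := exists_unr_layer M0 q hqM A hA Z hU hW
  obtain ⟨K2, hK2, hu2, hQD⟩ := UnrInst.exists_QData_unr M0 q hq hqM A hA
  obtain ⟨K3, hK3, hu3, hz⟩ := exists_unr_zeta hq hA m hqm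
  refine ⟨K1 ⊔ K2 ⊔ K3, inferInstance, (hu1.sup hu2).sup hu3, fun K0 hle hK0 hu0 => ?_⟩
  have hle1 : K1 ≤ K0 := (le_sup_left.trans le_sup_left).trans hle
  have hle2 : K2 ≤ K0 := (le_sup_right.trans le_sup_left).trans hle
  have hle3 : K3 ≤ K0 := le_sup_right.trans hle
  have hdvr := isDVR K0 A hq hA
  obtain ⟨D, T, X, y, hxy, hF, hres, hϖ, hT, hTW, hrest⟩ := hL K0 hK0 hle1 hu0
  obtain ⟨K0', hle', ζR, hK0', hprim, hresζ, hζ1, hζq, hc0, hbc⟩ :=
    UnrCyc.exists_cyc (K0 := K0) hq hA hu0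
  have hdvr' := isDVR K0' A hq hA
  obtain ⟨D', hF', hres'⟩ := hQD K0' hK0' (hle2.trans hle')
  obtain ⟨H, hH, hHW⟩ := exists_three M0 q hqM K0 K0' hle' (S35.GNorm.uK ζR) hζ1 hζq D T hT hTW
  exact ⟨hdvr, D, T, X, y, hxy, K0', hle', hdvr', ζR, D', H,
    ⟨hF, hres, hϖ, hT, hTW, hrest⟩,
    ⟨hK0', hprim, hF', hres', by rw [hres']; exact hresζ, hc0 D' hres', hbc D D' hres hres'⟩,
    ⟨hH, hHW⟩, UnrFull.exists_zeta m hm0 A K0 (fun z hz' => hle3 (hz z hz'))⟩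

end Fermat.Agent.S36
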