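import Fermat.Agent.S34.NTwo
import Fermat.Agent.S36.UnrZeta

/-!
# S36, block G-UNR : `j(T^q)` is integral over `R[j]` for EVERY ring `R` (no `ζ_q` needed)
-/

set_option autoImplicit false
set_option linter.style.haveILetI false

noncomputable section

namespace Fermat.Agent.S36

open ModularCurve AlgebraicCurve Polynomial
open Fermat.Agent.S24 Fermat.Agent.S28 Fermat.Agent.ES Fermat.Agent.ES.QE Fermat.Agent.ES.Inst
  Fermat.Agent.ES.IDvr Fermat.Agent.S34

attribute [local instance] Polynomial.algebra in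
/-- transitivity of integrality along `R[X] → S[X] → B`. -/
theorem isIntegralElem_comp_map {R S B : Type*} [CommRing R] [CommRing S] [CommRing B]
    [Algebra R S] [Algebra.IsIntegral R S] (g : S[X] →+* B) {y : B} (hy : g.IsIntegralElem y) :
    (g.comp (mapRingHom (algebraMap R S))).IsIntegralElem y := by
  letI : Algebra S[X] B := g.toAlgebra
  letI : Algebra R[X] B := (g.comp (mapRingHom (algebraMap R S))).toAlgebra
  haveI : IsScalarTower R[X] S[X] B := IsScalarTower.of_algebraMap_eq fun _ => rfl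
  exact isIntegral_trans (R := R[X]) (A := S[X]) y hy

/-- `j(T^q)` is integral over `ℤ[j]`. -/
theorem jq_int_Z (q : ℕ) [NeZero q] :
    (evS (jqModC ℤ)).IsIntegralElem (qExpand ℤ q (jqModC ℤ)) := by
  have hN : q ≠ 0 := NeZero.ne q
  obtain ⟨ζ₁, hζ₁⟩ := ResField.exists_zetaQ q
  have hpow : ζ₁ ^ q = 1 := by
    apply ResField.iot.injective
    rw [map_pow, hζ₁, map_one]
    exact (IsPrimitiveRoot.coe_units_iff.mpr (Degree.isPrimitiveRoot_zetaC q)).pow_eq_one
  have hζ₁0 : ζ₁ ≠ 0 := by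
    rintro rfl
    rw [zero_pow hN] at hpow
    exact zero_ne_one hpow
  have hint : ∀ z : Kb, z ^ q = 1 → IsIntegral ℤ z := fun z hz =>
    ⟨X ^ q - 1, monic_X_pow_sub_C (1 : ℤ) hN, by simp [hz]⟩
  let Zb := integralClosure ℤ Kb
  obtain ⟨ζR, hζR⟩ : ∃ ζR : Zbˣ, ((ζR : Zb) : Kb) = ζ₁ := by
    refine ⟨⟨⟨ζ₁, hint _ hpow⟩, ⟨ζ₁⁻¹, hint _ (by rw [inv_pow, hpow, inv_one])⟩, ?_, ?_⟩, rfl⟩
    · apply Subtype.val_injective
      exact mul_inv_cancel₀ hζ₁0
    · apply Subtype.val_injective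
      exact inv_mul_cancel₀ hζ₁0
  have hζRpow : ζR ^ q = 1 := by
    ext
    rw [Units.val_pow_eq_pow_val, Units.val_one]
    change ((ζR : Zb) : Kb) ^ q = 1
    rw [hζR, hpow]
  have hR := ResField.transfer (ResField.iot.comp Zb.val.toRingHom)
    (ResField.iot.injective.comp Subtype.val_injective) q ζR (by
      ext
      change ResField.iot ((ζR : Zb) : Kb) = _
      rw [hζR, hζ₁])
  obtain ⟨P, hmon, -, hP⟩ := exists_monic_root q ζR hζRpow hR.1
    (MvPolynomial.X (false, ⟨q, Nat.mem_divisors_self q hN⟩))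
  have e : ev0 Zb q (MvPolynomial.X (false, ⟨q, Nat.mem_divisors_self q hN⟩))
      = coeffMap (algebraMap ℤ Zb) (qExpand ℤ q (jqModC ℤ)) := by
    rw [ev0, MvPolynomial.aeval_X]
    show qExp Zb q (jqModC Zb) = _
    rw [qExp_eq, coeffMap_qExpand, coeffMap_jqModC]
  rw [e] at hP
  have h1 : (evS (jqModC Zb)).IsIntegralElem
      (coeffMap (algebraMap ℤ Zb) (qExpand ℤ q (jqModC ℤ))) := ⟨P, hmon, hP⟩
  have h2 := isIntegralElem_comp_map (R := ℤ) (evS (jqModC Zb)) h1
  have e2 : (evS (jqModC Zb)).comp (mapRingHom (algebraMap ℤ Zb))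
      = (coeffMap (algebraMap ℤ Zb)).comp (evS (jqModC ℤ)) := by
    refine RingHom.ext fun p => ?_
    rw [RingHom.comp_apply, RingHom.comp_apply, coeffMap_evS, coeffMap_jqModC, coe_mapRingHom]
  rw [e2] at h2
  exact RingHom.IsIntegralElem.of_map
    (coeffMap_injective (FaithfulSMul.algebraMap_injective ℤ Zb)) h2

/-- `j(T^q)` is integral over `R[j]`, for every ring `R` and every `R`-algebra `K`. -/
theorem jq_int (R K : Type*) [CommRing R] [CommRing K] [Algebra R K] (q : ℕ) [NeZero q] :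
    ((coeffMap (algebraMap R K)).comp (evS (jqModC R))).IsIntegralElem
      (qExpand K q (jqModC K)) := by
  obtain ⟨P, hmon, hP⟩ := jq_int_Z q
  refine ⟨P.map (mapRingHom (Int.castRingHom R)), hmon.map _, ?_⟩
  rw [eval₂_map]
  have e : ((coeffMap (algebraMap R K)).comp (evS (jqModC R))).comp
      (mapRingHom (Int.castRingHom R)) = (coeffMap (Int.castRingHom K)).comp (evS (jqModC ℤ)) := by
    refine RingHom.ext fun p => ?_
    rw [RingHom.comp_apply, RingHom.comp_apply, RingHom.comp_apply, coeffMap_evS, coeffMap_evS,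
      coeffMap_jqModC, coeffMap_jqModC, coe_mapRingHom, Polynomial.map_map]
    congr 2
    exact RingHom.ext_int _ _
  have e' : qExpand K q (jqModC K) = coeffMap (Int.castRingHom K) (qExpand ℤ q (jqModC ℤ)) := by
    rw [coeffMap_qExpand, coeffMap_jqModC]
  rw [e, e', ← hom_eval₂, hP, map_zero]

/-- **`exists_two` over EVERY field `K0`** (copy of `S34.exists_two`, with `jq_int`). -/
theorem exists_two_any (M0 q : ℕ) [NeZero M0] [NeZero q] (hq : q.Prime) (hqM : ¬ q ∣ M0)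
    (A : ValuationSubring Kb) (W : FF (M0 * q) ≃ₐ[Kb] FF (M0 * q))
    (hWα : ∀ y : FF M0, W (heckeAlphaBar Kb M0 q y) = heckeBetaBar Kb M0 q y)
    (hWβ : ∀ y : FF M0, W (heckeBetaBar Kb M0 q y) = heckeAlphaBar Kb M0 q y)
    (K0 : IntermediateField ℚ Kb) [IsDiscreteValuationRing (R0 K0 A)]
    (D : QData (R0 K0 A) K0 (kA A)) (hF : D.F0 = F0 K0 M0) :
    ∃ T : Two D q, T.F = F0 K0 (M0 * q) ∧
      ∀ (f : T.F) (hf : bc K0 (f : LaurentSeries K0) ∈ modularFunctionFieldBar (M0 * q)),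
        bc K0 (T.e2 f) = ((W ⟨_, hf⟩ : FF (M0 * q)) : LaurentSeries Kb) := by
  have hqK : (q : K0) ≠ 0 := Nat.cast_ne_zero.2 (NeZero.ne q)
  -- the embedding into `FF (M0 * q)`
  let ι : F0 K0 (M0 * q) →+* FF (M0 * q) :=
    ((bc K0).comp (algebraMap (F0 K0 (M0 * q)) (LaurentSeries K0))).codRestrict
      (modularFunctionFieldBar (M0 * q)) (fun f => bc_mem K0 (M0 * q) f.2)
  let ψ : F0 K0 (M0 * q) →+* LaurentSeries Kb :=
    (modularFunctionFieldBar (M0 * q)).val.toRingHom.comp ((W : FF (M0 * q) →+* FF (M0 * q)).comp ι)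
  have hια : ∀ (u : LaurentSeries K0) (hu : u ∈ F0 K0 M0),
      ι ⟨u, F0_le M0 q K0 hu⟩ = heckeAlphaBar Kb M0 q ⟨bc K0 u, bc_mem K0 M0 hu⟩ :=
    fun u hu => Subtype.ext (bc_alpha M0 q K0 hu).symm
  have hιβ : ∀ (u : LaurentSeries K0) (hu : u ∈ F0 K0 M0),
      ι ⟨qExpand K0 q u, V_mem_F0 M0 q K0 hqK hu⟩
        = heckeBetaBar Kb M0 q ⟨bc K0 u, bc_mem K0 M0 hu⟩ :=
    fun u hu => Subtype.ext (bc_beta M0 q K0 hu).symm
  have hψα : ∀ (u : LaurentSeries K0) (hu : u ∈ F0 K0 M0),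
      ψ ⟨u, F0_le M0 q K0 hu⟩ = bc K0 (qExpand K0 q u) := by
    intro u hu
    show ((W (ι ⟨u, F0_le M0 q K0 hu⟩) : FF (M0 * q)) : LaurentSeries Kb) = _
    rw [hια u hu, hWα, bc_beta M0 q K0 hu]
  have hψβ : ∀ (u : LaurentSeries K0) (hu : u ∈ F0 K0 M0),
      ψ ⟨qExpand K0 q u, V_mem_F0 M0 q K0 hqK hu⟩ = bc K0 u := by
    intro u hu
    show ((W (ι ⟨qExpand K0 q u, V_mem_F0 M0 q K0 hqK hu⟩) : FF (M0 * q)) : LaurentSeries Kb) = _
    rw [hιβ u hu, hWβ, bc_alpha M0 q K0 hu]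
  have hj : jqModC K0 ∈ F0 K0 M0 := hF ▸ D.j_mem
  have hmem : ∀ f : F0 K0 (M0 * q), ψ f ∈ (bc K0).fieldRange := by
    intro f
    obtain ⟨a, ha, hf⟩ := span_K0 M0 q hq hqM K0 f.2
    have e : f = ∑ i, (⟨a i, F0_le M0 q K0 (ha i)⟩ : F0 K0 (M0 * q))
        * (⟨qExpand K0 q (jqModC K0), V_mem_F0 M0 q K0 hqK hj⟩ : F0 K0 (M0 * q)) ^ (i : ℕ) := by
      apply Subtype.ext
      rw [IntermediateField.coe_sum, hf]
      rfl
    rw [e, map_sum]
    refine sum_mem fun i _ => ?_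
    rw [map_mul, map_pow, hψα _ (ha i), hψβ _ hj]
    have hr : ∀ z : LaurentSeries K0, bc K0 z ∈ (bc K0).fieldRange := fun z => ⟨z, rfl⟩
    exact mul_mem (hr _) (pow_mem (hr _) _)
  let e2 : F0 K0 (M0 * q) →+* LaurentSeries K0 :=
    ((bc K0).rangeRestrictFieldEquiv.symm : (bc K0).fieldRange →+* LaurentSeries K0).comp
      (ψ.codRestrict (bc K0).fieldRange hmem)
  have he2 : ∀ f, bc K0 (e2 f) = ψ f := fun f =>
    (bc K0).rangeRestrictFieldEquiv_apply_symm_apply _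
  refine ⟨{ F := F0 K0 (M0 * q)
            le := hF ▸ F0_le M0 q K0
            V_mem := fun u hu => V_mem_F0 M0 q K0 hqK (hF ▸ hu)
            e2 := e2
            e2_alpha := fun u hu => bc_injective K0 (by rw [he2]; exact hψα u (hF ▸ hu))
            e2_beta := fun u hu => bc_injective K0 (by rw [he2]; exact hψβ u (hF ▸ hu))
            span := fun f hf => by
              obtain ⟨a, ha, h⟩ := span_K0 M0 q hq hqM K0 hf
              exact ⟨a, fun i => hF ▸ ha i, h⟩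
            jq_int := jq_int (R0 K0 A) K0 q }, rfl, fun f hf => he2 f⟩

/-! ### second version (helper21), kept because both sets of names were announced -/

namespace UnrJq

attribute [local instance] Polynomial.algebra

/-- transitivity of integrality: from `S[x]` down to `ℤ[x]`, `S` integral over `ℤ`. -/
theorem int_desc {S : Type*} [CommRing S] [Algebra.IsIntegral ℤ S] (x y : LaurentSeries S)
    (hy : (evS x).IsIntegralElem y) :
    ((evS x).comp (mapRingHom (algebraMap ℤ S))).IsIntegralElem y := by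
  letI : Algebra S[X] (LaurentSeries S) := (evS x).toAlgebra
  letI : Algebra ℤ[X] (LaurentSeries S) := ((evS x).comp (mapRingHom (algebraMap ℤ S))).toAlgebra
  haveI : IsScalarTower ℤ[X] S[X] (LaurentSeries S) := IsScalarTower.of_algebraMap_eq' rfl
  haveI : Algebra.IsIntegral ℤ[X] S[X] :=
    ⟨fun f => Polynomial.isIntegral_iff_isIntegral_coeff.2
      fun n => Algebra.IsIntegral.isIntegral _⟩
  exact isIntegral_trans (R := ℤ[X]) (A := S[X]) y hy

end UnrJq

/-- the universal integral equation of `j(T^q)` over `ℤ[j]`. -/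
theorem exists_monic_jq (q : ℕ) [NeZero q] :
    ∃ Q : ℤ[X][X], Q.Monic ∧ eval₂ (evS (jqModC ℤ)) (qExpand ℤ q (jqModC ℤ)) Q = 0 := by
  have hN : q ≠ 0 := NeZero.ne q
  let S := integralClosure ℤ ℂ
  have hz : ((zetaC q : ℂˣ) : ℂ) ^ q = 1 :=
    (IsPrimitiveRoot.coe_units_iff.mpr (Degree.isPrimitiveRoot_zetaC q)).pow_eq_one
  have hz' : (((zetaC q)⁻¹ : ℂˣ) : ℂ) ^ q = 1 := by
    rw [← Units.val_pow_eq_pow_val, inv_pow, ← Units.val_one, Units.val_inj, inv_eq_one,
      ← Units.val_inj, Units.val_pow_eq_pow_val, hz, Units.val_one]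
  have hint : ∀ z : ℂ, z ^ q = 1 → IsIntegral ℤ z := fun z hz =>
    IsIntegral.of_pow (Nat.pos_of_ne_zero hN) (hz ▸ isIntegral_one)
  let ζS : Sˣ := ⟨⟨_, hint _ hz⟩, ⟨_, hint _ hz'⟩, Subtype.ext (by simp), Subtype.ext (by simp)⟩
  have hζS : ζS ^ q = 1 := by
    ext
    rw [Units.val_pow_eq_pow_val, Units.val_one]
    exact hz
  have hR := ResField.transfer (algebraMap S ℂ) Subtype.val_injective q ζS (by ext; rfl)
  obtain ⟨P, hmon, -, hP⟩ := exists_monic_root q ζS hζS hR.1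
    (MvPolynomial.X (false, ⟨q, Nat.mem_divisors_self q hN⟩))
  have e : ev0 S q (MvPolynomial.X (false, ⟨q, Nat.mem_divisors_self q hN⟩))
      = qExpand S q (jqModC S) := by
    rw [ev0, MvPolynomial.aeval_X]
    show qExp S q (jqModC S) = _
    rw [qExp_eq]
  rw [e] at hP
  obtain ⟨Q, hQ, hQ0⟩ := UnrJq.int_desc (jqModC S) (qExpand S q (jqModC S)) ⟨P, hmon, hP⟩
  refine ⟨Q, hQ, ?_⟩
  apply coeffMap_injective (f := algebraMap ℤ S) (FaithfulSMul.algebraMap_injective ℤ S)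
  rw [map_zero, ← hQ0, hom_eval₂, coeffMap_qExpand, coeffMap_jqModC]
  congr 1
  refine RingHom.ext fun p => ?_
  change coeffMap (algebraMap ℤ S) (evS (jqModC ℤ) p) = evS (jqModC S) (p.map (algebraMap ℤ S))
  rw [coeffMap_evS, coeffMap_jqModC]

/-- `j(T^q)` is integral over `R[j]`, for every `R → K`. -/
theorem jq_isIntegralElem (q : ℕ) [NeZero q] (R K : Type*) [CommRing R] [CommRing K]
    [Algebra R K] :
    ((coeffMap (algebraMap R K)).comp (evS (jqModC R))).IsIntegralElem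
      (qExpand K q (jqModC K)) := by
  obtain ⟨Q, hQ, hQ0⟩ := exists_monic_jq q
  refine ⟨Q.map (mapRingHom (algebraMap ℤ R)), hQ.map _, ?_⟩
  rw [eval₂_map]
  have h := congrArg (coeffMap (algebraMap ℤ K)) hQ0
  rw [map_zero, hom_eval₂, coeffMap_qExpand, coeffMap_jqModC] at h
  rw [← h]
  congr 1
  refine RingHom.ext fun p => ?_
  change coeffMap (algebraMap R K) (evS (jqModC R) (p.map (algebraMap ℤ R))) =
    coeffMap (algebraMap ℤ K) (evS (jqModC ℤ) p)
  rw [coeffMap_evS, coeffMap_evS, coeffMap_jqModC, coeffMap_jqModC, Polynomial.map_map,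
    ← IsScalarTower.algebraMap_eq]

/-- `S34.exists_K1_jq` without any condition on `K0`. -/
theorem jq_int_K0 (q : ℕ) [NeZero q] (A : ValuationSubring Kb) (K0 : IntermediateField ℚ Kb) :
    ((coeffMap (algebraMap (R0 K0 A) K0)).comp (evS (jqModC (R0 K0 A)))).IsIntegralElem
      (qExpand K0 q (jqModC K0)) :=
  jq_isIntegralElem q (R0 K0 A) K0

end Fermat.Agent.S36
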