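import Fermat.Agent.S36.UnrUnif
import Fermat.Agent.S36.BC
import Fermat.Agent.ES.InstDefs

/-!
# S36, block G-UNR, [U4] : the ramified pair `(K0, K0(ζ_q))`, `K0` fixed by the inertia group

`ζ - 1` is a uniformiser of `A ∩ K0(ζ)`; consequences for the data `D'` over `A ∩ K0(ζ)`.
-/

set_option autoImplicit false
set_option linter.style.haveILetI false
set_option linter.unusedSectionVars false

noncomputable section

namespace Fermat.Agent.S36.UnrPair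

open IsLocalRing Polynomial Fermat.Agent.ES

local notation "Kb" => AlgebraicClosure ℚ

/-- a sum of terms with pairwise distinct valuations has the valuation of one of its terms -/
theorem exists_map_sum_eq {L Γ₀ : Type*} [Field L] [LinearOrderedCommGroupWithZero Γ₀]
    (v : Valuation L Γ₀) {ι : Type*} (s : Finset ι) (t : ι → L)
    (hd : ∀ i ∈ s, ∀ j ∈ s, i ≠ j → t i ≠ 0 → v (t i) ≠ v (t j))
    (h0 : ∑ i ∈ s, t i ≠ 0) : ∃ i ∈ s, t i ≠ 0 ∧ v (∑ i ∈ s, t i) = v (t i) := by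
  classical
  have hne : s.Nonempty := by
    rw [Finset.nonempty_iff_ne_empty]
    rintro rfl
    exact h0 Finset.sum_empty
  obtain ⟨j, hj, hmax⟩ := Finset.exists_max_image s (fun i => v (t i)) hne
  have htj : t j ≠ 0 := by
    intro h
    apply h0
    refine Finset.sum_eq_zero fun i hi => ?_
    have h1 := hmax i hi
    simp only [h, map_zero, le_zero_iff] at h1
    exact (v.zero_iff).1 h1
  refine ⟨j, hj, htj, v.map_sum_eq_of_lt hj fun i hi => ?_⟩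
  rw [Finset.mem_sdiff, Finset.mem_singleton] at hi
  exact lt_of_le_of_ne (hmax i hi.1) (fun h => hd j hj i hi.1 (Ne.symm hi.2) htj h.symm)

variable (A : ValuationSubring Kb) {q : ℕ} (hq : q.Prime) (hA : A.LiesOverPrime q)

include hq hA

/-- the values of an unramified number field are powers of `v(q)` -/
theorem exists_zpow_of_unr (K0 : IntermediateField ℚ Kb) [FiniteDimensional ℚ K0]
    (h : ∀ σ ∈ A.inertiaSubgroupIn ℚ, ∀ x ∈ K0, σ x = x) {a : Kb} (ha : a ∈ K0) (ha0 : a ≠ 0) :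
    ∃ n : ℤ, A.valuation a = A.valuation (q : Kb) ^ n := by
  haveI := IDvr.isDVR K0 A hq hA
  have hirr := UnrUnif.irreducible_natCast A hq hA K0 h
  have key : ∀ b : IDvr.R0 K0 A, b ≠ 0 →
      ∃ n : ℕ, A.valuation (((b : K0) : Kb)) = A.valuation (q : Kb) ^ n := by
    intro b hb
    obtain ⟨n, u, hu⟩ := IsDiscreteValuationRing.eq_unit_mul_pow_irreducible hb hirr
    refine ⟨n, ?_⟩
    have h1 : (((b : K0) : Kb)) = ((IDvr.incl K0 A (u : IDvr.R0 K0 A) : A) : Kb) * (q : Kb) ^ n := by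
      rw [hu]
      simp
    have h2 : IsUnit (IDvr.incl K0 A (u : IDvr.R0 K0 A)) := u.isUnit.map _
    rw [h1, map_mul, map_pow, (A.valuation_eq_one_iff _).1 h2, one_mul]
  rcases (IDvr.R0 K0 A).mem_or_inv_mem ⟨a, ha⟩ with h1 | h1
  · obtain ⟨n, hn⟩ := key ⟨⟨a, ha⟩, h1⟩ (by
      intro h0
      exact ha0 (congrArg (fun z : IDvr.R0 K0 A => ((z : K0) : Kb)) h0))
    exact ⟨n, by rw [zpow_natCast]; exact hn⟩
  · obtain ⟨n, hn⟩ := key ⟨(⟨a, ha⟩ : K0)⁻¹, h1⟩ (by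
      intro h0
      have h2 := congrArg (fun z : IDvr.R0 K0 A => ((z : K0) : Kb)) h0
      simp only [IntermediateField.coe_inv] at h2
      exact ha0 (inv_eq_zero.1 h2))
    refine ⟨-n, ?_⟩
    simp only [IntermediateField.coe_inv, map_inv₀] at hn
    rw [zpow_neg, zpow_natCast, ← hn, inv_inv]

omit hq hA in
theorem zeta_mem {ζ : Kb} (hq : q.Prime) (hζ : IsPrimitiveRoot ζ q) : ζ ∈ A := by
  have h1 : IsIntegral ℤ ζ := IsIntegral.of_pow hq.pos (hζ.pow_eq_one ▸ isIntegral_one)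
  have h2 : IsIntegral A ζ := h1.tower_top
  obtain ⟨y, hy⟩ := IsIntegrallyClosed.isIntegral_iff.mp h2
  exact hy ▸ y.2

omit hA in
/-- `v(ζ - 1)^(q-1) = v(q)` -/
theorem val_pow {ζ : Kb} (hζ : IsPrimitiveRoot ζ q) :
    A.valuation (ζ - 1) ^ (q - 1) = A.valuation (q : Kb) := by
  have hζA : IsPrimitiveRoot (⟨ζ, zeta_mem A hq hζ⟩ : A) q :=
    IsPrimitiveRoot.of_map_of_injective (f := A.subtype) hζ Subtype.val_injective
  obtain ⟨n, rfl⟩ : ∃ n, q = n + 1 := ⟨q - 1, by have := hq.pos; omega⟩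
  have h1 := hζA.prod_pow_sub_one_eq_order
  have h2 : Associated (∏ _k ∈ Finset.range n, ((⟨ζ, zeta_mem A hq hζ⟩ : A) - 1))
      (∏ k ∈ Finset.range n, ((⟨ζ, zeta_mem A hq hζ⟩ : A) ^ (k + 1) - 1)) := by
    refine Associated.prod _ _ _ fun k hk => ?_
    refine hζA.associated_sub_one_pow_sub_one_of_coprime ?_
    have hk' := Finset.mem_range.1 hk
    exact (Nat.coprime_of_lt_prime (Nat.succ_ne_zero k) (by omega) hq).symm
  rw [Finset.prod_const, Finset.card_range] at h2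
  have h3 : ((n + 1 : ℕ) : A) = (-1) ^ n *
      ∏ k ∈ Finset.range n, ((⟨ζ, zeta_mem A hq hζ⟩ : A) ^ (k + 1) - 1) := by
    rw [h1]; push_cast; ring
  have h4 : Associated (((⟨ζ, zeta_mem A hq hζ⟩ : A) - 1) ^ n) ((n + 1 : ℕ) : A) := by
    refine h2.trans ?_
    rw [h3]
    exact (associated_isUnit_mul_left_iff ((isUnit_one.neg).pow n)).2 (Associated.refl _) |>.symm
  obtain ⟨u, hu⟩ := h4
  have h5 := congrArg (fun z : A => A.valuation (z : Kb)) hu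
  have h6 : A.valuation (((((⟨ζ, zeta_mem A hq hζ⟩ : A) - 1) ^ n * (u : A) : A)) : Kb) =
      A.valuation (ζ - 1) ^ n := by
    have : (((((⟨ζ, zeta_mem A hq hζ⟩ : A) - 1) ^ n * (u : A) : A)) : Kb) =
        (ζ - 1) ^ n * ((u : A) : Kb) := rfl
    rw [this, map_mul, map_pow, (A.valuation_eq_one_iff _).1 u.isUnit, mul_one]
  rw [Nat.add_sub_cancel, ← h6]
  exact h5

theorem val_lt_one {ζ : Kb} (hζ : IsPrimitiveRoot ζ q) : A.valuation (ζ - 1) < 1 := by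
  by_contra hcon
  rw [not_lt] at hcon
  have h1 : A.valuation (q : Kb) < 1 := A.mem_nonunits_iff.1 hA
  rw [← val_pow A hq hζ] at h1
  exact absurd (one_le_pow₀ hcon) (not_le.2 h1)

omit hA in
theorem val_ne_zero {ζ : Kb} (hζ : IsPrimitiveRoot ζ q) : A.valuation (ζ - 1) ≠ 0 := by
  rw [Valuation.ne_zero_iff, sub_ne_zero]
  exact hζ.ne_one hq.one_lt

omit hA in
/-- elements of `K0(ζ)` are `K0`-combinations of `(ζ-1)^i`, `i < q - 1` -/
theorem exists_rep (K0 : IntermediateField ℚ Kb) {ζ : Kb} (hζ : IsPrimitiveRoot ζ q) {x : Kb}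
    (hx : x ∈ K0 ⊔ IntermediateField.adjoin ℚ {ζ}) :
    ∃ a : ℕ → K0, x = ∑ i ∈ Finset.range (q - 1), (a i : Kb) * (ζ - 1) ^ i := by
  rw [← IntermediateField.restrictScalars_adjoin_eq_sup, IntermediateField.mem_restrictScalars,
    ← IntermediateField.mem_toSubalgebra,
    IntermediateField.adjoin_simple_toSubalgebra_of_isAlgebraic
      (Algebra.IsAlgebraic.isAlgebraic (R := K0) ζ),
    Algebra.adjoin_singleton_eq_range_aeval] at hx
  obtain ⟨p, rfl⟩ := hx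
  have hΦ : (cyclotomic q K0).Monic := cyclotomic.monic q K0
  have hdeg : (cyclotomic q K0).natDegree = q - 1 := by
    rw [natDegree_cyclotomic, Nat.totient_prime hq]
  have hroot : aeval ζ (cyclotomic q K0) = 0 := by
    rw [aeval_def, eval₂_eq_eval_map, map_cyclotomic]
    exact hζ.isRoot_cyclotomic hq.pos
  have h1 : aeval ζ p = aeval ζ (p %ₘ cyclotomic q K0) :=
    (aeval_modByMonic_eq_self_of_root hroot).symm
  have h2 : aeval ζ (p %ₘ cyclotomic q K0) =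
      aeval (ζ - 1) ((p %ₘ cyclotomic q K0).comp (X + C 1)) := by
    rw [aeval_comp]
    simp
  have hne1 : cyclotomic q K0 ≠ 1 := by
    intro h
    rw [h, natDegree_one] at hdeg
    have := hq.two_le
    omega
  have h3 : ((p %ₘ cyclotomic q K0).comp (X + C 1)).natDegree < q - 1 := by
    refine lt_of_le_of_lt natDegree_comp_le ?_
    rw [natDegree_X_add_C, mul_one, ← hdeg]
    exact natDegree_modByMonic_lt p hΦ hne1
  refine ⟨fun i => ((p %ₘ cyclotomic q K0).comp (X + C 1)).coeff i, ?_⟩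
  change aeval ζ p = _
  rw [h1, h2, aeval_eq_sum_range' h3]
  refine Finset.sum_congr rfl fun i _ => ?_
  rw [Algebra.smul_def]
  rfl

/-- the value group of `K0(ζ)` is generated by `v(ζ - 1)` -/
theorem exists_zpow (K0 : IntermediateField ℚ Kb) [FiniteDimensional ℚ K0]
    (h : ∀ σ ∈ A.inertiaSubgroupIn ℚ, ∀ x ∈ K0, σ x = x) {ζ : Kb} (hζ : IsPrimitiveRoot ζ q)
    {x : Kb} (hx : x ∈ K0 ⊔ IntermediateField.adjoin ℚ {ζ}) (hx0 : x ≠ 0) :
    ∃ N : ℤ, A.valuation x = A.valuation (ζ - 1) ^ N := by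
  obtain ⟨a, rfl⟩ := exists_rep hq K0 hζ hx
  have hγ0 := val_ne_zero A hq hζ
  have hγ1 := val_lt_one A hq hA hζ
  have hπ0 : ζ - 1 ≠ 0 := (Valuation.ne_zero_iff _).1 hγ0
  have hq1 : 0 < q - 1 := by have := hq.two_le; omega
  have hval : ∀ i, (a i : Kb) * (ζ - 1) ^ i ≠ 0 → ∃ n : ℤ,
      A.valuation ((a i : Kb) * (ζ - 1) ^ i) = A.valuation (ζ - 1) ^ (((q - 1 : ℕ) : ℤ) * n + i) := by
    intro i hi
    obtain ⟨n, hn⟩ := exists_zpow_of_unr A hq hA K0 h (a i).2 (left_ne_zero_of_mul hi)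
    refine ⟨n, ?_⟩
    rw [map_mul, map_pow, hn, ← val_pow A hq hζ, zpow_add₀ hγ0, zpow_mul, zpow_natCast,
      zpow_natCast]
  obtain ⟨i, -, hi0, hi⟩ := exists_map_sum_eq A.valuation (Finset.range (q - 1))
    (fun i => (a i : Kb) * (ζ - 1) ^ i) (by
      intro i hi j hj hij hi0 heq
      by_cases hj0 : (a j : Kb) * (ζ - 1) ^ j = 0
      · rw [hj0, map_zero] at heq
        exact hi0 ((Valuation.zero_iff _).1 heq)
      obtain ⟨n, hn⟩ := hval i hi0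
      obtain ⟨n', hn'⟩ := hval j hj0
      rw [hn, hn'] at heq
      have h1 := zpow_right_injective₀ (zero_lt_iff.2 hγ0) hγ1.ne heq
      rw [Finset.mem_range] at hi hj
      have h2 := congrArg (fun z : ℤ => z % ((q - 1 : ℕ) : ℤ)) h1
      simp only [Int.mul_add_emod_self_left] at h2
      rw [Int.emod_eq_of_lt (by positivity) (by exact_mod_cast hi),
        Int.emod_eq_of_lt (by positivity) (by exact_mod_cast hj)] at h2
      exact hij (by exact_mod_cast h2)) hx0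
  obtain ⟨n, hn⟩ := hval i hi0
  exact ⟨_, hi.trans hn⟩

/-- **[U4], field-free form** : `ζ - 1` generates the maximal ideal of `A ∩ K0(ζ)`. -/
theorem div_mem (K0 : IntermediateField ℚ Kb) [FiniteDimensional ℚ K0]
    (h : ∀ σ ∈ A.inertiaSubgroupIn ℚ, ∀ x ∈ K0, σ x = x) {ζ : Kb} (hζ : IsPrimitiveRoot ζ q)
    {x : Kb} (hx : x ∈ K0 ⊔ IntermediateField.adjoin ℚ {ζ}) (hxA : x ∈ A.nonunits) :
    x / (ζ - 1) ∈ A := by
  by_cases hx0 : x = 0
  · rw [hx0, zero_div]; exact A.zero_mem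
  obtain ⟨N, hN⟩ := exists_zpow A hq hA K0 h hζ hx hx0
  have hγ0 := val_ne_zero A hq hζ
  have hγ1 := val_lt_one A hq hA hζ
  rw [ValuationSubring.mem_nonunits_iff, hN] at hxA
  rw [← ValuationSubring.valuation_le_one_iff, map_div₀, hN]
  have hN1 : 1 ≤ N := by
    by_contra hcon
    have h1 : N ≤ 0 := by omega
    obtain ⟨k, rfl⟩ : ∃ k : ℕ, N = -k := ⟨(-N).toNat, by omega⟩
    rw [zpow_neg, zpow_natCast] at hxA
    have h2 : A.valuation (ζ - 1) ^ k ≤ 1 := pow_le_one₀ zero_le hγ1.le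
    exact absurd ((one_le_inv₀ (zero_lt_iff.2 (pow_ne_zero k hγ0))).2 h2) (not_le.2 hxA)
  obtain ⟨k, rfl⟩ : ∃ k : ℕ, N = k + 1 := ⟨(N - 1).toNat, by omega⟩
  rw [zpow_add₀ hγ0, zpow_one, zpow_natCast, mul_div_assoc, div_self hγ0, mul_one]
  exact pow_le_one₀ zero_le hγ1.le

omit hq hA

/-- `K0(ζ)` -/
def Kp (K0 : IntermediateField ℚ Kb) (ζ : Kb) : IntermediateField ℚ Kb :=
  K0 ⊔ IntermediateField.adjoin ℚ {ζ}

theorem le_Kp (K0 : IntermediateField ℚ Kb) (ζ : Kb) : K0 ≤ Kp K0 ζ := le_sup_left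

theorem zeta_mem_Kp (K0 : IntermediateField ℚ Kb) (ζ : Kb) : ζ ∈ Kp K0 ζ :=
  (le_sup_right : IntermediateField.adjoin ℚ {ζ} ≤ Kp K0 ζ)
    (IntermediateField.mem_adjoin_simple_self ℚ ζ)

instance finiteDimensional_Kp (K0 : IntermediateField ℚ Kb) [FiniteDimensional ℚ K0] (ζ : Kb) :
    FiniteDimensional ℚ (Kp K0 ζ) := by
  haveI : FiniteDimensional ℚ (IntermediateField.adjoin ℚ {ζ}) :=
    IntermediateField.adjoin.finiteDimensional (Algebra.IsAlgebraic.isAlgebraic ζ).isIntegral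
  exact IntermediateField.finiteDimensional_sup K0 _

/-- `ζ` as a unit of `A ∩ K'`. -/
def zR (hq : q.Prime) (K' : IntermediateField ℚ Kb) {ζ : Kb} (hζ : IsPrimitiveRoot ζ q)
    (hK' : ζ ∈ K') : (IDvr.R0 K' A)ˣ where
  val := ⟨⟨ζ, hK'⟩, zeta_mem A hq hζ⟩
  inv := ⟨⟨ζ⁻¹, K'.inv_mem hK'⟩, zeta_mem A hq hζ.inv⟩
  val_inv := by
    apply Subtype.ext
    apply Subtype.ext
    exact mul_inv_cancel₀ (hζ.ne_zero hq.ne_zero)
  inv_val := by
    apply Subtype.ext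
    apply Subtype.ext
    exact inv_mul_cancel₀ (hζ.ne_zero hq.ne_zero)

@[simp] theorem coe_zR (hq : q.Prime) (K' : IntermediateField ℚ Kb) {ζ : Kb}
    (hζ : IsPrimitiveRoot ζ q) (hK' : ζ ∈ K') :
    ((((zR A hq K' hζ hK' : (IDvr.R0 K' A)ˣ) : IDvr.R0 K' A) : K') : Kb) = ζ := rfl

theorem isPrimitiveRoot_zR (hq : q.Prime) (K' : IntermediateField ℚ Kb) {ζ : Kb}
    (hζ : IsPrimitiveRoot ζ q) (hK' : ζ ∈ K') :
    IsPrimitiveRoot ((zR A hq K' hζ hK' : (IDvr.R0 K' A)ˣ) : IDvr.R0 K' A) q :=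
  IsPrimitiveRoot.of_map_of_injective
    (f := ((algebraMap K' Kb).comp (IDvr.R0 K' A).subtype)) hζ
    ((algebraMap K' Kb).injective.comp Subtype.val_injective)

/-- **[U4]** : the maximal ideal of `A ∩ K0(ζ)` is generated by `ζ - 1`. -/
theorem maximalIdeal_eq_span (hq : q.Prime) (hA : A.LiesOverPrime q)
    (K0 : IntermediateField ℚ Kb) [FiniteDimensional ℚ K0]
    (h : ∀ σ ∈ A.inertiaSubgroupIn ℚ, ∀ x ∈ K0, σ x = x) {ζ : Kb} (hζ : IsPrimitiveRoot ζ q) :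
    maximalIdeal (IDvr.R0 (Kp K0 ζ) A) =
      Ideal.span {((zR A hq (Kp K0 ζ) hζ (zeta_mem_Kp K0 ζ) : (IDvr.R0 (Kp K0 ζ) A)ˣ) :
        IDvr.R0 (Kp K0 ζ) A) - 1} := by
  have hπ0 : ζ - 1 ≠ 0 := (Valuation.ne_zero_iff _).1 (val_ne_zero A hq hζ)
  apply le_antisymm
  · intro y hy
    rw [← ValuationSubring.coe_mem_nonunits_iff, IDvr.mem_nonunits_R0] at hy
    have h1 := div_mem A hq hA K0 h hζ (y : Kp K0 ζ).2 hy
    rw [Ideal.mem_span_singleton']
    refine ⟨⟨⟨((y : Kp K0 ζ) : Kb) / (ζ - 1), (Kp K0 ζ).div_mem (y : Kp K0 ζ).2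
      ((Kp K0 ζ).sub_mem (zeta_mem_Kp K0 ζ) (Kp K0 ζ).one_mem)⟩, h1⟩, ?_⟩
    apply Subtype.ext
    apply Subtype.ext
    change ((y : Kp K0 ζ) : Kb) / (ζ - 1) * (ζ - 1) = ((y : Kp K0 ζ) : Kb)
    field_simp
  · rw [Ideal.span_singleton_le_iff_mem, ← ValuationSubring.coe_mem_nonunits_iff,
      IDvr.mem_nonunits_R0]
    exact A.mem_nonunits_iff.2 (val_lt_one A hq hA hζ)

open Fermat.Agent.ES.QE Fermat.Agent.ES.Inst

theorem ker_res0 (K' : IntermediateField ℚ Kb) :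
    RingHom.ker (res0 K' A) = maximalIdeal (IDvr.R0 K' A) := by
  ext x
  rw [RingHom.mem_ker, res0, RingHom.comp_apply, residue_eq_zero_iff,
    ← ValuationSubring.coe_mem_nonunits_iff, ← ValuationSubring.coe_mem_nonunits_iff,
    IDvr.mem_nonunits_R0]
  rfl

/-- **[U4] (2)** : the hypotheses `hζ hc hc0` of `Mid.isDV_mid`, `Mid.exists_ram`. -/
theorem exists_c0 (hq : q.Prime) (hA : A.LiesOverPrime q)
    (K0 : IntermediateField ℚ Kb) [FiniteDimensional ℚ K0]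
    (h : ∀ σ ∈ A.inertiaSubgroupIn ℚ, ∀ x ∈ K0, σ x = x) {ζ : Kb} (hζ : IsPrimitiveRoot ζ q)
    (D' : QData (IDvr.R0 (Kp K0 ζ) A) (Kp K0 ζ) (kA A)) (hres : D'.res = res0 (Kp K0 ζ) A) :
    D'.res (zR A hq (Kp K0 ζ) hζ (zeta_mem_Kp K0 ζ) : (IDvr.R0 (Kp K0 ζ) A)ˣ) = 1 ∧
    ∃ c0 : IDvr.R0 (Kp K0 ζ) A,
      ((zR A hq (Kp K0 ζ) hζ (zeta_mem_Kp K0 ζ) : (IDvr.R0 (Kp K0 ζ) A)ˣ) :
        IDvr.R0 (Kp K0 ζ) A) - 1 = D'.ϖ * c0 ∧ D'.res c0 ≠ 0 := by
  have h1 := D'.ker_res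
  rw [hres, ker_res0, maximalIdeal_eq_span A hq hA K0 h hζ,
    Ideal.span_singleton_eq_span_singleton] at h1
  obtain ⟨u, hu⟩ := h1.symm
  refine ⟨?_, u, hu.symm, (u.isUnit.map D'.res).ne_zero⟩
  have h2 : ((zR A hq (Kp K0 ζ) hζ (zeta_mem_Kp K0 ζ) : (IDvr.R0 (Kp K0 ζ) A)ˣ) :
      IDvr.R0 (Kp K0 ζ) A) - 1 ∈ RingHom.ker D'.res := by
    rw [D'.ker_res, ← hu]
    exact Ideal.mul_mem_right _ _ (Ideal.mem_span_singleton_self _)
  rw [RingHom.mem_ker, map_sub, map_one, sub_eq_zero] at h2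
  exact h2

/-- the inclusion `A ∩ K0 → A ∩ K'`. -/
def iR {K0 K' : IntermediateField ℚ Kb} (hle : K0 ≤ K') : IDvr.R0 K0 A →+* IDvr.R0 K' A where
  toFun x := ⟨⟨((x : K0) : Kb), hle (x : K0).2⟩, x.2⟩
  map_one' := rfl
  map_mul' _ _ := rfl
  map_zero' := rfl
  map_add' _ _ := rfl

/-- the inclusion `K0 → K'`. -/
def iK {K0 K' : IntermediateField ℚ Kb} (hle : K0 ≤ K') : K0 →+* K' :=
  (IntermediateField.inclusion hle).toRingHom

@[simp] theorem coe_iK {K0 K' : IntermediateField ℚ Kb} (hle : K0 ≤ K') (x : K0) :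
    ((iK hle x : K') : Kb) = x := rfl

@[simp] theorem coe_iR {K0 K' : IntermediateField ℚ Kb} (hle : K0 ≤ K') (x : IDvr.R0 K0 A) :
    (((iR A hle x : IDvr.R0 K' A) : K') : Kb) = ((x : K0) : Kb) := rfl

/-- **[U4] (3)** : the base change datum of `BC.lean`. -/
theorem bcData {K0 K' : IntermediateField ℚ Kb} (hle : K0 ≤ K')
    [IsDiscreteValuationRing (IDvr.R0 K0 A)] [IsDiscreteValuationRing (IDvr.R0 K' A)]
    (D : QData (IDvr.R0 K0 A) K0 (kA A)) (D' : QData (IDvr.R0 K' A) K' (kA A))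
    (hD : D.res = res0 K0 A) (hD' : D'.res = res0 K' A) :
    BCData D D' (iR A hle) (iK hle) where
  comm _ := rfl
  res r := by rw [hD, hD']; rfl

end Fermat.Agent.S36.UnrPair
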