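import Fermat.Agent.S34.NGal

/-!
# S36, unramified block : [U6b] the Galois action of one element `σ` of the decomposition group on a
field `K0` which is only assumed to be stable under `σ` and `σ⁻¹` (no normality)

`exists_tAut_stable` = `S34.exists_tAut` with `[Normal ℚ K0]` replaced by stability; the conclusion
is identical, so that `S34.sk_of_frobenius`, `S34.sk_of_inertia`, `S34.sR_zS`, `S34.bc_toF` apply.
-/

set_option autoImplicit false
set_option linter.unusedSectionVars false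
set_option linter.unusedVariables false

noncomputable section

namespace Fermat.Agent.S36

open ModularCurve AlgebraicCurve Polynomial
open Fermat.Agent.S24 Fermat.Agent.S28 Fermat.Agent.ES Fermat.Agent.ES.QE Fermat.Agent.ES.Model
  Fermat.Agent.ES.IDvr Fermat.Agent.ES.Inst Fermat.Agent.S34

namespace UnrTAut

/-- `σ` restricted to a stable `K0`. -/
def sK (K0 : IntermediateField ℚ Kb) (σ : GQ) (h1 : ∀ x ∈ K0, σ x ∈ K0)
    (h2 : ∀ x ∈ K0, σ⁻¹ x ∈ K0) : K0 ≃+* K0 where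
  toFun x := ⟨σ (x : Kb), h1 _ x.2⟩
  invFun x := ⟨σ⁻¹ (x : Kb), h2 _ x.2⟩
  left_inv x := Subtype.ext (σ.symm_apply_apply _)
  right_inv x := Subtype.ext (σ.apply_symm_apply _)
  map_mul' a b := Subtype.ext (map_mul σ _ _)
  map_add' a b := Subtype.ext (map_add σ _ _)

theorem coe_sK (K0 : IntermediateField ℚ Kb) (σ : GQ) (h1 : ∀ x ∈ K0, σ x ∈ K0)
    (h2 : ∀ x ∈ K0, σ⁻¹ x ∈ K0) (x : K0) : ((sK K0 σ h1 h2 x : K0) : Kb) = σ (x : Kb) := rfl

theorem coe_sK_symm (K0 : IntermediateField ℚ Kb) (σ : GQ) (h1 : ∀ x ∈ K0, σ x ∈ K0)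
    (h2 : ∀ x ∈ K0, σ⁻¹ x ∈ K0) (x : K0) :
    (((sK K0 σ h1 h2).symm x : K0) : Kb) = σ⁻¹ (x : Kb) := rfl

/-- `σ` restricted to `R0 K0 A`. -/
def sR (K0 : IntermediateField ℚ Kb) (A : ValuationSubring Kb) (σ : GQ)
    (h1 : ∀ x ∈ K0, σ x ∈ K0) (h2 : ∀ x ∈ K0, σ⁻¹ x ∈ K0)
    (hσ : σ ∈ A.decompositionSubgroup ℚ) : R0 K0 A ≃+* R0 K0 A where
  toFun r := ⟨sK K0 σ h1 h2 r, by
    rw [mem_R0, coe_sK]
    exact NGal.map_mem hσ r.2⟩
  invFun r := ⟨(sK K0 σ h1 h2).symm r, by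
    rw [mem_R0, coe_sK_symm]
    exact NGal.map_mem (inv_mem hσ) r.2⟩
  left_inv r := Subtype.ext ((sK K0 σ h1 h2).symm_apply_apply _)
  right_inv r := Subtype.ext ((sK K0 σ h1 h2).apply_symm_apply _)
  map_mul' a b := Subtype.ext (map_mul (sK K0 σ h1 h2) _ _)
  map_add' a b := Subtype.ext (map_add (sK K0 σ h1 h2) _ _)

end UnrTAut

open UnrTAut

variable {M0 q : ℕ} [NeZero M0] [NeZero q]

/-- **`S34.exists_tAut` for a field `K0` stable under `σ` and `σ⁻¹`.** -/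
theorem exists_tAut_stable {K0 : IntermediateField ℚ Kb} {A : ValuationSubring Kb}
    [IsDiscreteValuationRing (R0 K0 A)]
    (σ : GQ) (hσ : σ ∈ A.decompositionSubgroup ℚ)
    (h1 : ∀ x ∈ K0, σ x ∈ K0) (h2 : ∀ x ∈ K0, σ⁻¹ x ∈ K0)
    (D : QData (R0 K0 A) K0 (kA A)) (hF : D.F0 = F0 K0 M0) (hres : D.res = res0 K0 A)
    (T : Two D q) (hT : T.F = F0 K0 (M0 * q)) :
    ∃ S : TAut T, (∀ x : K0, ((S.sK x : K0) : Kb) = σ (x : Kb)) ∧
      (∀ (a : A) (ha : σ (a : Kb) ∈ A),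
        S.sk (IsLocalRing.residue A a) = IsLocalRing.residue A ⟨σ (a : Kb), ha⟩) := by
  refine ⟨{ sK := sK K0 σ h1 h2
            sR := sR K0 A σ h1 h2 hσ
            sk := NGal.sk A σ hσ
            hK := fun r => rfl
            hk := fun r => ?_
            map_F0 := fun f => ?_
            map_F := fun f => ?_ }, coe_sK K0 σ h1 h2, NGal.sk_residue A σ hσ⟩
  · rw [hres]
    have h := NGal.sk_residue A σ hσ (incl K0 A r) (NGal.map_mem hσ (incl K0 A r).2)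
    refine h.trans ?_
    refine congrArg (IsLocalRing.residue A) (Subtype.ext ?_)
    exact (coe_sK K0 σ h1 h2 r).symm
  · rw [hF]
    exact NGal.coeffMap_mem_F0_iff _ _ f
  · rw [hT]
    exact NGal.coeffMap_mem_F0_iff _ _ f

/-- the same, `K0` stable under the whole decomposition group. -/
theorem exists_tAut_stable' {K0 : IntermediateField ℚ Kb} {A : ValuationSubring Kb}
    [IsDiscreteValuationRing (R0 K0 A)]
    (hst : ∀ τ ∈ A.decompositionSubgroup ℚ, ∀ x ∈ K0, τ x ∈ K0)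
    (σ : GQ) (hσ : σ ∈ A.decompositionSubgroup ℚ)
    (D : QData (R0 K0 A) K0 (kA A)) (hF : D.F0 = F0 K0 M0) (hres : D.res = res0 K0 A)
    (T : Two D q) (hT : T.F = F0 K0 (M0 * q)) :
    ∃ S : TAut T, (∀ x : K0, ((S.sK x : K0) : Kb) = σ (x : Kb)) ∧
      (∀ (a : A) (ha : σ (a : Kb) ∈ A),
        S.sk (IsLocalRing.residue A a) = IsLocalRing.residue A ⟨σ (a : Kb), ha⟩) :=
  exists_tAut_stable σ hσ (hst σ hσ) (hst σ⁻¹ (inv_mem hσ)) D hF hres T hT

end Fermat.Agent.S36
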