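import Fermat.Agent.S36.BC
import Fermat.Agent.S36.NormCore

/-!
# S36, G-REG : [VAL] the valuations of the different element `g'(y)`

`F / D.F0` of degree `q + 1` with two expansions `s1 s2 : F → K((T))`, `s1 c = c`, `s2 c = c(T^q)`
(`α` : `s1 = e1`, `s2 = e2`; `β` : `s1 = e2`, `s2 = e1`).  For `y ∈ F` with `s1 y, s2 y ∈ Λ`,
`ρ (s2 y) ≠ V (ρ (s1 y))` and `θ (ρ (s2 y)) ≠ 0`, the element `δ = g'(y)`, `g = minpoly y`, satisfies
`s1 δ ∈ Λˣ` and `s2 δ ∈ q Λˣ`.
-/

set_option autoImplicit false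
set_option linter.unusedSectionVars false

noncomputable section

namespace Fermat.Agent.S36

open ModularCurve Polynomial
open Fermat.Agent.S34 Fermat.Agent.S35 Fermat.Agent.ES Fermat.Agent.ES.QE Fermat.Agent.ES.Model

namespace Val

/-! ### `θ = T d/dT` on `k((T))` -/

section theta

variable {k : Type*} [Field k]

/-- `θ = T d/dT`. -/
def thk (f : LaurentSeries k) : LaurentSeries k where
  coeff n := (n : k) * f.coeff n
  isPWO_support' := f.isPWO_support.mono (by
    intro n hn h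
    exact hn (by simp [h]))

@[simp] theorem thk_coeff (f : LaurentSeries k) (n : ℤ) : (thk f).coeff n = (n : k) * f.coeff n :=
  rfl

theorem support_thk (f : LaurentSeries k) : (thk f).support ⊆ f.support := by
  intro n hn h
  exact hn (by simp [h])

theorem thk_mul (f g : LaurentSeries k) : thk (f * g) = thk f * g + f * thk g := by
  ext n
  rw [thk_coeff, HahnSeries.coeff_add, HahnSeries.coeff_mul,
    HahnSeries.coeff_mul_left' f.isPWO_support (support_thk f),
    HahnSeries.coeff_mul_right' g.isPWO_support (support_thk g), Finset.mul_sum,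
    ← Finset.sum_add_distrib]
  refine Finset.sum_congr rfl fun ij hij => ?_
  have h := (Finset.mem_antidiagonal.mp hij).2.2
  rw [thk_coeff, thk_coeff, ← h]
  push_cast
  ring

end theta

variable {R K k : Type*} [CommRing R] [IsDomain R] [IsNoetherianRing R] [IsIntegrallyClosed R]
  [Field K] [Algebra R K] [IsFractionRing R K] [Field k]

section th

variable {D : QData R K k}

theorem red_th (ω : Rˣ) (hω : D.res ω = 1) (w : LaurentSeries R) :
    D.red (Mid.th D ω hω w) = thk (D.red w) := by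
  ext n
  rw [Mid.red_th_coeff, thk_coeff]

theorem inc_twist_eq (ω : Rˣ) (hω : D.res ω = 1) (w : LaurentSeries R) :
    D.inc (S28.twist ω w)
      = D.inc w + D.inc (HahnSeries.C ((ω : R) - 1)) * D.inc (Mid.th D ω hω w) := by
  rw [← map_mul, ← Mid.twist_sub ω hω, ← map_add]
  congr 1
  ring

/-- **`Y(ω T) - Y(T) = (ω - 1) * unit`** when `θ (ρ Y) ≠ 0`. -/
theorem exists_th (ω : Rˣ) (hω : D.res ω = 1) {Y : LaurentSeries K} (hY : Y ∈ D.LamRing)
    (hθ : ∃ n : ℤ, (n : k) * (D.rho ⟨Y, hY⟩).coeff n ≠ 0) :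
    ∃ Th, IsU D.LamRing Th ∧
      S28.twist (GNorm.uK ω) Y - Y = D.inc (HahnSeries.C ((ω : R) - 1)) * Th := by
  obtain ⟨t, w, ht, hw⟩ := id hY
  have hr : D.rho ⟨Y, hY⟩ = D.red w / D.red t :=
    QData.rho_eq (f := ⟨Y, hY⟩) (⟨ht, hw⟩ : D.IsFrac _ t w)
  set r := D.rho ⟨Y, hY⟩ with hrdef
  have hthr : thk r ≠ 0 := by
    obtain ⟨n, hn⟩ := hθ
    intro h0
    apply hn
    rw [← thk_coeff, h0, HahnSeries.coeff_zero]
  have hwr : D.red w = r * D.red t := by rw [hr, div_mul_cancel₀ _ ht]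
  have hN : D.red (t * Mid.th D ω hω w - Mid.th D ω hω t * w) ≠ 0 := by
    rw [map_sub, map_mul, map_mul, red_th, red_th, hwr, thk_mul]
    have : D.red t * (thk r * D.red t + r * thk (D.red t)) - thk (D.red t) * (r * D.red t)
        = D.red t * D.red t * thk r := by ring
    rw [this]
    exact mul_ne_zero (mul_ne_zero ht ht) hthr
  have ht' : D.red (S28.twist ω t) ≠ 0 := by rw [GNorm.red_twist ω hω]; exact ht
  refine ⟨D.inc (t * Mid.th D ω hω w - Mid.th D ω hω t * w) / (D.inc t * D.inc (S28.twist ω t)),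
    (Mid.isU_inc hN).div ((Mid.isU_inc ht).mul (Mid.isU_inc ht')), ?_⟩
  have h1 := Mid.inc_ne_zero ht
  have h2 := Mid.inc_ne_zero ht'
  have h3 : D.inc (S28.twist ω t) * S28.twist (GNorm.uK ω) Y = D.inc (S28.twist ω w) := by
    rw [GNorm.inc_twist, GNorm.inc_twist, ← map_mul, hw]
  have hY1 : Y = D.inc w / D.inc t := by rw [← hw, mul_div_cancel_left₀ _ h1]
  have hY2 : S28.twist (GNorm.uK ω) Y = D.inc (S28.twist ω w) / D.inc (S28.twist ω t) := by
    rw [← h3, mul_div_cancel_left₀ _ h2]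
  rw [hY2]
  conv_lhs => rw [hY1]
  rw [div_sub_div _ _ h2 h1, mul_div_assoc', div_eq_div_iff (mul_ne_zero h2 h1) (mul_ne_zero h1 h2)]
  have e1 := inc_twist_eq ω hω w
  have e2 := inc_twist_eq ω hω t
  have e3 : D.inc (t * Mid.th D ω hω w - Mid.th D ω hω t * w)
      = D.inc t * D.inc (Mid.th D ω hω w) - D.inc (Mid.th D ω hω t) * D.inc w := by
    rw [map_sub, map_mul, map_mul]
  rw [e3, e1, e2]
  ring

end th

/-! ### algebra : `σ (g'(y)) = ∏ (σ y - σ' y)` -/

section alg

theorem minpoly_map_eq {F E M : Type*} [Field F] [Field E] [Field M] [Algebra F E]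
    [FiniteDimensional F E] {ι : Type*} [Fintype ι] (φ : F →+* M)
    (σ : ι → (E →+* M)) (hφ : ∀ i (c : F), σ i (algebraMap F E c) = φ c)
    (hcard : Fintype.card ι = Module.finrank F E) (y : E)
    (hy : Function.Injective fun j => σ j y) :
    (minpoly F y).map φ = ∏ j, (X - C (σ j y)) := by
  have hcomp : ∀ j, (σ j).comp (algebraMap F E) = φ := fun j => RingHom.ext (hφ j)
  have hev : ∀ (j : ι) (p : F[X]), σ j (aeval y p) = (p.map φ).eval (σ j y) := by
    intro j p
    rw [aeval_def, hom_eval₂, hcomp, eval_map]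
  have hint : IsIntegral F y := Algebra.IsIntegral.isIntegral y
  refine eq_of_monic_of_dvd_of_natDegree_le (monic_prod_of_monic _ _ fun j _ => monic_X_sub_C _)
    ((minpoly.monic hint).map φ) ?_ ?_
  · refine Fintype.prod_dvd_of_coprime (pairwise_coprime_X_sub_C hy) fun j => ?_
    rw [dvd_iff_isRoot, IsRoot.def, ← hev, minpoly.aeval, map_zero]
  · rw [natDegree_map, natDegree_prod_of_monic _ _ fun j _ => monic_X_sub_C _]
    simp only [natDegree_X_sub_C, Finset.sum_const, Finset.card_univ, smul_eq_mul, mul_one]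
    rw [hcard]
    exact minpoly.natDegree_le y

theorem natDegree_minpoly {F E M : Type*} [Field F] [Field E] [Field M] [Algebra F E]
    [FiniteDimensional F E] {ι : Type*} [Fintype ι] (φ : F →+* M)
    (σ : ι → (E →+* M)) (hφ : ∀ i (c : F), σ i (algebraMap F E c) = φ c)
    (hcard : Fintype.card ι = Module.finrank F E) (y : E)
    (hy : Function.Injective fun j => σ j y) :
    (minpoly F y).natDegree = Module.finrank F E := by
  rw [← natDegree_map φ, minpoly_map_eq φ σ hφ hcard y hy,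
    natDegree_prod_of_monic _ _ fun j _ => monic_X_sub_C _]
  simp only [natDegree_X_sub_C, Finset.sum_const, Finset.card_univ, smul_eq_mul, mul_one]
  exact hcard

theorem sigma_deriv {F E M : Type*} [Field F] [Field E] [Field M] [Algebra F E]
    [FiniteDimensional F E] {ι : Type*} [Fintype ι] [DecidableEq ι] (φ : F →+* M)
    (σ : ι → (E →+* M)) (hφ : ∀ i (c : F), σ i (algebraMap F E c) = φ c)
    (hcard : Fintype.card ι = Module.finrank F E) (y : E)
    (hy : Function.Injective fun j => σ j y) (i : ι) :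
    σ i (aeval y (derivative (minpoly F y))) = ∏ j ∈ Finset.univ.erase i, (σ i y - σ j y) := by
  have hcomp : ∀ j, (σ j).comp (algebraMap F E) = φ := fun j => RingHom.ext (hφ j)
  have hev : ∀ (j : ι) (p : F[X]), σ j (aeval y p) = (p.map φ).eval (σ j y) := by
    intro j p
    rw [aeval_def, hom_eval₂, hcomp, eval_map]
  rw [hev, ← derivative_map, minpoly_map_eq φ σ hφ hcard y hy,
    ← Finset.mul_prod_erase Finset.univ _ (Finset.mem_univ i),
    derivative_mul, eval_add, eval_mul, eval_mul, eval_sub, eval_X, eval_C, sub_self, zero_mul,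
    add_zero, derivative_sub, derivative_X, derivative_C, sub_zero, eval_one, one_mul, eval_prod]
  refine Finset.prod_congr rfl fun j _ => ?_
  rw [eval_sub, eval_X, eval_C]

theorem isU_one {F : Type*} [Field F] (O : Subring F) : IsU O (1 : F) :=
  ⟨one_ne_zero, O.one_mem, by rw [inv_one]; exact O.one_mem⟩

theorem isU_prod {F : Type*} [Field F] {O : Subring F} {ι : Type*} (s : Finset ι) (g : ι → F)
    (h : ∀ j ∈ s, IsU O (g j)) : IsU O (∏ j ∈ s, g j) :=
  Finset.prod_induction g (IsU O) (fun _ _ => IsU.mul) (isU_one O) h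

theorem prod_factor {F : Type*} [Field F] {O : Subring F} {ι : Type*} (s : Finset ι) (g : ι → F)
    (c0 : F) (e : ι → ℕ) (h : ∀ j ∈ s, ∃ u, IsU O u ∧ g j = c0 ^ e j * u) :
    ∃ u, IsU O u ∧ ∏ j ∈ s, g j = c0 ^ (∑ j ∈ s, e j) * u := by
  classical
  induction s using Finset.induction_on with
  | empty => exact ⟨1, isU_one O, by simp⟩
  | insert a s ha ih =>
    obtain ⟨u, hu, hp⟩ := ih fun j hj => h j (Finset.mem_insert_of_mem hj)
    obtain ⟨v, hv, hg⟩ := h a (Finset.mem_insert_self a s)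
    refine ⟨v * u, hv.mul hu, ?_⟩
    rw [Finset.prod_insert ha, Finset.sum_insert ha, hp, hg, pow_add]
    ring

end alg

/-! ### descent of units -/

section desc

variable {D : QData R K k}

theorem bdd_val {f : LaurentSeries K} (hf : NVal.IsBdd D f) : f ∈ D.LamRing ∨ f⁻¹ ∈ D.LamRing := by
  by_cases hf0 : f = 0
  · left; rw [hf0]; exact D.LamRing.zero_mem
  obtain ⟨n, υ, hυ, rfl⟩ := Mid.exists_normal hf hf0
  rcases le_or_gt 0 n with hn | hn
  · left
    lift n to ℕ using hn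
    rw [zpow_natCast]
    exact D.LamRing.mul_mem (D.LamRing.pow_mem Mid.ϖE_mem n) hυ.mem
  · right
    obtain ⟨m, rfl⟩ : ∃ m : ℕ, n = -(m : ℤ) := ⟨(-n).toNat, by omega⟩
    rw [mul_inv, zpow_neg, inv_inv, zpow_natCast]
    exact D.LamRing.mul_mem (D.LamRing.pow_mem Mid.ϖE_mem m) hυ.inv_mem

theorem isU_of_V (q : ℕ) [NeZero q] {f : LaurentSeries K} (hb : NVal.IsBdd D f)
    (hb' : NVal.IsBdd D f⁻¹) (h : IsU D.LamRing (qExpand K q f)) : IsU D.LamRing f :=
  ⟨fun h0 => h.ne_zero (by rw [h0, map_zero]),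
    NormCore.mem_LamRing_of_qExpand q (bdd_val hb) h.mem,
    NormCore.mem_LamRing_of_qExpand q (bdd_val hb') (by rw [map_inv₀]; exact h.inv_mem)⟩

theorem isU_of_rho {f : LaurentSeries K} (hf : f ∈ D.LamRing) (h : D.rho ⟨f, hf⟩ ≠ 0) :
    IsU D.LamRing f := by
  refine ⟨?_, hf, NormCore.inv_mem_LamRing hf h⟩
  rintro rfl
  apply h
  have : (⟨0, hf⟩ : D.LamRing) = 0 := rfl
  rw [this, map_zero]

theorem res_unit_ne_zero (ε : Rˣ) : D.res (ε : R) ≠ 0 := by
  intro h0
  have h1 : D.res (ε : R) * D.res ((ε⁻¹ : Rˣ) : R) = 1 := by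
    rw [← map_mul, ← Units.val_mul, mul_inv_cancel, Units.val_one, map_one]
  rw [h0, zero_mul] at h1
  exact zero_ne_one h1

theorem isU_C_unit (ε : Rˣ) : IsU D.LamRing (D.inc (HahnSeries.C (ε : R))) :=
  Mid.isU_inc (Mid.red_C_ne_zero (res_unit_ne_zero ε))

theorem twist_one' (f : LaurentSeries K) : S28.twist (1 : Kˣ) f = f := by
  ext n
  simp [S28.twist_coeff]

theorem twist_twist (a b : Kˣ) (f : LaurentSeries K) :
    S28.twist a (S28.twist b f) = S28.twist (a * b) f := by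
  ext n
  rw [S28.twist_coeff, S28.twist_coeff, S28.twist_coeff, ← mul_assoc, ← Units.val_mul, mul_zpow]

variable {R' K' : Type*} [CommRing R'] [IsDomain R'] [IsNoetherianRing R'] [IsIntegrallyClosed R']
  [Field K'] [Algebra R' K'] [IsFractionRing R' K'] {D' : QData R' K' k} {iR : R →+* R'}
  {i : K →+* K'}

theorem isU_of_bc (B : BCData D D' iR i) {f : LaurentSeries K} (hb : NVal.IsBdd D f)
    (hb' : NVal.IsBdd D f⁻¹) (h : IsU D'.LamRing (coeffMap i f)) : IsU D.LamRing f :=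
  ⟨fun h0 => h.ne_zero (by rw [h0, map_zero]), (B.bc_mem_iff hb).1 h.mem,
    (B.bc_mem_iff hb').1 (by rw [map_inv₀]; exact h.inv_mem)⟩

end desc

/-! ### the main theorem -/

section main

variable {D : QData R K k}
  {R' K' : Type*} [CommRing R'] [IsDomain R'] [IsNoetherianRing R'] [IsIntegrallyClosed R']
  [Field K'] [Algebra R' K'] [IsFractionRing R' K'] {D' : QData R' K' k} {iR : R →+* R'}
  {i : K →+* K'}

open GNorm in
/-- **[VAL], abstract core.** -/
theorem val_core (B : BCData D D' iR i) (q : ℕ) [Fact q.Prime] [CharP k q]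
    {F : Type*} [Field F] [Algebra D.F0 F] (hfr : Module.finrank D.F0 F = q + 1)
    (s1 s2 : F →+* LaurentSeries K)
    (h1 : ∀ c : D.F0, s1 (algebraMap D.F0 F c) = (c : LaurentSeries K))
    (h2 : ∀ c : D.F0, s2 (algebraMap D.F0 F c) = qExpand K q (c : LaurentSeries K))
    (hb1 : ∀ f, NVal.IsBdd D (s1 f)) (hb2 : ∀ f, NVal.IsBdd D (s2 f))
    (ζ : R'ˣ) (hζ : IsPrimitiveRoot ζ q)
    (y : F) (hy1 : s1 y ∈ D.LamRing) (hy2 : s2 y ∈ D.LamRing)
    (hne : D.rho ⟨s2 y, hy2⟩ ≠ qExpand k q (D.rho ⟨s1 y, hy1⟩))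
    (hθ : ∃ n : ℤ, (n : k) * (D.rho ⟨s2 y, hy2⟩).coeff n ≠ 0) :
    IsU D.LamRing (s1 (aeval y (derivative (minpoly D.F0 y)))) ∧
    IsU D.LamRing (s2 (aeval y (derivative (minpoly D.F0 y)) / (q : F))) ∧
    (minpoly D.F0 y).natDegree = q + 1 := by
  classical
  have hq : q.Prime := Fact.out
  have hfd : FiniteDimensional D.F0 F := Module.finite_of_finrank_pos (by rw [hfr]; omega)
  -- the roots of unity
  have hζq : ∀ b : ℕ, (ζ ^ b) ^ q = 1 := fun b => by
    rw [← pow_mul, mul_comm, pow_mul, hζ.pow_eq_one, one_pow]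
  have hres : ∀ b : ℕ, D'.res ((ζ ^ b : R'ˣ) : R') = 1 := fun b => res_eq_one q _ (hζq b)
  have hKq : ∀ b : ℕ, (uK (K := K') (ζ ^ b)) ^ q = 1 := fun b => by
    rw [uK, ← map_pow, hζq, map_one]
  have hζR : IsPrimitiveRoot (ζ : R') q := IsPrimitiveRoot.coe_units_iff.2 hζ
  -- the embeddings
  let bc : LaurentSeries K →+* LaurentSeries K' := coeffMap i
  let φ : D.F0 →+* LaurentSeries K' :=
    bc.comp ((qExpand K q).comp (algebraMap D.F0 (LaurentSeries K)))
  let σ : Option (Fin q) → (F →+* LaurentSeries K') := fun j =>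
    match j with
    | none => bc.comp ((qExpand K q).comp s1)
    | some b => (S28.twist (uK (ζ ^ (b : ℕ)))).comp (bc.comp s2)
  have hσφ : ∀ j (c : D.F0), σ j (algebraMap D.F0 F c) = φ c := by
    rintro (_ | b) c
    · show bc (qExpand K q (s1 (algebraMap D.F0 F c))) = _
      rw [h1]
      rfl
    · show S28.twist (uK (ζ ^ (b : ℕ))) (coeffMap i (s2 (algebraMap D.F0 F c))) = _
      rw [h2, coeffMap_qExpand, twist_qExpand q _ (hKq b), ← coeffMap_qExpand]
      rfl
  have hcard : Fintype.card (Option (Fin q)) = Module.finrank D.F0 F := by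
    rw [Fintype.card_option, Fintype.card_fin, hfr]
  -- the series
  set Y : LaurentSeries K' := coeffMap i (s2 y) with hYdef
  set Z : LaurentSeries K' := coeffMap i (qExpand K q (s1 y)) with hZdef
  have hY : Y ∈ D'.LamRing := B.bc_mem hy2
  have hZ : Z ∈ D'.LamRing := B.bc_mem (NOrth.qExpand_mem_LamRing q hy1)
  have hρY : D'.rho ⟨Y, hY⟩ = D.rho ⟨s2 y, hy2⟩ := B.rho_bc hy2
  have hρZ : D'.rho ⟨Z, hZ⟩ = qExpand k q (D.rho ⟨s1 y, hy1⟩) := by
    rw [← NOrth.rho_qExpand q hy1]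
    exact B.rho_bc (NOrth.qExpand_mem_LamRing q hy1)
  have htw : ∀ b : ℕ, S28.twist (uK (ζ ^ b)) Y ∈ D'.LamRing := fun b =>
    twist_mem_LamRing _ (hres b) hY
  have hρtw : ∀ b : ℕ, D'.rho ⟨S28.twist (uK (ζ ^ b)) Y, htw b⟩ = D.rho ⟨s2 y, hy2⟩ := fun b => by
    rw [← hρY]; exact rho_twist _ (hres b) hY
  -- Claim A
  have hA : ∀ b : ℕ, IsU D'.LamRing (Z - S28.twist (uK (ζ ^ b)) Y) := by
    intro b
    refine isU_of_rho (D'.LamRing.sub_mem hZ (htw b)) ?_
    have e : (⟨Z - S28.twist (uK (ζ ^ b)) Y, D'.LamRing.sub_mem hZ (htw b)⟩ : D'.LamRing)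
        = ⟨Z, hZ⟩ - ⟨S28.twist (uK (ζ ^ b)) Y, htw b⟩ := rfl
    rw [e, map_sub, hρZ, hρtw]
    exact sub_ne_zero.2 hne.symm
  -- the constant
  set c0 : LaurentSeries K' := D'.inc (HahnSeries.C ((ζ : R') - 1)) with hc0def
  have hc0 : c0 ≠ 0 := by
    intro h0
    have h3 : (HahnSeries.C ((ζ : R') - 1) : LaurentSeries R') = 0 :=
      D'.inc_injective (by rw [← hc0def, h0, map_zero])
    have h4 := congrArg (fun z => HahnSeries.coeff z 0) h3
    simp only [HahnSeries.C_apply, HahnSeries.coeff_single_same, HahnSeries.coeff_zero] at h4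
    exact hζR.ne_one hq.one_lt (sub_eq_zero.1 h4)
  -- Claim B
  have hB : ∀ b b' : Fin q, b ≠ b' → ∃ u, IsU D'.LamRing u ∧
      S28.twist (uK (ζ ^ (b : ℕ))) Y - S28.twist (uK (ζ ^ (b' : ℕ))) Y = c0 * u := by
    intro b b' hbb
    have hj : Nat.Coprime ((b : ℕ) + (q - (b' : ℕ))) q := by
      rw [Nat.coprime_comm, hq.coprime_iff_not_dvd]
      intro hd
      have hb := b.2
      have hb' := b'.2
      have hne' : (b : ℕ) ≠ (b' : ℕ) := fun h => hbb (Fin.ext h)
      obtain ⟨c, hc⟩ := hd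
      have hc1 : c = 1 := by
        have h5 : q * c < q * 2 := by omega
        have h6 : 0 < q * c := by omega
        have h7 : c < 2 := lt_of_mul_lt_mul_left h5 (Nat.zero_le _)
        have h8 : 0 < c := Nat.pos_of_mul_pos_left h6 |> fun h => by
          rcases Nat.eq_zero_or_pos c with h9 | h9
          · rw [h9, mul_zero] at h6; omega
          · exact h9
        omega
      rw [hc1, mul_one] at hc
      omega
    obtain ⟨ε, hε⟩ := hζR.associated_sub_one_pow_sub_one_of_coprime hj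
    have hθ' : ∃ n : ℤ, (n : k) *
        (D'.rho ⟨S28.twist (uK (ζ ^ (b' : ℕ))) Y, htw b'⟩).coeff n ≠ 0 := by
      rw [hρtw]; exact hθ
    obtain ⟨Th, hTh, hT⟩ := exists_th (ζ ^ ((b : ℕ) + (q - (b' : ℕ)))) (hres _) (htw b') hθ'
    refine ⟨D'.inc (HahnSeries.C (ε : R')) * Th, (isU_C_unit ε).mul hTh, ?_⟩
    have e1 : S28.twist (uK (ζ ^ ((b : ℕ) + (q - (b' : ℕ))))) (S28.twist (uK (ζ ^ (b' : ℕ))) Y)
        = S28.twist (uK (ζ ^ (b : ℕ))) Y := by
      rw [twist_twist]
      congr 2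
      rw [uK, uK, uK, ← map_mul]
      congr 1
      rw [← pow_add]
      have : (b : ℕ) + (q - (b' : ℕ)) + (b' : ℕ) = (b : ℕ) + q := by have := b'.2; omega
      rw [this, pow_add, hζ.pow_eq_one, mul_one]
    rw [e1] at hT
    rw [hT, hc0def, ← mul_assoc, ← map_mul, ← map_mul, hε, Units.val_pow_eq_pow_val]
  -- distinct conjugates
  have hinj : Function.Injective fun j => σ j y := by
    rintro (_ | b) (_ | b') h
    · rfl
    · exact absurd (sub_eq_zero.2 h) (hA b').ne_zero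
    · exact absurd (sub_eq_zero.2 h.symm) (hA b).ne_zero
    · by_contra hbb
      obtain ⟨u, hu, he⟩ := hB b b' (fun h' => hbb (by rw [h']))
      exact mul_ne_zero hc0 hu.ne_zero (he.symm.trans (sub_eq_zero.2 h))
  set δ : F := aeval y (derivative (minpoly D.F0 y)) with hδ
  refine ⟨?_, ?_, ?_⟩
  · -- the first expansion
    have h3 := sigma_deriv φ σ hσφ hcard y hinj none
    have h4 : IsU D'.LamRing (coeffMap i (qExpand K q (s1 δ))) := by
      have h5 : coeffMap i (qExpand K q (s1 δ)) = σ none δ := rfl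
      rw [h5, h3]
      refine isU_prod _ _ fun j hj => ?_
      rcases j with _ | b
      · exact absurd rfl (Finset.ne_of_mem_erase hj)
      · exact hA b
    have h6 : IsU D.LamRing (qExpand K q (s1 δ)) := by
      refine isU_of_bc B ((hb1 δ).qExpand q) ?_ h4
      rw [← map_inv₀, ← map_inv₀]
      exact (hb1 δ⁻¹).qExpand q
    refine isU_of_V q (hb1 δ) ?_ h6
    rw [← map_inv₀]
    exact hb1 δ⁻¹
  · -- the second expansion
    let i0 : Option (Fin q) := some ⟨0, hq.pos⟩
    have h3 := sigma_deriv φ σ hσφ hcard y hinj i0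
    let e : Option (Fin q) → ℕ := fun j => match j with
      | none => 0
      | some _ => 1
    obtain ⟨u, hu, hp⟩ := prod_factor (O := D'.LamRing) (Finset.univ.erase i0)
      (fun j => σ i0 y - σ j y) c0 e (by
        intro j hj
        rcases j with _ | b
        · refine ⟨-(Z - S28.twist (uK (ζ ^ 0)) Y), (hA 0).neg, ?_⟩
          show S28.twist (uK (ζ ^ 0)) Y - Z = c0 ^ 0 * _
          rw [pow_zero c0, one_mul, neg_sub]
        · obtain ⟨u, hu, he⟩ := hB ⟨0, hq.pos⟩ b (fun h' => Finset.ne_of_mem_erase hj (by rw [← h']))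
          exact ⟨u, hu, by rw [show e (some b) = 1 from rfl, pow_one]; exact he⟩)
    have hsum : ∑ j ∈ Finset.univ.erase i0, e j = q - 1 := by
      have h5 := Finset.add_sum_erase Finset.univ e (Finset.mem_univ i0)
      rw [Fintype.sum_option] at h5
      have h6 : ∑ b : Fin q, e (some b) = q := by
        show ∑ _b : Fin q, 1 = q
        simp
      rw [h6] at h5
      have h7 : e i0 = 1 := rfl
      have h8 : e none = 0 := rfl
      omega
    rw [hsum] at hp
    obtain ⟨ε, hε⟩ := Mid.associated_pow hq hζR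
    have hpow : ((ζ : R') - 1) ^ (q - 1) = (q : R') * ((ε⁻¹ : R'ˣ) : R') := by
      rw [← hε, mul_assoc, ← Units.val_mul, mul_inv_cancel, Units.val_one, mul_one]
    have hc0p : c0 ^ (q - 1) = (q : LaurentSeries K') * D'.inc (HahnSeries.C ((ε⁻¹ : R'ˣ) : R')) := by
      rw [hc0def, ← map_pow, ← map_pow, hpow, map_mul, map_mul, map_natCast, map_natCast]
    have hq0 : (q : LaurentSeries K') ≠ 0 := by
      intro h0
      rw [h0, zero_mul] at hc0p
      exact pow_ne_zero _ hc0 hc0p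
    have h4 : IsU D'.LamRing (coeffMap i (s2 (δ / (q : F)))) := by
      have h5 : coeffMap i (s2 (δ / (q : F))) = σ i0 δ / (q : LaurentSeries K') := by
        rw [map_div₀, map_div₀, map_natCast, map_natCast]
        congr 1
        show _ = S28.twist (uK (ζ ^ 0)) (coeffMap i (s2 δ))
        rw [pow_zero, uK, map_one, twist_one']
      rw [h5, h3, hp, hc0p, mul_assoc, mul_div_cancel_left₀ _ hq0]
      exact (isU_C_unit _).mul hu
    refine isU_of_bc B (hb2 _) ?_ h4
    rw [← map_inv₀]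
    exact hb2 _
  · rw [natDegree_minpoly φ σ hσφ hcard y hinj, hfr]

end main

end Val

/-! ### the two degeneracy maps of `T : Two D q` -/

section two

variable {R K k : Type*} [CommRing R] [IsDomain R] [IsNoetherianRing R] [IsIntegrallyClosed R]
  [Field K] [Algebra R K] [IsFractionRing R K] [Field k]
  {R' K' : Type*} [CommRing R'] [IsDomain R'] [IsNoetherianRing R'] [IsIntegrallyClosed R']
  [Field K'] [Algebra R' K'] [IsFractionRing R' K']
  {D : QData R K k} {D' : QData R' K' k} {iR : R →+* R'} {i : K →+* K'}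
  {q : ℕ} [Fact q.Prime] [CharP k q] (T : Two D q)

/-- **[VAL]** along `α` : `δ = g'(y)` has the valuations `(0, 1)`. -/
theorem val_al (B : BCData D D' iR i) (ζ : R'ˣ) (hζ : IsPrimitiveRoot ζ q) (y : T.F) (hy : y ∈ T.O)
    (hne : T.rho2 ⟨y, hy.2⟩ ≠ qExpand k q (T.rho1 ⟨y, hy.1⟩))
    (hθ : ∃ n : ℤ, (n : k) * (T.rho2 ⟨y, hy.2⟩).coeff n ≠ 0) :
    letI := T.al.toAlgebra
    IsU T.O1 (aeval y (derivative (minpoly D.F0 y))) ∧
    IsU T.O2 (aeval y (derivative (minpoly D.F0 y)) / (q : T.F)) ∧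
    (minpoly D.F0 y).natDegree = q + 1 := by
  letI := T.al.toAlgebra
  obtain ⟨h1, h2, h3⟩ := Val.val_core B q (GNorm.finrank_al T) T.e1 T.e2 (fun c => rfl)
    (fun c => T.e2_al c) T.isBdd_e1 T.isBdd_e2 ζ hζ y hy.1 hy.2 hne hθ
  exact ⟨Mid.isU_comap T.e1 h1, Mid.isU_comap T.e2 h2, h3⟩

/-- **[VAL]** along `β` : `δ = g'(y)` has the valuations `(1, 0)`. -/
theorem val_be (B : BCData D D' iR i) (ζ : R'ˣ) (hζ : IsPrimitiveRoot ζ q)
    (hfr : letI := T.be.toAlgebra; Module.finrank D.F0 T.F = q + 1) (y : T.F) (hy : y ∈ T.O)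
    (hne : T.rho1 ⟨y, hy.1⟩ ≠ qExpand k q (T.rho2 ⟨y, hy.2⟩))
    (hθ : ∃ n : ℤ, (n : k) * (T.rho1 ⟨y, hy.1⟩).coeff n ≠ 0) :
    letI := T.be.toAlgebra
    IsU T.O2 (aeval y (derivative (minpoly D.F0 y))) ∧
    IsU T.O1 (aeval y (derivative (minpoly D.F0 y)) / (q : T.F)) ∧
    (minpoly D.F0 y).natDegree = q + 1 := by
  letI := T.be.toAlgebra
  obtain ⟨h1, h2, h3⟩ := Val.val_core B q hfr T.e2 T.e1 (fun c => T.e2_be c)
    (fun c => rfl) T.isBdd_e2 T.isBdd_e1 ζ hζ y hy.2 hy.1 hne hθ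
  exact ⟨Mid.isU_comap T.e2 h1, Mid.isU_comap T.e1 h2, h3⟩

end two

end Fermat.Agent.S36
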