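import Mathlib

/-!
# S36, G-REG, [VAL-0] : the derivative of the minimal polynomial as a product of differences

Pure field theory.  `E / F0` a field extension, `φ : F0 → M` and a finite family `σ i : E → M`
of embeddings over `φ` such that the `σ i y` are pairwise distinct and there are at least
`deg (minpoly F0 y)` of them.  Then `minpoly` splits as `∏ (X - σ i y)` and
`σ i0 (g'(y)) = ∏_{i ≠ i0} (σ i0 y - σ i y)`.
-/

set_option autoImplicit false
set_option linter.unusedSectionVars false

noncomputable section

namespace Fermat.Agent.S36.Val0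

open Polynomial

variable {F0 E M ι : Type*} [Field F0] [Field E] [Algebra F0 E] [Field M] [Fintype ι]
  [DecidableEq ι]

theorem prod_dvd (φ : F0 →+* M) (σ : ι → E →+* M)
    (hσ : ∀ i c, σ i (algebraMap F0 E c) = φ c) (y : E)
    (hinj : Function.Injective fun i => σ i y) :
    (∏ i, (X - C (σ i y))) ∣ (minpoly F0 y).map φ := by
  refine Finset.prod_dvd_of_coprime ?_ ?_
  · intro i _ j _ hij
    exact pairwise_coprime_X_sub_C hinj hij
  · intro i _
    rw [dvd_iff_isRoot, IsRoot.def, eval_map]
    have h1 : eval₂ φ (σ i y) (minpoly F0 y) = σ i (aeval y (minpoly F0 y)) := by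
      rw [aeval_def, hom_eval₂]
      congr 1
      ext c
      exact (hσ i c).symm
    rw [h1, minpoly.aeval, map_zero]

/-- the minimal polynomial splits as the product over the conjugates. -/
theorem map_minpoly (φ : F0 →+* M) (σ : ι → E →+* M)
    (hσ : ∀ i c, σ i (algebraMap F0 E c) = φ c) (y : E) (hy : IsIntegral F0 y)
    (hinj : Function.Injective fun i => σ i y)
    (hcard : (minpoly F0 y).natDegree ≤ Fintype.card ι) :
    (minpoly F0 y).map φ = ∏ i, (X - C (σ i y)) := by
  have hm : (∏ i, (X - C (σ i y))).Monic := monic_prod_of_monic _ _ fun i _ => monic_X_sub_C _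
  have hd : (∏ i, (X - C (σ i y))).natDegree = Fintype.card ι := by
    rw [natDegree_prod_of_monic _ _ fun i _ => monic_X_sub_C _]
    simp
  refine eq_of_monic_of_dvd_of_natDegree_le hm ((minpoly.monic hy).map φ)
    (prod_dvd φ σ hσ y hinj) ?_
  rw [natDegree_map, hd]
  exact hcard

/-- **[VAL-0]** -/
theorem map_different (φ : F0 →+* M) (σ : ι → E →+* M)
    (hσ : ∀ i c, σ i (algebraMap F0 E c) = φ c) (y : E) (hy : IsIntegral F0 y)
    (hinj : Function.Injective fun i => σ i y)
    (hcard : (minpoly F0 y).natDegree ≤ Fintype.card ι) (i0 : ι) :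
    σ i0 (aeval y (derivative (minpoly F0 y)))
      = ∏ i ∈ Finset.univ.erase i0, (σ i0 y - σ i y) := by
  have h1 : σ i0 (aeval y (derivative (minpoly F0 y)))
      = eval (σ i0 y) (derivative ((minpoly F0 y).map φ)) := by
    rw [derivative_map, eval_map, aeval_def, hom_eval₂]
    congr 1
    ext c
    exact hσ i0 c
  rw [h1, map_minpoly φ σ hσ y hy hinj hcard, derivative_prod_finset, eval_finsetSum]
  rw [Finset.sum_eq_single i0]
  · simp [eval_prod]
  · intro j _ hj
    rw [eval_mul, eval_prod]
    have : ∏ i ∈ Finset.univ.erase j, eval (σ i0 y) (X - C (σ i y)) = 0 :=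
      Finset.prod_eq_zero (Finset.mem_erase.2 ⟨hj.symm, Finset.mem_univ i0⟩) (by simp)
    rw [this, zero_mul]
  · intro h
    exact absurd (Finset.mem_univ i0) h

/-- the degree of `y` is the number of conjugates. -/
theorem natDegree_minpoly (φ : F0 →+* M) (σ : ι → E →+* M)
    (hσ : ∀ i c, σ i (algebraMap F0 E c) = φ c) (y : E) (hy : IsIntegral F0 y)
    (hinj : Function.Injective fun i => σ i y) :
    Fintype.card ι ≤ (minpoly F0 y).natDegree := by
  have h := natDegree_le_of_dvd (prod_dvd φ σ hσ y hinj)
    ((minpoly.monic hy).map φ).ne_zero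
  rw [natDegree_map, natDegree_prod_of_monic _ _ fun i _ => monic_X_sub_C _] at h
  simpa using h

end Fermat.Agent.S36.Val0
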