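import Fermat.Agent.S36.ValTh2
import Fermat.Agent.S36.NormCore

/-!
# S36, G-REG, [D4] = [VAL] : the two valuations of `δ = g'(y0)`, abstract form

`D : QData R K k` is the data over the ring containing `ζ = ζ_q`, `L = K((T))`.
`phi : F0 → F1`, `eps : F0 → L`, `ea eb : F1 → L` with `ea (phi c) = V (eps c)`,
`eb (phi c) = eps c`; `g : F0[X]` monic of degree `q + 1` with `g(y0) = 0`.
The roots of `g.map (V ∘ eps)` are `V (eb y0)` and the `q` twists of `ea y0`.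

* `ea_delta` : `ea δ = q * G`, `G ∈ Λ`, `ρ G = (Ya - V Yb) * (θ Ya) ^ (q - 1)`;
* `eb_delta` : `eb δ` is a unit of `Λ`.
-/

set_option autoImplicit false
set_option linter.unusedSectionVars false
set_option linter.unusedVariables false

noncomputable section

namespace Fermat.Agent.S36.Val1

open ModularCurve Polynomial
open Fermat.Agent.S34 Fermat.Agent.S35 Fermat.Agent.ES.QE Fermat.Agent.ES.Model
open Fermat.Agent.S36.ValTh

/-! ### polynomials -/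

section Poly

variable {M : Type*} [Field M]

theorem eq_prod_of_roots (P : M[X]) (hP : P.Monic) (n : ℕ) (r : ℕ → M)
    (hr : ∀ i < n, P.IsRoot (r i)) (hinj : ∀ i < n, ∀ j < n, r i = r j → i = j)
    (hcard : P.natDegree ≤ n) : P = ∏ i ∈ Finset.range n, (X - C (r i)) := by
  have hm : (∏ i ∈ Finset.range n, (X - C (r i))).Monic :=
    monic_prod_of_monic _ _ fun i _ => monic_X_sub_C _
  have hd : (∏ i ∈ Finset.range n, (X - C (r i))).natDegree = n := by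
    rw [natDegree_prod_of_monic _ _ fun i _ => monic_X_sub_C _]
    simp
  refine eq_of_monic_of_dvd_of_natDegree_le hm hP ?_ (by rw [hd]; exact hcard)
  refine Finset.prod_dvd_of_coprime ?_ ?_
  · intro i hi j hj hij
    refine isCoprime_X_sub_C_of_isUnit_sub ?_
    refine IsUnit.mk0 _ (sub_ne_zero.2 fun h => hij ?_)
    exact hinj i (Finset.mem_range.1 hi) j (Finset.mem_range.1 hj) h
  · intro i hi
    exact dvd_iff_isRoot.2 (hr i (Finset.mem_range.1 hi))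

theorem prod_range_pred {A : Type*} [CommMonoid A] {q : ℕ} (hq : 0 < q) (f : ℕ → A) :
    ∏ b ∈ Finset.range q, f b = (∏ b ∈ Finset.range (q - 1), f (b + 1)) * f 0 := by
  obtain ⟨n, rfl⟩ : ∃ n, q = n + 1 := ⟨q - 1, by omega⟩
  rw [Finset.prod_range_succ', Nat.add_sub_cancel]

theorem eval_derivative_mul (Q : M[X]) (a : M) :
    eval a (derivative (Q * (X - C a))) = eval a Q := by
  simp [derivative_mul]

variable {F0 F1 : Type*} [Field F0] [Field F1]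

theorem root_of_hom (phi : F0 →+* F1) (ψ : F0 →+* M) (τ : F1 →+* M)
    (hτ : ∀ c, τ (phi c) = ψ c) (g : F0[X]) (y0 : F1) (h : eval₂ phi y0 g = 0) :
    (g.map ψ).IsRoot (τ y0) := by
  rw [IsRoot.def, eval_map]
  have : eval₂ ψ (τ y0) g = τ (eval₂ phi y0 g) := by
    rw [hom_eval₂]
    congr 1
    ext c
    exact (hτ c).symm
  rw [this, h, map_zero]

theorem deriv_of_hom (phi : F0 →+* F1) (ψ : F0 →+* M) (τ : F1 →+* M)
    (hτ : ∀ c, τ (phi c) = ψ c) (g : F0[X]) (y0 : F1) :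
    τ (eval₂ phi y0 (derivative g)) = eval (τ y0) (derivative (g.map ψ)) := by
  rw [derivative_map, eval_map, hom_eval₂]
  congr 1
  ext c
  exact hτ c

end Poly

variable {R K k : Type*} [CommRing R] [IsDomain R] [IsNoetherianRing R] [IsIntegrallyClosed R]
  [Field K] [Algebra R K] [IsFractionRing R K] [Field k]

variable {D : QData R K k}

/-! ### twists -/

theorem twist_mul (ω1 ω2 : Kˣ) (f : LaurentSeries K) :
    S28.twist (ω1 * ω2) f = S28.twist ω1 (S28.twist ω2 f) := by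
  ext n
  rw [S28.twist_coeff, S28.twist_coeff, S28.twist_coeff, mul_zpow, Units.val_mul, mul_assoc]

theorem twist_one' (f : LaurentSeries K) : S28.twist (1 : Kˣ) f = f := by
  ext n
  simp

/-- `Y(ζ ^ b T)`. -/
def tw (ζ : Rˣ) (Y : LaurentSeries K) (b : ℕ) : LaurentSeries K :=
  S28.twist (GNorm.uK (ζ ^ b)) Y

theorem tw_zero (ζ : Rˣ) (Y : LaurentSeries K) : tw ζ Y 0 = Y := by
  rw [tw, pow_zero, GNorm.uK, map_one, twist_one']

theorem tw_add (ζ : Rˣ) (Y : LaurentSeries K) (b c : ℕ) :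
    tw ζ Y (b + c) = S28.twist (GNorm.uK (ζ ^ b)) (tw ζ Y c) := by
  rw [tw, tw, pow_add, GNorm.uK, map_mul, twist_mul]
  rfl

theorem tw_mem (ζ : Rˣ) (hζ : D.res ζ = 1) {Y : LaurentSeries K} (hY : Y ∈ D.LamRing) (b : ℕ) :
    tw ζ Y b ∈ D.LamRing := GNorm.twist_mem_LamRing _ (res_pow_eq_one ζ hζ b) hY

theorem rho_tw (ζ : Rˣ) (hζ : D.res ζ = 1) {Y : LaurentSeries K} (hY : Y ∈ D.LamRing) (b : ℕ) :
    D.rho ⟨tw ζ Y b, tw_mem ζ hζ hY b⟩ = D.rho ⟨Y, hY⟩ :=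
  GNorm.rho_twist _ (res_pow_eq_one ζ hζ b) hY

theorem tw_ne {q : ℕ} (ζ : Rˣ) (hζ : D.res ζ = 1) (hprim : IsPrimitiveRoot (ζ : R) q)
    {Y : LaurentSeries K} (hY : Y ∈ D.LamRing) (hθ : tht (D.rho ⟨Y, hY⟩) ≠ 0) (c : ℕ) (hc0 : 0 < c)
    (hc : c < q) : tw ζ Y c ≠ Y := by
  intro h
  obtain ⟨Th, hTh, h1, h2⟩ := exists_th (ζ ^ c) (res_pow_eq_one ζ hζ c) hY
  have h3 : S28.twist (GNorm.uK (ζ ^ c)) Y - Y = 0 := sub_eq_zero.2 h
  rw [h3] at h1
  rcases mul_eq_zero.1 h1.symm with h4 | h4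
  · have h5 : algebraMap R K (((ζ ^ c : Rˣ) : R) - 1) = 0 := by
      have := congrArg (fun z => HahnSeries.coeff z 0) h4
      simpa using this
    have h6 : ((ζ ^ c : Rˣ) : R) - 1 = 0 :=
      (IsFractionRing.injective R K) (by rw [h5, map_zero])
    rw [Units.val_pow_eq_pow_val, sub_eq_zero] at h6
    exact hprim.pow_ne_one_of_pos_of_lt hc0.ne' hc h6
  · apply hθ
    rw [← h2]
    have : (⟨Th, hTh⟩ : D.LamRing) = 0 := Subtype.ext h4
    rw [this, map_zero]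

theorem tw_inj {q : ℕ} (ζ : Rˣ) (hζ : D.res ζ = 1) (hprim : IsPrimitiveRoot (ζ : R) q)
    {Y : LaurentSeries K} (hY : Y ∈ D.LamRing) (hθ : tht (D.rho ⟨Y, hY⟩) ≠ 0) (b b' : ℕ)
    (hb : b < q) (hb' : b' < q) (h : tw ζ Y b = tw ζ Y b') : b = b' := by
  have key : ∀ b b' : ℕ, b < b' → b' < q → tw ζ Y b ≠ tw ζ Y b' := by
    intro b b' hlt hq h
    obtain ⟨c, rfl⟩ : ∃ c, b' = b + c := ⟨b' - b, by omega⟩
    have h0 : tw ζ Y b = S28.twist (GNorm.uK (ζ ^ b)) (tw ζ Y 0) := by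
      rw [← tw_add, add_zero]
    rw [tw_add, h0, tw_zero] at h
    exact tw_ne ζ hζ hprim hY hθ c (by omega) (by omega)
      ((S28.twist (GNorm.uK (ζ ^ b))).injective h).symm
  rcases lt_trichotomy b b' with h1 | h1 | h1
  · exact absurd h (key b b' h1 hb')
  · exact h1
  · exact absurd h.symm (key b' b h1 hb)

/-! ### the setting -/

/-- the abstract setting of [D4]. -/
structure Setup (D : QData R K k) (q : ℕ) [NeZero q] (F0 F1 : Type*) [Field F0] [Field F1] where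
  phi : F0 →+* F1
  eps : F0 →+* LaurentSeries K
  ea : F1 →+* LaurentSeries K
  eb : F1 →+* LaurentSeries K
  ha : ∀ c, ea (phi c) = qExpand K q (eps c)
  hb : ∀ c, eb (phi c) = eps c
  ζ : Rˣ
  hprim : IsPrimitiveRoot (ζ : R) q
  hζ : D.res ζ = 1

variable {q : ℕ} [NeZero q] {F0 F1 : Type*} [Field F0] [Field F1]

namespace Setup

variable (S : Setup D q F0 F1)

/-- `V ∘ eps`. -/
def psi : F0 →+* LaurentSeries K := (qExpand K q).comp S.eps

/-- the `q + 1` roots. -/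
def root (y0 : F1) : ℕ → LaurentSeries K
  | 0 => qExpand K q (S.eb y0)
  | (b + 1) => tw S.ζ (S.ea y0) b

theorem uK_pow (b : ℕ) : (GNorm.uK (S.ζ ^ b) : Kˣ) ^ q = 1 := by
  have h1 : S.ζ ^ q = 1 := Units.ext (by
    rw [Units.val_pow_eq_pow_val, S.hprim.pow_eq_one, Units.val_one])
  rw [GNorm.uK, ← map_pow, ← pow_mul, mul_comm, pow_mul, h1, one_pow, map_one]

theorem isRoot (g : F0[X]) (y0 : F1) (h : eval₂ S.phi y0 g = 0) (i : ℕ) :
    (g.map S.psi).IsRoot (S.root y0 i) := by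
  cases i with
  | zero =>
    exact root_of_hom S.phi S.psi ((qExpand K q).comp S.eb)
      (fun c => by show qExpand K q (S.eb (S.phi c)) = _; rw [S.hb]; rfl) g y0 h
  | succ b =>
    exact root_of_hom S.phi S.psi ((S28.twist (GNorm.uK (S.ζ ^ b))).comp S.ea)
      (fun c => by
        show S28.twist _ (S.ea (S.phi c)) = _
        rw [S.ha, GNorm.twist_qExpand q _ (S.uK_pow b)]; rfl) g y0 h

variable {y0 : F1} (hYa : S.ea y0 ∈ D.LamRing) (hYb : S.eb y0 ∈ D.LamRing)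

theorem V_ne_tw
    (hne : D.rho ⟨S.ea y0, hYa⟩ ≠ qExpand k q (D.rho ⟨S.eb y0, hYb⟩)) (b : ℕ) :
    qExpand K q (S.eb y0) ≠ tw S.ζ (S.ea y0) b := by
  intro h
  apply hne
  rw [← NOrth.rho_qExpand q hYb, ← rho_tw S.ζ S.hζ hYa b]
  congr 1
  exact Subtype.ext h.symm

theorem root_inj
    (hne : D.rho ⟨S.ea y0, hYa⟩ ≠ qExpand k q (D.rho ⟨S.eb y0, hYb⟩))
    (hθ : tht (D.rho ⟨S.ea y0, hYa⟩) ≠ 0) :
    ∀ i < q + 1, ∀ j < q + 1, S.root y0 i = S.root y0 j → i = j := by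
  intro i hi j hj h
  cases i with
  | zero =>
    cases j with
    | zero => rfl
    | succ b => exact absurd h (S.V_ne_tw hYa hYb hne b)
  | succ b =>
    cases j with
    | zero => exact absurd h.symm (S.V_ne_tw hYa hYb hne b)
    | succ b' =>
      rw [tw_inj S.ζ S.hζ S.hprim hYa hθ b b' (by omega) (by omega) h]

theorem map_eq_prod (g : F0[X]) (hg : g.Monic) (hdeg : g.natDegree = q + 1)
    (hroot : eval₂ S.phi y0 g = 0)
    (hne : D.rho ⟨S.ea y0, hYa⟩ ≠ qExpand k q (D.rho ⟨S.eb y0, hYb⟩))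
    (hθ : tht (D.rho ⟨S.ea y0, hYa⟩) ≠ 0) :
    g.map S.psi = (∏ b ∈ Finset.range q, (X - C (tw S.ζ (S.ea y0) b)))
      * (X - C (qExpand K q (S.eb y0))) := by
  rw [eq_prod_of_roots (g.map S.psi) (hg.map _) (q + 1) (S.root y0)
    (fun i _ => S.isRoot g y0 hroot i) (S.root_inj hYa hYb hne hθ)
    (by rw [natDegree_map, hdeg]), Finset.prod_range_succ']
  rfl

/-- **the product formula in the embedding `ea`.** -/
theorem ea_delta_eq (g : F0[X]) (hg : g.Monic) (hdeg : g.natDegree = q + 1)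
    (hroot : eval₂ S.phi y0 g = 0)
    (hne : D.rho ⟨S.ea y0, hYa⟩ ≠ qExpand k q (D.rho ⟨S.eb y0, hYb⟩))
    (hθ : tht (D.rho ⟨S.ea y0, hYa⟩) ≠ 0) :
    S.ea (eval₂ S.phi y0 (derivative g))
      = (∏ b ∈ Finset.range (q - 1), (S.ea y0 - S28.twist (GNorm.uK (S.ζ ^ (b + 1))) (S.ea y0)))
        * (S.ea y0 - qExpand K q (S.eb y0)) := by
  rw [deriv_of_hom S.phi S.psi S.ea (fun c => S.ha c), S.map_eq_prod hYa hYb g hg hdeg hroot hne hθ]
  have h1 : ∏ b ∈ Finset.range q, (X - C (tw S.ζ (S.ea y0) b))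
      = (∏ b ∈ Finset.range (q - 1), (X - C (tw S.ζ (S.ea y0) (b + 1)))) * (X - C (S.ea y0)) := by
    rw [prod_range_pred (NeZero.pos q), tw_zero]
  have h2 : (∏ b ∈ Finset.range q, (X - C (tw S.ζ (S.ea y0) b)))
      * (X - C (qExpand K q (S.eb y0)))
      = ((∏ b ∈ Finset.range (q - 1), (X - C (tw S.ζ (S.ea y0) (b + 1))))
        * (X - C (qExpand K q (S.eb y0)))) * (X - C (S.ea y0)) := by
    rw [h1]; ring
  rw [h2, eval_derivative_mul, eval_mul, eval_prod]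
  simp only [eval_sub, eval_X, eval_C]
  rfl

/-- **the product formula in the embedding `eb`.** -/
theorem eb_delta_eq (g : F0[X]) (hg : g.Monic) (hdeg : g.natDegree = q + 1)
    (hroot : eval₂ S.phi y0 g = 0)
    (hne : D.rho ⟨S.ea y0, hYa⟩ ≠ qExpand k q (D.rho ⟨S.eb y0, hYb⟩))
    (hθ : tht (D.rho ⟨S.ea y0, hYa⟩) ≠ 0) :
    qExpand K q (S.eb (eval₂ S.phi y0 (derivative g)))
      = ∏ b ∈ Finset.range q, (qExpand K q (S.eb y0) - tw S.ζ (S.ea y0) b) := by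
  have := deriv_of_hom S.phi S.psi ((qExpand K q).comp S.eb)
    (fun c => by show qExpand K q (S.eb (S.phi c)) = _; rw [S.hb]; rfl) g y0
  rw [S.map_eq_prod hYa hYb g hg hdeg hroot hne hθ] at this
  refine this.trans ?_
  show eval (qExpand K q (S.eb y0)) _ = _
  rw [eval_derivative_mul, eval_prod]
  simp only [eval_sub, eval_X, eval_C]

/-- **[VAL], Claim A** : `ea δ = q * G`, `ρ G = (Ya - V Yb) * (θ Ya) ^ (q - 1)`. -/
theorem ea_delta (g : F0[X]) (hg : g.Monic) (hdeg : g.natDegree = q + 1)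
    (hroot : eval₂ S.phi y0 g = 0)
    (hne : D.rho ⟨S.ea y0, hYa⟩ ≠ qExpand k q (D.rho ⟨S.eb y0, hYb⟩))
    (hθ : tht (D.rho ⟨S.ea y0, hYa⟩) ≠ 0) :
    ∃ (G : LaurentSeries K) (hG : G ∈ D.LamRing),
      S.ea (eval₂ S.phi y0 (derivative g)) = (q : LaurentSeries K) * G ∧
      D.rho ⟨G, hG⟩ = (D.rho ⟨S.ea y0, hYa⟩ - qExpand k q (D.rho ⟨S.eb y0, hYb⟩))
        * tht (D.rho ⟨S.ea y0, hYa⟩) ^ (q - 1) ∧ IsU D.LamRing G := by
  obtain ⟨G0, hG0, h1, h2⟩ := exists_prod (NeZero.pos q) S.ζ S.hζ S.hprim hYa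
  have hV : qExpand K q (S.eb y0) ∈ D.LamRing := NOrth.qExpand_mem_LamRing q hYb
  have hd : S.ea y0 - qExpand K q (S.eb y0) ∈ D.LamRing := D.LamRing.sub_mem hYa hV
  have hG : G0 * (S.ea y0 - qExpand K q (S.eb y0)) ∈ D.LamRing := D.LamRing.mul_mem hG0 hd
  have hrho : D.rho ⟨G0 * (S.ea y0 - qExpand K q (S.eb y0)), hG⟩
      = (D.rho ⟨S.ea y0, hYa⟩ - qExpand k q (D.rho ⟨S.eb y0, hYb⟩))
        * tht (D.rho ⟨S.ea y0, hYa⟩) ^ (q - 1) := by
    have : (⟨G0 * (S.ea y0 - qExpand K q (S.eb y0)), hG⟩ : D.LamRing)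
        = ⟨G0, hG0⟩ * (⟨S.ea y0, hYa⟩ - ⟨qExpand K q (S.eb y0), hV⟩) := rfl
    rw [this, map_mul, map_sub, h2, NOrth.rho_qExpand q hYb, mul_comm]
  have hne0 : D.rho ⟨G0 * (S.ea y0 - qExpand K q (S.eb y0)), hG⟩ ≠ 0 := by
    rw [hrho]
    exact mul_ne_zero (sub_ne_zero.2 hne) (pow_ne_zero _ hθ)
  refine ⟨_, hG, ?_, hrho, ?_, hG, NormCore.inv_mem_LamRing hG hne0⟩
  · rw [S.ea_delta_eq hYa hYb g hg hdeg hroot hne hθ, h1, mul_assoc]
  · intro h0
    apply hne0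
    have : (⟨G0 * (S.ea y0 - qExpand K q (S.eb y0)), hG⟩ : D.LamRing) = 0 := Subtype.ext h0
    rw [this, map_zero]

/-- **[VAL], Claim B** : `eb δ` is a unit of `Λ`. -/
theorem eb_delta (g : F0[X]) (hg : g.Monic) (hdeg : g.natDegree = q + 1)
    (hroot : eval₂ S.phi y0 g = 0)
    (hne : D.rho ⟨S.ea y0, hYa⟩ ≠ qExpand k q (D.rho ⟨S.eb y0, hYb⟩))
    (hθ : tht (D.rho ⟨S.ea y0, hYa⟩) ≠ 0)
    (hval : S.eb (eval₂ S.phi y0 (derivative g)) ∈ D.LamRing
      ∨ (S.eb (eval₂ S.phi y0 (derivative g)))⁻¹ ∈ D.LamRing) :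
    IsU D.LamRing (S.eb (eval₂ S.phi y0 (derivative g))) := by
  have hV : qExpand K q (S.eb y0) ∈ D.LamRing := NOrth.qExpand_mem_LamRing q hYb
  let U : ℕ → D.LamRing := fun b =>
    ⟨qExpand K q (S.eb y0), hV⟩ - ⟨tw S.ζ (S.ea y0) b, tw_mem S.ζ S.hζ hYa b⟩
  have hU : ∀ b, D.rho (U b) ≠ 0 := by
    intro b
    show D.rho (⟨qExpand K q (S.eb y0), hV⟩ - ⟨tw S.ζ (S.ea y0) b, tw_mem S.ζ S.hζ hYa b⟩) ≠ 0
    rw [map_sub, NOrth.rho_qExpand q hYb, rho_tw S.ζ S.hζ hYa b]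
    exact sub_ne_zero.2 hne.symm
  have h1 : qExpand K q (S.eb (eval₂ S.phi y0 (derivative g)))
      = ((∏ b ∈ Finset.range q, U b : D.LamRing) : LaurentSeries K) := by
    rw [S.eb_delta_eq hYa hYb g hg hdeg hroot hne hθ, SubmonoidClass.coe_finsetProd]
    rfl
  have h2 : D.rho (∏ b ∈ Finset.range q, U b) ≠ 0 := by
    rw [map_prod]
    exact Finset.prod_ne_zero_iff.2 fun b _ => hU b
  have h3 : qExpand K q (S.eb (eval₂ S.phi y0 (derivative g))) ∈ D.LamRing := by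
    rw [h1]; exact (∏ b ∈ Finset.range q, U b).2
  have h4 : (qExpand K q (S.eb (eval₂ S.phi y0 (derivative g))))⁻¹ ∈ D.LamRing := by
    rw [h1]; exact NormCore.inv_mem_LamRing (∏ b ∈ Finset.range q, U b).2 h2
  refine ⟨?_, NormCore.mem_LamRing_of_qExpand q hval h3, ?_⟩
  · intro h0
    apply h2
    have : (∏ b ∈ Finset.range q, U b) = 0 := Subtype.ext (by rw [← h1, h0, map_zero]; rfl)
    rw [this, map_zero]
  · refine NormCore.mem_LamRing_of_qExpand q ?_ (by rw [map_inv₀]; exact h4)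
    rw [inv_inv]
    exact hval.symm

end Setup

end Fermat.Agent.S36.Val1
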