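import Fermat.Agent.S36.Val1
import Fermat.Agent.S36.BC

/-!
# S36, G-REG, [D4] = [VAL] : the instance on `T : Two D q`

`D` is the (unramified) data, `D'` the data over the ring containing `ζ_q`, `B : BCData D D' iR i`.
For `φ = T.al` : `δ = g'(y0)` is a unit of `T.O1` and `δ / q` is a unit of `T.O2`, with
`ρ₂ (δ / q) = (ρ₂ y0 - V (ρ₁ y0)) * (θ (ρ₂ y0)) ^ (q - 1)`.  For `φ = T.be` : the mirror statement.
-/

set_option autoImplicit false
set_option linter.unusedSectionVars false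
set_option linter.unusedVariables false

noncomputable section

namespace Fermat.Agent.S36.Val2

open ModularCurve Polynomial
open Fermat.Agent.S34 Fermat.Agent.S35 Fermat.Agent.ES.QE Fermat.Agent.ES.Model
open Fermat.Agent.S36.ValTh Fermat.Agent.S36.Val1

variable {R K k : Type*} [CommRing R] [IsDomain R] [IsNoetherianRing R] [IsIntegrallyClosed R]
  [Field K] [Algebra R K] [IsFractionRing R K] [Field k]
  {R' K' : Type*} [CommRing R'] [IsDomain R'] [IsNoetherianRing R'] [IsIntegrallyClosed R']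
  [Field K'] [Algebra R' K'] [IsFractionRing R' K']

variable {D : QData R K k} {D' : QData R' K' k} {iR : R →+* R'} {i : K →+* K'}
  {q : ℕ} [NeZero q]

/-- the abstract transfer: `ea = bc ∘ e`, from `Λ'` to `Λ`. -/
theorem isU_of_bc (B : BCData D D' iR i) {F : Type*} [Field F] (e : F →+* LaurentSeries K)
    (hb : ∀ f, NVal.IsBdd D (e f)) {u : F} (h : IsU D'.LamRing (coeffMap i (e u))) :
    IsU (D.LamRing.comap e) u := by
  refine ⟨?_, (B.bc_mem_iff (hb u)).1 h.mem, ?_⟩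
  · rintro rfl
    exact h.ne_zero (by rw [map_zero, map_zero])
  · show e u⁻¹ ∈ D.LamRing
    refine (B.bc_mem_iff (hb _)).1 ?_
    rw [map_inv₀, map_inv₀]
    exact h.inv_mem

theorem natCast_ne_zero (hq : q.Prime) (ζ : R'ˣ) (hprim : IsPrimitiveRoot (ζ : R') q) :
    ((q : ℕ) : LaurentSeries K') ≠ 0 := by
  obtain ⟨ε, hε⟩ := Mid.associated_pow hq hprim
  have hζ1 : (ζ : R') - 1 ≠ 0 := sub_ne_zero.2 (hprim.ne_one hq.one_lt)
  have hqR : (q : R') ≠ 0 := by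
    rw [← hε]
    exact mul_ne_zero (pow_ne_zero _ hζ1) ε.ne_zero
  have h1 : ((q : ℕ) : LaurentSeries K') = HahnSeries.C (algebraMap R' K' (q : R')) := by
    rw [map_natCast, map_natCast]
  rw [h1]
  intro h0
  have h2 : algebraMap R' K' (q : R') = 0 := by
    have := congrArg (fun z => HahnSeries.coeff z 0) h0
    simp only [HahnSeries.C_apply, HahnSeries.coeff_single_same, HahnSeries.coeff_zero] at this
    exact this
  exact hqR ((IsFractionRing.injective R' K') (by rw [h2, map_zero]))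

/-- **the general instance**: `e_a`, `e_b` two bounded expansions over `D`. -/
theorem main (B : BCData D D' iR i) (hq : q.Prime) (ζ : R'ˣ) (hprim : IsPrimitiveRoot (ζ : R') q)
    (hζ : D'.res ζ = 1) {F0 F1 : Type*} [Field F0] [Field F1] (phi : F0 →+* F1)
    (eps : F0 →+* LaurentSeries K) (ea eb : F1 →+* LaurentSeries K)
    (ha : ∀ c, ea (phi c) = qExpand K q (eps c)) (hb : ∀ c, eb (phi c) = eps c)
    (hba : ∀ f, NVal.IsBdd D (ea f)) (hbb : ∀ f, NVal.IsBdd D (eb f))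
    {y0 : F1} (hYa : ea y0 ∈ D.LamRing) (hYb : eb y0 ∈ D.LamRing)
    (g : F0[X]) (hg : g.Monic) (hdeg : g.natDegree = q + 1) (hroot : eval₂ phi y0 g = 0)
    (hne : D.rho ⟨ea y0, hYa⟩ ≠ qExpand k q (D.rho ⟨eb y0, hYb⟩))
    (hθ : tht (D.rho ⟨ea y0, hYa⟩) ≠ 0) :
    IsU (D.LamRing.comap eb) (eval₂ phi y0 (derivative g)) ∧
    IsU (D.LamRing.comap ea) (eval₂ phi y0 (derivative g) / (q : F1)) ∧
    ∃ h : ea (eval₂ phi y0 (derivative g) / (q : F1)) ∈ D.LamRing,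
      D.rho ⟨ea (eval₂ phi y0 (derivative g) / (q : F1)), h⟩
        = (D.rho ⟨ea y0, hYa⟩ - qExpand k q (D.rho ⟨eb y0, hYb⟩))
          * tht (D.rho ⟨ea y0, hYa⟩) ^ (q - 1) := by
  let S : Setup D' q F0 F1 :=
    { phi := phi
      eps := (coeffMap i).comp eps
      ea := (coeffMap i).comp ea
      eb := (coeffMap i).comp eb
      ha := fun c => by
        show coeffMap i (ea (phi c)) = qExpand K' q (coeffMap i (eps c))
        rw [ha, coeffMap_qExpand]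
      hb := fun c => by
        show coeffMap i (eb (phi c)) = coeffMap i (eps c)
        rw [hb]
      ζ := ζ
      hprim := hprim
      hζ := hζ }
  have hYa' : S.ea y0 ∈ D'.LamRing := B.bc_mem hYa
  have hYb' : S.eb y0 ∈ D'.LamRing := B.bc_mem hYb
  have ra : D'.rho ⟨S.ea y0, hYa'⟩ = D.rho ⟨ea y0, hYa⟩ := B.rho_bc hYa
  have rb : D'.rho ⟨S.eb y0, hYb'⟩ = D.rho ⟨eb y0, hYb⟩ := B.rho_bc hYb
  have hne' : D'.rho ⟨S.ea y0, hYa'⟩ ≠ qExpand k q (D'.rho ⟨S.eb y0, hYb'⟩) := by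
    rw [ra, rb]; exact hne
  have hθ' : tht (D'.rho ⟨S.ea y0, hYa'⟩) ≠ 0 := by rw [ra]; exact hθ
  have hqL := natCast_ne_zero (K' := K') hq ζ hprim
  have hqF : (q : F1) ≠ 0 := by
    intro h0
    apply hqL
    rw [← map_natCast S.ea, h0, map_zero]
  obtain ⟨G, hG, h1, h2, h3⟩ := S.ea_delta hYa' hYb' g hg hdeg hroot hne' hθ'
  have hGe : coeffMap i (ea (eval₂ phi y0 (derivative g) / (q : F1))) = G := by
    have : S.ea (eval₂ phi y0 (derivative g) / (q : F1)) = G := by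
      rw [map_div₀, map_natCast, div_eq_iff hqL, mul_comm]
      exact h1
    exact this
  have hUa : IsU (D.LamRing.comap ea) (eval₂ phi y0 (derivative g) / (q : F1)) :=
    isU_of_bc B ea hba (by rw [hGe]; exact h3)
  refine ⟨isU_of_bc B eb hbb ?_, hUa, hUa.mem, ?_⟩
  · refine S.eb_delta hYa' hYb' g hg hdeg hroot hne' hθ' ?_
    rcases (NVal.valOf eb hbb).mem_or_inv_mem (eval₂ phi y0 (derivative g)) with h | h
    · exact Or.inl (B.bc_mem ((NVal.mem_valOf eb hbb).1 h))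
    · refine Or.inr ?_
      have h' := B.bc_mem ((NVal.mem_valOf eb hbb).1 h)
      rw [map_inv₀, map_inv₀] at h'
      exact h'
  · rw [← B.rho_bc hUa.mem, ← ra, ← rb, ← h2]
    congr 1
    exact Subtype.ext hGe

variable (T : Two D q)

/-- **[VAL] for `φ = T.al`** : valuations `(0, 1)`. -/
theorem val_al (B : BCData D D' iR i) (hq : q.Prime) (ζ : R'ˣ)
    (hprim : IsPrimitiveRoot (ζ : R') q) (hζ : D'.res ζ = 1)
    {y0 : T.F} (h1 : y0 ∈ T.O1) (h2 : y0 ∈ T.O2)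
    (g : D.F0[X]) (hg : g.Monic) (hdeg : g.natDegree = q + 1) (hroot : eval₂ T.al y0 g = 0)
    (hne : T.rho2 ⟨y0, h2⟩ ≠ qExpand k q (T.rho1 ⟨y0, h1⟩))
    (hθ : tht (T.rho2 ⟨y0, h2⟩) ≠ 0) :
    IsU T.O1 (eval₂ T.al y0 (derivative g)) ∧
    IsU T.O2 (eval₂ T.al y0 (derivative g) / (q : T.F)) ∧
    ∃ h : eval₂ T.al y0 (derivative g) / (q : T.F) ∈ T.O2,
      T.rho2 ⟨eval₂ T.al y0 (derivative g) / (q : T.F), h⟩
        = (T.rho2 ⟨y0, h2⟩ - qExpand k q (T.rho1 ⟨y0, h1⟩)) * tht (T.rho2 ⟨y0, h2⟩) ^ (q - 1) :=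
  main B hq ζ hprim hζ T.al (algebraMap D.F0 (LaurentSeries K)) T.e2 T.e1
    (fun c => T.e2_al c) (fun c => rfl) T.isBdd_e2 T.isBdd_e1 h2 h1 g hg hdeg hroot hne hθ

/-- **[VAL] for `φ = T.be`** : valuations `(1, 0)`. -/
theorem val_be (B : BCData D D' iR i) (hq : q.Prime) (ζ : R'ˣ)
    (hprim : IsPrimitiveRoot (ζ : R') q) (hζ : D'.res ζ = 1)
    {y0 : T.F} (h1 : y0 ∈ T.O1) (h2 : y0 ∈ T.O2)
    (g : D.F0[X]) (hg : g.Monic) (hdeg : g.natDegree = q + 1) (hroot : eval₂ T.be y0 g = 0)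
    (hne : T.rho1 ⟨y0, h1⟩ ≠ qExpand k q (T.rho2 ⟨y0, h2⟩))
    (hθ : tht (T.rho1 ⟨y0, h1⟩) ≠ 0) :
    IsU T.O2 (eval₂ T.be y0 (derivative g)) ∧
    IsU T.O1 (eval₂ T.be y0 (derivative g) / (q : T.F)) ∧
    ∃ h : eval₂ T.be y0 (derivative g) / (q : T.F) ∈ T.O1,
      T.rho1 ⟨eval₂ T.be y0 (derivative g) / (q : T.F), h⟩
        = (T.rho1 ⟨y0, h1⟩ - qExpand k q (T.rho2 ⟨y0, h2⟩)) * tht (T.rho1 ⟨y0, h1⟩) ^ (q - 1) :=
  main B hq ζ hprim hζ T.be (algebraMap D.F0 (LaurentSeries K)) T.e1 T.e2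
    (fun c => rfl) (fun c => T.e2_be c) T.isBdd_e1 T.isBdd_e2 h1 h2 g hg hdeg hroot hne hθ

/-- `T.ϖF = q` when `D.ϖ = q`. -/
theorem ϖF_eq (hϖ : D.ϖ = (q : R)) : T.ϖF = (q : T.F) := by
  rw [Two.ϖF, hϖ, map_natCast, map_natCast]

end Fermat.Agent.S36.Val2
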