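import Fermat.Agent.S36.Mid

/-!
# S36, G-REG, [VAL-θ] : the operator `θ = T d/dT` and the twists on `Λ`

* `tht` : `θ` on Laurent series (coefficientwise `n * a_n`), `tht_mul` (Leibniz);
* `exists_th` : for `Y ∈ Λ` and `ω ≡ 1` : `Y(ω T) - Y(T) = (ω - 1) * Th`, `Th ∈ Λ`,
  `ρ Th = θ (ρ Y)`;
* `exists_prod` : `∏_{b = 1}^{q - 1} (Y(T) - Y(ζ ^ b T)) = q * G`, `G ∈ Λ`, `ρ G = (θ (ρ Y)) ^ (q - 1)`.
-/

set_option autoImplicit false
set_option linter.unusedSectionVars false

noncomputable section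

namespace Fermat.Agent.S36.ValTh

open ModularCurve Polynomial
open Fermat.Agent.S34 Fermat.Agent.S35 Fermat.Agent.ES.QE Fermat.Agent.ES.Model

/-- `θ = T d/dT` on Laurent series. -/
def tht {A : Type*} [CommRing A] (f : LaurentSeries A) : LaurentSeries A where
  coeff n := (n : A) * f.coeff n
  isPWO_support' := f.isPWO_support.mono (by
    intro n hn h
    exact hn (by simp [h]))

@[simp] theorem tht_coeff {A : Type*} [CommRing A] (f : LaurentSeries A) (n : ℤ) :
    (tht f).coeff n = (n : A) * f.coeff n := rfl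

theorem tht_support {A : Type*} [CommRing A] (f : LaurentSeries A) :
    (tht f).support ⊆ f.support := by
  intro n hn h
  exact hn (by simp [h])

/-- **Leibniz.** -/
theorem tht_mul {A : Type*} [CommRing A] (f g : LaurentSeries A) :
    tht (f * g) = tht f * g + f * tht g := by
  ext n
  rw [HahnSeries.coeff_add, tht_coeff, HahnSeries.coeff_mul,
    HahnSeries.coeff_mul_left' f.isPWO_support (tht_support f),
    HahnSeries.coeff_mul_right' g.isPWO_support (tht_support g), Finset.mul_sum,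
    ← Finset.sum_add_distrib]
  refine Finset.sum_congr rfl fun ij hij => ?_
  have h := (Finset.mem_antidiagonal.1 hij).2.2
  rw [tht_coeff, tht_coeff, ← h]
  push_cast
  ring

theorem tht_ne_zero_iff {A : Type*} [CommRing A] (f : LaurentSeries A) :
    tht f ≠ 0 ↔ ∃ n : ℤ, (n : A) * f.coeff n ≠ 0 := by
  constructor
  · intro h
    by_contra h'
    push Not at h'
    exact h (by ext n; rw [tht_coeff, h' n, HahnSeries.coeff_zero])
  · rintro ⟨n, hn⟩ h
    exact hn (by rw [← tht_coeff, h, HahnSeries.coeff_zero])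

/-- the quotient rule. -/
theorem tht_div {k : Type*} [Field k] (w t : LaurentSeries k) (ht : t ≠ 0) :
    tht (w / t) = (tht w * t - w * tht t) / (t * t) := by
  have h := tht_mul (w / t) t
  rw [div_mul_cancel₀ _ ht] at h
  rw [h]
  field_simp
  ring

variable {R K k : Type*} [CommRing R] [IsDomain R] [IsNoetherianRing R] [IsIntegrallyClosed R]
  [Field K] [Algebra R K] [IsFractionRing R K] [Field k]

variable {D : QData R K k}

theorem red_th (ω : Rˣ) (hω : D.res ω = 1) (w : LaurentSeries R) :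
    D.red (Mid.th D ω hω w) = tht (D.red w) := by
  ext n
  rw [Mid.red_th_coeff, tht_coeff]

/-- **[VAL-θ]** -/
theorem exists_th (ω : Rˣ) (hω : D.res ω = 1) {Y : LaurentSeries K} (hY : Y ∈ D.LamRing) :
    ∃ (Th : LaurentSeries K) (hTh : Th ∈ D.LamRing),
      S28.twist (GNorm.uK ω) Y - Y = HahnSeries.C (algebraMap R K ((ω : R) - 1)) * Th ∧
      D.rho ⟨Th, hTh⟩ = tht (D.rho ⟨Y, hY⟩) := by
  obtain ⟨t, w, ht, hw⟩ := hY
  have ht' : D.red (S28.twist ω t) ≠ 0 := by rw [GNorm.red_twist ω hω]; exact ht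
  have h1 : D.inc t ≠ 0 := Mid.inc_ne_zero ht
  have h2 : D.inc (S28.twist ω t) ≠ 0 := Mid.inc_ne_zero ht'
  have hfr : D.IsFrac (D.inc (Mid.th D ω hω w * t - w * Mid.th D ω hω t)
      / (D.inc t * D.inc (S28.twist ω t))) (t * S28.twist ω t)
      (Mid.th D ω hω w * t - w * Mid.th D ω hω t) := by
    refine ⟨by rw [map_mul]; exact mul_ne_zero ht ht', ?_⟩
    rw [map_mul D.inc t, mul_div_cancel₀ _ (mul_ne_zero h1 h2)]
  have hmem : D.inc (Mid.th D ω hω w * t - w * Mid.th D ω hω t)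
      / (D.inc t * D.inc (S28.twist ω t)) ∈ D.LamRing := D.mem_LamRing.2 ⟨_, _, hfr⟩
  refine ⟨_, hmem, ?_, ?_⟩
  · have hY : Y = D.inc w / D.inc t := by rw [← hw, mul_div_cancel_left₀ _ h1]
    have hC : HahnSeries.C (algebraMap R K ((ω : R) - 1)) = D.inc (HahnSeries.C ((ω : R) - 1)) := by
      rw [QData.inc, coeffMap_C]
    have e1 : D.inc (S28.twist ω w) = D.inc w + D.inc (HahnSeries.C ((ω : R) - 1))
        * D.inc (Mid.th D ω hω w) := by
      rw [← map_mul, ← Mid.twist_sub, ← map_add]; congr 1; ring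
    have e2 : D.inc (S28.twist ω t) = D.inc t + D.inc (HahnSeries.C ((ω : R) - 1))
        * D.inc (Mid.th D ω hω t) := by
      rw [← map_mul, ← Mid.twist_sub, ← map_add]; congr 1; ring
    have e3 : D.inc (Mid.th D ω hω w * t - w * Mid.th D ω hω t)
        = D.inc (Mid.th D ω hω w) * D.inc t - D.inc w * D.inc (Mid.th D ω hω t) := by
      rw [map_sub, map_mul, map_mul]
    rw [hY, map_div₀, ← GNorm.inc_twist, ← GNorm.inc_twist, hC, e3,
      div_sub_div _ _ h2 h1, mul_div_assoc', div_eq_div_iff (mul_ne_zero h2 h1) (mul_ne_zero h1 h2),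
      e1, e2]
    ring
  · have r1 := QData.rho_eq (f := ⟨_, hmem⟩) hfr
    have r2 := QData.rho_eq (f := ⟨Y, D.mem_LamRing.2 ⟨t, w, ht, hw⟩⟩) (⟨ht, hw⟩ : D.IsFrac Y t w)
    rw [r1]
    refine Eq.trans ?_ (congrArg tht r2).symm
    rw [tht_div _ _ ht, map_sub, map_mul, map_mul, map_mul, GNorm.red_twist ω hω, red_th, red_th]

end Fermat.Agent.S36.ValTh
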