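import Fermat.Agent.S36.ValTh

/-!
# S36, G-REG, [VAL-θ], part 2 : the product of the differences `Y(T) - Y(ζ ^ b T)`
-/

set_option autoImplicit false
set_option linter.unusedSectionVars false

noncomputable section

namespace Fermat.Agent.S36.ValTh

open ModularCurve Polynomial
open Fermat.Agent.S34 Fermat.Agent.S35 Fermat.Agent.ES.QE Fermat.Agent.ES.Model

variable {R K k : Type*} [CommRing R] [IsDomain R] [IsNoetherianRing R] [IsIntegrallyClosed R]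
  [Field K] [Algebra R K] [IsFractionRing R K] [Field k]

variable {D : QData R K k}

theorem res_pow_eq_one (ζ : Rˣ) (hζ : D.res ζ = 1) (n : ℕ) : D.res ((ζ ^ n : Rˣ) : R) = 1 := by
  rw [Units.val_pow_eq_pow_val, map_pow, hζ, one_pow]

/-- a finite product version of `exists_th`. -/
theorem exists_prod_aux (ζ : Rˣ) (hζ : D.res ζ = 1) {Y : LaurentSeries K} (hY : Y ∈ D.LamRing)
    (n : ℕ) :
    ∃ (G : LaurentSeries K) (hG : G ∈ D.LamRing),
      ∏ b ∈ Finset.range n, (Y - S28.twist (GNorm.uK (ζ ^ (b + 1))) Y)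
        = HahnSeries.C (algebraMap R K (∏ b ∈ Finset.range n, (1 - (ζ : R) ^ (b + 1)))) * G ∧
      D.rho ⟨G, hG⟩ = tht (D.rho ⟨Y, hY⟩) ^ n := by
  induction n with
  | zero =>
    refine ⟨1, D.LamRing.one_mem, by simp, ?_⟩
    rw [pow_zero]
    exact map_one D.rho
  | succ n ih =>
    obtain ⟨G, hG, h1, h2⟩ := ih
    obtain ⟨Th, hTh, h3, h4⟩ := exists_th (ζ ^ (n + 1)) (res_pow_eq_one ζ hζ _) hY
    refine ⟨G * Th, D.LamRing.mul_mem hG hTh, ?_, ?_⟩
    · have h5 : Y - S28.twist (GNorm.uK (ζ ^ (n + 1))) Y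
          = HahnSeries.C (algebraMap R K (1 - (ζ : R) ^ (n + 1))) * Th := by
        rw [← neg_sub, h3, Units.val_pow_eq_pow_val, ← neg_mul, ← map_neg HahnSeries.C, ← map_neg,
          neg_sub]
      rw [Finset.prod_range_succ, Finset.prod_range_succ, h1, h5, map_mul, map_mul]
      ring
    · have : (⟨G * Th, D.LamRing.mul_mem hG hTh⟩ : D.LamRing) = ⟨G, hG⟩ * ⟨Th, hTh⟩ := rfl
      rw [this, map_mul, h2, h4, pow_succ]

/-- **`∏_{b = 1}^{q - 1} (Y(T) - Y(ζ ^ b T)) = q * G`, `ρ G = (θ (ρ Y)) ^ (q - 1)`.** -/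
theorem exists_prod {q : ℕ} (hq : 0 < q) (ζ : Rˣ) (hζ : D.res ζ = 1)
    (hprim : IsPrimitiveRoot (ζ : R) q) {Y : LaurentSeries K} (hY : Y ∈ D.LamRing) :
    ∃ (G : LaurentSeries K) (hG : G ∈ D.LamRing),
      ∏ b ∈ Finset.range (q - 1), (Y - S28.twist (GNorm.uK (ζ ^ (b + 1))) Y)
        = (q : LaurentSeries K) * G ∧
      D.rho ⟨G, hG⟩ = tht (D.rho ⟨Y, hY⟩) ^ (q - 1) := by
  obtain ⟨n, rfl⟩ : ∃ n, q = n + 1 := ⟨q - 1, by omega⟩
  obtain ⟨G, hG, h1, h2⟩ := exists_prod_aux ζ hζ hY n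
  refine ⟨G, hG, ?_, h2⟩
  rw [Nat.add_sub_cancel, h1, hprim.prod_one_sub_pow_eq_order]
  congr 1
  have : ((n : R) + 1) = ((n + 1 : ℕ) : R) := by push_cast; rfl
  rw [this, map_natCast, map_natCast]

end Fermat.Agent.S36.ValTh
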