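import Fermat.Agent.S36.Defs

/-!
# S36, block W : the interface between the algebra (`Main36`) and the finite level (`Fix`, `Asm36`)
-/

set_option autoImplicit false

noncomputable section

namespace Fermat.Agent.S36

open Fermat.Agent.ES Fermat.Agent.S24 Fermat.Agent.S16 Fermat.Agent.S31 Fermat.Agent.S30
  Fermat.Agent.S30.FinLvl Fermat.Agent.S35 CuspForm CongruenceSubgroup ModularCurve AlgebraicCurve

/-- what is needed at a prime `q` with `q² ∥ N`: an integral matrix `θ` commuting with the Hecke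
algebra and with Galois, not killing the `χ`-eigenlattice, and such that the inertia invariants of
the image of `θ` at all finite levels are killed by a fixed integer `c0 > 0`. -/
def Good2 {p N : ℕ} [NeZero N] {S : Set ℕ} (D : FinData p N S) (𝒪' : Type) [CommRing 𝒪']
    (χ : heckeAlgebra N 2 S →+* 𝒪') (q : ℕ) : Prop :=
  ∃ θ : Matrix (Fin D.d) (Fin D.d) ℤ,
    (∀ t, θ * D.τ t = D.τ t * θ) ∧
    (∀ (r : ℕ) (g : GQ), toO (ZMod (p ^ r)) θ * D.α r g = D.α r g * toO (ZMod (p ^ r)) θ) ∧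
    (∃ v : Fin D.d → 𝒪', (∀ t, (toO 𝒪' (D.τ t)).mulVec v = χ t • v) ∧
      (toO 𝒪' θ).mulVec v ≠ 0) ∧
    ∃ A : ValuationSubring Kb, A.LiesOverPrime q ∧ ∃ c0 : ℕ, 0 < c0 ∧
      ∀ (r : ℕ) (x : Fin D.d → ZMod (p ^ r)),
        (∀ σ ∈ A.inertiaSubgroupIn ℚ,
          (D.α r σ).mulVec ((toO (ZMod (p ^ r)) θ).mulVec x) = (toO (ZMod (p ^ r)) θ).mulVec x) →
        c0 • (toO (ZMod (p ^ r)) θ).mulVec x = 0

end Fermat.Agent.S36
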