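import Fermat.Agent.S35.HKHecke
import Fermat.Agent.S35.HKNorm

/-!
# S36, package W4 (part A) : the norm along `α_q : FF M → FF (M q)` for `q ∣ M`

`[FF (M q) : FF M] = q`, the `q` conjugates, base change along `β_ℓ`, commutation with the
multiplicative Hecke operators `heckeMul _ ℓ`, `ℓ ∤ M q`.
-/

set_option autoImplicit false
set_option linter.style.haveILetI false
set_option linter.unusedSectionVars false

noncomputable section

namespace Fermat.Agent.S36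

open ModularCurve AlgebraicCurve Fermat.Agent.S24 Fermat.Agent.ES Fermat.Agent.S35
open P2MW.S_ModularForm_heckeT_slash_eq_self_of_mem_Gamma0.ModularForm.HeckeSlashInvariance
open UpperHalfPlane ModularForm Matrix.SpecialLinearGroup
open scoped MatrixGroups
open HKH

namespace WN

/-- the degree of `α_q` is `q` if `q ∣ M`. -/
theorem finrank_alpha_of_dvd (M q : ℕ) [NeZero M] [Fact q.Prime] (hqM : q ∣ M) :
    finrankAlong Kb (heckeAlphaBar Kb M q) = q := by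
  have hq : q.Prime := Fact.out
  haveI : NeZero q := ⟨hq.ne_zero⟩
  haveI : NeZero (M * q) := ⟨mul_ne_zero (NeZero.ne M) (NeZero.ne q)⟩
  have h1 := KDeg.finrank_tower (heckeAlphaBar Kb M q) (jF M)
  rw [KDeg.heckeAlpha_jF, finrank_FF, finrank_FF,
    Fermat.Agent.S20.PartC1.index_Gamma0_mul M q hq, if_pos hqM, mul_comm] at h1
  exact Nat.eq_of_mul_eq_mul_right
    (Nat.pos_of_ne_zero (Subgroup.FiniteIndex.index_ne_zero (H := CongruenceSubgroup.Gamma0 M))) h1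

/-- representatives of `Γ₀(M q) \ Γ₀(M)` for `q ∣ M`. -/
def gy (M q : ℕ) (b : ZMod q) : SL(2, ℤ) :=
  ⟨!![1, 0; (M : ℤ) * (b.val : ℤ), 1], by rw [Matrix.det_fin_two_of]; ring⟩

lemma gy_00 (M q : ℕ) (b : ZMod q) : gy M q b 0 0 = 1 := rfl
lemma gy_01 (M q : ℕ) (b : ZMod q) : gy M q b 0 1 = 0 := rfl
lemma gy_10 (M q : ℕ) (b : ZMod q) : gy M q b 1 0 = (M : ℤ) * (b.val : ℤ) := rfl
lemma gy_11 (M q : ℕ) (b : ZMod q) : gy M q b 1 1 = 1 := rfl

lemma gy_mem (M q : ℕ) (b : ZMod q) : gy M q b ∈ CongruenceSubgroup.Gamma0 M := by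
  rw [CongruenceSubgroup.Gamma0_mem, gy_10]
  simp

lemma gy_injective {M q : ℕ} [NeZero M] [NeZero q] {b b' : ZMod q}
    (h : gy M q b * (gy M q b')⁻¹ ∈ CongruenceSubgroup.Gamma0 (M * q)) : b = b' := by
  have h2 : (gy M q b * (gy M q b')⁻¹) 1 0
      = gy M q b 1 0 * gy M q b' 1 1 - gy M q b 1 1 * gy M q b' 1 0 := by
    simp [Matrix.SpecialLinearGroup.coe_inv, Matrix.adjugate_fin_two, Matrix.mul_apply,
      Fin.sum_univ_two]
    ring
  rw [CongruenceSubgroup.Gamma0_mem, ZMod.intCast_zmod_eq_zero_iff_dvd, h2, gy_10, gy_10, gy_11,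
    gy_11] at h
  have h3 : ((M * q : ℕ) : ℤ) ∣ (M : ℤ) * ((b.val : ℤ) - (b'.val : ℤ)) := by
    have : (M : ℤ) * (b.val : ℤ) * 1 - 1 * ((M : ℤ) * (b'.val : ℤ))
        = (M : ℤ) * ((b.val : ℤ) - (b'.val : ℤ)) := by ring
    rwa [this] at h
  rw [Nat.cast_mul] at h3
  have h4 : (q : ℤ) ∣ (b.val : ℤ) - (b'.val : ℤ) :=
    Int.dvd_of_mul_dvd_mul_left (by exact_mod_cast NeZero.ne M) h3
  have h5 : (((b.val : ℤ) - (b'.val : ℤ) : ℤ) : ZMod q) = 0 :=
    (ZMod.intCast_zmod_eq_zero_iff_dvd _ _).2 h4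
  push_cast at h5
  rw [ZMod.natCast_zmod_val, ZMod.natCast_zmod_val] at h5
  exact sub_eq_zero.1 h5

section emb

variable (M q : ℕ) [NeZero M] [Fact q.Prime]

/-- the `q` embeddings of `FF (M q)` over `FF M`. -/
def tauA (b : ZMod q) : FF (M * q) →+* Mer := sigma (M * q) (gy M q b)⁻¹

lemma tauA_alpha (b : ZMod q) (y : FF M) :
    tauA M q b (heckeAlphaBar Kb M q y) = Psi M y := by
  rw [tauA, sigma_apply, KEmb.Psi_alpha, KEmb.act_Psi_of_mem M (inv_mem (gy_mem M q b))]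

lemma tauA_injective : Function.Injective (tauA M q) := by
  haveI : NeZero q := ⟨(Fact.out : q.Prime).ne_zero⟩
  haveI : NeZero (M * q) := ⟨mul_ne_zero (NeZero.ne M) (NeZero.ne q)⟩
  intro x y h
  rw [tauA, tauA, sigma_eq_iff, inv_inv] at h
  exact gy_injective h

theorem Psi_normA (hqM : q ∣ M) (y : FF (M * q)) :
    Psi M (normA M q y) = ∏ b : ZMod q, tauA M q b y := by
  unfold normA
  letI := algebraAlong (heckeAlphaBar Kb M q)
  have hfr : Module.finrank (FF M) (FF (M * q)) = q := finrank_alpha_of_dvd M q hqM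
  haveI : FiniteDimensional (FF M) (FF (M * q)) :=
    Module.finite_of_finrank_pos (by rw [hfr]; exact (Fact.out : q.Prime).pos)
  have hcard : Fintype.card (ZMod q) = Module.finrank (FF M) (FF (M * q)) := by
    rw [hfr, ZMod.card]
  exact KEmb.norm_eq_prod (Psi M) (tauA M q) (tauA_injective M q)
    (fun x c => tauA_alpha M q x c) hcard y

end emb

section NBC

variable (M q ℓ : ℕ) [NeZero M] [Fact q.Prime] [Fact ℓ.Prime]

lemma diag_mul_gy (b : ZMod q) :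
    heckeDiagMatrix ℓ * mapGL ℝ (gy (M * ℓ) q b) = mapGL ℝ (gy M q b) * heckeDiagMatrix ℓ := by
  have hℓ : ℓ ≠ 0 := (Fact.out : ℓ.Prime).ne_zero
  ext i j
  fin_cases i <;> fin_cases j <;>
    simp [hℓ, Matrix.mul_apply, Fin.sum_univ_two, gy]
  ring

theorem tauA_betaC (b : ZMod q) (u : FF (M * q)) :
    tauA (M * ℓ) q b (betaC M q ℓ u) =
      merMap (heckeDiagMatrix ℓ) (det_heckeDiagMatrix_pos ℓ) (tauA M q b u) := by
  have hg' := diag_mul_gy M q ℓ b
  have hpos : 0 < (heckeDiagMatrix ℓ * mapGL ℝ (gy (M * ℓ) q b)).det.val := by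
    rw [map_mul, Units.val_mul]
    exact mul_pos (det_heckeDiagMatrix_pos ℓ) (KEmb.det_mapGL_pos _)
  have hpos' : 0 < (mapGL ℝ (gy M q b) * heckeDiagMatrix ℓ).det.val := by
    rw [map_mul, Units.val_mul]
    exact mul_pos (KEmb.det_mapGL_pos _) (det_heckeDiagMatrix_pos ℓ)
  rw [tauA, tauA, sigma_apply, betaC_apply, Psi_castFF, KEmb.Psi_beta, KEmb.act_eq_merMap,
    KEmb.merMap_comp _ _ _ _ hpos, KEmb.merMap_congr hg' hpos hpos',
    ← KEmb.merMap_comp _ _ (det_heckeDiagMatrix_pos ℓ) (KEmb.det_mapGL_pos _) hpos',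
    ← KEmb.act_eq_merMap, ← sigma_apply]

/-- **NBC** along `α`, `q ∣ M`. -/
theorem nbcA (hqM : q ∣ M) (u : FF (M * q)) :
    normA (M * ℓ) q (betaC M q ℓ u) = heckeBetaBar Kb M ℓ (normA M q u) := by
  apply (Psi (M * ℓ)).injective
  rw [Psi_normA (M * ℓ) q (hqM.mul_right ℓ), KEmb.Psi_beta, Psi_normA M q hqM, map_prod]
  exact Finset.prod_congr rfl fun b _ => tauA_betaC M q ℓ b u

end NBC

end WN

open WN in
/-- the norm along `α_q`, `q ∣ M`, commutes with the Hecke operators. -/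
theorem normA_heckeMul_of_dvd (M q ℓ : ℕ) [NeZero M] [NeZero (M * q)] [Fact q.Prime]
    [Fact ℓ.Prime] (hqM : q ∣ M) (hℓ : ¬ ℓ ∣ M * q) (u : FF (M * q)) :
    normA M q (heckeMul (M * q) ℓ u) = heckeMul M ℓ (normA M q u) := by
  have h1 := norm_tower (heckeAlphaBar Kb M q).toRingHom (heckeAlphaBar Kb (M * q) ℓ).toRingHom
    (heckeAlphaBar Kb M ℓ).toRingHom (heckeAlphaBar Kb (M * ℓ) q).toRingHom
    (castFF (lvl_eq M q ℓ)).toRingEquiv (fun x => Subtype.ext (by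
      show ((castFF (lvl_eq M q ℓ) (heckeAlphaBar Kb (M * q) ℓ (heckeAlphaBar Kb M q x)) :
        FF (M * ℓ * q)) : LaurentSeries Kb) =
        ((heckeAlphaBar Kb (M * ℓ) q (heckeAlphaBar Kb M ℓ x) : FF (M * ℓ * q)) :
          LaurentSeries Kb)
      rw [coe_castFF, coe_heckeAlphaBar, coe_heckeAlphaBar, coe_heckeAlphaBar,
        coe_heckeAlphaBar])) (heckeBetaBar Kb (M * q) ℓ u)
  have h2 := WN.nbcA M q ℓ hqM u
  refine Eq.trans h1 ?_
  rw [heckeMul_apply, ← h2]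
  rfl

end Fermat.Agent.S36
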