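import Fermat.Agent.S36.WNormB
import Fermat.Agent.S35.Find

/-!
# S36, package W4 : **FIND** at the level `M₀ q²`

An operator `Φ` on the Kummer classes of level `M₀ q²` killing the classes with trivial norms to
the level `M₀ q` kills the image of every `t₀` with `(t₀, 0) ∈ PP (M₀ q) q`.
-/

set_option autoImplicit false

noncomputable section

namespace Fermat.Agent.S36

open Fermat.Agent.ES Fermat.Agent.S24 Fermat.Agent.S16 Fermat.Agent.S31 Fermat.Agent.S30
  Fermat.Agent.S30.FinLvl Fermat.Agent.S35 CuspForm CongruenceSubgroup ModularCurve AlgebraicCurve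

/-- **FIND** at the level `M₀ q²`, all the hypotheses on the norms discharged. -/
theorem mat_mul_eq_zero_sq (m M0 q : ℕ) [NeZero m] [NeZero M0] [NeZero (M0 * q)]
    [NeZero (M0 * q * q)] [Fact q.Prime] (hqM0 : ¬ q ∣ M0)
    (Φ : Module.End (ZMod m) (KV m (M0 * q * q)))
    (hΦ : ∀ u : pdivUnits m (M0 * q * q),
      (∃ z, normA (M0 * q) q ((u : (FF (M0 * q * q))ˣ) : FF (M0 * q * q)) = z ^ m) →
      (∃ z, normB (M0 * q) q ((u : (FF (M0 * q * q))ˣ) : FF (M0 * q * q)) = z ^ m) →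
      Φ (KV.mk u) = 0)
    (t0 : TN (M0 * q) q) (ht0 : (t0, 0) ∈ PP (M0 * q) q) :
    mat (eqv (bN (M0 * q * q)) m) Φ
      * toO (ZMod m) (tau (bN (M0 * q * q)) (S0 (M0 * q * q)) t0) = 0 :=
  Find.mat_mul_eq_zero_of m (M0 * q) q (fun _ hu => isPDiv_normA' m (M0 * q) q hu)
    (fun _ hu => isPDiv_normB' m (M0 * q) q hu)
    (fun ℓ _ hℓ u => normA_heckeMul_sq M0 q ℓ hℓ u)
    (fun ℓ _ hℓ u => normB_heckeMul_sq M0 q ℓ hqM0 hℓ u) Φ hΦ t0 ht0

end Fermat.Agent.S36
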